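import Mathlib

/-!
# TW-E / E-K0 : Artin induction modulo `p` for additive functions  (INTERFACE)

Mathlib-only.  Goal (`StmtK0`): if `φ : Rep (ZMod p) Γ → ℤ` (`Γ` a finite group) is invariant under
isomorphism and additive on short exact sequences of finite-dimensional representations, and
`φ` vanishes on every representation coinduced from a cyclic subgroup of order prime to `p`,
then `φ` vanishes on every finite-dimensional representation.

Consumer: TW-E (global Euler characteristic formula), with
`φ B = χ(G_S, B) - h⁰(G_ℝ, B) + dim B`.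

Pieces (each a `Prop` below; see `NOTES/TW-E-K0.md` for the table of owners):

* `StmtJH`         (K1a) Jordan–Hölder multiplicities with values of additive functions and
                   characteristic polynomials;
* `StmtTraceIndep` (K1b) traces of pairwise non-isomorphic simple representations are
                   linearly independent *with a unit on the diagonal* (Jacobson density,
                   little Wedderburn, surjectivity of the trace of finite fields);
* `StmtDescent`    (K1d) pure polynomial algebra: the `p`-adic descent;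
* `StmtBN`         (K1)  Brauer–Nesbitt;
* `StmtPermCharpoly` (K2) characteristic polynomial of a permutation representation is
                   determined by the numbers of fixed points of the powers;
* `StmtMarks`      (K3) Artin's induction theorem on `p`-regular elements, for marks;
* `StmtHomPerm`    (K4) `ψ = φ (B ⊗ -)` (or `φ (Hom(-, B))`);
* `StmtSigmaAdd`   (K5) additive functions on permutation representations of disjoint unions.
-/

namespace Fermat.Agent.TW.E

open CategoryTheory

/-- An isomorphism-invariant function on `Rep k Γ` which is additive on short exact sequences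
with finite-dimensional middle term. -/
structure IsAddFun {k Γ : Type} [Field k] [Group Γ] (φ : Rep.{0} k Γ → ℤ) : Prop where
  iso : ∀ M N : Rep.{0} k Γ, Nonempty (M ≅ N) → φ M = φ N
  add : ∀ (M' M M'' : Rep.{0} k Γ) (f : M' ⟶ M) (g : M ⟶ M''), Module.Finite k M.V →
    Function.Injective f.hom → Function.Surjective g.hom → Function.Exact f.hom g.hom →
    φ M = φ M' + φ M''

/-- The characteristic polynomial of `g` acting on `M` (`1` if `M` is not finite-dimensional). -/
noncomputable def repCharpoly {k Γ : Type} [Field k] [Group Γ] (M : Rep.{0} k Γ) (g : Γ) :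
    Polynomial k :=
  open Classical in
  if h : Module.Finite k M.V then @LinearMap.charpoly k M.V _ _ _ _ h (M.ρ g) else 1

/-- Finite-dimensional irreducible representations. -/
def IsSimpleRep {k Γ : Type} [Field k] [Group Γ] (M : Rep.{0} k Γ) : Prop :=
  Module.Finite k M.V ∧ Representation.IsIrreducible M.ρ

/-- The chosen representative of the isomorphism class of `M`. -/
noncomputable def canonRep {k Γ : Type} [Field k] [Group Γ] (M : Rep.{0} k Γ) : Rep.{0} k Γ :=
  (Quotient.mk (isIsomorphicSetoid (Rep.{0} k Γ)) M).out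

/-- The simple representations which are the chosen representatives of their classes. -/
def SimpleCanon (k Γ : Type) [Field k] [Group Γ] : Type 1 :=
  {M : Rep.{0} k Γ // IsSimpleRep M ∧ canonRep M = M}

/-! ## The final statement -/

/-- **E-K0.** Artin induction modulo `p` for additive functions. -/
def StmtK0 : Prop :=
  ∀ (p : ℕ) [Fact p.Prime] (Γ : Type) [Group Γ] [Finite Γ] (φ : Rep.{0} (ZMod p) Γ → ℤ),
    IsAddFun φ →
    (∀ C : Subgroup Γ, IsCyclic C → (Nat.card C).Coprime p →
      ∀ M : Rep.{0} (ZMod p) C, Module.Finite (ZMod p) M.V → φ (Rep.coind C.subtype M) = 0) →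
    ∀ B : Rep.{0} (ZMod p) Γ, Module.Finite (ZMod p) B.V → φ B = 0

/-! ## K1 : Brauer–Nesbitt -/

/-- **K1.** Brauer–Nesbitt: two finite-dimensional representations over `𝔽_p` on which every
`p`-regular element has the same characteristic polynomial have the same value under every
additive function. -/
def StmtBN : Prop :=
  ∀ (p : ℕ) [Fact p.Prime] (Γ : Type) [Group Γ] [Finite Γ] (φ : Rep.{0} (ZMod p) Γ → ℤ),
    IsAddFun φ → ∀ M N : Rep.{0} (ZMod p) Γ,
    Module.Finite (ZMod p) M.V → Module.Finite (ZMod p) N.V →
    (∀ g : Γ, (orderOf g).Coprime p → repCharpoly M g = repCharpoly N g) → φ M = φ N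

/-- **K1a.** Jordan–Hölder multiplicities (any field, any group). -/
def StmtJH : Prop :=
  ∀ (k Γ : Type) [Field k] [Group Γ] (M : Rep.{0} k Γ), Module.Finite k M.V →
    ∃ m : SimpleCanon k Γ →₀ ℕ,
      (∀ φ : Rep.{0} k Γ → ℤ, IsAddFun φ → φ M = m.sum fun S e => (e : ℤ) * φ S.1) ∧
      (∀ g : Γ, repCharpoly M g = m.prod fun S e => repCharpoly S.1 g ^ e)

/-- **K1b.** Independence of the traces of pairwise non-isomorphic simple representations of a
finite group over `𝔽_p`, with diagonal value `1`. -/
def StmtTraceIndep : Prop :=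
  ∀ (p : ℕ) [Fact p.Prime] (Γ : Type) [Group Γ] [Fintype Γ] (ι : Type) [Finite ι]
    (T : ι → Rep.{0} (ZMod p) Γ), (∀ i, IsSimpleRep (T i)) →
    (∀ i j, Nonempty (T i ≅ T j) → i = j) → ∀ i₀ : ι,
    ∃ a : Γ → ZMod p,
      (∑ g, a g * LinearMap.trace (ZMod p) (T i₀).V ((T i₀).ρ g) = 1) ∧
      ∀ i, i ≠ i₀ → ∑ g, a g * LinearMap.trace (ZMod p) (T i).V ((T i).ρ g) = 0

/-- **K1d.** The descent, pure polynomial algebra over `𝔽_p`. -/
def StmtDescent : Prop :=
  ∀ (p : ℕ) [Fact p.Prime] (G : Type) [Fintype G] (ι : Type 1)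
    (P : ι → G → Polynomial (ZMod p)), (∀ i g, (P i g).Monic) →
    (∀ (F : Finset ι) (i₀ : ι), i₀ ∈ F → ∃ a : G → ZMod p,
        (∑ g, a g * (P i₀ g).nextCoeff = 1) ∧
        ∀ i ∈ F, i ≠ i₀ → ∑ g, a g * (P i g).nextCoeff = 0) →
    ∀ m n : ι →₀ ℕ,
      (∀ g, (m.prod fun i e => P i g ^ e) = n.prod fun i e => P i g ^ e) → m = n

/-! ## K2, K3 : permutation representations and marks -/

/-- **K2.** The characteristic polynomial of `g` on a permutation representation only depends on
the numbers of fixed points of the powers of `g`. -/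
def StmtPermCharpoly : Prop :=
  ∀ (k Γ : Type) [Field k] [Group Γ] (X Y : Type) [Finite X] [Finite Y]
    [MulAction Γ X] [MulAction Γ Y] (g : Γ),
    (∀ e : ℕ, Nat.card (MulAction.fixedBy X (g ^ e)) = Nat.card (MulAction.fixedBy Y (g ^ e))) →
    repCharpoly (Rep.ofMulAction k Γ X) g = repCharpoly (Rep.ofMulAction k Γ Y) g

/-- **K3.** Artin induction for marks on `p`-regular elements: a positive multiple of the trivial
mark is an integral combination of the marks of `Γ ⧸ C`, `C` cyclic of order prime to `p`. -/
def StmtMarks : Prop :=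
  ∀ (p : ℕ) [Fact p.Prime] (Γ : Type) [Group Γ] [Finite Γ],
    ∃ (n : ℕ) (Cpos Cneg : List (Subgroup Γ)), 0 < n ∧
      (∀ C ∈ Cpos ++ Cneg, IsCyclic C ∧ (Nat.card C).Coprime p) ∧
      ∀ g : Γ, (orderOf g).Coprime p →
        n + (Cneg.map fun C => Nat.card (MulAction.fixedBy (Γ ⧸ C) g)).sum =
          (Cpos.map fun C => Nat.card (MulAction.fixedBy (Γ ⧸ C) g)).sum

/-! ## K4, K5 -/

/-- **K4.** For an additive `φ` and a finite-dimensional `B` there is an additive `ψ`
(`ψ M = φ (B ⊗ M)` or `φ (Hom_k(M, B))`) whose value on the permutation representation of `Γ ⧸ C`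
is `φ (coind_C^Γ res_C B)` and whose value on that of a point is `φ B`. -/
def StmtHomPerm : Prop :=
  ∀ (k Γ : Type) [Field k] [Group Γ] [Finite Γ] (φ : Rep.{0} k Γ → ℤ), IsAddFun φ →
    ∀ B : Rep.{0} k Γ, Module.Finite k B.V →
    ∃ ψ : Rep.{0} k Γ → ℤ, IsAddFun ψ ∧
      (∀ C : Subgroup Γ, ψ (Rep.ofMulAction k Γ (Γ ⧸ C)) =
        φ (Rep.coind C.subtype (Rep.res C.subtype B))) ∧
      ψ (Rep.ofMulAction k Γ (Γ ⧸ (⊤ : Subgroup Γ))) = φ B

/-- **K5.** An additive function on the permutation representation of a finite disjoint union of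
finite `Γ`-sets is the sum of its values on the pieces. -/
def StmtSigmaAdd : Prop :=
  ∀ (k Γ : Type) [Field k] [Group Γ] (ψ : Rep.{0} k Γ → ℤ), IsAddFun ψ →
    ∀ (ι : Type) [Fintype ι] (X : ι → Type) [∀ i, Finite (X i)] [∀ i, MulAction Γ (X i)],
      ψ (Rep.ofMulAction k Γ (Σ i, X i)) = ∑ i, ψ (Rep.ofMulAction k Γ (X i))

end Fermat.Agent.TW.E
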