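/-
Project TW (S56, captain helper63) — part TW-E (sub-captain helper69):
THE GLOBAL EULER CHARACTERISTIC.   INTERFACE FILE 1: block E-add (χ is additive).
Definitions and statements only.  Mathematics and piece table: NOTES/TW-E.md.

Target of TW-E (file Plan3.lean): for the concrete datum, every finite `𝔽_p[G_{ℚ,S}]`-module `B`:
  `h⁰(B) + h²_lev(B) + dim B = h¹_lev(B) + dim B^{c}`   (`c` = complex conjugation).
Route (Tate): (1) `χ = h⁰ - h¹ + h²` is ADDITIVE in short exact sequences [this file];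
(2) Artin induction mod `p` (`stmtK0`, DONE, TW/E/K0Final.lean); (3) the formula for modules
coinduced from subgroups of order prime to `p` [Plan2.lean].

Block E-add.  Everything is stated on cochain FUNCTIONS with values in `Hom_ℤ(M, Y) = (M.V →+ Y.V)`,
`M = ℤ[Ω]` a permutation lattice (`Ω` a finite `G`-set on which a level acts trivially), exactly as
the inputs `In1 … In4` of PT/F/SeqPlan.lean (`conjAdd`, `dZero`, `dOne`).
A piece `X` is DONE when `theorem stmtX : StmtX` (or `stmtX_of : … → StmtX`) is landed in its own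
file `Fermat/Agent/TW/E/<File>.lean`, namespace `Fermat.Agent.TW.E`, sorry-free, names prefixed.
-/
import Fermat.Agent.PT.F.SeqPlan
import Fermat.Agent.TW.F.Plan
import Fermat.Agent.TW.E.K0Plan

set_option autoImplicit false

noncomputable section

namespace Fermat.Agent.TW.E

open CategoryTheory groupCohomology Module Fermat.Agent.PT Fermat.Agent.PT.F Fermat.Agent.TW.F

/-! ### Degree 3 -/

section Defs

variable {G : Type} [Group G]

/-- `f : G × G × G → X` is right-invariant (in all variables) under some member of the tower. -/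
def IsLevel₃ (𝒯 : Tower G) {X : Type*} (f : G × G × G → X) : Prop :=
  ∃ U ∈ 𝒯.lev, ∀ g g' g'' s s' s'' : G, s ∈ U → s' ∈ U → s'' ∈ U →
    f (g * s, g' * s', g'' * s'') = f (g, g', g'')

/-- The coboundary of a 2-cochain with values in `Hom_ℤ(M, Y)`:
`(σ, τ, ρ) ↦ σ y(τ, ρ) σ⁻¹ - y(στ, ρ) + y(σ, τρ) - y(σ, τ)`. -/
def dTwo (M Y : Rep.{0} ℤ G) (y : G × G → (M.V →+ Y.V)) (s : G × G × G) : M.V →+ Y.V :=
  conjAdd M Y s.1 (y (s.2.1, s.2.2)) - y (s.1 * s.2.1, s.2.2) + y (s.1, s.2.1 * s.2.2)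
    - y (s.1, s.2.1)

/-- The coboundary of a 3-cochain with values in `Hom_ℤ(M, Y)`:
`(σ, τ, ρ, κ) ↦ σ z(τ, ρ, κ) σ⁻¹ - z(στ, ρ, κ) + z(σ, τρ, κ) - z(σ, τ, ρκ) + z(σ, τ, ρ)`. -/
def dThree (M Y : Rep.{0} ℤ G) (z : G × G × G → (M.V →+ Y.V)) (s : G × G × G × G) :
    M.V →+ Y.V :=
  conjAdd M Y s.1 (z (s.2.1, s.2.2.1, s.2.2.2)) - z (s.1 * s.2.1, s.2.2.1, s.2.2.2)
    + z (s.1, s.2.1 * s.2.2.1, s.2.2.2) - z (s.1, s.2.1, s.2.2.1 * s.2.2.2)
    + z (s.1, s.2.1, s.2.2.1)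

/-- The coboundary of a 3-cochain with values in a representation. -/
def dThreeRep {k : Type} [CommRing k] (A : Rep.{0} k G) (z : G × G × G → A.V)
    (s : G × G × G × G) : A.V :=
  A.ρ s.1 (z (s.2.1, s.2.2.1, s.2.2.2)) - z (s.1 * s.2.1, s.2.2.1, s.2.2.2)
    + z (s.1, s.2.1 * s.2.2.1, s.2.2.2) - z (s.1, s.2.1, s.2.2.1 * s.2.2.2)
    + z (s.1, s.2.1, s.2.2.1)

/-- A finite `G`-set on which some level acts trivially. -/
def IsLevSet (𝒯 : Tower G) (Ω : Type) [MulAction G Ω] : Prop :=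
  ∃ U ∈ 𝒯.lev, ∀ s ∈ U, ∀ ω : Ω, s • ω = ω

/-- The permutation lattice `ℤ[Ω]`. -/
abbrev permZ (G : Type) [Group G] (Ω : Type) [MulAction G Ω] : Rep.{0} ℤ G :=
  Rep.ofMulAction ℤ G Ω

end Defs

section Datum

variable {p : ℕ} {G : Type} [Group G] {ι : Type} {Gloc : ι → Type} [∀ v, Group (Gloc v)]

/-- **(HasPDepthGlob)** the NEW datum hypothesis of TW-E: below every GLOBAL level there is a
normal GLOBAL level whose LOCAL index at `v` is divisible by `p`, for every `v`.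
(Not to be confused with `Fermat.Agent.TW.F.HasPDepth` of TW/F/PlanH2.lean, which speaks about the
BIG local towers `𝒯loc v`; both hold for the concrete datum, see `StmtPDepthTower` in Plan3.lean.)
(Concretely: the cyclotomic `ℤ_p`-extension of `ℚ` is unramified outside `p ∈ S` and no prime
splits completely in it.) -/
def HasPDepthGlob (D : PTDatum p G ι Gloc) : Prop :=
  ∀ (v : ι), ∀ U ∈ D.𝒯.lev, ∃ U' ∈ D.𝒯.lev, U' ≤ U ∧ U'.Normal ∧
    p ∣ (U'.comap (D.r v)).relIndex (U.comap (D.r v))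

/-- **(In5)** `H³_lev(G, Hom_ℤ(M, J))` has no `p`-torsion: a level 3-cocycle killed by `p` is the
coboundary of a level 2-cochain, up to a multiple prime to `p`. -/
def In5 (D : PTDatum p G ι Gloc) (M : Rep.{0} ℤ G) : Prop :=
  ∀ z : G × G × G → (M.V →+ (PTJ D).V), IsLevel₃ D.𝒯 z → (∀ s, dThree M (PTJ D) z s = 0) →
    (∀ s, p • z s = 0) →
    ∃ n : ℕ, ¬ p ∣ n ∧ ∃ y : G × G → (M.V →+ (PTJ D).V), IsLevel₂ D.𝒯 y ∧
      ∀ s, n • z s = dTwo M (PTJ D) y s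

/-- **(In6)** `H²_lev(G, Hom_ℤ(M, J))` is `p`-divisible (up to multiples prime to `p`). -/
def In6 (D : PTDatum p G ι Gloc) (M : Rep.{0} ℤ G) : Prop :=
  ∀ y : G × G → (M.V →+ (PTJ D).V), IsLevel₂ D.𝒯 y → (∀ s, dTwo M (PTJ D) y s = 0) →
    ∃ n : ℕ, ¬ p ∣ n ∧ ∃ w : G × G → (M.V →+ (PTJ D).V), IsLevel₂ D.𝒯 w ∧
      (∀ s, dTwo M (PTJ D) w s = 0) ∧
      ∃ t : G → (M.V →+ (PTJ D).V), IsLevel₁ D.𝒯 t ∧
        ∀ s, n • y s = p • w s + dOne M (PTJ D) t s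

/-- **(In7)** `H²_lev(G, Hom_ℤ(M, J)) → H²_lev(G, Hom_ℤ(M, C))` is onto, up to multiples prime
to `p`. -/
def In7 (D : PTDatum p G ι Gloc) (M : Rep.{0} ℤ G) : Prop :=
  ∀ c : G × G → (M.V →+ D.C.V), IsLevel₂ D.𝒯 c → (∀ s, dTwo M D.C c s = 0) →
    ∃ n : ℕ, ¬ p ∣ n ∧ ∃ w : G × G → (M.V →+ (PTJ D).V), IsLevel₂ D.𝒯 w ∧
      (∀ s, dTwo M (PTJ D) w s = 0) ∧
      ∃ t : G → (M.V →+ D.C.V), IsLevel₁ D.𝒯 t ∧
        ∀ s, n • c s = (homAdd D.π).comp (w s) + dOne M D.C t s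

/-- **(In7p)** the same on classes killed by `p`: a level 2-cocycle of `Hom_ℤ(M, C)` whose
`p`-th multiple is a level coboundary is, up to a prime-to-`p` multiple and a level coboundary,
the image of a level 2-cocycle of `Hom_ℤ(M, J)` whose `p`-th multiple is a level coboundary. -/
def In7p (D : PTDatum p G ι Gloc) (M : Rep.{0} ℤ G) : Prop :=
  ∀ c : G × G → (M.V →+ D.C.V), IsLevel₂ D.𝒯 c → (∀ s, dTwo M D.C c s = 0) →
    (∃ t₀ : G → (M.V →+ D.C.V), IsLevel₁ D.𝒯 t₀ ∧ ∀ s, p • c s = dOne M D.C t₀ s) →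
    ∃ n : ℕ, ¬ p ∣ n ∧ ∃ w : G × G → (M.V →+ (PTJ D).V), IsLevel₂ D.𝒯 w ∧
      (∀ s, dTwo M (PTJ D) w s = 0) ∧
      (∃ t₁ : G → (M.V →+ (PTJ D).V), IsLevel₁ D.𝒯 t₁ ∧ ∀ s, p • w s = dOne M (PTJ D) t₁ s) ∧
      ∃ t : G → (M.V →+ D.C.V), IsLevel₁ D.𝒯 t ∧
        ∀ s, n • c s = (homAdd D.π).comp (w s) + dOne M D.C t s

end Datum

/-! ### The pieces of block E-add -/

/-- **A0 (In1 for permutation lattices).** `H¹_lev(G, Hom_ℤ(ℤ[Ω], C))` is prime-to-`p` torsion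
for EVERY finite level set `Ω` (PT-F proved it for free `Ω`: `StmtPermSh1` + `stmtIn1b`; in
general the stabilisers are subgroups containing a level, and `cm_glob.h1` holds for all
`p`-subgroups of all finite quotients). -/
def StmtIn1Perm : Prop :=
  ∀ (p : ℕ) [Fact p.Prime] (G : Type) [Group G] (ι : Type) [Fintype ι] (Gloc : ι → Type)
    [∀ v, Group (Gloc v)] (D : PTDatum p G ι Gloc)
    (Ω : Type) [Fintype Ω] [MulAction G Ω], IsLevSet D.𝒯 Ω → In1 D (permZ G Ω)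

/-- **A1 (finite groups; Tate–Nakayama one degree up).** If `Y` has a `p`-fundamental class then
`H³(Γ, Y)` has no `p`-torsion.  (Sylow [`stmtSylow`, all degrees] reduces to a `p`-group `Π` with
a fundamental class; there `H³(Π, Y) ≅ H¹(Π, ℤ) = 0` by the splitting module
`0 → Y → A → I → 0`, `0 → I → ℤ[Π] → ℤ → 0` [PT/A/SplitModule.lean] and cohomological triviality of
`A` in degree 3 [twin criterion: induction on `|Π|`, inflation–restriction in degree 3, periodicity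
for cyclic groups: Mathlib `FiniteCyclic.lean`].) -/
def StmtH3Fund : Prop :=
  ∀ (p : ℕ) [Fact p.Prime] (Γ : Type) [Group Γ] [Fintype Γ] (Y : Rep.{0} ℤ Γ) (u : H2 Y),
    IsPFundClass p Y u → ∀ x : groupCohomology Y 3, IsPTors p x → x = 0

/-- **A1'.** The same for every subgroup and every permutation lattice: `H³(H, Hom_ℤ(ℤ[Ω], Y))`
has no `p`-torsion (`Hom_ℤ(ℤ[Ω], Y) = ∏_{orbits} coind Y`, Shapiro in degree 3 = Mathlib
`groupCohomology.coindIso`). -/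
def StmtH3FundPerm : Prop :=
  ∀ (p : ℕ) [Fact p.Prime] (Γ : Type) [Group Γ] [Fintype Γ] (Y : Rep.{0} ℤ Γ) (u : H2 Y),
    IsPFundClass p Y u → ∀ (Ω : Type) [Fintype Ω] [MulAction Γ Ω]
      (x : groupCohomology (homRep (Rep.ofMulAction ℤ Γ Ω) Y) 3), IsPTors p x → x = 0

/-- **A3 (J3).** `In5` for permutation lattices (descent of level 3-cocycles to a finite level,
`J^U = ∏_v coind_{D_v}^{G/U} J_v^{V}`, `StmtH3FundPerm` for `(D_v, J_v^V)` from `cm_loc`). -/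
def StmtJ3 : Prop :=
  ∀ (p : ℕ) [Fact p.Prime] (G : Type) [Group G] (ι : Type) [Fintype ι] (Gloc : ι → Type)
    [∀ v, Group (Gloc v)] (D : PTDatum p G ι Gloc)
    (Ω : Type) [Fintype Ω] [MulAction G Ω], IsLevSet D.𝒯 Ω → In5 D (permZ G Ω)

/-- **A4 (J2div).** `In6` for permutation lattices, from `HasPDepthGlob` (at a finite level the
`p`-part of `H²(H, J_v^V)` is cyclic of order `|H|_p`; an element of smaller order is a `p`-th
multiple; pass to a deeper level). -/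
def StmtJ2Div : Prop :=
  ∀ (p : ℕ) [Fact p.Prime] (G : Type) [Group G] (ι : Type) [Fintype ι] (Gloc : ι → Type)
    [∀ v, Group (Gloc v)] (D : PTDatum p G ι Gloc), HasPDepthGlob D →
    ∀ (Ω : Type) [Fintype Ω] [MulAction G Ω], IsLevSet D.𝒯 Ω → In6 D (permZ G Ω)

/-- **A5 (C2surj).** `In7` and `In7p` for the trivial lattice `ℤ` (`Ω = PUnit`), from `surv`,
`HasPDepthGlob`, `levH2_pTorsion_cyclic` and `In6` (NOTES/TW-E.md §A5). -/
def StmtC2Surj : Prop :=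
  ∀ (p : ℕ) [Fact p.Prime] (G : Type) [Group G] (ι : Type) [Fintype ι] [Nonempty ι]
    (Gloc : ι → Type) [∀ v, Group (Gloc v)] (D : PTDatum p G ι Gloc), HasPDepthGlob D →
    In7 D (Rep.trivial ℤ G ℤ) ∧ In7p D (Rep.trivial ℤ G ℤ)

/-- **A5' (C2surj for `ℤ[Ω]`, `p ∤ |Ω|`).** `In7` and `In7p` for a transitive `Ω` of cardinality
prime to `p` (the constant-function map `ι : C → Hom(ℤ[Ω], C)` and the trace `tr` satisfy
`tr ∘ ι = |Ω|`; the `p`-part of `H²_lev(G, Hom(ℤ[Ω], C))` is cyclic at every finite level, so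
`ι_*` is onto the `p`-primary part). -/
def StmtC2SurjPerm : Prop :=
  ∀ (p : ℕ) [Fact p.Prime] (G : Type) [Group G] (ι : Type) [Fintype ι] [Nonempty ι]
    (Gloc : ι → Type) [∀ v, Group (Gloc v)] (D : PTDatum p G ι Gloc), HasPDepthGlob D →
    ∀ (Ω : Type) [Fintype Ω] [MulAction G Ω], IsLevSet D.𝒯 Ω → MulAction.IsPretransitive G Ω →
      ¬ p ∣ Fintype.card Ω → In7 D (permZ G Ω) ∧ In7p D (permZ G Ω)

/-- **A6a (E3).** CHASE in `0 → E → J → C → 0`: `In5 + In7 ⇒` a level 3-cocycle of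
`Hom_ℤ(M, E)` killed by `p` is a level coboundary up to a multiple prime to `p`.
(`M` is `ℤ`-free of finite rank: additive maps `M → C` lift to `M → J` by `π_surj`.) -/
def StmtE3 : Prop :=
  ∀ (p : ℕ) [Fact p.Prime] (G : Type) [Group G] (ι : Type) [Fintype ι] (Gloc : ι → Type)
    [∀ v, Group (Gloc v)] (D : PTDatum p G ι Gloc)
    (Ω : Type) [Fintype Ω] [MulAction G Ω], IsLevSet D.𝒯 Ω →
    In5 D (permZ G Ω) → In7 D (permZ G Ω) →
    ∀ z : G × G × G → ((permZ G Ω).V →+ D.E.V), IsLevel₃ D.𝒯 z →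
      (∀ s, dThree (permZ G Ω) D.E z s = 0) → (∀ s, p • z s = 0) →
      ∃ n : ℕ, ¬ p ∣ n ∧ ∃ y : G × G → ((permZ G Ω).V →+ D.E.V), IsLevel₂ D.𝒯 y ∧
        ∀ s, n • z s = dTwo (permZ G Ω) D.E y s

/-- **A6b (E2div).** CHASE: `In6 + In7p + In1 ⇒ H²_lev(G, Hom_ℤ(M, E))` is `p`-divisible up to
multiples prime to `p`. -/
def StmtE2Div : Prop :=
  ∀ (p : ℕ) [Fact p.Prime] (G : Type) [Group G] (ι : Type) [Fintype ι] (Gloc : ι → Type)
    [∀ v, Group (Gloc v)] (D : PTDatum p G ι Gloc)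
    (Ω : Type) [Fintype Ω] [MulAction G Ω], IsLevSet D.𝒯 Ω →
    In1 D (permZ G Ω) → In6 D (permZ G Ω) → In7p D (permZ G Ω) →
    ∀ y : G × G → ((permZ G Ω).V →+ D.E.V), IsLevel₂ D.𝒯 y →
      (∀ s, dTwo (permZ G Ω) D.E y s = 0) →
      ∃ n : ℕ, ¬ p ∣ n ∧ ∃ w : G × G → ((permZ G Ω).V →+ D.E.V), IsLevel₂ D.𝒯 w ∧
        (∀ s, dTwo (permZ G Ω) D.E w s = 0) ∧
        ∃ t : G → ((permZ G Ω).V →+ D.E.V), IsLevel₁ D.𝒯 t ∧
          ∀ s, n • y s = p • w s + dOne (permZ G Ω) D.E t s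

/-- **A7 (Mu3; Kummer chase).** `E3 + E2div + E_div ⇒ H³_lev(G, Hom_ℤ(M, μ_p)) = 0`: a level
3-cocycle of `Hom_ℤ(M, E)` killed by `p` is `d` of a level 2-cochain KILLED BY `p`. -/
def StmtMu3 : Prop :=
  ∀ (p : ℕ) [Fact p.Prime] (G : Type) [Group G] (ι : Type) [Fintype ι] [Nonempty ι]
    (Gloc : ι → Type) [∀ v, Group (Gloc v)] (D : PTDatum p G ι Gloc), HasPDepthGlob D →
    ∀ (Ω : Type) [Fintype Ω] [MulAction G Ω], IsLevSet D.𝒯 Ω → MulAction.IsPretransitive G Ω →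
      ¬ p ∣ Fintype.card Ω →
    ∀ z : G × G × G → ((permZ G Ω).V →+ D.E.V), IsLevel₃ D.𝒯 z →
      (∀ s, dThree (permZ G Ω) D.E z s = 0) → (∀ s, p • z s = 0) →
      ∃ y : G × G → ((permZ G Ω).V →+ D.E.V), IsLevel₂ D.𝒯 y ∧ (∀ s, p • y s = 0) ∧
        ∀ s, z s = dTwo (permZ G Ω) D.E y s

/-- **A8 (H2surj).** For a surjection `f : B → B₂` of finite `𝔽_p[G]`-modules trivial on a
level, every level 2-cocycle of `B₂` is `f ∘ (level 2-cocycle of B)` up to a level coboundary.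
(Transfer to a Sylow subgroup `P̄` of `G/U₀` through the `G`-maps `B → Hom(ℤ[Ω], B) → B`,
`Ω = (G/U₀)/P̄`; the kernel of `Hom(ℤ[Ω], B) → Hom(ℤ[Ω], B₂)` has a filtration with quotients
`≅ Hom_ℤ(ℤ[Ω], μ_p)`; obstruction cocycles die by `StmtMu3`.  NOTES/TW-E.md §A8.) -/
def StmtH2Surj : Prop :=
  ∀ (p : ℕ) [Fact p.Prime] (G : Type) [Group G] (ι : Type) [Fintype ι] [Nonempty ι]
    (Gloc : ι → Type) [∀ v, Group (Gloc v)] (D : PTDatum p G ι Gloc), HasPDepthGlob D →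
    ∀ (B B₂ : Rep.{0} (ZMod p) G) [FiniteDimensional (ZMod p) B] [FiniteDimensional (ZMod p) B₂]
      (f : B ⟶ B₂), Function.Surjective f.hom → TrivOnLevel D.𝒯 B →
    ∀ w₂ : G × G → B₂.V, w₂ ∈ levCocycles₂ D.𝒯 B₂ →
      ∃ w : G × G → B.V, w ∈ levCocycles₂ D.𝒯 B ∧
        (fun s => f.hom (w s)) - w₂ ∈ levCoboundaries₂ D.𝒯 B₂

/-- **A9 (fin2).** `H²_lev(G, B)` is finite-dimensional. -/
def StmtH2Fin : Prop :=
  ∀ (p : ℕ) [Fact p.Prime] (G : Type) [Group G] (ι : Type) [Fintype ι] [Nonempty ι]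
    (Gloc : ι → Type) [∀ v, Group (Gloc v)] (D : PTDatum p G ι Gloc), HasPDepthGlob D →
    ∀ (B : Rep.{0} (ZMod p) G) [FiniteDimensional (ZMod p) B], TrivOnLevel D.𝒯 B →
      FiniteDimensional (ZMod p) (levH2 D.𝒯 B)

/-- **E-add (target of the block).** The Euler characteristic of level cohomology is additive:
for `0 → B₁ → B → B₂ → 0`,  `χ(B) = χ(B₁) + χ(B₂)`, written without subtraction. -/
def StmtAdd : Prop :=
  ∀ (p : ℕ) [Fact p.Prime] (G : Type) [Group G] (ι : Type) [Fintype ι] [Nonempty ι]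
    (Gloc : ι → Type) [∀ v, Group (Gloc v)] (D : PTDatum p G ι Gloc), HasPDepthGlob D →
    ∀ (B₁ B B₂ : Rep.{0} (ZMod p) G) [FiniteDimensional (ZMod p) B]
      (f : B₁ ⟶ B) (g : B ⟶ B₂), Function.Injective f.hom → Function.Surjective g.hom →
      Function.Exact f.hom g.hom → TrivOnLevel D.𝒯 B →
      (finrank (ZMod p) ↥(B.ρ.invariants) + finrank (ZMod p) (levH2 D.𝒯 B) +
          finrank (ZMod p) ↥(levH1 D.𝒯 B₁) + finrank (ZMod p) ↥(levH1 D.𝒯 B₂) : ℕ) =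
        finrank (ZMod p) ↥(levH1 D.𝒯 B) +
          (finrank (ZMod p) ↥(B₁.ρ.invariants) + finrank (ZMod p) (levH2 D.𝒯 B₁)) +
          (finrank (ZMod p) ↥(B₂.ρ.invariants) + finrank (ZMod p) (levH2 D.𝒯 B₂))

end Fermat.Agent.TW.E

end
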