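/-
Project TW (S56) — part TW-E (sub-captain helper69): THE GLOBAL EULER CHARACTERISTIC.
INTERFACE FILE 3: the target `StmtEC`, the concrete input `StmtPDepthTower`, the target of block
E-cyc `StmtCyc`, and the assembly.  Statements only.  Mathematics: NOTES/TW-E.md.

Level cohomology only depends on the tower `towerS S`, so the statements do not mention the datum;
the PROOFS use `concreteDatum p hp2 S hpS hcg hcl hh hex hsv` (PT/B/Instance.lean), whence the five
hypotheses `StmtCmGlob … StmtSurvC`.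
-/
import Fermat.Agent.TW.E.Plan
import Fermat.Agent.PT.B.Instance
import Fermat.Prelude.Def_GaloisRep_ComplexConjugation

set_option autoImplicit false

noncomputable section

namespace Fermat.Agent.TW.E

open CategoryTheory groupCohomology Module Fermat.Agent.PT Fermat.Agent.PT.F Fermat.Agent.PT.B
  Fermat.Agent.TW.F ExtCitation

/-- The Euler characteristic formula for one module `B` (over the tower `towerS S`):
`H²_lev` is finite-dimensional and `h⁰ + h² + dim B = h¹ + dim B^{c}`,
`c` = complex conjugation (`archimedeanLoc`). -/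
def ECFormula (p : ℕ) [Fact p.Prime] (S : Finset Nat.Primes) (B : Rep.{0} (ZMod p) GQ) : Prop :=
  FiniteDimensional (ZMod p) (levH2 (towerS S) B) ∧
    finrank (ZMod p) ↥(B.ρ.invariants) + finrank (ZMod p) (levH2 (towerS S) B) +
        finrank (ZMod p) B.V =
      finrank (ZMod p) ↥(levH1 (towerS S) B) +
        finrank (ZMod p) ↥((Rep.res archimedeanLoc B).ρ.invariants)

/-- **TW-E, THE TARGET: the global Euler characteristic formula** (Tate).
For `p` odd, `p ∈ S`, every finite-dimensional `𝔽_p`-representation `B` of `G_ℚ` which is trivial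
on a level of `towerS S`:  `h⁰ - h¹ + h² (G_{ℚ,S}, B) = dim B^{c} - dim B`. -/
def StmtEC : Prop :=
  ∀ (p : ℕ) [Fact p.Prime], p ≠ 2 → ∀ (S : Finset Nat.Primes), pPrime p ∈ S →
    StmtCmGlob → StmtCmLoc → StmtH90Loc → StmtExistC → StmtSurvC →
    ∀ (B : Rep.{0} (ZMod p) GQ) [FiniteDimensional (ZMod p) B], TrivOnLevel (towerS S) B →
      ECFormula p S B

/-- The form consumed by TW-F route 1 (helper63): `h⁰(B) + h²(B) + (dim B - dim B^c) ≤ h¹(B)`. -/
def StmtECle : Prop :=
  ∀ (p : ℕ) [Fact p.Prime], p ≠ 2 → ∀ (S : Finset Nat.Primes), pPrime p ∈ S →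
    StmtCmGlob → StmtCmLoc → StmtH90Loc → StmtExistC → StmtSurvC →
    ∀ (B : Rep.{0} (ZMod p) GQ) [FiniteDimensional (ZMod p) B], TrivOnLevel (towerS S) B →
      FiniteDimensional (ZMod p) (levH2 (towerS S) B) ∧
        finrank (ZMod p) ↥(B.ρ.invariants) + finrank (ZMod p) (levH2 (towerS S) B) +
            (finrank (ZMod p) B.V -
              finrank (ZMod p) ↥((Rep.res archimedeanLoc B).ρ.invariants)) ≤
          finrank (ZMod p) ↥(levH1 (towerS S) B)

/-- **Y-depth** (`HasPDepthGlob` for the concrete towers): below every level `Gal(ℚ̄/F)`, `F`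
unramified outside `S ∋ p`, there is a normal one whose local index at `q ∈ S` is divisible by
`p`.  (Take `F' ⊇ F·ℚ(ζ_{p^n})`, Galois, `n` large: the decomposition group of `q` in
`Gal(ℚ(ζ_{p^n})/ℚ)` has order divisible by `p^{n-c}`, and `[F_w : ℚ_q]` is bounded.) -/
def StmtPDepthTower : Prop :=
  ∀ (p : ℕ) [Fact p.Prime] (S : Finset Nat.Primes), pPrime p ∈ S → ∀ (q : ↥S),
    ∀ U ∈ (towerS S).lev, ∃ U' ∈ (towerS S).lev, U' ≤ U ∧ U'.Normal ∧
      p ∣ (U'.comap (rS S q)).relIndex (U.comap (rS S q))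

/-- **E-cyc (target of the block of helper75).** The formula for the modules coinduced from a
cyclic subgroup `C` of order prime to `p` of a finite quotient `G_ℚ ⧸ U₀`.
The proof may assume `StmtAdd` (additivity) and `StmtPDepthTower`: use `stmtCyc_of`. -/
def StmtCyc : Prop :=
  ∀ (p : ℕ) [Fact p.Prime], p ≠ 2 → ∀ (S : Finset Nat.Primes), pPrime p ∈ S →
    StmtCmGlob → StmtCmLoc → StmtH90Loc → StmtExistC → StmtSurvC →
    ∀ (U₀ : Subgroup GQ) [U₀.Normal], U₀ ∈ (towerS S).lev →
    ∀ (C : Subgroup (GQ ⧸ U₀)), IsCyclic C → (Nat.card C).Coprime p →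
    ∀ (M : Rep.{0} (ZMod p) C), Module.Finite (ZMod p) M.V →
      ECFormula p S (Rep.res (QuotientGroup.mk' U₀) (Rep.coind C.subtype M))

/-- **E-asm.** Assembly: additivity + Artin induction (`stmtK0`) + E-cyc ⇒ (EC).
`φ(B̄) := h⁰ - h¹ + h² (infl B̄) + dim B̄ - dim B̄^c` on `Rep (ZMod p) (G_ℚ ⧸ U₀)` is
isomorphism-invariant and additive (`StmtAdd`; the dimension of the `c`-invariants is additive
because `p` is odd), and vanishes on the coinduced modules (`StmtCyc`). -/
def StmtAsm : Prop :=
  StmtAdd → StmtH2Fin → StmtPDepthTower → StmtCyc → StmtK0 → StmtEC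

end Fermat.Agent.TW.E

end
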