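/-
TW-E piece Y-depth (helper35): the concrete pulled-back `p`-depth of the towers `towerS S`.

`stmtPDepthTower : StmtPDepthTower`: below every level `U = Gal(ℚ̄/F)` of `towerS S` (`p ∈ S`)
there is a normal level `U'` such that the local index `[r_q⁻¹ U : r_q⁻¹ U']` at `q ∈ S` is
divisible by `p`.

Proof.  Let `U₁ ≤ U` be a normal level, `d = [G_ℚ : U₁]`, so `g^d ∈ U` for all `g`.
Let `a = q` if `q ≠ p` and `a = 1 + p` if `q = p`, `A = a^(d(p-1)) ≥ 2`, `n := A` (`p^n > A`), and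
let `U' ≤ U₁ ∩ Gal(ℚ̄/ℚ(μ_{p^n}))` be a normal level.  There is `τ ∈ G_{ℚ_q}` whose image in `G_ℚ`
raises the `p^n`-th roots of unity to the `a`-th power: a Frobenius element for `q ≠ p`
(`TW.L.stmtFrobExists`), and for `q = p` a lift to the inertia group of `ζ ↦ ζ^(1+p)`
(`Common.exists_mem_inertiaSubgroupIn_of_congr`, the integers of `ℚ(ζ)` are `ℤ[ζ]` and
`ζ ≡ 1`), which comes from `G_{ℚ_p}` (`TW.L.stmtDecFull`).
`k := τ^(d(p-1))` lies in `r_q⁻¹ U`.  If `p ∤ m := [r_q⁻¹U : r_q⁻¹U']` then `k^m ∈ r_q⁻¹ U'` fixes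
`ζ`, so `A^m ≡ 1 mod p^n`; also `A^(p^(n-1)) ≡ 1` (Euler), hence `A ≡ 1 mod p^n`, but
`1 < A < p^n`.
-/
import Fermat.Agent.TW.E.Plan3
import Fermat.Agent.TW.L.FrobExistsFinal
import Fermat.Agent.PT.B.CycloField
import Fermat.Agent.S33.DetCyclo

set_option autoImplicit false

namespace Fermat.Agent.TW.E

open ExtCitation Fermat.Agent.PT Fermat.Agent.PT.B Fermat.Agent.TW.L

/-! ### Arithmetic -/

/-- the arithmetic heart: `A = a^(e(p-1))`, `1 < A < p^n`, `A^m ≡ 1 mod p^n` force `p ∣ m` -/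
theorem ydep_arith {p a e n m : ℕ} (hp : p.Prime) (ha : Nat.Coprime a p) (ha2 : 2 ≤ a)
    (he : 0 < e) (hn : a ^ (e * (p - 1)) < p ^ n) (hm : ¬ p ∣ m)
    (h : (a ^ (e * (p - 1))) ^ m ≡ 1 [MOD p ^ n]) : False := by
  set A : ℕ := a ^ (e * (p - 1)) with hA
  have hp1 : 0 < p - 1 := Nat.sub_pos_of_lt hp.one_lt
  have hA2 : 2 ≤ A := by
    have h1 : a ^ 1 ≤ a ^ (e * (p - 1)) :=
      Nat.pow_le_pow_right (by omega) (Nat.mul_pos he hp1)
    rw [pow_one] at h1
    omega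
  have hn0 : n ≠ 0 := by
    rintro rfl
    rw [pow_zero] at hn
    omega
  obtain ⟨n', rfl⟩ := Nat.exists_eq_succ_of_ne_zero hn0
  set N : ℕ := p ^ (n' + 1) with hN
  set x : ZMod N := ((A : ℕ) : ZMod N) with hx
  have hxm : x ^ m = 1 := by
    have := (ZMod.natCast_eq_natCast_iff (A ^ m) 1 N).mpr h
    rw [Nat.cast_pow, Nat.cast_one] at this
    exact this
  have hxp : x ^ (p ^ n') = 1 := by
    have hcop : Nat.Coprime a N := Nat.Coprime.pow_right _ ha
    have h1 := Nat.ModEq.pow_totient hcop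
    rw [hN, Nat.totient_prime_pow hp (Nat.succ_pos n'), Nat.succ_sub_one] at h1
    have h2 := (ZMod.natCast_eq_natCast_iff _ 1 N).mpr h1
    rw [Nat.cast_pow, Nat.cast_one] at h2
    rw [hx, hA, Nat.cast_pow, ← pow_mul]
    have e1 : e * (p - 1) * p ^ n' = (p ^ n' * (p - 1)) * e := by ring
    rw [e1, pow_mul, h2, one_pow]
  have ho1 : orderOf x ∣ m := orderOf_dvd_of_pow_eq_one hxm
  have ho2 : orderOf x ∣ p ^ n' := orderOf_dvd_of_pow_eq_one hxp
  have hcop : Nat.Coprime m (p ^ n') :=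
    Nat.Coprime.pow_right _ ((Nat.Prime.coprime_iff_not_dvd hp).mpr hm).symm
  have ho : orderOf x = 1 := Nat.eq_one_of_dvd_coprimes hcop ho1 ho2
  have hx1 : x = 1 := orderOf_eq_one_iff.mp ho
  have h3 : A ≡ 1 [MOD N] := by
    apply (ZMod.natCast_eq_natCast_iff A 1 N).mp
    rw [Nat.cast_one]
    exact hx1
  have h4 : N ∣ A - 1 := (Nat.modEq_iff_dvd' (by omega)).mp h3.symm
  have h5 : N ≤ A - 1 := Nat.le_of_dvd (by omega) h4
  omega

/-! ### Roots of unity -/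

/-- iterating an automorphism which raises the `M`-th roots of unity to the `a`-th power -/
theorem ydep_pow_root (σ : GQ) (a M : ℕ)
    (h : ∀ x : AlgebraicClosure ℚ, x ^ M = 1 → σ x = x ^ a) (j : ℕ) :
    ∀ x : AlgebraicClosure ℚ, x ^ M = 1 → (σ ^ j) x = x ^ (a ^ j) := by
  induction j with
  | zero => intro x _; simp
  | succ j ih =>
    intro x hx
    rw [pow_succ', AlgEquiv.mul_apply, ih x hx, map_pow, h x hx, ← pow_mul, pow_succ']

/-- a root of unity of `p`-power order is congruent to `1` at a place over `p` -/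
theorem ydep_sub_one_mem_nonunits {p : ℕ} (hp : p.Prime) (n : ℕ)
    (P : ValuationSubring (AlgebraicClosure ℚ)) (hP : P.LiesOverPrime p)
    {μ : AlgebraicClosure ℚ} (hμ : μ ^ (p ^ n) = 1) : μ - 1 ∈ P.nonunits := by
  have hpn0 : p ^ n ≠ 0 := pow_ne_zero _ hp.ne_zero
  have hμP : μ ∈ P := Fermat.Agent.S31.rootOfUnity_mem P hpn0 hμ
  have : Fact p.Prime := ⟨hp⟩
  have hp0 : ((p : ℕ) : IsLocalRing.ResidueField P) = 0 := by
    have h1 : ((p : P) : AlgebraicClosure ℚ) ∈ P.nonunits := by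
      have : ((p : P) : AlgebraicClosure ℚ) = (p : AlgebraicClosure ℚ) := by simp
      rw [this]; exact hP
    rw [ValuationSubring.coe_mem_nonunits_iff, ← IsLocalRing.residue_eq_zero_iff] at h1
    rw [← h1, map_natCast]
  have : CharP (IsLocalRing.ResidueField P) p := (CharP.charP_iff_prime_eq_zero hp).mpr hp0
  set z : P := ⟨μ, hμP⟩ with hz
  have hz1 : z ^ (p ^ n) = 1 := by
    apply Subtype.ext
    simpa using hμ
  have h2 : (IsLocalRing.residue P z - 1) ^ (p ^ n) = 0 := by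
    rw [sub_pow_char_pow, one_pow, ← map_pow, hz1, map_one, sub_self]
  have h3 : IsLocalRing.residue P (z - 1) = 0 := by
    rw [map_sub, map_one]
    exact pow_eq_zero_iff hpn0 |>.mp h2
  rw [IsLocalRing.residue_eq_zero_iff, ← ValuationSubring.coe_mem_nonunits_iff] at h3
  simpa using h3

/-! ### The cyclotomic levels -/

/-- `ℚ(μ_{p^n})` is unramified outside every `S ∋ p`. -/
theorem ydep_cyclo_unram (p : ℕ) [Fact p.Prime] (n : ℕ) (S : Finset Nat.Primes)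
    (hpS : pPrime p ∈ S) : (cycloField (p ^ n)).IsUnramifiedOutside S := by
  have hp : p.Prime := Fact.out
  have : NeZero (p ^ n) := ⟨pow_ne_zero _ hp.ne_zero⟩
  refine ⟨inferInstance, fun q hq A hA σ hσ => ?_⟩
  have hqp : (q : ℕ) ≠ p := by
    intro h
    apply hq
    have : q = pPrime p := Subtype.ext h
    rw [this]
    exact hpS
  rw [mem_fixingSubgroup_cycloField_iff]
  intro x hx
  have hM : ((p ^ n : ℕ) : AlgebraicClosure ℚ) ∉ A.nonunits :=
    Fermat.Agent.S31.natCast_pow_not_mem_nonunits A hp q.2 hqp hA n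
  exact Fermat.Agent.S31.inertia_rootOfUnity A hM (pow_ne_zero _ hp.ne_zero) hσ hx

/-! ### The local elements -/

/-- `q ≠ p`: a Frobenius element of `G_{ℚ_q}` raises the `p^n`-th roots of unity to the `q`-th
power. -/
theorem ydep_exists_frob {p : ℕ} (hp : p.Prime) (q : ℕ) [Fact q.Prime] (hqp : q ≠ p) :
    ∃ τ : GQq q, ∀ (n : ℕ) (x : AlgebraicClosure ℚ), x ^ (p ^ n) = 1 →
      localGaloisToGlobal q τ x = x ^ q := by
  have hq : q.Prime := Fact.out
  obtain ⟨φ, hφ⟩ := stmtFrobExists q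
  refine ⟨φ, fun n x hx => ?_⟩
  have hM : ((p ^ n : ℕ) : AlgebraicClosure ℚ) ∉ (padicPlace q).nonunits :=
    Fermat.Agent.S31.natCast_pow_not_mem_nonunits (padicPlace q) hp hq hqp
      (lfrobex_liesOverPrime q) n
  exact Fermat.Agent.S31.frob_rootOfUnity (padicPlace q) hM (pow_ne_zero _ hp.ne_zero) hφ hx

/-- some element of `G_ℚ` raises the `p^n`-th roots of unity to the `(1+p)`-th power -/
theorem ydep_exists_global {p : ℕ} (hp : p.Prime) (n : ℕ) :
    ∃ σ : GQ, ∀ x : AlgebraicClosure ℚ, x ^ (p ^ n) = 1 → σ x = x ^ (1 + p) := by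
  have hpn : 0 < p ^ n := pow_pos hp.pos n
  have : NeZero (p ^ n) := ⟨hpn.ne'⟩
  have : NeZero ((p ^ n : ℕ) : AlgebraicClosure ℚ) := ⟨Nat.cast_ne_zero.mpr hpn.ne'⟩
  obtain ⟨ζ, hζ⟩ := HasEnoughRootsOfUnity.exists_primitiveRoot (AlgebraicClosure ℚ) (p ^ n)
  have hcop : Nat.Coprime (1 + p) (p ^ n) := by
    apply Nat.Coprime.pow_right
    rw [Nat.coprime_comm, Nat.coprime_add_self_right]
    exact Nat.coprime_one_right p
  have hζ2 : IsPrimitiveRoot (ζ ^ (1 + p)) (p ^ n) := hζ.pow_of_coprime (1 + p) hcop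
  have hmin : minpoly ℚ ζ = Polynomial.cyclotomic (p ^ n) ℚ :=
    (Polynomial.cyclotomic_eq_minpoly_rat hζ hpn).symm
  have hroot : Polynomial.aeval (ζ ^ (1 + p)) (minpoly ℚ ζ) = 0 := by
    rw [hmin]
    have := hζ2.isRoot_cyclotomic hpn
    rw [← Polynomial.map_cyclotomic (p ^ n) (algebraMap ℚ (AlgebraicClosure ℚ))] at this
    simpa [Polynomial.aeval_def, Polynomial.eval₂_eq_eval_map, Polynomial.IsRoot.def] using this
  have hnorm := Fermat.Agent.S31.qbar_normal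
  have halg : IsAlgebraic ℚ ζ := hnorm.isAlgebraic ζ
  obtain ⟨σ, hσ⟩ := minpoly.exists_algEquiv_of_root' halg hroot
  refine ⟨σ, fun x hx => ?_⟩
  obtain ⟨i, -, rfl⟩ := hζ.eq_pow_of_pow_eq_one hx
  rw [map_pow, hσ, ← pow_mul, ← pow_mul, mul_comm]

/-- congruence on `ℤ[ζ]`: if `σ ζ ≡ ζ` modulo the maximal ideal of `P` (`ζ` a root of unity),
then `σ x ≡ x` for all `x ∈ ℤ[ζ]` -/
theorem ydep_congr_adjoin (P : ValuationSubring (AlgebraicClosure ℚ)) (σ : GQ)
    {ζ : AlgebraicClosure ℚ} (h1 : ζ ∈ P) (h2 : σ ζ ∈ P) (h3 : σ ζ - ζ ∈ P.nonunits) :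
    ∀ x ∈ Algebra.adjoin ℤ ({ζ} : Set (AlgebraicClosure ℚ)),
      x ∈ P ∧ σ x ∈ P ∧ σ x - x ∈ P.nonunits := by
  have hval : ∀ x : AlgebraicClosure ℚ, x ∈ P.nonunits ↔ P.valuation x < 1 := fun x =>
    P.mem_nonunits_iff
  have hle : ∀ x : AlgebraicClosure ℚ, x ∈ P ↔ P.valuation x ≤ 1 := fun x =>
    (P.valuation_le_one_iff x).symm
  intro x hx
  induction hx using Algebra.adjoin_induction with
  | mem x hx =>
    rw [Set.mem_singleton_iff] at hx
    subst hx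
    exact ⟨h1, h2, h3⟩
  | algebraMap r =>
    have e1 : (algebraMap ℤ (AlgebraicClosure ℚ) r) = (r : AlgebraicClosure ℚ) := rfl
    rw [e1, map_intCast, sub_self]
    refine ⟨intCast_mem P r, intCast_mem P r, ?_⟩
    rw [hval, map_zero]
    exact zero_lt_one
  | add x y _ _ hx hy =>
    obtain ⟨hx1, hx2, hx3⟩ := hx
    obtain ⟨hy1, hy2, hy3⟩ := hy
    refine ⟨P.add_mem _ _ hx1 hy1, ?_, ?_⟩
    · rw [map_add]; exact P.add_mem _ _ hx2 hy2
    · rw [hval] at hx3 hy3 ⊢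
      have e : σ (x + y) - (x + y) = (σ x - x) + (σ y - y) := by rw [map_add]; ring
      rw [e]
      exact Valuation.map_add_lt _ hx3 hy3
  | mul x y _ _ hx hy =>
    obtain ⟨hx1, hx2, hx3⟩ := hx
    obtain ⟨hy1, hy2, hy3⟩ := hy
    refine ⟨P.mul_mem _ _ hx1 hy1, ?_, ?_⟩
    · rw [map_mul]; exact P.mul_mem _ _ hx2 hy2
    · rw [hval] at hx3 hy3 ⊢
      rw [hle] at hx1 hy2
      have e : σ (x * y) - x * y = (σ x - x) * σ y + x * (σ y - y) := by rw [map_mul]; ring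
      rw [e]
      apply Valuation.map_add_lt
      · rw [map_mul]
        calc P.valuation (σ x - x) * P.valuation (σ y)
            ≤ P.valuation (σ x - x) * 1 := mul_le_mul_right hy2 _
          _ = P.valuation (σ x - x) := mul_one _
          _ < 1 := hx3
      · rw [map_mul]
        calc P.valuation x * P.valuation (σ y - y)
            ≤ 1 * P.valuation (σ y - y) := mul_le_mul_left hx1 _
          _ = P.valuation (σ y - y) := one_mul _
          _ < 1 := hy3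

/-- `ℚ(ζ_{p^n})` is totally ramified at `p`, in the form: some element of the inertia group of a
place over `p` raises the `p^n`-th roots of unity to the `(1+p)`-th power. -/
theorem ydep_exists_inertia_global {p : ℕ} (hp : p.Prime) (n : ℕ)
    (P : ValuationSubring (AlgebraicClosure ℚ)) (hP : P.LiesOverPrime p) :
    ∃ σ ∈ P.inertiaSubgroupIn ℚ, ∀ x : AlgebraicClosure ℚ, x ^ (p ^ n) = 1 →
      σ x = x ^ (1 + p) := by
  obtain ⟨c, hc⟩ := ydep_exists_global hp n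
  have hpn : 0 < p ^ n := pow_pos hp.pos n
  have : NeZero (p ^ n) := ⟨hpn.ne'⟩
  have : NeZero ((p ^ n : ℕ) : AlgebraicClosure ℚ) := ⟨Nat.cast_ne_zero.mpr hpn.ne'⟩
  obtain ⟨ζ, hζ⟩ := HasEnoughRootsOfUnity.exists_primitiveRoot (AlgebraicClosure ℚ) (p ^ n)
  set F : IntermediateField ℚ (AlgebraicClosure ℚ) := IntermediateField.adjoin ℚ {ζ} with hF
  have hζF : ζ ∈ F := IntermediateField.mem_adjoin_simple_self ℚ ζ
  have hn := Fermat.Agent.S31.qbar_normal
  have : Algebra.IsAlgebraic ℚ (AlgebraicClosure ℚ) := hn.toIsAlgebraic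
  have : Algebra.IsIntegral ℚ (AlgebraicClosure ℚ) := Algebra.IsAlgebraic.isIntegral
  have hcyc : IsCyclotomicExtension {p ^ n} ℚ F :=
    hζ.intermediateField_adjoin_isCyclotomicExtension ℚ
  have : IsGalois ℚ F := IsCyclotomicExtension.isGalois {p ^ n} ℚ F
  have hζ1 : ζ ^ (p ^ n) = 1 := hζ.pow_eq_one
  have hζP : ζ ∈ P := Fermat.Agent.S31.rootOfUnity_mem P hpn.ne' hζ1
  have hcζ : c ζ = ζ ^ (1 + p) := hc ζ hζ1
  have hcζP : c ζ ∈ P := by rw [hcζ]; exact pow_mem hζP _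
  have hcong : c ζ - ζ ∈ P.nonunits := by
    have e : c ζ - ζ = ζ * (ζ ^ p - 1) := by rw [hcζ]; ring
    rw [e]
    have h1 : ζ ^ p - 1 ∈ P.nonunits := by
      apply ydep_sub_one_mem_nonunits hp n P hP
      rw [← pow_mul, mul_comm, pow_mul, hζ1, one_pow]
    rw [P.mem_nonunits_iff] at h1 ⊢
    rw [map_mul]
    calc P.valuation ζ * P.valuation (ζ ^ p - 1)
        ≤ 1 * P.valuation (ζ ^ p - 1) :=
          mul_le_mul_left ((P.valuation_le_one_iff ζ).mpr hζP) _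
      _ = P.valuation (ζ ^ p - 1) := one_mul _
      _ < 1 := h1
  have hind := ydep_congr_adjoin P c hζP hcζP hcong
  -- integral elements of `ℚ(ζ)` lie in `ℤ[ζ]`
  have hint : ∀ x ∈ F, IsIntegral ℤ x → x ∈ Algebra.adjoin ℤ ({ζ} : Set (AlgebraicClosure ℚ)) := by
    intro x hx hxi
    set ζ' : F := ⟨ζ, hζF⟩ with hζ'
    have hζ'prim : IsPrimitiveRoot ζ' (p ^ n) :=
      IsPrimitiveRoot.of_map_of_injective (f := algebraMap F (AlgebraicClosure ℚ))
        (by exact hζ) (algebraMap F (AlgebraicClosure ℚ)).injective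
    have hcl := IsCyclotomicExtension.Rat.isIntegralClosure_adjoin_singleton
      (n := p ^ n) (K := F) hζ'prim
    have hxi' : IsIntegral ℤ (⟨x, hx⟩ : F) := by
      have h1 : IsIntegral ℤ (algebraMap F (AlgebraicClosure ℚ) ⟨x, hx⟩) := hxi
      exact (isIntegral_algebraMap_iff (algebraMap F (AlgebraicClosure ℚ)).injective).mp h1
    obtain ⟨y, hy⟩ := hcl.isIntegral_iff.mp hxi'
    have hy' : (⟨x, hx⟩ : F) ∈ Algebra.adjoin ℤ ({ζ'} : Set F) := by
      rw [← hy]; exact y.2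
    have hmap : (Algebra.adjoin ℤ ({ζ'} : Set F)).map
        ((IsScalarTower.toAlgHom ℤ F (AlgebraicClosure ℚ))) =
        Algebra.adjoin ℤ ({ζ} : Set (AlgebraicClosure ℚ)) := by
      rw [AlgHom.map_adjoin, Set.image_singleton]
      rfl
    rw [← hmap]
    exact ⟨⟨x, hx⟩, hy', rfl⟩
  obtain ⟨σ', hσ', hagree⟩ := Fermat.Agent.Common.exists_mem_inertiaSubgroupIn_of_congr F p hp P hP
    c (fun x hx hxi => (hind x (hint x hx hxi)).2.2)
  refine ⟨σ', hσ', fun μ hμ => ?_⟩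
  obtain ⟨i, -, rfl⟩ := hζ.eq_pow_of_pow_eq_one hμ
  rw [hagree _ (pow_mem hζF i), hc _ hμ]

/-- `q = p`: some element of `G_{ℚ_p}` raises the `p^n`-th roots of unity to the `(1+p)`-th
power. -/
theorem ydep_exists_inertia (p : ℕ) [Fact p.Prime] (n : ℕ) :
    ∃ τ : GQq p, ∀ x : AlgebraicClosure ℚ, x ^ (p ^ n) = 1 →
      localGaloisToGlobal p τ x = x ^ (1 + p) := by
  have hp : p.Prime := Fact.out
  obtain ⟨σ, hσI, hσ⟩ := ydep_exists_inertia_global hp n (padicPlace p) (lfrobex_liesOverPrime p)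
  have hσD : σ ∈ (padicPlace p).decompositionSubgroup ℚ := by
    obtain ⟨s, -, rfl⟩ := hσI
    exact s.2
  obtain ⟨τ, hτ⟩ := stmtDecFull p σ hσD
  exact ⟨τ, fun x hx => by rw [hτ]; exact hσ x hx⟩

/-- both cases: there is `a ≥ 2` prime to `p` such that for every `n` some element of `G_{ℚ_q}`
raises the `p^n`-th roots of unity to the `a`-th power -/
theorem ydep_exists_local (p : ℕ) [Fact p.Prime] (q : ℕ) [Fact q.Prime] :
    ∃ a : ℕ, 2 ≤ a ∧ Nat.Coprime a p ∧ ∀ n : ℕ, ∃ τ : GQq q,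
      ∀ x : AlgebraicClosure ℚ, x ^ (p ^ n) = 1 → localGaloisToGlobal q τ x = x ^ a := by
  have hp : p.Prime := Fact.out
  have hq : q.Prime := Fact.out
  by_cases hqp : q = p
  · subst hqp
    refine ⟨1 + q, by have := hp.two_le; omega, ?_, fun n => ydep_exists_inertia q n⟩
    rw [Nat.coprime_add_self_left]
    exact Nat.coprime_one_left q
  · obtain ⟨τ, hτ⟩ := ydep_exists_frob hp q hqp
    exact ⟨q, hq.two_le, (Nat.coprime_primes hq hp).mpr hqp, fun n => ⟨τ, hτ n⟩⟩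

/-! ### The depth -/

/-- **Y-depth**. -/
theorem stmtPDepthTower : StmtPDepthTower := by
  intro p _ S hpS q U hU
  have hp : p.Prime := Fact.out
  have hqF : Fact ((q.1 : Nat.Primes) : ℕ).Prime := ⟨q.1.2⟩
  -- a normal level below `U`
  obtain ⟨U₁, hU₁, hU₁U, hU₁n⟩ := (towerS S).exists_normal U hU
  have hU₁f : U₁.FiniteIndex := (towerS S).finiteIndex U₁ hU₁
  set d : ℕ := U₁.index with hd
  have hd0 : 0 < d := Nat.pos_of_ne_zero hU₁f.index_ne_zero
  -- the local element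
  obtain ⟨a, ha2, hacop, hτ⟩ := ydep_exists_local p ((q.1 : Nat.Primes) : ℕ)
  set A : ℕ := a ^ (d * (p - 1)) with hA
  have hAn : A < p ^ A := Nat.lt_pow_self hp.one_lt
  obtain ⟨τ₀, hτx⟩ := hτ A
  -- the cyclotomic level
  have hC : (cycloField (p ^ A)).fixingSubgroup ∈ (towerS S).lev :=
    ⟨cycloField (p ^ A), ydep_cyclo_unram p A S hpS, rfl⟩
  obtain ⟨U', hU', hU'le, hU'n⟩ := (towerS S).exists_normal _ ((towerS S).inf_mem _ _ hU₁ hC)
  refine ⟨U', hU', hU'le.trans (inf_le_left.trans hU₁U), hU'n, ?_⟩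
  by_contra hm
  -- the element `k = τ^(d(p-1))`
  set r : GlocS S q →* GQ := rS S q with hr
  let τ : GlocS S q := τ₀
  have hrτ : ∀ x : AlgebraicClosure ℚ, x ^ (p ^ A) = 1 → r τ x = x ^ a := hτx
  have hkU : τ ^ (d * (p - 1)) ∈ U.comap r := by
    rw [Subgroup.mem_comap, map_pow, pow_mul]
    exact hU₁U (U₁.pow_mem (U₁.pow_index_mem (r τ)) _)
  have hN : (U'.comap r).Normal := hU'n.comap r
  have hkm := Subgroup.pow_relIndex_mem (U'.comap r) hkU
  set m : ℕ := (U'.comap r).relIndex (U.comap r) with hmdef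
  have hfix : (r τ) ^ (d * (p - 1) * m) ∈ (cycloField (p ^ A)).fixingSubgroup := by
    have h1 : r ((τ ^ (d * (p - 1))) ^ m) ∈ U' := hkm
    rw [← pow_mul, map_pow] at h1
    exact (hU'le h1).2
  -- a primitive root
  have hpn : 0 < p ^ A := pow_pos hp.pos A
  have : NeZero ((p ^ A : ℕ) : AlgebraicClosure ℚ) := ⟨Nat.cast_ne_zero.mpr hpn.ne'⟩
  obtain ⟨ζ, hζ⟩ := HasEnoughRootsOfUnity.exists_primitiveRoot (AlgebraicClosure ℚ) (p ^ A)
  have hζ1 := hζ.pow_eq_one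
  have h2 : ((r τ) ^ (d * (p - 1) * m)) ζ = ζ :=
    (mem_fixingSubgroup_cycloField_iff _).mp hfix ζ hζ1
  rw [ydep_pow_root (r τ) a (p ^ A) hrτ _ ζ hζ1] at h2
  have hpos : 1 ≤ a ^ (d * (p - 1) * m) := Nat.one_le_pow _ _ (by omega)
  have h3 : ζ ^ (a ^ (d * (p - 1) * m) - 1) = 1 := by
    have hζ0 : ζ ≠ 0 := hζ.ne_zero hpn.ne'
    have : ζ ^ (a ^ (d * (p - 1) * m) - 1) * ζ = 1 * ζ := by
      rw [← pow_succ, Nat.sub_add_cancel hpos, h2, one_mul]
    exact mul_right_cancel₀ hζ0 this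
  have h4 : p ^ A ∣ a ^ (d * (p - 1) * m) - 1 := hζ.dvd_of_pow_eq_one _ h3
  have h5 : (a ^ (d * (p - 1))) ^ m ≡ 1 [MOD p ^ A] := by
    rw [← pow_mul]
    exact ((Nat.modEq_iff_dvd' hpos).mpr h4).symm
  exact ydep_arith hp hacop ha2 hd0 hAn hm h5

end Fermat.Agent.TW.E
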