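/-
TW-E / A0 (helper32): `In1` for permutation lattices.

Main result: `stmtIn1Perm : StmtIn1Perm` (statement in `TW/E/Plan.lean`):
`H¹_lev(G, Hom_ℤ(ℤ[Ω], C))` is prime-to-`p` torsion for EVERY finite `G`-set `Ω` on which a level
acts trivially.

Proof (explicit Shapiro, as PT-F `stmtPermSh1`, but with arbitrary stabilisers).
* `in1p_sub_kill`: a level 1-cocycle `U → C` on ANY subgroup `U` containing a level is a coboundary
  up to a prime-to-`p` multiple (`In1b.descend_kill` + `cm_glob` + `h1Kill_of_pgroups`).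
* `in1p_core`: if `n • c(s)(ω) = s t'_ω - t'_ω` for all `s` in the stabiliser of `ω` (all `ω`), then
  `t(g x₀) := g t'_{x₀} - n • c(g)(g x₀)` (`x₀` orbit representatives) satisfies `n • c = d⁰ t`.
-/
import Mathlib
import Fermat.Agent.TW.E.Plan
import Fermat.Agent.PT.F.SeqInIn1b
import Fermat.Agent.PT.F.SeqInPermSh1

set_option autoImplicit false
set_option linter.style.haveILetI false

noncomputable section

namespace Fermat.Agent.TW.E

open CategoryTheory groupCohomology Fermat.Agent.PT Fermat.Agent.PT.F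

attribute [local instance 1100] Rep.hV2

/-- **In1b for subgroups containing a level**: level 1-cocycles `U → C` are coboundaries up to a
prime-to-`p` multiple. -/
theorem in1p_sub_kill {p : ℕ} [Fact p.Prime] {G : Type} [Group G] {ι : Type} [Fintype ι]
    {Gloc : ι → Type} [∀ v, Group (Gloc v)] (D : PTDatum p G ι Gloc) (U U₀ : Subgroup G)
    (hU₀ : U₀ ∈ D.𝒯.lev) (hU₀U : U₀ ≤ U) (c : U → D.C.V) (hc : IsCocycleOn U D.C c)
    (hcl : IsLevelOn D.𝒯 U c) :
    ∃ n : ℕ, ¬ p ∣ n ∧ ∃ t : D.C.V, ∀ s : U, n • c s = D.C.ρ (s : G) t - t := by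
  obtain ⟨U', hU', hcU'⟩ := hcl
  obtain ⟨W, hW, hWU, hWU', hWn⟩ := tower_exists_normal_le₂ D.𝒯 hU₀ hU'
  haveI := hWn
  haveI := D.𝒯.finiteIndex W hW
  haveI : Finite (G ⧸ W) := Subgroup.finite_quotient_of_finiteIndex
  obtain ⟨u, hu⟩ := D.cm_glob W hW
  obtain ⟨m, hm, hK⟩ := InflInj.h1Kill_of_pgroups p (U.map (QuotientGroup.mk' W))
    (D.C.quotientToInvariants W) hu.h1
  obtain ⟨t, ht⟩ := In1b.descend_kill D.C U W (hWU.trans hU₀U) c hc
    (fun s u hu => hcU' s u (hWU' hu)) m hK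
  exact ⟨m, hm, t, ht⟩

section Core

variable {H : Type} [Group H] {Ω : Type} [MulAction H Ω]

/-- the combinatorial core: explicit Shapiro in degree 1 with arbitrary stabilisers. -/
theorem in1p_core {A : Type} [AddCommGroup A] (act : H → A →+ A)
    (hact : ∀ σ τ a, act (σ * τ) a = act σ (act τ a))
    (c : H → Ω → A)
    (hc : ∀ σ τ ω, c (σ * τ) ω = c σ ω + act σ (c τ (σ⁻¹ • ω)))
    (n : ℕ) (t' : Ω → A)
    (ht' : ∀ (ω : Ω) (s : H), s • ω = ω → n • c s ω = act s (t' ω) - t' ω) :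
    ∃ t : Ω → A, ∀ σ ω, n • c σ ω = act σ (t (σ⁻¹ • ω)) - t ω := by
  let φ : H →* H := MonoidHom.id H
  refine ⟨fun ω => act (permSh1_g φ ω) (t' (permSh1_rep φ ω)) - n • c (permSh1_g φ ω) ω,
    fun σ ω => ?_⟩
  have hrep : permSh1_rep φ (σ⁻¹ • ω) = permSh1_rep φ ω := permSh1_rep_smul φ σ⁻¹ ω
  have hg : permSh1_g φ ω • permSh1_rep φ ω = ω := permSh1_g_spec φ ω
  have hg' : permSh1_g φ (σ⁻¹ • ω) • permSh1_rep φ ω = σ⁻¹ • ω := by
    rw [← hrep]; exact permSh1_g_spec φ (σ⁻¹ • ω)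
  simp only [hrep]
  generalize permSh1_rep φ ω = x₀ at hg hg' ⊢
  generalize permSh1_g φ ω = g at hg ⊢
  generalize permSh1_g φ (σ⁻¹ • ω) = g' at hg' ⊢
  have hs : (g⁻¹ * σ * g') • x₀ = x₀ := by
    rw [mul_smul, mul_smul, hg', smul_inv_smul, ← hg, inv_smul_smul]
  have hσg' : σ * g' = g * (g⁻¹ * σ * g') := by group
  have hx₀ : g⁻¹ • ω = x₀ := by rw [← hg, inv_smul_smul]
  have h1 := hc σ g' ω
  have h2 := hc g (g⁻¹ * σ * g') ω
  rw [← hσg', hx₀] at h2
  have h3 := ht' x₀ _ hs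
  have e1 : c σ ω = c g ω + act g (c (g⁻¹ * σ * g') x₀) - act σ (c g' (σ⁻¹ • ω)) := by
    rw [← h2, h1]; abel
  have h3' : act (g⁻¹ * σ * g') (t' x₀) = t' x₀ + n • c (g⁻¹ * σ * g') x₀ := by
    rw [h3]; abel
  have e2 : act σ (act g' (t' x₀)) = act g (t' x₀) + n • act g (c (g⁻¹ * σ * g') x₀) := by
    rw [← hact, hσg', hact, h3', map_add, map_nsmul]
  rw [map_sub, map_nsmul, e2, e1, smul_sub, smul_add]
  abel

end Core

section Wrapper

variable {G : Type} [Group G] (Ω : Type) [MulAction G Ω]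

/-- the action on the basis of `ℤ[Ω]` -/
lemma in1p_ρ_single (σ : G) (ω : Ω) (z : ℤ) :
    (permZ G Ω).ρ σ (MonoidAlgebra.single ω z) = MonoidAlgebra.single (σ • ω) z :=
  Representation.ofMulAction_single σ ω z

/-- the additive map `ℤ[Ω] → A` with prescribed values on the basis -/
def in1p_lift {A : Type} [AddCommGroup A] (t : Ω → A) : (permZ G Ω).V →+ A :=
  (Finsupp.liftAddHom (fun ω : Ω => zmultiplesHom A (t ω))).comp
    (MonoidAlgebra.coeffAddEquiv (R := ℤ) (M := Ω)).toAddMonoidHom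

lemma in1p_lift_single {A : Type} [AddCommGroup A] (t : Ω → A) (ω : Ω) (z : ℤ) :
    in1p_lift (G := G) Ω t (MonoidAlgebra.single ω z) = z • t ω := by
  simp [in1p_lift, MonoidAlgebra.coeffAddEquiv]

/-- additive maps out of `ℤ[Ω]` agree if they agree on the basis -/
lemma in1p_ext {A : Type} [AddCommGroup A] (f f' : (permZ G Ω).V →+ A)
    (h : ∀ ω : Ω, f (MonoidAlgebra.single ω 1) = f' (MonoidAlgebra.single ω 1)) : f = f' := by
  apply MonoidAlgebra.addMonoidHom_ext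
  intro ω z
  have h1 : (MonoidAlgebra.single ω z : MonoidAlgebra ℤ Ω) = z • MonoidAlgebra.single ω 1 := by
    rw [MonoidAlgebra.smul_single, smul_eq_mul, mul_one]
  rw [h1, map_zsmul, map_zsmul, h ω]

end Wrapper

/-- **A0**: `StmtIn1Perm`. -/
theorem stmtIn1Perm : StmtIn1Perm := by
  intro p hp G _ ι _ Gloc _ D Ω _ _ hΩ c hlev hcoc
  obtain ⟨U₀, hU₀, hU₀Ω⟩ := hΩ
  -- the cocycle identity on basis elements
  have hc' : ∀ (σ τ : G) (ω : Ω), c (σ * τ) (MonoidAlgebra.single ω 1) =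
      c σ (MonoidAlgebra.single ω 1) +
        actAdd D.C σ (c τ (MonoidAlgebra.single (σ⁻¹ • ω) 1)) := by
    intro σ τ ω
    have h := DFunLike.congr_fun (hcoc (σ, τ)) (MonoidAlgebra.single ω 1)
    rw [permSh1_dOne_apply, AddMonoidHom.zero_apply, in1p_ρ_single] at h
    rw [actAdd_apply]
    calc c (σ * τ) (MonoidAlgebra.single ω 1)
        = c (σ * τ) (MonoidAlgebra.single ω 1) +
          (D.C.ρ σ (c τ (MonoidAlgebra.single (σ⁻¹ • ω) 1)) -
            c (σ * τ) (MonoidAlgebra.single ω 1) + c σ (MonoidAlgebra.single ω 1)) := by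
          rw [h, add_zero]
      _ = _ := by abel
  -- the restrictions to the stabilisers are level cocycles
  have hω : ∀ ω : Ω, ∃ n : ℕ, ¬ p ∣ n ∧ ∃ t : D.C.V, ∀ s : G, s • ω = ω →
      n • c s (MonoidAlgebra.single ω 1) = actAdd D.C s t - t := by
    intro ω
    have hU₀S : U₀ ≤ MulAction.stabilizer G ω := fun s hs =>
      MulAction.mem_stabilizer_iff.2 (hU₀Ω s hs ω)
    have hcoc1 : IsCocycleOn (MulAction.stabilizer G ω) D.C
        (fun s => c (s : G) (MonoidAlgebra.single ω 1)) := by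
      intro s s'
      have h := hc' s s' ω
      have hs1 : (s : G)⁻¹ • ω = ω := by
        have := MulAction.mem_stabilizer_iff.1 (inv_mem s.2)
        exact this
      rw [hs1] at h
      exact h
    have hlev1 : IsLevelOn D.𝒯 (MulAction.stabilizer G ω)
        (fun s => c (s : G) (MonoidAlgebra.single ω 1)) := by
      obtain ⟨U, hU, hUc⟩ := hlev
      exact ⟨U, hU, fun s u hu => by
        show c ((s * u : MulAction.stabilizer G ω) : G) _ = _
        rw [Subgroup.coe_mul, hUc s u hu]⟩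
    obtain ⟨n, hn, t, ht⟩ := in1p_sub_kill D (MulAction.stabilizer G ω) U₀ hU₀ hU₀S _ hcoc1 hlev1
    exact ⟨n, hn, t, fun s hs => ht ⟨s, MulAction.mem_stabilizer_iff.2 hs⟩⟩
  choose nω hnp tω htω using hω
  have hn : ¬ p ∣ ∏ ω, nω ω := by
    intro h
    obtain ⟨ω, -, hω⟩ := (Prime.dvd_finsetProd_iff (Nat.Prime.prime hp.out) _).1 h
    exact hnp ω hω
  have hdvd : ∀ ω, ∃ k, (∏ ω, nω ω) = k * nω ω := fun ω => by
    obtain ⟨k, hk⟩ := Finset.dvd_prod_of_mem nω (Finset.mem_univ ω)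
    exact ⟨k, by rw [hk, mul_comm]⟩
  choose k hk using hdvd
  have ht' : ∀ (ω : Ω) (s : G), s • ω = ω →
      (∏ ω, nω ω) • c s (MonoidAlgebra.single ω 1) =
        actAdd D.C s (k ω • tω ω) - k ω • tω ω := by
    intro ω s hs
    rw [hk ω, mul_smul, htω ω s hs, smul_sub, map_nsmul]
  obtain ⟨t, ht⟩ := in1p_core (fun σ => actAdd D.C σ)
    (fun σ τ a => by simp only [actAdd_apply, map_mul]; rfl)
    (fun σ ω => c σ (MonoidAlgebra.single ω 1)) hc' (∏ ω, nω ω) (fun ω => k ω • tω ω) ht'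
  refine ⟨_, hn, in1p_lift Ω t, fun σ => in1p_ext Ω _ _ (fun ω => ?_)⟩
  rw [permSh1_dZero_apply, in1p_ρ_single, in1p_lift_single, in1p_lift_single, one_zsmul,
    one_zsmul]
  exact ht σ ω

end Fermat.Agent.TW.E

end
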