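/-
TW-E / A4 (`StmtJ2Div`, owner helper11) — INTERFACE of the three sub-pieces.
Definitions and statements only.  Mathematics: NOTES/TW-E-A4.md.

Route (homogeneous cochains).  A level 2-cocycle `y : G² → Hom_ℤ(ℤ[Ω], J)` is the same thing as a
family `Ψ_{v,ω} : G³ → J_v`, `Ψ_{v,ω}(g₀,g₁,g₂) = y(g₀⁻¹g₁, g₁⁻¹g₂)(δ_{g₀⁻¹ω})_v(g₀)`, of homogeneous
cocycles, jointly `G_v`-equivariant (`Ψ_{v,dω}(r d · g) = d Ψ_{v,ω}(g)`), right-invariant under a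
level.  For an orbit representative `ω₀` and `K = Stab_{G_v}(ω₀)`:
* A4-fin (`StmtJ2Fin`, finite groups): divisibility of inflated classes at a finite level;
* A4-loc (`StmtJ2Loc`): the restriction of `Ψ_{v,ω₀}` to `K³` is `p`-divisible up to a coboundary and
  a prime-to-`p` multiple, after passing to a deeper level (`HasPDepthGlob`, `cm_loc`, A4-fin);
* A4-glue (`stmtJ2Div_of`, helper11): inverse Shapiro `W(g₀,g₁,g₂) = w(πg₀,πg₁,πg₂)`, the Shapiro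
  homotopy `ShapiroHtpy.shapiro₂`, extension from orbit representatives, dictionary back to `y`.
-/
import Fermat.Agent.TW.E.Plan

set_option autoImplicit false

noncomputable section

namespace Fermat.Agent.TW.E

open CategoryTheory groupCohomology Fermat.Agent.PT Fermat.Agent.PT.F

attribute [local instance 1100] Rep.hV2

/-- **A4-fin.**  `Γ` a finite group, `C` a `Γ`-module with a `p`-fundamental class, `N ≤ K ≤ Γ`
subgroups with `p ∣ |N|`.  An (inhomogeneous) 2-cocycle `c` on `K` with values in `C` which is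
right-`N`-invariant in both variables is `p`-divisible up to a coboundary and a multiple prime to
`p`:  `n c = p c' + d t`.
(Proof: `[K:N] c = d t₀`, `t₀(a) = ∑_{ρ ∈ K/N} c(a, ρ)`.  `Q` a Sylow `p`-subgroup of `K`,
`P = Q.map K.subtype`: `[c|_P] = k · res_P u` and `[K:N] k · res_P u = 0`, `res_P u` has order
`|P|` and `v_p([K:N]) < v_p(|P|)`, so `k = p k'`.  `c - p k' ũ|_K` restricts to a coboundary on
`Q`, so it is killed by `[K:Q]` (`SylowRes.index_smul_eq_zero_of_res_eq_zero` for the group `K`):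
`n = [K:Q]`, `c' = n k' ũ|_K`, `ũ` a cocycle representing `u`.) -/
def StmtJ2Fin : Prop :=
  ∀ (p : ℕ) [Fact p.Prime] (Γ : Type) [Group Γ] [Finite Γ] (C : Rep.{0} ℤ Γ) (u : H2 C),
    IsPFundClass p C u → ∀ (K N : Subgroup Γ), N ≤ K → p ∣ Nat.card N →
    ∀ c : K × K → C.V,
      (∀ a b d : K, C.ρ (a : Γ) (c (b, d)) - c (a * b, d) + c (a, b * d) - c (a, b) = 0) →
      (∀ a b s s' : K, (s : Γ) ∈ N → (s' : Γ) ∈ N → c (a * s, b * s') = c (a, b)) →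
      ∃ n : ℕ, ¬ p ∣ n ∧ ∃ c' : K × K → C.V,
        (∀ a b d : K,
          C.ρ (a : Γ) (c' (b, d)) - c' (a * b, d) + c' (a, b * d) - c' (a, b) = 0) ∧
        ∃ t : K → C.V, ∀ a b : K,
          n • c (a, b) = p • c' (a, b) + (C.ρ (a : Γ) (t b) - t (a * b) + t a)

/-- **A4-loc.**  `K ≤ G_v` a subgroup containing the pulled-back level `r_v⁻¹ U` (`U` a normal
global level).  A homogeneous `K`-equivariant 2-cocycle `c : K³ → J_v`, right-invariant under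
`r_v⁻¹ U`, satisfies `n c = p w + d t` with `w`, `t` homogeneous, `K`-equivariant and
right-invariant under `r_v⁻¹ U'` for a normal global level `U' ≤ U`.
(Proof: `U'` from `HasPDepthGlob D v U`; `Γ = G_v ⧸ V'`, `V' = r_v⁻¹ U'`, `C = J_v^{V'}` with the
fundamental class of `cm_loc`; `K̄ = K.map mk`, `N̄ = (r_v⁻¹ U).map mk`, `|N̄| = [V : V']`;
`c̄(ā, b̄) = c(1, a, a b)`; A4-fin; `w(k₀,k₁,k₂) = k₀ c̄'(k₀⁻¹k₁, k₁⁻¹k₂)`, `t(k₀,k₁) = k₀ t̄(k₀⁻¹k₁)`.) -/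
def StmtJ2Loc : Prop :=
  ∀ (p : ℕ) [Fact p.Prime] (G : Type) [Group G] (ι : Type) [Fintype ι] (Gloc : ι → Type)
    [∀ v, Group (Gloc v)] (D : PTDatum p G ι Gloc), HasPDepthGlob D →
    ∀ (v : ι) (K : Subgroup (Gloc v)) (U : Subgroup G), U ∈ D.𝒯.lev → U.Normal →
      U.comap (D.r v) ≤ K →
    ∀ c : K → K → K → (D.Jloc v).V,
      (∀ k k₀ k₁ k₂ : K,
        c (k * k₀) (k * k₁) (k * k₂) = (D.Jloc v).ρ (k : Gloc v) (c k₀ k₁ k₂)) →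
      (∀ k₀ k₁ k₂ k₃ : K, c k₁ k₂ k₃ - c k₀ k₂ k₃ + c k₀ k₁ k₃ - c k₀ k₁ k₂ = 0) →
      (∀ k₀ k₁ k₂ s₀ s₁ s₂ : K, D.r v s₀ ∈ U → D.r v s₁ ∈ U → D.r v s₂ ∈ U →
        c (k₀ * s₀) (k₁ * s₁) (k₂ * s₂) = c k₀ k₁ k₂) →
      ∃ n : ℕ, ¬ p ∣ n ∧ ∃ U' ∈ D.𝒯.lev, U' ≤ U ∧ U'.Normal ∧
        ∃ w : K → K → K → (D.Jloc v).V,
          (∀ k k₀ k₁ k₂ : K,
            w (k * k₀) (k * k₁) (k * k₂) = (D.Jloc v).ρ (k : Gloc v) (w k₀ k₁ k₂)) ∧
          (∀ k₀ k₁ k₂ k₃ : K, w k₁ k₂ k₃ - w k₀ k₂ k₃ + w k₀ k₁ k₃ - w k₀ k₁ k₂ = 0) ∧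
          (∀ k₀ k₁ k₂ s₀ s₁ s₂ : K, D.r v s₀ ∈ U' → D.r v s₁ ∈ U' → D.r v s₂ ∈ U' →
            w (k₀ * s₀) (k₁ * s₁) (k₂ * s₂) = w k₀ k₁ k₂) ∧
          ∃ t : K → K → (D.Jloc v).V,
            (∀ k k₀ k₁ : K, t (k * k₀) (k * k₁) = (D.Jloc v).ρ (k : Gloc v) (t k₀ k₁)) ∧
            (∀ k₀ k₁ s₀ s₁ : K, D.r v s₀ ∈ U' → D.r v s₁ ∈ U' →
              t (k₀ * s₀) (k₁ * s₁) = t k₀ k₁) ∧
            ∀ k₀ k₁ k₂ : K,
              n • c k₀ k₁ k₂ = p • w k₀ k₁ k₂ + (t k₁ k₂ - t k₀ k₂ + t k₀ k₁)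

end Fermat.Agent.TW.E

end
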