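/-
TW-E / A4-glue (helper11): `stmtJ2Div_of : StmtJ2Loc → StmtJ2Div`.
Route: NOTES/TW-E-A4.md.  Homogeneous cochains: `Ψ_{v,ω}(g₀,g₁,g₂) = y(g₀⁻¹g₁, g₁⁻¹g₂)(δ_{g₀⁻¹ω})_v(g₀)`.
* Part 1 `j2d_core`: inverse Shapiro `W = w ∘ π³` and the Shapiro homotopy (`ShapiroHtpy.shapiro₂`).
* Part 2 `j2dExt`: extension of stabiliser-equivariant families from orbit representatives.
* Part 3: the dictionary between `Hom_ℤ(ℤ[Ω], J)`-valued cochains and families `Ψ_{v,ω}`.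
* Part 4: assembly.
-/
import Fermat.Agent.TW.E.J2DivPlan
import Fermat.Agent.PT.F.ShapiroHtpy
import Fermat.Agent.PT.F.SeqInPermSh1
import Fermat.Agent.PT.F.SeqInIn2a
import Fermat.Agent.TW.E.In1Perm

set_option autoImplicit false
set_option linter.unusedSectionVars false
set_option linter.unusedVariables false

noncomputable section

namespace Fermat.Agent.TW.E

open CategoryTheory groupCohomology Fermat.Agent.PT Fermat.Agent.PT.F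

attribute [local instance 1100] Rep.hV2

/-! ### Part 1: inverse Shapiro + Shapiro homotopy (pure group theory) -/

/-- a normalised choice of `H`-components -/
lemma j2d_exists_proj {G H : Type} [Group G] [Group H] (r : H →* G) (U : Subgroup G)
    [hU : U.Normal] :
    ∃ π : G → H, π 1 = 1 ∧
      ∀ (d : H) (g u : G), u ∈ U → ∃ s : H, r s ∈ U ∧ π (r d * g * u) = d * π g * s := by
  obtain ⟨π, hπ⟩ := ShapiroHtpy.exists_proj r U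
  refine ⟨fun g => π g * (π 1)⁻¹, by simp, fun d g u hu => ?_⟩
  refine ⟨π 1 * ((d * π g)⁻¹ * π (r d * g * u)) * (π 1)⁻¹, ?_, ?_⟩
  · rw [map_mul, map_mul, map_inv]
    exact hU.conj_mem _ (hπ d g u hu) _
  · group

theorem j2d_core {G H X : Type} [Group G] [Group H] [AddCommGroup X] (r : H →* G)
    (act : H → X →+ X) (U : Subgroup G) [U.Normal] (n p : ℕ)
    (Φ : G → G → G → X) (w : H → H → H → X) (t : H → H → X)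
    (hΦ1 : ∀ d g₀ g₁ g₂, Φ (r d * g₀) (r d * g₁) (r d * g₂) = act d (Φ g₀ g₁ g₂))
    (hΦ2 : ∀ g₀ g₁ g₂ g₃, Φ g₁ g₂ g₃ - Φ g₀ g₂ g₃ + Φ g₀ g₁ g₃ - Φ g₀ g₁ g₂ = 0)
    (hΦ3 : ∀ g₀ g₁ g₂ u₀ u₁ u₂, u₀ ∈ U → u₁ ∈ U → u₂ ∈ U →
      Φ (g₀ * u₀) (g₁ * u₁) (g₂ * u₂) = Φ g₀ g₁ g₂)
    (hw1 : ∀ d d₀ d₁ d₂, w (d * d₀) (d * d₁) (d * d₂) = act d (w d₀ d₁ d₂))
    (hw2 : ∀ d₀ d₁ d₂ d₃, w d₁ d₂ d₃ - w d₀ d₂ d₃ + w d₀ d₁ d₃ - w d₀ d₁ d₂ = 0)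
    (hw3 : ∀ d₀ d₁ d₂ s₀ s₁ s₂, r s₀ ∈ U → r s₁ ∈ U → r s₂ ∈ U →
      w (d₀ * s₀) (d₁ * s₁) (d₂ * s₂) = w d₀ d₁ d₂)
    (ht1 : ∀ d d₀ d₁, t (d * d₀) (d * d₁) = act d (t d₀ d₁))
    (ht3 : ∀ d₀ d₁ s₀ s₁, r s₀ ∈ U → r s₁ ∈ U → t (d₀ * s₀) (d₁ * s₁) = t d₀ d₁)
    (h : ∀ d₀ d₁ d₂,
      n • Φ (r d₀) (r d₁) (r d₂) = p • w d₀ d₁ d₂ + (t d₁ d₂ - t d₀ d₂ + t d₀ d₁)) :
    ∃ W : G → G → G → X,
      (∀ d g₀ g₁ g₂, W (r d * g₀) (r d * g₁) (r d * g₂) = act d (W g₀ g₁ g₂)) ∧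
      (∀ g₀ g₁ g₂ g₃, W g₁ g₂ g₃ - W g₀ g₂ g₃ + W g₀ g₁ g₃ - W g₀ g₁ g₂ = 0) ∧
      (∀ g₀ g₁ g₂ u₀ u₁ u₂, u₀ ∈ U → u₁ ∈ U → u₂ ∈ U →
        W (g₀ * u₀) (g₁ * u₁) (g₂ * u₂) = W g₀ g₁ g₂) ∧
      ∃ Θ : G → G → X,
        (∀ d g₀ g₁, Θ (r d * g₀) (r d * g₁) = act d (Θ g₀ g₁)) ∧
        (∀ g₀ g₁ u₀ u₁, u₀ ∈ U → u₁ ∈ U → Θ (g₀ * u₀) (g₁ * u₁) = Θ g₀ g₁) ∧
        ∀ g₀ g₁ g₂, n • Φ g₀ g₁ g₂ = p • W g₀ g₁ g₂ + (Θ g₁ g₂ - Θ g₀ g₂ + Θ g₀ g₁) := by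
  obtain ⟨π, hπ1, hπ⟩ := j2d_exists_proj r U
  have hπd : ∀ (d : H) (g : G), ∃ s : H, r s ∈ U ∧ π (r d * g) = d * π g * s := fun d g => by
    obtain ⟨s, hs, e⟩ := hπ d g 1 U.one_mem
    rw [mul_one] at e
    exact ⟨s, hs, e⟩
  have hπu : ∀ (g u : G), u ∈ U → ∃ s : H, r s ∈ U ∧ π (g * u) = π g * s := fun g u hu => by
    obtain ⟨s, hs, e⟩ := hπ 1 g u hu
    rw [map_one, one_mul, one_mul] at e
    exact ⟨s, hs, e⟩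
  have hπr : ∀ d : H, ∃ s : H, r s ∈ U ∧ π (r d) = d * s := fun d => by
    obtain ⟨s, hs, e⟩ := hπd d 1
    rw [mul_one, hπ1, mul_one] at e
    exact ⟨s, hs, e⟩
  let W : G → G → G → X := fun g₀ g₁ g₂ => w (π g₀) (π g₁) (π g₂)
  have hW1 : ∀ d g₀ g₁ g₂, W (r d * g₀) (r d * g₁) (r d * g₂) = act d (W g₀ g₁ g₂) := by
    intro d g₀ g₁ g₂
    obtain ⟨s₀, hs₀, e₀⟩ := hπd d g₀
    obtain ⟨s₁, hs₁, e₁⟩ := hπd d g₁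
    obtain ⟨s₂, hs₂, e₂⟩ := hπd d g₂
    show w (π (r d * g₀)) (π (r d * g₁)) (π (r d * g₂)) = act d (w (π g₀) (π g₁) (π g₂))
    rw [e₀, e₁, e₂, hw3 _ _ _ _ _ _ hs₀ hs₁ hs₂, hw1]
  have hW2 : ∀ g₀ g₁ g₂ g₃, W g₁ g₂ g₃ - W g₀ g₂ g₃ + W g₀ g₁ g₃ - W g₀ g₁ g₂ = 0 :=
    fun g₀ g₁ g₂ g₃ => hw2 _ _ _ _
  have hW3 : ∀ g₀ g₁ g₂ u₀ u₁ u₂, u₀ ∈ U → u₁ ∈ U → u₂ ∈ U →
      W (g₀ * u₀) (g₁ * u₁) (g₂ * u₂) = W g₀ g₁ g₂ := by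
    intro g₀ g₁ g₂ u₀ u₁ u₂ hu₀ hu₁ hu₂
    obtain ⟨s₀, hs₀, e₀⟩ := hπu g₀ u₀ hu₀
    obtain ⟨s₁, hs₁, e₁⟩ := hπu g₁ u₁ hu₁
    obtain ⟨s₂, hs₂, e₂⟩ := hπu g₂ u₂ hu₂
    show w (π (g₀ * u₀)) (π (g₁ * u₁)) (π (g₂ * u₂)) = w (π g₀) (π g₁) (π g₂)
    rw [e₀, e₁, e₂, hw3 _ _ _ _ _ _ hs₀ hs₁ hs₂]
  have hWr : ∀ d₀ d₁ d₂, W (r d₀) (r d₁) (r d₂) = w d₀ d₁ d₂ := by
    intro d₀ d₁ d₂
    obtain ⟨s₀, hs₀, e₀⟩ := hπr d₀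
    obtain ⟨s₁, hs₁, e₁⟩ := hπr d₁
    obtain ⟨s₂, hs₂, e₂⟩ := hπr d₂
    show w (π (r d₀)) (π (r d₁)) (π (r d₂)) = w d₀ d₁ d₂
    rw [e₀, e₁, e₂, hw3 _ _ _ _ _ _ hs₀ hs₁ hs₂]
  obtain ⟨Θ, hΘ1, hΘ3, hΘ⟩ := ShapiroHtpy.shapiro₂ r act U
    (fun g₀ g₁ g₂ => n • Φ g₀ g₁ g₂ - p • W g₀ g₁ g₂) t
    (fun d g₀ g₁ g₂ => by
      show n • Φ (r d * g₀) (r d * g₁) (r d * g₂) - p • W (r d * g₀) (r d * g₁) (r d * g₂) =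
        act d (n • Φ g₀ g₁ g₂ - p • W g₀ g₁ g₂)
      rw [hΦ1, hW1, map_sub, map_nsmul, map_nsmul])
    (fun g₀ g₁ g₂ g₃ => by
      have e1 := hΦ2 g₀ g₁ g₂ g₃
      have e2 := hW2 g₀ g₁ g₂ g₃
      show n • Φ g₁ g₂ g₃ - p • W g₁ g₂ g₃ - (n • Φ g₀ g₂ g₃ - p • W g₀ g₂ g₃) +
          (n • Φ g₀ g₁ g₃ - p • W g₀ g₁ g₃) - (n • Φ g₀ g₁ g₂ - p • W g₀ g₁ g₂) = 0
      have e3 : n • Φ g₁ g₂ g₃ - p • W g₁ g₂ g₃ - (n • Φ g₀ g₂ g₃ - p • W g₀ g₂ g₃) +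
          (n • Φ g₀ g₁ g₃ - p • W g₀ g₁ g₃) - (n • Φ g₀ g₁ g₂ - p • W g₀ g₁ g₂) =
          n • (Φ g₁ g₂ g₃ - Φ g₀ g₂ g₃ + Φ g₀ g₁ g₃ - Φ g₀ g₁ g₂) -
            p • (W g₁ g₂ g₃ - W g₀ g₂ g₃ + W g₀ g₁ g₃ - W g₀ g₁ g₂) := by
        simp only [smul_sub, smul_add]
        abel
      rw [e3, e1, e2, smul_zero, smul_zero, sub_zero])
    (fun g₀ g₁ g₂ u₀ u₁ u₂ hu₀ hu₁ hu₂ => by
      show n • Φ (g₀ * u₀) (g₁ * u₁) (g₂ * u₂) - p • W (g₀ * u₀) (g₁ * u₁) (g₂ * u₂) = _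
      rw [hΦ3 _ _ _ _ _ _ hu₀ hu₁ hu₂, hW3 _ _ _ _ _ _ hu₀ hu₁ hu₂])
    ht1 ht3
    (fun d₀ d₁ d₂ => by
      show n • Φ (r d₀) (r d₁) (r d₂) - p • W (r d₀) (r d₁) (r d₂) = _
      rw [hWr, h]
      abel)
  refine ⟨W, hW1, hW2, hW3, Θ, hΘ1, hΘ3, fun g₀ g₁ g₂ => ?_⟩
  have := hΘ g₀ g₁ g₂
  have e : n • Φ g₀ g₁ g₂ = p • W g₀ g₁ g₂ + (n • Φ g₀ g₁ g₂ - p • W g₀ g₁ g₂) := by abel
  rw [e, this]

/-! ### Part 2: extension from orbit representatives -/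

section Orbit

variable {G H X : Type} [Group G] [Group H] [AddCommGroup X] (r : H →* G)
  {Ω : Type} [MulAction G Ω] (act : H → X →+ X)

/-- the extension of a stabiliser-equivariant family from the orbit representatives -/
def j2dExt {S : Type} [MulAction G S] (F : Ω → S → X) (ω : Ω) (s : S) : X :=
  act (permSh1_g r ω) (F (permSh1_rep r ω) ((r (permSh1_g r ω))⁻¹ • s))

variable (hact : ∀ d d' x, act (d * d') x = act d (act d' x))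

include hact in
lemma j2dExt_equiv {S : Type} [MulAction G S] (F : Ω → S → X)
    (hF : ∀ ω d s, r d • ω = ω → F ω (r d • s) = act d (F ω s)) (ω : Ω) (e : H) (s : S) :
    j2dExt r act F (r e • ω) (r e • s) = act e (j2dExt r act F ω s) := by
  unfold j2dExt
  have hrep : permSh1_rep r (r e • ω) = permSh1_rep r ω := permSh1_rep_smul r e ω
  have h1 : r (permSh1_g r (r e • ω)) • permSh1_rep r ω = r e • ω := by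
    rw [← hrep]; exact permSh1_g_spec r (r e • ω)
  have h2 : r (permSh1_g r ω) • permSh1_rep r ω = ω := permSh1_g_spec r ω
  rw [hrep]
  generalize permSh1_g r (r e • ω) = d' at h1 ⊢
  generalize permSh1_g r ω = d at h2 ⊢
  generalize permSh1_rep r ω = ω₀ at h1 h2 ⊢
  -- `k = d'⁻¹ e d` stabilises `ω₀`
  have hk : r (d'⁻¹ * e * d) • ω₀ = ω₀ := by
    rw [map_mul, map_mul, mul_smul, mul_smul, h2, ← h1, map_inv, inv_smul_smul]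
  have e1 : (r d')⁻¹ • r e • s = r (d'⁻¹ * e * d) • (r d)⁻¹ • s := by
    rw [map_mul, map_mul, map_inv, mul_smul, mul_smul, smul_inv_smul]
  rw [e1, hF ω₀ _ _ hk, ← hact, ← hact]
  congr 2
  group

include hact in
lemma j2dExt_eq_of_equiv {S : Type} [MulAction G S] (F : Ω → S → X)
    (hF : ∀ ω d s, F (r d • ω) (r d • s) = act d (F ω s)) (ω : Ω) (s : S) :
    j2dExt r act F ω s = F ω s := by
  unfold j2dExt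
  have h2 : r (permSh1_g r ω) • permSh1_rep r ω = ω := permSh1_g_spec r ω
  have := hF (permSh1_rep r ω) (permSh1_g r ω) ((r (permSh1_g r ω))⁻¹ • s)
  rw [h2, smul_inv_smul] at this
  exact this.symm

end Orbit


/-! ### Part 3: the dictionary -/

section Dict

lemma j2d_conjAdd_one {G : Type} [Group G] (M Y : Rep.{0} ℤ G) (f : M.V →+ Y.V) :
    conjAdd M Y 1 f = f := by
  ext m
  simp

/-- a right-`U`-invariant 2-cocycle is left-`U`-invariant with `U`-invariant values -/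
lemma j2d_biinv {G : Type} [Group G] (M Y : Rep.{0} ℤ G) (y : G × G → (M.V →+ Y.V))
    (hy : ∀ s, dTwo M Y y s = 0) (U : Subgroup G) (hUn : U.Normal)
    (hUy : ∀ g g' s s' : G, s ∈ U → s' ∈ U → y (g * s, g' * s') = y (g, g')) (u : G)
    (hu : u ∈ U) (a b : G) :
    y (u * a, b) = y (a, b) ∧ conjAdd M Y u (y (a, b)) = y (a, b) := by
  have h1 : ∀ ρ, y (1, ρ) = y (1, 1) := by
    intro ρ
    have := hy (1, 1, ρ)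
    simp only [dTwo, j2d_conjAdd_one, one_mul] at this
    have e : y (1, ρ) - y (1, 1) = 0 := by
      rw [← this]; abel
    exact sub_eq_zero.1 e
  have h2 : ∀ x, y (u, x) = y (1, 1) := by
    intro x
    have := hUy 1 x u 1 hu U.one_mem
    rw [one_mul, mul_one] at this
    rw [this, h1]
  have h3 := hy (u, a, b)
  simp only [dTwo] at h3
  rw [h2, h2] at h3
  have h4 : conjAdd M Y u (y (a, b)) = y (u * a, b) := by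
    have e : conjAdd M Y u (y (a, b)) - y (u * a, b) = 0 := by
      rw [← h3]; abel
    exact sub_eq_zero.1 e
  have h5 : y (u * a, b) = y (a, b) := by
    have hc : a⁻¹ * u * a ∈ U := by simpa using hUn.conj_mem u hu a⁻¹
    have := hUy a b (a⁻¹ * u * a) 1 hc U.one_mem
    rw [mul_one] at this
    rw [← this]
    congr 2
    group
  exact ⟨h5, h4.trans h5⟩

variable {p : ℕ} {G : Type} [Group G] {ι : Type} {Gloc : ι → Type} [∀ v, Group (Gloc v)]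
  (D : PTDatum p G ι Gloc) (Ω : Type) [MulAction G Ω]

/-- the homogeneous components of a 2-cochain with values in `Hom_ℤ(ℤ[Ω], J)` -/
def j2dΨ (y : G × G → ((permZ G Ω).V →+ (PTJ D).V)) (v : ι) (ω : Ω) (g₀ g₁ g₂ : G) :
    (D.Jloc v).V :=
  (y (g₀⁻¹ * g₁, g₁⁻¹ * g₂) (MonoidAlgebra.single (g₀⁻¹ • ω) 1)).1 v g₀

variable (y : G × G → ((permZ G Ω).V →+ (PTJ D).V))

lemma j2dΨ_roundtrip (v : ι) (ω : Ω) (g σ τ : G) :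
    j2dΨ D Ω y v (g • ω) g (g * σ) (g * σ * τ) = (y (σ, τ) (MonoidAlgebra.single ω 1)).1 v g := by
  unfold j2dΨ
  rw [inv_smul_smul, inv_mul_cancel_left, inv_mul_cancel_left]

lemma j2dΨ_equiv (v : ι) (ω : Ω) (d : Gloc v) (g₀ g₁ g₂ : G) :
    j2dΨ D Ω y v (D.r v d • ω) (D.r v d * g₀) (D.r v d * g₁) (D.r v d * g₂) =
      (D.Jloc v).ρ d (j2dΨ D Ω y v ω g₀ g₁ g₂) := by
  unfold j2dΨ
  have e1 : (D.r v d * g₀)⁻¹ * (D.r v d * g₁) = g₀⁻¹ * g₁ := by group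
  have e2 : (D.r v d * g₁)⁻¹ * (D.r v d * g₂) = g₁⁻¹ * g₂ := by group
  have e3 : (D.r v d * g₀)⁻¹ • D.r v d • ω = g₀⁻¹ • ω := by
    rw [mul_inv_rev, mul_smul, inv_smul_smul]
  rw [e1, e2, e3]
  exact ((y (g₀⁻¹ * g₁, g₁⁻¹ * g₂) (MonoidAlgebra.single (g₀⁻¹ • ω) 1)).2 v).1 d g₀

lemma j2dΨ_cocycle (hy : ∀ s, dTwo (permZ G Ω) (PTJ D) y s = 0) (v : ι) (ω : Ω)
    (g₀ g₁ g₂ g₃ : G) :
    j2dΨ D Ω y v ω g₁ g₂ g₃ - j2dΨ D Ω y v ω g₀ g₂ g₃ + j2dΨ D Ω y v ω g₀ g₁ g₃ -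
      j2dΨ D Ω y v ω g₀ g₁ g₂ = 0 := by
  have h := congrArg (fun f : (permZ G Ω).V →+ (PTJ D).V =>
    (f (MonoidAlgebra.single (g₀⁻¹ • ω) 1)).1 v g₀) (hy (g₀⁻¹ * g₁, g₁⁻¹ * g₂, g₂⁻¹ * g₃))
  have e1 : g₀⁻¹ * g₁ * (g₁⁻¹ * g₂) = g₀⁻¹ * g₂ := by group
  have e2 : g₁⁻¹ * g₂ * (g₂⁻¹ * g₃) = g₁⁻¹ * g₃ := by group
  have e3 : (permZ G Ω).ρ (g₀⁻¹ * g₁)⁻¹ (MonoidAlgebra.single (g₀⁻¹ • ω) 1) =
      MonoidAlgebra.single (g₁⁻¹ • ω) 1 := by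
    rw [in1p_ρ_single]
    congr 1
    rw [mul_inv_rev, inv_inv, mul_smul, smul_inv_smul]
  have h' : ((PTJ D).ρ (g₀⁻¹ * g₁) (y (g₁⁻¹ * g₂, g₂⁻¹ * g₃)
        ((permZ G Ω).ρ (g₀⁻¹ * g₁)⁻¹ (MonoidAlgebra.single (g₀⁻¹ • ω) 1)))).1 v g₀ -
      (y (g₀⁻¹ * g₁ * (g₁⁻¹ * g₂), g₂⁻¹ * g₃) (MonoidAlgebra.single (g₀⁻¹ • ω) 1)).1 v g₀ +
      (y (g₀⁻¹ * g₁, g₁⁻¹ * g₂ * (g₂⁻¹ * g₃)) (MonoidAlgebra.single (g₀⁻¹ • ω) 1)).1 v g₀ -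
      (y (g₀⁻¹ * g₁, g₁⁻¹ * g₂) (MonoidAlgebra.single (g₀⁻¹ • ω) 1)).1 v g₀ = 0 := h
  rw [e1, e2, e3] at h'
  have e4 : ((PTJ D).ρ (g₀⁻¹ * g₁) (y (g₁⁻¹ * g₂, g₂⁻¹ * g₃)
      (MonoidAlgebra.single (g₁⁻¹ • ω) 1))).1 v g₀ =
      (y (g₁⁻¹ * g₂, g₂⁻¹ * g₃) (MonoidAlgebra.single (g₁⁻¹ • ω) 1)).1 v g₁ := by
    show (y (g₁⁻¹ * g₂, g₂⁻¹ * g₃) (MonoidAlgebra.single (g₁⁻¹ • ω) 1)).1 v
      (g₀ * (g₀⁻¹ * g₁)) = _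
    rw [mul_inv_cancel_left]
  rw [e4] at h'
  exact h'

lemma j2dΨ_level (hy : ∀ s, dTwo (permZ G Ω) (PTJ D) y s = 0) (U : Subgroup G)
    (hUn : U.Normal)
    (hUy : ∀ g g' s s' : G, s ∈ U → s' ∈ U → y (g * s, g' * s') = y (g, g'))
    (hUΩ : ∀ s ∈ U, ∀ ω : Ω, s • ω = ω) (v : ι) (ω : Ω)
    (g₀ g₁ g₂ u₀ u₁ u₂ : G) (hu₀ : u₀ ∈ U) (hu₁ : u₁ ∈ U) (hu₂ : u₂ ∈ U) :
    j2dΨ D Ω y v ω (g₀ * u₀) (g₁ * u₁) (g₂ * u₂) = j2dΨ D Ω y v ω g₀ g₁ g₂ := by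
  unfold j2dΨ
  have hb := fun u hu a b => j2d_biinv (permZ G Ω) (PTJ D) y hy U hUn hUy u hu a b
  -- the arguments of `y`
  have e1 : y ((g₀ * u₀)⁻¹ * (g₁ * u₁), (g₁ * u₁)⁻¹ * (g₂ * u₂)) =
      y (g₀⁻¹ * g₁, g₁⁻¹ * g₂) := by
    have a1 : (g₀ * u₀)⁻¹ * (g₁ * u₁) = u₀⁻¹ * (g₀⁻¹ * g₁ * u₁) := by group
    have a2 : (g₁ * u₁)⁻¹ * (g₂ * u₂) =
        g₁⁻¹ * g₂ * ((g₁⁻¹ * g₂)⁻¹ * u₁⁻¹ * (g₁⁻¹ * g₂) * u₂) := by group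
    have hc : (g₁⁻¹ * g₂)⁻¹ * u₁⁻¹ * (g₁⁻¹ * g₂) * u₂ ∈ U := by
      refine U.mul_mem ?_ hu₂
      simpa using hUn.conj_mem u₁⁻¹ (U.inv_mem hu₁) (g₁⁻¹ * g₂)⁻¹
    rw [a1, a2, (hb u₀⁻¹ (U.inv_mem hu₀) _ _).1]
    exact hUy _ _ _ _ hu₁ hc
  rw [e1]
  -- the value is `U`-invariant
  have e2 := (hb u₀ hu₀ (g₀⁻¹ * g₁) (g₁⁻¹ * g₂)).2
  have e3 := congrArg (fun f : (permZ G Ω).V →+ (PTJ D).V =>
    (f (MonoidAlgebra.single (g₀⁻¹ • ω) 1)).1 v g₀) e2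
  have e4 : ((PTJ D).ρ u₀ (y (g₀⁻¹ * g₁, g₁⁻¹ * g₂)
      ((permZ G Ω).ρ u₀⁻¹ (MonoidAlgebra.single (g₀⁻¹ • ω) 1)))).1 v g₀ =
      (y (g₀⁻¹ * g₁, g₁⁻¹ * g₂) (MonoidAlgebra.single (g₀⁻¹ • ω) 1)).1 v g₀ := e3
  rw [← e4, in1p_ρ_single]
  have e5 : (g₀ * u₀)⁻¹ • ω = u₀⁻¹ • g₀⁻¹ • ω := by
    rw [mul_inv_rev, mul_smul]
  rw [e5]
  rfl

end Dict

/-! ### Part 3b: from homogeneous families back to cochains -/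

section Back

variable {p : ℕ} {G : Type} [Group G] {ι : Type} {Gloc : ι → Type} [∀ v, Group (Gloc v)]
  (D : PTDatum p G ι Gloc) (Ω : Type) [MulAction G Ω]

open Classical in
/-- the element of `J` with prescribed components (`0` if they do not define an element) -/
def j2dJ (f : ∀ v, G → (D.Jloc v).V) : (PTJ D).V :=
  if h : f ∈ semilocalSub D.𝒯 D.r D.Jloc then (show (PTJ D).V from ⟨f, h⟩) else 0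

lemma j2dJ_apply (f : ∀ v, G → (D.Jloc v).V) (h : f ∈ semilocalSub D.𝒯 D.r D.Jloc) (v : ι)
    (g : G) : (j2dJ D f).1 v g = f v g := by
  have e : j2dJ D f = (show (PTJ D).V from ⟨f, h⟩) := dif_pos h
  rw [e]

/-- the components of `w(σ,τ)(δ_ω)` -/
def j2dFun2 (W : ∀ v, Ω → G → G → G → (D.Jloc v).V) (σ τ : G) (ω : Ω) :
    ∀ v, G → (D.Jloc v).V :=
  fun v g => W v (g • ω) g (g * σ) (g * σ * τ)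

/-- the components of `t(σ)(δ_ω)` -/
def j2dFun1 (Θ : ∀ v, Ω → G → G → (D.Jloc v).V) (σ : G) (ω : Ω) : ∀ v, G → (D.Jloc v).V :=
  fun v g => Θ v (g • ω) g (g * σ)

/-- the 2-cochain attached to a family `W` -/
def j2dW (W : ∀ v, Ω → G → G → G → (D.Jloc v).V) (στ : G × G) :
    (permZ G Ω).V →+ (PTJ D).V :=
  in1p_lift Ω (fun ω => j2dJ D (j2dFun2 D Ω W στ.1 στ.2 ω))

/-- the 1-cochain attached to a family `Θ` -/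
def j2dT (Θ : ∀ v, Ω → G → G → (D.Jloc v).V) (σ : G) : (permZ G Ω).V →+ (PTJ D).V :=
  in1p_lift Ω (fun ω => j2dJ D (j2dFun1 D Ω Θ σ ω))

variable (U : Subgroup G) (hU : U ∈ D.𝒯.lev) (hUn : U.Normal)
  (hUΩ : ∀ s ∈ U, ∀ ω : Ω, s • ω = ω)

section W

variable (W : ∀ v, Ω → G → G → G → (D.Jloc v).V)
  (hW1 : ∀ (v : ι) (ω : Ω) (d : Gloc v) (g₀ g₁ g₂ : G),
    W v (D.r v d • ω) (D.r v d * g₀) (D.r v d * g₁) (D.r v d * g₂) =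
      (D.Jloc v).ρ d (W v ω g₀ g₁ g₂))
  (hW3 : ∀ (v : ι) (ω : Ω) (g₀ g₁ g₂ u₀ u₁ u₂ : G), u₀ ∈ U → u₁ ∈ U → u₂ ∈ U →
    W v ω (g₀ * u₀) (g₁ * u₁) (g₂ * u₂) = W v ω g₀ g₁ g₂)

include hU hUn hUΩ hW1 hW3 in
lemma j2dFun2_mem (σ τ : G) (ω : Ω) :
    j2dFun2 D Ω W σ τ ω ∈ semilocalSub D.𝒯 D.r D.Jloc := by
  intro v
  refine ⟨fun d g => ?_, ⟨U, hU, fun g u hu => ?_⟩⟩
  · show W v ((D.r v d * g) • ω) (D.r v d * g) (D.r v d * g * σ) (D.r v d * g * σ * τ) =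
      (D.Jloc v).ρ d (W v (g • ω) g (g * σ) (g * σ * τ))
    rw [mul_smul, mul_assoc, mul_assoc, mul_assoc, hW1, ← mul_assoc]
  · show W v ((g * u) • ω) (g * u) (g * u * σ) (g * u * σ * τ) =
      W v (g • ω) g (g * σ) (g * σ * τ)
    have h1 : g * u * σ = g * σ * (σ⁻¹ * u * σ) := by group
    have h2 : g * u * σ * τ = g * σ * τ * ((σ * τ)⁻¹ * u * (σ * τ)) := by group
    have c1 : σ⁻¹ * u * σ ∈ U := by simpa using hUn.conj_mem u hu σ⁻¹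
    have c2 : (σ * τ)⁻¹ * u * (σ * τ) ∈ U := by simpa using hUn.conj_mem u hu (σ * τ)⁻¹
    rw [mul_smul, hUΩ u hu, h2, h1]
    exact hW3 v _ _ _ _ _ _ _ hu c1 c2

include hU hUn hUΩ hW1 hW3 in
lemma j2dW_apply (σ τ : G) (ω : Ω) (v : ι) (g : G) :
    (j2dW D Ω W (σ, τ) (MonoidAlgebra.single ω 1)).1 v g = W v (g • ω) g (g * σ) (g * σ * τ) := by
  unfold j2dW
  rw [in1p_lift_single, one_zsmul,
    j2dJ_apply D _ (j2dFun2_mem D Ω U hU hUn hUΩ W hW1 hW3 σ τ ω)]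
  rfl

include hU hUn hUΩ hW1 hW3 in
lemma j2dW_level : IsLevel₂ D.𝒯 (j2dW D Ω W) := by
  refine ⟨U, hU, fun g g' s s' hs hs' => ?_⟩
  apply in1p_ext
  intro ω
  apply in2a_J_ext
  intro v x
  rw [j2dW_apply D Ω U hU hUn hUΩ W hW1 hW3, j2dW_apply D Ω U hU hUn hUΩ W hW1 hW3]
  have h1 : x * (g * s) = x * g * s := by group
  have h2 : x * (g * s) * (g' * s') = x * g * g' * (g'⁻¹ * s * g' * s') := by group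
  have c : g'⁻¹ * s * g' * s' ∈ U := by
    refine U.mul_mem ?_ hs'
    simpa using hUn.conj_mem s hs g'⁻¹
  rw [h2, h1]
  have := hW3 v (x • ω) x (x * g) (x * g * g') 1 s _ U.one_mem hs c
  rw [mul_one] at this
  exact this

include hU hUn hUΩ hW1 hW3 in
lemma j2dW_cocycle
    (hW2 : ∀ (v : ι) (ω : Ω) (g₀ g₁ g₂ g₃ : G),
      W v ω g₁ g₂ g₃ - W v ω g₀ g₂ g₃ + W v ω g₀ g₁ g₃ - W v ω g₀ g₁ g₂ = 0)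
    (s : G × G × G) : dTwo (permZ G Ω) (PTJ D) (j2dW D Ω W) s = 0 := by
  obtain ⟨σ, τ, ρ⟩ := s
  apply in1p_ext
  intro ω
  apply in2a_J_ext
  intro v g
  show ((PTJ D).ρ σ (j2dW D Ω W (τ, ρ) ((permZ G Ω).ρ σ⁻¹ (MonoidAlgebra.single ω 1)))).1 v g -
      (j2dW D Ω W (σ * τ, ρ) (MonoidAlgebra.single ω 1)).1 v g +
      (j2dW D Ω W (σ, τ * ρ) (MonoidAlgebra.single ω 1)).1 v g -
      (j2dW D Ω W (σ, τ) (MonoidAlgebra.single ω 1)).1 v g = 0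
  have e1 : ((PTJ D).ρ σ (j2dW D Ω W (τ, ρ)
      ((permZ G Ω).ρ σ⁻¹ (MonoidAlgebra.single ω 1)))).1 v g =
      (j2dW D Ω W (τ, ρ) (MonoidAlgebra.single (σ⁻¹ • ω) 1)).1 v (g * σ) := by
    rw [in1p_ρ_single]
    rfl
  rw [e1, j2dW_apply D Ω U hU hUn hUΩ W hW1 hW3, j2dW_apply D Ω U hU hUn hUΩ W hW1 hW3,
    j2dW_apply D Ω U hU hUn hUΩ W hW1 hW3, j2dW_apply D Ω U hU hUn hUΩ W hW1 hW3]
  have e2 : (g * σ) • σ⁻¹ • ω = g • ω := by rw [mul_smul, smul_inv_smul]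
  have e3 : g * (σ * τ) = g * σ * τ := by group
  have e4 : g * σ * (τ * ρ) = g * σ * τ * ρ := by group
  rw [e2, e3, e4]
  exact hW2 v (g • ω) g (g * σ) (g * σ * τ) (g * σ * τ * ρ)

end W

section T

variable (Θ : ∀ v, Ω → G → G → (D.Jloc v).V)
  (hΘ1 : ∀ (v : ι) (ω : Ω) (d : Gloc v) (g₀ g₁ : G),
    Θ v (D.r v d • ω) (D.r v d * g₀) (D.r v d * g₁) = (D.Jloc v).ρ d (Θ v ω g₀ g₁))
  (hΘ3 : ∀ (v : ι) (ω : Ω) (g₀ g₁ u₀ u₁ : G), u₀ ∈ U → u₁ ∈ U →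
    Θ v ω (g₀ * u₀) (g₁ * u₁) = Θ v ω g₀ g₁)

include hU hUn hUΩ hΘ1 hΘ3 in
lemma j2dFun1_mem (σ : G) (ω : Ω) :
    j2dFun1 D Ω Θ σ ω ∈ semilocalSub D.𝒯 D.r D.Jloc := by
  intro v
  refine ⟨fun d g => ?_, ⟨U, hU, fun g u hu => ?_⟩⟩
  · show Θ v ((D.r v d * g) • ω) (D.r v d * g) (D.r v d * g * σ) =
      (D.Jloc v).ρ d (Θ v (g • ω) g (g * σ))
    rw [mul_smul, mul_assoc, hΘ1]
  · show Θ v ((g * u) • ω) (g * u) (g * u * σ) = Θ v (g • ω) g (g * σ)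
    have h1 : g * u * σ = g * σ * (σ⁻¹ * u * σ) := by group
    have c1 : σ⁻¹ * u * σ ∈ U := by simpa using hUn.conj_mem u hu σ⁻¹
    rw [mul_smul, hUΩ u hu, h1]
    exact hΘ3 v _ _ _ _ _ hu c1

include hU hUn hUΩ hΘ1 hΘ3 in
lemma j2dT_apply (σ : G) (ω : Ω) (v : ι) (g : G) :
    (j2dT D Ω Θ σ (MonoidAlgebra.single ω 1)).1 v g = Θ v (g • ω) g (g * σ) := by
  unfold j2dT
  rw [in1p_lift_single, one_zsmul,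
    j2dJ_apply D _ (j2dFun1_mem D Ω U hU hUn hUΩ Θ hΘ1 hΘ3 σ ω)]
  rfl

include hU hUn hUΩ hΘ1 hΘ3 in
lemma j2dT_level : IsLevel₁ D.𝒯 (j2dT D Ω Θ) := by
  refine ⟨U, hU, fun g s hs => ?_⟩
  apply in1p_ext
  intro ω
  apply in2a_J_ext
  intro v x
  rw [j2dT_apply D Ω U hU hUn hUΩ Θ hΘ1 hΘ3, j2dT_apply D Ω U hU hUn hUΩ Θ hΘ1 hΘ3]
  have h1 : x * (g * s) = x * g * s := by group
  rw [h1]
  have := hΘ3 v (x • ω) x (x * g) 1 s U.one_mem hs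
  rw [mul_one] at this
  exact this

include hU hUn hUΩ hΘ1 hΘ3 in
lemma j2dT_dOne_apply (σ τ : G) (ω : Ω) (v : ι) (g : G) :
    (dOne (permZ G Ω) (PTJ D) (j2dT D Ω Θ) (σ, τ) (MonoidAlgebra.single ω 1)).1 v g =
      Θ v (g • ω) (g * σ) (g * σ * τ) - Θ v (g • ω) g (g * σ * τ) + Θ v (g • ω) g (g * σ) := by
  show ((PTJ D).ρ σ (j2dT D Ω Θ τ ((permZ G Ω).ρ σ⁻¹ (MonoidAlgebra.single ω 1)))).1 v g -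
      (j2dT D Ω Θ (σ * τ) (MonoidAlgebra.single ω 1)).1 v g +
      (j2dT D Ω Θ σ (MonoidAlgebra.single ω 1)).1 v g = _
  have e1 : ((PTJ D).ρ σ (j2dT D Ω Θ τ
      ((permZ G Ω).ρ σ⁻¹ (MonoidAlgebra.single ω 1)))).1 v g =
      (j2dT D Ω Θ τ (MonoidAlgebra.single (σ⁻¹ • ω) 1)).1 v (g * σ) := by
    rw [in1p_ρ_single]
    rfl
  rw [e1, j2dT_apply D Ω U hU hUn hUΩ Θ hΘ1 hΘ3, j2dT_apply D Ω U hU hUn hUΩ Θ hΘ1 hΘ3,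
    j2dT_apply D Ω U hU hUn hUΩ Θ hΘ1 hΘ3]
  have e2 : (g * σ) • σ⁻¹ • ω = g • ω := by rw [mul_smul, smul_inv_smul]
  have e3 : g * (σ * τ) = g * σ * τ := by group
  rw [e2, e3]

end T

end Back

/-! ### Part 4a: from the orbit representatives to jointly equivariant families -/

section Family

variable {G H X : Type} [Group G] [Group H] [AddCommGroup X] (r : H →* G)
  {Ω : Type} [MulAction G Ω] (act : H → X →+ X)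

theorem j2d_family (hact : ∀ d d' x, act (d * d') x = act d (act d' x))
    (U : Subgroup G) (p n : ℕ) (n₀ m : Ω → ℕ) (hn : ∀ ω, n = m ω * n₀ ω)
    (Ψ : Ω → G → G → G → X)
    (hΨ1 : ∀ ω d g₀ g₁ g₂,
      Ψ (r d • ω) (r d * g₀) (r d * g₁) (r d * g₂) = act d (Ψ ω g₀ g₁ g₂))
    (W₀ : Ω → G → G → G → X) (Θ₀ : Ω → G → G → X)
    (hW1 : ∀ ω d g₀ g₁ g₂, r d • ω = ω →
      W₀ ω (r d * g₀) (r d * g₁) (r d * g₂) = act d (W₀ ω g₀ g₁ g₂))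
    (hW2 : ∀ ω g₀ g₁ g₂ g₃,
      W₀ ω g₁ g₂ g₃ - W₀ ω g₀ g₂ g₃ + W₀ ω g₀ g₁ g₃ - W₀ ω g₀ g₁ g₂ = 0)
    (hW3 : ∀ ω g₀ g₁ g₂ u₀ u₁ u₂, u₀ ∈ U → u₁ ∈ U → u₂ ∈ U →
      W₀ ω (g₀ * u₀) (g₁ * u₁) (g₂ * u₂) = W₀ ω g₀ g₁ g₂)
    (hΘ1 : ∀ ω d g₀ g₁, r d • ω = ω → Θ₀ ω (r d * g₀) (r d * g₁) = act d (Θ₀ ω g₀ g₁))
    (hΘ3 : ∀ ω g₀ g₁ u₀ u₁, u₀ ∈ U → u₁ ∈ U → Θ₀ ω (g₀ * u₀) (g₁ * u₁) = Θ₀ ω g₀ g₁)
    (h : ∀ ω g₀ g₁ g₂, n₀ ω • Ψ ω g₀ g₁ g₂ =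
      p • W₀ ω g₀ g₁ g₂ + (Θ₀ ω g₁ g₂ - Θ₀ ω g₀ g₂ + Θ₀ ω g₀ g₁)) :
    ∃ (W : Ω → G → G → G → X) (Θ : Ω → G → G → X),
      (∀ ω d g₀ g₁ g₂,
        W (r d • ω) (r d * g₀) (r d * g₁) (r d * g₂) = act d (W ω g₀ g₁ g₂)) ∧
      (∀ ω g₀ g₁ g₂ g₃, W ω g₁ g₂ g₃ - W ω g₀ g₂ g₃ + W ω g₀ g₁ g₃ - W ω g₀ g₁ g₂ = 0) ∧
      (∀ ω g₀ g₁ g₂ u₀ u₁ u₂, u₀ ∈ U → u₁ ∈ U → u₂ ∈ U →
        W ω (g₀ * u₀) (g₁ * u₁) (g₂ * u₂) = W ω g₀ g₁ g₂) ∧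
      (∀ ω d g₀ g₁, Θ (r d • ω) (r d * g₀) (r d * g₁) = act d (Θ ω g₀ g₁)) ∧
      (∀ ω g₀ g₁ u₀ u₁, u₀ ∈ U → u₁ ∈ U → Θ ω (g₀ * u₀) (g₁ * u₁) = Θ ω g₀ g₁) ∧
      ∀ ω g₀ g₁ g₂,
        n • Ψ ω g₀ g₁ g₂ = p • W ω g₀ g₁ g₂ + (Θ ω g₁ g₂ - Θ ω g₀ g₂ + Θ ω g₀ g₁) := by
  let F₃ : Ω → G × G × G → X := fun ω s => m ω • W₀ ω s.1 s.2.1 s.2.2
  let F₂ : Ω → G × G → X := fun ω s => m ω • Θ₀ ω s.1 s.2
  have hF₃ : ∀ ω d (s : G × G × G), r d • ω = ω → F₃ ω (r d • s) = act d (F₃ ω s) := by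
    rintro ω d ⟨g₀, g₁, g₂⟩ hd
    show m ω • W₀ ω (r d * g₀) (r d * g₁) (r d * g₂) = act d (m ω • W₀ ω g₀ g₁ g₂)
    rw [hW1 ω d g₀ g₁ g₂ hd, map_nsmul]
  have hF₂ : ∀ ω d (s : G × G), r d • ω = ω → F₂ ω (r d • s) = act d (F₂ ω s) := by
    rintro ω d ⟨g₀, g₁⟩ hd
    show m ω • Θ₀ ω (r d * g₀) (r d * g₁) = act d (m ω • Θ₀ ω g₀ g₁)
    rw [hΘ1 ω d g₀ g₁ hd, map_nsmul]
  have hW : ∀ ω g₀ g₁ g₂, j2dExt r act F₃ ω (g₀, g₁, g₂) =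
      act (permSh1_g r ω) (m (permSh1_rep r ω) • W₀ (permSh1_rep r ω)
        ((r (permSh1_g r ω))⁻¹ * g₀) ((r (permSh1_g r ω))⁻¹ * g₁)
        ((r (permSh1_g r ω))⁻¹ * g₂)) := fun ω g₀ g₁ g₂ => rfl
  have hΘ : ∀ ω g₀ g₁, j2dExt r act F₂ ω (g₀, g₁) =
      act (permSh1_g r ω) (m (permSh1_rep r ω) • Θ₀ (permSh1_rep r ω)
        ((r (permSh1_g r ω))⁻¹ * g₀) ((r (permSh1_g r ω))⁻¹ * g₁)) := fun ω g₀ g₁ => rfl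
  refine ⟨fun ω g₀ g₁ g₂ => j2dExt r act F₃ ω (g₀, g₁, g₂),
    fun ω g₀ g₁ => j2dExt r act F₂ ω (g₀, g₁), ?_, ?_, ?_, ?_, ?_, ?_⟩
  · intro ω d g₀ g₁ g₂
    exact j2dExt_equiv r act hact F₃ hF₃ ω d (g₀, g₁, g₂)
  · intro ω g₀ g₁ g₂ g₃
    simp only [hW]
    rw [← map_sub, ← map_add, ← map_sub, ← smul_sub, ← smul_add, ← smul_sub, hW2, smul_zero,
      map_zero]
  · intro ω g₀ g₁ g₂ u₀ u₁ u₂ hu₀ hu₁ hu₂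
    simp only [hW]
    rw [← mul_assoc, ← mul_assoc, ← mul_assoc, hW3 _ _ _ _ _ _ _ hu₀ hu₁ hu₂]
  · intro ω d g₀ g₁
    exact j2dExt_equiv r act hact F₂ hF₂ ω d (g₀, g₁)
  · intro ω g₀ g₁ u₀ u₁ hu₀ hu₁
    simp only [hΘ]
    rw [← mul_assoc, ← mul_assoc, hΘ3 _ _ _ _ _ hu₀ hu₁]
  · intro ω g₀ g₁ g₂
    have hΨ : Ψ ω g₀ g₁ g₂ = act (permSh1_g r ω) (Ψ (permSh1_rep r ω)
        ((r (permSh1_g r ω))⁻¹ * g₀) ((r (permSh1_g r ω))⁻¹ * g₁)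
        ((r (permSh1_g r ω))⁻¹ * g₂)) := by
      have := hΨ1 (permSh1_rep r ω) (permSh1_g r ω) ((r (permSh1_g r ω))⁻¹ * g₀)
        ((r (permSh1_g r ω))⁻¹ * g₁) ((r (permSh1_g r ω))⁻¹ * g₂)
      rw [permSh1_g_spec, mul_inv_cancel_left, mul_inv_cancel_left, mul_inv_cancel_left] at this
      exact this
    simp only [hW, hΘ]
    rw [hΨ, ← map_nsmul, hn (permSh1_rep r ω), mul_smul, h, ← map_nsmul, ← map_sub, ← map_add,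
      ← map_add]
    congr 1
    simp only [smul_add, smul_sub]
    rw [smul_comm p (m (permSh1_rep r ω))]

end Family

/-! ### Part 4b: assembly -/

section Assembly

variable {p : ℕ} {G : Type} [Group G] {ι : Type} {Gloc : ι → Type} [∀ v, Group (Gloc v)]
  (D : PTDatum p G ι Gloc) (Ω : Type) [MulAction G Ω]

/-- the local step at one place `v` and one point `ω`: A4-loc + `j2d_core`. -/
theorem j2d_local [Fact p.Prime] [Fintype ι] (hLoc : StmtJ2Loc) (hdepth : HasPDepthGlob D)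
    (y : G × G → ((permZ G Ω).V →+ (PTJ D).V))
    (hy : ∀ s, dTwo (permZ G Ω) (PTJ D) y s = 0) (U : Subgroup G) (hU : U ∈ D.𝒯.lev)
    (hUn : U.Normal)
    (hUy : ∀ g g' s s' : G, s ∈ U → s' ∈ U → y (g * s, g' * s') = y (g, g'))
    (hUΩ : ∀ s ∈ U, ∀ ω : Ω, s • ω = ω) (v : ι) (ω : Ω) :
    ∃ n : ℕ, ¬ p ∣ n ∧ ∃ U' ∈ D.𝒯.lev, U' ≤ U ∧ U'.Normal ∧
      ∃ (W : G → G → G → (D.Jloc v).V) (Θ : G → G → (D.Jloc v).V),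
        (∀ (d : Gloc v) (g₀ g₁ g₂ : G), D.r v d • ω = ω →
          W (D.r v d * g₀) (D.r v d * g₁) (D.r v d * g₂) = (D.Jloc v).ρ d (W g₀ g₁ g₂)) ∧
        (∀ g₀ g₁ g₂ g₃ : G, W g₁ g₂ g₃ - W g₀ g₂ g₃ + W g₀ g₁ g₃ - W g₀ g₁ g₂ = 0) ∧
        (∀ g₀ g₁ g₂ u₀ u₁ u₂ : G, u₀ ∈ U' → u₁ ∈ U' → u₂ ∈ U' →
          W (g₀ * u₀) (g₁ * u₁) (g₂ * u₂) = W g₀ g₁ g₂) ∧
        (∀ (d : Gloc v) (g₀ g₁ : G), D.r v d • ω = ω →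
          Θ (D.r v d * g₀) (D.r v d * g₁) = (D.Jloc v).ρ d (Θ g₀ g₁)) ∧
        (∀ g₀ g₁ u₀ u₁ : G, u₀ ∈ U' → u₁ ∈ U' → Θ (g₀ * u₀) (g₁ * u₁) = Θ g₀ g₁) ∧
        ∀ g₀ g₁ g₂ : G, n • j2dΨ D Ω y v ω g₀ g₁ g₂ =
          p • W g₀ g₁ g₂ + (Θ g₁ g₂ - Θ g₀ g₂ + Θ g₀ g₁) := by
  let K : Subgroup (Gloc v) := (MulAction.stabilizer G ω).comap (D.r v)
  have hKmem : ∀ k : K, D.r v (k : Gloc v) • ω = ω := fun k =>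
    MulAction.mem_stabilizer_iff.1 k.2
  have hK : U.comap (D.r v) ≤ K := fun s hs =>
    MulAction.mem_stabilizer_iff.2 (hUΩ _ hs ω)
  have hΨeq : ∀ (d : Gloc v) (g₀ g₁ g₂ : G), D.r v d • ω = ω →
      j2dΨ D Ω y v ω (D.r v d * g₀) (D.r v d * g₁) (D.r v d * g₂) =
        (D.Jloc v).ρ d (j2dΨ D Ω y v ω g₀ g₁ g₂) := by
    intro d g₀ g₁ g₂ hd
    have := j2dΨ_equiv D Ω y v ω d g₀ g₁ g₂
    rwa [hd] at this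
  obtain ⟨n, hn, U', hU', hU'le, hU'n, w, hw1, hw2, hw3, t, ht1, ht3, h⟩ :=
    hLoc p G ι Gloc D hdepth v K U hU hUn hK
      (fun k₀ k₁ k₂ => j2dΨ D Ω y v ω (D.r v k₀) (D.r v k₁) (D.r v k₂))
      (fun k k₀ k₁ k₂ => by
        show j2dΨ D Ω y v ω (D.r v ((k * k₀ : K) : Gloc v)) (D.r v ((k * k₁ : K) : Gloc v))
          (D.r v ((k * k₂ : K) : Gloc v)) = _
        rw [Subgroup.coe_mul, Subgroup.coe_mul, Subgroup.coe_mul, map_mul, map_mul, map_mul]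
        exact hΨeq k _ _ _ (hKmem k))
      (fun k₀ k₁ k₂ k₃ => j2dΨ_cocycle D Ω y hy v ω _ _ _ _)
      (fun k₀ k₁ k₂ s₀ s₁ s₂ hs₀ hs₁ hs₂ => by
        show j2dΨ D Ω y v ω (D.r v ((k₀ * s₀ : K) : Gloc v)) (D.r v ((k₁ * s₁ : K) : Gloc v))
          (D.r v ((k₂ * s₂ : K) : Gloc v)) = _
        rw [Subgroup.coe_mul, Subgroup.coe_mul, Subgroup.coe_mul, map_mul, map_mul, map_mul]
        exact j2dΨ_level D Ω y hy U hUn hUy hUΩ v ω _ _ _ _ _ _ hs₀ hs₁ hs₂)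
  have := hU'n
  obtain ⟨W, hW1, hW2, hW3, Θ, hΘ1, hΘ3, hWΘ⟩ :=
    j2d_core ((D.r v).comp K.subtype) (fun k : K => actAdd (D.Jloc v) (k : Gloc v)) U' n p
      (j2dΨ D Ω y v ω) w t
      (fun k g₀ g₁ g₂ => hΨeq k g₀ g₁ g₂ (hKmem k))
      (fun g₀ g₁ g₂ g₃ => j2dΨ_cocycle D Ω y hy v ω _ _ _ _)
      (fun g₀ g₁ g₂ u₀ u₁ u₂ hu₀ hu₁ hu₂ =>
        j2dΨ_level D Ω y hy U hUn hUy hUΩ v ω _ _ _ _ _ _ (hU'le hu₀) (hU'le hu₁) (hU'le hu₂))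
      hw1 hw2 hw3 ht1 ht3 h
  refine ⟨n, hn, U', hU', hU'le, hU'n, W, Θ, ?_, hW2, hW3, ?_, hΘ3, hWΘ⟩
  · intro d g₀ g₁ g₂ hd
    exact hW1 ⟨d, MulAction.mem_stabilizer_iff.2 hd⟩ g₀ g₁ g₂
  · intro d g₀ g₁ hd
    exact hΘ1 ⟨d, MulAction.mem_stabilizer_iff.2 hd⟩ g₀ g₁

/-- **A4-glue**: `StmtJ2Loc → StmtJ2Div`. -/
theorem stmtJ2Div_of (hLoc : StmtJ2Loc) : StmtJ2Div := by
  intro p hp G _ ι _ Gloc _ D hdepth Ω _ _ hΩ y hylev hycoc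
  classical
  obtain ⟨Uy, hUy, hyU⟩ := hylev
  obtain ⟨UΩ, hUΩ, hΩU⟩ := hΩ
  obtain ⟨U, hU, hUle1, hUle2, hUn⟩ := tower_exists_normal_le₂ D.𝒯 hUy hUΩ
  have hyU' : ∀ g g' s s' : G, s ∈ U → s' ∈ U → y (g * s, g' * s') = y (g, g') :=
    fun g g' s s' hs hs' => hyU g g' s s' (hUle1 hs) (hUle1 hs')
  have hΩU' : ∀ s ∈ U, ∀ ω : Ω, s • ω = ω := fun s hs ω => hΩU s (hUle2 hs) ω
  -- the local data
  have hloc := fun (v : ι) (ω : Ω) =>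
    j2d_local D Ω hLoc hdepth y hycoc U hU hUn hyU' hΩU' v ω
  choose n₀ hn₀ U₀ hU₀ hU₀le hU₀n W₀ Θ₀ hW1 hW2 hW3 hΘ1 hΘ3 hWΘ using hloc
  -- a common normal level
  have hinf : (Finset.univ : Finset (ι × Ω)).inf (fun a => U₀ a.1 a.2) ⊓ U ∈ D.𝒯.lev :=
    D.𝒯.inf_mem _ _ (tower_finset_inf_mem D.𝒯 _ _ fun a _ => hU₀ a.1 a.2) hU
  obtain ⟨U', hU', hU'le, hU'n⟩ := D.𝒯.exists_normal _ hinf
  have hU'₀ : ∀ v ω, U' ≤ U₀ v ω := fun v ω =>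
    (hU'le.trans inf_le_left).trans
      (Finset.inf_le (f := fun a : ι × Ω => U₀ a.1 a.2) (Finset.mem_univ (v, ω)))
  have hU'U : U' ≤ U := hU'le.trans inf_le_right
  have hΩU'' : ∀ s ∈ U', ∀ ω : Ω, s • ω = ω := fun s hs ω => hΩU' s (hU'U hs) ω
  -- a common multiplier
  have hn : ¬ p ∣ ∏ a : ι × Ω, n₀ a.1 a.2 := by
    intro h
    obtain ⟨a, -, ha⟩ := (Prime.dvd_finsetProd_iff (Nat.Prime.prime hp.out) _).1 h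
    exact hn₀ a.1 a.2 ha
  have hdvd : ∀ v ω, ∃ k, (∏ a : ι × Ω, n₀ a.1 a.2) = k * n₀ v ω := fun v ω => by
    obtain ⟨k, hk⟩ := Finset.dvd_prod_of_mem (fun a : ι × Ω => n₀ a.1 a.2)
      (Finset.mem_univ (v, ω))
    exact ⟨k, by rw [hk, mul_comm]⟩
  choose m hm using hdvd
  -- jointly equivariant families
  have hfam := fun v : ι =>
    j2d_family (D.r v) (fun d : Gloc v => actAdd (D.Jloc v) d)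
      (fun d d' x => by
        show (D.Jloc v).ρ (d * d') x = (D.Jloc v).ρ d ((D.Jloc v).ρ d' x)
        rw [map_mul]; rfl)
      U' p (∏ a : ι × Ω, n₀ a.1 a.2) (n₀ v) (m v) (hm v) (j2dΨ D Ω y v)
      (fun ω d g₀ g₁ g₂ => j2dΨ_equiv D Ω y v ω d g₀ g₁ g₂)
      (W₀ v) (Θ₀ v)
      (fun ω d g₀ g₁ g₂ hd => hW1 v ω d g₀ g₁ g₂ hd)
      (fun ω g₀ g₁ g₂ g₃ => hW2 v ω g₀ g₁ g₂ g₃)
      (fun ω g₀ g₁ g₂ u₀ u₁ u₂ hu₀ hu₁ hu₂ =>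
        hW3 v ω g₀ g₁ g₂ u₀ u₁ u₂ (hU'₀ v ω hu₀) (hU'₀ v ω hu₁) (hU'₀ v ω hu₂))
      (fun ω d g₀ g₁ hd => hΘ1 v ω d g₀ g₁ hd)
      (fun ω g₀ g₁ u₀ u₁ hu₀ hu₁ => hΘ3 v ω g₀ g₁ u₀ u₁ (hU'₀ v ω hu₀) (hU'₀ v ω hu₁))
      (fun ω g₀ g₁ g₂ => hWΘ v ω g₀ g₁ g₂)
  choose W Θ hW1' hW2' hW3' hΘ1' hΘ3' hEq using hfam
  have hW1'' : ∀ (v : ι) (ω : Ω) (d : Gloc v) (g₀ g₁ g₂ : G),
      W v (D.r v d • ω) (D.r v d * g₀) (D.r v d * g₁) (D.r v d * g₂) =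
        (D.Jloc v).ρ d (W v ω g₀ g₁ g₂) := fun v ω d g₀ g₁ g₂ => hW1' v ω d g₀ g₁ g₂
  have hΘ1'' : ∀ (v : ι) (ω : Ω) (d : Gloc v) (g₀ g₁ : G),
      Θ v (D.r v d • ω) (D.r v d * g₀) (D.r v d * g₁) = (D.Jloc v).ρ d (Θ v ω g₀ g₁) :=
    fun v ω d g₀ g₁ => hΘ1' v ω d g₀ g₁
  refine ⟨∏ a : ι × Ω, n₀ a.1 a.2, hn, j2dW D Ω W,
    j2dW_level D Ω U' hU' hU'n hΩU'' W hW1'' hW3',
    j2dW_cocycle D Ω U' hU' hU'n hΩU'' W hW1'' hW3' hW2', j2dT D Ω Θ,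
    j2dT_level D Ω U' hU' hU'n hΩU'' Θ hΘ1'' hΘ3', ?_⟩
  rintro ⟨σ, τ⟩
  apply in1p_ext
  intro ω
  apply in2a_J_ext
  intro v g
  show (∏ a : ι × Ω, n₀ a.1 a.2) • (y (σ, τ) (MonoidAlgebra.single ω 1)).1 v g =
    p • (j2dW D Ω W (σ, τ) (MonoidAlgebra.single ω 1)).1 v g +
      (dOne (permZ G Ω) (PTJ D) (j2dT D Ω Θ) (σ, τ) (MonoidAlgebra.single ω 1)).1 v g
  rw [← j2dΨ_roundtrip, j2dW_apply D Ω U' hU' hU'n hΩU'' W hW1'' hW3',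
    j2dT_dOne_apply D Ω U' hU' hU'n hΩU'' Θ hΘ1'' hΘ3']
  exact hEq v (g • ω) g (g * σ) (g * σ * τ)

end Assembly

end Fermat.Agent.TW.E

end
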