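/-
TW-E / A5 (helper87), part 2: INVERSE SHAPIRO for a single place.

A local level 2-cocycle `x` of `J_v` defined at the level `r_v⁻¹ U` (`U` a normal global level)
with `p x = d t` is the `v`-component of a global level 2-cocycle `ξ` of `J`, supported at `v`,
with `p ξ = d t₁`:
  `ξ(σ, τ)_v(g) = X(π g, π (g σ), π (g σ τ))`,  `X(d₀, d₁, d₂) = d₀ x(d₀⁻¹ d₁, d₁⁻¹ d₂)`,
`π : G → G_v` a normalised choice of `G_v`-components (`j2d_exists_proj`).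
-/
import Fermat.Agent.TW.E.J2Glue
import Fermat.Agent.PT.F.Level

set_option autoImplicit false
set_option linter.style.haveILetI false
set_option linter.unusedSectionVars false
set_option linter.unusedVariables false

noncomputable section

namespace Fermat.Agent.TW.E

open CategoryTheory groupCohomology Fermat.Agent.PT Fermat.Agent.PT.F

attribute [local instance 1100] Rep.hV2

/-! ### Part A: `J`-valued cochains from homogeneous families -/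

section Fam

variable {p : ℕ} {G : Type} [Group G] {ι : Type} {Gloc : ι → Type} [∀ v, Group (Gloc v)]
  (D : PTDatum p G ι Gloc)

/-- the 2-cochain of `J` with components `g ↦ W v g (g σ) (g σ τ)` -/
def c2sXi (W : ∀ v, G → G → G → (D.Jloc v).V) (στ : G × G) : (PTJ D).V :=
  j2dJ D (fun v g => W v g (g * στ.1) (g * στ.1 * στ.2))

/-- the 1-cochain of `J` with components `g ↦ Θ v g (g σ)` -/
def c2sTh (Θ : ∀ v, G → G → (D.Jloc v).V) (σ : G) : (PTJ D).V :=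
  j2dJ D (fun v g => Θ v g (g * σ))

variable (U : Subgroup G) (hU : U ∈ D.𝒯.lev) (hUn : U.Normal)

section W

variable (W : ∀ v, G → G → G → (D.Jloc v).V)
  (hW1 : ∀ (v : ι) (d : Gloc v) (g₀ g₁ g₂ : G),
    W v (D.r v d * g₀) (D.r v d * g₁) (D.r v d * g₂) = (D.Jloc v).ρ d (W v g₀ g₁ g₂))
  (hW3 : ∀ (v : ι) (g₀ g₁ g₂ u₀ u₁ u₂ : G), u₀ ∈ U → u₁ ∈ U → u₂ ∈ U →
    W v (g₀ * u₀) (g₁ * u₁) (g₂ * u₂) = W v g₀ g₁ g₂)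

include hU hUn hW1 hW3 in
lemma c2sXi_mem (σ τ : G) :
    (fun v g => W v g (g * σ) (g * σ * τ)) ∈ semilocalSub D.𝒯 D.r D.Jloc := by
  intro v
  refine ⟨fun d g => ?_, ⟨U, hU, fun g u hu => ?_⟩⟩
  · show W v (D.r v d * g) (D.r v d * g * σ) (D.r v d * g * σ * τ) =
      (D.Jloc v).ρ d (W v g (g * σ) (g * σ * τ))
    rw [mul_assoc, mul_assoc, mul_assoc, hW1, ← mul_assoc]
  · show W v (g * u) (g * u * σ) (g * u * σ * τ) = W v g (g * σ) (g * σ * τ)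
    have h1 : g * u * σ = g * σ * (σ⁻¹ * u * σ) := by group
    have h2 : g * u * σ * τ = g * σ * τ * ((σ * τ)⁻¹ * u * (σ * τ)) := by group
    have c1 : σ⁻¹ * u * σ ∈ U := by simpa using hUn.conj_mem u hu σ⁻¹
    have c2 : (σ * τ)⁻¹ * u * (σ * τ) ∈ U := by simpa using hUn.conj_mem u hu (σ * τ)⁻¹
    rw [h2, h1]
    exact hW3 v _ _ _ _ _ _ hu c1 c2

include hU hUn hW1 hW3 in
lemma c2sXi_apply (σ τ : G) (v : ι) (g : G) :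
    (c2sXi D W (σ, τ)).1 v g = W v g (g * σ) (g * σ * τ) := by
  unfold c2sXi
  rw [j2dJ_apply D _ (c2sXi_mem D U hU hUn W hW1 hW3 σ τ)]

include hU hUn hW1 hW3 in
lemma c2sXi_level : IsLevel₂ D.𝒯 (c2sXi D W) := by
  refine ⟨U, hU, fun g g' s s' hs hs' => ?_⟩
  apply in2a_J_ext
  intro v x
  rw [c2sXi_apply D U hU hUn W hW1 hW3, c2sXi_apply D U hU hUn W hW1 hW3]
  have h1 : x * (g * s) = x * g * s := by group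
  have h2 : x * (g * s) * (g' * s') = x * g * g' * (g'⁻¹ * s * g' * s') := by group
  have c : g'⁻¹ * s * g' * s' ∈ U := by
    refine U.mul_mem ?_ hs'
    simpa using hUn.conj_mem s hs g'⁻¹
  rw [h2, h1]
  have := hW3 v x (x * g) (x * g * g') 1 s _ U.one_mem hs c
  rw [mul_one] at this
  exact this

include hU hUn hW1 hW3 in
lemma c2sXi_cocycle
    (hW2 : ∀ (v : ι) (g₀ g₁ g₂ g₃ : G),
      W v g₁ g₂ g₃ - W v g₀ g₂ g₃ + W v g₀ g₁ g₃ - W v g₀ g₁ g₂ = 0) :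
    c2sXi D W ∈ cocycles₂ (PTJ D) := by
  rw [mem_cocycles₂_def]
  intro σ τ ρ
  apply in2a_J_ext
  intro v g
  show ((PTJ D).ρ σ (c2sXi D W (τ, ρ))).1 v g - (c2sXi D W (σ * τ, ρ)).1 v g +
      (c2sXi D W (σ, τ * ρ)).1 v g - (c2sXi D W (σ, τ)).1 v g = 0
  have e1 : ((PTJ D).ρ σ (c2sXi D W (τ, ρ))).1 v g = (c2sXi D W (τ, ρ)).1 v (g * σ) := rfl
  rw [e1, c2sXi_apply D U hU hUn W hW1 hW3, c2sXi_apply D U hU hUn W hW1 hW3,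
    c2sXi_apply D U hU hUn W hW1 hW3, c2sXi_apply D U hU hUn W hW1 hW3]
  have e3 : g * (σ * τ) = g * σ * τ := by group
  have e4 : g * σ * (τ * ρ) = g * σ * τ * ρ := by group
  rw [e3, e4]
  exact hW2 v g (g * σ) (g * σ * τ) (g * σ * τ * ρ)

end W

section T

variable (Θ : ∀ v, G → G → (D.Jloc v).V)
  (hΘ1 : ∀ (v : ι) (d : Gloc v) (g₀ g₁ : G),
    Θ v (D.r v d * g₀) (D.r v d * g₁) = (D.Jloc v).ρ d (Θ v g₀ g₁))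
  (hΘ3 : ∀ (v : ι) (g₀ g₁ u₀ u₁ : G), u₀ ∈ U → u₁ ∈ U →
    Θ v (g₀ * u₀) (g₁ * u₁) = Θ v g₀ g₁)

include hU hUn hΘ1 hΘ3 in
lemma c2sTh_mem (σ : G) :
    (fun v g => Θ v g (g * σ)) ∈ semilocalSub D.𝒯 D.r D.Jloc := by
  intro v
  refine ⟨fun d g => ?_, ⟨U, hU, fun g u hu => ?_⟩⟩
  · show Θ v (D.r v d * g) (D.r v d * g * σ) = (D.Jloc v).ρ d (Θ v g (g * σ))
    rw [mul_assoc, hΘ1]
  · show Θ v (g * u) (g * u * σ) = Θ v g (g * σ)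
    have h1 : g * u * σ = g * σ * (σ⁻¹ * u * σ) := by group
    have c1 : σ⁻¹ * u * σ ∈ U := by simpa using hUn.conj_mem u hu σ⁻¹
    rw [h1]
    exact hΘ3 v _ _ _ _ hu c1

include hU hUn hΘ1 hΘ3 in
lemma c2sTh_apply (σ : G) (v : ι) (g : G) :
    (c2sTh D Θ σ).1 v g = Θ v g (g * σ) := by
  unfold c2sTh
  rw [j2dJ_apply D _ (c2sTh_mem D U hU hUn Θ hΘ1 hΘ3 σ)]

include hU hUn hΘ1 hΘ3 in
lemma c2sTh_level : IsLevel₁ D.𝒯 (c2sTh D Θ) := by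
  refine ⟨U, hU, fun g s hs => ?_⟩
  apply in2a_J_ext
  intro v x
  rw [c2sTh_apply D U hU hUn Θ hΘ1 hΘ3, c2sTh_apply D U hU hUn Θ hΘ1 hΘ3]
  have h1 : x * (g * s) = x * g * s := by group
  rw [h1]
  have := hΘ3 v x (x * g) 1 s U.one_mem hs
  rw [mul_one] at this
  exact this

include hU hUn hΘ1 hΘ3 in
lemma c2sTh_d_apply (σ τ : G) (v : ι) (g : G) :
    ((d₁₂ (PTJ D)).hom (c2sTh D Θ) (σ, τ)).1 v g =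
      Θ v (g * σ) (g * σ * τ) - Θ v g (g * σ * τ) + Θ v g (g * σ) := by
  rw [d₁₂_hom_apply]
  show ((PTJ D).ρ σ (c2sTh D Θ τ)).1 v g - (c2sTh D Θ (σ * τ)).1 v g + (c2sTh D Θ σ).1 v g = _
  have e1 : ((PTJ D).ρ σ (c2sTh D Θ τ)).1 v g = (c2sTh D Θ τ).1 v (g * σ) := rfl
  rw [e1, c2sTh_apply D U hU hUn Θ hΘ1 hΘ3, c2sTh_apply D U hU hUn Θ hΘ1 hΘ3,
    c2sTh_apply D U hU hUn Θ hΘ1 hΘ3]
  have e3 : g * (σ * τ) = g * σ * τ := by group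
  rw [e3]

end T

end Fam

/-! ### Part B: homogeneous cochains of a local cocycle -/

section Hom

variable {H : Type} [Group H] (A : Rep.{0} ℤ H)

/-- the homogeneous 2-cochain `(d₀, d₁, d₂) ↦ d₀ x(d₀⁻¹ d₁, d₁⁻¹ d₂)` -/
def c2sHom₂ (x : H × H → A.V) (d₀ d₁ d₂ : H) : A.V :=
  A.ρ d₀ (x (d₀⁻¹ * d₁, d₁⁻¹ * d₂))

/-- the homogeneous 1-cochain `(d₀, d₁) ↦ d₀ t(d₀⁻¹ d₁)` -/
def c2sHom₁ (t : H → A.V) (d₀ d₁ : H) : A.V :=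
  A.ρ d₀ (t (d₀⁻¹ * d₁))

lemma c2s_ρ_cancel (d₀ d₁ : H) (z : A.V) : A.ρ d₀ (A.ρ (d₀⁻¹ * d₁) z) = A.ρ d₁ z := by
  have : A.ρ d₁ = A.ρ d₀ * A.ρ (d₀⁻¹ * d₁) := by rw [← map_mul, mul_inv_cancel_left]
  rw [this]
  rfl

lemma c2sHom₂_equiv (x : H × H → A.V) (d d₀ d₁ d₂ : H) :
    c2sHom₂ A x (d * d₀) (d * d₁) (d * d₂) = A.ρ d (c2sHom₂ A x d₀ d₁ d₂) := by
  unfold c2sHom₂
  have e1 : (d * d₀)⁻¹ * (d * d₁) = d₀⁻¹ * d₁ := by group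
  have e2 : (d * d₁)⁻¹ * (d * d₂) = d₁⁻¹ * d₂ := by group
  rw [e1, e2, map_mul]
  rfl

lemma c2sHom₁_equiv (t : H → A.V) (d d₀ d₁ : H) :
    c2sHom₁ A t (d * d₀) (d * d₁) = A.ρ d (c2sHom₁ A t d₀ d₁) := by
  unfold c2sHom₁
  have e1 : (d * d₀)⁻¹ * (d * d₁) = d₀⁻¹ * d₁ := by group
  rw [e1, map_mul]
  rfl

lemma c2sHom₂_one (x : H × H → A.V) (d₁ d₂ : H) :
    c2sHom₂ A x 1 d₁ (d₁ * d₂) = x (d₁, d₂) := by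
  unfold c2sHom₂
  rw [inv_one, one_mul, inv_mul_cancel_left, map_one]
  rfl

lemma c2sHom₂_cocycle (x : H × H → A.V) (hx : x ∈ cocycles₂ A) (d₀ d₁ d₂ d₃ : H) :
    c2sHom₂ A x d₁ d₂ d₃ - c2sHom₂ A x d₀ d₂ d₃ + c2sHom₂ A x d₀ d₁ d₃ -
      c2sHom₂ A x d₀ d₁ d₂ = 0 := by
  have h := (mem_cocycles₂_def x).1 hx (d₀⁻¹ * d₁) (d₁⁻¹ * d₂) (d₂⁻¹ * d₃)
  have e1 : d₀⁻¹ * d₁ * (d₁⁻¹ * d₂) = d₀⁻¹ * d₂ := by group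
  have e2 : d₁⁻¹ * d₂ * (d₂⁻¹ * d₃) = d₁⁻¹ * d₃ := by group
  rw [e1, e2] at h
  have h' := congrArg (A.ρ d₀) h
  rw [map_zero, map_sub, map_add, map_sub] at h'
  rw [c2s_ρ_cancel] at h'
  exact h'

lemma c2sHom_d (n : ℕ) (x : H × H → A.V) (t : H → A.V) (h : (d₁₂ A).hom t = n • x)
    (d₀ d₁ d₂ : H) :
    n • c2sHom₂ A x d₀ d₁ d₂ =
      c2sHom₁ A t d₁ d₂ - c2sHom₁ A t d₀ d₂ + c2sHom₁ A t d₀ d₁ := by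
  have h1 := congrFun h (d₀⁻¹ * d₁, d₁⁻¹ * d₂)
  rw [d₁₂_hom_apply] at h1
  have e1 : d₀⁻¹ * d₁ * (d₁⁻¹ * d₂) = d₀⁻¹ * d₂ := by group
  simp only [e1] at h1
  have h2 : n • x (d₀⁻¹ * d₁, d₁⁻¹ * d₂) =
      A.ρ (d₀⁻¹ * d₁) (t (d₁⁻¹ * d₂)) - t (d₀⁻¹ * d₂) + t (d₀⁻¹ * d₁) := h1.symm
  unfold c2sHom₂ c2sHom₁
  rw [← map_nsmul, h2, map_add, map_sub]
  rw [c2s_ρ_cancel]

variable (V : Subgroup H) (hVn : V.Normal)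

include hVn in
lemma c2sHom₂_inv (x : H × H → A.V) (hx : Desc₂ A V x) (d₀ d₁ d₂ s₀ s₁ s₂ : H)
    (hs₀ : s₀ ∈ V) (hs₁ : s₁ ∈ V) (hs₂ : s₂ ∈ V) :
    c2sHom₂ A x (d₀ * s₀) (d₁ * s₁) (d₂ * s₂) = c2sHom₂ A x d₀ d₁ d₂ := by
  unfold c2sHom₂
  have a1 : (d₀ * s₀)⁻¹ * (d₁ * s₁) =
      d₀⁻¹ * d₁ * ((d₀⁻¹ * d₁)⁻¹ * s₀⁻¹ * (d₀⁻¹ * d₁) * s₁) := by group
  have a2 : (d₁ * s₁)⁻¹ * (d₂ * s₂) =
      d₁⁻¹ * d₂ * ((d₁⁻¹ * d₂)⁻¹ * s₁⁻¹ * (d₁⁻¹ * d₂) * s₂) := by group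
  have c1 : (d₀⁻¹ * d₁)⁻¹ * s₀⁻¹ * (d₀⁻¹ * d₁) * s₁ ∈ V := by
    refine V.mul_mem ?_ hs₁
    simpa using hVn.conj_mem s₀⁻¹ (V.inv_mem hs₀) (d₀⁻¹ * d₁)⁻¹
  have c2 : (d₁⁻¹ * d₂)⁻¹ * s₁⁻¹ * (d₁⁻¹ * d₂) * s₂ ∈ V := by
    refine V.mul_mem ?_ hs₂
    simpa using hVn.conj_mem s₁⁻¹ (V.inv_mem hs₁) (d₁⁻¹ * d₂)⁻¹
  rw [a1, a2, hx.1 _ _ _ _ c1 c2, map_mul]
  show A.ρ d₀ (A.ρ s₀ (x (d₀⁻¹ * d₁, d₁⁻¹ * d₂))) = _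
  rw [hx.2 _ s₀ hs₀]

include hVn in
lemma c2sHom₁_inv (t : H → A.V) (ht : Desc₁ A V t) (d₀ d₁ s₀ s₁ : H)
    (hs₀ : s₀ ∈ V) (hs₁ : s₁ ∈ V) :
    c2sHom₁ A t (d₀ * s₀) (d₁ * s₁) = c2sHom₁ A t d₀ d₁ := by
  unfold c2sHom₁
  have a1 : (d₀ * s₀)⁻¹ * (d₁ * s₁) =
      d₀⁻¹ * d₁ * ((d₀⁻¹ * d₁)⁻¹ * s₀⁻¹ * (d₀⁻¹ * d₁) * s₁) := by group
  have c1 : (d₀⁻¹ * d₁)⁻¹ * s₀⁻¹ * (d₀⁻¹ * d₁) * s₁ ∈ V := by
    refine V.mul_mem ?_ hs₁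
    simpa using hVn.conj_mem s₀⁻¹ (V.inv_mem hs₀) (d₀⁻¹ * d₁)⁻¹
  rw [a1, ht.1 _ _ c1, map_mul]
  show A.ρ d₀ (A.ρ s₀ (t (d₀⁻¹ * d₁))) = _
  rw [ht.2 _ s₀ hs₀]

end Hom

/-! ### Part C: the global cocycle supported at one place -/

section Main

variable {p : ℕ} {G : Type} [Group G] {ι : Type} {Gloc : ι → Type} [∀ v, Group (Gloc v)]
  (D : PTDatum p G ι Gloc)

open Classical in
/-- the family of homogeneous 2-cochains with a single nonzero component -/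
def c2sFam₂ (v : ι) (W : G → G → G → (D.Jloc v).V) : ∀ v', G → G → G → (D.Jloc v').V :=
  Function.update (fun v' => (0 : G → G → G → (D.Jloc v').V)) v W

open Classical in
/-- the family of homogeneous 1-cochains with a single nonzero component -/
def c2sFam₁ (v : ι) (Θ : G → G → (D.Jloc v).V) : ∀ v', G → G → (D.Jloc v').V :=
  Function.update (fun v' => (0 : G → G → (D.Jloc v').V)) v Θ

open Classical in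
lemma c2sFam₂_self (v : ι) (W : G → G → G → (D.Jloc v).V) : c2sFam₂ D v W v = W := by
  unfold c2sFam₂
  exact Function.update_self _ _ _

open Classical in
lemma c2sFam₂_ne (v : ι) (W : G → G → G → (D.Jloc v).V) {v' : ι} (h : v' ≠ v) :
    c2sFam₂ D v W v' = 0 := by
  unfold c2sFam₂
  exact Function.update_of_ne h _ _

open Classical in
lemma c2sFam₁_self (v : ι) (Θ : G → G → (D.Jloc v).V) : c2sFam₁ D v Θ v = Θ := by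
  unfold c2sFam₁
  exact Function.update_self _ _ _

open Classical in
lemma c2sFam₁_ne (v : ι) (Θ : G → G → (D.Jloc v).V) {v' : ι} (h : v' ≠ v) :
    c2sFam₁ D v Θ v' = 0 := by
  unfold c2sFam₁
  exact Function.update_of_ne h _ _

/-- **Inverse Shapiro at one place.** -/
theorem c2s_invShapiro (n : ℕ) (v : ι) (U : Subgroup G) (hU : U ∈ D.𝒯.lev) (hUn : U.Normal)
    (x : Gloc v × Gloc v → (D.Jloc v).V) (hx : x ∈ cocycles₂ (D.Jloc v))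
    (hxd : Desc₂ (D.Jloc v) (U.comap (D.r v)) x)
    (t : Gloc v → (D.Jloc v).V) (htd : Desc₁ (D.Jloc v) (U.comap (D.r v)) t)
    (hpx : (d₁₂ (D.Jloc v)).hom t = n • x) :
    ∃ ξ : G × G → (PTJ D).V, ξ ∈ cocycles₂ (PTJ D) ∧ IsLevel₂ D.𝒯 ξ ∧
      (∀ v' : ι, v' ≠ v → ∀ g g' h : G, (ξ (g, g')).1 v' h = 0) ∧
      (∃ t₁ : G → (PTJ D).V, IsLevel₁ D.𝒯 t₁ ∧ (d₁₂ (PTJ D)).hom t₁ = n • ξ) ∧
      (fun dd : Gloc v × Gloc v => (ξ (D.r v dd.1, D.r v dd.2)).1 v 1) = x := by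
  haveI := hUn
  obtain ⟨π, hπ1, hπ⟩ := j2d_exists_proj (D.r v) U
  have hVn : (U.comap (D.r v)).Normal := hUn.comap _
  have hπd : ∀ (d : Gloc v) (g : G), ∃ s : Gloc v, D.r v s ∈ U ∧ π (D.r v d * g) = d * π g * s :=
    fun d g => by
      obtain ⟨s, hs, e⟩ := hπ d g 1 U.one_mem
      rw [mul_one] at e
      exact ⟨s, hs, e⟩
  have hπu : ∀ (g u : G), u ∈ U → ∃ s : Gloc v, D.r v s ∈ U ∧ π (g * u) = π g * s :=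
    fun g u hu => by
      obtain ⟨s, hs, e⟩ := hπ 1 g u hu
      rw [map_one, one_mul, one_mul] at e
      exact ⟨s, hs, e⟩
  have hπr : ∀ d : Gloc v, ∃ s : Gloc v, D.r v s ∈ U ∧ π (D.r v d) = d * s := fun d => by
    obtain ⟨s, hs, e⟩ := hπd d 1
    rw [mul_one, hπ1, mul_one] at e
    exact ⟨s, hs, e⟩
  -- the `v`-components
  set Wv : G → G → G → (D.Jloc v).V :=
    fun g₀ g₁ g₂ => c2sHom₂ (D.Jloc v) x (π g₀) (π g₁) (π g₂) with hWv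
  set Θv : G → G → (D.Jloc v).V :=
    fun g₀ g₁ => c2sHom₁ (D.Jloc v) t (π g₀) (π g₁) with hΘv
  have hX3 := c2sHom₂_inv (D.Jloc v) (U.comap (D.r v)) hVn x hxd
  have hT3 := c2sHom₁_inv (D.Jloc v) (U.comap (D.r v)) hVn t htd
  have hWv1 : ∀ (d : Gloc v) (g₀ g₁ g₂ : G),
      Wv (D.r v d * g₀) (D.r v d * g₁) (D.r v d * g₂) = (D.Jloc v).ρ d (Wv g₀ g₁ g₂) := by
    intro d g₀ g₁ g₂
    obtain ⟨s₀, hs₀, e₀⟩ := hπd d g₀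
    obtain ⟨s₁, hs₁, e₁⟩ := hπd d g₁
    obtain ⟨s₂, hs₂, e₂⟩ := hπd d g₂
    show c2sHom₂ (D.Jloc v) x (π (D.r v d * g₀)) (π (D.r v d * g₁)) (π (D.r v d * g₂)) =
      (D.Jloc v).ρ d (c2sHom₂ (D.Jloc v) x (π g₀) (π g₁) (π g₂))
    rw [e₀, e₁, e₂, hX3 _ _ _ _ _ _ hs₀ hs₁ hs₂, c2sHom₂_equiv]
  have hWv2 : ∀ g₀ g₁ g₂ g₃ : G,
      Wv g₁ g₂ g₃ - Wv g₀ g₂ g₃ + Wv g₀ g₁ g₃ - Wv g₀ g₁ g₂ = 0 :=
    fun g₀ g₁ g₂ g₃ => c2sHom₂_cocycle (D.Jloc v) x hx _ _ _ _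
  have hWv3 : ∀ g₀ g₁ g₂ u₀ u₁ u₂ : G, u₀ ∈ U → u₁ ∈ U → u₂ ∈ U →
      Wv (g₀ * u₀) (g₁ * u₁) (g₂ * u₂) = Wv g₀ g₁ g₂ := by
    intro g₀ g₁ g₂ u₀ u₁ u₂ hu₀ hu₁ hu₂
    obtain ⟨s₀, hs₀, e₀⟩ := hπu g₀ u₀ hu₀
    obtain ⟨s₁, hs₁, e₁⟩ := hπu g₁ u₁ hu₁
    obtain ⟨s₂, hs₂, e₂⟩ := hπu g₂ u₂ hu₂
    show c2sHom₂ (D.Jloc v) x (π (g₀ * u₀)) (π (g₁ * u₁)) (π (g₂ * u₂)) =
      c2sHom₂ (D.Jloc v) x (π g₀) (π g₁) (π g₂)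
    rw [e₀, e₁, e₂, hX3 _ _ _ _ _ _ hs₀ hs₁ hs₂]
  have hΘv1 : ∀ (d : Gloc v) (g₀ g₁ : G),
      Θv (D.r v d * g₀) (D.r v d * g₁) = (D.Jloc v).ρ d (Θv g₀ g₁) := by
    intro d g₀ g₁
    obtain ⟨s₀, hs₀, e₀⟩ := hπd d g₀
    obtain ⟨s₁, hs₁, e₁⟩ := hπd d g₁
    show c2sHom₁ (D.Jloc v) t (π (D.r v d * g₀)) (π (D.r v d * g₁)) =
      (D.Jloc v).ρ d (c2sHom₁ (D.Jloc v) t (π g₀) (π g₁))
    rw [e₀, e₁, hT3 _ _ _ _ hs₀ hs₁, c2sHom₁_equiv]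
  have hΘv3 : ∀ g₀ g₁ u₀ u₁ : G, u₀ ∈ U → u₁ ∈ U →
      Θv (g₀ * u₀) (g₁ * u₁) = Θv g₀ g₁ := by
    intro g₀ g₁ u₀ u₁ hu₀ hu₁
    obtain ⟨s₀, hs₀, e₀⟩ := hπu g₀ u₀ hu₀
    obtain ⟨s₁, hs₁, e₁⟩ := hπu g₁ u₁ hu₁
    show c2sHom₁ (D.Jloc v) t (π (g₀ * u₀)) (π (g₁ * u₁)) =
      c2sHom₁ (D.Jloc v) t (π g₀) (π g₁)
    rw [e₀, e₁, hT3 _ _ _ _ hs₀ hs₁]
  have hWΘ : ∀ g₀ g₁ g₂ : G, n • Wv g₀ g₁ g₂ = Θv g₁ g₂ - Θv g₀ g₂ + Θv g₀ g₁ :=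
    fun g₀ g₁ g₂ => c2sHom_d (D.Jloc v) n x t hpx _ _ _
  -- the families
  have hW1 : ∀ (v' : ι) (d : Gloc v') (g₀ g₁ g₂ : G),
      c2sFam₂ D v Wv v' (D.r v' d * g₀) (D.r v' d * g₁) (D.r v' d * g₂) =
        (D.Jloc v').ρ d (c2sFam₂ D v Wv v' g₀ g₁ g₂) := by
    intro v' d g₀ g₁ g₂
    by_cases h : v' = v
    · subst h
      rw [c2sFam₂_self]
      exact hWv1 d g₀ g₁ g₂
    · rw [c2sFam₂_ne D v Wv h]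
      simp
  have hW2 : ∀ (v' : ι) (g₀ g₁ g₂ g₃ : G),
      c2sFam₂ D v Wv v' g₁ g₂ g₃ - c2sFam₂ D v Wv v' g₀ g₂ g₃ + c2sFam₂ D v Wv v' g₀ g₁ g₃ -
        c2sFam₂ D v Wv v' g₀ g₁ g₂ = 0 := by
    intro v' g₀ g₁ g₂ g₃
    by_cases h : v' = v
    · subst h
      rw [c2sFam₂_self]
      exact hWv2 g₀ g₁ g₂ g₃
    · rw [c2sFam₂_ne D v Wv h]
      simp
  have hW3 : ∀ (v' : ι) (g₀ g₁ g₂ u₀ u₁ u₂ : G), u₀ ∈ U → u₁ ∈ U → u₂ ∈ U →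
      c2sFam₂ D v Wv v' (g₀ * u₀) (g₁ * u₁) (g₂ * u₂) = c2sFam₂ D v Wv v' g₀ g₁ g₂ := by
    intro v' g₀ g₁ g₂ u₀ u₁ u₂ hu₀ hu₁ hu₂
    by_cases h : v' = v
    · subst h
      rw [c2sFam₂_self]
      exact hWv3 g₀ g₁ g₂ u₀ u₁ u₂ hu₀ hu₁ hu₂
    · rw [c2sFam₂_ne D v Wv h]
      simp
  have hΘ1 : ∀ (v' : ι) (d : Gloc v') (g₀ g₁ : G),
      c2sFam₁ D v Θv v' (D.r v' d * g₀) (D.r v' d * g₁) =
        (D.Jloc v').ρ d (c2sFam₁ D v Θv v' g₀ g₁) := by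
    intro v' d g₀ g₁
    by_cases h : v' = v
    · subst h
      rw [c2sFam₁_self]
      exact hΘv1 d g₀ g₁
    · rw [c2sFam₁_ne D v Θv h]
      simp
  have hΘ3 : ∀ (v' : ι) (g₀ g₁ u₀ u₁ : G), u₀ ∈ U → u₁ ∈ U →
      c2sFam₁ D v Θv v' (g₀ * u₀) (g₁ * u₁) = c2sFam₁ D v Θv v' g₀ g₁ := by
    intro v' g₀ g₁ u₀ u₁ hu₀ hu₁
    by_cases h : v' = v
    · subst h
      rw [c2sFam₁_self]
      exact hΘv3 g₀ g₁ u₀ u₁ hu₀ hu₁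
    · rw [c2sFam₁_ne D v Θv h]
      simp
  have hap := c2sXi_apply D U hU hUn (c2sFam₂ D v Wv) hW1 hW3
  refine ⟨c2sXi D (c2sFam₂ D v Wv),
    c2sXi_cocycle D U hU hUn _ hW1 hW3 hW2, c2sXi_level D U hU hUn _ hW1 hW3, ?_,
    ⟨c2sTh D (c2sFam₁ D v Θv), c2sTh_level D U hU hUn _ hΘ1 hΘ3, ?_⟩, ?_⟩
  · intro v' hv' g g' h
    rw [hap, c2sFam₂_ne D v Wv hv']
    rfl
  · funext ⟨σ, τ⟩
    apply in2a_J_ext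
    intro v' g
    rw [c2sTh_d_apply D U hU hUn _ hΘ1 hΘ3]
    show _ = n • (c2sXi D (c2sFam₂ D v Wv) (σ, τ)).1 v' g
    rw [hap]
    by_cases h : v' = v
    · subst h
      rw [c2sFam₂_self, c2sFam₁_self]
      exact (hWΘ _ _ _).symm
    · rw [c2sFam₂_ne D v Wv h, c2sFam₁_ne D v Θv h]
      simp
  · funext ⟨d₁, d₂⟩
    show (c2sXi D (c2sFam₂ D v Wv) (D.r v d₁, D.r v d₂)).1 v 1 = x (d₁, d₂)
    rw [hap, c2sFam₂_self, one_mul, ← map_mul]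
    obtain ⟨s₁, hs₁, e₁⟩ := hπr d₁
    obtain ⟨s₂, hs₂, e₂⟩ := hπr (d₁ * d₂)
    show c2sHom₂ (D.Jloc v) x (π 1) (π (D.r v d₁)) (π (D.r v (d₁ * d₂))) = x (d₁, d₂)
    rw [hπ1, e₁, e₂]
    have := hX3 1 d₁ (d₁ * d₂) 1 s₁ s₂ (U.comap (D.r v)).one_mem hs₁ hs₂
    rw [mul_one] at this
    rw [this, c2sHom₂_one]

end Main

end Fermat.Agent.TW.E

end
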