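/-
TW-E / A5 (helper87), part 1: a LOCAL level class of order `p`.

* `c2s_exists_order_p` (finite groups): with a `p`-fundamental class and `p ∣ |Γ|`, `H²(Γ, Y)`
  contains an element of order exactly `p` (Cauchy + `stmtKill`).
* `c2s_local`: under `HasPDepthGlob`, at every place `v` there is a level 2-cocycle `x` of `J_v`,
  defined at a level `r_v⁻¹ U'` (`U'` a normal global level), with `p x = d t` (`t` defined at
  the same level) which is NOT a level coboundary (`infl_injective_pPrimary`).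
-/
import Fermat.Agent.TW.E.Plan
import Fermat.Agent.PT.F.Level
import Fermat.Agent.PT.F.InflInj
import Fermat.Agent.PT.A.Kill

set_option autoImplicit false
set_option linter.style.haveILetI false

noncomputable section

namespace Fermat.Agent.TW.E

open CategoryTheory groupCohomology Fermat.Agent.PT Fermat.Agent.PT.F

attribute [local instance 1100] Rep.hV2

set_option backward.isDefEq.respectTransparency false in
/-- With a `p`-fundamental class and `p ∣ |Γ|`, `H²(Γ, Y)` has an element of order `p`. -/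
theorem c2s_exists_order_p (p : ℕ) [Fact p.Prime] (Γ : Type) [Group Γ] [Finite Γ]
    (Y : Rep.{0} ℤ Γ) (u : H2 Y) (hu : IsPFundClass p Y u) (hp : p ∣ Nat.card Γ) :
    ∃ x : H2 Y, p • x = 0 ∧ x ≠ 0 := by
  classical
  have hpp : p.Prime := Fact.out
  letI : Fintype Γ := Fintype.ofFinite Γ
  -- an element of order `p`
  obtain ⟨g, hg⟩ := exists_prime_orderOf_dvd_card' p hp
  set H : Subgroup Γ := Subgroup.zpowers g with hH
  have hHcard : Nat.card H = p := by
    rw [hH, Nat.card_zpowers, hg]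
  have hHp : IsPGroup p H := IsPGroup.of_card (n := 1) (by rw [hHcard, pow_one])
  have hcard := hu.h2_card H hHp
  rw [hHcard] at hcard
  have hgen := hu.h2_gen H hHp
  set ru : H2 (Rep.res H.subtype Y) := (resSub Y H 2).hom u with hru
  -- `res u ≠ 0`
  have hru0 : ru ≠ 0 := by
    intro h0
    have hz : ∀ a : H2 (Rep.res H.subtype Y), a = 0 := by
      intro a
      obtain ⟨n, hn⟩ := hgen a
      have h1 : a ∈ AddSubgroup.zmultiples ru := AddSubgroup.mem_zmultiples_iff.2 ⟨n, hn⟩
      rw [h0, AddSubgroup.zmultiples_zero_eq_bot, AddSubgroup.mem_bot] at h1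
      exact h1
    have hsub : Subsingleton (H2 (Rep.res H.subtype Y)) :=
      ⟨fun a b => (hz a).trans (hz b).symm⟩
    have := Nat.card_unique (α := H2 (Rep.res H.subtype Y))
    rw [hcard] at this
    exact hpp.one_lt.ne' this
  -- `p • res u = 0`
  have hpru : p • ru = 0 := by
    have hfin : Finite (H2 (Rep.res H.subtype Y)) :=
      Nat.finite_of_card_ne_zero (by rw [hcard]; exact hpp.pos.ne')
    have := card_nsmul_eq_zero' (G := H2 (Rep.res H.subtype Y)) (x := ru)
    rwa [hcard] at this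
  -- the prime-to-`p` part of `|Γ|`
  set N : ℕ := Nat.card Γ with hN
  have hNpos : N ≠ 0 := Nat.card_pos.ne'
  set a : ℕ := N.factorization p with ha
  set m : ℕ := N / p ^ a with hm
  have hNm : p ^ a * m = N := Nat.ordProj_mul_ordCompl_eq_self N p
  have hpm : ¬ p ∣ m := Nat.not_dvd_ordCompl hpp hNpos
  have hkill : N • u = 0 := by
    have := stmtKill Γ Y 1 u
    rwa [← Nat.card_eq_fintype_card] at this
  set y₀ : H2 Y := m • u with hy₀
  have hy₀tors : (p ^ a) • y₀ = 0 := by
    rw [hy₀, smul_smul, hNm, hkill]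
  have hy₀ne : y₀ ≠ 0 := by
    intro h0
    apply hru0
    have h1 : m • ru = 0 := by
      rw [hru, ← map_nsmul, ← hy₀, h0, map_zero]
    by_contra hne
    have ho : addOrderOf ru = p := addOrderOf_eq_prime hpru hne
    have hd : addOrderOf ru ∣ m := addOrderOf_dvd_of_nsmul_eq_zero h1
    rw [ho] at hd
    exact hpm hd
  -- minimal `k` with `p ^ k • y₀ = 0`
  have hex : ∃ k, (p ^ k) • y₀ = 0 := ⟨a, hy₀tors⟩
  set k := Nat.find hex with hk
  have hk0 : k ≠ 0 := by
    intro h0
    have := Nat.find_spec hex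
    rw [← hk, h0, pow_zero, one_smul] at this
    exact hy₀ne this
  obtain ⟨k', hk'⟩ := Nat.exists_eq_succ_of_ne_zero hk0
  refine ⟨(p ^ k') • y₀, ?_, ?_⟩
  · have := Nat.find_spec hex
    rw [← hk, hk', pow_succ, mul_comm, mul_smul] at this
    exact this
  · intro h0
    have : k ≤ k' := Nat.find_min' hex h0
    omega

/-- every class of `H²` is the class of a cocycle -/
lemma c2s_H2π_surj {Γ : Type} [Group Γ] (Y : Rep.{0} ℤ Γ) (x : H2 Y) :
    ∃ c : cocycles₂ Y, H2π Y c = x := by
  induction x using H2_induction_on with | @h c => exact ⟨c, rfl⟩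

/-- **The local class of order `p`**: a level 2-cocycle of `J_v`, defined at the level
`r_v⁻¹ U'`, killed by `p` up to a coboundary defined at the same level, which is not a level
coboundary. -/
theorem c2s_local {p : ℕ} [Fact p.Prime] {G : Type} [Group G] {ι : Type} {Gloc : ι → Type}
    [∀ v, Group (Gloc v)] (D : PTDatum p G ι Gloc) (hdepth : HasPDepthGlob D) (v : ι) :
    ∃ U' ∈ D.𝒯.lev, U'.Normal ∧ ∃ x : Gloc v × Gloc v → (D.Jloc v).V,
      x ∈ cocycles₂ (D.Jloc v) ∧ Desc₂ (D.Jloc v) (U'.comap (D.r v)) x ∧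
      (∃ t : Gloc v → (D.Jloc v).V, Desc₁ (D.Jloc v) (U'.comap (D.r v)) t ∧
        (d₁₂ (D.Jloc v)).hom t = p • x) ∧
      x ∉ levCoboundaries₂ (D.𝒯loc v) (D.Jloc v) := by
  obtain ⟨U', hU', -, hn, hdiv⟩ := hdepth v ⊤ D.𝒯.top_mem
  rw [Subgroup.comap_top, Subgroup.relIndex_top_right] at hdiv
  refine ⟨U', hU', hn, ?_⟩
  set V : Subgroup (Gloc v) := U'.comap (D.r v) with hVdef
  haveI hVn : V.Normal := hn.comap _
  have hV : V ∈ (D.𝒯loc v).lev := D.comap_mem v U' hU'
  haveI := (D.𝒯loc v).finiteIndex V hV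
  haveI : Finite (Gloc v ⧸ V) := Subgroup.finite_quotient_of_finiteIndex
  obtain ⟨u, hu⟩ := D.cm_loc v V hV
  obtain ⟨x, hpx, hx0⟩ := c2s_exists_order_p p (Gloc v ⧸ V)
    ((D.Jloc v).quotientToInvariants V) u hu (by rwa [← Subgroup.index_eq_card])
  obtain ⟨xt, rfl⟩ := c2s_H2π_surj _ x
  rw [← map_nsmul, H2π_eq_zero_iff] at hpx
  obtain ⟨tt, htt⟩ := hpx
  refine ⟨infl₂ (D.Jloc v) V xt, (infl₂_mem_cocycles₂_iff _).2 xt.2, desc₂_infl₂ _,
    ⟨infl₁ (D.Jloc v) V tt, desc₁_infl₁ _, ?_⟩, ?_⟩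
  · rw [← infl₂_d₁₂, htt]
    rfl
  · intro hcob
    apply hx0
    exact infl_injective_pPrimary stmtInflInjFin p (D.Jloc_discrete v) (D.cm_loc v) hV xt
      ⟨1, by
        rw [pow_one, ← map_nsmul, H2π_eq_zero_iff]
        exact ⟨tt, htt⟩⟩ hcob

end Fermat.Agent.TW.E

end
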