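/-
TW-E / A5 (helper87), part 3: the statements `In6`, `In7`, `In7p` for the trivial lattice in the
language of `levCocycles₂` / `levCoboundaries₂`, and the proof of `In7p`, `In7` from `In6`.

* `c2s_surjP` (`In7p`): the `p`-torsion of `H²_lev(G, C)` is cyclic (`levH2_pTorsion_cyclic`), and
  the image of the `v`-supported class `ξ` of order `p` (`c2s_local`, `c2s_invShapiro`) is not
  zero (`surv`); so every `p`-torsion class is a multiple of `π_* ξ`.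
* `c2s_surj` (`In7`): level classes of `C` are torsion (`stmtKill` at a finite level); induction
  on the `p`-adic valuation of the order using `In7p` and `In6`.
-/
import Fermat.Agent.TW.E.C2Loc
import Fermat.Agent.TW.E.C2Inv
import Fermat.Agent.TW.F.Rec
import Fermat.Agent.PT.F.H2pCyclic

set_option autoImplicit false
set_option linter.style.haveILetI false
set_option linter.unusedSectionVars false
set_option linter.unusedVariables false

noncomputable section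

namespace Fermat.Agent.TW.E

open CategoryTheory groupCohomology Fermat.Agent.PT Fermat.Agent.PT.F Fermat.Agent.TW.F

attribute [local instance 1100] Rep.hV2

variable {p : ℕ} {G : Type} [Group G] {ι : Type} {Gloc : ι → Type} [∀ v, Group (Gloc v)]

/-- `In6` for the trivial lattice, in terms of `J`-valued cochains. -/
def C2sDiv (D : PTDatum p G ι Gloc) : Prop :=
  ∀ y : G × G → (PTJ D).V, y ∈ levCocycles₂ D.𝒯 (PTJ D) →
    ∃ n : ℕ, ¬ p ∣ n ∧ ∃ w : G × G → (PTJ D).V, w ∈ levCocycles₂ D.𝒯 (PTJ D) ∧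
      n • y - p • w ∈ levCoboundaries₂ D.𝒯 (PTJ D)

/-- `In7p` for the trivial lattice, in terms of `J`- and `C`-valued cochains. -/
def C2sSurjP (D : PTDatum p G ι Gloc) : Prop :=
  ∀ c : G × G → D.C.V, c ∈ levCocycles₂ D.𝒯 D.C → p • c ∈ levCoboundaries₂ D.𝒯 D.C →
    ∃ n : ℕ, ¬ p ∣ n ∧ ∃ w : G × G → (PTJ D).V, w ∈ levCocycles₂ D.𝒯 (PTJ D) ∧
      p • w ∈ levCoboundaries₂ D.𝒯 (PTJ D) ∧
      n • c - frecPi D w ∈ levCoboundaries₂ D.𝒯 D.C

/-- `In7` for the trivial lattice, in terms of `J`- and `C`-valued cochains. -/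
def C2sSurj (D : PTDatum p G ι Gloc) : Prop :=
  ∀ c : G × G → D.C.V, c ∈ levCocycles₂ D.𝒯 D.C →
    ∃ n : ℕ, ¬ p ∣ n ∧ ∃ w : G × G → (PTJ D).V, w ∈ levCocycles₂ D.𝒯 (PTJ D) ∧
      n • c - frecPi D w ∈ levCoboundaries₂ D.𝒯 D.C

lemma c2s_frecPi_zero (D : PTDatum p G ι Gloc) : frecPi D 0 = 0 := by
  funext gg
  show D.π.hom 0 = 0
  rw [map_zero]

lemma c2s_frecPi_add (D : PTDatum p G ι Gloc) (a b : G × G → (PTJ D).V) :
    frecPi D (a + b) = frecPi D a + frecPi D b := by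
  funext gg
  show D.π.hom (a gg + b gg) = D.π.hom (a gg) + D.π.hom (b gg)
  rw [map_add]

lemma c2s_frecPi_sub (D : PTDatum p G ι Gloc) (a b : G × G → (PTJ D).V) :
    frecPi D (a - b) = frecPi D a - frecPi D b := by
  funext gg
  show D.π.hom (a gg - b gg) = D.π.hom (a gg) - D.π.hom (b gg)
  rw [map_sub]

lemma c2s_frecPi_nsmul (D : PTDatum p G ι Gloc) (n : ℕ) (a : G × G → (PTJ D).V) :
    frecPi D (n • a) = n • frecPi D a := by
  funext gg
  show D.π.hom (n • a gg) = n • D.π.hom (a gg)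
  rw [map_nsmul]

/-- **`In7p`**, cochain form. -/
theorem c2s_surjP [Fact p.Prime] [Nonempty ι] (D : PTDatum p G ι Gloc)
    (hdepth : HasPDepthGlob D) : C2sSurjP D := by
  obtain ⟨v⟩ := ‹Nonempty ι›
  obtain ⟨U', hU', hn, x, hx, hxd, ⟨t, htd, hpx⟩, hxne⟩ := c2s_local D hdepth v
  obtain ⟨ξ, hξc, hξl, hsupp, ⟨t₁, ht₁, hdt₁⟩, hloc⟩ :=
    c2s_invShapiro D p v U' hU' hn x hx hxd t htd hpx
  have hξ : ξ ∈ levCocycles₂ D.𝒯 (PTJ D) := ⟨hξc, hξl⟩
  have hpξ : p • ξ ∈ levCoboundaries₂ D.𝒯 (PTJ D) :=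
    (mem_levCoboundaries₂_iff _ _ _).2 ⟨t₁, ht₁, hdt₁⟩
  -- the image of `ξ` in `C` is not a level coboundary
  have hπξ : frecPi D ξ ∉ levCoboundaries₂ D.𝒯 D.C := by
    intro hcob
    obtain ⟨t', ht', hdt'⟩ := (mem_levCoboundaries₂_iff _ _ _).1 hcob
    obtain ⟨tl, htl, hdtl⟩ := D.surv v ξ hξc hξl hsupp
      ⟨1, t₁, ht₁, by rw [pow_one]; exact hdt₁⟩ ⟨t', ht', hdt'⟩
    apply hxne
    exact (mem_levCoboundaries₂_iff _ _ _).2 ⟨tl, htl, hdtl.trans hloc⟩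
  set a₀ : ↥(levCocycles₂ D.𝒯 D.C) := ⟨frecPi D ξ, frecPi_mem_cocycles D hξ⟩ with ha₀
  set x₀ : levH2 D.𝒯 D.C := levH2π D.𝒯 D.C a₀ with hx₀
  have hx₀ne : x₀ ≠ 0 := by
    intro h0
    exact hπξ ((levH2π_eq_zero_iff _ _ _).1 h0)
  have hpx₀ : p • x₀ = 0 := by
    rw [hx₀, ← map_nsmul, levH2π_eq_zero_iff]
    show p • frecPi D ξ ∈ _
    rw [← c2s_frecPi_nsmul]
    exact frecPi_mem_coboundaries D hpξ
  intro c hc hpc
  have hpy : p • levH2π D.𝒯 D.C ⟨c, hc⟩ = 0 := by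
    rw [← map_nsmul, levH2π_eq_zero_iff]
    exact hpc
  obtain ⟨n₀, hn₀⟩ := levH2_pTorsion_cyclic stmtH2pCyclic p D.C_discrete D.cm_glob x₀ _
    hpx₀ hpy hx₀ne
  refine ⟨1, fun h => (Nat.Prime.one_lt Fact.out).ne' (Nat.dvd_one.1 h), n₀ • ξ,
    (levCocycles₂ D.𝒯 (PTJ D)).smul_of_tower_mem n₀ hξ, ?_, ?_⟩
  · rw [smul_comm]
    exact (levCoboundaries₂ D.𝒯 (PTJ D)).smul_of_tower_mem n₀ hpξ
  · rw [one_smul, c2s_frecPi_nsmul]
    have h1 : levH2π D.𝒯 D.C (⟨c, hc⟩ - n₀ • a₀) = 0 := by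
      rw [map_sub, map_nsmul, hn₀, sub_self]
    exact (levH2π_eq_zero_iff _ _ _).1 h1

/-- level classes are torsion -/
theorem c2s_torsion {𝒯 : Tower G} {X : Rep.{0} ℤ G}
    (hX : IsDiscrete 𝒯 X) (c : G × G → X.V) (hc : c ∈ levCocycles₂ 𝒯 X) :
    ∃ N : ℕ, N ≠ 0 ∧ N • c ∈ levCoboundaries₂ 𝒯 X := by
  obtain ⟨U₀, hU₀, hd₀⟩ := exists_desc₂ hX hc.2
  obtain ⟨U, hU, hle, hUn⟩ := 𝒯.exists_normal U₀ hU₀
  haveI := hUn
  have hd : Desc₂ X U c := hd₀.mono hle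
  haveI := 𝒯.finiteIndex U hU
  haveI : Finite (G ⧸ U) := Subgroup.finite_quotient_of_finiteIndex
  letI : Fintype (G ⧸ U) := Fintype.ofFinite _
  have hcc : descend₂ c hd ∈ cocycles₂ (X.quotientToInvariants U) := by
    rw [← infl₂_mem_cocycles₂_iff, infl₂_descend₂]
    exact hc.1
  have hkill := stmtKill (G ⧸ U) (X.quotientToInvariants U) 1
    (H2π (X.quotientToInvariants U) ⟨descend₂ c hd, hcc⟩)
  rw [← map_nsmul, H2π_eq_zero_iff] at hkill
  refine ⟨Fintype.card (G ⧸ U), Fintype.card_ne_zero, ?_⟩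
  have := infl₂_mem_coboundaries₂ hU _ hkill
  have e : infl₂ X U ((Fintype.card (G ⧸ U) • (⟨descend₂ c hd, hcc⟩ :
      cocycles₂ (X.quotientToInvariants U)) : cocycles₂ (X.quotientToInvariants U)) :
        (G ⧸ U) × (G ⧸ U) → (X.quotientToInvariants U).V) = Fintype.card (G ⧸ U) • c := by
    show infl₂ X U (Fintype.card (G ⧸ U) • descend₂ c hd) = _
    rw [infl₂_nsmul, infl₂_descend₂]
  rw [e] at this
  exact this

/-- `In6` iterated: divisibility by `p ^ k`. -/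
theorem c2s_divPow [Fact p.Prime] (D : PTDatum p G ι Gloc) (hdiv : C2sDiv D) (k : ℕ) :
    ∀ y : G × G → (PTJ D).V, y ∈ levCocycles₂ D.𝒯 (PTJ D) →
      ∃ n : ℕ, ¬ p ∣ n ∧ ∃ w : G × G → (PTJ D).V, w ∈ levCocycles₂ D.𝒯 (PTJ D) ∧
        n • y - (p ^ k) • w ∈ levCoboundaries₂ D.𝒯 (PTJ D) := by
  have hpp : p.Prime := Fact.out
  induction k with
  | zero =>
    intro y hy
    refine ⟨1, fun h => hpp.one_lt.ne' (Nat.dvd_one.1 h), y, hy, ?_⟩
    rw [pow_zero, sub_self]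
    exact (levCoboundaries₂ D.𝒯 (PTJ D)).zero_mem
  | succ k ih =>
    intro y hy
    obtain ⟨n, hn, w, hw, hnw⟩ := ih y hy
    obtain ⟨n', hn', w', hw', hnw'⟩ := hdiv w hw
    refine ⟨n' * n, fun h => ?_, w', hw', ?_⟩
    · rcases (Nat.Prime.dvd_mul hpp).1 h with h | h
      · exact hn' h
      · exact hn h
    · have e : (n' * n) • y - (p ^ (k + 1)) • w' =
          n' • (n • y - (p ^ k) • w) + (p ^ k) • (n' • w - p • w') := by
        rw [smul_sub, smul_sub, smul_smul, smul_smul, smul_smul, smul_smul, pow_succ,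
          mul_comm n' (p ^ k)]
        abel
      rw [e]
      exact (levCoboundaries₂ D.𝒯 (PTJ D)).add_mem
        ((levCoboundaries₂ D.𝒯 (PTJ D)).smul_of_tower_mem n' hnw)
        ((levCoboundaries₂ D.𝒯 (PTJ D)).smul_of_tower_mem (p ^ k) hnw')

/-- `In7` for classes killed by `p ^ k`. -/
theorem c2s_surj_pow [Fact p.Prime] (D : PTDatum p G ι Gloc) (hdiv : C2sDiv D)
    (hP : C2sSurjP D) (k : ℕ) :
    ∀ c : G × G → D.C.V, c ∈ levCocycles₂ D.𝒯 D.C →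
      (p ^ k) • c ∈ levCoboundaries₂ D.𝒯 D.C →
      ∃ n : ℕ, ¬ p ∣ n ∧ ∃ w : G × G → (PTJ D).V, w ∈ levCocycles₂ D.𝒯 (PTJ D) ∧
        n • c - frecPi D w ∈ levCoboundaries₂ D.𝒯 D.C := by
  have hpp : p.Prime := Fact.out
  induction k with
  | zero =>
    intro c hc hpc
    rw [pow_zero, one_smul] at hpc
    refine ⟨1, fun h => hpp.one_lt.ne' (Nat.dvd_one.1 h), 0,
      (levCocycles₂ D.𝒯 (PTJ D)).zero_mem, ?_⟩
    rw [one_smul, c2s_frecPi_zero, sub_zero]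
    exact hpc
  | succ k ih =>
    intro c hc hpc
    have hc' : (p ^ k) • c ∈ levCocycles₂ D.𝒯 D.C :=
      (levCocycles₂ D.𝒯 D.C).smul_of_tower_mem (p ^ k) hc
    have hpc' : p • ((p ^ k) • c) ∈ levCoboundaries₂ D.𝒯 D.C := by
      rw [smul_smul, mul_comm, ← pow_succ]
      exact hpc
    obtain ⟨n₁, hn₁, w₁, hw₁, -, h₁⟩ := hP _ hc' hpc'
    obtain ⟨n₃, hn₃, w₃, hw₃, h₃⟩ := c2s_divPow D hdiv k w₁ hw₁
    have hc'' : (n₃ * n₁) • c - frecPi D w₃ ∈ levCocycles₂ D.𝒯 D.C :=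
      (levCocycles₂ D.𝒯 D.C).sub_mem ((levCocycles₂ D.𝒯 D.C).smul_of_tower_mem _ hc)
        (frecPi_mem_cocycles D hw₃)
    have hpc'' : (p ^ k) • ((n₃ * n₁) • c - frecPi D w₃) ∈ levCoboundaries₂ D.𝒯 D.C := by
      have e : (p ^ k) • ((n₃ * n₁) • c - frecPi D w₃) =
          n₃ • (n₁ • ((p ^ k) • c) - frecPi D w₁) + frecPi D (n₃ • w₁ - (p ^ k) • w₃) := by
        rw [c2s_frecPi_sub, c2s_frecPi_nsmul, c2s_frecPi_nsmul, smul_sub, smul_sub, smul_smul,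
          smul_smul, smul_smul, mul_comm (p ^ k) (n₃ * n₁), mul_assoc]
        abel
      rw [e]
      exact (levCoboundaries₂ D.𝒯 D.C).add_mem
        ((levCoboundaries₂ D.𝒯 D.C).smul_of_tower_mem n₃ h₁) (frecPi_mem_coboundaries D h₃)
    obtain ⟨n₄, hn₄, w₄, hw₄, h₄⟩ := ih _ hc'' hpc''
    refine ⟨n₄ * (n₃ * n₁), fun h => ?_, n₄ • w₃ + w₄,
      (levCocycles₂ D.𝒯 (PTJ D)).add_mem
        ((levCocycles₂ D.𝒯 (PTJ D)).smul_of_tower_mem n₄ hw₃) hw₄, ?_⟩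
    · rcases (Nat.Prime.dvd_mul hpp).1 h with h | h
      · exact hn₄ h
      · rcases (Nat.Prime.dvd_mul hpp).1 h with h | h
        · exact hn₃ h
        · exact hn₁ h
    · have e : (n₄ * (n₃ * n₁)) • c - frecPi D (n₄ • w₃ + w₄) =
          n₄ • ((n₃ * n₁) • c - frecPi D w₃) - frecPi D w₄ := by
        rw [c2s_frecPi_add, c2s_frecPi_nsmul, smul_sub, smul_smul]
        abel
      rw [e]
      exact h₄

/-- **`In7`**, cochain form. -/
theorem c2s_surj [Fact p.Prime] (D : PTDatum p G ι Gloc) (hdiv : C2sDiv D)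
    (hP : C2sSurjP D) : C2sSurj D := by
  have hpp : p.Prime := Fact.out
  intro c hc
  obtain ⟨N, hN0, hN⟩ := c2s_torsion D.C_discrete c hc
  set a : ℕ := N.factorization p with ha
  set m : ℕ := N / p ^ a with hm
  have hNm : p ^ a * m = N := Nat.ordProj_mul_ordCompl_eq_self N p
  have hpm : ¬ p ∣ m := Nat.not_dvd_ordCompl hpp hN0
  have hc₁ : m • c ∈ levCocycles₂ D.𝒯 D.C := (levCocycles₂ D.𝒯 D.C).smul_of_tower_mem m hc
  have hpc₁ : (p ^ a) • (m • c) ∈ levCoboundaries₂ D.𝒯 D.C := by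
    rw [smul_smul, hNm]
    exact hN
  obtain ⟨n, hn, w, hw, h⟩ := c2s_surj_pow D hdiv hP a _ hc₁ hpc₁
  refine ⟨n * m, fun h' => ?_, w, hw, ?_⟩
  · rcases (Nat.Prime.dvd_mul hpp).1 h' with h' | h'
    · exact hn h'
    · exact hpm h'
  · rw [← smul_smul]
    exact h

end Fermat.Agent.TW.E

end
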