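/-
TW-E / A5 (helper87): `stmtC2Surj_of : StmtJ2Div → StmtC2Surj`.

`In7` and `In7p` for the trivial lattice `ℤ`.  The mathematics is in C2Loc.lean (a local class of
order `p`), C2Inv.lean (inverse Shapiro at one place) and C2Core.lean (`surv` + cyclicity of the
`p`-torsion of `H²_lev(G, C)` + induction on the order).  This file is the dictionary between
cochains with values in `Hom_ℤ(ℤ, X)` / `Hom_ℤ(ℤ[pt], X)` and cochains with values in `X`.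
-/
import Fermat.Agent.TW.E.C2Core

set_option autoImplicit false
set_option linter.style.haveILetI false
set_option linter.unusedSectionVars false
set_option linter.unusedVariables false

noncomputable section

namespace Fermat.Agent.TW.E

open CategoryTheory groupCohomology Fermat.Agent.PT Fermat.Agent.PT.F Fermat.Agent.TW.F

attribute [local instance 1100] Rep.hV2

variable {p : ℕ} {G : Type} [Group G] {ι : Type} {Gloc : ι → Type} [∀ v, Group (Gloc v)]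

/-! ### `Hom_ℤ(ℤ, X)`-valued cochains -/

section Triv

variable (X : Rep.{0} ℤ G)

/-- the cochain `s ↦ (n ↦ n • y s)` with values in `Hom_ℤ(ℤ, X)` -/
def c2sUp₂ (y : G × G → X.V) (s : G × G) : (Rep.trivial ℤ G ℤ).V →+ X.V :=
  zmultiplesHom X.V (y s)

/-- the cochain `g ↦ (n ↦ n • t g)` with values in `Hom_ℤ(ℤ, X)` -/
def c2sUp₁ (t : G → X.V) (g : G) : (Rep.trivial ℤ G ℤ).V →+ X.V :=
  zmultiplesHom X.V (t g)

lemma c2sUp₂_one (y : G × G → X.V) (s : G × G) : c2sUp₂ X y s (1 : ℤ) = y s := by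
  show (zmultiplesHom X.V (y s)) (1 : ℤ) = y s
  simp

lemma c2sUp₁_one (t : G → X.V) (g : G) : c2sUp₁ X t g (1 : ℤ) = t g := by
  show (zmultiplesHom X.V (t g)) (1 : ℤ) = t g
  simp

lemma c2s_dTwo_one (y : G × G → ((Rep.trivial ℤ G ℤ).V →+ X.V)) (σ τ ρ : G) :
    dTwo (Rep.trivial ℤ G ℤ) X y (σ, τ, ρ) (1 : ℤ) =
      X.ρ σ (y (τ, ρ) (1 : ℤ)) - y (σ * τ, ρ) (1 : ℤ) + y (σ, τ * ρ) (1 : ℤ) -
        y (σ, τ) (1 : ℤ) := rfl

lemma c2s_dOne_one (t : G → ((Rep.trivial ℤ G ℤ).V →+ X.V)) (σ τ : G) :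
    dOne (Rep.trivial ℤ G ℤ) X t (σ, τ) (1 : ℤ) =
      X.ρ σ (t τ (1 : ℤ)) - t (σ * τ) (1 : ℤ) + t σ (1 : ℤ) := rfl

/-- evaluation at `1` of a cocycle is a cocycle -/
lemma c2s_down_cocycle (𝒯 : Tower G) (y : G × G → ((Rep.trivial ℤ G ℤ).V →+ X.V))
    (hy : IsLevel₂ 𝒯 y) (hc : ∀ s, dTwo (Rep.trivial ℤ G ℤ) X y s = 0) :
    (fun s => y s (1 : ℤ)) ∈ levCocycles₂ 𝒯 X := by
  refine ⟨(mem_cocycles₂_def _).2 fun σ τ ρ => ?_,
    hy.comp (fun h : (Rep.trivial ℤ G ℤ).V →+ X.V => h (1 : ℤ))⟩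
  have := congrArg (fun h : (Rep.trivial ℤ G ℤ).V →+ X.V => h (1 : ℤ)) (hc (σ, τ, ρ))
  simp only at this
  rw [c2s_dTwo_one] at this
  exact this

lemma c2s_down_cob (𝒯 : Tower G) (n : ℕ) (y : G × G → ((Rep.trivial ℤ G ℤ).V →+ X.V))
    (t : G → ((Rep.trivial ℤ G ℤ).V →+ X.V)) (ht : IsLevel₁ 𝒯 t)
    (h : ∀ s, n • y s = dOne (Rep.trivial ℤ G ℤ) X t s) :
    n • (fun s => y s (1 : ℤ)) ∈ levCoboundaries₂ 𝒯 X := by
  refine (mem_levCoboundaries₂_iff 𝒯 X _).2 ⟨fun g => t g (1 : ℤ),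
    ht.comp (fun h : (Rep.trivial ℤ G ℤ).V →+ X.V => h (1 : ℤ)), ?_⟩
  funext ⟨σ, τ⟩
  rw [d₁₂_hom_apply]
  have := congrArg (fun h : (Rep.trivial ℤ G ℤ).V →+ X.V => h (1 : ℤ)) (h (σ, τ))
  simp only at this
  rw [c2s_dOne_one] at this
  exact this.symm

lemma c2s_up_cocycle (y : G × G → X.V) (hy : y ∈ cocycles₂ X) (s : G × G × G) :
    dTwo (Rep.trivial ℤ G ℤ) X (c2sUp₂ X y) s = 0 := by
  obtain ⟨σ, τ, ρ⟩ := s
  apply AddMonoidHom.ext_int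
  rw [c2s_dTwo_one, c2sUp₂_one, c2sUp₂_one, c2sUp₂_one, c2sUp₂_one]
  exact (mem_cocycles₂_def y).1 hy σ τ ρ

lemma c2s_up_cob (𝒯 : Tower G) (z : G × G → X.V) (hz : z ∈ levCoboundaries₂ 𝒯 X) :
    ∃ t : G → ((Rep.trivial ℤ G ℤ).V →+ X.V), IsLevel₁ 𝒯 t ∧
      ∀ s, c2sUp₂ X z s = dOne (Rep.trivial ℤ G ℤ) X t s := by
  obtain ⟨t, ht, htz⟩ := (mem_levCoboundaries₂_iff 𝒯 X _).1 hz
  refine ⟨c2sUp₁ X t, ht.comp _, fun s => ?_⟩
  obtain ⟨σ, τ⟩ := s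
  apply AddMonoidHom.ext_int
  rw [c2s_dOne_one, c2sUp₂_one, c2sUp₁_one, c2sUp₁_one, c2sUp₁_one, ← htz, d₁₂_hom_apply]

end Triv

/-- `In7` for the trivial lattice from its cochain form. -/
theorem c2s_in7_of (D : PTDatum p G ι Gloc) (h : C2sSurj D) : In7 D (Rep.trivial ℤ G ℤ) := by
  intro c hc hcoc
  obtain ⟨n, hn, w, hw, hcob⟩ := h _ (c2s_down_cocycle D.C D.𝒯 c hc hcoc)
  obtain ⟨t, ht, htz⟩ := c2s_up_cob D.C D.𝒯 _ hcob
  refine ⟨n, hn, c2sUp₂ (PTJ D) w, hw.2.comp _, c2s_up_cocycle (PTJ D) w hw.1, t, ht,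
    fun s => ?_⟩
  apply AddMonoidHom.ext_int
  have := congrArg (fun h : (Rep.trivial ℤ G ℤ).V →+ D.C.V => h (1 : ℤ)) (htz s)
  simp only at this
  rw [c2sUp₂_one] at this
  show n • c s (1 : ℤ) = D.π.hom (c2sUp₂ (PTJ D) w s (1 : ℤ)) +
    dOne (Rep.trivial ℤ G ℤ) D.C t s (1 : ℤ)
  rw [c2sUp₂_one, ← this]
  show n • c s (1 : ℤ) = frecPi D w s + (n • c s (1 : ℤ) - frecPi D w s)
  abel

/-- `In7p` for the trivial lattice from its cochain form. -/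
theorem c2s_in7p_of (D : PTDatum p G ι Gloc) (h : C2sSurjP D) :
    In7p D (Rep.trivial ℤ G ℤ) := by
  intro c hc hcoc hp
  obtain ⟨t₀, ht₀, hpt₀⟩ := hp
  obtain ⟨n, hn, w, hw, hpw, hcob⟩ := h _ (c2s_down_cocycle D.C D.𝒯 c hc hcoc)
    (c2s_down_cob D.C D.𝒯 p c t₀ ht₀ hpt₀)
  obtain ⟨t, ht, htz⟩ := c2s_up_cob D.C D.𝒯 _ hcob
  obtain ⟨t₁, ht₁, htz₁⟩ := c2s_up_cob (PTJ D) D.𝒯 _ hpw
  refine ⟨n, hn, c2sUp₂ (PTJ D) w, hw.2.comp _, c2s_up_cocycle (PTJ D) w hw.1,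
    ⟨t₁, ht₁, fun s => ?_⟩, t, ht, fun s => ?_⟩
  · rw [← htz₁ s]
    apply AddMonoidHom.ext_int
    show p • c2sUp₂ (PTJ D) w s (1 : ℤ) = c2sUp₂ (PTJ D) (p • w) s (1 : ℤ)
    rw [c2sUp₂_one, c2sUp₂_one]
    rfl
  · apply AddMonoidHom.ext_int
    have := congrArg (fun h : (Rep.trivial ℤ G ℤ).V →+ D.C.V => h (1 : ℤ)) (htz s)
    simp only at this
    rw [c2sUp₂_one] at this
    show n • c s (1 : ℤ) = D.π.hom (c2sUp₂ (PTJ D) w s (1 : ℤ)) +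
      dOne (Rep.trivial ℤ G ℤ) D.C t s (1 : ℤ)
    rw [c2sUp₂_one, ← this]
    show n • c s (1 : ℤ) = frecPi D w s + (n • c s (1 : ℤ) - frecPi D w s)
    abel

/-! ### `Hom_ℤ(ℤ[pt], X)`-valued cochains -/

section Pt

variable (X : Rep.{0} ℤ G)

lemma c2s_pt_single (ω : PUnit) :
    (MonoidAlgebra.single ω (1 : ℤ) : (permZ G PUnit).V) = MonoidAlgebra.single PUnit.unit 1 :=
  rfl

lemma c2s_pt_dTwo (y : G × G → ((permZ G PUnit).V →+ X.V)) (σ τ ρ : G) :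
    dTwo (permZ G PUnit) X y (σ, τ, ρ) (MonoidAlgebra.single PUnit.unit 1) =
      X.ρ σ (y (τ, ρ) (MonoidAlgebra.single PUnit.unit 1)) -
        y (σ * τ, ρ) (MonoidAlgebra.single PUnit.unit 1) +
        y (σ, τ * ρ) (MonoidAlgebra.single PUnit.unit 1) -
        y (σ, τ) (MonoidAlgebra.single PUnit.unit 1) := by
  show X.ρ σ (y (τ, ρ) ((permZ G PUnit).ρ σ⁻¹ (MonoidAlgebra.single PUnit.unit 1))) - _ + _ - _ = _
  rw [in1p_ρ_single]

lemma c2s_pt_dOne (t : G → ((permZ G PUnit).V →+ X.V)) (σ τ : G) :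
    dOne (permZ G PUnit) X t (σ, τ) (MonoidAlgebra.single PUnit.unit 1) =
      X.ρ σ (t τ (MonoidAlgebra.single PUnit.unit 1)) -
        t (σ * τ) (MonoidAlgebra.single PUnit.unit 1) +
        t σ (MonoidAlgebra.single PUnit.unit 1) := by
  show X.ρ σ (t τ ((permZ G PUnit).ρ σ⁻¹ (MonoidAlgebra.single PUnit.unit 1))) - _ + _ = _
  rw [in1p_ρ_single]

end Pt

/-- the cochain form of `In6` for the trivial lattice from `In6` for `ℤ[pt]` -/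
theorem c2s_div_of (D : PTDatum p G ι Gloc) (h : In6 D (permZ G PUnit)) : C2sDiv D := by
  intro y hy
  set e : (permZ G PUnit).V := MonoidAlgebra.single PUnit.unit 1 with he
  have hlift : ∀ a : (PTJ D).V, in1p_lift (G := G) PUnit (fun _ => a) e = a := fun a => by
    rw [he, in1p_lift_single, one_zsmul]
  obtain ⟨n, hn, w, hw, hwc, t, ht, hnt⟩ := h
    (fun s => in1p_lift (G := G) PUnit (fun _ => y s))
    (hy.2.comp (fun a : (PTJ D).V => in1p_lift (G := G) PUnit (fun _ => a)))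
    (fun s => by
      obtain ⟨σ, τ, ρ⟩ := s
      apply in1p_ext
      intro ω
      rw [c2s_pt_single, c2s_pt_dTwo, hlift, hlift, hlift, hlift]
      exact (mem_cocycles₂_def y).1 hy.1 σ τ ρ)
  refine ⟨n, hn, fun s => w s e,
    ⟨(mem_cocycles₂_def _).2 fun σ τ ρ => ?_,
      hw.comp (fun h : (permZ G PUnit).V →+ (PTJ D).V => h e)⟩, ?_⟩
  · have := congrArg (fun h : (permZ G PUnit).V →+ (PTJ D).V => h e) (hwc (σ, τ, ρ))
    simp only at this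
    rw [he, c2s_pt_dTwo] at this
    exact this
  · refine (mem_levCoboundaries₂_iff D.𝒯 (PTJ D) _).2 ⟨fun g => t g e,
      ht.comp (fun h : (permZ G PUnit).V →+ (PTJ D).V => h e), ?_⟩
    funext ⟨σ, τ⟩
    rw [d₁₂_hom_apply]
    have := congrArg (fun h : (permZ G PUnit).V →+ (PTJ D).V => h e) (hnt (σ, τ))
    simp only at this
    have h1 : n • in1p_lift (G := G) PUnit (fun _ => y (σ, τ)) e =
        p • w (σ, τ) e + dOne (permZ G PUnit) (PTJ D) t (σ, τ) e := this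
    rw [hlift, he, c2s_pt_dOne] at h1
    show _ = n • y (σ, τ) - p • w (σ, τ) e
    rw [h1, he]
    abel

/-- `ℤ[pt]` is a level set. -/
lemma c2s_pt_levSet (𝒯 : Tower G) : IsLevSet 𝒯 PUnit :=
  ⟨⊤, 𝒯.top_mem, fun _ _ _ => rfl⟩

/-- **A5**: `In7` and `In7p` for the trivial lattice `ℤ`. -/
theorem stmtC2Surj_of (hJ2 : StmtJ2Div) : StmtC2Surj := by
  intro p _ G _ ι _ _ Gloc _ D hdepth
  have hdiv : C2sDiv D := c2s_div_of D (hJ2 p G ι Gloc D hdepth PUnit (c2s_pt_levSet D.𝒯))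
  have hP : C2sSurjP D := c2s_surjP D hdepth
  exact ⟨c2s_in7_of D (c2s_surj D hdiv hP), c2s_in7p_of D hP⟩

end Fermat.Agent.TW.E

end
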