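/-
Project TW, part TW-E, block E-add, piece A1′ (helper1):
`stmtH3FundPerm_of : StmtH3Fund → StmtH3FundPerm`.

`H³(Γ, Hom_ℤ(ℤ[Ω], Y))` has no `p`-torsion if `Y` has a `p`-fundamental class.

For a base point `ω₀ ∈ Ω` with stabiliser `H`:
* `h3pA Y ω₀ : Hom(ℤ[Ω], Y) ⟶ Coind_H^Γ Res_H Y`, `φ ↦ (g ↦ g φ(g⁻¹ ω₀))`  (adjunction),
* `h3pB Y ω₀ : Coind_H^Γ Res_H Y ⟶ Hom(ℤ[Ω], Y)`, `F ↦ (γ ω₀ ↦ γ F(γ⁻¹))`, zero outside `Γ ω₀`,
* `h3pA ≫ h3pB` is the projection onto the part of `φ` supported on the orbit of `ω₀`, so the sum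
  over orbit representatives is the identity (`h3p_sum_eq_id`).
Hence `H³(Γ, Hom(ℤ[Ω], Y))` embeds into `∏ H³(Γ, Coind_H Res_H Y) ≅ ∏ H³(H, Res_H Y)` (Shapiro:
Mathlib `groupCohomology.coindIso`), and `Res_H Y` has a `p`-fundamental class for the group `H`
(`h3p_fund_res`: transport along `K ≃ K.map H.subtype`, Mathlib `groupCohomology.mapIso`).
-/
import Mathlib
import Fermat.Agent.TW.E.Plan
import Fermat.Agent.PT.F.RepBasic

set_option autoImplicit false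
set_option linter.unusedSectionVars false

noncomputable section

namespace Fermat.Agent.TW.E

open CategoryTheory groupCohomology Fermat.Agent.PT Fermat.Agent.PT.F

attribute [local instance 1100] Rep.hV2

/-! ### Additive maps out of `ℤ[Ω]` -/

section Perm

variable {Γ : Type} [Group Γ] (Ω : Type) [MulAction Γ Ω]

/-- the action on the basis of `ℤ[Ω]` -/
lemma h3p_ρ_single (σ : Γ) (ω : Ω) (z : ℤ) :
    (permZ Γ Ω).ρ σ (MonoidAlgebra.single ω z) = MonoidAlgebra.single (σ • ω) z :=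
  Representation.ofMulAction_single σ ω z

/-- the additive map `ℤ[Ω] → A` with prescribed values on the basis -/
def h3pLift {A : Type} [AddCommGroup A] (t : Ω → A) : (permZ Γ Ω).V →+ A :=
  (Finsupp.liftAddHom (fun ω : Ω => zmultiplesHom A (t ω))).comp
    (MonoidAlgebra.coeffAddEquiv (R := ℤ) (M := Ω)).toAddMonoidHom

lemma h3pLift_single {A : Type} [AddCommGroup A] (t : Ω → A) (ω : Ω) (z : ℤ) :
    h3pLift (Γ := Γ) Ω t (MonoidAlgebra.single ω z) = z • t ω := by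
  simp [h3pLift, MonoidAlgebra.coeffAddEquiv]

/-- additive maps out of `ℤ[Ω]` agree if they agree on the basis -/
lemma h3p_ext {A : Type} [AddCommGroup A] (f f' : (permZ Γ Ω).V →+ A)
    (h : ∀ ω : Ω, f (MonoidAlgebra.single ω 1) = f' (MonoidAlgebra.single ω 1)) : f = f' := by
  apply MonoidAlgebra.addMonoidHom_ext
  intro ω z
  have h1 : (MonoidAlgebra.single ω z : MonoidAlgebra ℤ Ω) = z • MonoidAlgebra.single ω 1 := by
    rw [MonoidAlgebra.smul_single, smul_eq_mul, mul_one]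
  rw [h1, map_zsmul, map_zsmul, h ω]

end Perm

/-! ### No `p`-torsion in `H³`: formal properties -/

section Formal

variable {Γ : Type} [Group Γ]

/-- `H³(Γ, A)` has no `p`-torsion. -/
def H3pFree (p : ℕ) (A : Rep.{0} ℤ Γ) : Prop :=
  ∀ x : groupCohomology A 3, IsPTors p x → x = 0

lemma h3p_isPTors_map (p : ℕ) {A B : Rep.{0} ℤ Γ} (f : A ⟶ B) (x : groupCohomology A 3)
    (hx : IsPTors p x) :
    IsPTors p ((groupCohomology.map (MonoidHom.id Γ) f 3).hom x) := by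
  obtain ⟨k, hk⟩ := hx
  refine ⟨k, ?_⟩
  rw [← map_nsmul, hk, map_zero]

/-- If the identity of `X` is a finite sum of morphisms factoring through modules without
`p`-torsion in `H³`, then `H³(Γ, X)` has no `p`-torsion. -/
lemma h3p_of_sum (p : ℕ) {X : Rep.{0} ℤ Γ} {I : Type} [Fintype I] (A : I → Rep.{0} ℤ Γ)
    (a : ∀ i, X ⟶ A i) (b : ∀ i, A i ⟶ X) (h : ∑ i, a i ≫ b i = 𝟙 X)
    (hA : ∀ i, H3pFree p (A i)) : H3pFree p X := by
  intro x hx
  have e : ∀ i, (groupCohomology.map (MonoidHom.id Γ) (a i) 3).hom x = 0 :=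
    fun i => hA i _ (h3p_isPTors_map p (a i) x hx)
  have key : groupCohomology.map (MonoidHom.id Γ) (∑ i, a i ≫ b i) 3 = 𝟙 _ := by
    rw [h, groupCohomology.map_id]
  have hsum : groupCohomology.map (MonoidHom.id Γ) (∑ i, a i ≫ b i) 3 =
      ∑ i, groupCohomology.map (MonoidHom.id Γ) (a i) 3 ≫
        groupCohomology.map (MonoidHom.id Γ) (b i) 3 := by
    have h1 := (groupCohomology.functor ℤ Γ 3).map_sum (fun i => a i ≫ b i) Finset.univ
    refine h1.trans ?_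
    refine Finset.sum_congr rfl fun i _ => ?_
    exact groupCohomology.map_id_comp (a i) (b i) 3
  rw [hsum] at key
  have h2 := congrArg (fun f => f.hom x) key
  simp only [ModuleCat.hom_sum, LinearMap.sum_apply, ModuleCat.hom_comp, LinearMap.comp_apply,
    ModuleCat.hom_id, LinearMap.id_apply] at h2
  rw [← h2]
  refine Finset.sum_eq_zero fun i _ => ?_
  rw [e i, map_zero]

end Formal

/-! ### The two maps for a base point -/

section BasePoint

variable {Γ : Type} [Group Γ] {Ω : Type} [MulAction Γ Ω] (Y : Rep.{0} ℤ Γ) (ω₀ : Ω)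

/-- the stabiliser of the base point -/
abbrev h3pH : Subgroup Γ := MulAction.stabilizer Γ ω₀

/-- `Coind_H^Γ Res_H Y` for the stabiliser `H` of `ω₀` -/
def h3pC : Rep.{0} ℤ Γ :=
  Rep.coind (h3pH (Γ := Γ) ω₀).subtype (Rep.res (h3pH (Γ := Γ) ω₀).subtype Y)

lemma h3pC_mem (F : (h3pC Y ω₀).V) (h : Γ) (hh : h • ω₀ = ω₀) (x : Γ) :
    F.1 (h * x) = Y.ρ h (F.1 x) :=
  F.2 ⟨h, MulAction.mem_stabilizer_iff.2 hh⟩ x

lemma h3pC_ρ_apply (F : (h3pC Y ω₀).V) (g x : Γ) :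
    ((h3pC Y ω₀).ρ g F).1 x = F.1 (x * g) := rfl

/-- the value `a F(a⁻¹ c)` depends only on `a ω₀` -/
lemma h3p_wd (F : (h3pC Y ω₀).V) (a b c : Γ) (hab : a • ω₀ = b • ω₀) :
    Y.ρ a (F.1 (a⁻¹ * c)) = Y.ρ b (F.1 (b⁻¹ * c)) := by
  have hh : (b⁻¹ * a) • ω₀ = ω₀ := by
    rw [mul_smul, hab, inv_smul_smul]
  have h1 : F.1 (b⁻¹ * c) = Y.ρ (b⁻¹ * a) (F.1 (a⁻¹ * c)) := by
    rw [← h3pC_mem Y ω₀ F (b⁻¹ * a) hh (a⁻¹ * c)]
    group
  rw [h1, ← Module.End.mul_apply, ← map_mul, mul_inv_cancel_left]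

/-- evaluation at the base point, `H`-equivariant -/
def h3pEv : Rep.res (h3pH (Γ := Γ) ω₀).subtype (homRep (permZ Γ Ω) Y) ⟶
    Rep.res (h3pH (Γ := Γ) ω₀).subtype Y :=
  ConcreteCategory.ofHom (C := Rep.{0} ℤ ↥(h3pH (Γ := Γ) ω₀))
    (X := Rep.res (h3pH (Γ := Γ) ω₀).subtype (homRep (permZ Γ Ω) Y))
    (Y := Rep.res (h3pH (Γ := Γ) ω₀).subtype Y)
    (LinearMap.intertwiningMap_of_isIntertwiningMap
      (ρ := (Rep.res (h3pH (Γ := Γ) ω₀).subtype (homRep (permZ Γ Ω) Y)).ρ)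
      (σ := (Rep.res (h3pH (Γ := Γ) ω₀).subtype Y).ρ)
      (f := addToLin (AddMonoidHom.eval (MonoidAlgebra.single ω₀ (1 : ℤ))))
      (fun g φ => by
        show (homRepρ (permZ Γ Ω) Y (g : Γ) φ) (MonoidAlgebra.single ω₀ 1) =
          Y.ρ (g : Γ) (φ (MonoidAlgebra.single ω₀ 1))
        rw [homRepρ_apply, h3p_ρ_single]
        have hg : ((g : Γ))⁻¹ • ω₀ = ω₀ := by
          have h1 : (g : Γ) • ω₀ = ω₀ := MulAction.mem_stabilizer_iff.1 g.2
          rw [inv_smul_eq_iff, h1]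
        rw [hg]))

/-- `φ ↦ (g ↦ g φ(g⁻¹ ω₀))` -/
def h3pA : homRep (permZ Γ Ω) Y ⟶ h3pC Y ω₀ :=
  Rep.resCoindHomEquiv (h3pH (Γ := Γ) ω₀).subtype (homRep (permZ Γ Ω) Y)
    (Rep.res (h3pH (Γ := Γ) ω₀).subtype Y) (h3pEv Y ω₀)

lemma h3pA_apply (φ : (permZ Γ Ω).V →+ Y.V) (g : Γ) :
    ((h3pA Y ω₀).hom φ).1 g = Y.ρ g (φ (MonoidAlgebra.single (g⁻¹ • ω₀) 1)) := by
  show (homRepρ (permZ Γ Ω) Y g φ) (MonoidAlgebra.single ω₀ 1) = _
  rw [homRepρ_apply, h3p_ρ_single]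

open Classical in
/-- the values of `h3pB` on the basis -/
def h3pBval (F : (h3pC Y ω₀).V) (ω : Ω) : Y.V :=
  if h : ∃ γ : Γ, γ • ω₀ = ω then Y.ρ (Classical.choose h) (F.1 (Classical.choose h)⁻¹) else 0

lemma h3pBval_eq (F : (h3pC Y ω₀).V) (γ : Γ) :
    h3pBval Y ω₀ F (γ • ω₀) = Y.ρ γ (F.1 γ⁻¹) := by
  have h : ∃ γ' : Γ, γ' • ω₀ = γ • ω₀ := ⟨γ, rfl⟩
  unfold h3pBval
  rw [dif_pos h]
  have h1 := h3p_wd Y ω₀ F (Classical.choose h) γ 1 (Classical.choose_spec h)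
  rw [mul_one, mul_one] at h1
  exact h1

lemma h3pBval_eq_zero (F : (h3pC Y ω₀).V) (ω : Ω) (h : ¬ ∃ γ : Γ, γ • ω₀ = ω) :
    h3pBval Y ω₀ F ω = 0 := by
  unfold h3pBval
  rw [dif_neg h]

lemma h3pBval_add (F F' : (h3pC Y ω₀).V) (ω : Ω) :
    h3pBval Y ω₀ (F + F') ω = h3pBval Y ω₀ F ω + h3pBval Y ω₀ F' ω := by
  by_cases h : ∃ γ : Γ, γ • ω₀ = ω
  · obtain ⟨γ, rfl⟩ := h
    rw [h3pBval_eq, h3pBval_eq, h3pBval_eq]
    show Y.ρ γ (F.1 γ⁻¹ + F'.1 γ⁻¹) = _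
    rw [map_add]
  · rw [h3pBval_eq_zero Y ω₀ _ ω h, h3pBval_eq_zero Y ω₀ _ ω h, h3pBval_eq_zero Y ω₀ _ ω h,
      add_zero]

/-- `F ↦ (γ ω₀ ↦ γ F(γ⁻¹))`, additively -/
def h3pBadd : (h3pC Y ω₀).V →+ ((permZ Γ Ω).V →+ Y.V) :=
  AddMonoidHom.mk' (fun F => h3pLift (Γ := Γ) Ω (h3pBval Y ω₀ F)) (fun F F' => by
    apply h3p_ext
    intro ω
    rw [AddMonoidHom.add_apply, h3pLift_single, h3pLift_single, h3pLift_single, one_smul,
      one_smul, one_smul, h3pBval_add])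

lemma h3pBadd_single (F : (h3pC Y ω₀).V) (ω : Ω) :
    h3pBadd Y ω₀ F (MonoidAlgebra.single ω 1) = h3pBval Y ω₀ F ω := by
  show h3pLift (Γ := Γ) Ω (h3pBval Y ω₀ F) (MonoidAlgebra.single ω 1) = _
  rw [h3pLift_single, one_smul]

lemma h3pBval_comm (g : Γ) (F : (h3pC Y ω₀).V) (ω : Ω) :
    h3pBval Y ω₀ ((h3pC Y ω₀).ρ g F) ω = Y.ρ g (h3pBval Y ω₀ F (g⁻¹ • ω)) := by
  by_cases h : ∃ γ : Γ, γ • ω₀ = ω
  · obtain ⟨γ, rfl⟩ := h
    rw [h3pBval_eq, ← mul_smul, h3pBval_eq, h3pC_ρ_apply, ← Module.End.mul_apply, ← map_mul,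
      mul_inv_cancel_left, mul_inv_rev, inv_inv]
  · have h' : ¬ ∃ γ : Γ, γ • ω₀ = g⁻¹ • ω := by
      rintro ⟨γ, hγ⟩
      exact h ⟨g * γ, by rw [mul_smul, hγ, smul_inv_smul]⟩
    rw [h3pBval_eq_zero Y ω₀ _ ω h, h3pBval_eq_zero Y ω₀ _ _ h', map_zero]

/-- `F ↦ (γ ω₀ ↦ γ F(γ⁻¹))` as a morphism of representations -/
def h3pB : h3pC Y ω₀ ⟶ homRep (permZ Γ Ω) Y :=
  ConcreteCategory.ofHom (C := Rep.{0} ℤ Γ) (X := h3pC Y ω₀) (Y := homRep (permZ Γ Ω) Y)
    (LinearMap.intertwiningMap_of_isIntertwiningMap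
      (ρ := (h3pC Y ω₀).ρ) (σ := homRepρ (permZ Γ Ω) Y)
      (f := addToLin (h3pBadd Y ω₀))
      (fun g F => by
        apply h3p_ext
        intro ω
        show h3pBadd Y ω₀ ((h3pC Y ω₀).ρ g F) (MonoidAlgebra.single ω 1) =
          (homRepρ (permZ Γ Ω) Y g (h3pBadd Y ω₀ F)) (MonoidAlgebra.single ω 1)
        rw [homRepρ_apply, h3p_ρ_single, h3pBadd_single, h3pBadd_single, h3pBval_comm]))

lemma h3pB_apply (F : (h3pC Y ω₀).V) (ω : Ω) :
    ((h3pB Y ω₀).hom F : (permZ Γ Ω).V →+ Y.V) (MonoidAlgebra.single ω 1) =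
      h3pBval Y ω₀ F ω :=
  h3pBadd_single Y ω₀ F ω

open Classical in
/-- `h3pA ≫ h3pB` is the projection onto the orbit of `ω₀` -/
lemma h3pAB_apply (φ : (permZ Γ Ω).V →+ Y.V) (ω : Ω) :
    ((h3pA Y ω₀ ≫ h3pB Y ω₀).hom φ : (permZ Γ Ω).V →+ Y.V) (MonoidAlgebra.single ω 1) =
      if ω ∈ MulAction.orbit Γ ω₀ then φ (MonoidAlgebra.single ω 1) else 0 := by
  show ((h3pB Y ω₀).hom ((h3pA Y ω₀).hom φ) : (permZ Γ Ω).V →+ Y.V)
    (MonoidAlgebra.single ω 1) = _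
  rw [h3pB_apply]
  by_cases h : ∃ γ : Γ, γ • ω₀ = ω
  · rw [if_pos (MulAction.mem_orbit_iff.2 h)]
    obtain ⟨γ, rfl⟩ := h
    rw [h3pBval_eq, h3pA_apply, inv_inv, ← Module.End.mul_apply, ← map_mul, mul_inv_cancel,
      map_one, Module.End.one_apply]
  · rw [if_neg (fun h' => h (MulAction.mem_orbit_iff.1 h')), h3pBval_eq_zero Y ω₀ _ ω h]

end BasePoint

/-! ### The sum over the orbits -/

section Orbits

variable {Γ : Type} [Group Γ] {Ω : Type} [MulAction Γ Ω] (Y : Rep.{0} ℤ Γ)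

/-- the representative of an orbit -/
def h3pRep (q : MulAction.orbitRel.Quotient Γ Ω) : Ω := Quotient.out q

lemma h3p_mem_orbit_rep (ω : Ω) (q : MulAction.orbitRel.Quotient Γ Ω) :
    ω ∈ MulAction.orbit Γ (h3pRep q) ↔ q = Quotient.mk'' ω := by
  have h1 : (Quotient.mk'' (h3pRep q) : MulAction.orbitRel.Quotient Γ Ω) = q := Quotient.out_eq q
  constructor
  · intro h
    rw [← h1]
    exact (Quotient.sound (s := MulAction.orbitRel Γ Ω) (MulAction.orbitRel_apply.2 h)).symm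
  · intro h
    rw [← h1] at h
    exact MulAction.orbitRel_apply.1 (Quotient.exact (s := MulAction.orbitRel Γ Ω) h.symm)

variable [Fintype (MulAction.orbitRel.Quotient Γ Ω)]

/-- the identity of `Hom(ℤ[Ω], Y)` is the sum of the projections onto the orbits -/
lemma h3p_sum_eq_id :
    ∑ q : MulAction.orbitRel.Quotient Γ Ω, h3pA Y (h3pRep q) ≫ h3pB Y (h3pRep q) =
      𝟙 (homRep (permZ Γ Ω) Y) := by
  classical
  apply rep_hom_ext'
  intro φ
  have h1 : (∑ q : MulAction.orbitRel.Quotient Γ Ω,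
      h3pA Y (h3pRep q) ≫ h3pB Y (h3pRep q)).hom φ =
      ∑ q : MulAction.orbitRel.Quotient Γ Ω,
        (h3pA Y (h3pRep q) ≫ h3pB Y (h3pRep q)).hom φ :=
    map_sum (repEval (A := homRep (permZ Γ Ω) Y) (B := homRep (permZ Γ Ω) Y) φ) _ _
  rw [h1]
  show (∑ q : MulAction.orbitRel.Quotient Γ Ω,
    ((h3pA Y (h3pRep q) ≫ h3pB Y (h3pRep q)).hom φ : (permZ Γ Ω).V →+ Y.V)) = φ
  apply h3p_ext
  intro ω
  rw [AddMonoidHom.finsetSum_apply]
  rw [Finset.sum_congr rfl (fun q _ => h3pAB_apply Y (h3pRep q) φ ω)]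
  rw [Finset.sum_congr rfl (fun q _ => if_congr (h3p_mem_orbit_rep ω q) rfl rfl)]
  rw [Finset.sum_ite_eq' Finset.univ (Quotient.mk'' ω : MulAction.orbitRel.Quotient Γ Ω)
    (fun _ => φ (MonoidAlgebra.single ω 1)), if_pos (Finset.mem_univ _)]

end Orbits

/-! ### Shapiro -/

section Shapiro

variable {Γ : Type} [Group Γ]

lemma h3p_coind (p : ℕ) (H : Subgroup Γ) (A : Rep.{0} ℤ ↥H) (hA : H3pFree p A) :
    H3pFree p (Rep.coind H.subtype A) := by
  intro x hx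
  have e := (groupCohomology.coindIso A 3).toLinearEquiv
  have h1 : IsPTors p (e x) := by
    obtain ⟨k, hk⟩ := hx
    exact ⟨k, by rw [← map_nsmul, hk, map_zero]⟩
  have h2 := hA _ h1
  exact e.injective (h2.trans (map_zero e).symm)

end Shapiro

/-! ### Restriction of a `p`-fundamental class to a subgroup -/

section Transport

variable {Γ : Type} [Group Γ] (H : Subgroup Γ) (K : Subgroup ↥H) (Y : Rep.{0} ℤ Γ)

/-- `K ≃ K.map H.subtype` -/
def h3pE : ↥K ≃* ↥(K.map H.subtype) :=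
  K.equivMapOfInjective H.subtype H.subtype_injective

lemma h3pE_coe (k : ↥K) : ((h3pE H K k : ↥(K.map H.subtype)) : Γ) = ((k : ↥H) : Γ) :=
  Subgroup.coe_equivMapOfInjective_apply K H.subtype H.subtype_injective k

/-- the comparison isomorphism `Hⁿ(K, Res_K Res_H Y) ≅ Hⁿ(K', Res_{K'} Y)`, `K' = K.map H.subtype` -/
def h3pIso (n : ℕ) :
    groupCohomology (Rep.res K.subtype (Rep.res H.subtype Y)) n ≅
      groupCohomology (Rep.res (K.map H.subtype).subtype Y) n :=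
  groupCohomology.mapIso (A := Rep.res (K.map H.subtype).subtype Y)
    (B := Rep.res K.subtype (Rep.res H.subtype Y)) (h3pE H K) (LinearEquiv.refl ℤ Y.V)
    (fun g => by
      ext y
      show Y.ρ ((g : ↥H) : Γ) y = Y.ρ ((h3pE H K g : ↥(K.map H.subtype)) : Γ) y
      rw [h3pE_coe]) n

/-- compatibility of the comparison isomorphism with the restriction maps -/
lemma h3pIso_inv_res (n : ℕ) (u : groupCohomology Y n) :
    (h3pIso H K Y n).inv.hom ((resSub Y (K.map H.subtype) n).hom u) =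
      (resSub (Rep.res H.subtype Y) K n).hom ((resSub Y H n).hom u) := by
  have h1 : resSub Y (K.map H.subtype) n ≫ (h3pIso H K Y n).inv =
      resSub Y H n ≫ resSub (Rep.res H.subtype Y) K n := by
    unfold h3pIso resSub
    rw [groupCohomology.mapIso_inv, ← groupCohomology.map_comp, ← groupCohomology.map_comp]
    refine groupCohomology.map_congr ?_ ?_ n
    · ext k
      exact h3pE_coe H K k
    · rfl
  have h2 := congrArg (fun f => f.hom u) h1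
  exact h2

theorem h3p_fund_res {p : ℕ} (u : H2 Y) (hu : IsPFundClass p Y u) :
    IsPFundClass p (Rep.res H.subtype Y) ((resSub Y H 2).hom u) where
  h1 K hK := by
    have hK' : IsPGroup p ↥(K.map H.subtype) := hK.map H.subtype
    have h := hu.h1 _ hK'
    exact (h3pIso H K Y 1).toLinearEquiv.injective.subsingleton
  h2_card K hK := by
    have hK' : IsPGroup p ↥(K.map H.subtype) := hK.map H.subtype
    have h := hu.h2_card _ hK'
    rw [Nat.card_congr (h3pIso H K Y 2).toLinearEquiv.toEquiv, h]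
    exact (Nat.card_congr (h3pE H K).toEquiv).symm
  h2_gen K hK x := by
    have hK' : IsPGroup p ↥(K.map H.subtype) := hK.map H.subtype
    obtain ⟨n, hn⟩ := hu.h2_gen _ hK' ((h3pIso H K Y 2).hom.hom x)
    refine ⟨n, ?_⟩
    have h1 := congrArg (fun z => (h3pIso H K Y 2).inv.hom z) hn
    simp only [map_zsmul] at h1
    rw [h3pIso_inv_res] at h1
    rw [h1]
    exact congrArg (fun f => f.hom x) (h3pIso H K Y 2).hom_inv_id

end Transport

/-! ### The statement -/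

/-- **A1′.** `StmtH3Fund → StmtH3FundPerm`. -/
theorem stmtH3FundPerm_of (h : StmtH3Fund) : StmtH3FundPerm := by
  intro p hp Γ _ _ Y u hu Ω _ _
  letI : Fintype (MulAction.orbitRel.Quotient Γ Ω) := Fintype.ofFinite _
  have key : H3pFree p (homRep (Rep.ofMulAction ℤ Γ Ω) Y) := by
    refine h3p_of_sum p (fun q : MulAction.orbitRel.Quotient Γ Ω => h3pC Y (h3pRep q))
      (fun q => h3pA Y (h3pRep q)) (fun q => h3pB Y (h3pRep q)) (h3p_sum_eq_id Y) ?_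
    intro q
    apply h3p_coind
    intro x hx
    letI : Fintype ↥(h3pH (Γ := Γ) (h3pRep q)) := Fintype.ofFinite _
    exact h p ↥(h3pH (Γ := Γ) (h3pRep q)) (Rep.res (h3pH (Γ := Γ) (h3pRep q)).subtype Y)
      ((resSub Y (h3pH (Γ := Γ) (h3pRep q)) 2).hom u)
      (h3p_fund_res (h3pH (Γ := Γ) (h3pRep q)) Y u hu) x hx
  exact key

end Fermat.Agent.TW.E
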