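/-
TW-E / A5′ (helper30), part 1: the finite-level input.

`Γ` a finite group, `C` a `Γ`-module with a `p`-fundamental class `u`.
* `c2sp_fin`: every class of `H²(Γ, C)` is, up to a multiple prime to `p`, a multiple of `u`
  (Sylow + `h2_gen`);
* `c2sp_fin_sub`: the same for every subgroup `K` and `res_K u` (`h3p_fund_res`);
* `c2sp_fin_coc`: cochain form: a 2-cocycle `c` on `K` satisfies `n c = y|_K + d t` with `y` a
  2-cocycle on `Γ` (restriction `H²(Γ, C) → H²(K, C)` is onto up to multiples prime to `p`).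
-/
import Fermat.Agent.TW.E.H3Perm
import Fermat.Agent.PT.A.Sylow

set_option autoImplicit false

noncomputable section

namespace Fermat.Agent.TW.E

open CategoryTheory groupCohomology Fermat.Agent.PT Fermat.Agent.PT.F

attribute [local instance 1100] Rep.hV2

/-- every class of `H²(Γ, C)` is a multiple of the fundamental class, up to a multiple prime to
`p` -/
theorem c2sp_fin (p : ℕ) [Fact p.Prime] (Γ : Type) [Group Γ] [Finite Γ] (C : Rep.{0} ℤ Γ)
    (u : H2 C) (hu : IsPFundClass p C u) (x : H2 C) :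
    ∃ n : ℕ, ¬ p ∣ n ∧ ∃ k : ℤ, n • x = k • u := by
  obtain ⟨P⟩ : Nonempty (Sylow p Γ) := inferInstance
  have hP : IsPGroup p (P : Subgroup Γ) := P.isPGroup'
  obtain ⟨k, hk⟩ := hu.h2_gen (P : Subgroup Γ) hP ((resSub C (P : Subgroup Γ) 2).hom x)
  have hres : (resSub C (P : Subgroup Γ) 2).hom (x - k • u) = 0 := by
    rw [map_sub, map_zsmul, hk, sub_self]
  have hkill := SylowRes.index_smul_eq_zero_of_res_eq_zero (P : Subgroup Γ) 1 C (x - k • u) hres
  refine ⟨(P : Subgroup Γ).index, P.not_dvd_index, (P : Subgroup Γ).index * k, ?_⟩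
  rw [smul_sub, sub_eq_zero] at hkill
  rw [hkill, mul_smul, natCast_zsmul]

/-- the same for a subgroup -/
theorem c2sp_fin_sub (p : ℕ) [Fact p.Prime] (Γ : Type) [Group Γ] [Finite Γ] (C : Rep.{0} ℤ Γ)
    (u : H2 C) (hu : IsPFundClass p C u) (K : Subgroup Γ) (x : H2 (Rep.res K.subtype C)) :
    ∃ n : ℕ, ¬ p ∣ n ∧ ∃ k : ℤ, n • x = k • (resSub C K 2).hom u :=
  c2sp_fin p ↥K (Rep.res K.subtype C) _ (h3p_fund_res K C u hu) x

/-- cochain form: restriction to a subgroup is onto on `H²` up to multiples prime to `p` -/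
theorem c2sp_fin_coc (p : ℕ) [Fact p.Prime] (Γ : Type) [Group Γ] [Finite Γ] (C : Rep.{0} ℤ Γ)
    (u : H2 C) (hu : IsPFundClass p C u) (K : Subgroup Γ) (c : K × K → C.V)
    (hc : c ∈ cocycles₂ (Rep.res K.subtype C)) :
    ∃ n : ℕ, ¬ p ∣ n ∧ ∃ y : Γ × Γ → C.V, y ∈ cocycles₂ C ∧ ∃ t : K → C.V, ∀ a b : K,
      n • c (a, b) = y ((a : Γ), (b : Γ)) + (C.ρ (a : Γ) (t b) - t (a * b) + t a) := by
  obtain ⟨n, hn, k, hk⟩ := c2sp_fin_sub p Γ C u hu K ((H2π (Rep.res K.subtype C)).hom ⟨c, hc⟩)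
  -- a cocycle representing `u`
  obtain ⟨ũ, rfl⟩ : ∃ ũ : cocycles₂ C, (H2π C).hom ũ = u := by
    induction u using H2_induction_on with
    | h x => exact ⟨x, rfl⟩
  have hres : (resSub C K 2).hom ((H2π C).hom ũ) =
      (H2π (Rep.res K.subtype C)).hom ((mapCocycles₂ K.subtype (𝟙 _)).hom ũ) :=
    H2π_comp_map_apply _ _ _
  rw [hres, ← map_nsmul, ← map_zsmul, ← sub_eq_zero, ← map_sub] at hk
  have hcob := (H2π_eq_zero_iff _).1 hk
  obtain ⟨t, ht⟩ := hcob
  refine ⟨n, hn, ((k • ũ : cocycles₂ C) : Γ × Γ → C.V), (k • ũ).2, t, fun a b => ?_⟩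
  have h := congrFun ht (a, b)
  rw [d₁₂_hom_apply] at h
  have e : (((n • (⟨c, hc⟩ : cocycles₂ (Rep.res K.subtype C)) -
      k • (mapCocycles₂ K.subtype (𝟙 _)).hom ũ : cocycles₂ (Rep.res K.subtype C)) :
        K × K → C.V) (a, b)) = n • c (a, b) - k • (ũ : Γ × Γ → C.V) ((a : Γ), (b : Γ)) := rfl
  rw [e] at h
  have e2 : ((k • ũ : cocycles₂ C) : Γ × Γ → C.V) ((a : Γ), (b : Γ)) =
      k • (ũ : Γ × Γ → C.V) ((a : Γ), (b : Γ)) := rfl
  rw [e2]
  have h' : n • c (a, b) = k • (ũ : Γ × Γ → C.V) ((a : Γ), (b : Γ)) +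
      ((Rep.res K.subtype C).ρ a (t b) - t (a * b) + t a) := by
    rw [h]
    abel
  exact h'

end Fermat.Agent.TW.E

end
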