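/-
TW-E / A5′ (helper30), part 2: restriction `H²_lev(G, C) → H²_lev(P, C)` is onto up to multiples
prime to `p`, for every subgroup `P` containing a level.

`c2sp_res`: `c : G × G → C` level, satisfying the 2-cocycle identity on `P`.  Then
`n • c = c₀ + dψ` on `P × P` with `p ∤ n`, `c₀` a level 2-cocycle of `G` and `ψ` level on `P`.
(Descent to a normal level `W ≤ P`: extension by zero + `descend₂`; `c2sp_fin_coc` for
`Γ = G ⧸ W`, `K = P / W`, `C^W` with the fundamental class of `cm_glob`; inflation.)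
-/
import Fermat.Agent.TW.E.C2SurjFin
import Fermat.Agent.PT.F.Level

set_option autoImplicit false

noncomputable section

namespace Fermat.Agent.TW.E

open CategoryTheory groupCohomology Fermat.Agent.PT Fermat.Agent.PT.F

attribute [local instance 1100] Rep.hV2

theorem c2sp_res {p : ℕ} [Fact p.Prime] {G : Type} [Group G] {ι : Type} {Gloc : ι → Type}
    [∀ v, Group (Gloc v)] (D : PTDatum p G ι Gloc) (P U₀ : Subgroup G) (hU₀ : U₀ ∈ D.𝒯.lev)
    (hU₀P : U₀ ≤ P) (c : G × G → D.C.V) (hcl : IsLevel₂ D.𝒯 c)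
    (hc : ∀ s ∈ P, ∀ t ∈ P, ∀ r ∈ P,
      D.C.ρ s (c (t, r)) - c (s * t, r) + c (s, t * r) - c (s, t) = 0) :
    ∃ n : ℕ, ¬ p ∣ n ∧ ∃ c₀ : G × G → D.C.V, c₀ ∈ cocycles₂ D.C ∧ IsLevel₂ D.𝒯 c₀ ∧
      ∃ ψ : G → D.C.V, (∃ V ∈ D.𝒯.lev, ∀ s ∈ P, ∀ u ∈ V, ψ (s * u) = ψ s) ∧
        ∀ s ∈ P, ∀ t ∈ P, n • c (s, t) = c₀ (s, t) + (D.C.ρ s (ψ t) - ψ (s * t) + ψ s) := by
  classical
  obtain ⟨V, hV, hcV⟩ := hcl
  obtain ⟨W, hW, hWU, hWV, hWn⟩ := tower_exists_normal_le₂ D.𝒯 hU₀ hV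
  have := hWn
  have := D.𝒯.finiteIndex W hW
  have : Finite (G ⧸ W) := Subgroup.finite_quotient_of_finiteIndex
  have hWP : W ≤ P := hWU.trans hU₀P
  have hcW : ∀ g g' s s' : G, s ∈ W → s' ∈ W → c (g * s, g' * s') = c (g, g') :=
    fun g g' s s' hs hs' => hcV g g' s s' (hWV hs) (hWV hs')
  -- consequences of the cocycle identity
  have hc' : ∀ s ∈ P, ∀ t ∈ P, ∀ r ∈ P,
      D.C.ρ s (c (t, r)) = c (s * t, r) - c (s, t * r) + c (s, t) := by
    intro s hs t ht r hr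
    rw [← sub_eq_zero, ← hc s hs t ht r hr]
    abel
  have h1 : ∀ t ∈ P, c (1, t) = c (1, 1) := by
    intro t ht
    have h := hc' 1 P.one_mem 1 P.one_mem t ht
    rw [map_one, Module.End.one_apply, one_mul, one_mul] at h
    have h' : c (1, t) - c (1, 1) = 0 := by
      nth_rewrite 1 [h]
      abel
    exact sub_eq_zero.1 h'
  have hl : ∀ (u t r : G), u ∈ W → c (u * t, r) = c (t, r) := by
    intro u t r hu
    have e : u * t = t * (t⁻¹ * u * t) := by group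
    have hm : t⁻¹ * u * t ∈ W := by
      have := hWn.conj_mem u hu t⁻¹
      rwa [inv_inv] at this
    have h := hcW t r (t⁻¹ * u * t) 1 hm W.one_mem
    rw [mul_one] at h
    rw [e, h]
  have hu1 : ∀ (u t : G), u ∈ W → t ∈ P → c (u, t) = c (1, 1) := by
    intro u t hu ht
    have := hl u 1 t hu
    rw [mul_one] at this
    rw [this, h1 t ht]
  have hinv : ∀ t ∈ P, ∀ r ∈ P, ∀ u ∈ W, D.C.ρ u (c (t, r)) = c (t, r) := by
    intro t ht r hr u hu
    rw [hc' u (hWP hu) t ht r hr, hl u t r hu, hu1 u (t * r) hu (P.mul_mem ht hr),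
      hu1 u t hu ht]
    abel
  -- membership in `P` modulo `W`
  have hmemP : ∀ (g u : G), u ∈ W → (g * u ∈ P ↔ g ∈ P) := by
    intro g u hu
    constructor
    · intro h
      have := P.mul_mem h (P.inv_mem (hWP hu))
      rwa [mul_inv_cancel_right] at this
    · intro h
      exact P.mul_mem h (hWP hu)
  -- extension by zero
  let c₁ : G × G → D.C.V := fun gg => if gg.1 ∈ P ∧ gg.2 ∈ P then c gg else 0
  have hc₁P : ∀ s ∈ P, ∀ t ∈ P, c₁ (s, t) = c (s, t) := by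
    intro s hs t ht
    show (if s ∈ P ∧ t ∈ P then c (s, t) else 0) = c (s, t)
    rw [if_pos ⟨hs, ht⟩]
  have hdesc : Desc₂ D.C W c₁ := by
    refine ⟨fun g g' s s' hs hs' => ?_, fun gg s hs => ?_⟩
    · show (if g * s ∈ P ∧ g' * s' ∈ P then c (g * s, g' * s') else 0) =
        (if g ∈ P ∧ g' ∈ P then c (g, g') else 0)
      rw [hmemP g s hs, hmemP g' s' hs', hcW g g' s s' hs hs']
    · show D.C.ρ s (if gg.1 ∈ P ∧ gg.2 ∈ P then c gg else 0) =
        (if gg.1 ∈ P ∧ gg.2 ∈ P then c gg else 0)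
      by_cases h : gg.1 ∈ P ∧ gg.2 ∈ P
      · rw [if_pos h]
        exact hinv gg.1 h.1 gg.2 h.2 s hs
      · rw [if_neg h, map_zero]
  let cb := descend₂ c₁ hdesc
  have hcb : ∀ g g' : G, ((cb ((g : G ⧸ W), (g' : G ⧸ W)) :
      (D.C.quotientToInvariants W).V) : D.C.V) = c₁ (g, g') := by
    intro g g'
    exact congrFun (infl₂_descend₂ c₁ hdesc) (g, g')
  -- the subgroup `K = P / W`
  let K : Subgroup (G ⧸ W) := P.map (QuotientGroup.mk' W)
  have hmemK : ∀ s ∈ P, ((s : G) : G ⧸ W) ∈ K := fun s hs => ⟨s, hs, rfl⟩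
  have hpre : ∀ k : K, ∃ s ∈ P, ((s : G) : G ⧸ W) = (k : G ⧸ W) := by
    rintro ⟨k, s, hs, rfl⟩
    exact ⟨s, hs, rfl⟩
  have hcoe : ∀ (g : G) (v : (D.C.quotientToInvariants W).V),
      (((D.C.quotientToInvariants W).ρ (g : G ⧸ W) v :
        (D.C.quotientToInvariants W).V) : D.C.V) = D.C.ρ g (v : D.C.V) := fun g v => rfl
  let cK : K × K → (D.C.quotientToInvariants W).V := fun ab => cb ((ab.1 : G ⧸ W), (ab.2 : G ⧸ W))
  have hcK : cK ∈ cocycles₂ (Rep.res K.subtype (D.C.quotientToInvariants W)) := by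
    rw [mem_cocycles₂_iff]
    intro a b d
    obtain ⟨s, hs, hsa⟩ := hpre a
    obtain ⟨t, ht, htb⟩ := hpre b
    obtain ⟨r, hr, hrd⟩ := hpre d
    apply Subtype.ext
    show ((cb (((a * b : K) : G ⧸ W), (d : G ⧸ W)) + cb ((a : G ⧸ W), (b : G ⧸ W)) :
        (D.C.quotientToInvariants W).V) : D.C.V) =
      (((D.C.quotientToInvariants W).ρ (a : G ⧸ W) (cb ((b : G ⧸ W), (d : G ⧸ W))) +
        cb ((a : G ⧸ W), ((b * d : K) : G ⧸ W)) : (D.C.quotientToInvariants W).V) : D.C.V)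
    rw [Subgroup.coe_mul, Subgroup.coe_mul, ← hsa, ← htb, ← hrd, ← QuotientGroup.mk_mul,
      ← QuotientGroup.mk_mul, Submodule.coe_add, Submodule.coe_add, hcoe, hcb, hcb, hcb, hcb,
      hc₁P _ (P.mul_mem hs ht) _ hr, hc₁P _ hs _ ht, hc₁P _ ht _ hr,
      hc₁P _ hs _ (P.mul_mem ht hr), hc' s hs t ht r hr]
    abel
  -- the finite level
  obtain ⟨u, hu⟩ := D.cm_glob W hW
  obtain ⟨n, hn, y, hy, t, hyt⟩ :=
    c2sp_fin_coc p (G ⧸ W) (D.C.quotientToInvariants W) u hu K cK hcK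
  obtain ⟨ψ, hψ⟩ : ∃ ψ : G → D.C.V, ∀ g, ψ g = if h : g ∈ P then
      ((t ⟨(g : G ⧸ W), hmemK g h⟩ : (D.C.quotientToInvariants W).V) : D.C.V) else 0 :=
    ⟨_, fun _ => rfl⟩
  have hψP : ∀ g (h : g ∈ P), ψ g =
      ((t ⟨(g : G ⧸ W), hmemK g h⟩ : (D.C.quotientToInvariants W).V) : D.C.V) := by
    intro g h
    rw [hψ g, dif_pos h]
  refine ⟨n, hn, infl₂ D.C W y, (infl₂_mem_cocycles₂_iff y).2 hy,
    (desc₂_infl₂ y).isLevel₂ hW, ψ, ⟨W, hW, fun s hs u hu => ?_⟩,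
    fun s hs t' ht' => ?_⟩
  · have hsu : s * u ∈ P := P.mul_mem hs (hWP hu)
    rw [hψP _ hsu, hψP _ hs]
    have e : (⟨((s * u : G) : G ⧸ W), hmemK _ hsu⟩ : K) = ⟨((s : G) : G ⧸ W), hmemK s hs⟩ := by
      apply Subtype.ext
      show ((s * u : G) : G ⧸ W) = ((s : G) : G ⧸ W)
      rw [QuotientGroup.mk_mul]
      have : ((u : G) : G ⧸ W) = 1 := (QuotientGroup.eq_one_iff u).2 hu
      rw [this, mul_one]
    rw [e]
  · have hst : s * t' ∈ P := P.mul_mem hs ht'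
    rw [hψP _ ht', hψP _ hst, hψP _ hs]
    have h := hyt ⟨(s : G ⧸ W), hmemK s hs⟩ ⟨(t' : G ⧸ W), hmemK t' ht'⟩
    have h' := congrArg (fun v : (D.C.quotientToInvariants W).V => (v : D.C.V)) h
    have e1 : ((n • cK (⟨(s : G ⧸ W), hmemK s hs⟩, ⟨(t' : G ⧸ W), hmemK t' ht'⟩) :
        (D.C.quotientToInvariants W).V) : D.C.V) = n • c (s, t') := by
      show n • ((cb ((s : G ⧸ W), (t' : G ⧸ W)) : (D.C.quotientToInvariants W).V) : D.C.V) = _
      rw [hcb, hc₁P s hs t' ht']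
    have h'' : n • c (s, t') = ((y ((s : G ⧸ W), (t' : G ⧸ W)) +
        ((D.C.quotientToInvariants W).ρ (s : G ⧸ W) (t ⟨(t' : G ⧸ W), hmemK t' ht'⟩) -
          t (⟨(s : G ⧸ W), hmemK s hs⟩ * ⟨(t' : G ⧸ W), hmemK t' ht'⟩) +
          t ⟨(s : G ⧸ W), hmemK s hs⟩) : (D.C.quotientToInvariants W).V) : D.C.V) :=
      e1.symm.trans h'
    rw [h'']
    rfl

end Fermat.Agent.TW.E

end
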