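/-
TW-E / A5′ (helper30), part 3: Shapiro injectivity in degree 2 for `Hom_ℤ(ℤ[Ω], C)`, `Ω` a
transitive `G`-set with base point `ω₀` whose stabiliser `P` contains a level.

A level 2-cocycle `W` of `Hom_ℤ(ℤ[Ω], C)` whose restriction to `P`, evaluated at `e_{ω₀}`, is the
coboundary of a cochain `ψ` (level on `P`), is a level coboundary.
(The proof of `TW.F.h2psh_generic` with `G ⧸ U` replaced by `Ω`.)
-/
import Fermat.Agent.TW.E.In1Perm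
import Fermat.Agent.PT.F.ShapiroHtpy

set_option autoImplicit false

noncomputable section

namespace Fermat.Agent.TW.E

open CategoryTheory groupCohomology Module Fermat.Agent.PT Fermat.Agent.PT.F

attribute [local instance 1100] Rep.hV2

section Tools

variable {G : Type} [Group G] (Ω : Type) [MulAction G Ω]

/-- the basis of `ℤ[Ω]` -/
def c2spE (ω : Ω) : (permZ G Ω).V := MonoidAlgebra.single ω (1 : ℤ)

lemma c2sp_ρ_E (σ : G) (ω : Ω) : (permZ G Ω).ρ σ (c2spE Ω ω) = c2spE (G := G) Ω (σ • ω) :=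
  in1p_ρ_single Ω σ ω 1

lemma c2sp_lift_E {A : Type} [AddCommGroup A] (t : Ω → A) (ω : Ω) :
    in1p_lift (G := G) Ω t (c2spE Ω ω) = t ω := by
  show in1p_lift (G := G) Ω t (MonoidAlgebra.single ω 1) = t ω
  rw [in1p_lift_single, one_smul]

lemma c2sp_ext {A : Type} [AddCommGroup A] (f f' : (permZ G Ω).V →+ A)
    (h : ∀ ω : Ω, f (c2spE Ω ω) = f' (c2spE Ω ω)) : f = f' :=
  in1p_ext Ω f f' h

lemma c2sp_conjAdd_one (M C : Rep.{0} ℤ G) (F : M.V →+ C.V) :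
    conjAdd M C 1 F = F := by
  apply AddMonoidHom.ext
  intro m
  rw [conjAdd_apply, inv_one, map_one, map_one, Module.End.one_apply, Module.End.one_apply]

lemma c2sp_dTwo_apply (M C : Rep.{0} ℤ G) (W : G × G → (M.V →+ C.V)) (σ τ ρ : G) :
    dTwo M C W (σ, τ, ρ) =
      conjAdd M C σ (W (τ, ρ)) - W (σ * τ, ρ) + W (σ, τ * ρ) - W (σ, τ) := rfl

lemma c2sp_dOne_apply (M C : Rep.{0} ℤ G) (t : G → (M.V →+ C.V)) (σ τ : G) :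
    dOne M C t (σ, τ) = conjAdd M C σ (t τ) - t (σ * τ) + t σ := rfl

end Tools

section Main

variable {G : Type} [Group G]

/-- **Shapiro injectivity in degree 2, transitive `Ω`.** -/
theorem c2sp_shinj (𝒯 : Tower G) (C : Rep.{0} ℤ G) (Ω : Type) [MulAction G Ω]
    [MulAction.IsPretransitive G Ω] (ω₀ : Ω) (U₀ : Subgroup G) (hU₀ : U₀ ∈ 𝒯.lev)
    (hU₀Ω : ∀ s ∈ U₀, s • ω₀ = ω₀)
    (W : G × G → ((permZ G Ω).V →+ C.V)) (hW : IsLevel₂ 𝒯 W)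
    (hcoc : ∀ s, dTwo (permZ G Ω) C W s = 0) (ψ : G → C.V)
    (hψ : ∃ V ∈ 𝒯.lev, ∀ s ∈ MulAction.stabilizer G ω₀, ∀ u ∈ V, ψ (s * u) = ψ s)
    (hWψ : ∀ s ∈ MulAction.stabilizer G ω₀, ∀ t ∈ MulAction.stabilizer G ω₀,
      W (s, t) (c2spE Ω ω₀) = C.ρ s (ψ t) - ψ (s * t) + ψ s) :
    ∃ t : G → ((permZ G Ω).V →+ C.V), IsLevel₁ 𝒯 t ∧ ∀ s, W s = dOne (permZ G Ω) C t s := by
  classical
  set P : Subgroup G := MulAction.stabilizer G ω₀ with hPdef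
  -- a common normal level `N ≤ P`
  obtain ⟨V₁, hV₁, hWV⟩ := hW
  obtain ⟨V₂, hV₂, hψV⟩ := hψ
  obtain ⟨N, hN, hNle, hNn⟩ := 𝒯.exists_normal (U₀ ⊓ (V₁ ⊓ V₂))
    (𝒯.inf_mem _ _ hU₀ (𝒯.inf_mem _ _ hV₁ hV₂))
  have := hNn
  have hNP : ∀ s, s ∈ N → s ∈ P := fun s hs => hU₀Ω s (hNle hs).1
  have hWN : ∀ g g' s s' : G, s ∈ N → s' ∈ N → W (g * s, g' * s') = W (g, g') :=
    fun g g' s s' hs hs' => hWV g g' s s' (hNle hs).2.1 (hNle hs').2.1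
  have hψN : ∀ s ∈ P, ∀ u ∈ N, ψ (s * u) = ψ s :=
    fun s hs u hu => hψV s hs u (hNle hu).2.2
  -- cocycle identity, pointwise
  have hcoc' : ∀ σ τ ρ : G,
      conjAdd (permZ G Ω) C σ (W (τ, ρ)) = W (σ * τ, ρ) - W (σ, τ * ρ) + W (σ, τ) := by
    intro σ τ ρ
    have h := hcoc (σ, τ, ρ)
    rw [c2sp_dTwo_apply] at h
    rw [← sub_eq_zero, ← h]
    abel
  -- (a) `W(1, τ) = W(1, 1)`
  have hW1 : ∀ τ : G, W (1, τ) = W (1, 1) := by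
    intro τ
    have h := hcoc' 1 1 τ
    rw [c2sp_conjAdd_one, one_mul, one_mul] at h
    have h' : W (1, τ) - W (1, 1) = 0 := by
      nth_rewrite 1 [h]
      abel
    exact sub_eq_zero.1 h'
  -- first variable: left multiplication by `N`
  have hWl : ∀ (σ τ ρ : G), σ ∈ N → W (σ * τ, ρ) = W (τ, ρ) := by
    intro σ τ ρ hσ
    have h1 : σ * τ = τ * (τ⁻¹ * σ * τ) := by group
    have h2 : τ⁻¹ * σ * τ ∈ N := by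
      have := hNn.conj_mem σ hσ τ⁻¹
      rwa [inv_inv] at this
    have h3 := hWN τ ρ (τ⁻¹ * σ * τ) 1 h2 N.one_mem
    rw [mul_one] at h3
    rw [h1, h3]
  have hWs : ∀ (σ τ : G), σ ∈ N → W (σ, τ) = W (1, 1) := by
    intro σ τ hσ
    have := hWl σ 1 τ hσ
    rw [mul_one] at this
    rw [this, hW1]
  -- (b) the values of `W` are `N`-invariant
  have hWinv : ∀ (σ τ ρ : G), σ ∈ N → conjAdd (permZ G Ω) C σ (W (τ, ρ)) = W (τ, ρ) := by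
    intro σ τ ρ hσ
    rw [hcoc' σ τ ρ, hWl σ τ ρ hσ, hWs σ (τ * ρ) hσ, hWs σ τ hσ]
    abel
  -- (c) `w • ψ(w⁻¹ c) = ψ c` for `w ∈ N`
  have hψ1 : W (1, 1) (c2spE Ω ω₀) = ψ 1 := by
    have h := hWψ 1 P.one_mem 1 P.one_mem
    rw [mul_one, map_one, Module.End.one_apply] at h
    rw [h]
    abel
  have hψc : ∀ w ∈ N, ∀ c ∈ P, C.ρ w (ψ (w⁻¹ * c)) = ψ c := by
    intro w hw c hc
    have h := hWψ w (hNP w hw) (w⁻¹ * c) (P.mul_mem (P.inv_mem (hNP w hw)) hc)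
    rw [mul_inv_cancel_left] at h
    have e1 : W (w, w⁻¹ * c) = W (1, 1) := hWs _ _ hw
    have e2 : ψ w = ψ 1 := by
      have := hψN 1 P.one_mem w hw
      rwa [one_mul] at this
    rw [e1, hψ1, e2] at h
    have h' : C.ρ w (ψ (w⁻¹ * c)) - ψ c = 0 := by
      have : ψ 1 - ψ 1 = 0 := sub_self _
      nth_rewrite 1 [h] at this
      rw [← this]
      abel
    exact sub_eq_zero.1 h'
  -- the homogeneous cochains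
  let Φ : G → G → G → C.V := fun g₀ g₁ g₂ =>
    C.ρ g₀ (W (g₀⁻¹ * g₁, g₁⁻¹ * g₂) (c2spE Ω (g₀⁻¹ • ω₀)))
  let Ψ : P → P → C.V := fun d₀ d₁ => C.ρ (d₀ : G) (ψ ((d₀ : G)⁻¹ * (d₁ : G)))
  let act : P → C.V →+ C.V := fun d => (C.ρ (d : G)).toAddMonoidHom
  have hstab : ∀ (g : G) (d : P), (g * (d : G)) • ω₀ = g • ω₀ := by
    intro g d
    rw [mul_smul]
    congr 1
    exact d.2
  obtain ⟨Θ, hΘ1, hΘ2, hΘ3⟩ := ShapiroHtpy.shapiro₂ P.subtype act N Φ Ψ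
    (by
      intro d g₀ g₁ g₂
      show C.ρ ((d : G) * g₀) (W (((d : G) * g₀)⁻¹ * ((d : G) * g₁),
        ((d : G) * g₁)⁻¹ * ((d : G) * g₂)) (c2spE Ω (((d : G) * g₀)⁻¹ • ω₀))) =
        C.ρ (d : G) (C.ρ g₀ (W (g₀⁻¹ * g₁, g₁⁻¹ * g₂) (c2spE Ω (g₀⁻¹ • ω₀))))
      have e1 : ((d : G) * g₀)⁻¹ * ((d : G) * g₁) = g₀⁻¹ * g₁ := by group
      have e2 : ((d : G) * g₁)⁻¹ * ((d : G) * g₂) = g₁⁻¹ * g₂ := by group
      have e3 : ((d : G) * g₀)⁻¹ • ω₀ = g₀⁻¹ • ω₀ := by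
        rw [mul_inv_rev]
        exact hstab g₀⁻¹ d⁻¹
      rw [e1, e2, e3, map_mul, Module.End.mul_apply])
    (by
      intro g₀ g₁ g₂ g₃
      have h := DFunLike.congr_fun (hcoc' (g₀⁻¹ * g₁) (g₁⁻¹ * g₂) (g₂⁻¹ * g₃))
        (c2spE Ω (g₀⁻¹ • ω₀))
      rw [conjAdd_apply, c2sp_ρ_E, ← mul_smul] at h
      have e1 : (g₀⁻¹ * g₁)⁻¹ * g₀⁻¹ = g₁⁻¹ := by group
      have e2 : g₀⁻¹ * g₁ * (g₁⁻¹ * g₂) = g₀⁻¹ * g₂ := by group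
      have e3 : g₁⁻¹ * g₂ * (g₂⁻¹ * g₃) = g₁⁻¹ * g₃ := by group
      rw [e1, e2, e3] at h
      have h' := congrArg (C.ρ g₀) h
      rw [← Module.End.mul_apply, ← map_mul, mul_inv_cancel_left] at h'
      simp only [AddMonoidHom.add_apply, AddMonoidHom.sub_apply, map_add, map_sub] at h'
      show C.ρ g₁ (W (g₁⁻¹ * g₂, g₂⁻¹ * g₃) (c2spE Ω (g₁⁻¹ • ω₀))) -
        C.ρ g₀ (W (g₀⁻¹ * g₂, g₂⁻¹ * g₃) (c2spE Ω (g₀⁻¹ • ω₀))) +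
        C.ρ g₀ (W (g₀⁻¹ * g₁, g₁⁻¹ * g₃) (c2spE Ω (g₀⁻¹ • ω₀))) -
        C.ρ g₀ (W (g₀⁻¹ * g₁, g₁⁻¹ * g₂) (c2spE Ω (g₀⁻¹ • ω₀))) = 0
      rw [h']
      abel)
    (by
      intro g₀ g₁ g₂ u₀ u₁ u₂ hu₀ hu₁ hu₂
      show C.ρ (g₀ * u₀) (W ((g₀ * u₀)⁻¹ * (g₁ * u₁), (g₁ * u₁)⁻¹ * (g₂ * u₂))
        (c2spE Ω ((g₀ * u₀)⁻¹ • ω₀))) =
        C.ρ g₀ (W (g₀⁻¹ * g₁, g₁⁻¹ * g₂) (c2spE Ω (g₀⁻¹ • ω₀)))
      -- the arguments of `W`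
      have e1 : (g₀ * u₀)⁻¹ * (g₁ * u₁) = u₀⁻¹ * (g₀⁻¹ * g₁ * u₁) := by group
      have hWeq : W ((g₀ * u₀)⁻¹ * (g₁ * u₁), (g₁ * u₁)⁻¹ * (g₂ * u₂)) =
          W (g₀⁻¹ * g₁, g₁⁻¹ * g₂) := by
        have s2 : (g₁ * u₁)⁻¹ * (g₂ * u₂) =
            g₁⁻¹ * g₂ * ((g₁⁻¹ * g₂)⁻¹ * u₁⁻¹ * (g₁⁻¹ * g₂) * u₂) := by group
        have m2 : (g₁⁻¹ * g₂)⁻¹ * u₁⁻¹ * (g₁⁻¹ * g₂) * u₂ ∈ N := by
          apply N.mul_mem _ hu₂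
          have := hNn.conj_mem u₁⁻¹ (N.inv_mem hu₁) (g₁⁻¹ * g₂)⁻¹
          rwa [inv_inv] at this
        rw [e1, hWl _ _ _ (N.inv_mem hu₀), s2]
        exact hWN _ _ _ _ hu₁ m2
      rw [hWeq, map_mul, Module.End.mul_apply]
      congr 1
      have h := DFunLike.congr_fun (hWinv u₀ (g₀⁻¹ * g₁) (g₁⁻¹ * g₂) hu₀)
        (c2spE Ω (g₀⁻¹ • ω₀))
      rw [conjAdd_apply, c2sp_ρ_E, ← mul_smul] at h
      rw [mul_inv_rev]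
      exact h)
    (by
      intro d d₀ d₁
      show C.ρ ((d * d₀ : P) : G) (ψ (((d * d₀ : P) : G)⁻¹ * ((d * d₁ : P) : G))) =
        C.ρ (d : G) (C.ρ (d₀ : G) (ψ ((d₀ : G)⁻¹ * (d₁ : G))))
      have e : ((d * d₀ : P) : G)⁻¹ * ((d * d₁ : P) : G) = (d₀ : G)⁻¹ * (d₁ : G) := by
        rw [Subgroup.coe_mul, Subgroup.coe_mul]
        group
      rw [e, Subgroup.coe_mul, map_mul, Module.End.mul_apply])
    (by
      intro d₀ d₁ w₀ w₁ hw₀ hw₁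
      show C.ρ ((d₀ * w₀ : P) : G) (ψ (((d₀ * w₀ : P) : G)⁻¹ * ((d₁ * w₁ : P) : G))) =
        C.ρ (d₀ : G) (ψ ((d₀ : G)⁻¹ * (d₁ : G)))
      have e : ((d₀ * w₀ : P) : G)⁻¹ * ((d₁ * w₁ : P) : G) =
          (w₀ : G)⁻¹ * ((d₀ : G)⁻¹ * (d₁ : G)) * (w₁ : G) := by
        rw [Subgroup.coe_mul, Subgroup.coe_mul]
        group
      have hm : (d₀ : G)⁻¹ * (d₁ : G) ∈ P := P.mul_mem (P.inv_mem d₀.2) d₁.2
      have hm' : (w₀ : G)⁻¹ * ((d₀ : G)⁻¹ * (d₁ : G)) ∈ P := P.mul_mem (P.inv_mem w₀.2) hm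
      have hw₀' : (w₀ : G) ∈ N := hw₀
      have hw₁' : (w₁ : G) ∈ N := hw₁
      rw [e, hψN _ hm' _ hw₁', Subgroup.coe_mul, map_mul, Module.End.mul_apply,
        hψc (w₀ : G) hw₀' _ hm])
    (by
      intro d₀ d₁ d₂
      show C.ρ (d₀ : G) (W ((d₀ : G)⁻¹ * (d₁ : G), (d₁ : G)⁻¹ * (d₂ : G))
        (c2spE Ω ((d₀ : G)⁻¹ • ω₀))) =
        C.ρ (d₁ : G) (ψ ((d₁ : G)⁻¹ * (d₂ : G))) - C.ρ (d₀ : G) (ψ ((d₀ : G)⁻¹ * (d₂ : G))) +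
          C.ρ (d₀ : G) (ψ ((d₀ : G)⁻¹ * (d₁ : G)))
      have e0 : (d₀ : G)⁻¹ • ω₀ = ω₀ := (P.inv_mem d₀.2 : (d₀ : G)⁻¹ ∈ P)
      have h := hWψ ((d₀ : G)⁻¹ * (d₁ : G)) (P.mul_mem (P.inv_mem d₀.2) d₁.2)
        ((d₁ : G)⁻¹ * (d₂ : G)) (P.mul_mem (P.inv_mem d₁.2) d₂.2)
      have e3 : (d₀ : G)⁻¹ * (d₁ : G) * ((d₁ : G)⁻¹ * (d₂ : G)) = (d₀ : G)⁻¹ * (d₂ : G) := by
        group
      rw [e3] at h
      rw [e0, h, map_add, map_sub, ← Module.End.mul_apply, ← map_mul, mul_inv_cancel_left])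
  -- the cochain `t`
  have hex : ∀ ω : Ω, ∃ x : G, x • ω₀ = ω := fun ω => MulAction.exists_smul_eq G ω₀ ω
  choose xx hxx using hex
  let t : G → ((permZ G Ω).V →+ C.V) := fun σ =>
    in1p_lift Ω (fun ω => C.ρ (xx ω) (Θ (xx ω)⁻¹ ((xx ω)⁻¹ * σ)))
  have ht : ∀ (σ x : G), t σ (c2spE Ω (x • ω₀)) = C.ρ x (Θ x⁻¹ (x⁻¹ * σ)) := by
    intro σ x
    show in1p_lift Ω _ (c2spE Ω (x • ω₀)) = _
    rw [c2sp_lift_E]
    have hu : x⁻¹ * xx (x • ω₀) ∈ P := by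
      show (x⁻¹ * xx (x • ω₀)) • ω₀ = ω₀
      rw [mul_smul, hxx, inv_smul_smul]
    obtain ⟨u, hu'⟩ : ∃ u : P, xx (x • ω₀) = x * (u : G) :=
      ⟨⟨_, hu⟩, by rw [mul_inv_cancel_left]⟩
    rw [hu']
    have h1 := hΘ1 u⁻¹ x⁻¹ (x⁻¹ * σ)
    have e1 : (x * (u : G))⁻¹ = P.subtype u⁻¹ * x⁻¹ := by
      rw [mul_inv_rev]
      rfl
    have e2 : (x * (u : G))⁻¹ * σ = P.subtype u⁻¹ * (x⁻¹ * σ) := by
      rw [e1, mul_assoc]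
    rw [e2, e1, h1]
    show C.ρ (x * (u : G)) (C.ρ ((u⁻¹ : P) : G) (Θ x⁻¹ (x⁻¹ * σ))) = _
    rw [← Module.End.mul_apply, ← map_mul]
    congr 2
    rw [Subgroup.coe_inv, mul_assoc, mul_inv_cancel, mul_one]
  refine ⟨t, ⟨N, hN, fun g s hs => ?_⟩, fun s => ?_⟩
  · apply c2sp_ext
    intro ω
    obtain ⟨x, rfl⟩ := MulAction.exists_smul_eq G ω₀ ω
    rw [ht, ht]
    congr 1
    have := hΘ2 x⁻¹ (x⁻¹ * g) 1 s N.one_mem hs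
    rw [mul_one, mul_assoc] at this
    exact this
  · obtain ⟨σ, τ⟩ := s
    apply c2sp_ext
    intro ω
    obtain ⟨x, rfl⟩ := MulAction.exists_smul_eq G ω₀ ω
    rw [c2sp_dOne_apply]
    simp only [AddMonoidHom.add_apply, AddMonoidHom.sub_apply]
    rw [conjAdd_apply, c2sp_ρ_E, ← mul_smul, ht, ht, ht]
    have h3 := hΘ3 x⁻¹ (x⁻¹ * σ) (x⁻¹ * σ * τ)
    have hΦ : Φ x⁻¹ (x⁻¹ * σ) (x⁻¹ * σ * τ) =
        C.ρ x⁻¹ (W (σ, τ) (c2spE Ω (x • ω₀))) := by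
      show C.ρ x⁻¹ (W (x⁻¹⁻¹ * (x⁻¹ * σ), (x⁻¹ * σ)⁻¹ * (x⁻¹ * σ * τ))
        (c2spE Ω (x⁻¹⁻¹ • ω₀))) = _
      have e1 : x⁻¹⁻¹ * (x⁻¹ * σ) = σ := by group
      have e2 : (x⁻¹ * σ)⁻¹ * (x⁻¹ * σ * τ) = τ := by group
      rw [e1, e2, inv_inv]
    rw [hΦ] at h3
    have h4 := congrArg (C.ρ x) h3
    rw [← Module.End.mul_apply, ← map_mul, mul_inv_cancel, map_one, Module.End.one_apply] at h4
    rw [h4, map_add, map_sub]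
    have e1 : (σ⁻¹ * x)⁻¹ = x⁻¹ * σ := by group
    have e2 : x⁻¹ * σ * τ = x⁻¹ * (σ * τ) := by group
    rw [← Module.End.mul_apply, ← map_mul, mul_inv_cancel_left, e1, e2]

end Main

end Fermat.Agent.TW.E

end
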