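/-
TW-E / A5′ (helper30), part 4: `stmtC2SurjPerm_of : StmtC2Surj → StmtC2SurjPerm`.

`Ω` a transitive level `G`-set with `p ∤ |Ω|`, `M = ℤ[Ω]`, base point `ω₀`, stabiliser `P`.
* `c2sp_reduce`: every level 2-cocycle `c` of `Hom_ℤ(M, C)` is, up to a multiple `n` prime to `p`
  and a level coboundary, the pull-back along the augmentation `ℤ[Ω] → ℤ` of a level 2-cocycle
  `c₀` of `Hom_ℤ(ℤ, C)`   (`c2sp_res`: `n • c(·,·)(e_{ω₀})|_P = c₀|_P + dψ`; `c2sp_shinj`).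
* `In7`: `A5` for `c₀`, pulled back.
* `In7p`: the trace `tr F = Σ_ω F(e_ω)` gives `p • |Ω| • c₀ = d(tr T)`; `A5` (`In7p`) for
  `|Ω| • c₀`, pulled back.
-/
import Fermat.Agent.TW.E.C2SurjRes
import Fermat.Agent.TW.E.C2SurjShinj

set_option autoImplicit false

noncomputable section

namespace Fermat.Agent.TW.E

open CategoryTheory groupCohomology Module Fermat.Agent.PT Fermat.Agent.PT.F

attribute [local instance 1100] Rep.hV2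

section Gen

variable {G : Type} [Group G]

lemma c2sp_dTwo_eval (M C : Rep.{0} ℤ G) (W : G × G → (M.V →+ C.V)) (σ τ ρ : G) (m : M.V) :
    dTwo M C W (σ, τ, ρ) m =
      C.ρ σ (W (τ, ρ) (M.ρ σ⁻¹ m)) - W (σ * τ, ρ) m + W (σ, τ * ρ) m - W (σ, τ) m := rfl

lemma c2sp_dOne_eval (M C : Rep.{0} ℤ G) (t : G → (M.V →+ C.V)) (σ τ : G) (m : M.V) :
    dOne M C t (σ, τ) m = C.ρ σ (t τ (M.ρ σ⁻¹ m)) - t (σ * τ) m + t σ m := rfl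

lemma c2sp_dOne_add (M C : Rep.{0} ℤ G) (t t' : G → (M.V →+ C.V)) (s : G × G) :
    dOne M C (fun g => t g + t' g) s = dOne M C t s + dOne M C t' s := by
  obtain ⟨σ, τ⟩ := s
  rw [c2sp_dOne_apply, c2sp_dOne_apply, c2sp_dOne_apply, map_add]
  abel

lemma c2sp_dOne_sub (M C : Rep.{0} ℤ G) (t t' : G → (M.V →+ C.V)) (s : G × G) :
    dOne M C (fun g => t g - t' g) s = dOne M C t s - dOne M C t' s := by
  obtain ⟨σ, τ⟩ := s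
  rw [c2sp_dOne_apply, c2sp_dOne_apply, c2sp_dOne_apply, map_sub]
  abel

lemma c2sp_dOne_nsmul (M C : Rep.{0} ℤ G) (n : ℕ) (t : G → (M.V →+ C.V)) (s : G × G) :
    dOne M C (fun g => n • t g) s = n • dOne M C t s := by
  obtain ⟨σ, τ⟩ := s
  rw [c2sp_dOne_apply, c2sp_dOne_apply, map_nsmul, smul_add, smul_sub]

lemma c2sp_dTwo_sub (M C : Rep.{0} ℤ G) (y y' : G × G → (M.V →+ C.V)) (s : G × G × G) :
    dTwo M C (fun g => y g - y' g) s = dTwo M C y s - dTwo M C y' s := by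
  obtain ⟨σ, τ, ρ⟩ := s
  rw [c2sp_dTwo_apply, c2sp_dTwo_apply, c2sp_dTwo_apply, map_sub]
  abel

lemma c2sp_dTwo_nsmul (M C : Rep.{0} ℤ G) (n : ℕ) (y : G × G → (M.V →+ C.V))
    (s : G × G × G) : dTwo M C (fun g => n • y g) s = n • dTwo M C y s := by
  obtain ⟨σ, τ, ρ⟩ := s
  rw [c2sp_dTwo_apply, c2sp_dTwo_apply, map_nsmul, smul_sub, smul_add, smul_sub]

lemma c2sp_lev₂_map {𝒯 : Tower G} {X Y : Type} {f : G × G → X} (hf : IsLevel₂ 𝒯 f)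
    (φ : X → Y) : IsLevel₂ 𝒯 (fun s => φ (f s)) := by
  obtain ⟨V, hV, h⟩ := hf
  exact ⟨V, hV, fun g g' s s' hs hs' => congrArg φ (h g g' s s' hs hs')⟩

lemma c2sp_lev₂_map₂ {𝒯 : Tower G} {X X' Y : Type} {f : G × G → X} {f' : G × G → X'}
    (hf : IsLevel₂ 𝒯 f) (hf' : IsLevel₂ 𝒯 f') (φ : X → X' → Y) :
    IsLevel₂ 𝒯 (fun s => φ (f s) (f' s)) := by
  obtain ⟨V, hV, h⟩ := hf
  obtain ⟨V', hV', h'⟩ := hf'
  exact ⟨V ⊓ V', 𝒯.inf_mem _ _ hV hV', fun g g' s s' hs hs' =>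
    congrArg₂ φ (h g g' s s' hs.1 hs'.1) (h' g g' s s' hs.2 hs'.2)⟩

lemma c2sp_lev₁_map {𝒯 : Tower G} {X Y : Type} {f : G → X} (hf : IsLevel₁ 𝒯 f)
    (φ : X → Y) : IsLevel₁ 𝒯 (fun s => φ (f s)) := by
  obtain ⟨V, hV, h⟩ := hf
  exact ⟨V, hV, fun g s hs => congrArg φ (h g s hs)⟩

lemma c2sp_lev₁_map₂ {𝒯 : Tower G} {X X' Y : Type} {f : G → X} {f' : G → X'}
    (hf : IsLevel₁ 𝒯 f) (hf' : IsLevel₁ 𝒯 f') (φ : X → X' → Y) :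
    IsLevel₁ 𝒯 (fun s => φ (f s) (f' s)) := by
  obtain ⟨V, hV, h⟩ := hf
  obtain ⟨V', hV', h'⟩ := hf'
  exact ⟨V ⊓ V', 𝒯.inf_mem _ _ hV hV', fun g s hs =>
    congrArg₂ φ (h g s hs.1) (h' g s hs.2)⟩

end Gen

section Aug

variable {G : Type} [Group G] (Ω : Type) [MulAction G Ω]

/-- the augmentation `ℤ[Ω] → ℤ` -/
def c2spAug : (permZ G Ω).V →+ (Rep.trivial ℤ G ℤ).V :=
  in1p_lift (G := G) Ω (fun _ => (1 : ℤ))

lemma c2spAug_E (ω : Ω) : c2spAug (G := G) Ω (c2spE Ω ω) = (1 : ℤ) :=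
  c2sp_lift_E Ω _ ω

lemma c2spAug_ρ (σ : G) (m : (permZ G Ω).V) :
    c2spAug Ω ((permZ G Ω).ρ σ m) = c2spAug Ω m := by
  have h : (c2spAug (G := G) Ω).comp (actAdd (permZ G Ω) σ) = c2spAug Ω := by
    apply c2sp_ext
    intro ω
    rw [AddMonoidHom.comp_apply, actAdd_apply, c2sp_ρ_E, c2spAug_E, c2spAug_E]
  exact DFunLike.congr_fun h m

/-- pull-back along the augmentation -/
def c2spι (Y : Rep.{0} ℤ G) (F : (Rep.trivial ℤ G ℤ).V →+ Y.V) : (permZ G Ω).V →+ Y.V :=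
  F.comp (c2spAug Ω)

lemma c2spι_apply (Y : Rep.{0} ℤ G) (F : (Rep.trivial ℤ G ℤ).V →+ Y.V) (m : (permZ G Ω).V) :
    c2spι Ω Y F m = F (c2spAug Ω m) := rfl

lemma c2spι_E (Y : Rep.{0} ℤ G) (F : (Rep.trivial ℤ G ℤ).V →+ Y.V) (ω : Ω) :
    c2spι Ω Y F (c2spE Ω ω) = F (1 : ℤ) := by
  rw [c2spι_apply, c2spAug_E]

lemma c2spι_zero (Y : Rep.{0} ℤ G) : c2spι Ω Y 0 = 0 := rfl

lemma c2spι_add (Y : Rep.{0} ℤ G) (F F' : (Rep.trivial ℤ G ℤ).V →+ Y.V) :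
    c2spι Ω Y (F + F') = c2spι Ω Y F + c2spι Ω Y F' := rfl

lemma c2spι_nsmul (Y : Rep.{0} ℤ G) (n : ℕ) (F : (Rep.trivial ℤ G ℤ).V →+ Y.V) :
    c2spι Ω Y (n • F) = n • c2spι Ω Y F := rfl

lemma c2spι_comp {Y Y' : Rep.{0} ℤ G} (f : Y ⟶ Y') (F : (Rep.trivial ℤ G ℤ).V →+ Y.V) :
    c2spι Ω Y' ((homAdd f).comp F) = (homAdd f).comp (c2spι Ω Y F) := rfl

lemma c2spι_dTwo (Y : Rep.{0} ℤ G) (y : G × G → ((Rep.trivial ℤ G ℤ).V →+ Y.V))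
    (s : G × G × G) :
    dTwo (permZ G Ω) Y (fun s => c2spι Ω Y (y s)) s =
      c2spι Ω Y (dTwo (Rep.trivial ℤ G ℤ) Y y s) := by
  obtain ⟨σ, τ, ρ⟩ := s
  apply AddMonoidHom.ext
  intro m
  show Y.ρ σ (y (τ, ρ) (c2spAug Ω ((permZ G Ω).ρ σ⁻¹ m))) - y (σ * τ, ρ) (c2spAug Ω m) +
      y (σ, τ * ρ) (c2spAug Ω m) - y (σ, τ) (c2spAug Ω m) =
    Y.ρ σ (y (τ, ρ) (c2spAug Ω m)) - y (σ * τ, ρ) (c2spAug Ω m) +
      y (σ, τ * ρ) (c2spAug Ω m) - y (σ, τ) (c2spAug Ω m)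
  rw [c2spAug_ρ]

lemma c2spι_dOne (Y : Rep.{0} ℤ G) (t : G → ((Rep.trivial ℤ G ℤ).V →+ Y.V))
    (s : G × G) :
    dOne (permZ G Ω) Y (fun g => c2spι Ω Y (t g)) s =
      c2spι Ω Y (dOne (Rep.trivial ℤ G ℤ) Y t s) := by
  obtain ⟨σ, τ⟩ := s
  apply AddMonoidHom.ext
  intro m
  show Y.ρ σ (t τ (c2spAug Ω ((permZ G Ω).ρ σ⁻¹ m))) - t (σ * τ) (c2spAug Ω m) +
      t σ (c2spAug Ω m) =
    Y.ρ σ (t τ (c2spAug Ω m)) - t (σ * τ) (c2spAug Ω m) + t σ (c2spAug Ω m)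
  rw [c2spAug_ρ]

variable [Fintype Ω]

/-- the trace `F ↦ (z ↦ z • Σ_ω F(e_ω))` -/
def c2spTr (Y : Rep.{0} ℤ G) (F : (permZ G Ω).V →+ Y.V) : (Rep.trivial ℤ G ℤ).V →+ Y.V :=
  zmultiplesHom Y.V (∑ ω : Ω, F (c2spE Ω ω))

lemma c2spTr_one (Y : Rep.{0} ℤ G) (F : (permZ G Ω).V →+ Y.V) :
    c2spTr Ω Y F (1 : ℤ) = ∑ ω : Ω, F (c2spE Ω ω) := one_zsmul _

lemma c2sp_ext_int (Y : Rep.{0} ℤ G) (F F' : (Rep.trivial ℤ G ℤ).V →+ Y.V)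
    (h : F (1 : ℤ) = F' (1 : ℤ)) : F = F' :=
  AddMonoidHom.ext_int h

lemma c2spTr_ι (Y : Rep.{0} ℤ G) (F : (Rep.trivial ℤ G ℤ).V →+ Y.V) :
    c2spTr Ω Y (c2spι Ω Y F) = Fintype.card Ω • F := by
  apply c2sp_ext_int
  rw [c2spTr_one, AddMonoidHom.nsmul_apply]
  have e : ∀ ω : Ω, c2spι Ω Y F (c2spE Ω ω) = F (1 : ℤ) := fun ω => c2spι_E Ω Y F ω
  rw [Finset.sum_congr rfl (fun ω _ => e ω), Finset.sum_const, Finset.card_univ]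

lemma c2spTr_dOne (Y : Rep.{0} ℤ G) (t : G → ((permZ G Ω).V →+ Y.V)) (s : G × G) :
    c2spTr Ω Y (dOne (permZ G Ω) Y t s) =
      dOne (Rep.trivial ℤ G ℤ) Y (fun g => c2spTr Ω Y (t g)) s := by
  obtain ⟨σ, τ⟩ := s
  apply c2sp_ext_int
  have hz : (Rep.trivial ℤ G ℤ).ρ σ⁻¹ (1 : ℤ) = (1 : ℤ) := rfl
  rw [c2spTr_one, c2sp_dOne_eval, hz, c2spTr_one, c2spTr_one, c2spTr_one]
  have e : ∀ ω : Ω, dOne (permZ G Ω) Y t (σ, τ) (c2spE Ω ω) =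
      Y.ρ σ (t τ (c2spE Ω (σ⁻¹ • ω))) - t (σ * τ) (c2spE Ω ω) + t σ (c2spE Ω ω) := by
    intro ω
    rw [c2sp_dOne_eval, c2sp_ρ_E]
  rw [Finset.sum_congr rfl (fun ω _ => e ω), Finset.sum_add_distrib, Finset.sum_sub_distrib]
  congr 2
  rw [map_sum]
  exact Fintype.sum_equiv (MulAction.toPerm σ⁻¹) _ _ (fun ω => rfl)

end Aug

section Reduce

variable {p : ℕ} [Fact p.Prime] {G : Type} [Group G] {ι : Type} {Gloc : ι → Type}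
  [∀ v, Group (Gloc v)]

/-- every level 2-cocycle of `Hom_ℤ(ℤ[Ω], C)` comes from `Hom_ℤ(ℤ, C)`, up to a multiple prime to
`p` and a level coboundary. -/
theorem c2sp_reduce (D : PTDatum p G ι Gloc) (Ω : Type) [MulAction G Ω]
    [MulAction.IsPretransitive G Ω] (hΩ : IsLevSet D.𝒯 Ω) (ω₀ : Ω)
    (c : G × G → ((permZ G Ω).V →+ D.C.V)) (hcl : IsLevel₂ D.𝒯 c)
    (hc : ∀ s, dTwo (permZ G Ω) D.C c s = 0) :
    ∃ n : ℕ, ¬ p ∣ n ∧ ∃ c₀ : G × G → ((Rep.trivial ℤ G ℤ).V →+ D.C.V), IsLevel₂ D.𝒯 c₀ ∧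
      (∀ s, dTwo (Rep.trivial ℤ G ℤ) D.C c₀ s = 0) ∧
      ∃ t : G → ((permZ G Ω).V →+ D.C.V), IsLevel₁ D.𝒯 t ∧
        ∀ s, n • c s = c2spι Ω D.C (c₀ s) + dOne (permZ G Ω) D.C t s := by
  classical
  obtain ⟨U₀, hU₀, hU₀Ω⟩ := hΩ
  have hU₀P : U₀ ≤ MulAction.stabilizer G ω₀ := fun s hs => hU₀Ω s hs ω₀
  -- the restriction to the stabiliser
  have hcPl : IsLevel₂ D.𝒯 (fun s => c s (c2spE Ω ω₀)) :=
    c2sp_lev₂_map hcl (fun F => F (c2spE Ω ω₀))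
  have hcP : ∀ s ∈ MulAction.stabilizer G ω₀, ∀ t ∈ MulAction.stabilizer G ω₀,
      ∀ r ∈ MulAction.stabilizer G ω₀,
      D.C.ρ s (c (t, r) (c2spE Ω ω₀)) - c (s * t, r) (c2spE Ω ω₀) + c (s, t * r) (c2spE Ω ω₀)
        - c (s, t) (c2spE Ω ω₀) = 0 := by
    intro s hs t _ r _
    have h := DFunLike.congr_fun (hc (s, t, r)) (c2spE Ω ω₀)
    rw [c2sp_dTwo_eval, c2sp_ρ_E] at h
    have e : s⁻¹ • ω₀ = ω₀ := ((MulAction.stabilizer G ω₀).inv_mem hs : _)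
    rw [e] at h
    exact h
  obtain ⟨n, hn, c₀, hc₀, hc₀l, ψ, hψ, hcψ⟩ := c2sp_res D (MulAction.stabilizer G ω₀) U₀ hU₀ hU₀P
    (fun s => c s (c2spE Ω ω₀)) hcPl hcP
  -- `c₀` with values in `Hom(ℤ, C)`
  obtain ⟨c₀', hc₀'⟩ : ∃ c₀' : G × G → ((Rep.trivial ℤ G ℤ).V →+ D.C.V),
      ∀ s, c₀' s (1 : ℤ) = c₀ s := ⟨fun s => zmultiplesHom D.C.V (c₀ s), fun _ => one_zsmul _⟩
  have hc₀'l : IsLevel₂ D.𝒯 c₀' := by
    obtain ⟨V, hV, h⟩ := hc₀l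
    refine ⟨V, hV, fun g g' s s' hs hs' => ?_⟩
    apply c2sp_ext_int
    rw [hc₀', hc₀', h g g' s s' hs hs']
  have hc₀'c : ∀ s, dTwo (Rep.trivial ℤ G ℤ) D.C c₀' s = 0 := by
    rintro ⟨σ, τ, ρ⟩
    apply c2sp_ext_int
    have hz : (Rep.trivial ℤ G ℤ).ρ σ⁻¹ (1 : ℤ) = (1 : ℤ) := rfl
    rw [c2sp_dTwo_eval, hz, hc₀', hc₀', hc₀', hc₀']
    have h := (mem_cocycles₂_iff c₀).1 hc₀ σ τ ρ
    have h' : D.C.ρ σ (c₀ (τ, ρ)) - c₀ (σ * τ, ρ) + c₀ (σ, τ * ρ) - c₀ (σ, τ) = 0 := by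
      have : D.C.ρ σ (c₀ (τ, ρ)) + c₀ (σ, τ * ρ) - (c₀ (σ * τ, ρ) + c₀ (σ, τ)) = 0 := by
        rw [h, sub_self]
      rw [← this]
      abel
    rw [h']
    rfl
  -- the difference
  have hWl : IsLevel₂ D.𝒯 (fun s => n • c s - c2spι Ω D.C (c₀' s)) :=
    c2sp_lev₂_map₂ hcl hc₀'l (fun F F' => n • F - c2spι Ω D.C F')
  have hWc : ∀ s, dTwo (permZ G Ω) D.C (fun s => n • c s - c2spι Ω D.C (c₀' s)) s = 0 := by
    intro s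
    rw [c2sp_dTwo_sub, c2sp_dTwo_nsmul, hc s, c2spι_dTwo, hc₀'c s, c2spι_zero, smul_zero,
      sub_zero]
  obtain ⟨t, htl, ht⟩ := c2sp_shinj D.𝒯 D.C Ω ω₀ U₀ hU₀ (fun s hs => hU₀Ω s hs ω₀)
    (fun s => n • c s - c2spι Ω D.C (c₀' s)) hWl hWc ψ hψ
    (by
      intro s hs t ht
      show n • c (s, t) (c2spE Ω ω₀) - c2spι Ω D.C (c₀' (s, t)) (c2spE Ω ω₀) = _
      rw [c2spι_E, hc₀', hcψ s hs t ht]
      abel)
  refine ⟨n, hn, c₀', hc₀'l, hc₀'c, t, htl, fun s => ?_⟩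
  rw [← ht s]
  abel

end Reduce

section Main

/-- **A5′**: `In7` and `In7p` for `ℤ[Ω]`, `Ω` transitive with `p ∤ |Ω|`, from `A5`. -/
theorem stmtC2SurjPerm_of (hA5 : StmtC2Surj) : StmtC2SurjPerm := by
  intro p _ G _ ι _ _ Gloc _ D hD Ω _ _ hΩ hpre hcard
  obtain ⟨h7, h7p⟩ := hA5 p G ι Gloc D hD
  have hne : Nonempty Ω := by
    by_contra h
    rw [not_nonempty_iff] at h
    apply hcard
    rw [Fintype.card_eq_zero]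
    exact dvd_zero p
  obtain ⟨ω₀⟩ := hne
  have hp : p.Prime := Fact.out
  constructor
  · -- In7
    intro c hcl hc
    obtain ⟨n, hn, c₀, hc₀l, hc₀c, t₂, ht₂l, hct⟩ := c2sp_reduce D Ω hΩ ω₀ c hcl hc
    obtain ⟨n', hn', w₀, hw₀l, hw₀c, t', ht'l, hw⟩ := h7 c₀ hc₀l hc₀c
    refine ⟨n' * n, fun h => (hp.dvd_mul.1 h).elim hn' hn, fun s => c2spι Ω (PTJ D) (w₀ s),
      c2sp_lev₂_map hw₀l _, ?_, fun g => c2spι Ω D.C (t' g) + n' • t₂ g,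
      c2sp_lev₁_map₂ ht'l ht₂l (fun F F' => c2spι Ω D.C F + n' • F'), fun s => ?_⟩
    · intro s
      rw [c2spι_dTwo, hw₀c, c2spι_zero]
    · rw [c2sp_dOne_add, c2sp_dOne_nsmul, c2spι_dOne, mul_smul, hct s, smul_add,
        ← c2spι_nsmul, hw s, c2spι_add, c2spι_comp]
      abel
  · -- In7p
    intro c hcl hc hpc
    obtain ⟨t₀, ht₀l, hct₀⟩ := hpc
    obtain ⟨n, hn, c₀, hc₀l, hc₀c, t₂, ht₂l, hct⟩ := c2sp_reduce D Ω hΩ ω₀ c hcl hc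
    -- `|Ω| • c₀` has a `p`-torsion class
    have hT : IsLevel₁ D.𝒯 (fun g => c2spTr Ω D.C (n • t₀ g - p • t₂ g)) :=
      c2sp_lev₁_map₂ ht₀l ht₂l (fun F F' => c2spTr Ω D.C (n • F - p • F'))
    have hι : ∀ s, c2spι Ω D.C (p • c₀ s) =
        dOne (permZ G Ω) D.C (fun g => n • t₀ g - p • t₂ g) s := by
      intro s
      have e : c2spι Ω D.C (c₀ s) = n • c s - dOne (permZ G Ω) D.C t₂ s := by
        rw [hct s]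
        abel
      rw [c2sp_dOne_sub, c2sp_dOne_nsmul, c2sp_dOne_nsmul, ← hct₀ s, c2spι_nsmul, e, smul_sub,
        smul_comm p n]
    have hpc₀ : ∀ s, p • (Fintype.card Ω • c₀ s) = dOne (Rep.trivial ℤ G ℤ) D.C
        (fun g => c2spTr Ω D.C (n • t₀ g - p • t₂ g)) s := by
      intro s
      rw [← c2spTr_dOne, ← hι s, c2spTr_ι, smul_comm]
    have hc₀l' : IsLevel₂ D.𝒯 (fun s => Fintype.card Ω • c₀ s) :=
      c2sp_lev₂_map hc₀l (fun F => Fintype.card Ω • F)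
    have hc₀c' : ∀ s, dTwo (Rep.trivial ℤ G ℤ) D.C (fun s => Fintype.card Ω • c₀ s) s = 0 := by
      intro s
      rw [c2sp_dTwo_nsmul, hc₀c s, smul_zero]
    obtain ⟨n', hn', w₀, hw₀l, hw₀c, ⟨t₁, ht₁l, hwt₁⟩, t', ht'l, hw⟩ :=
      h7p (fun s => Fintype.card Ω • c₀ s) hc₀l' hc₀c' ⟨_, hT, hpc₀⟩
    refine ⟨n' * Fintype.card Ω * n,
      fun h => (hp.dvd_mul.1 h).elim (fun h' => (hp.dvd_mul.1 h').elim hn' hcard) hn,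
      fun s => c2spι Ω (PTJ D) (w₀ s), c2sp_lev₂_map hw₀l _, ?_,
      ⟨fun g => c2spι Ω (PTJ D) (t₁ g), c2sp_lev₁_map ht₁l _, ?_⟩,
      fun g => c2spι Ω D.C (t' g) + (n' * Fintype.card Ω) • t₂ g,
      c2sp_lev₁_map₂ ht'l ht₂l (fun F F' => c2spι Ω D.C F + (n' * Fintype.card Ω) • F'),
      fun s => ?_⟩
    · intro s
      rw [c2spι_dTwo, hw₀c, c2spι_zero]
    · intro s
      rw [c2spι_dOne, ← hwt₁ s, c2spι_nsmul]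
    · have hw' := hw s
      rw [c2sp_dOne_add, c2sp_dOne_nsmul, c2spι_dOne, mul_smul, hct s, smul_add,
        ← c2spι_nsmul, mul_smul, hw', c2spι_add, c2spι_comp]
      abel

end Main

end Fermat.Agent.TW.E

end
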