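/-
Project TW, part TW-E, block E-add (helper56): SHARED TOOLKIT for the chases with values in
`Hom_ℤ(ℤ[Ω], Y)`  (`Ω` a finite `G`-set trivial on a level).

* `chl_lift`, `chl_ext`, `chl_exists_lift` : additive maps out of `ℤ[Ω]` (basis `single ω 1`),
  lifting along a surjection;
* `chl_conjAdd_eq` : an element acting trivially on `Ω` and on the values fixes `h`;
* `chl_isLevel₁_dZero`, `chl_isLevel₂_dOne` : coboundaries of level cochains are level cochains;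
* algebra of `dTwo`: `chl_comp_dTwo`, `chl_dTwo_dOne`, `chl_dTwo_add/sub/nsmul`, `chl_dOne_add`;
* `chl_exists_lift_pi`, `chl_exists_lift_i₁`, `chl_exists_lift_i₂` : lifting of level cochains
  through `π : J → C` and through `i : E → J`.
-/
import Fermat.Agent.TW.E.Plan
import Fermat.Agent.PT.F.SeqExactH2

set_option autoImplicit false
set_option linter.unusedSectionVars false

noncomputable section

namespace Fermat.Agent.TW.E

open CategoryTheory groupCohomology Module Fermat.Agent.PT Fermat.Agent.PT.F Fermat.Agent.TW.F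
open Fermat.Agent.PT.F.ExactH2

attribute [local instance 1100] Rep.hV2

/-! ### Additive maps out of `ℤ[Ω]` -/

section Perm

variable {G : Type} [Group G] (Ω : Type) [MulAction G Ω]

/-- the action on the basis of `ℤ[Ω]` -/
lemma chl_ρ_single (σ : G) (ω : Ω) (z : ℤ) :
    (permZ G Ω).ρ σ (MonoidAlgebra.single ω z) = MonoidAlgebra.single (σ • ω) z :=
  Representation.ofMulAction_single σ ω z

/-- the additive map `ℤ[Ω] → A` with prescribed values on the basis -/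
def chl_lift {A : Type} [AddCommGroup A] (t : Ω → A) : (permZ G Ω).V →+ A :=
  (Finsupp.liftAddHom (fun ω : Ω => zmultiplesHom A (t ω))).comp
    (MonoidAlgebra.coeffAddEquiv (R := ℤ) (M := Ω)).toAddMonoidHom

lemma chl_lift_single {A : Type} [AddCommGroup A] (t : Ω → A) (ω : Ω) (z : ℤ) :
    chl_lift (G := G) Ω t (MonoidAlgebra.single ω z) = z • t ω := by
  simp [chl_lift, MonoidAlgebra.coeffAddEquiv]

/-- additive maps out of `ℤ[Ω]` agree if they agree on the basis -/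
lemma chl_ext {A : Type} [AddCommGroup A] (f f' : (permZ G Ω).V →+ A)
    (h : ∀ ω : Ω, f (MonoidAlgebra.single ω 1) = f' (MonoidAlgebra.single ω 1)) : f = f' := by
  apply MonoidAlgebra.addMonoidHom_ext
  intro ω z
  have h1 : (MonoidAlgebra.single ω z : MonoidAlgebra ℤ Ω) = z • MonoidAlgebra.single ω 1 := by
    rw [MonoidAlgebra.smul_single, smul_eq_mul, mul_one]
  rw [h1, map_zsmul, map_zsmul, h ω]

/-- additive maps out of `ℤ[Ω]` lift along surjections -/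
lemma chl_exists_lift {A B : Type} [AddCommGroup A] [AddCommGroup B] (π : A →+ B)
    (hπ : Function.Surjective π) (c : (permZ G Ω).V →+ B) :
    ∃ t : (permZ G Ω).V →+ A, π.comp t = c := by
  choose x hx using fun ω : Ω => hπ (c (MonoidAlgebra.single ω 1))
  refine ⟨chl_lift Ω x, chl_ext Ω _ _ fun ω => ?_⟩
  rw [AddMonoidHom.comp_apply, chl_lift_single, one_smul, hx]

/-- an element which acts trivially on `Ω` and fixes the values of `h` on the basis fixes `h` -/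
lemma chl_conjAdd_eq (Y : Rep.{0} ℤ G) (s : G) (hs : ∀ ω : Ω, s • ω = ω)
    (h : (permZ G Ω).V →+ Y.V)
    (hfix : ∀ ω : Ω, Y.ρ s (h (MonoidAlgebra.single ω 1)) = h (MonoidAlgebra.single ω 1)) :
    conjAdd (permZ G Ω) Y s h = h := by
  apply chl_ext
  intro ω
  have hs' : s⁻¹ • ω = ω := by
    conv_lhs => rw [← hs ω]
    exact inv_smul_smul s ω
  rw [conjAdd_apply, chl_ρ_single, hs', hfix]

variable {Ω}

/-- `d⁰` of an additive map `ℤ[Ω] → Y`, `Y` discrete, is a level 1-cochain -/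
lemma chl_isLevel₁_dZero [Finite Ω] {𝒯 : Tower G} (hΩ : IsLevSet 𝒯 Ω) {Y : Rep.{0} ℤ G}
    (hY : IsDiscrete 𝒯 Y) (t₀ : (permZ G Ω).V →+ Y.V) :
    IsLevel₁ 𝒯 (dZero (permZ G Ω) Y t₀) := by
  obtain ⟨U₀, hU₀, hΩ'⟩ := hΩ
  obtain ⟨U, hU, hUx⟩ := hY.exists_level_of_finite
    (Set.finite_range (fun ω : Ω => t₀ (MonoidAlgebra.single ω 1)))
  refine ⟨U₀ ⊓ U, 𝒯.inf_mem _ _ hU₀ hU, fun σ s hs => ?_⟩
  have h1 : conjAdd (permZ G Ω) Y s t₀ = t₀ :=
    chl_conjAdd_eq Ω Y s (hΩ' s hs.1) t₀ (fun ω => hUx _ ⟨ω, rfl⟩ s hs.2)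
  show conjAdd (permZ G Ω) Y (σ * s) t₀ - t₀ = conjAdd (permZ G Ω) Y σ t₀ - t₀
  rw [conjAdd_mul, h1]

/-- `d¹` of a level 1-cochain with values in `Hom(ℤ[Ω], Y)`, `Y` discrete, is a level
2-cochain -/
lemma chl_isLevel₂_dOne [Finite Ω] {𝒯 : Tower G} (hΩ : IsLevSet 𝒯 Ω) {Y : Rep.{0} ℤ G}
    (hY : IsDiscrete 𝒯 Y) (t : G → ((permZ G Ω).V →+ Y.V)) (ht : IsLevel₁ 𝒯 t) :
    IsLevel₂ 𝒯 (dOne (permZ G Ω) Y t) := by
  obtain ⟨U₀, hU₀, hΩ'⟩ := hΩ
  obtain ⟨U₁, hU₁, h₁⟩ := ht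
  have hfin : (Set.range (fun x : G × Ω => t x.1 (MonoidAlgebra.single x.2 1))).Finite := by
    have h1 : (Set.range t).Finite := isLevel₁_finite_range (𝒯 := 𝒯) ⟨U₁, hU₁, h₁⟩
    have h2 : Set.range (fun x : G × Ω => t x.1 (MonoidAlgebra.single x.2 1)) ⊆
        (fun y : ((permZ G Ω).V →+ Y.V) × Ω => y.1 (MonoidAlgebra.single y.2 1)) ''
          ((Set.range t) ×ˢ (Set.univ : Set Ω)) := by
      rintro _ ⟨⟨σ, ω⟩, rfl⟩
      exact ⟨(t σ, ω), ⟨⟨σ, rfl⟩, Set.mem_univ _⟩, rfl⟩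
    exact ((h1.prod Set.finite_univ).image _).subset h2
  obtain ⟨U₂, hU₂, h₂⟩ := hY.exists_level_of_finite hfin
  obtain ⟨V, hV, hVle, hVn⟩ := 𝒯.exists_normal _
    (𝒯.inf_mem _ _ (𝒯.inf_mem _ _ hU₁ hU₂) hU₀)
  refine ⟨V, hV, fun g g' s s' hs hs' => ?_⟩
  have hs1 : s ∈ U₁ := (hVle hs).1.1
  have hs2 : s ∈ U₂ := (hVle hs).1.2
  have hs0 : s ∈ U₀ := (hVle hs).2
  have hs'1 : s' ∈ U₁ := (hVle hs').1.1
  have hconj : ∀ τ, conjAdd (permZ G Ω) Y s (t τ) = t τ := fun τ =>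
    chl_conjAdd_eq Ω Y s (hΩ' s hs0) (t τ) (fun ω => h₂ _ ⟨(τ, ω), rfl⟩ s hs2)
  have e1 : g * s * (g' * s') = g * g' * (g'⁻¹ * s * g' * s') := by group
  have e2 : g'⁻¹ * s * g' * s' ∈ U₁ := by
    have h3 : g'⁻¹ * s * g' ∈ V := by
      have := hVn.conj_mem s hs g'⁻¹
      simpa using this
    exact (hVle (V.mul_mem h3 hs')).1.1
  show conjAdd (permZ G Ω) Y (g * s) (t (g' * s')) - t (g * s * (g' * s')) + t (g * s) =
    conjAdd (permZ G Ω) Y g (t g') - t (g * g') + t g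
  rw [h₁ g' s' hs'1, h₁ g s hs1, e1, h₁ (g * g') _ e2, conjAdd_mul, hconj]

end Perm

/-! ### Algebra of `dOne`, `dTwo` -/

section Algebra

variable {G : Type} [Group G]

lemma chl_dTwo_apply (M Y : Rep.{0} ℤ G) (y : G × G → (M.V →+ Y.V)) (σ τ ρ : G) (m : M.V) :
    dTwo M Y y (σ, τ, ρ) m =
      Y.ρ σ (y (τ, ρ) (M.ρ σ⁻¹ m)) - y (σ * τ, ρ) m + y (σ, τ * ρ) m - y (σ, τ) m := rfl

lemma chl_comp_dTwo {Y Y' : Rep.{0} ℤ G} (f : Y ⟶ Y') (M : Rep.{0} ℤ G)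
    (y : G × G → (M.V →+ Y.V)) (s : G × G × G) :
    (homAdd f).comp (dTwo M Y y s) = dTwo M Y' (fun x => (homAdd f).comp (y x)) s := by
  obtain ⟨σ, τ, ρ⟩ := s
  ext m
  simp [chl_dTwo_apply, Rep.hom_comm_apply]

lemma chl_dTwo_dOne (M Y : Rep.{0} ℤ G) (t : G → (M.V →+ Y.V)) (s : G × G × G) :
    dTwo M Y (dOne M Y t) s = 0 := by
  obtain ⟨σ, τ, ρ⟩ := s
  ext m
  simp only [chl_dTwo_apply, dOne_apply, map_sub, map_add, AddMonoidHom.zero_apply, mul_inv_rev,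
    map_mul, Module.End.mul_apply, mul_assoc]
  abel

lemma chl_dTwo_add (M Y : Rep.{0} ℤ G) (y y' : G × G → (M.V →+ Y.V)) (s : G × G × G) :
    dTwo M Y (fun x => y x + y' x) s = dTwo M Y y s + dTwo M Y y' s := by
  obtain ⟨σ, τ, ρ⟩ := s
  ext m
  simp only [chl_dTwo_apply, AddMonoidHom.add_apply, map_add]
  abel

lemma chl_dTwo_sub (M Y : Rep.{0} ℤ G) (y y' : G × G → (M.V →+ Y.V)) (s : G × G × G) :
    dTwo M Y (fun x => y x - y' x) s = dTwo M Y y s - dTwo M Y y' s := by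
  obtain ⟨σ, τ, ρ⟩ := s
  ext m
  simp only [chl_dTwo_apply, AddMonoidHom.sub_apply, map_sub]
  abel

lemma chl_dTwo_nsmul (M Y : Rep.{0} ℤ G) (n : ℕ) (y : G × G → (M.V →+ Y.V)) (s : G × G × G) :
    dTwo M Y (fun x => n • y x) s = n • dTwo M Y y s := by
  obtain ⟨σ, τ, ρ⟩ := s
  ext m
  simp only [chl_dTwo_apply, AddMonoidHom.nsmul_apply, map_nsmul, smul_add, smul_sub]

lemma chl_dOne_add (M Y : Rep.{0} ℤ G) (t t' : G → (M.V →+ Y.V)) (στ : G × G) :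
    dOne M Y (fun σ => t σ + t' σ) στ = dOne M Y t στ + dOne M Y t' στ := by
  obtain ⟨σ, τ⟩ := στ
  ext m
  simp only [dOne_apply, AddMonoidHom.add_apply, map_add]
  abel

lemma chl_dOne_neg (M Y : Rep.{0} ℤ G) (t : G → (M.V →+ Y.V)) (στ : G × G) :
    dOne M Y (fun σ => - t σ) στ = - dOne M Y t στ := by
  obtain ⟨σ, τ⟩ := στ
  ext m
  simp only [dOne_apply, AddMonoidHom.neg_apply, map_neg]
  abel

end Algebra

/-! ### Level cochains: closure properties in the `fun x => …` form -/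

section Level

variable {G : Type} [Group G] {𝒯 : Tower G}

lemma chl_isLevel₁_nsmul {X : Type*} [AddMonoid X] (n : ℕ) {f : G → X} (hf : IsLevel₁ 𝒯 f) :
    IsLevel₁ 𝒯 (fun x => n • f x) := hf.comp (fun h => n • h)

lemma chl_isLevel₂_nsmul {X : Type*} [AddMonoid X] (n : ℕ) {f : G × G → X}
    (hf : IsLevel₂ 𝒯 f) : IsLevel₂ 𝒯 (fun x => n • f x) := hf.comp (fun h => n • h)

lemma chl_isLevel₁_add {X : Type*} [Add X] {f f' : G → X} (hf : IsLevel₁ 𝒯 f)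
    (hf' : IsLevel₁ 𝒯 f') : IsLevel₁ 𝒯 (fun x => f x + f' x) := hf.add hf'

lemma chl_isLevel₂_add {X : Type*} [Add X] {f f' : G × G → X} (hf : IsLevel₂ 𝒯 f)
    (hf' : IsLevel₂ 𝒯 f') : IsLevel₂ 𝒯 (fun x => f x + f' x) := hf.add hf'

lemma chl_isLevel₁_sub {X : Type*} [SubNegMonoid X] {f f' : G → X} (hf : IsLevel₁ 𝒯 f)
    (hf' : IsLevel₁ 𝒯 f') : IsLevel₁ 𝒯 (fun x => f x - f' x) := by
  have h := hf.add (hf'.comp (fun h => -h))
  refine (?_ : IsLevel₁ 𝒯 (fun x => f x - f' x))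
  have e : (fun x => f x - f' x) = f + (fun h => -h) ∘ f' := by
    funext x
    simp [sub_eq_add_neg]
  rw [e]
  exact h

lemma chl_isLevel₂_sub {X : Type*} [SubNegMonoid X] {f f' : G × G → X} (hf : IsLevel₂ 𝒯 f)
    (hf' : IsLevel₂ 𝒯 f') : IsLevel₂ 𝒯 (fun x => f x - f' x) := by
  have h := hf.add (hf'.comp (fun h => -h))
  have e : (fun x => f x - f' x) = f + (fun h => -h) ∘ f' := by
    funext x
    simp [sub_eq_add_neg]
  rw [e]
  exact h

end Level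

/-! ### Post-composition is additive -/

section Comp

variable {A B M : Type} [AddCommGroup A] [AddCommGroup B] [AddCommGroup M]

lemma chl_comp_nsmul (f : A →+ B) (n : ℕ) (h : M →+ A) : f.comp (n • h) = n • f.comp h := by
  ext m
  simp

lemma chl_comp_neg (f : A →+ B) (h : M →+ A) : f.comp (-h) = -f.comp h := by
  ext m
  simp

end Comp

/-! ### Lifting level cochains through `π` and `i` -/

section Datum

variable {p : ℕ} {G : Type} [Group G] {ι : Type} {Gloc : ι → Type}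
  [∀ v, Group (Gloc v)] (D : PTDatum p G ι Gloc) (Ω : Type) [MulAction G Ω]

/-- additive maps `ℤ[Ω] → C` lift to `J` -/
lemma chl_exists_lift_pi₀ (c : (permZ G Ω).V →+ D.C.V) :
    ∃ t : (permZ G Ω).V →+ (PTJ D).V, (homAdd D.π).comp t = c :=
  chl_exists_lift Ω (homAdd D.π) D.π_surj c

/-- a level 1-cochain of `Hom(ℤ[Ω], C)` lifts to a level 1-cochain of `Hom(ℤ[Ω], J)` -/
lemma chl_exists_lift_pi (t : G → ((permZ G Ω).V →+ D.C.V)) (ht : IsLevel₁ D.𝒯 t) :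
    ∃ t' : G → ((permZ G Ω).V →+ (PTJ D).V), IsLevel₁ D.𝒯 t' ∧
      ∀ σ, (homAdd D.π).comp (t' σ) = t σ := by
  choose L hL using fun c : (permZ G Ω).V →+ D.C.V => chl_exists_lift_pi₀ D Ω c
  exact ⟨fun σ => L (t σ), ht.comp L, fun σ => hL (t σ)⟩

/-- a level 1-cochain of `Hom(M, J)` killed by `π` comes from a level 1-cochain of
`Hom(M, E)` -/
lemma chl_exists_lift_i₁ {M : Type} [AddCommGroup M] (v : G → (M →+ (PTJ D).V))
    (hv : IsLevel₁ D.𝒯 v) (hπ : ∀ σ, (homAdd D.π).comp (v σ) = 0) :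
    ∃ y : G → (M →+ D.E.V), IsLevel₁ D.𝒯 y ∧ ∀ σ, (homAdd D.i).comp (y σ) = v σ := by
  choose y hy using fun σ => exists_lift_i (D := D) (v σ) (hπ σ)
  obtain ⟨U, hU, hUv⟩ := hv
  refine ⟨y, ⟨U, hU, fun g s hs => ?_⟩, hy⟩
  apply i_comp_injective (D := D)
  rw [hy, hy, hUv g s hs]

/-- a level 2-cochain of `Hom(M, J)` killed by `π` comes from a level 2-cochain of
`Hom(M, E)` -/
lemma chl_exists_lift_i₂ {M : Type} [AddCommGroup M] (v : G × G → (M →+ (PTJ D).V))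
    (hv : IsLevel₂ D.𝒯 v) (hπ : ∀ x, (homAdd D.π).comp (v x) = 0) :
    ∃ y : G × G → (M →+ D.E.V), IsLevel₂ D.𝒯 y ∧ ∀ x, (homAdd D.i).comp (y x) = v x := by
  choose y hy using fun x => exists_lift_i (D := D) (v x) (hπ x)
  obtain ⟨U, hU, hUv⟩ := hv
  refine ⟨y, ⟨U, hU, fun g g' s s' hs hs' => ?_⟩, hy⟩
  apply i_comp_injective (D := D)
  rw [hy, hy, hUv g g' s s' hs hs']

end Datum

end Fermat.Agent.TW.E

end
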