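/-
Project TW (S56) — part TW-E, block E-add, piece **A6a** (`StmtE3`), helper21.

CHASE in `0 → E → J → C → 0`: a level 3-cocycle `z` of `Hom_ℤ(M, E)` killed by `p` is a level
coboundary up to a multiple prime to `p` (`M = ℤ[Ω]`).
  `i ∘ z` is a level 3-cocycle of `Hom(M, J)` killed by `p`: (In5) `n₁ i z = d u`.
  `π ∘ u` is a level 2-cocycle of `Hom(M, C)`: (In7) `n₂ π u = π w + d t`.
  Lift `t` to a level `t̃ : G → Hom(M, J)`.  `π (n₂ u - w - d t̃) = 0`, so `n₂ u - w - d t̃ = i ∘ y`,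
  `y` level, and `i (d y) = n₁ n₂ i z`, hence `d y = n₁ n₂ z`.
-/
import Fermat.Agent.TW.E.Plan
import Fermat.Agent.PT.F.SeqDelExists

set_option autoImplicit false
set_option linter.unusedSectionVars false

noncomputable section

namespace Fermat.Agent.TW.E

open CategoryTheory groupCohomology Fermat.Agent.PT Fermat.Agent.PT.F Fermat.Agent.PT.F.ExactH2

section General

variable {G : Type} [Group G]

lemma e3_dTwo_apply (M Y : Rep.{0} ℤ G) (y : G × G → (M.V →+ Y.V)) (σ τ ρ : G) :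
    dTwo M Y y (σ, τ, ρ) =
      conjAdd M Y σ (y (τ, ρ)) - y (σ * τ, ρ) + y (σ, τ * ρ) - y (σ, τ) := rfl

lemma e3_dThree_apply (M Y : Rep.{0} ℤ G) (z : G × G × G → (M.V →+ Y.V)) (σ τ ρ κ : G) :
    dThree M Y z (σ, τ, ρ, κ) =
      conjAdd M Y σ (z (τ, ρ, κ)) - z (σ * τ, ρ, κ) + z (σ, τ * ρ, κ) - z (σ, τ, ρ * κ)
        + z (σ, τ, ρ) := rfl

/-- post-composition with a morphism commutes with `d²` -/
lemma e3_comp_dTwo {Y Y' : Rep.{0} ℤ G} (f : Y ⟶ Y') (M : Rep.{0} ℤ G)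
    (y : G × G → (M.V →+ Y.V)) (s : G × G × G) :
    (homAdd f).comp (dTwo M Y y s) = dTwo M Y' (fun s => (homAdd f).comp (y s)) s := by
  obtain ⟨σ, τ, ρ⟩ := s
  rw [e3_dTwo_apply, e3_dTwo_apply, ← comp_conjAdd]
  ext m
  simp

/-- post-composition with a morphism commutes with `d³` -/
lemma e3_comp_dThree {Y Y' : Rep.{0} ℤ G} (f : Y ⟶ Y') (M : Rep.{0} ℤ G)
    (z : G × G × G → (M.V →+ Y.V)) (s : G × G × G × G) :
    (homAdd f).comp (dThree M Y z s) = dThree M Y' (fun s => (homAdd f).comp (z s)) s := by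
  obtain ⟨σ, τ, ρ, κ⟩ := s
  rw [e3_dThree_apply, e3_dThree_apply, ← comp_conjAdd]
  ext m
  simp

/-- `d² ∘ d¹ = 0` -/
lemma e3_dTwo_dOne (M Y : Rep.{0} ℤ G) (t : G → (M.V →+ Y.V)) (s : G × G × G) :
    dTwo M Y (dOne M Y t) s = 0 := by
  obtain ⟨σ, τ, ρ⟩ := s
  rw [e3_dTwo_apply]
  simp only [dOne, map_add, map_sub, conjAdd_mul, mul_assoc]
  abel

lemma e3_dTwo_sub (M Y : Rep.{0} ℤ G) (y y' : G × G → (M.V →+ Y.V)) (s : G × G × G) :
    dTwo M Y (fun s => y s - y' s) s = dTwo M Y y s - dTwo M Y y' s := by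
  obtain ⟨σ, τ, ρ⟩ := s
  simp only [e3_dTwo_apply, map_sub]
  abel

lemma e3_dTwo_nsmul (M Y : Rep.{0} ℤ G) (n : ℕ) (y : G × G → (M.V →+ Y.V)) (s : G × G × G) :
    dTwo M Y (fun s => n • y s) s = n • dTwo M Y y s := by
  obtain ⟨σ, τ, ρ⟩ := s
  simp only [e3_dTwo_apply, map_nsmul, smul_add, smul_sub]

lemma e3_isLevel₃_comp {𝒯 : Tower G} {X X' : Type*} {z : G × G × G → X} (hz : IsLevel₃ 𝒯 z)
    (φ : X → X') : IsLevel₃ 𝒯 (fun s => φ (z s)) := by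
  obtain ⟨U, hU, h⟩ := hz
  exact ⟨U, hU, fun g g' g'' s s' s'' hs hs' hs'' =>
    congrArg φ (h g g' g'' s s' s'' hs hs' hs'')⟩

end General

section Perm

variable {G : Type} [Group G] (Ω : Type) [MulAction G Ω]

/-- the action on the basis of `ℤ[Ω]` -/
lemma e3_ρ_single (σ : G) (ω : Ω) (n : ℤ) :
    (permZ G Ω).ρ σ (MonoidAlgebra.single ω n) = MonoidAlgebra.single (σ • ω) n :=
  Representation.ofMulAction_single σ ω n

/-- the additive map `ℤ[Ω] → A` with prescribed values on the basis -/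
def e3_lift {A : Type} [AddCommGroup A] (t : Ω → A) : (permZ G Ω).V →+ A :=
  (Finsupp.liftAddHom (fun ω : Ω => zmultiplesHom A (t ω))).comp
    (MonoidAlgebra.coeffAddEquiv (R := ℤ) (M := Ω)).toAddMonoidHom

lemma e3_lift_single {A : Type} [AddCommGroup A] (t : Ω → A) (ω : Ω) (n : ℤ) :
    e3_lift (G := G) Ω t (MonoidAlgebra.single ω n) = n • t ω := by
  simp [e3_lift, MonoidAlgebra.coeffAddEquiv]

/-- additive maps out of `ℤ[Ω]` agree if they agree on the basis -/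
lemma e3_ext {A : Type} [AddCommGroup A] (f f' : (permZ G Ω).V →+ A)
    (h : ∀ ω : Ω, f (MonoidAlgebra.single ω 1) = f' (MonoidAlgebra.single ω 1)) : f = f' := by
  apply MonoidAlgebra.addMonoidHom_ext
  intro ω n
  have h1 : (MonoidAlgebra.single ω n : MonoidAlgebra ℤ Ω) = n • MonoidAlgebra.single ω 1 := by
    rw [MonoidAlgebra.smul_single, smul_eq_mul, mul_one]
  rw [h1, map_zsmul, map_zsmul, h ω]

/-- additive maps `ℤ[Ω] → Y'` lift along a surjection `Y → Y'` -/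
lemma e3_exists_lift {Y Y' : Type} [AddCommGroup Y] [AddCommGroup Y'] (π : Y →+ Y')
    (hπ : Function.Surjective π) (c : (permZ G Ω).V →+ Y') :
    ∃ t : (permZ G Ω).V →+ Y, π.comp t = c := by
  choose x hx using fun ω : Ω => hπ (c (MonoidAlgebra.single ω 1))
  refine ⟨e3_lift (G := G) Ω x, e3_ext Ω _ _ fun ω => ?_⟩
  rw [AddMonoidHom.comp_apply, e3_lift_single, one_zsmul, hx]

/-- `d¹` of a level 1-cochain with values in `Hom(ℤ[Ω], Y)`, `Y` discrete, `Ω` finite and trivial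
on a level, is a level 2-cochain. -/
lemma e3_isLevel₂_dOne [Finite Ω] {𝒯 : Tower G} (hΩ : IsLevSet 𝒯 Ω) {Y : Rep.{0} ℤ G}
    (hY : IsDiscrete 𝒯 Y) (t : G → ((permZ G Ω).V →+ Y.V)) (ht : IsLevel₁ 𝒯 t) :
    IsLevel₂ 𝒯 (dOne (permZ G Ω) Y t) := by
  obtain ⟨U₁, hU₁, h₁⟩ := ht
  obtain ⟨U₀, hU₀, h₀⟩ := hΩ
  have hfin : (Set.range (fun x : G × Ω => t x.1 (MonoidAlgebra.single x.2 1))).Finite := by
    have h1 : (Set.range t).Finite := isLevel₁_finite_range (𝒯 := 𝒯) ⟨U₁, hU₁, h₁⟩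
    have h2 : Set.range (fun x : G × Ω => t x.1 (MonoidAlgebra.single x.2 1)) ⊆
        (fun y : ((permZ G Ω).V →+ Y.V) × Ω => y.1 (MonoidAlgebra.single y.2 1)) ''
          ((Set.range t) ×ˢ (Set.univ : Set Ω)) := by
      rintro _ ⟨⟨σ, j⟩, rfl⟩
      exact ⟨(t σ, j), ⟨⟨σ, rfl⟩, Set.mem_univ _⟩, rfl⟩
    exact ((h1.prod Set.finite_univ).image _).subset h2
  obtain ⟨U₂, hU₂, h₂⟩ := hY.exists_level_of_finite hfin
  obtain ⟨V, hV, hVle, hVn⟩ := 𝒯.exists_normal _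
    (𝒯.inf_mem _ _ (𝒯.inf_mem _ _ hU₁ hU₂) hU₀)
  refine ⟨V, hV, fun g g' s s' hs hs' => ?_⟩
  have hs1 : s ∈ U₁ := (hVle hs).1.1
  have hs2 : s ∈ U₂ := (hVle hs).1.2
  have hs0 : s ∈ U₀ := (hVle hs).2
  have hs'1 : s' ∈ U₁ := (hVle hs').1.1
  have hconj : ∀ τ, conjAdd (permZ G Ω) Y s (t τ) = t τ := by
    intro τ
    apply e3_ext
    intro ω
    rw [conjAdd_apply, e3_ρ_single, h₀ s⁻¹ (U₀.inv_mem hs0)]
    exact h₂ _ ⟨(τ, ω), rfl⟩ s hs2
  have e1 : g * s * (g' * s') = g * g' * (g'⁻¹ * s * g' * s') := by group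
  have e2 : g'⁻¹ * s * g' * s' ∈ U₁ := by
    have h3 : g'⁻¹ * s * g' ∈ V := by
      have := hVn.conj_mem s hs g'⁻¹
      simpa using this
    exact (hVle (V.mul_mem h3 hs')).1.1
  show conjAdd (permZ G Ω) Y (g * s) (t (g' * s')) - t (g * s * (g' * s')) + t (g * s) =
    conjAdd (permZ G Ω) Y g (t g') - t (g * g') + t g
  rw [h₁ g' s' hs'1, h₁ g s hs1, e1, h₁ (g * g') _ e2, conjAdd_mul, hconj]

end Perm

/-- **A6a (E3).** -/
theorem stmtE3 : StmtE3 := by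
  intro p _ G _ ι _ Gloc _ D Ω _ _ hΩ h5 h7 z hzlev hzcoc hzp
  -- Step 1: `n₁ i z = d u`
  obtain ⟨n₁, hn₁, u, hulev, hu⟩ := h5 (fun s => (homAdd D.i).comp (z s))
    (e3_isLevel₃_comp hzlev _)
    (fun s => by
      rw [← e3_comp_dThree, hzcoc s]
      exact AddMonoidHom.comp_zero _)
    (fun s => by
      refine AddMonoidHom.ext fun m => ?_
      have h1 : p • z s m = 0 := by
        rw [← AddMonoidHom.nsmul_apply, hzp s]
        rfl
      show p • D.i.hom (z s m) = 0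
      rw [← map_nsmul, h1, map_zero])
  -- Step 2: `n₂ π u = π w + d t`
  have hπi : ∀ s, (homAdd D.π).comp (n₁ • (homAdd D.i).comp (z s)) = 0 := by
    intro s
    refine AddMonoidHom.ext fun m => ?_
    show D.π.hom (n₁ • D.i.hom (z s m)) = 0
    rw [map_nsmul, pi_i, smul_zero]
  obtain ⟨n₂, hn₂, w, hwlev, hwcoc, t, htlev, ht⟩ := h7 (fun s => (homAdd D.π).comp (u s))
    (hulev.comp (fun h => (homAdd D.π).comp h))
    (fun s => by
      rw [← e3_comp_dTwo, ← hu s]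
      exact hπi s)
  -- Step 3: lift `t`
  choose L hL using fun c : (permZ G Ω).V →+ D.C.V =>
    e3_exists_lift (G := G) Ω (homAdd D.π) D.π_surj c
  have httlev : IsLevel₁ D.𝒯 (fun σ => L (t σ)) := htlev.comp L
  -- Step 4: `X = n₂ u - w - d t̃` has values in `im i`
  have hdtt : IsLevel₂ D.𝒯 (dOne (permZ G Ω) (PTJ D) (fun σ => L (t σ))) :=
    e3_isLevel₂_dOne Ω hΩ (ptj_isDiscrete D) _ httlev
  set X : G × G → ((permZ G Ω).V →+ (PTJ D).V) :=
    fun s => n₂ • u s - w s - dOne (permZ G Ω) (PTJ D) (fun σ => L (t σ)) s with hXdef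
  have hXlev : IsLevel₂ D.𝒯 X := by
    obtain ⟨U₁, hU₁, h₁⟩ := hulev
    obtain ⟨U₂, hU₂, h₂⟩ := hwlev
    obtain ⟨U₃, hU₃, h₃⟩ := hdtt
    refine ⟨(U₁ ⊓ U₂) ⊓ U₃, D.𝒯.inf_mem _ _ (D.𝒯.inf_mem _ _ hU₁ hU₂) hU₃,
      fun g g' s s' hs hs' => ?_⟩
    simp only [hXdef]
    rw [h₁ g g' s s' hs.1.1 hs'.1.1, h₂ g g' s s' hs.1.2 hs'.1.2, h₃ g g' s s' hs.2 hs'.2]
  have hπX : ∀ s, (homAdd D.π).comp (X s) = 0 := by
    intro s
    have h1 : (homAdd D.π).comp (dOne (permZ G Ω) (PTJ D) (fun σ => L (t σ)) s) =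
        dOne (permZ G Ω) D.C t s := by
      rw [comp_dOne]
      congr 1
      funext σ
      exact hL (t σ)
    have h2 : (homAdd D.π).comp (X s) =
        n₂ • (homAdd D.π).comp (u s) - (homAdd D.π).comp (w s) -
          (homAdd D.π).comp (dOne (permZ G Ω) (PTJ D) (fun σ => L (t σ)) s) := by
      refine AddMonoidHom.ext fun m => ?_
      simp [hXdef]
    rw [h2, h1, ht s]
    abel
  choose y hy using fun s => exists_lift_i (D := D) (X s) (hπX s)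
  have hylev : IsLevel₂ D.𝒯 y := by
    obtain ⟨U, hU, h⟩ := hXlev
    refine ⟨U, hU, fun g g' s s' hs hs' => ?_⟩
    apply i_comp_injective (D := D)
    rw [hy, hy, h g g' s s' hs hs']
  -- Step 5: `d y = n₁ n₂ z`
  refine ⟨n₁ * n₂, ?_, y, hylev, fun s => ?_⟩
  · intro h
    rcases (Nat.Prime.dvd_mul (Fact.out : p.Prime)).mp h with h | h
    · exact hn₁ h
    · exact hn₂ h
  · apply i_comp_injective (D := D)
    have hyX : (fun s => (homAdd D.i).comp (y s)) = X := funext hy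
    rw [e3_comp_dTwo, hyX]
    have h3 : dTwo (permZ G Ω) (PTJ D) X s =
        n₂ • dTwo (permZ G Ω) (PTJ D) u s - dTwo (permZ G Ω) (PTJ D) w s -
          dTwo (permZ G Ω) (PTJ D) (dOne (permZ G Ω) (PTJ D) (fun σ => L (t σ))) s := by
      rw [hXdef, e3_dTwo_sub (permZ G Ω) (PTJ D) (fun s => n₂ • u s - w s),
        e3_dTwo_sub (permZ G Ω) (PTJ D) (fun s => n₂ • u s), e3_dTwo_nsmul]
    rw [h3, hwcoc s, e3_dTwo_dOne, sub_zero, sub_zero, ← hu s]
    refine AddMonoidHom.ext fun m => ?_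
    show D.i.hom ((n₁ * n₂) • z s m) = n₂ • n₁ • D.i.hom (z s m)
    rw [map_nsmul, mul_comm, mul_smul]

end Fermat.Agent.TW.E

end
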