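/-
TW-E / A9 (helper15): finite index criteria for additive subgroups (pure algebra).
-/
import Mathlib

set_option autoImplicit false

namespace Fermat.Agent.TW.E

/-- **Fiber criterion**: if a function `c : A → F` into a finite type separates the cosets of
`S` (`c x = c y → x - y ∈ S`), then `S` has finite index. -/
theorem eh2f_finiteIndex_of_fiber {A : Type*} [AddCommGroup A] (S : AddSubgroup A)
    {F : Type*} [Finite F] (c : A → F) (h : ∀ x y, c x = c y → x - y ∈ S) :
    S.FiniteIndex := by
  have hinj : Function.Injective (fun q : A ⧸ S => c q.out) := by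
    intro q q' hqq
    have h1 := h _ _ hqq
    rw [← QuotientAddGroup.out_eq' q, ← QuotientAddGroup.out_eq' q']
    rw [QuotientAddGroup.eq]
    have h2 : -Quotient.out q + Quotient.out q' = -(Quotient.out q - Quotient.out q') := by abel
    rw [h2]
    exact S.neg_mem h1
  have : Finite (A ⧸ S) := Finite.of_injective _ hinj
  exact AddSubgroup.finiteIndex_of_finite_quotient

/-- **Pigeonhole criterion**: if among any `N + 1` elements of `A` two differ by an element of
`S`, then `S` has finite index. -/
theorem eh2f_finiteIndex_of_pigeonhole {A : Type*} [AddCommGroup A] (S : AddSubgroup A) (N : ℕ)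
    (h : ∀ f : Fin (N + 1) → A, ∃ i j, i ≠ j ∧ f i - f j ∈ S) : S.FiniteIndex := by
  by_contra hS
  have hinf : Infinite (A ⧸ S) := by
    by_contra hfin
    rw [not_infinite_iff_finite] at hfin
    exact hS AddSubgroup.finiteIndex_of_finite_quotient
  obtain ⟨g⟩ : Nonempty (Fin (N + 1) ↪ A ⧸ S) := ⟨(Fin.valEmbedding).trans (Infinite.natEmbedding _)⟩
  obtain ⟨i, j, hij, hS'⟩ := h (fun i => (g i).out)
  apply hij
  apply g.injective
  rw [← QuotientAddGroup.out_eq' (g i), ← QuotientAddGroup.out_eq' (g j), QuotientAddGroup.eq]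
  have h2 : -Quotient.out (g i) + Quotient.out (g j) =
      -(Quotient.out (g i) - Quotient.out (g j)) := by abel
  rw [h2]
  exact S.neg_mem hS'

/-- transitivity of finite index -/
theorem eh2f_finiteIndex_trans {A : Type*} [AddCommGroup A] (S K : AddSubgroup A) (hSK : S ≤ K)
    (hK : K.FiniteIndex) (hS : (S.addSubgroupOf K).FiniteIndex) : S.FiniteIndex := by
  refine ⟨?_⟩
  rw [← AddSubgroup.relIndex_mul_index hSK]
  exact mul_ne_zero hS.index_ne_zero hK.index_ne_zero

/-- a subgroup containing a subgroup of finite index has finite index -/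
theorem eh2f_finiteIndex_mono {A : Type*} [AddCommGroup A] (S K : AddSubgroup A) (hSK : S ≤ K)
    (hS : S.FiniteIndex) : K.FiniteIndex :=
  AddSubgroup.finiteIndex_of_le hSK

end Fermat.Agent.TW.E
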