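/-
TW-E / A9 (`StmtH2Fin`: `H²_lev(G, B)` is finite) — INTERFACE FILE of the piece (helper15).
Definitions and statements only.  Mathematics: NOTES/TW-E-A9.md.

Route (UNCONDITIONAL: neither `StmtH2Surj` nor `HasPDepthGlob` is used):
* `B ↪ 𝓜 := Fun(Ω, μ_p)`, `Ω := B^*(1)` as a finite `G`-set, `b ↦ (λ ↦ λ b)`;  `Q := 𝓜 / B`;
  `H¹_lev(Q) → H²_lev(B) → H²_lev(𝓜)` and `H¹_lev(Q)` is finite (`stmtGloFin`)      [A9-EMB]
* `H²_lev(G, 𝓜)` is finite (Kummer `𝓜 = Hom(ℤ[Ω], E)[p]`, `In1`, `In2`, `stmtGloFin`):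
  `0 → H¹(𝓔)/p → H²(𝓜) → H²(𝓔)[p] ↪ H²(𝓙)[p] ↪ ∏_v H²(G_v, Hom(ℤ[Ω], J_v))[p]`         [A9-PERM]
* `H¹(𝓔)` is torsion with finite `p`-torsion, hence `H¹(𝓔)/p` is finite                [A9-ALG]
* the `p`-torsion of `H²_lev(H, Hom(M, X))` has at most `p^{rank M}` elements for a
  "class formation" `(H, 𝒯, X)` (descent to a finite level)                             [A9-LEV]
* at a finite level: Sylow + Tate–Nakayama `stmtTN0`                                    [A9-FB]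
-/
import Fermat.Agent.TW.E.Plan
import Fermat.Agent.PT.F.Level

set_option autoImplicit false

noncomputable section

namespace Fermat.Agent.TW.E

open CategoryTheory groupCohomology Module Fermat.Agent.PT Fermat.Agent.PT.F Fermat.Agent.TW.F

/-! ### The twisted function module -/

section TwFun

variable {p : ℕ} {G : Type} [Group G]

/-- The action of `G` on `Fun(Ω, 𝔽_p)` twisted by `χ`: `(g φ)(ω) = χ(g) φ(g⁻¹ ω)`.
(`= Hom_ℤ(ℤ[Ω], μ_p)` when `χ` is the cyclotomic character.) -/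
def eh2fTwρ (χ : G →* (ZMod p)ˣ) (Ω : Type) [MulAction G Ω] :
    Representation (ZMod p) G (Ω → ZMod p) where
  toFun g :=
    { toFun := fun φ ω => ((χ g : (ZMod p)ˣ) : ZMod p) * φ (g⁻¹ • ω)
      map_add' := fun φ ψ => by
        funext ω
        simp only [Pi.add_apply, mul_add]
      map_smul' := fun c φ => by
        funext ω
        simp only [Pi.smul_apply, smul_eq_mul, RingHom.id_apply]
        ring }
  map_one' := by
    ext φ ω
    simp
  map_mul' g h := by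
    ext φ ω
    simp [mul_smul, mul_assoc]

/-- `Fun(Ω, μ_p)` as an object of `Rep 𝔽_p G`. -/
abbrev eh2fTw (χ : G →* (ZMod p)ˣ) (Ω : Type) [MulAction G Ω] : Rep.{0} (ZMod p) G :=
  Rep.of (eh2fTwρ χ Ω)

end TwFun

/-! ### The sub-pieces of A9 -/

/-- **A9-FB** (finite level; Sylow + `stmtTN0`): for a finite group `Γ`, a module `C` with a
`p`-fundamental class and a `ℤ`-free `N` of rank `n`, the group `H²(Γ, Hom(N, C))` has at most
`p ^ n` elements killed by `p` (pigeonhole form). -/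
def StmtH2FB : Prop :=
  ∀ (p : ℕ) [Fact p.Prime] (Γ : Type) [Group Γ] [Finite Γ] (C : Rep.{0} ℤ Γ) (u : H2 C),
    IsPFundClass p C u → ∀ (N : Rep.{0} ℤ Γ) (n : ℕ), Nonempty (N.V ≃+ (Fin n → ℤ)) →
    ∀ ξ : Fin (p ^ n + 1) → H2 (homRep N C), (∀ i, p • ξ i = 0) → ∃ i j, i ≠ j ∧ ξ i = ξ j

/-- **A9-LEV** (level form of A9-FB; `stmtH2LevFB_of : StmtH2FB → StmtH2LevFB`): for a group with
tower `(H, 𝒯)`, a discrete module `X` with `p`-fundamental classes at all normal levels and a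
`ℤ`-free `M` of rank `n`, trivial on a level: among `p ^ n + 1` level 2-cocycles of `Hom(M, X)`
killed by `p`, two differ by a level coboundary. -/
def StmtH2LevFB : Prop :=
  ∀ (p : ℕ) [Fact p.Prime] (H : Type) [Group H] (𝒯 : Tower H) (X : Rep.{0} ℤ H),
    IsDiscrete 𝒯 X → HasPFund 𝒯 X p → ∀ (M : Rep.{0} ℤ H) (n : ℕ), IsLevTriv 𝒯 M →
    Nonempty (M.V ≃+ (Fin n → ℤ)) →
    ∀ y : Fin (p ^ n + 1) → H × H → (M.V →+ X.V), (∀ i, IsLevel₂ 𝒯 (y i)) →
      (∀ i s, dTwo M X (y i) s = 0) → (∀ i s, p • y i s = 0) →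
      ∃ i j, i ≠ j ∧ ∃ t : H → (M.V →+ X.V), IsLevel₁ 𝒯 t ∧
        ∀ s, y i s - y j s = dOne M X t s

/-- **A9-ALG** (pure algebra): a torsion abelian group with finite `p`-torsion has finite
`T / pT`.  (A finitely generated torsion group `F` is finite and `|F/p| = |F[p]|`.) -/
def StmtTorsQuot : Prop :=
  ∀ (p : ℕ) [Fact p.Prime] (T : Type) [AddCommGroup T],
    (∀ x : T, ∃ n : ℕ, 0 < n ∧ n • x = 0) → {x : T | p • x = 0}.Finite →
    Finite (T ⧸ (nsmulAddMonoidHom (α := T) p).range)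

/-- **A9-PERM**: `H²_lev(G, Fun(Ω, μ_p))` is finite for every finite level `G`-set `Ω`.
(`stmtH2FinPerm_of : StmtH2LevFB → StmtTorsQuot → StmtH2FinPerm`; uses `stmtIn1Perm`,
`stmtIn2a`, `stmtIn2b`, `stmtGloFin`.) -/
def StmtH2FinPerm : Prop :=
  ∀ (p : ℕ) [Fact p.Prime] (G : Type) [Group G] (ι : Type) [Fintype ι] (Gloc : ι → Type)
    [∀ v, Group (Gloc v)] (D : PTDatum p G ι Gloc)
    (Ω : Type) [Fintype Ω] [MulAction G Ω], IsLevSet D.𝒯 Ω →
    Finite (levH2 D.𝒯 (eh2fTw D.χ Ω))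

/-- **A9-EMB** (half-exactness, generic): if `e : B → 𝓜` is an injective `G`-map of
`𝔽_p[G]`-modules, `𝓜` is trivial on a level, `H²_lev(𝓜)` is finite and `H¹_lev(Q)` is finite for
one surjective `G`-map `q : 𝓜 → Q` with `ker q = im e`, then `H²_lev(B)` is finite. -/
def StmtH2Half : Prop :=
  ∀ (p : ℕ) [Fact p.Prime] (G : Type) [Group G] (𝒯 : Tower G)
    (B 𝓜 Q : Rep.{0} (ZMod p) G) (e : B ⟶ 𝓜) (q : 𝓜 ⟶ Q),
    Function.Injective e.hom → Function.Surjective q.hom → Function.Exact e.hom q.hom →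
    TrivOnLevel 𝒯 𝓜 →
    Finite ↥(levH1 𝒯 Q) → Finite (levH2 𝒯 𝓜) → Finite (levH2 𝒯 B)

end Fermat.Agent.TW.E

end
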