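/-
TW-E / A9-ALG (helper15): `stmtTorsQuot : StmtTorsQuot` — a torsion abelian group with finite
`p`-torsion has finite `T / pT`.
-/
import Fermat.Agent.TW.E.H2FinPlan
import Fermat.Agent.TW.E.H2FinIdx

set_option autoImplicit false
set_option linter.style.haveILetI false

namespace Fermat.Agent.TW.E

/-- for a finite abelian group, `|F / pF| = |F[p]|` -/
theorem eh2f_card_quot_eq_card_ker (F : Type*) [AddCommGroup F] [Finite F] (p : ℕ) :
    Nat.card (F ⧸ (nsmulAddMonoidHom (α := F) p).range) =
      Nat.card (nsmulAddMonoidHom (α := F) p).ker := by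
  set φ := nsmulAddMonoidHom (α := F) p
  have h1 := AddSubgroup.card_eq_card_quotient_mul_card_addSubgroup φ.ker
  have h2 := AddSubgroup.card_eq_card_quotient_mul_card_addSubgroup φ.range
  have h3 : Nat.card (F ⧸ φ.ker) = Nat.card φ.range :=
    Nat.card_congr (QuotientAddGroup.quotientKerEquivRange φ).toEquiv
  rw [h3] at h1
  have hpos : 0 < Nat.card φ.range := Nat.card_pos
  have h4 : Nat.card (F ⧸ φ.range) * Nat.card φ.range = Nat.card φ.ker * Nat.card φ.range := by
    rw [← h2, h1, mul_comm]
  exact Nat.eq_of_mul_eq_mul_right hpos h4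

/-- **A9-ALG**. -/
theorem stmtTorsQuot : StmtTorsQuot := by
  intro p _ T _ htors hfin
  classical
  have hFI : (nsmulAddMonoidHom (α := T) p).range.FiniteIndex := by
    apply eh2f_finiteIndex_of_pigeonhole _ (Nat.card {x : T | p • x = 0})
    intro f
    -- the finitely generated subgroup
    set gen : Set T := Set.range f ∪ {x : T | p • x = 0} with hgen
    have hgenfin : gen.Finite := (Set.finite_range f).union hfin
    set F : AddSubgroup T := AddSubgroup.closure gen with hF
    haveI hFG : AddGroup.FG ↥F := by
      rw [AddGroup.fg_iff_addSubgroup_fg]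
      exact ⟨hgenfin.toFinset, by rw [Set.Finite.coe_toFinset]⟩
    have hFtors : IsAddTorsion ↥F := by
      intro x
      obtain ⟨n, hn, hx⟩ := htors x.1
      rw [isOfFinAddOrder_iff_nsmul_eq_zero]
      exact ⟨n, hn, Subtype.ext hx⟩
    haveI : Finite ↥F := AddCommGroup.finite_of_fg_isAddTorsion _ hFtors
    -- the torsion of `F` embeds into the torsion of `T`
    haveI : Finite {x : T | p • x = 0} := hfin.to_subtype
    have hcard : Nat.card (nsmulAddMonoidHom (α := ↥F) p).ker ≤
        Nat.card {x : T | p • x = 0} := by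
      refine Nat.card_le_card_of_injective
        (fun x => (⟨x.1.1, congrArg Subtype.val x.2⟩ : {x : T | p • x = 0})) ?_
      intro x y hxy
      have h0 : x.1.1 = y.1.1 :=
        congrArg (fun z : {x : T | p • x = 0} => (z.1 : T)) hxy
      exact Subtype.ext (Subtype.ext h0)
    have hf : ∀ i, f i ∈ F := fun i =>
      AddSubgroup.subset_closure (Or.inl ⟨i, rfl⟩)
    by_contra hcon
    push Not at hcon
    have hinj : Function.Injective (fun i : Fin (Nat.card {x : T | p • x = 0} + 1) =>
        (QuotientAddGroup.mk (⟨f i, hf i⟩ : ↥F) :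
          ↥F ⧸ (nsmulAddMonoidHom (α := ↥F) p).range)) := by
      intro i j hij
      by_contra hne
      apply hcon i j hne
      have h1 := (QuotientAddGroup.eq).1 hij
      obtain ⟨y, hy⟩ := h1
      refine ⟨-y.1, ?_⟩
      have h2 : p • y.1 = -f i + f j := congrArg Subtype.val hy
      show p • (-y.1) = f i - f j
      rw [smul_neg, h2]
      abel
    have h3 := Nat.card_le_card_of_injective _ hinj
    rw [Nat.card_fin, eh2f_card_quot_eq_card_ker] at h3
    omega
  exact AddSubgroup.finite_quotient_of_finiteIndex

end Fermat.Agent.TW.E
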