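/-
TW-E / A9-PERM (helper15), part 1: the Kummer identification
`κ : Fun(Ω, μ_p) = Fun(Ω, 𝔽_p)(χ) ≅ Hom_ℤ(ℤ[Ω], E)[p]`, `κ φ (δ_ω) = (φ ω).val • ζ`,
and the dictionary between the cochains of the `𝔽_p[G]`-module `eh2fTw χ Ω` and the
`Hom_ℤ(ℤ[Ω], E)`-valued cochains killed by `p`.
-/
import Fermat.Agent.TW.E.H2FinPlan
import Fermat.Agent.TW.E.ChaseLift
import Fermat.Agent.PT.F.SeqKappa

set_option autoImplicit false
set_option linter.unusedSectionVars false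

noncomputable section

namespace Fermat.Agent.TW.E

open CategoryTheory groupCohomology Module Fermat.Agent.PT Fermat.Agent.PT.F Fermat.Agent.TW.F
open Fermat.Agent.PT.F.ExactH2

attribute [local instance 1100] Rep.hV2

section Kap

variable {p : ℕ} [Fact p.Prime] {G : Type} [Group G] {ι : Type} {Gloc : ι → Type}
  [∀ v, Group (Gloc v)] (D : PTDatum p G ι Gloc) (Ω : Type) [MulAction G Ω]

/-- `κ : Fun(Ω, 𝔽_p) → Hom_ℤ(ℤ[Ω], E)`, `κ φ (δ_ω) = (φ ω).val • ζ`. -/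
def eh2fKap : (eh2fTw D.χ Ω).V →+ ((permZ G Ω).V →+ D.E.V) :=
  AddMonoidHom.mk' (fun φ => chl_lift Ω (fun ω => kapVal D.ζ (φ ω))) (fun φ ψ => by
    apply chl_ext
    intro ω
    rw [AddMonoidHom.add_apply, chl_lift_single, chl_lift_single, chl_lift_single, one_smul,
      one_smul, one_smul]
    exact kapVal_add D.ζ_tors (φ ω) (ψ ω))

lemma eh2fKap_single (φ : (eh2fTw D.χ Ω).V) (ω : Ω) :
    eh2fKap D Ω φ (MonoidAlgebra.single ω 1) = kapVal D.ζ (φ ω) := by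
  show chl_lift Ω (fun ω => kapVal D.ζ (φ ω)) (MonoidAlgebra.single ω 1) = _
  rw [chl_lift_single, one_smul]

lemma eh2fKap_injective : Function.Injective (eh2fKap D Ω) := by
  intro φ ψ h
  funext ω
  have h1 := DFunLike.congr_fun h (MonoidAlgebra.single ω 1)
  rw [eh2fKap_single, eh2fKap_single] at h1
  exact kapVal_injective D.ζ_tors D.ζ_ne h1

lemma eh2fTw_ρ_apply (g : G) (φ : (eh2fTw D.χ Ω).V) (ω : Ω) :
    ((eh2fTw D.χ Ω).ρ g φ) ω = ((D.χ g : (ZMod p)ˣ) : ZMod p) * φ (g⁻¹ • ω) := rfl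

/-- `κ` is equivariant. -/
lemma eh2fKap_conj (g : G) (φ : (eh2fTw D.χ Ω).V) :
    eh2fKap D Ω ((eh2fTw D.χ Ω).ρ g φ) = conjAdd (permZ G Ω) D.E g (eh2fKap D Ω φ) := by
  apply chl_ext
  intro ω
  rw [eh2fKap_single, conjAdd_apply, chl_ρ_single, eh2fKap_single, eh2fTw_ρ_apply,
    kapVal_mul D.ζ_tors]
  show _ = D.E.ρ g ((φ (g⁻¹ • ω)).val • D.ζ)
  rw [map_nsmul, D.ζ_char g, smul_comm]
  rfl

/-- the values of `κ` are killed by `p` -/
lemma eh2fKap_p (φ : (eh2fTw D.χ Ω).V) : p • eh2fKap D Ω φ = 0 := by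
  apply chl_ext
  intro ω
  rw [AddMonoidHom.nsmul_apply, eh2fKap_single, AddMonoidHom.zero_apply]
  show p • ((φ ω).val • D.ζ) = 0
  rw [smul_comm, D.ζ_tors, smul_zero]

/-- `κ` is onto the maps killed by `p` -/
lemma eh2fKap_surj (h : (permZ G Ω).V →+ D.E.V) (hp : p • h = 0) :
    ∃ φ : (eh2fTw D.χ Ω).V, eh2fKap D Ω φ = h := by
  have h1 : ∀ ω : Ω, ∃ n : ℕ, h (MonoidAlgebra.single ω 1) = n • D.ζ := fun ω =>
    D.ζ_gen _ (by
      have := DFunLike.congr_fun hp (MonoidAlgebra.single ω 1)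
      simpa using this)
  choose n hn using h1
  refine ⟨fun ω => (n ω : ZMod p), ?_⟩
  apply chl_ext
  intro ω
  rw [eh2fKap_single, hn]
  exact kapVal_natCast D.ζ_tors (n ω)

/-- the inverse of `κ` on maps killed by `p` (by choice) -/
def eh2fKapInv (h : (permZ G Ω).V →+ D.E.V) : (eh2fTw D.χ Ω).V :=
  open Classical in
  if hp : p • h = 0 then (eh2fKap_surj D Ω h hp).choose else 0

lemma eh2fKap_kapInv (h : (permZ G Ω).V →+ D.E.V) (hp : p • h = 0) :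
    eh2fKap D Ω (eh2fKapInv D Ω h) = h := by
  unfold eh2fKapInv
  rw [dif_pos hp]
  exact (eh2fKap_surj D Ω h hp).choose_spec

/-! ### Cochains -/

/-- `κ ∘ d¹ b = d¹ (κ ∘ b)` -/
lemma eh2fKap_d₁₂ (b : G → (eh2fTw D.χ Ω).V) (στ : G × G) :
    eh2fKap D Ω ((d₁₂ (eh2fTw D.χ Ω)).hom b στ) =
      dOne (permZ G Ω) D.E (fun σ => eh2fKap D Ω (b σ)) στ := by
  obtain ⟨σ, τ⟩ := στ
  rw [d₁₂_hom_apply]
  show eh2fKap D Ω ((eh2fTw D.χ Ω).ρ σ (b τ) - b (σ * τ) + b σ) = _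
  rw [map_add, map_sub, eh2fKap_conj]
  rfl

/-- `κ ∘ d⁰ m = d⁰ (κ m)` -/
lemma eh2fKap_d₀₁ (m : (eh2fTw D.χ Ω).V) (σ : G) :
    eh2fKap D Ω ((d₀₁ (eh2fTw D.χ Ω)).hom m σ) = dZero (permZ G Ω) D.E (eh2fKap D Ω m) σ := by
  rw [d₀₁_hom_apply]
  show eh2fKap D Ω ((eh2fTw D.χ Ω).ρ σ m - m) = _
  rw [map_sub, eh2fKap_conj]
  rfl

/-- 2-cocycles of `Fun(Ω, μ_p)` are the cochains whose `κ` is a `dTwo`-cocycle -/
lemma eh2f_mem_cocycles₂_iff (w : G × G → (eh2fTw D.χ Ω).V) :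
    w ∈ cocycles₂ (eh2fTw D.χ Ω) ↔
      ∀ s, dTwo (permZ G Ω) D.E (fun x => eh2fKap D Ω (w x)) s = 0 := by
  rw [mem_cocycles₂_iff]
  have key : ∀ σ τ ρ : G, dTwo (permZ G Ω) D.E (fun x => eh2fKap D Ω (w x)) (σ, τ, ρ) =
      eh2fKap D Ω ((eh2fTw D.χ Ω).ρ σ (w (τ, ρ)) - w (σ * τ, ρ) + w (σ, τ * ρ) - w (σ, τ)) := by
    intro σ τ ρ
    rw [map_sub, map_add, map_sub, eh2fKap_conj]
    rfl
  constructor
  · rintro h ⟨σ, τ, ρ⟩
    rw [key]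
    have h0 : (eh2fTw D.χ Ω).ρ σ (w (τ, ρ)) - w (σ * τ, ρ) + w (σ, τ * ρ) - w (σ, τ) = 0 := by
      have := h σ τ ρ
      linear_combination (norm := abel) -this
    rw [h0, map_zero]
  · intro h σ τ ρ
    have h1 := h (σ, τ, ρ)
    rw [key] at h1
    have h2 := eh2fKap_injective D Ω (h1.trans (map_zero _).symm)
    linear_combination (norm := abel) -h2

/-- 1-cocycles of `Fun(Ω, μ_p)` are the cochains whose `κ` is a `dOne`-cocycle -/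
lemma eh2f_mem_cocycles₁_iff (z : G → (eh2fTw D.χ Ω).V) :
    z ∈ cocycles₁ (eh2fTw D.χ Ω) ↔
      ∀ s, dOne (permZ G Ω) D.E (fun x => eh2fKap D Ω (z x)) s = 0 := by
  rw [mem_cocycles₁_iff]
  have key : ∀ σ τ : G, dOne (permZ G Ω) D.E (fun x => eh2fKap D Ω (z x)) (σ, τ) =
      eh2fKap D Ω ((eh2fTw D.χ Ω).ρ σ (z τ) - z (σ * τ) + z σ) := by
    intro σ τ
    rw [map_add, map_sub, eh2fKap_conj]
    rfl
  constructor
  · rintro h ⟨σ, τ⟩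
    rw [key]
    have h0 : (eh2fTw D.χ Ω).ρ σ (z τ) - z (σ * τ) + z σ = 0 := by
      have := h σ τ
      linear_combination (norm := abel) -this
    rw [h0, map_zero]
  · intro h σ τ
    have h1 := h (σ, τ)
    rw [key] at h1
    have h2 := eh2fKap_injective D Ω (h1.trans (map_zero _).symm)
    linear_combination (norm := abel) -h2

/-- a level cochain killed by `p` is `κ` of a level cochain -/
lemma eh2f_exists_kap₁ {𝒯 : Tower G} (c : G → ((permZ G Ω).V →+ D.E.V)) (hc : IsLevel₁ 𝒯 c)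
    (hp : ∀ σ, p • c σ = 0) :
    ∃ z : G → (eh2fTw D.χ Ω).V, IsLevel₁ 𝒯 z ∧ ∀ σ, eh2fKap D Ω (z σ) = c σ :=
  ⟨fun σ => eh2fKapInv D Ω (c σ), hc.comp (eh2fKapInv D Ω),
    fun σ => eh2fKap_kapInv D Ω (c σ) (hp σ)⟩

end Kap

end Fermat.Agent.TW.E

end
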