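/-
TW-E / A9-PERM (helper15), part 2: `T := H¹_lev(G, Hom_ℤ(ℤ[Ω], E))` is a torsion group with
finite `p`-torsion (the image of `H¹_lev(G, Fun(Ω, μ_p))`, finite by `stmtGloFin`); hence
`T / pT` is finite (`StmtTorsQuot`).
-/
import Fermat.Agent.TW.E.H2FinKap
import Fermat.Agent.TW.F.GloFin

set_option autoImplicit false
set_option linter.unusedSectionVars false
set_option linter.style.haveILetI false

noncomputable section

namespace Fermat.Agent.TW.E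

open CategoryTheory groupCohomology Module Fermat.Agent.PT Fermat.Agent.PT.F Fermat.Agent.TW.F
open Fermat.Agent.PT.F.ExactH2

attribute [local instance 1100] Rep.hV2

section Defs

variable {p : ℕ} {G : Type} [Group G] {ι : Type} {Gloc : ι → Type}
  [∀ v, Group (Gloc v)] (D : PTDatum p G ι Gloc) (Ω : Type) [MulAction G Ω]

lemma eh2f_dOne_zero (M Y : Rep.{0} ℤ G) (s : G × G) :
    dOne M Y (0 : G → (M.V →+ Y.V)) s = 0 := by
  obtain ⟨σ, τ⟩ := s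
  ext m
  simp [dOne_apply]

/-- the level 1-cocycles of `Hom_ℤ(ℤ[Ω], E)` -/
def eh2fZ1 : AddSubgroup (G → ((permZ G Ω).V →+ D.E.V)) where
  carrier := {c | IsLevel₁ D.𝒯 c ∧ ∀ s, dOne (permZ G Ω) D.E c s = 0}
  zero_mem' := ⟨isLevel₁_const D.𝒯 _, fun s => eh2f_dOne_zero _ _ s⟩
  add_mem' := fun {a b} ha hb => ⟨ha.1.add hb.1, fun s => by
    have := chl_dOne_add (permZ G Ω) D.E a b s
    rw [ha.2 s, hb.2 s, add_zero] at this
    exact this⟩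
  neg_mem' := fun {a} ha => ⟨(ha.1.comp (fun h => -h) :), fun s => by
    have := chl_dOne_neg (permZ G Ω) D.E a s
    rw [ha.2 s, neg_zero] at this
    exact this⟩

lemma eh2f_mem_Z1 (c : G → ((permZ G Ω).V →+ D.E.V)) :
    c ∈ eh2fZ1 D Ω ↔ IsLevel₁ D.𝒯 c ∧ ∀ s, dOne (permZ G Ω) D.E c s = 0 := Iff.rfl

lemma eh2f_dZero_add (M Y : Rep.{0} ℤ G) (h h' : M.V →+ Y.V) (σ : G) :
    dZero M Y (h + h') σ = dZero M Y h σ + dZero M Y h' σ := by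
  ext m
  simp only [dZero_apply, AddMonoidHom.add_apply, map_add]
  abel

lemma eh2f_dZero_neg (M Y : Rep.{0} ℤ G) (h : M.V →+ Y.V) (σ : G) :
    dZero M Y (-h) σ = -dZero M Y h σ := by
  ext m
  simp only [dZero_apply, AddMonoidHom.neg_apply, map_neg]
  abel

lemma eh2f_dZero_zero (M Y : Rep.{0} ℤ G) (σ : G) :
    dZero M Y (0 : M.V →+ Y.V) σ = 0 := by
  ext m
  simp [dZero_apply]

/-- the coboundaries `d⁰ h` inside the level 1-cocycles -/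
def eh2fB1 : AddSubgroup ↥(eh2fZ1 D Ω) where
  carrier := {c | ∃ h : (permZ G Ω).V →+ D.E.V, ∀ σ, c.1 σ = dZero (permZ G Ω) D.E h σ}
  zero_mem' := ⟨0, fun σ => (eh2f_dZero_zero _ _ σ).symm⟩
  add_mem' := by
    rintro a b ⟨h, hh⟩ ⟨h', hh'⟩
    refine ⟨h + h', fun σ => ?_⟩
    rw [eh2f_dZero_add, ← hh, ← hh']
    rfl
  neg_mem' := by
    rintro a ⟨h, hh⟩
    refine ⟨-h, fun σ => ?_⟩
    rw [eh2f_dZero_neg, ← hh]
    rfl

/-- `T = H¹_lev(G, Hom_ℤ(ℤ[Ω], E))` -/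
abbrev eh2fT : Type := ↥(eh2fZ1 D Ω) ⧸ eh2fB1 D Ω

lemma eh2fT_mk_eq_zero_iff (c : ↥(eh2fZ1 D Ω)) :
    (QuotientAddGroup.mk c : eh2fT D Ω) = 0 ↔
      ∃ h : (permZ G Ω).V →+ D.E.V, ∀ σ, c.1 σ = dZero (permZ G Ω) D.E h σ := by
  rw [QuotientAddGroup.eq_zero_iff]
  rfl

end Defs

section Torsion

variable {p : ℕ} {G : Type} [Group G] {ι : Type} {Gloc : ι → Type}
  [∀ v, Group (Gloc v)] (D : PTDatum p G ι Gloc) (Ω : Type) [MulAction G Ω]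

/-- a level 1-cocycle is killed by the index of its level, up to a coboundary -/
lemma eh2f_index_nsmul (M Y : Rep.{0} ℤ G) (c : G → (M.V →+ Y.V)) (U : Subgroup G)
    [hU : U.FiniteIndex] (hc : ∀ g s : G, s ∈ U → c (g * s) = c g)
    (hd : ∀ s, dOne M Y c s = 0) :
    ∃ a : M.V →+ Y.V, ∀ g, U.index • c g = dZero M Y a g := by
  classical
  haveI : Finite (G ⧸ U) := Subgroup.finite_quotient_of_finiteIndex
  haveI : Fintype (G ⧸ U) := Fintype.ofFinite _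
  have hcoc : ∀ g h : G, c (g * h) = c g + conjAdd M Y g (c h) := by
    intro g h
    have := hd (g, h)
    unfold dOne at this
    simp only at this
    have h2 : c (g * h) = conjAdd M Y g (c h) + c g := by
      rw [sub_add_eq_add_sub, sub_eq_zero] at this
      exact this.symm
    rw [h2, add_comm]
  have hout : ∀ (g : G) (q : G ⧸ U), c (g * q.out) = c ((g • q).out) := by
    intro g q
    have h1 : g • q = ((g * q.out : G) : G ⧸ U) := by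
      conv_lhs => rw [← QuotientGroup.out_eq' q]
      rfl
    obtain ⟨u, hu⟩ := QuotientGroup.mk_out_eq_mul U (g * q.out)
    rw [h1]
    show c (g * q.out) = c (Quotient.out ((g * q.out : G) : G ⧸ U))
    rw [hu, hc _ _ u.2]
  set a : M.V →+ Y.V := ∑ q : G ⧸ U, c q.out with ha
  refine ⟨-a, fun g => ?_⟩
  have h1 : ∑ q : G ⧸ U, c (g * q.out) = U.index • c g + conjAdd M Y g a := by
    rw [ha, map_sum, Finset.sum_congr rfl (fun q _ => hcoc g q.out), Finset.sum_add_distrib,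
      Finset.sum_const, Finset.card_univ, Subgroup.index, Nat.card_eq_fintype_card]
  have h2 : ∑ q : G ⧸ U, c (g * q.out) = a := by
    rw [Finset.sum_congr rfl (fun q _ => hout g q), ha]
    exact Equiv.sum_comp (MulAction.toPerm g : G ⧸ U ≃ G ⧸ U) (fun q => c q.out)
  have h3 : U.index • c g = a - conjAdd M Y g a := by
    rw [eq_sub_iff_add_eq, ← h1, h2]
  rw [h3]
  unfold dZero
  rw [map_neg]
  abel

end Torsion

section Main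

variable {p : ℕ} [Fact p.Prime] {G : Type} [Group G] {ι : Type} [Fintype ι] {Gloc : ι → Type}
  [∀ v, Group (Gloc v)] (D : PTDatum p G ι Gloc) (Ω : Type) [Fintype Ω] [MulAction G Ω]

/-- `T` is a torsion group -/
theorem eh2fT_torsion (x : eh2fT D Ω) : ∃ n : ℕ, 0 < n ∧ n • x = 0 := by
  obtain ⟨c, rfl⟩ := QuotientAddGroup.mk_surjective x
  obtain ⟨U, hU, hc⟩ := c.2.1
  haveI := D.𝒯.finiteIndex U hU
  obtain ⟨a, ha⟩ := eh2f_index_nsmul (permZ G Ω) D.E c.1 U hc c.2.2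
  refine ⟨U.index, Nat.pos_of_ne_zero Subgroup.FiniteIndex.index_ne_zero, ?_⟩
  rw [← QuotientAddGroup.mk_nsmul, eh2fT_mk_eq_zero_iff]
  exact ⟨a, fun σ => ha σ⟩

/-- `Fun(Ω, μ_p)` is trivial on a level -/
lemma eh2fTw_trivOnLevel (hΩ : IsLevSet D.𝒯 Ω) : TrivOnLevel D.𝒯 (eh2fTw D.χ Ω) := by
  obtain ⟨U₁, hU₁, h₁⟩ := hΩ
  obtain ⟨U₂, hU₂, h₂⟩ := D.χ_level
  refine ⟨U₁ ⊓ U₂, D.𝒯.inf_mem _ _ hU₁ hU₂, fun s hs => ?_⟩
  ext φ ω
  show ((D.χ s : (ZMod p)ˣ) : ZMod p) * φ (s⁻¹ • ω) = φ ω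
  rw [h₂ s hs.2, h₁ s⁻¹ (U₁.inv_mem hs.1)]
  simp

/-- additive maps `ℤ[Ω] → E` are divisible by `p` -/
lemma eh2f_hom_div (h : (permZ G Ω).V →+ D.E.V) :
    ∃ h' : (permZ G Ω).V →+ D.E.V, p • h' = h := by
  choose e he using fun ω : Ω => D.E_div (h (MonoidAlgebra.single ω 1))
  refine ⟨chl_lift Ω e, chl_ext Ω _ _ fun ω => ?_⟩
  rw [AddMonoidHom.nsmul_apply, chl_lift_single, one_smul, he]

/-- a class of `T` killed by `p` is represented by `κ ∘ z`, `z` a level 1-cocycle of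
`Fun(Ω, μ_p)` -/
lemma eh2fT_ptors_rep (hΩ : IsLevSet D.𝒯 Ω) (c : ↥(eh2fZ1 D Ω))
    (hc : p • (QuotientAddGroup.mk c : eh2fT D Ω) = 0) :
    ∃ z : G → (eh2fTw D.χ Ω).V, z ∈ cocycles₁ (eh2fTw D.χ Ω) ∧ IsLevel₁ D.𝒯 z ∧
      ∃ h' : (permZ G Ω).V →+ D.E.V,
        ∀ σ, c.1 σ = eh2fKap D Ω (z σ) + dZero (permZ G Ω) D.E h' σ := by
  have hE : IsDiscrete D.𝒯 D.E := D.E_discrete
  rw [← QuotientAddGroup.mk_nsmul, eh2fT_mk_eq_zero_iff] at hc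
  obtain ⟨h, hh⟩ := hc
  obtain ⟨h', rfl⟩ := eh2f_hom_div D Ω h
  have hh' : ∀ σ, p • c.1 σ = p • dZero (permZ G Ω) D.E h' σ := fun σ => by
    rw [← dZero_nsmul]
    exact hh σ
  have hlev : IsLevel₁ D.𝒯 (fun σ => c.1 σ - dZero (permZ G Ω) D.E h' σ) :=
    chl_isLevel₁_sub c.2.1 (chl_isLevel₁_dZero hΩ hE h')
  obtain ⟨z, hz, hzc⟩ := eh2f_exists_kap₁ D Ω _ hlev (fun σ => by
    rw [smul_sub, hh' σ, sub_self])
  refine ⟨z, ?_, hz, h', fun σ => ?_⟩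
  · rw [eh2f_mem_cocycles₁_iff]
    intro s
    have e1 : (fun x => eh2fKap D Ω (z x)) =
        fun σ => c.1 σ - dZero (permZ G Ω) D.E h' σ := funext hzc
    rw [e1, dOne_sub, c.2.2 s, dOne_dZero, sub_zero]
  · rw [hzc σ]
    abel

/-- the `p`-torsion of `T` is finite -/
theorem eh2fT_ptors_finite (hΩ : IsLevSet D.𝒯 Ω) : {x : eh2fT D Ω | p • x = 0}.Finite := by
  classical
  haveI : FiniteDimensional (ZMod p) (eh2fTw D.χ Ω) :=
    (inferInstance : FiniteDimensional (ZMod p) (Ω → ZMod p))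
  haveI : Finite ↥(levH1 D.𝒯 (eh2fTw D.χ Ω)) :=
    stmtGloFin p G ι Gloc D (eh2fTw D.χ Ω) (eh2fTw_trivOnLevel D Ω hΩ)
  have hrep : ∀ y : ↥(levH1 D.𝒯 (eh2fTw D.χ Ω)), ∃ c : cocycles₁ (eh2fTw D.χ Ω),
      IsLevel₁ D.𝒯 c ∧ (H1π (eh2fTw D.χ Ω)).hom c = y.1 := fun y =>
    (mem_levH1_iff D.𝒯 _ y.1).1 y.2
  choose cy hcy1 hcy2 using hrep
  have hmem : ∀ (c : cocycles₁ (eh2fTw D.χ Ω)), IsLevel₁ D.𝒯 c →
      (fun σ => eh2fKap D Ω (c σ)) ∈ eh2fZ1 D Ω := fun c hc =>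
    ⟨(hc.comp (eh2fKap D Ω) :), (eh2f_mem_cocycles₁_iff D Ω _).1 c.2⟩
  let Θ : ↥(levH1 D.𝒯 (eh2fTw D.χ Ω)) → eh2fT D Ω := fun y =>
    QuotientAddGroup.mk ⟨_, hmem (cy y) (hcy1 y)⟩
  refine (Set.finite_range Θ).subset ?_
  intro x hx
  obtain ⟨c, rfl⟩ := QuotientAddGroup.mk_surjective x
  obtain ⟨z, hz, hzl, h', hzc⟩ := eh2fT_ptors_rep D Ω hΩ c hx
  set y : ↥(levH1 D.𝒯 (eh2fTw D.χ Ω)) :=
    ⟨(H1π (eh2fTw D.χ Ω)).hom ⟨z, hz⟩, (mem_levH1_iff D.𝒯 _ _).2 ⟨⟨z, hz⟩, hzl, rfl⟩⟩ with hy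
  refine ⟨y, ?_⟩
  have h1 : (H1π (eh2fTw D.χ Ω)).hom (cy y) = (H1π (eh2fTw D.χ Ω)).hom ⟨z, hz⟩ := hcy2 y
  rw [H1π_eq_iff] at h1
  obtain ⟨m, hm⟩ := h1
  show (QuotientAddGroup.mk _ : eh2fT D Ω) = QuotientAddGroup.mk c
  rw [QuotientAddGroup.eq]
  refine ⟨h' - eh2fKap D Ω m, fun σ => ?_⟩
  have h2 : (cy y) σ - z σ = (d₀₁ (eh2fTw D.χ Ω)).hom m σ := (congrFun hm σ).symm
  have h3 := eh2fKap_d₀₁ D Ω m σ
  rw [← h2, map_sub] at h3
  show -(eh2fKap D Ω ((cy y) σ)) + c.1 σ = _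
  rw [hzc σ]
  have h4 : dZero (permZ G Ω) D.E (h' - eh2fKap D Ω m) σ =
      dZero (permZ G Ω) D.E h' σ - dZero (permZ G Ω) D.E (eh2fKap D Ω m) σ := by
    rw [sub_eq_add_neg, eh2f_dZero_add, eh2f_dZero_neg, ← sub_eq_add_neg]
  rw [h4, ← h3]
  abel

/-- **The class map** `Z¹_lev(Hom(ℤ[Ω], E)) → T / pT` has finite target and separates the cosets
of `p Z¹ + B¹`. -/
theorem eh2f_exists_cl (hALG : StmtTorsQuot) (hΩ : IsLevSet D.𝒯 Ω) :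
    ∃ (F : Type) (_ : Finite F) (cl : ↥(eh2fZ1 D Ω) → F), ∀ x y : ↥(eh2fZ1 D Ω), cl x = cl y →
      ∃ c' : ↥(eh2fZ1 D Ω), ∃ h : (permZ G Ω).V →+ D.E.V,
        ∀ σ, x.1 σ - y.1 σ = p • c'.1 σ + dZero (permZ G Ω) D.E h σ := by
  have hfin : Finite (eh2fT D Ω ⧸ (nsmulAddMonoidHom (α := eh2fT D Ω) p).range) :=
    hALG p (eh2fT D Ω) (eh2fT_torsion D Ω) (eh2fT_ptors_finite D Ω hΩ)
  refine ⟨_, hfin, fun x => QuotientAddGroup.mk (QuotientAddGroup.mk x), fun x y hxy => ?_⟩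
  rw [QuotientAddGroup.eq] at hxy
  obtain ⟨t, ht⟩ := hxy
  obtain ⟨c', rfl⟩ := QuotientAddGroup.mk_surjective t
  have h1 : (QuotientAddGroup.mk (p • c') : eh2fT D Ω) = QuotientAddGroup.mk (-x + y) := by
    rw [QuotientAddGroup.mk_nsmul]
    exact ht
  rw [QuotientAddGroup.eq] at h1
  obtain ⟨h, hh⟩ := h1
  refine ⟨-c', -h, fun σ => ?_⟩
  have h2 : -(p • c'.1 σ) + (-x.1 σ + y.1 σ) = dZero (permZ G Ω) D.E h σ := hh σ
  rw [eh2f_dZero_neg, ← h2]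
  show x.1 σ - y.1 σ = p • (-(c'.1 σ)) + _
  rw [smul_neg]
  abel

end Main

end Fermat.Agent.TW.E

end
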