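/-
TW-E / A9-HALF (helper15): `stmtH2Half : StmtH2Half` — half-exactness of level cohomology at
`H²_lev(B)` for `0 → B → 𝓜 → Q`, in the form: `H¹_lev(Q)` finite and `H²_lev(𝓜)` finite imply
`H²_lev(B)` finite.
-/
import Fermat.Agent.TW.E.H2FinPlan
import Fermat.Agent.TW.E.H2FinIdx

set_option autoImplicit false
set_option linter.unusedSectionVars false
set_option linter.style.haveILetI false

noncomputable section

namespace Fermat.Agent.TW.E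

open CategoryTheory groupCohomology Module Fermat.Agent.PT Fermat.Agent.PT.F Fermat.Agent.TW.F

section Half

variable {p : ℕ} {G : Type} [Group G] (𝒯 : Tower G)

/-- post-composition with a `G`-map preserves 2-cocycles -/
lemma eh2fh_comp_cocycles₂ {B 𝓜 : Rep.{0} (ZMod p) G} (e : B ⟶ 𝓜) {w : G × G → B.V}
    (hw : w ∈ cocycles₂ B) : (fun x => e.hom (w x)) ∈ cocycles₂ 𝓜 := by
  rw [mem_cocycles₂_iff] at hw ⊢
  intro g h j
  show e.hom (w (g * h, j)) + e.hom (w (g, h)) = 𝓜.ρ g (e.hom (w (h, j))) + e.hom (w (g, h * j))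
  rw [← Rep.hom_comm_apply, ← map_add, ← map_add, hw g h j]

/-- post-composition with a `G`-map commutes with `d¹` -/
lemma eh2fh_comp_d₁₂ {B 𝓜 : Rep.{0} (ZMod p) G} (e : B ⟶ 𝓜) (b : G → B.V) :
    (fun x => e.hom ((d₁₂ B).hom b x)) = (d₁₂ 𝓜).hom (fun σ => e.hom (b σ)) := by
  funext ⟨g, h⟩
  rw [d₁₂_hom_apply, d₁₂_hom_apply]
  show e.hom (B.ρ g (b h) - b (g * h) + b g) = _
  rw [map_add, map_sub, Rep.hom_comm_apply]

/-- post-composition with a `G`-map commutes with `d⁰` -/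
lemma eh2fh_comp_d₀₁ {B 𝓜 : Rep.{0} (ZMod p) G} (e : B ⟶ 𝓜) (m : B.V) :
    (fun σ => e.hom ((d₀₁ B).hom m σ)) = (d₀₁ 𝓜).hom (e.hom m) := by
  funext g
  rw [d₀₁_hom_apply, d₀₁_hom_apply]
  show e.hom (B.ρ g m - m) = _
  rw [map_sub, Rep.hom_comm_apply]

lemma eh2fh_d₁₂_d₀₁ (A : Rep.{0} (ZMod p) G) (m : A.V) :
    (d₁₂ A).hom ((d₀₁ A).hom m) = 0 := by
  funext ⟨g, h⟩
  rw [d₁₂_hom_apply]
  simp only [d₀₁_hom_apply, map_sub, map_mul, Module.End.mul_apply]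
  show _ = (0 : A.V)
  abel

/-- `d⁰ m` is a level cochain when the module is trivial on a level -/
lemma eh2fh_isLevel₁_d₀₁ {A : Rep.{0} (ZMod p) G} (hA : TrivOnLevel 𝒯 A) (m : A.V) :
    IsLevel₁ 𝒯 ((d₀₁ A).hom m) := by
  obtain ⟨U, hU, h⟩ := hA
  refine ⟨U, hU, fun g s hs => ?_⟩
  rw [d₀₁_hom_apply, d₀₁_hom_apply, map_mul, Module.End.mul_apply, h s hs, Module.End.one_apply]

variable (B : Rep.{0} (ZMod p) G)

/-- the level 2-cocycles -/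
abbrev eh2fhA : Type := ↥(levCocycles₂ 𝒯 B)

/-- the level coboundaries inside the level cocycles -/
def eh2fhS : AddSubgroup (eh2fhA 𝒯 B) :=
  ((levCoboundaries₂ 𝒯 B).comap (levCocycles₂ 𝒯 B).subtype).toAddSubgroup

lemma eh2fh_mem_S (w : eh2fhA 𝒯 B) :
    w ∈ eh2fhS 𝒯 B ↔ ∃ b : G → B.V, IsLevel₁ 𝒯 b ∧ (d₁₂ B).hom b = w.1 :=
  mem_levCoboundaries₂_iff 𝒯 _ _

variable {B} {𝓜 : Rep.{0} (ZMod p) G} (e : B ⟶ 𝓜)

/-- the cocycles of `B` which become level coboundaries in `𝓜` -/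
def eh2fhK : AddSubgroup (eh2fhA 𝒯 B) where
  carrier := {w | (fun x => e.hom (w.1 x)) ∈ levCoboundaries₂ 𝒯 𝓜}
  zero_mem' := by
    show (fun x => e.hom ((0 : G × G → B.V) x)) ∈ levCoboundaries₂ 𝒯 𝓜
    have : (fun x => e.hom ((0 : G × G → B.V) x)) = 0 := by
      funext x
      simp
    rw [this]
    exact Submodule.zero_mem _
  add_mem' := by
    intro a b ha hb
    have : (fun x => e.hom ((a + b).1 x)) =
        (fun x => e.hom (a.1 x)) + (fun x => e.hom (b.1 x)) := by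
      funext x
      show e.hom (a.1 x + b.1 x) = _
      rw [map_add]
      rfl
    show (fun x => e.hom ((a + b).1 x)) ∈ levCoboundaries₂ 𝒯 𝓜
    rw [this]
    exact Submodule.add_mem _ ha hb
  neg_mem' := by
    intro a ha
    have : (fun x => e.hom ((-a).1 x)) = -(fun x => e.hom (a.1 x)) := by
      funext x
      show e.hom (-(a.1 x)) = _
      rw [map_neg]
      rfl
    show (fun x => e.hom ((-a).1 x)) ∈ levCoboundaries₂ 𝒯 𝓜
    rw [this]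
    exact Submodule.neg_mem _ ha

lemma eh2fh_mem_K (w : eh2fhA 𝒯 B) :
    w ∈ eh2fhK 𝒯 e ↔ (fun x => e.hom (w.1 x)) ∈ levCoboundaries₂ 𝒯 𝓜 := Iff.rfl

end Half

/-- **A9-HALF**. -/
theorem stmtH2Half : StmtH2Half := by
  intro p _ G _ 𝒯 B 𝓜 Q e q he hq hex h𝓜 hQ hM
  classical
  -- (1) `K` has finite index
  have hmemZ : ∀ w : eh2fhA 𝒯 B, (fun x => e.hom (w.1 x)) ∈ levCocycles₂ 𝒯 𝓜 := fun w =>
    ⟨eh2fh_comp_cocycles₂ e w.2.1, (w.2.2.comp (fun b => e.hom b) :)⟩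
  have hK : (eh2fhK 𝒯 e).FiniteIndex := by
    refine eh2f_finiteIndex_of_fiber _
      (fun w => levH2π 𝒯 𝓜 ⟨_, hmemZ w⟩) (fun w w' hww => ?_)
    rw [← sub_eq_zero, ← map_sub, levH2π_eq_zero_iff] at hww
    rw [eh2fh_mem_K]
    have : (fun x => e.hom ((w - w').1 x)) =
        ((⟨_, hmemZ w⟩ - ⟨_, hmemZ w'⟩ : ↥(levCocycles₂ 𝒯 𝓜)) : G × G → 𝓜.V) := by
      funext x
      show e.hom (w.1 x - w'.1 x) = e.hom (w.1 x) - e.hom (w'.1 x)
      rw [map_sub]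
    rw [this]
    exact hww
  -- (2) `S ≤ K`
  have hSK : eh2fhS 𝒯 B ≤ eh2fhK 𝒯 e := by
    intro w hw
    obtain ⟨b, hb, hbw⟩ := (eh2fh_mem_S 𝒯 B w).1 hw
    rw [eh2fh_mem_K, mem_levCoboundaries₂_iff]
    refine ⟨fun σ => e.hom (b σ), (hb.comp (fun b => e.hom b) :), ?_⟩
    rw [← eh2fh_comp_d₁₂, hbw]
  -- (3) `S` has finite index in `K`
  have hS : ((eh2fhS 𝒯 B).addSubgroupOf (eh2fhK 𝒯 e)).FiniteIndex := by
    have hch : ∀ w : ↥(eh2fhK 𝒯 e), ∃ t : G → 𝓜.V, IsLevel₁ 𝒯 t ∧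
        (d₁₂ 𝓜).hom t = fun x => e.hom (w.1.1 x) := fun w =>
      (mem_levCoboundaries₂_iff 𝒯 𝓜 _).1 w.2
    choose tW htW1 htW2 using hch
    have hqe : ∀ b : B.V, q.hom (e.hom b) = 0 := fun b => (hex _).2 ⟨b, rfl⟩
    have hcoc : ∀ w : ↥(eh2fhK 𝒯 e), (fun σ => q.hom (tW w σ)) ∈ cocycles₁ Q := by
      intro w
      rw [mem_cocycles₁_iff]
      intro g h
      have h1 := congrFun (htW2 w) (g, h)
      rw [d₁₂_hom_apply] at h1
      have h2 := congrArg (fun y => q.hom y) h1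
      simp only [hqe, map_add, map_sub, Rep.hom_comm_apply] at h2
      show q.hom (tW w (g * h)) = Q.ρ g (q.hom (tW w h)) + q.hom (tW w g)
      linear_combination (norm := abel) -h2
    refine eh2f_finiteIndex_of_fiber _
      (fun w => (⟨(H1π Q).hom ⟨_, hcoc w⟩, (mem_levH1_iff 𝒯 Q _).2
        ⟨⟨_, hcoc w⟩, ((htW1 w).comp (fun y => q.hom y) :), rfl⟩⟩ : ↥(levH1 𝒯 Q)))
      (fun w w' hww => ?_)
    have h1 : (H1π Q).hom ⟨_, hcoc w⟩ = (H1π Q).hom ⟨_, hcoc w'⟩ := congrArg Subtype.val hww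
    rw [H1π_eq_iff] at h1
    obtain ⟨x, hx⟩ := h1
    obtain ⟨m, rfl⟩ := hq x
    -- `u := t - t' - d⁰ m` has values in `B`
    have hu : ∀ σ, ∃ b : B.V, e.hom b = tW w σ - tW w' σ - (d₀₁ 𝓜).hom m σ := by
      intro σ
      apply (hex _).1
      have h2 : (d₀₁ Q).hom (q.hom m) σ = q.hom (tW w σ) - q.hom (tW w' σ) := congrFun hx σ
      have h3 := congrFun (eh2fh_comp_d₀₁ q m) σ
      simp only at h3
      rw [map_sub, map_sub, h3, h2, sub_self]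
    have hul : IsLevel₁ 𝒯 (fun σ => tW w σ - tW w' σ - (d₀₁ 𝓜).hom m σ) := by
      obtain ⟨U₁, hU₁, h₁⟩ := htW1 w
      obtain ⟨U₂, hU₂, h₂⟩ := htW1 w'
      obtain ⟨U₃, hU₃, h₃⟩ := eh2fh_isLevel₁_d₀₁ 𝒯 h𝓜 m
      refine ⟨U₁ ⊓ U₂ ⊓ U₃, 𝒯.inf_mem _ _ (𝒯.inf_mem _ _ hU₁ hU₂) hU₃, fun g s hs => ?_⟩
      simp only
      rw [h₁ g s hs.1.1, h₂ g s hs.1.2, h₃ g s hs.2]
    let sec : 𝓜.V → B.V := fun y => if h : ∃ b : B.V, e.hom b = y then h.choose else 0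
    have hsec : ∀ y, (∃ b : B.V, e.hom b = y) → e.hom (sec y) = y := by
      intro y hy
      show e.hom (if h : ∃ b : B.V, e.hom b = y then h.choose else 0) = y
      rw [dif_pos hy]
      exact hy.choose_spec
    rw [AddSubgroup.mem_addSubgroupOf, eh2fh_mem_S]
    refine ⟨fun σ => sec (tW w σ - tW w' σ - (d₀₁ 𝓜).hom m σ), hul.comp sec, ?_⟩
    funext x
    apply he
    have h4 := congrFun (eh2fh_comp_d₁₂ e
      (fun σ => sec (tW w σ - tW w' σ - (d₀₁ 𝓜).hom m σ))) x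
    simp only at h4
    rw [h4]
    have h5 : (fun σ => e.hom (sec (tW w σ - tW w' σ - (d₀₁ 𝓜).hom m σ))) =
        tW w - tW w' - (d₀₁ 𝓜).hom m := by
      funext σ
      exact hsec _ (hu σ)
    rw [h5, map_sub, map_sub, eh2fh_d₁₂_d₀₁, sub_zero, htW2 w, htW2 w']
    show e.hom (w.1.1 x) - e.hom (w'.1.1 x) = e.hom (w.1.1 x - w'.1.1 x)
    rw [map_sub]
  have h1 : (eh2fhS 𝒯 B).FiniteIndex := eh2f_finiteIndex_trans _ _ hSK hK hS
  have h2 : Finite (eh2fhA 𝒯 B ⧸ eh2fhS 𝒯 B) := AddSubgroup.finite_quotient_of_finiteIndex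
  exact h2

end Fermat.Agent.TW.E

end
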