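/-
TW-E / A9-FIN (helper15): `stmtH2Fin_of : StmtH2FinPerm → StmtH2Fin` (unconditional reduction).

`B ↪ 𝓜 := Fun(Ω, μ_p)`, `Ω := B^*(1)` as a finite `G`-set, `b ↦ (λ ↦ λ b)`; `Q := 𝓜 / B`;
`stmtH2Half` with `H¹_lev(Q)` finite (`stmtGloFin`) and `H²_lev(𝓜)` finite (`StmtH2FinPerm`).
-/
import Fermat.Agent.TW.E.H2FinPlan
import Fermat.Agent.TW.E.H2FinHalf
import Fermat.Agent.TW.E.H2FinH1
import Fermat.Agent.TW.F.GloFin

set_option autoImplicit false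
set_option linter.unusedSectionVars false
set_option linter.style.haveILetI false

noncomputable section

namespace Fermat.Agent.TW.E

open CategoryTheory groupCohomology Module Fermat.Agent.PT Fermat.Agent.PT.F Fermat.Agent.TW.F

section Set

variable {p : ℕ} {G : Type} [Group G]

/-- the `G`-set underlying a representation -/
def eh2fSet (A : Rep.{0} (ZMod p) G) : Type := A.V

instance eh2fSet_mulAction (A : Rep.{0} (ZMod p) G) : MulAction G (eh2fSet A) where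
  smul g a := A.ρ g a
  one_smul a := by
    show A.ρ 1 a = a
    rw [map_one]
    rfl
  mul_smul g h a := by
    show A.ρ (g * h) a = A.ρ g (A.ρ h a)
    rw [map_mul]
    rfl

lemma eh2fSet_smul (A : Rep.{0} (ZMod p) G) (g : G) (a : eh2fSet A) :
    g • a = (A.ρ g a : A.V) := rfl

end Set

section Emb

variable {p : ℕ} [Fact p.Prime] {G : Type} [Group G] (χ : G →* (ZMod p)ˣ)
  (B : Rep.{0} (ZMod p) G)

/-- the `G`-set `Ω = B^*(1)` -/
abbrev eh2fΩ : Type := eh2fSet (B.dualTwist χ)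

/-- an element of `Ω` as a linear form -/
def eh2fToDual (l : eh2fΩ χ B) : Module.Dual (ZMod p) B.V := l

/-- a linear form as an element of `Ω` -/
def eh2fOfDual (l : Module.Dual (ZMod p) B.V) : eh2fΩ χ B := l

lemma eh2fToDual_ofDual (l : Module.Dual (ZMod p) B.V) :
    eh2fToDual χ B (eh2fOfDual χ B l) = l := rfl

lemma eh2fToDual_smul (g : G) (l : eh2fΩ χ B) :
    eh2fToDual χ B (g • l) =
      ((χ g : (ZMod p)ˣ) : ZMod p) • ((eh2fToDual χ B l) ∘ₗ B.ρ g⁻¹) := rfl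

/-- the embedding `B → Fun(B^*(1), μ_p)`, `b ↦ (λ ↦ λ b)`, as a linear map -/
def eh2fEmbLin : B.V →ₗ[ZMod p] (eh2fΩ χ B → ZMod p) where
  toFun b := fun l => eh2fToDual χ B l b
  map_add' b b' := by
    funext l
    exact map_add (eh2fToDual χ B l) b b'
  map_smul' c b := by
    funext l
    exact map_smul (eh2fToDual χ B l) c b

lemma eh2fEmbLin_apply (b : B.V) (l : eh2fΩ χ B) :
    eh2fEmbLin χ B b l = eh2fToDual χ B l b := rfl

lemma eh2fEmbLin_equiv (g : G) (b : B.V) :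
    eh2fEmbLin χ B (B.ρ g b) = (eh2fTw χ (eh2fΩ χ B)).ρ g (eh2fEmbLin χ B b) := by
  funext l
  show eh2fToDual χ B l (B.ρ g b) =
    ((χ g : (ZMod p)ˣ) : ZMod p) * eh2fToDual χ B (g⁻¹ • l) b
  rw [eh2fToDual_smul]
  simp only [LinearMap.smul_apply, LinearMap.coe_comp, Function.comp_apply, smul_eq_mul,
    inv_inv, map_inv]
  rw [← mul_assoc]
  have : ((χ g : (ZMod p)ˣ) : ZMod p) * (((χ g)⁻¹ : (ZMod p)ˣ) : ZMod p) = 1 := by
    rw [← Units.val_mul, mul_inv_cancel, Units.val_one]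
  rw [this, one_mul]

/-- the embedding as a morphism of representations -/
def eh2fEmb : B ⟶ eh2fTw χ (eh2fΩ χ B) :=
  ConcreteCategory.ofHom (C := Rep.{0} (ZMod p) G) (X := B) (Y := eh2fTw χ (eh2fΩ χ B))
    (LinearMap.intertwiningMap_of_isIntertwiningMap (ρ := B.ρ) (σ := eh2fTwρ χ (eh2fΩ χ B))
      (f := eh2fEmbLin χ B) (fun g b => eh2fEmbLin_equiv χ B g b))

lemma eh2fEmb_apply (b : B.V) : (eh2fEmb χ B).hom b = eh2fEmbLin χ B b := rfl

lemma eh2fEmb_injective : Function.Injective (eh2fEmb χ B).hom := by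
  intro b b' h
  have h1 : ∀ l : Module.Dual (ZMod p) B.V, l (b - b') = 0 := by
    intro l
    have h2 : eh2fEmbLin χ B b (eh2fOfDual χ B l) = eh2fEmbLin χ B b' (eh2fOfDual χ B l) :=
      congrFun h (eh2fOfDual χ B l)
    rw [eh2fEmbLin_apply, eh2fEmbLin_apply, eh2fToDual_ofDual] at h2
    rw [map_sub]
    exact sub_eq_zero.2 h2
  exact sub_eq_zero.1 ((Module.forall_dual_apply_eq_zero_iff (ZMod p) (b - b')).1 h1)

end Emb

section Quot

variable {p : ℕ} {G : Type} [Group G] {B 𝓜 : Rep.{0} (ZMod p) G} (e : B ⟶ 𝓜)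

/-- the image of `e` as a submodule -/
def eh2fIm : Submodule (ZMod p) 𝓜.V where
  carrier := Set.range e.hom
  add_mem' := by
    rintro _ _ ⟨a, rfl⟩ ⟨b, rfl⟩
    exact ⟨a + b, map_add e.hom a b⟩
  zero_mem' := ⟨0, map_zero e.hom⟩
  smul_mem' := by
    rintro c _ ⟨a, rfl⟩
    exact ⟨c • a, map_smul e.hom c a⟩

lemma eh2fIm_inv (g : G) : eh2fIm e ≤ (eh2fIm e).comap (𝓜.ρ g) := by
  rintro _ ⟨a, rfl⟩
  exact ⟨B.ρ g a, Rep.hom_comm_apply e g a⟩

/-- the quotient representation `𝓜 / e(B)` -/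
def eh2fQρ : Representation (ZMod p) G (𝓜.V ⧸ eh2fIm e) where
  toFun g := Submodule.mapQ _ _ (𝓜.ρ g) (eh2fIm_inv e g)
  map_one' := by
    apply Submodule.linearMap_qext
    ext x
    simp
  map_mul' g h := by
    apply Submodule.linearMap_qext
    ext x
    simp

/-- `Q = 𝓜 / e(B)` -/
abbrev eh2fQ : Rep.{0} (ZMod p) G := Rep.of (eh2fQρ e)

/-- the projection `𝓜 → Q` -/
def eh2fProj : 𝓜 ⟶ eh2fQ e :=
  ConcreteCategory.ofHom (C := Rep.{0} (ZMod p) G) (X := 𝓜) (Y := eh2fQ e)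
    (LinearMap.intertwiningMap_of_isIntertwiningMap (ρ := 𝓜.ρ) (σ := eh2fQρ e)
      (f := (eh2fIm e).mkQ) (fun _ _ => rfl))

lemma eh2fProj_apply (x : 𝓜.V) : (eh2fProj e).hom x = (eh2fIm e).mkQ x := rfl

lemma eh2fProj_surjective : Function.Surjective (eh2fProj e).hom := fun y => by
  obtain ⟨x, rfl⟩ := Submodule.mkQ_surjective _ y
  exact ⟨x, rfl⟩

lemma eh2f_exact : Function.Exact e.hom (eh2fProj e).hom := by
  intro y
  rw [eh2fProj_apply, Submodule.mkQ_apply, Submodule.Quotient.mk_eq_zero]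
  rfl

lemma eh2fQ_trivOnLevel {𝒯 : Tower G} (h : TrivOnLevel 𝒯 𝓜) : TrivOnLevel 𝒯 (eh2fQ e) := by
  obtain ⟨U, hU, hs⟩ := h
  refine ⟨U, hU, fun s hs' => ?_⟩
  apply Submodule.linearMap_qext
  ext x
  show (eh2fIm e).mkQ (𝓜.ρ s x) = (eh2fIm e).mkQ x
  rw [hs s hs']
  rfl

end Quot

/-- **A9-FIN**: `H²_lev(G, B)` is finite for every finite `B`, given the permutation case. -/
theorem stmtH2Fin_of (hPERM : StmtH2FinPerm) : StmtH2Fin := by
  intro p _ G _ ι _ _ Gloc _ D _ B _ hB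
  classical
  haveI : Finite (Module.Dual (ZMod p) B.V) := Module.finite_of_finite (ZMod p)
  haveI : Finite (eh2fΩ D.χ B) := (inferInstance : Finite (Module.Dual (ZMod p) B.V))
  haveI : Fintype (eh2fΩ D.χ B) := Fintype.ofFinite _
  have hΩ : IsLevSet D.𝒯 (eh2fΩ D.χ B) := by
    obtain ⟨U₁, hU₁, h₁⟩ := hB
    obtain ⟨U₂, hU₂, h₂⟩ := D.χ_level
    refine ⟨U₁ ⊓ U₂, D.𝒯.inf_mem _ _ hU₁ hU₂, fun s hs l => ?_⟩
    have key : eh2fToDual D.χ B (s • l) = eh2fToDual D.χ B l := by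
      rw [eh2fToDual_smul, h₂ s hs.2, h₁ s⁻¹ (U₁.inv_mem hs.1)]
      ext b
      simp
    exact key
  have h𝓜 : TrivOnLevel D.𝒯 (eh2fTw D.χ (eh2fΩ D.χ B)) := eh2fTw_trivOnLevel D _ hΩ
  haveI : FiniteDimensional (ZMod p) (eh2fTw D.χ (eh2fΩ D.χ B)) :=
    (inferInstance : FiniteDimensional (ZMod p) (eh2fΩ D.χ B → ZMod p))
  haveI : FiniteDimensional (ZMod p) (eh2fQ (eh2fEmb D.χ B)) :=
    (inferInstance : FiniteDimensional (ZMod p)
      ((eh2fTw D.χ (eh2fΩ D.χ B)).V ⧸ eh2fIm (eh2fEmb D.χ B)))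
  have hQ : Finite ↥(levH1 D.𝒯 (eh2fQ (eh2fEmb D.χ B))) :=
    stmtGloFin p G ι Gloc D _ (eh2fQ_trivOnLevel (eh2fEmb D.χ B) h𝓜)
  have hM : Finite (levH2 D.𝒯 (eh2fTw D.χ (eh2fΩ D.χ B))) :=
    hPERM p G ι Gloc D (eh2fΩ D.χ B) hΩ
  haveI : Finite (levH2 D.𝒯 B) :=
    stmtH2Half p G D.𝒯 B _ _ (eh2fEmb D.χ B) (eh2fProj (eh2fEmb D.χ B))
      (eh2fEmb_injective D.χ B) (eh2fProj_surjective _) (eh2f_exact _) h𝓜 hQ hM
  exact Module.Finite.of_finite

end Fermat.Agent.TW.E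

end
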