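/-
TW-E / A9-LEV (helper15): `stmtH2LevFB_of : StmtH2FB → StmtH2LevFB`.

Descent of level 2-cocycles with values in `Hom_ℤ(M, X)` to a finite level `H ⧸ U`
(`U` normal, trivial on `M`, all cochains right-`U`-invariant with `U`-invariant values), where
they are 2-cocycles of `homRep (M^U) (X^U)`; the finite-level bound; inflation of the coboundary.
-/
import Fermat.Agent.TW.E.H2FinPlan
import Fermat.Agent.TW.E.ChaseLift
import Fermat.Agent.PT.A.HomEx

set_option autoImplicit false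
set_option linter.unusedSectionVars false
set_option linter.style.haveILetI false

noncomputable section

namespace Fermat.Agent.TW.E

open CategoryTheory groupCohomology Module Fermat.Agent.PT Fermat.Agent.PT.F Fermat.Agent.TW.F
open Fermat.Agent.PT.F.ExactH2

attribute [local instance 1100] Rep.hV2

section Desc

variable {H : Type} [Group H] (M X : Rep.{0} ℤ H) (U : Subgroup H) [U.Normal]
  (hM : ∀ s ∈ U, ∀ m : M.V, M.ρ s m = m)

/-- an element of `M` as an element of `M^U` -/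
def eh2flN (m : M.V) : (M.quotientToInvariants U).V := ⟨m, fun s => hM s.1 s.2 m⟩

lemma eh2flN_val (m : M.V) : (eh2flN M U hM m).1 = m := rfl

lemma eh2flN_add (m m' : M.V) : eh2flN M U hM (m + m') = eh2flN M U hM m + eh2flN M U hM m' :=
  rfl

/-- `M^U ≃ M` when `U` acts trivially -/
def eh2flEquiv : (M.quotientToInvariants U).V ≃+ M.V where
  toFun m := m.1
  invFun m := eh2flN M U hM m
  left_inv _ := rfl
  right_inv _ := rfl
  map_add' _ _ := rfl

variable {M X U}

/-- descent of a `Hom(M, X)`-valued 2-cochain with `U`-invariant values -/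
def eh2flDesc₂ (y : H × H → (M.V →+ X.V))
    (hy : ∀ (gg : H × H) (m : M.V), ∀ s ∈ U, X.ρ s (y gg m) = y gg m) :
    (H ⧸ U) × (H ⧸ U) → ((M.quotientToInvariants U).V →+ (X.quotientToInvariants U).V) :=
  fun q =>
    { toFun := fun n => ⟨y (q.1.out, q.2.out) n.1, fun s => hy _ _ s.1 s.2⟩
      map_zero' := Subtype.ext (map_zero (y (q.1.out, q.2.out)))
      map_add' := fun a b => Subtype.ext (map_add (y (q.1.out, q.2.out)) a.1 b.1) }

lemma eh2flDesc₂_mk (y : H × H → (M.V →+ X.V))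
    (hy : ∀ (gg : H × H) (m : M.V), ∀ s ∈ U, X.ρ s (y gg m) = y gg m)
    (hr : ∀ g g' s s' : H, s ∈ U → s' ∈ U → y (g * s, g' * s') = y (g, g'))
    (g g' : H) (n : (M.quotientToInvariants U).V) :
    ((eh2flDesc₂ y hy ((g : H ⧸ U), (g' : H ⧸ U)) n : (X.quotientToInvariants U).V) : X.V) =
      y (g, g') n.1 := by
  obtain ⟨s, hs⟩ := QuotientGroup.mk_out_eq_mul U g
  obtain ⟨s', hs'⟩ := QuotientGroup.mk_out_eq_mul U g'
  show y (Quotient.out (g : H ⧸ U), Quotient.out (g' : H ⧸ U)) n.1 = y (g, g') n.1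
  rw [hs, hs', hr g g' s s' s.2 s'.2]

/-- the descended cochain of a cocycle is a cocycle of `homRep (M^U) (X^U)` -/
lemma eh2flDesc₂_mem (y : H × H → (M.V →+ X.V))
    (hy : ∀ (gg : H × H) (m : M.V), ∀ s ∈ U, X.ρ s (y gg m) = y gg m)
    (hr : ∀ g g' s s' : H, s ∈ U → s' ∈ U → y (g * s, g' * s') = y (g, g'))
    (hc : ∀ s, dTwo M X y s = 0) :
    eh2flDesc₂ y hy ∈
      cocycles₂ (homRep (M.quotientToInvariants U) (X.quotientToInvariants U)) := by
  rw [mem_cocycles₂_iff]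
  intro q q' q''
  obtain ⟨g, rfl⟩ := QuotientGroup.mk_surjective q
  obtain ⟨h, rfl⟩ := QuotientGroup.mk_surjective q'
  obtain ⟨j, rfl⟩ := QuotientGroup.mk_surjective q''
  apply AddMonoidHom.ext
  intro n
  apply Subtype.ext
  show ((eh2flDesc₂ y hy (((g * h : H) : H ⧸ U), (j : H ⧸ U)) n :
        (X.quotientToInvariants U).V) : X.V) +
      ((eh2flDesc₂ y hy ((g : H ⧸ U), (h : H ⧸ U)) n : (X.quotientToInvariants U).V) : X.V) =
    X.ρ g ((eh2flDesc₂ y hy ((h : H ⧸ U), (j : H ⧸ U))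
        ((M.quotientToInvariants U).ρ (g : H ⧸ U)⁻¹ n) : (X.quotientToInvariants U).V) : X.V) +
      ((eh2flDesc₂ y hy ((g : H ⧸ U), ((h * j : H) : H ⧸ U)) n :
        (X.quotientToInvariants U).V) : X.V)
  rw [eh2flDesc₂_mk y hy hr, eh2flDesc₂_mk y hy hr, eh2flDesc₂_mk y hy hr,
    eh2flDesc₂_mk y hy hr]
  have hcoc := DFunLike.congr_fun (hc (g, h, j)) n.1
  rw [chl_dTwo_apply] at hcoc
  have e1 : (((M.quotientToInvariants U).ρ (g : H ⧸ U)⁻¹ n : (M.quotientToInvariants U).V) :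
      M.V) = M.ρ g⁻¹ n.1 := rfl
  rw [e1]
  have hcoc' : X.ρ g (y (h, j) (M.ρ g⁻¹ n.1)) - y (g * h, j) n.1 + y (g, h * j) n.1 -
      y (g, h) n.1 = 0 := hcoc
  linear_combination (norm := abel) -hcoc'

variable (M X U)

/-- inflation of a 1-cochain of `homRep (M^U) (X^U)` -/
def eh2flInfl₁
    (t : H ⧸ U → ((M.quotientToInvariants U).V →+ (X.quotientToInvariants U).V)) :
    H → (M.V →+ X.V) :=
  fun g =>
    { toFun := fun m => ((t (g : H ⧸ U) (eh2flN M U hM m) : (X.quotientToInvariants U).V) : X.V)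
      map_zero' := by
        have h0 : eh2flN M U hM 0 = 0 := rfl
        rw [h0, map_zero]
        rfl
      map_add' := fun a b => by
        rw [eh2flN_add, map_add]
        rfl }

lemma eh2flInfl₁_apply
    (t : H ⧸ U → ((M.quotientToInvariants U).V →+ (X.quotientToInvariants U).V)) (g : H)
    (m : M.V) :
    eh2flInfl₁ M X U hM t g m =
      ((t (g : H ⧸ U) (eh2flN M U hM m) : (X.quotientToInvariants U).V) : X.V) := rfl

lemma eh2flInfl₁_level {𝒯 : Tower H} (hU : U ∈ 𝒯.lev)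
    (t : H ⧸ U → ((M.quotientToInvariants U).V →+ (X.quotientToInvariants U).V)) :
    IsLevel₁ 𝒯 (eh2flInfl₁ M X U hM t) := by
  refine ⟨U, hU, fun g s hs => ?_⟩
  have h1 : ((g * s : H) : H ⧸ U) = (g : H ⧸ U) := by
    rw [QuotientGroup.eq]
    simpa using hs
  apply AddMonoidHom.ext
  intro m
  rw [eh2flInfl₁_apply, eh2flInfl₁_apply, h1]

variable {M X U}

/-- if the descended cochains differ by `d¹ t̂` then the cochains differ by `d¹ (infl t̂)` -/
lemma eh2fl_infl_dOne (y y' : H × H → (M.V →+ X.V))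
    (hy : ∀ (gg : H × H) (m : M.V), ∀ s ∈ U, X.ρ s (y gg m) = y gg m)
    (hy' : ∀ (gg : H × H) (m : M.V), ∀ s ∈ U, X.ρ s (y' gg m) = y' gg m)
    (hr : ∀ g g' s s' : H, s ∈ U → s' ∈ U → y (g * s, g' * s') = y (g, g'))
    (hr' : ∀ g g' s s' : H, s ∈ U → s' ∈ U → y' (g * s, g' * s') = y' (g, g'))
    (t : H ⧸ U → ((M.quotientToInvariants U).V →+ (X.quotientToInvariants U).V))
    (ht : (d₁₂ (homRep (M.quotientToInvariants U) (X.quotientToInvariants U))).hom t =
      eh2flDesc₂ y hy - eh2flDesc₂ y' hy') (s : H × H) :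
    y s - y' s = dOne M X (eh2flInfl₁ M X U hM t) s := by
  obtain ⟨σ, τ⟩ := s
  apply AddMonoidHom.ext
  intro m
  have h1 := congrFun ht ((σ : H ⧸ U), (τ : H ⧸ U))
  rw [d₁₂_hom_apply] at h1
  have h2 := congrArg (fun z : (X.quotientToInvariants U).V => (z : X.V))
    (DFunLike.congr_fun h1 (eh2flN M U hM m))
  have h3 : ((eh2flDesc₂ y hy ((σ : H ⧸ U), (τ : H ⧸ U)) (eh2flN M U hM m) :
      (X.quotientToInvariants U).V) : X.V) = y (σ, τ) m :=
    eh2flDesc₂_mk y hy hr σ τ _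
  have h4 : ((eh2flDesc₂ y' hy' ((σ : H ⧸ U), (τ : H ⧸ U)) (eh2flN M U hM m) :
      (X.quotientToInvariants U).V) : X.V) = y' (σ, τ) m :=
    eh2flDesc₂_mk y' hy' hr' σ τ _
  rw [AddMonoidHom.sub_apply, dOne_apply, ← h3, ← h4]
  exact h2.symm

end Desc

section Main

variable {H : Type} [Group H]

/-- an additive map `M → X` whose values on a basis are fixed by `s` has all values fixed -/
lemma eh2fl_fixed_of_basis (M X : Rep.{0} ℤ H) {n : ℕ} (e : M.V ≃+ (Fin n → ℤ))
    (h : M.V →+ X.V) (s : H)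
    (hb : ∀ j : Fin n, X.ρ s (h (e.symm (Pi.single j 1))) = h (e.symm (Pi.single j 1)))
    (m : M.V) : X.ρ s (h m) = h m := by
  have h1 : ((actAdd X s).comp h).comp e.symm.toAddMonoidHom = h.comp e.symm.toAddMonoidHom :=
    homEx_ext n _ _ (fun j => hb j)
  have h2 := DFunLike.congr_fun h1 (e m)
  simp only [AddMonoidHom.comp_apply, AddEquiv.coe_toAddMonoidHom, AddEquiv.symm_apply_apply,
    actAdd_apply] at h2
  exact h2

/-- **A9-LEV**. -/
theorem stmtH2LevFB_of (hFB : StmtH2FB) : StmtH2LevFB := by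
  intro p _ H _ 𝒯 X hX hcm M n hM hn y hyl hyc hyp
  classical
  obtain ⟨e⟩ := hn
  obtain ⟨U₀, hU₀, hMtriv⟩ := hM
  choose Ui hUi hUir using hyl
  -- a level fixing all the values on the basis
  have hfin : (⋃ i : Fin (p ^ n + 1), ⋃ j : Fin n,
      (fun h : M.V →+ X.V => h (e.symm (Pi.single j 1))) '' (Set.range (y i))).Finite := by
    refine Set.finite_iUnion (fun i => Set.finite_iUnion (fun j => Set.Finite.image _ ?_))
    exact isLevel₂_finite_range (𝒯 := 𝒯) ⟨Ui i, hUi i, hUir i⟩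
  obtain ⟨U', hU', hfix⟩ := hX.exists_level_of_finite hfin
  -- the normal level
  obtain ⟨U, hU, hle, hUn⟩ := 𝒯.exists_normal _
    (𝒯.inf_mem _ _ (𝒯.inf_mem _ _ hU₀ (tower_finset_inf_mem 𝒯 Finset.univ Ui
      (fun i _ => hUi i))) hU')
  haveI := hUn
  have hle₀ : U ≤ U₀ := fun s hs => (hle hs).1.1
  have hlei : ∀ i, U ≤ Ui i := fun i s hs =>
    (Finset.inf_le (Finset.mem_univ i) : Finset.univ.inf Ui ≤ Ui i) (hle hs).1.2
  have hle' : U ≤ U' := fun s hs => (hle hs).2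
  have hMU : ∀ s ∈ U, ∀ m : M.V, M.ρ s m = m := fun s hs m => hMtriv s (hle₀ hs) m
  have hy : ∀ i (gg : H × H) (m : M.V), ∀ s ∈ U, X.ρ s (y i gg m) = y i gg m := by
    intro i gg m s hs
    refine eh2fl_fixed_of_basis M X e (y i gg) s (fun j => ?_) m
    refine hfix _ ?_ s (hle' hs)
    exact Set.mem_iUnion.2 ⟨i, Set.mem_iUnion.2 ⟨j, ⟨y i gg, ⟨gg, rfl⟩, rfl⟩⟩⟩
  have hr : ∀ i, ∀ g g' s s' : H, s ∈ U → s' ∈ U → y i (g * s, g' * s') = y i (g, g') :=
    fun i g g' s s' hs hs' => hUir i g g' s s' (hlei i hs) (hlei i hs')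
  -- the finite level
  haveI := 𝒯.finiteIndex U hU
  haveI : Finite (H ⧸ U) := Subgroup.finite_quotient_of_finiteIndex
  obtain ⟨u, hu⟩ := hcm U hU
  have hmem : ∀ i, eh2flDesc₂ (y i) (hy i) ∈
      cocycles₂ (homRep (M.quotientToInvariants U) (X.quotientToInvariants U)) :=
    fun i => eh2flDesc₂_mem (y i) (hy i) (hr i) (hyc i)
  have hξ : ∀ i, p • (H2π (homRep (M.quotientToInvariants U) (X.quotientToInvariants U))
      ⟨_, hmem i⟩) = 0 := by
    intro i
    rw [← map_nsmul]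
    have h0 : p • (⟨_, hmem i⟩ : cocycles₂
        (homRep (M.quotientToInvariants U) (X.quotientToInvariants U))) = 0 := by
      apply Subtype.ext
      funext q
      apply AddMonoidHom.ext
      intro m
      apply Subtype.ext
      show p • (y i (q.1.out, q.2.out) m.1) = 0
      have := DFunLike.congr_fun (hyp i (q.1.out, q.2.out)) m.1
      exact this
    rw [h0, map_zero]
  obtain ⟨i, j, hij, hξij⟩ := hFB p (H ⧸ U) (X.quotientToInvariants U) u hu
    (M.quotientToInvariants U) n ⟨(eh2flEquiv M U hMU).trans e⟩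
    (fun i => H2π (homRep (M.quotientToInvariants U) (X.quotientToInvariants U))
      ⟨_, hmem i⟩) hξ
  rw [H2π_eq_iff] at hξij
  obtain ⟨t, ht⟩ := hξij
  exact ⟨i, j, hij, eh2flInfl₁ M X U hMU t, eh2flInfl₁_level M X U hMU hU t,
    fun s => eh2fl_infl_dOne hMU (y i) (y j) (hy i) (hy j) (hr i) (hr j) t ht s⟩

end Main

end Fermat.Agent.TW.E

end
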