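/-
Project TW (S56) — part TW-E, block E-add, piece **A7** (`StmtMu3`), helper21.

Kummer chase: `H³_lev(G, Hom_ℤ(M, μ_p)) = 0`, i.e. a level 3-cocycle `z` of `Hom_ℤ(M, E)` killed by
`p` is `d` of a level 2-cochain KILLED BY `p`.
  (E3) `n z = d y`, hence `z = d y₁`, `y₁ = a y`, `a n ≡ 1 mod p`.  `p y₁` is a level 2-cocycle:
  (E2Div) `n' p y₁ = p w + d t`; `t = p t'` with `t'` level (`E` is `p`-divisible, `M` is free);
  `y₂ := n' y₁ - w - d t'` is killed by `p` and `d y₂ = n' z`; `z = d (a' y₂)`.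
-/
import Fermat.Agent.TW.E.E3

set_option autoImplicit false
set_option linter.unusedSectionVars false

noncomputable section

namespace Fermat.Agent.TW.E

open CategoryTheory groupCohomology Fermat.Agent.PT Fermat.Agent.PT.F Fermat.Agent.PT.F.ExactH2

section General

variable {G : Type} [Group G]

/-- if `p z = 0` and `a n ≡ 1 mod p` then `(a n) z = z` -/
lemma mu3_nsmul_eq_self {A : Type} [AddCommGroup A] {p : ℕ} {x : A} (hx : p • x = 0) {k : ℕ}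
    (hk : k % p = 1 % p) : k • x = x := by
  have h1 : k = p * (k / p) + k % p := (Nat.div_add_mod k p).symm
  have h2 : (1 : ℕ) = p * (1 / p) + 1 % p := (Nat.div_add_mod 1 p).symm
  have h3 : k • x = (k % p) • x := by
    conv_lhs => rw [h1]
    rw [add_smul, mul_comm, mul_smul, hx, smul_zero, zero_add]
  have h4 : (1 : ℕ) • x = (1 % p) • x := by
    conv_lhs => rw [h2]
    rw [add_smul, mul_comm, mul_smul, hx, smul_zero, zero_add]
  rw [h3, hk, ← h4, one_smul]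

/-- an inverse of `n` modulo the prime `p` -/
lemma mu3_exists_inv {p : ℕ} (hp : p.Prime) (n : ℕ) (hn : ¬ p ∣ n) :
    ∃ a : ℕ, (a * n) % p = 1 % p := by
  have : Fact p.Prime := ⟨hp⟩
  have hne : (n : ZMod p) ≠ 0 := by
    rw [Ne, ZMod.natCast_eq_zero_iff]
    exact hn
  refine ⟨((n : ZMod p)⁻¹).val, ?_⟩
  apply (ZMod.natCast_eq_natCast_iff' _ _ _).mp
  rw [Nat.cast_mul, ZMod.natCast_zmod_val, inv_mul_cancel₀ hne, Nat.cast_one]

lemma mu3_dTwo_apply_nsmul (M Y : Rep.{0} ℤ G) (n : ℕ) (y : G × G → (M.V →+ Y.V))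
    (s : G × G × G) : dTwo M Y (fun s => n • y s) s = n • dTwo M Y y s :=
  e3_dTwo_nsmul M Y n y s

end General

/-- **A7 (Mu3)** from the pieces of block E-add. -/
theorem stmtMu3_of (hJ3 : StmtJ3) (hJ2 : StmtJ2Div) (hC2 : StmtC2SurjPerm) (hIn1 : StmtIn1Perm)
    (hE3 : StmtE3) (hE2 : StmtE2Div) : StmtMu3 := by
  intro p _ G _ ι _ _ Gloc _ D hdepth Ω _ _ hΩ htrans hcard z hzlev hzcoc hzp
  have hp : p.Prime := Fact.out
  have h5 : In5 D (permZ G Ω) := hJ3 p G ι Gloc D Ω hΩ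
  have h6 : In6 D (permZ G Ω) := hJ2 p G ι Gloc D hdepth Ω hΩ
  obtain ⟨h7, h7p⟩ := hC2 p G ι Gloc D hdepth Ω hΩ htrans hcard
  have h1 : In1 D (permZ G Ω) := hIn1 p G ι Gloc D Ω hΩ
  -- (E3): `n z = d y`
  obtain ⟨n, hn, y, hylev, hy⟩ := hE3 p G ι Gloc D Ω hΩ h5 h7 z hzlev hzcoc hzp
  obtain ⟨a, ha⟩ := mu3_exists_inv hp n hn
  -- `y₁ = a y`, `d y₁ = z`
  have hy₁lev : IsLevel₂ D.𝒯 (fun s => a • y s) := hylev.comp (fun h => a • h)
  have hy₁ : ∀ s, dTwo (permZ G Ω) D.E (fun s => a • y s) s = z s := by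
    intro s
    rw [e3_dTwo_nsmul, ← hy s, ← mul_smul]
    exact mu3_nsmul_eq_self (hzp s) ha
  -- `p y₁` is a level 2-cocycle
  have hpy₁lev : IsLevel₂ D.𝒯 (fun s => p • (a • y s)) := hy₁lev.comp (fun h => p • h)
  have hpy₁coc : ∀ s, dTwo (permZ G Ω) D.E (fun s => p • (a • y s)) s = 0 := by
    intro s
    rw [e3_dTwo_nsmul (permZ G Ω) D.E p (fun s => a • y s), hy₁ s, hzp s]
  -- (E2Div): `n' p y₁ = p w + d t`
  obtain ⟨n', hn', w, hwlev, hwcoc, t, htlev, ht⟩ :=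
    hE2 p G ι Gloc D Ω hΩ h1 h6 h7p (fun s => p • (a • y s)) hpy₁lev hpy₁coc
  -- `t = p t'`
  have hdiv : ∀ c : (permZ G Ω).V →+ D.E.V, ∃ c' : (permZ G Ω).V →+ D.E.V, p • c' = c := by
    intro c
    choose x hx using fun ω : Ω => D.E_div (c (MonoidAlgebra.single ω 1))
    refine ⟨e3_lift (G := G) Ω x, e3_ext Ω _ _ fun ω => ?_⟩
    rw [AddMonoidHom.nsmul_apply, e3_lift_single, one_zsmul, hx]
  choose Dv hDv using hdiv
  have ht'lev : IsLevel₁ D.𝒯 (fun σ => Dv (t σ)) := htlev.comp Dv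
  have hdt'lev : IsLevel₂ D.𝒯 (dOne (permZ G Ω) D.E (fun σ => Dv (t σ))) :=
    e3_isLevel₂_dOne Ω hΩ D.E_discrete _ ht'lev
  have hpdt' : ∀ s, p • dOne (permZ G Ω) D.E (fun σ => Dv (t σ)) s = dOne (permZ G Ω) D.E t s := by
    intro s
    rw [← dOne_nsmul]
    congr 1
    funext σ
    exact hDv (t σ)
  -- `y₂ = n' y₁ - w - d t'`
  set y₂ : G × G → ((permZ G Ω).V →+ D.E.V) :=
    fun s => n' • (a • y s) - w s - dOne (permZ G Ω) D.E (fun σ => Dv (t σ)) s with hy₂def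
  have hy₂lev : IsLevel₂ D.𝒯 y₂ := by
    obtain ⟨U₁, hU₁, h₁⟩ := hy₁lev
    obtain ⟨U₂, hU₂, h₂⟩ := hwlev
    obtain ⟨U₃, hU₃, h₃⟩ := hdt'lev
    refine ⟨(U₁ ⊓ U₂) ⊓ U₃, D.𝒯.inf_mem _ _ (D.𝒯.inf_mem _ _ hU₁ hU₂) hU₃,
      fun g g' s s' hs hs' => ?_⟩
    simp only [hy₂def]
    have e1 := h₁ g g' s s' hs.1.1 hs'.1.1
    simp only at e1
    rw [e1, h₂ g g' s s' hs.1.2 hs'.1.2, h₃ g g' s s' hs.2 hs'.2]
  have hy₂p : ∀ s, p • y₂ s = 0 := by
    intro s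
    have e := ht s
    simp only [hy₂def, smul_sub]
    rw [hpdt' s, smul_comm p n' (a • y s), e]
    abel
  have hy₂d : ∀ s, dTwo (permZ G Ω) D.E y₂ s = n' • z s := by
    intro s
    rw [hy₂def, e3_dTwo_sub (permZ G Ω) D.E (fun s => n' • (a • y s) - w s),
      e3_dTwo_sub (permZ G Ω) D.E (fun s => n' • (a • y s)),
      e3_dTwo_nsmul (permZ G Ω) D.E n' (fun s => a • y s), hy₁ s, hwcoc s, e3_dTwo_dOne,
      sub_zero, sub_zero]
  -- the result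
  obtain ⟨a', ha'⟩ := mu3_exists_inv hp n' hn'
  refine ⟨fun s => a' • y₂ s, hy₂lev.comp (fun h => a' • h), fun s => ?_, fun s => ?_⟩
  · rw [smul_comm, hy₂p s, smul_zero]
  · rw [e3_dTwo_nsmul, hy₂d s, ← mul_smul]
    exact (mu3_nsmul_eq_self (hzp s) ha').symm

/-- **A7 (Mu3)**, with `stmtE3` plugged in. -/
theorem stmtMu3_of' (hJ3 : StmtJ3) (hJ2 : StmtJ2Div) (hC2 : StmtC2SurjPerm) (hIn1 : StmtIn1Perm)
    (hE2 : StmtE2Div) : StmtMu3 :=
  stmtMu3_of hJ3 hJ2 hC2 hIn1 stmtE3 hE2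

end Fermat.Agent.TW.E

end
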