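/-
TW-E / A9-PERM (helper15), part 3a: auxiliary facts on `ℤ[Ω]` and the chase
"locally a coboundary in `Hom(ℤ[Ω], J_v)` ⇒ `κ ∘ w = d s'` in `Hom(ℤ[Ω], E)`" (In2, In1).
-/
import Fermat.Agent.TW.E.H2FinH1
import Fermat.Agent.TW.E.In1Perm
import Fermat.Agent.TW.E.Mu3
import Fermat.Agent.PT.F.SeqIn
import Fermat.Agent.PT.F.SeqInIn2a
import Fermat.Agent.PT.F.SeqInIn2b

set_option autoImplicit false
set_option linter.unusedSectionVars false
set_option linter.style.haveILetI false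

noncomputable section

namespace Fermat.Agent.TW.E

open CategoryTheory groupCohomology Module Fermat.Agent.PT Fermat.Agent.PT.F Fermat.Agent.TW.F
open Fermat.Agent.PT.F.ExactH2

attribute [local instance 1100] Rep.hV2

section Perm

variable {G : Type} [Group G] (Ω : Type) [MulAction G Ω]

/-- an element acting trivially on `Ω` acts trivially on `ℤ[Ω]` -/
lemma eh2f_ρ_eq_self (s : G) (hs : ∀ ω : Ω, s • ω = ω) (m : (permZ G Ω).V) :
    (permZ G Ω).ρ s m = m := by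
  have h : (actAdd (permZ G Ω) s) = AddMonoidHom.id _ := by
    apply chl_ext
    intro ω
    rw [actAdd_apply, chl_ρ_single, hs]
    rfl
  exact DFunLike.congr_fun h m

lemma eh2f_isLevTriv {𝒯 : Tower G} (hΩ : IsLevSet 𝒯 Ω) : IsLevTriv 𝒯 (permZ G Ω) := by
  obtain ⟨U, hU, h⟩ := hΩ
  exact ⟨U, hU, fun s hs m => eh2f_ρ_eq_self Ω s (h s hs) m⟩

/-- a `ℤ`-basis of `ℤ[Ω]` in the form used by `StmtIn2b` -/
lemma eh2f_basis [Fintype Ω] : ∃ (n : ℕ) (b : Fin n → (permZ G Ω).V),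
    ∀ (Y : Type) [AddCommGroup Y] (f : Fin n → Y),
      ∃! h : (permZ G Ω).V →+ Y, ∀ j, h (b j) = f j := by
  classical
  let e : Ω ≃ Fin (Fintype.card Ω) := Fintype.equivFin Ω
  refine ⟨Fintype.card Ω, fun j => MonoidAlgebra.single (e.symm j) 1, fun Y _ f => ?_⟩
  refine ⟨chl_lift Ω (fun ω => f (e ω)), fun j => ?_, fun h hh => ?_⟩
  · show chl_lift Ω (fun ω => f (e ω)) (MonoidAlgebra.single (e.symm j) 1) = f j
    rw [chl_lift_single, one_smul, Equiv.apply_symm_apply]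
  · apply chl_ext
    intro ω
    rw [chl_lift_single, one_smul]
    have := hh (e ω)
    simp only [Equiv.symm_apply_apply] at this
    exact this

/-- `ℤ[Ω] ≃+ ℤ^{|Ω|}` -/
lemma eh2f_equivFin [Fintype Ω] :
    Nonempty ((permZ G Ω).V ≃+ (Fin (Fintype.card Ω) → ℤ)) := by
  classical
  exact ⟨((MonoidAlgebra.coeffAddEquiv (R := ℤ) (M := Ω)).trans
    (Finsupp.linearEquivFunOnFinite ℤ ℤ Ω).toAddEquiv).trans
    (LinearEquiv.funCongrLeft ℤ ℤ (Fintype.equivFin Ω).symm).toAddEquiv⟩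

end Perm

section Chase

variable {p : ℕ} [Fact p.Prime] {G : Type} [Group G] {ι : Type} [Fintype ι] {Gloc : ι → Type}
  [∀ v, Group (Gloc v)] (D : PTDatum p G ι Gloc) (Ω : Type) [Fintype Ω] [MulAction G Ω]

/-- `In2` holds for `ℤ[Ω]` -/
lemma eh2f_in2 (hΩ : IsLevSet D.𝒯 Ω) : In2 D (permZ G Ω) :=
  SeqInW.in2_of D _ (stmtIn2a p G ι Gloc D _ (eh2f_isLevTriv Ω hΩ)) (fun v z hz ht =>
    stmtIn2b p G ι Gloc D _ (eh2f_isLevTriv Ω hΩ) (eh2f_basis Ω) v z hz ht)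

/-- the local cochain attached to a 2-cochain of `Fun(Ω, μ_p)` -/
def eh2fLoc (v : ι) (w : G × G → (eh2fTw D.χ Ω).V) :
    Gloc v × Gloc v → ((permZ G Ω).V →+ (D.Jloc v).V) :=
  fun dd => (jAdd D v).comp (eh2fKap D Ω (w (D.r v dd.1, D.r v dd.2)))

lemma jAdd_comp_dTwo' (M : Rep.{0} ℤ G) (v : ι) (y : G × G → (M.V →+ D.E.V))
    (s : Gloc v × Gloc v × Gloc v) :
    (jAdd D v).comp (dTwo M D.E y (D.r v s.1, D.r v s.2.1, D.r v s.2.2)) =
      dTwo (Rep.res (D.r v) M) (D.Jloc v)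
        (fun dd => (jAdd D v).comp (y (D.r v dd.1, D.r v dd.2))) s := by
  obtain ⟨d, d', d''⟩ := s
  simp only [dTwo, AddMonoidHom.comp_add, AddMonoidHom.comp_sub, jAdd_comp_conjAdd, map_mul]

/-- **The chase**: a level 2-cocycle `w` of `Fun(Ω, μ_p)` which is locally a level coboundary
in `Hom(ℤ[Ω], J_v)` for all `v` satisfies `κ ∘ w = d s'`, `s'` a level 1-cochain of
`Hom(ℤ[Ω], E)`. -/
theorem eh2f_chase (hΩ : IsLevSet D.𝒯 Ω) (w : G × G → (eh2fTw D.χ Ω).V)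
    (hw : w ∈ levCocycles₂ D.𝒯 (eh2fTw D.χ Ω))
    (hloc : ∀ v, ∃ t : Gloc v → ((permZ G Ω).V →+ (D.Jloc v).V), IsLevel₁ (D.𝒯loc v) t ∧
      ∀ dd, eh2fLoc D Ω v w dd = dOne (Rep.res (D.r v) (permZ G Ω)) (D.Jloc v) t dd) :
    ∃ s' : G → ((permZ G Ω).V →+ D.E.V), IsLevel₁ D.𝒯 s' ∧
      ∀ στ, eh2fKap D Ω (w στ) = dOne (permZ G Ω) D.E s' στ := by
  have hp : p.Prime := Fact.out
  obtain ⟨hwc, hwl⟩ := (mem_levCocycles₂_iff D.𝒯 _ w).1 hw
  have hwd := (eh2f_mem_cocycles₂_iff D Ω w).1 hwc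
  -- In2
  obtain ⟨t, ht, hty⟩ := eh2f_in2 D Ω hΩ
    (fun στ => (homAdd D.i).comp (eh2fKap D Ω (w στ)))
    ((hwl.comp (fun a => (homAdd D.i).comp (eh2fKap D Ω a)) :))
    (fun σ τ ρ => by
      have h1 := congrArg (fun h => (homAdd D.i).comp h) (hwd (σ, τ, ρ))
      simp only [dTwo, AddMonoidHom.comp_add, AddMonoidHom.comp_sub,
        AddMonoidHom.comp_zero] at h1
      rw [comp_conjAdd] at h1
      exact h1)
    (fun στ => by
      rw [← chl_comp_nsmul, eh2fKap_p, AddMonoidHom.comp_zero])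
    (fun v => by
      obtain ⟨tv, htv, htvw⟩ := hloc v
      refine ⟨tv, htv, fun dd => ?_⟩
      rw [← htvw dd]
      show (ev D v).comp ((homAdd D.i).comp (eh2fKap D Ω (w (D.r v dd.1, D.r v dd.2)))) = _
      rw [← AddMonoidHom.comp_assoc, ev_comp_i]
      rfl)
  -- In1
  obtain ⟨n, hn, c₀, hc₀⟩ := stmtIn1Perm p G ι Gloc D Ω hΩ
    (fun σ => (homAdd D.π).comp (t σ)) ((ht.comp (fun h => (homAdd D.π).comp h) :))
    (fun στ => by
      rw [← comp_dOne, ← hty, ← AddMonoidHom.comp_assoc, pi_comp_i, AddMonoidHom.zero_comp])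
  obtain ⟨t₀, ht₀⟩ := chl_exists_lift_pi₀ D Ω c₀
  set u : G → ((permZ G Ω).V →+ (PTJ D).V) :=
    fun σ => n • t σ - dZero (permZ G Ω) (PTJ D) t₀ σ with hu
  have hπu : ∀ σ, (homAdd D.π).comp (u σ) = 0 := by
    intro σ
    rw [hu]
    beta_reduce
    rw [AddMonoidHom.comp_sub, comp_dZero, ht₀, ← hc₀ σ, chl_comp_nsmul, sub_self]
  have hul : IsLevel₁ D.𝒯 u :=
    chl_isLevel₁_sub (chl_isLevel₁_nsmul n ht) (chl_isLevel₁_dZero hΩ (ptj_isDiscrete D) t₀)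
  obtain ⟨y, hy, hyu⟩ := chl_exists_lift_i₁ D u hul hπu
  have hdy : ∀ στ, dOne (permZ G Ω) D.E y στ = n • eh2fKap D Ω (w στ) := by
    intro στ
    apply i_comp_injective (D := D)
    rw [comp_dOne]
    have h1 : (fun σ => (homAdd D.i).comp (y σ)) = u := funext hyu
    rw [h1, hu, dOne_sub, dOne_nsmul, dOne_dZero, sub_zero, ← hty, chl_comp_nsmul]
  obtain ⟨a, ha⟩ := mu3_exists_inv hp n hn
  refine ⟨fun σ => a • y σ, chl_isLevel₁_nsmul a hy, fun στ => ?_⟩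
  rw [dOne_nsmul, hdy, ← mul_smul]
  exact (mu3_nsmul_eq_self (eh2fKap_p D Ω (w στ)) ha).symm

end Chase

end Fermat.Agent.TW.E

end
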