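/-
TW-E / A9-PERM (helper15), part 3b: `stmtH2FinPerm_of : StmtH2LevFB → StmtTorsQuot → StmtH2FinPerm`,
`H²_lev(G, Fun(Ω, μ_p))` is finite for every finite level `G`-set `Ω`.

`Z ⊇ K₀ ⊇ B²`: `Z` = level 2-cocycles, `K₀` = those which are locally level coboundaries in
`Hom(ℤ[Ω], J_v)` for all `v` (finite index: `StmtH2LevFB` for `(G_v, 𝒯loc v, J_v)`), `B²` = level
coboundaries (finite index in `K₀`: the chase and the class map to `T / pT`).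
-/
import Fermat.Agent.TW.E.H2FinPermAux
import Fermat.Agent.TW.E.H2FinIdx

set_option autoImplicit false
set_option linter.unusedSectionVars false
set_option linter.style.haveILetI false

noncomputable section

namespace Fermat.Agent.TW.E

open CategoryTheory groupCohomology Module Fermat.Agent.PT Fermat.Agent.PT.F Fermat.Agent.TW.F
open Fermat.Agent.PT.F.ExactH2

attribute [local instance 1100] Rep.hV2

section Main

variable {p : ℕ} [Fact p.Prime] {G : Type} [Group G] {ι : Type} [Fintype ι] {Gloc : ι → Type}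
  [∀ v, Group (Gloc v)] (D : PTDatum p G ι Gloc) (Ω : Type) [Fintype Ω] [MulAction G Ω]

/-- the group of level 2-cocycles of `Fun(Ω, μ_p)` -/
abbrev eh2fA : Type := ↥(levCocycles₂ D.𝒯 (eh2fTw D.χ Ω))

lemma eh2fLoc_add (v : ι) (w w' : G × G → (eh2fTw D.χ Ω).V) (dd : Gloc v × Gloc v) :
    eh2fLoc D Ω v (w + w') dd = eh2fLoc D Ω v w dd + eh2fLoc D Ω v w' dd := by
  show (jAdd D v).comp (eh2fKap D Ω (w _ + w' _)) = _
  rw [map_add, AddMonoidHom.comp_add]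
  rfl

lemma eh2fLoc_neg (v : ι) (w : G × G → (eh2fTw D.χ Ω).V) (dd : Gloc v × Gloc v) :
    eh2fLoc D Ω v (-w) dd = -eh2fLoc D Ω v w dd := by
  show (jAdd D v).comp (eh2fKap D Ω (-(w _))) = _
  rw [map_neg, chl_comp_neg]
  rfl

lemma eh2fLoc_sub (v : ι) (w w' : G × G → (eh2fTw D.χ Ω).V) (dd : Gloc v × Gloc v) :
    eh2fLoc D Ω v (w - w') dd = eh2fLoc D Ω v w dd - eh2fLoc D Ω v w' dd := by
  rw [sub_eq_add_neg, eh2fLoc_add, eh2fLoc_neg, ← sub_eq_add_neg]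

lemma eh2fLoc_zero (v : ι) (dd : Gloc v × Gloc v) :
    eh2fLoc D Ω v (0 : G × G → (eh2fTw D.χ Ω).V) dd = 0 := by
  show (jAdd D v).comp (eh2fKap D Ω 0) = _
  rw [map_zero, AddMonoidHom.comp_zero]

/-- the cocycles which are level coboundaries of `Hom(ℤ[Ω], J_v)` at `v` -/
def eh2fK (v : ι) : AddSubgroup (eh2fA D Ω) where
  carrier := {w | ∃ t : Gloc v → ((permZ G Ω).V →+ (D.Jloc v).V), IsLevel₁ (D.𝒯loc v) t ∧
    ∀ dd, eh2fLoc D Ω v w.1 dd = dOne (Rep.res (D.r v) (permZ G Ω)) (D.Jloc v) t dd}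
  zero_mem' := ⟨0, isLevel₁_const (D.𝒯loc v) _, fun dd => by
    rw [eh2f_dOne_zero]
    exact eh2fLoc_zero D Ω v dd⟩
  add_mem' := by
    rintro a b ⟨t, ht, hta⟩ ⟨t', ht', htb⟩
    refine ⟨fun d => t d + t' d, ht.add ht', fun dd => ?_⟩
    rw [chl_dOne_add, ← hta, ← htb]
    exact eh2fLoc_add D Ω v a.1 b.1 dd
  neg_mem' := by
    rintro a ⟨t, ht, hta⟩
    refine ⟨fun d => -t d, (ht.comp (fun h => -h) :), fun dd => ?_⟩
    rw [chl_dOne_neg, ← hta]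
    exact eh2fLoc_neg D Ω v a.1 dd

lemma eh2f_loc_isLevTriv (hΩ : IsLevSet D.𝒯 Ω) (v : ι) :
    IsLevTriv (D.𝒯loc v) (Rep.res (D.r v) (permZ G Ω)) := by
  obtain ⟨U, hU, h⟩ := hΩ
  exact ⟨U.comap (D.r v), D.comap_mem v U hU,
    fun s hs m => eh2f_ρ_eq_self Ω (D.r v s) (h _ hs) m⟩

/-- **Step A**: `K_v` has finite index (`StmtH2LevFB` for `(G_v, 𝒯loc v, J_v)`). -/
theorem eh2fK_finiteIndex (hLEV : StmtH2LevFB) (hΩ : IsLevSet D.𝒯 Ω) (v : ι) :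
    (eh2fK D Ω v).FiniteIndex := by
  apply eh2f_finiteIndex_of_pigeonhole _ (p ^ Fintype.card Ω)
  intro f
  have hdisc : IsDiscrete (D.𝒯loc v) (D.Jloc v) := D.Jloc_discrete v
  have hfund : HasPFund (D.𝒯loc v) (D.Jloc v) p := fun U _ hU => D.cm_loc v U hU
  have hequiv : Nonempty ((Rep.res (D.r v) (permZ G Ω)).V ≃+ (Fin (Fintype.card Ω) → ℤ)) :=
    eh2f_equivFin (G := G) Ω
  have hlev : ∀ i, IsLevel₂ (D.𝒯loc v) (eh2fLoc D Ω v (f i).1) := fun i =>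
    ((IsLevel₂.precomp D.𝒯 (D.𝒯loc v) (D.r v) (D.comap_mem v) (f i).2.2).comp
      (fun a => (jAdd D v).comp (eh2fKap D Ω a)) :)
  have hcoc : ∀ i s, dTwo (Rep.res (D.r v) (permZ G Ω)) (D.Jloc v)
      (eh2fLoc D Ω v (f i).1) s = 0 := fun i s => by
    have hwd := (eh2f_mem_cocycles₂_iff D Ω (f i).1).1 (f i).2.1
    have h1 := jAdd_comp_dTwo' D (permZ G Ω) v (fun x => eh2fKap D Ω ((f i).1 x)) s
    rw [hwd, AddMonoidHom.comp_zero] at h1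
    exact h1.symm
  have hpt : ∀ i s, p • eh2fLoc D Ω v (f i).1 s = 0 := fun i s => by
    show p • (jAdd D v).comp (eh2fKap D Ω _) = 0
    rw [← chl_comp_nsmul, eh2fKap_p, AddMonoidHom.comp_zero]
  obtain ⟨i, j, hij, t, ht, hty⟩ := hLEV p (Gloc v) (D.𝒯loc v) (D.Jloc v) hdisc hfund
    (Rep.res (D.r v) (permZ G Ω)) (Fintype.card Ω) (eh2f_loc_isLevTriv D Ω hΩ v) hequiv
    (fun i => eh2fLoc D Ω v (f i).1) hlev hcoc hpt
  refine ⟨i, j, hij, t, ht, fun dd => ?_⟩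
  rw [← hty dd]
  exact eh2fLoc_sub D Ω v (f i).1 (f j).1 dd

/-- `K₀ = ⋂_v K_v` -/
def eh2fK0 : AddSubgroup (eh2fA D Ω) := ⨅ v, eh2fK D Ω v

theorem eh2fK0_finiteIndex (hLEV : StmtH2LevFB) (hΩ : IsLevSet D.𝒯 Ω) :
    (eh2fK0 D Ω).FiniteIndex :=
  AddSubgroup.finiteIndex_iInf (fun v => eh2fK_finiteIndex D Ω hLEV hΩ v)

/-- the level coboundaries inside the level cocycles -/
def eh2fS : AddSubgroup (eh2fA D Ω) :=
  ((levCoboundaries₂ D.𝒯 (eh2fTw D.χ Ω)).comap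
    (levCocycles₂ D.𝒯 (eh2fTw D.χ Ω)).subtype).toAddSubgroup

lemma eh2f_mem_S (w : eh2fA D Ω) :
    w ∈ eh2fS D Ω ↔ ∃ b : G → (eh2fTw D.χ Ω).V, IsLevel₁ D.𝒯 b ∧
      (d₁₂ (eh2fTw D.χ Ω)).hom b = w.1 :=
  mem_levCoboundaries₂_iff D.𝒯 _ _

/-- **Step C**: `B² ⊆ K₀`. -/
theorem eh2fS_le_K0 : eh2fS D Ω ≤ eh2fK0 D Ω := by
  intro w hw
  obtain ⟨b, hb, hbw⟩ := (eh2f_mem_S D Ω w).1 hw
  rw [eh2fK0, AddSubgroup.mem_iInf]
  intro v
  refine ⟨fun d => (jAdd D v).comp (eh2fKap D Ω (b (D.r v d))),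
    ((IsLevel₁.precomp D.𝒯 (D.𝒯loc v) (D.r v) (D.comap_mem v) hb).comp
      (fun a => (jAdd D v).comp (eh2fKap D Ω a)) :), fun dd => ?_⟩
  show (jAdd D v).comp (eh2fKap D Ω (w.1 (D.r v dd.1, D.r v dd.2))) = _
  rw [← hbw, eh2fKap_d₁₂]
  exact jAdd_comp_dOne D (permZ G Ω) v (fun σ => eh2fKap D Ω (b σ)) dd

/-- **Step D**: `B²` has finite index in `K₀`. -/
theorem eh2fS_relFiniteIndex (hALG : StmtTorsQuot) (hΩ : IsLevSet D.𝒯 Ω) :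
    ((eh2fS D Ω).addSubgroupOf (eh2fK0 D Ω)).FiniteIndex := by
  have hE : IsDiscrete D.𝒯 D.E := D.E_discrete
  obtain ⟨F, hF, cl, hcl⟩ := eh2f_exists_cl D Ω hALG hΩ
  have hch : ∀ w : ↥(eh2fK0 D Ω), ∃ s' : G → ((permZ G Ω).V →+ D.E.V), IsLevel₁ D.𝒯 s' ∧
      ∀ στ, eh2fKap D Ω (w.1.1 στ) = dOne (permZ G Ω) D.E s' στ := fun w =>
    eh2f_chase D Ω hΩ w.1.1 w.1.2 (fun v => (AddSubgroup.mem_iInf.1 w.2 v))
  choose sW hsW1 hsW2 using hch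
  have hz : ∀ w : ↥(eh2fK0 D Ω), (fun σ => p • sW w σ) ∈ eh2fZ1 D Ω := fun w =>
    ⟨chl_isLevel₁_nsmul p (hsW1 w), fun s => by
      rw [dOne_nsmul, ← hsW2 w, eh2fKap_p]⟩
  refine eh2f_finiteIndex_of_fiber _ (fun w => cl ⟨_, hz w⟩) (fun w w' hww => ?_)
  obtain ⟨c', h, hh⟩ := hcl _ _ hww
  obtain ⟨h'', rfl⟩ := eh2f_hom_div D Ω h
  have hr : IsLevel₁ D.𝒯
      (fun σ => sW w σ - sW w' σ - c'.1 σ - dZero (permZ G Ω) D.E h'' σ) :=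
    chl_isLevel₁_sub (chl_isLevel₁_sub (chl_isLevel₁_sub (hsW1 w) (hsW1 w')) c'.2.1)
      (chl_isLevel₁_dZero hΩ hE h'')
  obtain ⟨b, hb, hbr⟩ := eh2f_exists_kap₁ D Ω _ hr (fun σ => by
    have := hh σ
    simp only at this
    rw [smul_sub, smul_sub, smul_sub, this, ← dZero_nsmul]
    abel)
  rw [AddSubgroup.mem_addSubgroupOf, eh2f_mem_S]
  refine ⟨b, hb, ?_⟩
  funext στ
  apply eh2fKap_injective D Ω
  rw [eh2fKap_d₁₂]
  have e1 : (fun σ => eh2fKap D Ω (b σ)) =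
      fun σ => sW w σ - sW w' σ - c'.1 σ - dZero (permZ G Ω) D.E h'' σ := funext hbr
  rw [e1, dOne_sub, dOne_sub, dOne_sub, c'.2.2, dOne_dZero, sub_zero, sub_zero, ← hsW2 w,
    ← hsW2 w', ← map_sub]
  rfl

/-- **A9-PERM**. -/
theorem stmtH2FinPerm_of (hLEV : StmtH2LevFB) (hALG : StmtTorsQuot) : StmtH2FinPerm := by
  intro p _ G _ ι _ Gloc _ D Ω _ _ hΩ
  have h1 : (eh2fS D Ω).FiniteIndex :=
    eh2f_finiteIndex_trans _ _ (eh2fS_le_K0 D Ω) (eh2fK0_finiteIndex D Ω hLEV hΩ)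
      (eh2fS_relFiniteIndex D Ω hALG hΩ)
  have h2 : Finite (eh2fA D Ω ⧸ eh2fS D Ω) := AddSubgroup.finite_quotient_of_finiteIndex
  exact h2

end Main

end Fermat.Agent.TW.E

end
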