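/-
TW-E / A9 (helper15): assembly.  `stmtH2Fin_of_lev : StmtH2LevFB → StmtH2Fin`
(everything except the finite-level bound and its level form is proved).
-/
import Fermat.Agent.TW.E.H2FinPerm
import Fermat.Agent.TW.E.H2FinFin
import Fermat.Agent.TW.E.H2FinAlg
import Fermat.Agent.TW.E.H2FinLev

set_option autoImplicit false

namespace Fermat.Agent.TW.E

/-- **A9** from the level form of the finite-level bound. -/
theorem stmtH2Fin_of_lev (hLEV : StmtH2LevFB) : StmtH2Fin :=
  stmtH2Fin_of (stmtH2FinPerm_of hLEV stmtTorsQuot)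

/-- **A9** from the finite-level bound `StmtH2FB` (Sylow + Tate–Nakayama). -/
theorem stmtH2Fin_of_fb (hFB : StmtH2FB) : StmtH2Fin :=
  stmtH2Fin_of_lev (stmtH2LevFB_of hFB)

end Fermat.Agent.TW.E
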