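/-
TW-E / A9-FB (helper63): `StmtH2FB` — at a finite level, `H²(Γ, Hom(N, C))` has at most `p ^ n`
elements killed by `p` (`N` free of rank `n`, `C` with a `p`-fundamental class).
Proof (NOTES/TW-E-A9.md, FB): restriction to a Sylow `p`-subgroup `P` is injective on classes
killed by `p` (`stmtSylow`); every class of `A := H²(P, Hom(N, C))` is `Φ x = x ∪ u` for a
`P`-invariant functional `x` (`stmtTN0`); the invariant functionals are saturated in
`Hom(N, ℤ) ≅ ℤⁿ`; so `A` is finite (`|P| A = 0`, `stmtKill`), `|A / pA| ≤ p ^ n`, and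
`|A[p]| = |A / pA|`.
-/
import Fermat.Agent.TW.E.H2FinPlan
import Fermat.Agent.PT.A.Final
import Fermat.Agent.PT.F.RepBasic

set_option autoImplicit false
set_option linter.style.haveILetI false
set_option linter.unusedSectionVars false
set_option linter.unusedVariables false

noncomputable section

namespace Fermat.Agent.TW.E

open CategoryTheory groupCohomology Module Fermat.Agent.PT Fermat.Agent.PT.F

/-! ### Pure algebra -/

/-- in a finite abelian group, `|A[p]| = |A / pA|` -/
theorem eh2fb_card_ker_eq (A : Type) [AddCommGroup A] [Finite A] (p : ℕ) :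
    Nat.card ↥(nsmulAddMonoidHom (α := A) p).ker =
      Nat.card (A ⧸ (nsmulAddMonoidHom (α := A) p).range) := by
  have h1 := AddSubgroup.card_mul_index (nsmulAddMonoidHom (α := A) p).ker
  have h2 := AddSubgroup.card_mul_index (nsmulAddMonoidHom (α := A) p).range
  rw [AddSubgroup.index_ker] at h1
  have h3 : 0 < Nat.card ↥(nsmulAddMonoidHom (α := A) p).range := Nat.card_pos
  have h4 : Nat.card ↥(nsmulAddMonoidHom (α := A) p).ker *
      Nat.card ↥(nsmulAddMonoidHom (α := A) p).range =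
      (nsmulAddMonoidHom (α := A) p).range.index *
        Nat.card ↥(nsmulAddMonoidHom (α := A) p).range := by
    rw [h1, mul_comm, h2]
  exact Nat.eq_of_mul_eq_mul_right h3 h4

/-- an additive functional on `ℤⁿ` is determined by its values on the standard basis -/
theorem eh2fb_apply_eq {V : Type} [AddCommGroup V] {n : ℕ} (e : V ≃+ (Fin n → ℤ))
    (z : V →+ ℤ) (m : V) :
    z m = ∑ i, e m i * z (e.symm (Pi.single i 1)) := by
  have h1 : e m = ∑ i, e m i • (Pi.single i (1 : ℤ) : Fin n → ℤ) := by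
    funext j
    simp [Finset.sum_apply, Pi.single_apply]
  have h2 : m = e.symm (e m) := (e.symm_apply_apply m).symm
  conv_lhs => rw [h2, h1]
  rw [map_sum, map_sum]
  refine Finset.sum_congr rfl (fun i _ => ?_)
  rw [map_zsmul, map_zsmul, smul_eq_mul]

/-- a functional whose values on the basis are divisible by `d` is `d` times a functional -/
theorem eh2fb_exists_div {V : Type} [AddCommGroup V] {n : ℕ} (e : V ≃+ (Fin n → ℤ))
    (z : V →+ ℤ) (d : ℕ) (h : ∀ i, (d : ℤ) ∣ z (e.symm (Pi.single i 1))) :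
    ∃ y : V →+ ℤ, z = d • y := by
  choose c hc using h
  refine ⟨∑ i, c i • ((Pi.evalAddMonoidHom (fun _ : Fin n => ℤ) i).comp e.toAddMonoidHom), ?_⟩
  refine AddMonoidHom.ext (fun m => ?_)
  rw [eh2fb_apply_eq e z m, AddMonoidHom.nsmul_apply, AddMonoidHom.finsetSum_apply,
    Finset.smul_sum]
  refine Finset.sum_congr rfl (fun i _ => ?_)
  rw [hc i]
  simp only [AddMonoidHom.smul_apply, AddMonoidHom.coe_comp, Function.comp_apply,
    Pi.evalAddMonoidHom_apply, AddEquiv.coe_toAddMonoidHom, smul_eq_mul, nsmul_eq_mul]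
  ring

/-! ### The cup product with the fundamental class -/

section Phi

variable {Γ : Type} [Group Γ]

/-- the invariant functionals on `N` -/
def eh2fbInv (N : Rep.{0} ℤ Γ) : AddSubgroup (N.V →+ ℤ) where
  carrier := {x | ∀ (g : Γ) (m : N.V), x (N.ρ g m) = x m}
  zero_mem' := fun _ _ => rfl
  add_mem' := by
    intro x y hx hy g m
    rw [AddMonoidHom.add_apply, AddMonoidHom.add_apply, hx g m, hy g m]
  neg_mem' := by
    intro x hx g m
    rw [AddMonoidHom.neg_apply, AddMonoidHom.neg_apply, hx g m]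

/-- `x ↦ x ∪ u` -/
def eh2fbPhi (N C : Rep.{0} ℤ Γ) (u : H2 C) : ↥(eh2fbInv N) →+ H2 (homRep N C) :=
  AddMonoidHom.mk' (fun x => (push₂ (mulHom N C x.1 x.2)).hom u) (by
    intro x y
    have h : mulHom N C (x + y).1 (x + y).2 = mulHom N C x.1 x.2 + mulHom N C y.1 y.2 := by
      apply rep_hom_ext'
      intro c
      rw [rep_add_apply]
      refine AddMonoidHom.ext (fun m => ?_)
      show (x.1 + y.1) m • c = x.1 m • c + y.1 m • c
      rw [AddMonoidHom.add_apply, add_zsmul]
    show (push₂ (mulHom N C (x + y).1 (x + y).2)).hom u = _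
    rw [h, push₂, map_id_add]
    rfl)

lemma eh2fbPhi_apply (N C : Rep.{0} ℤ Γ) (u : H2 C) (x : ↥(eh2fbInv N)) :
    eh2fbPhi N C u x = (push₂ (mulHom N C x.1 x.2)).hom u := rfl

end Phi

/-! ### The case of a `p`-group -/

section PGroup

variable {p : ℕ} [Fact p.Prime] {Γ : Type} [Group Γ] [Fintype Γ]

/-- the key step: two classes whose functionals agree modulo `d` differ by `d` times a class -/
theorem eh2fb_key (N C : Rep.{0} ℤ Γ) (u : H2 C) {n : ℕ} (e : N.V ≃+ (Fin n → ℤ))
    (d : ℕ) (hd : 0 < d) (x x' : ↥(eh2fbInv N))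
    (h : ∀ i, (((x.1 (e.symm (Pi.single i 1)) : ℤ) : ZMod d)) =
      ((x'.1 (e.symm (Pi.single i 1)) : ℤ) : ZMod d)) :
    ∃ b : H2 (homRep N C), eh2fbPhi N C u x - eh2fbPhi N C u x' = d • b := by
  have h1 : ∀ i, (d : ℤ) ∣ (x.1 - x'.1) (e.symm (Pi.single i 1)) := by
    intro i
    rw [AddMonoidHom.sub_apply]
    exact (ZMod.intCast_eq_intCast_iff_dvd_sub _ _ d).1 (h i).symm
  obtain ⟨y, hy⟩ := eh2fb_exists_div e (x.1 - x'.1) d h1
  have hyinv : y ∈ eh2fbInv N := by
    intro g m
    have h2 : (x.1 - x'.1) (N.ρ g m) = (x.1 - x'.1) m := by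
      rw [AddMonoidHom.sub_apply, AddMonoidHom.sub_apply, x.2 g m, x'.2 g m]
    rw [hy, AddMonoidHom.nsmul_apply, AddMonoidHom.nsmul_apply, nsmul_eq_mul, nsmul_eq_mul]
      at h2
    have hd0 : ((d : ℕ) : ℤ) ≠ 0 := by exact_mod_cast hd.ne'
    exact mul_left_cancel₀ hd0 h2
  refine ⟨eh2fbPhi N C u ⟨y, hyinv⟩, ?_⟩
  rw [← map_sub, ← map_nsmul]
  congr 1
  exact Subtype.ext hy

/-- **A9-FB for a `p`-group with a fundamental class.** -/
theorem eh2fb_pgroup (hP : IsPGroup p Γ) (C : Rep.{0} ℤ Γ) (u : H2 C) (hu : IsFundClass C u)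
    (N : Rep.{0} ℤ Γ) {n : ℕ} (e : N.V ≃+ (Fin n → ℤ)) :
    Finite (H2 (homRep N C)) ∧
      Nat.card ↥(nsmulAddMonoidHom (α := H2 (homRep N C)) p).ker ≤ p ^ n := by
  classical
  have hsurj : ∀ ζ : H2 (homRep N C), ∃ x : ↥(eh2fbInv N), eh2fbPhi N C u x = ζ := by
    intro ζ
    obtain ⟨x, hx, h⟩ := stmtTN0 p Γ hP C u hu N ⟨n, ⟨e⟩⟩ ζ
    exact ⟨⟨x, hx⟩, h.symm⟩
  choose sec hsec using hsurj
  have hcard : 0 < Fintype.card Γ := Fintype.card_pos
  -- finiteness
  haveI : NeZero (Fintype.card Γ) := ⟨hcard.ne'⟩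
  have hfin : Finite (H2 (homRep N C)) := by
    refine Finite.of_injective
      (fun (a : H2 (homRep N C)) (i : Fin n) =>
        ((((sec a).1 (e.symm (Pi.single i 1)) : ℤ)) : ZMod (Fintype.card Γ))) ?_
    intro a a' haa
    obtain ⟨b, hb⟩ := eh2fb_key N C u e (Fintype.card Γ) hcard (sec a) (sec a')
      (fun i => congrFun haa i)
    rw [hsec, hsec, stmtKill Γ (homRep N C) 1 b] at hb
    exact sub_eq_zero.1 hb
  haveI := hfin
  refine ⟨hfin, ?_⟩
  rw [eh2fb_card_ker_eq]
  haveI : NeZero p := ⟨(Fact.out : p.Prime).ne_zero⟩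
  have hinj : Function.Injective
      (fun (c : H2 (homRep N C) ⧸ (nsmulAddMonoidHom (α := H2 (homRep N C)) p).range)
        (i : Fin n) => ((((sec (Quotient.out c)).1 (e.symm (Pi.single i 1)) : ℤ)) : ZMod p)) := by
    intro c c' hcc
    obtain ⟨b, hb⟩ := eh2fb_key N C u e p (Fact.out : p.Prime).pos (sec (Quotient.out c))
      (sec (Quotient.out c')) (fun i => congrFun hcc i)
    rw [hsec, hsec] at hb
    have h1 : ((Quotient.out c : H2 (homRep N C)) :
        H2 (homRep N C) ⧸ (nsmulAddMonoidHom (α := H2 (homRep N C)) p).range) =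
        ((Quotient.out c' : H2 (homRep N C)) :
          H2 (homRep N C) ⧸ (nsmulAddMonoidHom (α := H2 (homRep N C)) p).range) := by
      rw [QuotientAddGroup.eq]
      refine ⟨-b, ?_⟩
      show p • (-b) = _
      rw [smul_neg, ← hb]
      abel
    rw [QuotientAddGroup.out_eq', QuotientAddGroup.out_eq'] at h1
    exact h1
  have h2 := Nat.card_le_card_of_injective _ hinj
  rw [Nat.card_fun, Nat.card_zmod, Nat.card_fin] at h2
  exact h2

end PGroup

/-! ### The piece -/

/-- **A9-FB.** -/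
theorem stmtH2FB : StmtH2FB := by
  intro p _ Γ _ _ C u hu N n ⟨e⟩ ξ hξ
  classical
  let P : Sylow p Γ := default
  letI : Fintype ↥(P : Subgroup Γ) := Fintype.ofFinite _
  have hP : IsPGroup p ↥(P : Subgroup Γ) := P.isPGroup'
  have hfund : IsFundClass (Rep.res (P : Subgroup Γ).subtype C)
      ((resSub C (P : Subgroup Γ) 2).hom u) :=
    ⟨hu.h1 P hP, hu.h2_card P hP, hu.h2_gen P hP⟩
  obtain ⟨hfin, hcard⟩ := eh2fb_pgroup hP (Rep.res (P : Subgroup Γ).subtype C)
    ((resSub C (P : Subgroup Γ) 2).hom u) hfund (Rep.res (P : Subgroup Γ).subtype N)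
    (n := n) e
  haveI := hfin
  -- the restrictions of the classes
  let r : H2 (homRep N C) → H2 (homRep (Rep.res (P : Subgroup Γ).subtype N)
      (Rep.res (P : Subgroup Γ).subtype C)) :=
    fun x => (resSub (homRep N C) (P : Subgroup Γ) 2).hom x
  have hr : ∀ i, p • r (ξ i) = 0 := by
    intro i
    have h := congrArg (fun x => (resSub (homRep N C) (P : Subgroup Γ) 2).hom x) (hξ i)
    simp only [map_nsmul, map_zero] at h
    exact h
  let f : Fin (p ^ n + 1) → ↥(nsmulAddMonoidHom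
      (α := H2 (homRep (Rep.res (P : Subgroup Γ).subtype N)
        (Rep.res (P : Subgroup Γ).subtype C))) p).ker := fun i =>
    ⟨r (ξ i), (AddMonoidHom.mem_ker).2 (hr i)⟩
  have hninj : ¬ Function.Injective f := by
    intro hinj
    have h := Nat.card_le_card_of_injective f hinj
    rw [Nat.card_fin] at h
    omega
  rw [Function.not_injective_iff] at hninj
  obtain ⟨i, j, hf, hij⟩ := hninj
  refine ⟨i, j, hij, ?_⟩
  have h1 : (resSub (homRep N C) (P : Subgroup Γ) 2).hom (ξ i) =
      (resSub (homRep N C) (P : Subgroup Γ) 2).hom (ξ j) := congrArg Subtype.val hf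
  have h2 : (resSub (homRep N C) (P : Subgroup Γ) 2).hom (ξ i - ξ j) = 0 := by
    rw [map_sub, h1, sub_self]
  have h3 := stmtSylow p Γ (homRep N C) P 2 (ξ i - ξ j) (by norm_num)
    ⟨1, by rw [pow_one, smul_sub, hξ i, hξ j, sub_self]⟩ h2
  exact sub_eq_zero.1 h3

end Fermat.Agent.TW.E

end
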