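/-
TW-E / A9 (helper15 + helper63): **`stmtH2Fin : StmtH2Fin`**, unconditional.
`H²_lev(G, B)` is finite for every finite `𝔽_p[G]`-module `B` trivial on some level:
A9-FB (`stmtH2FB`, helper63) + A9-LEV/PERM/ALG/FIN (`stmtH2Fin_of_fb`, helper15).
-/
import Fermat.Agent.TW.E.H2FinAsm
import Fermat.Agent.TW.E.H2FinFB

set_option autoImplicit false

namespace Fermat.Agent.TW.E

/-- **A9**: `StmtH2Fin`, unconditional. -/
theorem stmtH2Fin : StmtH2Fin :=
  stmtH2Fin_of_fb stmtH2FB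

end Fermat.Agent.TW.E
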