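/-
Project TW (S56) — part TW-E, piece **A8** (`StmtH2Surj`, owner helper69): INTERFACE of the
sub-pieces.  Mathematics: NOTES/TW-E.md §A8 (detailed version: NOTES/TW-E-A8.md).

`T(B) := Fun(Ω, B)`, `Ω = G ⧸ P`, `P ⊇ U` the preimage of a Sylow `p`-subgroup of `G ⧸ U`, with the
action `(g φ)(ω) = g φ(g⁻¹ ω)`.  Cochains with values in `T(B)` are plain functions
`G × … × G → Ω → B.V`; `tD2`, `tD3` are the differentials (conventions of `dTwo`, `dThree`).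

* A8b `StmtMu3Fun` (`stmtMu3Fun_of : StmtMu3 → StmtMu3Fun`): `H³_lev(G, Fun(Ω, 𝔽_p)) = 0`, the
  function form of `StmtMu3` (`Fun(Ω, 𝔽_p) ≅ Hom_ℤ(ℤ[Ω], μ_p)`, `c ↦ (δ_ω ↦ c(ω) χ(g_ω) ζ)`, because
  `χ(P) = 1`).
* A8c `StmtFixFun`: a nonzero `P`-stable subspace `F` of `B` (`P` acts through a `p`-group) carries
  a nonzero `P`-invariant linear functional (fixed point lemma applied to the dual of `F`).
* A8a (helper69): the flag induction and the assembly `StmtMu3Fun → StmtFixFun → StmtH2Surj`.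
-/
import Fermat.Agent.TW.E.Plan

set_option autoImplicit false

noncomputable section

namespace Fermat.Agent.TW.E

open CategoryTheory groupCohomology Module Fermat.Agent.PT Fermat.Agent.PT.F Fermat.Agent.TW.F

section Defs

variable {k : Type} [CommRing k] {G : Type} [Group G]

/-- the action of `g` on `T(B) = Fun(Ω, B)`: `(g φ)(ω) = g φ(g⁻¹ ω)` -/
def tAct (B : Rep.{0} k G) (Ω : Type) [MulAction G Ω] (g : G) (φ : Ω → B.V) : Ω → B.V :=
  fun ω => B.ρ g (φ (g⁻¹ • ω))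

/-- the coboundary of a 2-cochain with values in `T(B)` -/
def tD2 (B : Rep.{0} k G) (Ω : Type) [MulAction G Ω] (W : G × G → Ω → B.V) (s : G × G × G) :
    Ω → B.V :=
  tAct B Ω s.1 (W (s.2.1, s.2.2)) - W (s.1 * s.2.1, s.2.2) + W (s.1, s.2.1 * s.2.2)
    - W (s.1, s.2.1)

/-- the coboundary of a 3-cochain with values in `T(B)` -/
def tD3 (B : Rep.{0} k G) (Ω : Type) [MulAction G Ω] (o : G × G × G → Ω → B.V)
    (s : G × G × G × G) : Ω → B.V :=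
  tAct B Ω s.1 (o (s.2.1, s.2.2.1, s.2.2.2)) - o (s.1 * s.2.1, s.2.2.1, s.2.2.2)
    + o (s.1, s.2.1 * s.2.2.1, s.2.2.2) - o (s.1, s.2.1, s.2.2.1 * s.2.2.2)
    + o (s.1, s.2.1, s.2.2.1)

/-- `H³_lev(G, Fun(Ω, 𝔽_p)) = 0` (permutation action `(g c)(ω) = c(g⁻¹ ω)`). -/
def H3PermZero (𝒯 : Tower G) (p : ℕ) (Ω : Type) [MulAction G Ω] : Prop :=
  ∀ c : G × G × G → Ω → ZMod p, IsLevel₃ 𝒯 c →
    (∀ s, tD3 (Rep.trivial (ZMod p) G (ZMod p)) Ω c s = 0) →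
    ∃ y : G × G → Ω → ZMod p, IsLevel₂ 𝒯 y ∧
      ∀ s, c s = tD2 (Rep.trivial (ZMod p) G (ZMod p)) Ω y s

end Defs

/-- **A8b.** The function form of `StmtMu3`: for a subgroup `P` containing a normal level, of
index prime to `p` and with `χ(P) = 1`:  `H³_lev(G, Fun(G ⧸ P, 𝔽_p)) = 0`. -/
def StmtMu3Fun : Prop :=
  ∀ (p : ℕ) [Fact p.Prime] (G : Type) [Group G] (ι : Type) [Fintype ι] [Nonempty ι]
    (Gloc : ι → Type) [∀ v, Group (Gloc v)] (D : PTDatum p G ι Gloc), HasPDepthGlob D →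
    ∀ (P : Subgroup G), (∃ U ∈ D.𝒯.lev, U.Normal ∧ U ≤ P) → (∀ h ∈ P, D.χ h = 1) →
      ¬ p ∣ P.index → H3PermZero D.𝒯 p (G ⧸ P)

/-- **A8c.** The invariant functional: if every element of `P` acts on `B` with `p`-power order,
a nonzero `P`-stable subspace `F` of the finite-dimensional `B` has a linear functional `lam` of
`B` with `lam x₀ = 1` for some `x₀ ∈ F` and `lam (h x) = lam x` for `h ∈ P`, `x ∈ F`. -/
def StmtFixFun : Prop :=
  ∀ (p : ℕ) [Fact p.Prime] (G : Type) [Group G] (B : Rep.{0} (ZMod p) G)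
    [FiniteDimensional (ZMod p) B.V] (P : Subgroup G),
    (∀ h ∈ P, ∃ n : ℕ, B.ρ (h ^ (p ^ n)) = 1) →
    ∀ F : Submodule (ZMod p) B.V, (∀ h ∈ P, ∀ x ∈ F, B.ρ h x ∈ F) → F ≠ ⊥ →
      ∃ (lam : B.V →ₗ[ZMod p] ZMod p) (x₀ : B.V), x₀ ∈ F ∧ lam x₀ = 1 ∧
        ∀ h ∈ P, ∀ x ∈ F, lam (B.ρ h x) = lam x

/-- **A8a.** The flag induction and the assembly. -/
def StmtH2SurjAsm : Prop :=
  StmtMu3Fun → StmtFixFun → StmtH2Surj

end Fermat.Agent.TW.E

end
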