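/-
TW-E piece A8c (helper35): the invariant functional.

`stmtFixFun : StmtFixFun`: if every element of `P` acts on the finite-dimensional `𝔽_p`-module `B`
with `p`-power order, a nonzero `P`-stable subspace `F` of `B` carries a nonzero `P`-invariant
linear functional (which extends to `B`).

Proof.  `P` acts on the dual `W = Hom(F, 𝔽_p)` through a finite `p`-group `Q` (the image of `P` in
the permutations of `W`); `#W = p^(dim F)` is divisible by `p` and `0` is a fixed point, so there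
is another fixed point (`IsPGroup.exists_fixed_point_of_prime_dvd_card_of_fixed_point`).  Extend
it to `B` and normalise.
-/
import Fermat.Agent.TW.E.H2SurjPlan

set_option autoImplicit false

namespace Fermat.Agent.TW.E

open Module

section

variable {p : ℕ} {G : Type} [Group G] {V : Type} [AddCommGroup V] [Module (ZMod p) V]
  (ρ : G →* (V →ₗ[ZMod p] V)) (P : Subgroup G) (F : Submodule (ZMod p) V)
  (hF : ∀ h ∈ P, ∀ x ∈ F, ρ h x ∈ F)

/-- the action of `h ∈ P` on `F` -/
def a8cT (h : P) : F →ₗ[ZMod p] F :=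
  (ρ h).restrict (fun x hx => hF h h.2 x hx)

theorem a8cT_apply (h : P) (x : F) : ((a8cT ρ P F hF h x : F) : V) = ρ h x := rfl

theorem a8cT_mul (h h' : P) : a8cT ρ P F hF (h * h') = a8cT ρ P F hF h ∘ₗ a8cT ρ P F hF h' := by
  apply LinearMap.ext
  intro x
  apply Subtype.ext
  rw [LinearMap.comp_apply, a8cT_apply, a8cT_apply, a8cT_apply, Subgroup.coe_mul, map_mul]
  rfl

theorem a8cT_one : a8cT ρ P F hF 1 = LinearMap.id := by
  apply LinearMap.ext
  intro x
  apply Subtype.ext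
  rw [a8cT_apply, Subgroup.coe_one, map_one]
  rfl

/-- the permutation of the dual of `F` defined by `h ∈ P` -/
def a8cPerm (h : P) : Equiv.Perm (Dual (ZMod p) F) where
  toFun := fun l => l ∘ₗ a8cT ρ P F hF h⁻¹
  invFun := fun l => l ∘ₗ a8cT ρ P F hF h
  left_inv := by
    intro l
    show (l ∘ₗ a8cT ρ P F hF h⁻¹) ∘ₗ a8cT ρ P F hF h = l
    rw [LinearMap.comp_assoc, ← a8cT_mul, inv_mul_cancel, a8cT_one, LinearMap.comp_id]
  right_inv := by
    intro l
    show (l ∘ₗ a8cT ρ P F hF h) ∘ₗ a8cT ρ P F hF h⁻¹ = l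
    rw [LinearMap.comp_assoc, ← a8cT_mul, mul_inv_cancel, a8cT_one, LinearMap.comp_id]

theorem a8cPerm_apply (h : P) (l : Dual (ZMod p) F) :
    a8cPerm ρ P F hF h l = l ∘ₗ a8cT ρ P F hF h⁻¹ := rfl

/-- the action of `P` on the dual of `F`, as a homomorphism -/
def a8cHom : P →* Equiv.Perm (Dual (ZMod p) F) :=
  MonoidHom.mk' (a8cPerm ρ P F hF) (by
    intro h h'
    apply Equiv.ext
    intro l
    rw [Equiv.Perm.mul_apply, a8cPerm_apply, a8cPerm_apply, a8cPerm_apply, mul_inv_rev, a8cT_mul,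
      LinearMap.comp_assoc])

theorem a8cHom_apply (h : P) (l : Dual (ZMod p) F) :
    a8cHom ρ P F hF h l = l ∘ₗ a8cT ρ P F hF h⁻¹ := rfl

/-- an element acting trivially on `V` acts trivially on the dual of `F` -/
theorem a8cHom_eq_one (h : P) (h1 : ρ (h : G) = 1) : a8cHom ρ P F hF h = 1 := by
  apply Equiv.ext
  intro l
  rw [a8cHom_apply, Equiv.Perm.one_apply]
  have e : a8cT ρ P F hF h⁻¹ = LinearMap.id := by
    apply LinearMap.ext
    intro x
    apply Subtype.ext
    rw [a8cT_apply, Subgroup.coe_inv]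
    have h2 : ρ (h : G)⁻¹ = 1 := by
      have h3 : ρ (h : G)⁻¹ * ρ (h : G) = 1 := by rw [← map_mul, inv_mul_cancel, map_one]
      rwa [h1, mul_one] at h3
    rw [h2]
    rfl
  rw [e, LinearMap.comp_id]

end

/-- **A8c**. -/
theorem stmtFixFun : StmtFixFun := by
  intro p _ G _ B _ P hpow F hF hne
  have hp : p.Prime := Fact.out
  classical
  -- the finite `p`-group `Q`
  set φ : P →* Equiv.Perm (Dual (ZMod p) F) := a8cHom B.ρ P F hF with hφ
  set Q : Subgroup (Equiv.Perm (Dual (ZMod p) F)) := φ.range with hQ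
  have hQp : IsPGroup p Q := by
    rintro ⟨q, h, rfl⟩
    obtain ⟨n, hn⟩ := hpow h h.2
    refine ⟨n, ?_⟩
    apply Subtype.ext
    rw [Subgroup.coe_pow, Subgroup.coe_one]
    show φ h ^ p ^ n = 1
    rw [← map_pow]
    apply a8cHom_eq_one
    rw [Subgroup.coe_pow]
    exact hn
  -- the dual of `F` is finite, of order divisible by `p`
  have hfin : Finite (Dual (ZMod p) F) := Module.finite_of_finite (ZMod p)
  have hdvd : p ∣ Nat.card (Dual (ZMod p) F) := by
    rw [Module.natCard_eq_pow_finrank (K := ZMod p) (V := Dual (ZMod p) F), Nat.card_zmod,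
      Subspace.dual_finrank_eq]
    have hpos : 0 < finrank (ZMod p) F := by
      rw [Module.finrank_pos_iff, Submodule.nontrivial_iff_ne_bot]
      exact hne
    exact dvd_pow_self p hpos.ne'
  have h0 : (0 : Dual (ZMod p) F) ∈ MulAction.fixedPoints Q (Dual (ZMod p) F) := by
    rintro ⟨q, h, rfl⟩
    show φ h 0 = 0
    rw [hφ, a8cHom_apply, LinearMap.zero_comp]
  obtain ⟨l₀, hl₀, hl₀ne⟩ :=
    hQp.exists_fixed_point_of_prime_dvd_card_of_fixed_point (Dual (ZMod p) F) hdvd h0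
  -- invariance of `l₀`
  have hinv : ∀ h : P, ∀ x : F, l₀ (a8cT B.ρ P F hF h x) = l₀ x := by
    intro h x
    have h1 : φ h⁻¹ l₀ = l₀ := hl₀ ⟨φ h⁻¹, h⁻¹, rfl⟩
    rw [hφ, a8cHom_apply, inv_inv] at h1
    exact congrArg (fun l : Dual (ZMod p) F => l x) h1
  -- normalise and extend
  obtain ⟨x₁, hx₁⟩ : ∃ x₁ : F, l₀ x₁ ≠ 0 := by
    by_contra hcon
    push Not at hcon
    exact hl₀ne (LinearMap.ext fun x => (hcon x).symm ▸ rfl)
  obtain ⟨lam, hlam⟩ := LinearMap.exists_extend (p := F) l₀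
  have hlamF : ∀ x : F, lam (x : B.V) = l₀ x := fun x => by
    rw [← hlam]; rfl
  refine ⟨lam, ((l₀ x₁)⁻¹ • x₁ : F), Submodule.coe_mem _, ?_, ?_⟩
  · rw [hlamF, map_smul, smul_eq_mul, inv_mul_cancel₀ hx₁]
  · intro h hh x hx
    have := hinv ⟨h, hh⟩ ⟨x, hx⟩
    rw [← hlamF, ← hlamF] at this
    exact this

end Fermat.Agent.TW.E
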