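/-
Project TW (S56) — part TW-E, piece **A8a** (helper69): cochain calculus with values in
`T(B) = Fun(Ω, B)`.  Names `h2s_*`.  Plan: NOTES/TW-E-A8.md.
-/
import Fermat.Agent.TW.E.H2SurjPlan

set_option autoImplicit false
set_option linter.style.haveILetI false

noncomputable section

namespace Fermat.Agent.TW.E

open CategoryTheory groupCohomology Module Fermat.Agent.PT Fermat.Agent.PT.F Fermat.Agent.TW.F

section Calc

variable {k : Type} [CommRing k] {G : Type} [Group G] (B : Rep.{0} k G)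
  (Ω : Type) [MulAction G Ω]

@[simp] lemma h2s_tAct_apply (g : G) (φ : Ω → B.V) (ω : Ω) :
    tAct B Ω g φ ω = B.ρ g (φ (g⁻¹ • ω)) := rfl

lemma h2s_tAct_add (g : G) (φ ψ : Ω → B.V) :
    tAct B Ω g (φ + ψ) = tAct B Ω g φ + tAct B Ω g ψ := by
  funext ω
  simp

lemma h2s_tAct_sub (g : G) (φ ψ : Ω → B.V) :
    tAct B Ω g (φ - ψ) = tAct B Ω g φ - tAct B Ω g ψ := by
  funext ω
  simp

lemma h2s_tAct_zero (g : G) : tAct B Ω g (0 : Ω → B.V) = 0 := by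
  funext ω
  simp

lemma h2s_tAct_mul (g h : G) (φ : Ω → B.V) :
    tAct B Ω (g * h) φ = tAct B Ω g (tAct B Ω h φ) := by
  funext ω
  simp [mul_smul]

/-- `d ∘ d = 0` -/
theorem h2s_tD3_tD2 (W : G × G → Ω → B.V) (s : G × G × G × G) :
    tD3 B Ω (tD2 B Ω W) s = 0 := by
  obtain ⟨g, h, i, j⟩ := s
  simp only [tD3, tD2, h2s_tAct_add, h2s_tAct_sub, ← h2s_tAct_mul, mul_assoc]
  abel

lemma h2s_tAct_smul (g : G) (a : k) (φ : Ω → B.V) :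
    tAct B Ω g (a • φ) = a • tAct B Ω g φ := by
  funext ω
  simp

/-- the sum over `Ω` commutes with the action -/
theorem h2s_sum_tAct [Fintype Ω] (g : G) (φ : Ω → B.V) :
    ∑ ω, tAct B Ω g φ ω = B.ρ g (∑ ω, φ ω) := by
  simp only [h2s_tAct_apply]
  rw [map_sum]
  exact Equiv.sum_comp (MulAction.toPerm g⁻¹) (fun ω => B.ρ g (φ ω))

/-- the trace of a cocycle with values in `T(B)` is a cocycle of `B` -/
theorem h2s_trace_cocycle [Fintype Ω] (W : G × G → Ω → B.V) (hW : ∀ s, tD2 B Ω W s = 0) :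
    (fun s => ∑ ω, W s ω) ∈ cocycles₂ B := by
  rw [mem_cocycles₂_def]
  intro g h j
  have h1 : ∑ ω, tD2 B Ω W (g, h, j) ω = 0 := by
    rw [hW]
    simp
  simp only [tD2, Pi.add_apply, Pi.sub_apply, Finset.sum_add_distrib, Finset.sum_sub_distrib,
    h2s_sum_tAct] at h1
  exact h1

end Calc

section Level

variable {k : Type} [CommRing k] {G : Type} [Group G] (𝒯 : Tower G) (B : Rep.{0} k G)
  (Ω : Type) [MulAction G Ω]

lemma h2s_tAct_mul_right {U : Subgroup G} (hB : ∀ s ∈ U, B.ρ s = 1)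
    (hΩ : ∀ s ∈ U, ∀ ω : Ω, s • ω = ω) (g u : G) (hu : u ∈ U) (φ : Ω → B.V) :
    tAct B Ω (g * u) φ = tAct B Ω g φ := by
  funext ω
  simp only [h2s_tAct_apply, map_mul, mul_inv_rev, mul_smul, Module.End.mul_apply]
  rw [hB u hu, Module.End.one_apply, hΩ u⁻¹ (U.inv_mem hu)]

/-- a common normal level for `B`, `Ω` and a level cochain -/
lemma h2s_common_level (hB : ∃ U ∈ 𝒯.lev, ∀ s ∈ U, B.ρ s = 1) (hΩ : IsLevSet 𝒯 Ω)
    (U₁ : Subgroup G) (hU₁ : U₁ ∈ 𝒯.lev) :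
    ∃ V ∈ 𝒯.lev, V.Normal ∧ V ≤ U₁ ∧ (∀ s ∈ V, B.ρ s = 1) ∧ ∀ s ∈ V, ∀ ω : Ω, s • ω = ω := by
  obtain ⟨U₂, hU₂, h₂⟩ := hB
  obtain ⟨U₃, hU₃, h₃⟩ := hΩ
  obtain ⟨V, hV, hle, hn⟩ := 𝒯.exists_normal _
    (𝒯.inf_mem _ _ (𝒯.inf_mem _ _ hU₁ hU₂) hU₃)
  exact ⟨V, hV, hn, fun s hs => (hle hs).1.1, fun s hs => h₂ s (hle hs).1.2,
    fun s hs => h₃ s (hle hs).2⟩

theorem h2s_isLevel₃_tD2 (hB : ∃ U ∈ 𝒯.lev, ∀ s ∈ U, B.ρ s = 1) (hΩ : IsLevSet 𝒯 Ω)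
    (W : G × G → Ω → B.V) (hW : IsLevel₂ 𝒯 W) : IsLevel₃ 𝒯 (tD2 B Ω W) := by
  obtain ⟨U₁, hU₁, h₁⟩ := hW
  obtain ⟨V, hV, hn, hle, hVB, hVΩ⟩ := h2s_common_level 𝒯 B Ω hB hΩ U₁ hU₁
  refine ⟨V, hV, fun g h j s s' s'' hs hs' hs'' => ?_⟩
  have e1 : g * s * (h * s') = g * h * (h⁻¹ * s * h * s') := by group
  have e2 : h * s' * (j * s'') = h * j * (j⁻¹ * s' * j * s'') := by group
  have m1 : h⁻¹ * s * h * s' ∈ U₁ :=
    hle (V.mul_mem (by simpa using hn.conj_mem s hs h⁻¹) hs')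
  have m2 : j⁻¹ * s' * j * s'' ∈ U₁ :=
    hle (V.mul_mem (by simpa using hn.conj_mem s' hs' j⁻¹) hs'')
  simp only [tD2]
  rw [h2s_tAct_mul_right B Ω hVB hVΩ g s hs, h₁ h j s' s'' (hle hs') (hle hs''), e1,
    h₁ (g * h) j _ s'' m1 (hle hs''), e2, h₁ g (h * j) s _ (hle hs) m2,
    h₁ g h s s' (hle hs) (hle hs')]

end Level

end Fermat.Agent.TW.E

end
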