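/-
Project TW (S56) — part TW-E, piece **A8a** (helper69): the flag induction.
Names `h2s_*`.  Plan: NOTES/TW-E-A8.md.
-/
import Fermat.Agent.TW.E.H2SurjT

set_option autoImplicit false
set_option linter.style.haveILetI false

noncomputable section

namespace Fermat.Agent.TW.E

open CategoryTheory groupCohomology Module Fermat.Agent.PT Fermat.Agent.PT.F Fermat.Agent.TW.F

section Fil

variable {p : ℕ} [Fact p.Prime] {G : Type} [Group G] (B : Rep.{0} (ZMod p) G) (P : Subgroup G)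

/-- `𝓕(F) = {φ : G ⧸ P → B | g⁻¹ φ(gP) ∈ F for all g}` -/
def tFil (F : Submodule (ZMod p) B.V) (φ : G ⧸ P → B.V) : Prop :=
  ∀ g : G, B.ρ g⁻¹ (φ (g : G ⧸ P)) ∈ F

variable {B P}

lemma h2s_tFil_zero (F : Submodule (ZMod p) B.V) : tFil B P F 0 := by
  intro g
  simp

lemma h2s_tFil_add {F : Submodule (ZMod p) B.V} {φ ψ : G ⧸ P → B.V} (hφ : tFil B P F φ)
    (hψ : tFil B P F ψ) : tFil B P F (φ + ψ) := by
  intro g
  simp only [Pi.add_apply, map_add]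
  exact F.add_mem (hφ g) (hψ g)

lemma h2s_tFil_sub {F : Submodule (ZMod p) B.V} {φ ψ : G ⧸ P → B.V} (hφ : tFil B P F φ)
    (hψ : tFil B P F ψ) : tFil B P F (φ - ψ) := by
  intro g
  simp only [Pi.sub_apply, map_sub]
  exact F.sub_mem (hφ g) (hψ g)

lemma h2s_tFil_mono {F F' : Submodule (ZMod p) B.V} (h : F ≤ F') {φ : G ⧸ P → B.V}
    (hφ : tFil B P F φ) : tFil B P F' φ :=
  fun g => h (hφ g)

lemma h2s_tFil_bot {φ : G ⧸ P → B.V} (hφ : tFil B P ⊥ φ) : φ = 0 := by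
  funext ω
  obtain ⟨g, rfl⟩ := QuotientGroup.mk_surjective ω
  have h := hφ g
  rw [Submodule.mem_bot] at h
  have h2 : B.ρ g (B.ρ g⁻¹ (φ (g : G ⧸ P))) = φ (g : G ⧸ P) := by
    rw [← Module.End.mul_apply, ← map_mul, mul_inv_cancel, map_one, Module.End.one_apply]
  rw [← h2, h, map_zero]
  rfl

lemma h2s_tFil_tAct {F : Submodule (ZMod p) B.V} {φ : G ⧸ P → B.V} (hφ : tFil B P F φ)
    (k : G) : tFil B P F (tAct B (G ⧸ P) k φ) := by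
  intro g
  have h := hφ (k⁻¹ * g)
  simp only [h2s_tAct_apply, MulAction.Quotient.smul_mk, smul_eq_mul]
  rw [← Module.End.mul_apply, ← map_mul]
  simpa [mul_inv_rev] using h

lemma h2s_tFil_tD2 {F : Submodule (ZMod p) B.V} {W : G × G → G ⧸ P → B.V}
    (hW : ∀ s, tFil B P F (W s)) (s : G × G × G) : tFil B P F (tD2 B (G ⧸ P) W s) :=
  h2s_tFil_sub (h2s_tFil_add (h2s_tFil_sub (h2s_tFil_tAct (hW _) _) (hW _)) (hW _)) (hW _)

/-- `κ(φ)(ω) = lam((out ω)⁻¹ φ(ω))` -/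
def tKap (B : Rep.{0} (ZMod p) G) (P : Subgroup G) (lam : B.V →ₗ[ZMod p] ZMod p)
    (φ : G ⧸ P → B.V) : G ⧸ P → ZMod p :=
  fun ω => lam (B.ρ (Quotient.out ω)⁻¹ (φ ω))

/-- `σ(c)(ω) = (out ω)(c(ω) x₀)` -/
def tSec (B : Rep.{0} (ZMod p) G) (P : Subgroup G) (x₀ : B.V) (c : G ⧸ P → ZMod p) :
    G ⧸ P → B.V :=
  fun ω => B.ρ (Quotient.out ω) (c ω • x₀)

lemma h2s_tKap_add (lam : B.V →ₗ[ZMod p] ZMod p) (φ ψ : G ⧸ P → B.V) :
    tKap B P lam (φ + ψ) = tKap B P lam φ + tKap B P lam ψ := by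
  funext ω
  simp [tKap]

lemma h2s_tKap_sub (lam : B.V →ₗ[ZMod p] ZMod p) (φ ψ : G ⧸ P → B.V) :
    tKap B P lam (φ - ψ) = tKap B P lam φ - tKap B P lam ψ := by
  funext ω
  simp [tKap]

/-- on `𝓕(F)`, `κ` can be computed with any representative -/
lemma h2s_tKap_mk {F : Submodule (ZMod p) B.V} {lam : B.V →ₗ[ZMod p] ZMod p}
    (hlam : ∀ h ∈ P, ∀ x ∈ F, lam (B.ρ h x) = lam x) {φ : G ⧸ P → B.V} (hφ : tFil B P F φ)
    (g : G) : tKap B P lam φ (g : G ⧸ P) = lam (B.ρ g⁻¹ (φ (g : G ⧸ P))) := by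
  obtain ⟨h, hh⟩ := QuotientGroup.mk_out_eq_mul P g
  simp only [tKap]
  rw [hh, mul_inv_rev, map_mul, Module.End.mul_apply]
  exact hlam _ (P.inv_mem h.2) _ (hφ g)

/-- `κ` is equivariant on `𝓕(F)` -/
lemma h2s_tKap_tAct {F : Submodule (ZMod p) B.V} {lam : B.V →ₗ[ZMod p] ZMod p}
    (hlam : ∀ h ∈ P, ∀ x ∈ F, lam (B.ρ h x) = lam x) {φ : G ⧸ P → B.V} (hφ : tFil B P F φ)
    (k : G) :
    tKap B P lam (tAct B (G ⧸ P) k φ) =
      tAct (Rep.trivial (ZMod p) G (ZMod p)) (G ⧸ P) k (tKap B P lam φ) := by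
  funext ω
  obtain ⟨g, rfl⟩ := QuotientGroup.mk_surjective ω
  rw [h2s_tKap_mk hlam (h2s_tFil_tAct hφ k) g]
  simp only [h2s_tAct_apply, MulAction.Quotient.smul_mk, smul_eq_mul]
  rw [h2s_tKap_mk hlam hφ (k⁻¹ * g)]
  simp only [mul_inv_rev, inv_inv, map_mul, Module.End.mul_apply]
  rfl

lemma h2s_tKap_tD2 {F : Submodule (ZMod p) B.V} {lam : B.V →ₗ[ZMod p] ZMod p}
    (hlam : ∀ h ∈ P, ∀ x ∈ F, lam (B.ρ h x) = lam x) {W : G × G → G ⧸ P → B.V}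
    (hW : ∀ s, tFil B P F (W s)) (s : G × G × G) :
    tKap B P lam (tD2 B (G ⧸ P) W s) =
      tD2 (Rep.trivial (ZMod p) G (ZMod p)) (G ⧸ P) (fun s => tKap B P lam (W s)) s := by
  simp only [tD2, h2s_tKap_add, h2s_tKap_sub, h2s_tKap_tAct hlam (hW _)]

lemma h2s_tKap_tD3 {F : Submodule (ZMod p) B.V} {lam : B.V →ₗ[ZMod p] ZMod p}
    (hlam : ∀ h ∈ P, ∀ x ∈ F, lam (B.ρ h x) = lam x) {o : G × G × G → G ⧸ P → B.V}
    (ho : ∀ s, tFil B P F (o s)) (s : G × G × G × G) :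
    tKap B P lam (tD3 B (G ⧸ P) o s) =
      tD3 (Rep.trivial (ZMod p) G (ZMod p)) (G ⧸ P) (fun s => tKap B P lam (o s)) s := by
  simp only [tD3, h2s_tKap_add, h2s_tKap_sub, h2s_tKap_tAct hlam (ho _)]

lemma h2s_tFil_tSec {F : Submodule (ZMod p) B.V} (hF : ∀ h ∈ P, ∀ x ∈ F, B.ρ h x ∈ F)
    {x₀ : B.V} (hx₀ : x₀ ∈ F) (c : G ⧸ P → ZMod p) : tFil B P F (tSec B P x₀ c) := by
  intro g
  obtain ⟨h, hh⟩ := QuotientGroup.mk_out_eq_mul P g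
  simp only [tSec]
  rw [hh, ← Module.End.mul_apply, ← map_mul, inv_mul_cancel_left]
  exact hF _ h.2 _ (F.smul_mem _ hx₀)

lemma h2s_tKap_tSec {lam : B.V →ₗ[ZMod p] ZMod p} {x₀ : B.V} (h1 : lam x₀ = 1)
    (c : G ⧸ P → ZMod p) : tKap B P lam (tSec B P x₀ c) = c := by
  funext ω
  simp only [tKap, tSec]
  rw [← Module.End.mul_apply, ← map_mul, inv_mul_cancel, map_one, Module.End.one_apply,
    map_smul, h1, smul_eq_mul, mul_one]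

/-- the kernel of `κ` on `𝓕(F)` is `𝓕(F ⊓ ker lam)` -/
lemma h2s_tFil_of_tKap_eq_zero {F : Submodule (ZMod p) B.V} {lam : B.V →ₗ[ZMod p] ZMod p}
    (hlam : ∀ h ∈ P, ∀ x ∈ F, lam (B.ρ h x) = lam x) {φ : G ⧸ P → B.V} (hφ : tFil B P F φ)
    (h0 : tKap B P lam φ = 0) : tFil B P (F ⊓ LinearMap.ker lam) φ := by
  intro g
  refine ⟨hφ g, ?_⟩
  rw [SetLike.mem_coe, LinearMap.mem_ker, ← h2s_tKap_mk hlam hφ g, h0]
  rfl

lemma h2s_tKap_zero (lam : B.V →ₗ[ZMod p] ZMod p) : tKap B P lam 0 = 0 := by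
  funext ω
  simp [tKap]

end Fil

section Ind

variable {p : ℕ} [Fact p.Prime] {G : Type} [Group G] (𝒯 : Tower G)

lemma h2s_isLevel₃_comp {X Y : Type*} {f : G × G × G → X} (hf : IsLevel₃ 𝒯 f) (φ : X → Y) :
    IsLevel₃ 𝒯 (fun s => φ (f s)) := by
  obtain ⟨U, hU, h⟩ := hf
  exact ⟨U, hU, fun g g' g'' s s' s'' hs hs' hs'' => by
    simp only [h g g' g'' s s' s'' hs hs' hs'']⟩

lemma h2s_isLevel₂_sub {X : Type*} [Sub X] {f f' : G × G → X} (hf : IsLevel₂ 𝒯 f)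
    (hf' : IsLevel₂ 𝒯 f') : IsLevel₂ 𝒯 (f - f') := by
  obtain ⟨U, hU, h⟩ := hf
  obtain ⟨U', hU', h'⟩ := hf'
  refine ⟨U ⊓ U', 𝒯.inf_mem U U' hU hU', fun g g' s s' hs hs' => ?_⟩
  simp only [Pi.sub_apply]
  rw [h g g' s s' hs.1 hs'.1, h' g g' s s' hs.2 hs'.2]

lemma h2s_tD2_sub {k : Type} [CommRing k] (B : Rep.{0} k G) (Ω : Type) [MulAction G Ω]
    (W W' : G × G → Ω → B.V) (s : G × G × G) :
    tD2 B Ω (W - W') s = tD2 B Ω W s - tD2 B Ω W' s := by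
  simp only [tD2, Pi.sub_apply, h2s_tAct_sub]
  abel

variable (B : Rep.{0} (ZMod p) G) (P : Subgroup G)

/-- **The flag induction.** -/
theorem h2s_flag (hMu : H3PermZero 𝒯 p (G ⧸ P))
    (hfix : ∀ F : Submodule (ZMod p) B.V, (∀ h ∈ P, ∀ x ∈ F, B.ρ h x ∈ F) → F ≠ ⊥ →
      ∃ (lam : B.V →ₗ[ZMod p] ZMod p) (x₀ : B.V), x₀ ∈ F ∧ lam x₀ = 1 ∧
        ∀ h ∈ P, ∀ x ∈ F, lam (B.ρ h x) = lam x)
    [FiniteDimensional (ZMod p) B.V]
    (hB : ∃ U ∈ 𝒯.lev, ∀ s ∈ U, B.ρ s = 1) (hΩ : IsLevSet 𝒯 (G ⧸ P)) :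
    ∀ (n : ℕ) (F : Submodule (ZMod p) B.V), finrank (ZMod p) F ≤ n →
      (∀ h ∈ P, ∀ x ∈ F, B.ρ h x ∈ F) →
      ∀ W : G × G → G ⧸ P → B.V, IsLevel₂ 𝒯 W → (∀ s, tFil B P F (tD2 B (G ⧸ P) W s)) →
      ∃ Y : G × G → G ⧸ P → B.V, IsLevel₂ 𝒯 Y ∧ (∀ s, tFil B P F (Y s)) ∧
        ∀ s, tD2 B (G ⧸ P) (W - Y) s = 0 := by
  have hbot : ∀ (F : Submodule (ZMod p) B.V), F = ⊥ →
      ∀ W : G × G → G ⧸ P → B.V, IsLevel₂ 𝒯 W → (∀ s, tFil B P F (tD2 B (G ⧸ P) W s)) →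
      ∃ Y : G × G → G ⧸ P → B.V, IsLevel₂ 𝒯 Y ∧ (∀ s, tFil B P F (Y s)) ∧
        ∀ s, tD2 B (G ⧸ P) (W - Y) s = 0 := by
    intro F hF W _ hWF
    subst hF
    refine ⟨0, isLevel₂_const 𝒯 _, fun s => h2s_tFil_zero _, fun s => ?_⟩
    rw [sub_zero]
    exact h2s_tFil_bot (hWF s)
  intro n
  induction n with
  | zero =>
    intro F hn hF W hW hWF
    exact hbot F ((Submodule.finrank_eq_zero).1 (Nat.le_zero.1 hn)) W hW hWF
  | succ n ih =>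
    intro F hn hF W hW hWF
    by_cases hF0 : F = ⊥
    · exact hbot F hF0 W hW hWF
    obtain ⟨lam, x₀, hx₀, hlam1, hlam⟩ := hfix F hF hF0
    -- the obstruction
    have hc3 : IsLevel₃ 𝒯 (fun s => tKap B P lam (tD2 B (G ⧸ P) W s)) :=
      h2s_isLevel₃_comp 𝒯 (h2s_isLevel₃_tD2 𝒯 B (G ⧸ P) hB hΩ W hW) _
    have hcd : ∀ s, tD3 (Rep.trivial (ZMod p) G (ZMod p)) (G ⧸ P)
        (fun s => tKap B P lam (tD2 B (G ⧸ P) W s)) s = 0 := by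
      intro s
      rw [← h2s_tKap_tD3 hlam hWF s, h2s_tD3_tD2, h2s_tKap_zero]
    obtain ⟨y, hy, hyc⟩ := hMu _ hc3 hcd
    -- the correction
    have hy' : IsLevel₂ 𝒯 (fun s => tSec B P x₀ (y s)) := hy.comp (tSec B P x₀)
    have hy'F : ∀ s, tFil B P F (tSec B P x₀ (y s)) := fun s => h2s_tFil_tSec hF hx₀ _
    have hW' : IsLevel₂ 𝒯 (W - fun s => tSec B P x₀ (y s)) := h2s_isLevel₂_sub 𝒯 hW hy'
    have hW'F : ∀ s, tFil B P F (tD2 B (G ⧸ P) (W - fun s => tSec B P x₀ (y s)) s) := by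
      intro s
      rw [h2s_tD2_sub]
      exact h2s_tFil_sub (hWF s) (h2s_tFil_tD2 hy'F s)
    have hW'K : ∀ s, tKap B P lam (tD2 B (G ⧸ P) (W - fun s => tSec B P x₀ (y s)) s) = 0 := by
      intro s
      rw [h2s_tD2_sub, h2s_tKap_sub, hyc s, h2s_tKap_tD2 hlam hy'F s]
      simp only [h2s_tKap_tSec hlam1, sub_self]
    have hW'F' : ∀ s, tFil B P (F ⊓ LinearMap.ker lam)
        (tD2 B (G ⧸ P) (W - fun s => tSec B P x₀ (y s)) s) :=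
      fun s => h2s_tFil_of_tKap_eq_zero hlam (hW'F s) (hW'K s)
    have hF' : ∀ h ∈ P, ∀ x ∈ F ⊓ LinearMap.ker lam, B.ρ h x ∈ F ⊓ LinearMap.ker lam := by
      intro h hh x hx
      refine ⟨hF h hh x hx.1, ?_⟩
      rw [SetLike.mem_coe, LinearMap.mem_ker, hlam h hh x hx.1]
      exact hx.2
    have hlt : F ⊓ LinearMap.ker lam < F := by
      refine lt_of_le_of_ne inf_le_left fun h => ?_
      have h1 : x₀ ∈ F ⊓ LinearMap.ker lam := by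
        rw [h]
        exact hx₀
      have h2 : lam x₀ = 0 := h1.2
      rw [hlam1] at h2
      exact one_ne_zero h2
    have hn' : finrank (ZMod p) ↥(F ⊓ LinearMap.ker lam) ≤ n := by
      have := Submodule.finrank_lt_finrank_of_lt hlt
      omega
    obtain ⟨Y', hY', hY'F, hY'd⟩ := ih _ hn' hF' _ hW' hW'F'
    refine ⟨(fun s => tSec B P x₀ (y s)) + Y', hy'.add hY',
      fun s => h2s_tFil_add (hy'F s) (h2s_tFil_mono inf_le_left (hY'F s)), fun s => ?_⟩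
    have e : W - ((fun s => tSec B P x₀ (y s)) + Y') =
        (W - fun s => tSec B P x₀ (y s)) - Y' := by abel
    rw [e]
    exact hY'd s

end Ind

end Fermat.Agent.TW.E

end
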