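/-
Project TW (S56) — part TW-E, piece **A8a** (helper69): the assembly
`StmtMu3Fun → StmtFixFun → StmtH2Surj`.  Names `h2s_*`.  Plan: NOTES/TW-E-A8.md.
-/
import Fermat.Agent.TW.E.H2SurjFlag

set_option autoImplicit false
set_option linter.style.haveILetI false

noncomputable section

namespace Fermat.Agent.TW.E

open CategoryTheory groupCohomology Module Fermat.Agent.PT Fermat.Agent.PT.F Fermat.Agent.TW.F

/-- a unit of `𝔽_p` of `p`-power order is `1` -/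
lemma h2s_unit_eq_one {p : ℕ} [Fact p.Prime] (u : (ZMod p)ˣ) (n : ℕ) (h : u ^ (p ^ n) = 1) :
    u = 1 := by
  have h1 : u ^ (p - 1) = 1 := ZMod.units_pow_card_sub_one_eq_one p u
  have hcop : Nat.Coprime (p ^ n) (p - 1) := by
    apply Nat.Coprime.pow_left
    have h2 : 1 ≤ p := (Fact.out : p.Prime).one_lt.le
    have h3 : Nat.Coprime (p - 1 + 1) (p - 1) := by simp
    rwa [Nat.sub_add_cancel h2] at h3
  have h3 : u ^ Nat.gcd (p ^ n) (p - 1) = 1 := pow_gcd_eq_one.2 ⟨h, h1⟩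
  rw [Nat.Coprime.gcd_eq_one hcop, pow_one] at h3
  exact h3

section Sylow

variable {p : ℕ} [Fact p.Prime] {G : Type} [Group G]

/-- the preimage `P` of a Sylow `p`-subgroup of `G ⧸ U` -/
lemma h2s_exists_P (U : Subgroup G) [U.Normal] [U.FiniteIndex] :
    ∃ P : Subgroup G, U ≤ P ∧ (∀ h ∈ P, ∃ n : ℕ, h ^ (p ^ n) ∈ U) ∧ ¬ p ∣ P.index := by
  haveI : Finite (G ⧸ U) := inferInstance
  obtain ⟨Pb⟩ : Nonempty (Sylow p (G ⧸ U)) := inferInstance
  refine ⟨(Pb : Subgroup (G ⧸ U)).comap (QuotientGroup.mk' U), ?_, ?_, ?_⟩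
  · intro s hs
    rw [Subgroup.mem_comap, QuotientGroup.mk'_apply, (QuotientGroup.eq_one_iff s).2 hs]
    exact Subgroup.one_mem _
  · intro h hh
    obtain ⟨n, hn⟩ := Pb.isPGroup' ⟨QuotientGroup.mk' U h, hh⟩
    refine ⟨n, ?_⟩
    have h1 := congrArg Subtype.val hn
    simp only [SubmonoidClass.coe_pow, OneMemClass.coe_one] at h1
    rw [← map_pow, QuotientGroup.mk'_apply, QuotientGroup.eq_one_iff] at h1
    exact h1
  · rw [Subgroup.index_comap_of_surjective _ (QuotientGroup.mk'_surjective U)]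
    haveI : (Pb : Subgroup (G ⧸ U)).FiniteIndex := inferInstance
    exact Pb.not_dvd_index

lemma h2s_isLevSet (𝒯 : Tower G) (U P : Subgroup G) [U.Normal] (hU : U ∈ 𝒯.lev) (hUP : U ≤ P) :
    IsLevSet 𝒯 (G ⧸ P) := by
  refine ⟨U, hU, fun s hs ω => ?_⟩
  obtain ⟨g, rfl⟩ := QuotientGroup.mk_surjective ω
  rw [MulAction.Quotient.smul_mk, smul_eq_mul, QuotientGroup.eq]
  apply hUP
  have h := (inferInstance : U.Normal).conj_mem s⁻¹ (U.inv_mem hs) g⁻¹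
  simpa [mul_assoc] using h

end Sylow

/-- **A8a.** The assembly. -/
theorem stmtH2SurjAsm : StmtH2SurjAsm := by
  intro hMu hFix p _ G _ ι _ _ Gloc _ D hpd B B₂ _ _ f hf ht w₂ hw₂
  obtain ⟨U₁, hU₁, hB₁⟩ := ht
  obtain ⟨U₂, hU₂, hχ₂⟩ := D.χ_level
  obtain ⟨U, hU, hle, hn⟩ := D.𝒯.exists_normal _ (D.𝒯.inf_mem _ _ hU₁ hU₂)
  haveI := hn
  haveI : U.FiniteIndex := D.𝒯.finiteIndex U hU
  obtain ⟨P, hUP, hPp, hPidx⟩ := h2s_exists_P (p := p) U
  have hBU : ∀ s ∈ U, B.ρ s = 1 := fun s hs => hB₁ s (hle hs).1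
  have hχP : ∀ h ∈ P, D.χ h = 1 := by
    intro h hh
    obtain ⟨n, hn⟩ := hPp h hh
    apply h2s_unit_eq_one _ n
    rw [← map_pow]
    exact hχ₂ _ (hle hn).2
  have hΩ : IsLevSet D.𝒯 (G ⧸ P) := h2s_isLevSet D.𝒯 U P hU hUP
  have hMu' := hMu p G ι Gloc D hpd P ⟨U, hU, hn, hUP⟩ hχP hPidx
  have hBP : ∀ h ∈ P, ∃ n : ℕ, B.ρ (h ^ (p ^ n)) = 1 := by
    intro h hh
    obtain ⟨n, hn⟩ := hPp h hh
    exact ⟨n, hBU _ hn⟩
  have hFix' := hFix p G B P hBP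
  haveI : P.FiniteIndex := Subgroup.finiteIndex_of_le hUP
  haveI : Fintype (G ⧸ P) := Fintype.ofFinite _
  -- the kernel
  let K : Submodule (ZMod p) B.V := LinearMap.ker f.hom.toLinearMap
  have hK : ∀ x : B.V, x ∈ K ↔ f.hom x = 0 := fun x => LinearMap.mem_ker
  have hKG : ∀ (g : G) (x : B.V), x ∈ K → B.ρ g x ∈ K := by
    intro g x hx
    rw [hK] at hx ⊢
    rw [Rep.hom_comm_apply, hx, map_zero]
  -- the first lift
  let sec : B₂.V → B.V := Function.surjInv hf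
  have hsec : ∀ y, f.hom (sec y) = y := Function.surjInv_eq hf
  let W₀ : G × G → G ⧸ P → B.V := fun gh _ => sec (w₂ gh)
  have hW₀ : IsLevel₂ D.𝒯 W₀ := hw₂.2.comp (fun y _ => sec y)
  have hcoc := (mem_cocycles₂_def w₂).1 hw₂.1
  have hW₀K : ∀ s, tFil B P K (tD2 B (G ⧸ P) W₀ s) := by
    rintro ⟨a, b, c⟩ g
    apply hKG
    rw [hK]
    simp only [tD2, Pi.add_apply, Pi.sub_apply, h2s_tAct_apply, W₀, map_add, map_sub,
      Rep.hom_comm_apply, hsec]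
    exact hcoc a b c
  obtain ⟨Y, hY, hYK, hd⟩ := h2s_flag D.𝒯 B P hMu' hFix' ⟨U, hU, hBU⟩ hΩ _ K le_rfl
    (fun h _ x hx => hKG h x hx) W₀ hW₀ hW₀K
  have hYf : ∀ s ω, f.hom (Y s ω) = 0 := by
    intro s ω
    obtain ⟨g, rfl⟩ := QuotientGroup.mk_surjective ω
    have h1 := hKG g _ (hYK s g)
    rw [← Module.End.mul_apply, ← map_mul, mul_inv_cancel, map_one, Module.End.one_apply] at h1
    exact (hK _).1 h1
  -- the trace
  have hcard : ((Fintype.card (G ⧸ P) : ℕ) : ZMod p) ≠ 0 := by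
    rw [Ne, ZMod.natCast_eq_zero_iff, ← Nat.card_eq_fintype_card]
    exact hPidx
  refine ⟨fun s => ((Fintype.card (G ⧸ P) : ℕ) : ZMod p)⁻¹ • ∑ ω, (W₀ - Y) s ω, ⟨?_, ?_⟩, ?_⟩
  · exact (cocycles₂ B).smul_mem _ (h2s_trace_cocycle B (G ⧸ P) (W₀ - Y) hd)
  · exact ((h2s_isLevel₂_sub D.𝒯 hW₀ hY).comp
      (fun φ => ((Fintype.card (G ⧸ P) : ℕ) : ZMod p)⁻¹ • ∑ ω, φ ω) :)
  · have h0 : (fun s => f.hom (((Fintype.card (G ⧸ P) : ℕ) : ZMod p)⁻¹ • ∑ ω, (W₀ - Y) s ω))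
        - w₂ = 0 := by
      funext s
      simp only [Pi.sub_apply, Pi.zero_apply, map_smul, map_sum, map_sub, W₀, hsec, hYf,
        sub_zero, Finset.sum_const, Finset.card_univ]
      rw [← Nat.cast_smul_eq_nsmul (ZMod p), smul_smul, inv_mul_cancel₀ hcard, one_smul,
        sub_self]
    rw [h0]
    exact Submodule.zero_mem _

end Fermat.Agent.TW.E

end
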