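/-
Project TW (S56) — part TW-E, piece **A8b** (helper69): `StmtMu3 → StmtMu3Fun`, the function form
of `H³_lev(G, Hom_ℤ(ℤ[Ω], μ_p)) = 0`.  Names `h2m_*`.  Plan: NOTES/TW-E-A8.md.
-/
import Fermat.Agent.TW.E.H2Surj
import Fermat.Agent.TW.E.ChaseLift

set_option autoImplicit false
set_option linter.style.haveILetI false
set_option linter.unusedSectionVars false

noncomputable section

namespace Fermat.Agent.TW.E

open CategoryTheory groupCohomology Module Fermat.Agent.PT Fermat.Agent.PT.F Fermat.Agent.TW.F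

attribute [local instance 1100] Rep.hV2

section Theta

variable {p : ℕ} [Fact p.Prime] {G : Type} [Group G] {ι : Type} {Gloc : ι → Type}
  [∀ v, Group (Gloc v)] (D : PTDatum p G ι Gloc)

/-- `θ : 𝔽_p → E`, `a ↦ a • ζ` -/
def h2mTheta : ZMod p →+ D.E.V :=
  ZMod.lift p ⟨zmultiplesHom D.E.V D.ζ, by
    rw [zmultiplesHom_apply, natCast_zsmul]
    exact D.ζ_tors⟩

lemma h2m_theta_natCast (n : ℕ) : h2mTheta D (n : ZMod p) = n • D.ζ := by
  have h := ZMod.lift_coe p (⟨zmultiplesHom D.E.V D.ζ, by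
    rw [zmultiplesHom_apply, natCast_zsmul]
    exact D.ζ_tors⟩ : {f : ℤ →+ D.E.V // f p = 0}) (n : ℤ)
  rw [Int.cast_natCast] at h
  rw [h2mTheta, h, zmultiplesHom_apply, natCast_zsmul]

lemma h2m_theta_val (a : ZMod p) : h2mTheta D a = a.val • D.ζ := by
  conv_lhs => rw [← ZMod.natCast_zmod_val a]
  exact h2m_theta_natCast D a.val

lemma h2m_theta_injective : Function.Injective (h2mTheta D) := by
  rw [injective_iff_map_eq_zero]
  intro a ha
  rw [h2m_theta_val] at ha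
  have h1 : addOrderOf D.ζ ∣ p := addOrderOf_dvd_of_nsmul_eq_zero D.ζ_tors
  have h2 : addOrderOf D.ζ = p := by
    rcases (Nat.dvd_prime (Fact.out : p.Prime)).1 h1 with h | h
    · exact absurd (AddMonoid.addOrderOf_eq_one_iff.1 h) D.ζ_ne
    · exact h
  have h3 : p ∣ a.val := by
    have := addOrderOf_dvd_of_nsmul_eq_zero ha
    rwa [h2] at this
  have h4 : a.val = 0 := Nat.eq_zero_of_dvd_of_lt h3 (ZMod.val_lt a)
  exact (ZMod.val_eq_zero a).1 h4

lemma h2m_theta_surj (e : D.E.V) (he : p • e = 0) : ∃ a : ZMod p, h2mTheta D a = e := by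
  obtain ⟨n, rfl⟩ := D.ζ_gen e he
  exact ⟨(n : ZMod p), h2m_theta_natCast D n⟩

lemma h2m_theta_ρ (g : G) (a : ZMod p) :
    D.E.ρ g (h2mTheta D a) = h2mTheta D ((D.χ g : ZMod p) * a) := by
  rw [h2m_theta_val, map_nsmul, D.ζ_char, ← mul_nsmul']
  conv_rhs => rw [← ZMod.natCast_zmod_val a, ← ZMod.natCast_zmod_val (D.χ g : ZMod p),
    ← Nat.cast_mul]
  rw [h2m_theta_natCast, mul_comm]

lemma h2m_p_theta (a : ZMod p) : p • h2mTheta D a = 0 := by
  rw [← map_nsmul, ← Nat.cast_smul_eq_nsmul (ZMod p), ZMod.natCast_self, zero_smul, map_zero]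

end Theta

section Phi

variable {p : ℕ} [Fact p.Prime] {G : Type} [Group G] {ι : Type} {Gloc : ι → Type}
  [∀ v, Group (Gloc v)] (D : PTDatum p G ι Gloc) (P : Subgroup G)

/-- `u_ω = χ(out ω)` -/
def h2mU (ω : G ⧸ P) : (ZMod p)ˣ := D.χ (Quotient.out ω)

lemma h2m_U_smul (hχ : ∀ h ∈ P, D.χ h = 1) (k : G) (ω : G ⧸ P) :
    h2mU D P (k • ω) = D.χ k * h2mU D P ω := by
  have h1 : ((k * Quotient.out ω : G) : G ⧸ P) = k • ω := by
    conv_rhs => rw [← QuotientGroup.out_eq' ω]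
    rfl
  obtain ⟨h, hh⟩ := QuotientGroup.mk_out_eq_mul P (k * Quotient.out ω)
  rw [h1] at hh
  simp only [h2mU]
  rw [hh, map_mul, map_mul, hχ h h.2, mul_one]

/-- `Φ : Fun(Ω, 𝔽_p) → Hom_ℤ(ℤ[Ω], E)`, `Φ(c)(δ_ω) = θ(c(ω) u_ω)` -/
def h2mPhi (c : G ⧸ P → ZMod p) : (permZ G (G ⧸ P)).V →+ D.E.V :=
  chl_lift (G ⧸ P) (fun ω => h2mTheta D (c ω * (h2mU D P ω : ZMod p)))

lemma h2m_phi_single (c : G ⧸ P → ZMod p) (ω : G ⧸ P) :
    h2mPhi D P c (MonoidAlgebra.single ω 1) = h2mTheta D (c ω * (h2mU D P ω : ZMod p)) := by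
  rw [h2mPhi, chl_lift_single, one_smul]

lemma h2m_phi_add (c c' : G ⧸ P → ZMod p) :
    h2mPhi D P (c + c') = h2mPhi D P c + h2mPhi D P c' := by
  apply chl_ext
  intro ω
  rw [AddMonoidHom.add_apply, h2m_phi_single, h2m_phi_single, h2m_phi_single, Pi.add_apply,
    add_mul, map_add]

lemma h2m_phi_sub (c c' : G ⧸ P → ZMod p) :
    h2mPhi D P (c - c') = h2mPhi D P c - h2mPhi D P c' := by
  apply chl_ext
  intro ω
  rw [AddMonoidHom.sub_apply, h2m_phi_single, h2m_phi_single, h2m_phi_single, Pi.sub_apply,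
    sub_mul, map_sub]

lemma h2m_phi_zero : h2mPhi D P 0 = 0 := by
  apply chl_ext
  intro ω
  rw [h2m_phi_single, Pi.zero_apply, zero_mul, map_zero, AddMonoidHom.zero_apply]

lemma h2m_phi_injective : Function.Injective (h2mPhi D P) := by
  intro c c' h
  funext ω
  have h1 : h2mPhi D P c (MonoidAlgebra.single ω 1) = h2mPhi D P c' (MonoidAlgebra.single ω 1) := by
    rw [h]
  rw [h2m_phi_single, h2m_phi_single] at h1
  have h2 := h2m_theta_injective D h1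
  exact (Units.mul_left_inj (h2mU D P ω)).1 h2

lemma h2m_p_phi (c : G ⧸ P → ZMod p) : p • h2mPhi D P c = 0 := by
  apply chl_ext
  intro ω
  rw [AddMonoidHom.nsmul_apply, h2m_phi_single, h2m_p_theta, AddMonoidHom.zero_apply]

lemma h2m_phi_surj (h : (permZ G (G ⧸ P)).V →+ D.E.V) (hp : p • h = 0) :
    ∃ c : G ⧸ P → ZMod p, h2mPhi D P c = h := by
  have h1 : ∀ ω : G ⧸ P, ∃ a : ZMod p, h2mTheta D a = h (MonoidAlgebra.single ω 1) := by
    intro ω
    apply h2m_theta_surj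
    rw [← AddMonoidHom.nsmul_apply, hp, AddMonoidHom.zero_apply]
  choose a ha using h1
  refine ⟨fun ω => a ω * ((h2mU D P ω)⁻¹ : (ZMod p)ˣ), ?_⟩
  apply chl_ext
  intro ω
  rw [h2m_phi_single, mul_assoc, Units.inv_mul, mul_one, ha]

lemma h2m_phi_conj (hχ : ∀ h ∈ P, D.χ h = 1) (k : G) (c : G ⧸ P → ZMod p) :
    conjAdd (permZ G (G ⧸ P)) D.E k (h2mPhi D P c) =
      h2mPhi D P (tAct (Rep.trivial (ZMod p) G (ZMod p)) (G ⧸ P) k c) := by
  apply chl_ext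
  intro ω
  rw [conjAdd_apply, chl_ρ_single, h2m_phi_single, h2m_phi_single, h2m_theta_ρ]
  congr 1
  have h1 : h2mU D P ω = D.χ k * h2mU D P (k⁻¹ • ω) := by
    rw [← h2m_U_smul D P hχ, smul_inv_smul]
  rw [h1, Units.val_mul]
  show _ = c (k⁻¹ • ω) * _
  ring

lemma h2m_phi_tD2 (hχ : ∀ h ∈ P, D.χ h = 1) (y : G × G → G ⧸ P → ZMod p) (s : G × G × G) :
    dTwo (permZ G (G ⧸ P)) D.E (fun t => h2mPhi D P (y t)) s =
      h2mPhi D P (tD2 (Rep.trivial (ZMod p) G (ZMod p)) (G ⧸ P) y s) := by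
  simp only [dTwo, tD2, h2m_phi_add, h2m_phi_sub, h2m_phi_conj D P hχ]

lemma h2m_phi_tD3 (hχ : ∀ h ∈ P, D.χ h = 1) (c : G × G × G → G ⧸ P → ZMod p)
    (s : G × G × G × G) :
    dThree (permZ G (G ⧸ P)) D.E (fun t => h2mPhi D P (c t)) s =
      h2mPhi D P (tD3 (Rep.trivial (ZMod p) G (ZMod p)) (G ⧸ P) c s) := by
  simp only [dThree, tD3, h2m_phi_add, h2m_phi_sub, h2m_phi_conj D P hχ]

end Phi

/-- **A8b.** -/
theorem stmtMu3Fun_of (hMu : StmtMu3) : StmtMu3Fun := by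
  intro p _ G _ ι _ _ Gloc _ D hpd P hU hχ hidx c hc hcd
  obtain ⟨U, hU, hn, hUP⟩ := hU
  haveI := hn
  haveI : U.FiniteIndex := D.𝒯.finiteIndex U hU
  haveI : P.FiniteIndex := Subgroup.finiteIndex_of_le hUP
  haveI : Fintype (G ⧸ P) := Fintype.ofFinite _
  have hΩ : IsLevSet D.𝒯 (G ⧸ P) := h2s_isLevSet D.𝒯 U P hU hUP
  have hcard : ¬ p ∣ Fintype.card (G ⧸ P) := by
    rw [← Nat.card_eq_fintype_card]
    exact hidx
  obtain ⟨y', hy', hpy', hzy'⟩ := hMu p G ι Gloc D hpd (G ⧸ P) hΩ inferInstance hcard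
    (fun t => h2mPhi D P (c t)) (h2s_isLevel₃_comp D.𝒯 hc _)
    (fun s => by rw [h2m_phi_tD3 D P hχ, hcd, h2m_phi_zero])
    (fun s => h2m_p_phi D P _)
  classical
  let Ψ : ((permZ G (G ⧸ P)).V →+ D.E.V) → (G ⧸ P → ZMod p) := fun h =>
    if hp : p • h = 0 then Classical.choose (h2m_phi_surj D P h hp) else 0
  have hΨ : ∀ s, h2mPhi D P (Ψ (y' s)) = y' s := by
    intro s
    simp only [Ψ, dif_pos (hpy' s)]
    exact Classical.choose_spec (h2m_phi_surj D P (y' s) (hpy' s))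
  refine ⟨fun s => Ψ (y' s), hy'.comp Ψ, fun s => ?_⟩
  apply h2m_phi_injective D P
  rw [← h2m_phi_tD2 D P hχ, hzy' s]
  congr 1
  funext t
  exact (hΨ t).symm

end Fermat.Agent.TW.E

end
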