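/-
Project TW (S56) — part TW-E, piece **A8** (helper69): `StmtMu3 → StmtH2Surj`
(A8a `stmtH2SurjAsm`, A8b `stmtMu3Fun_of`, A8c `stmtFixFun` of helper35).
-/
import Fermat.Agent.TW.E.H2SurjMu
import Fermat.Agent.TW.E.H2SurjFix

set_option autoImplicit false

namespace Fermat.Agent.TW.E

/-- **A8.** Right exactness of `H²_lev` from `StmtMu3`. -/
theorem stmtH2Surj_of (hMu : StmtMu3) : StmtH2Surj :=
  stmtH2SurjAsm (stmtMu3Fun_of hMu) stmtFixFun

end Fermat.Agent.TW.E
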