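/-
TW-E / A4-fin (helper11): `stmtJ2Fin : StmtJ2Fin` (statement in TW/E/J2DivPlan.lean).
`N ≤ K ≤ Γ`, `p ∣ |N|`, `C` with a `p`-fundamental class `u`: a 2-cocycle `c` on `K` which is
right-`N`-invariant satisfies `n c = p c′ + d t`, `n = [K : Q]` (`Q` a Sylow `p`-subgroup of `K`).
* `j2f_kill`: `[K:N] c = d t₀` (average over `K/N`);
* `j2f_dvd_of_zsmul_eq_zero`, `j2f_p_dvd`: `res_P u` has order `|P|`, so `[c|_P] = k res_P u` with `p ∣ k`;
* `SylowRes.index_smul_eq_zero_of_res_eq_zero` for the group `K` and its Sylow subgroup `Q`.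
-/
import Fermat.Agent.TW.E.J2DivPlan
import Fermat.Agent.PT.A.Sylow

set_option autoImplicit false
set_option linter.unusedSectionVars false
set_option linter.unusedVariables false
set_option linter.style.haveILetI false

noncomputable section

namespace Fermat.Agent.TW.E

open CategoryTheory groupCohomology Fermat.Agent.PT

attribute [local instance 1100] Rep.hV2

section Kill

variable {Γ : Type} [Group Γ]

/-- Step 1: a 2-cocycle on `K` which is right-`N`-invariant in the second variable is killed by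
`[K : N]` (average over `K/N`). -/
theorem j2f_kill [Finite Γ] (C : Rep.{0} ℤ Γ) (K N : Subgroup Γ) (c : K × K → C.V)
    (hc : ∀ a b d : K, C.ρ (a : Γ) (c (b, d)) - c (a * b, d) + c (a, b * d) - c (a, b) = 0)
    (hN : ∀ a b s : K, (s : Γ) ∈ N → c (a, b * s) = c (a, b)) :
    ∃ t : K → C.V, ∀ a b : K,
      (N.subgroupOf K).index • c (a, b) = C.ρ (a : Γ) (t b) - t (a * b) + t a := by
  classical
  haveI : Fintype (K ⧸ N.subgroupOf K) := Fintype.ofFinite _
  have hout : ∀ (a b : K), c (a, ((b : K ⧸ N.subgroupOf K)).out) = c (a, b) := by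
    intro a b
    obtain ⟨s, hs⟩ := QuotientGroup.mk_out_eq_mul (N.subgroupOf K) b
    rw [hs]
    exact hN a b s (Subgroup.mem_subgroupOf.1 s.2)
  let t : K → C.V := fun a => ∑ x : K ⧸ N.subgroupOf K, c (a, x.out)
  have ht : ∀ a, t a = ∑ x : K ⧸ N.subgroupOf K, c (a, x.out) := fun a => rfl
  refine ⟨t, fun a b => ?_⟩
  have h1 : ∑ x : K ⧸ N.subgroupOf K,
      (C.ρ (a : Γ) (c (b, x.out)) - c (a * b, x.out) + c (a, b * x.out) - c (a, b)) = 0 :=
    Finset.sum_eq_zero fun x _ => hc a b x.out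
  rw [Finset.sum_sub_distrib, Finset.sum_add_distrib, Finset.sum_sub_distrib, Finset.sum_const,
    Finset.card_univ] at h1
  have h2 : ∑ x : K ⧸ N.subgroupOf K, c (a, b * x.out) = t a := by
    have e : ∀ x : K ⧸ N.subgroupOf K, c (a, b * x.out) = c (a, (b • x).out) := by
      intro x
      have e' : (b • x) = ((b * x.out : K) : K ⧸ N.subgroupOf K) := by
        conv_lhs => rw [← QuotientGroup.out_eq' x]
        rfl
      rw [e', hout]
    simp_rw [e]
    exact Equiv.sum_comp (MulAction.toPerm b : Equiv.Perm (K ⧸ N.subgroupOf K))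
      (fun x => c (a, x.out))
  have h3 : ∑ x : K ⧸ N.subgroupOf K, C.ρ (a : Γ) (c (b, x.out)) = C.ρ (a : Γ) (t b) :=
    (map_sum _ _ _).symm
  rw [h2, h3, ← ht] at h1
  have h4 : (N.subgroupOf K).index = Fintype.card (K ⧸ N.subgroupOf K) := by
    rw [Subgroup.index_eq_card, Nat.card_eq_fintype_card]
  rw [h4]
  have h5 : Fintype.card (K ⧸ N.subgroupOf K) • c (a, b) -
      (C.ρ (a : Γ) (t b) - t (a * b) + t a) = 0 := by
    rw [← neg_eq_zero, ← h1]
    abel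
  exact sub_eq_zero.1 h5

end Kill

/-- in a group of order `m` generated by `g`, `j • g = 0` implies `m ∣ j` -/
lemma j2f_dvd_of_zsmul_eq_zero {Z : Type*} [AddCommGroup Z] (g : Z) (m : ℕ)
    (hm : Nat.card Z = m) (hgen : ∀ x : Z, ∃ k : ℤ, k • g = x) (j : ℤ) (hj : j • g = 0) :
    (m : ℤ) ∣ j := by
  have htop : AddSubgroup.zmultiples g = ⊤ := by
    rw [eq_top_iff]
    intro x _
    obtain ⟨k, hk⟩ := hgen x
    exact ⟨k, hk⟩
  have hord : addOrderOf g = m := by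
    rw [← Nat.card_zmultiples, htop, AddSubgroup.card_top, hm]
  rw [← hord]
  exact addOrderOf_dvd_iff_zsmul_eq_zero.2 hj

/-- the arithmetic of the orders -/
lemma j2f_p_dvd (p : ℕ) [hp : Fact p.Prime] (P idx q cN b : ℕ) (hP : P = p ^ b)
    (hK : P * idx = q * cN) (hidx : ¬ p ∣ idx) (hcN : p ∣ cN) (k : ℤ)
    (h : (P : ℤ) ∣ (q : ℤ) * k) : (p : ℤ) ∣ k := by
  by_contra hk
  have hpZ : Prime (p : ℤ) := Nat.prime_iff_prime_int.1 hp.out
  have hcop : IsCoprime (P : ℤ) k := by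
    rw [hP, Nat.cast_pow]
    exact IsCoprime.pow_left ((Prime.coprime_iff_not_dvd hpZ).2 hk)
  have h1 : (P : ℤ) ∣ (q : ℤ) := hcop.dvd_of_dvd_mul_right h
  have h2 : P ∣ q := Int.natCast_dvd_natCast.1 h1
  obtain ⟨q', hq'⟩ := h2
  have hP0 : 0 < P := by rw [hP]; exact pow_pos hp.out.pos b
  have h3 : idx = q' * cN := by
    apply Nat.eq_of_mul_eq_mul_left hP0
    rw [hK, hq', mul_assoc]
  exact hidx (h3 ▸ Dvd.dvd.mul_left hcN q')


section Main

variable {Γ : Type} [Group Γ]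

/-- **A4-fin**. -/
theorem stmtJ2Fin : StmtJ2Fin := by
  intro p hp Γ _ _ C u hu K N hNK hpN c hc hcN
  classical
  -- Step 1
  obtain ⟨t₀, ht₀⟩ := j2f_kill C K N c hc (fun a b s hs => by
    have := hcN a b 1 s N.one_mem hs
    rwa [mul_one] at this)
  -- Step 2: a Sylow subgroup of `K`
  obtain ⟨Q⟩ : Nonempty (Sylow p K) := inferInstance
  set P : Subgroup Γ := (Q : Subgroup K).map K.subtype with hPdef
  have hPp : IsPGroup p P := Q.2.map K.subtype
  have hPK : ∀ g ∈ P, g ∈ K := by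
    rintro g ⟨q, -, rfl⟩
    exact q.2
  have hPQ : ∀ g (hg : g ∈ P), (⟨g, hPK g hg⟩ : K) ∈ (Q : Subgroup K) := by
    rintro g ⟨q, hq, rfl⟩
    exact hq
  have hQP : ∀ q : K, q ∈ (Q : Subgroup K) → (q : Γ) ∈ P := fun q hq => ⟨q, hq, rfl⟩
  -- a cocycle representing `u`
  obtain ⟨ũ, rfl⟩ : ∃ ũ : cocycles₂ C, H2π C ũ = u := by
    induction u using H2_induction_on with
    | h x => exact ⟨x, rfl⟩
  have hũ := (mem_cocycles₂_def (ũ : Γ × Γ → C.V)).1 ũ.2
  -- the restriction of `c` to `P`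
  let cP : P × P → C.V := fun ab => c (⟨ab.1.1, hPK _ ab.1.2⟩, ⟨ab.2.1, hPK _ ab.2.2⟩)
  have hcP : cP ∈ cocycles₂ (Rep.res P.subtype C) := by
    rw [mem_cocycles₂_def]
    intro a b d
    exact hc ⟨a.1, hPK _ a.2⟩ ⟨b.1, hPK _ b.2⟩ ⟨d.1, hPK _ d.2⟩
  obtain ⟨k, hk⟩ := hu.h2_gen P hPp (H2π _ ⟨cP, hcP⟩)
  -- `[K:N] • [cP] = 0`
  have hkill : (N.subgroupOf K).index • H2π (Rep.res P.subtype C) ⟨cP, hcP⟩ = 0 := by
    rw [← map_nsmul, H2π_eq_zero_iff]
    refine ⟨fun a : P => t₀ ⟨a.1, hPK _ a.2⟩, ?_⟩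
    funext ⟨a, b⟩
    rw [d₁₂_hom_apply]
    exact (ht₀ ⟨a.1, hPK _ a.2⟩ ⟨b.1, hPK _ b.2⟩).symm
  set g : H2 (Rep.res P.subtype C) := (resSub C P 2).hom (H2π C ũ) with hg
  have hgres : g = H2π (Rep.res P.subtype C)
      (mapCocycles₂ P.subtype (𝟙 (Rep.res P.subtype C)) ũ) :=
    H2π_comp_map_apply P.subtype (𝟙 (Rep.res P.subtype C)) ũ
  have hqk : (((N.subgroupOf K).index : ℤ) * k) • g = 0 := by
    rw [mul_smul, hk, natCast_zsmul]
    exact hkill
  have hdvd : (Nat.card P : ℤ) ∣ ((N.subgroupOf K).index : ℤ) * k :=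
    j2f_dvd_of_zsmul_eq_zero g (Nat.card P) (hu.h2_card P hPp) (hu.h2_gen P hPp) _ hqk
  -- the orders
  have hcardP : Nat.card P = Nat.card (Q : Subgroup K) :=
    (Nat.card_congr ((Q : Subgroup K).equivMapOfInjective K.subtype
      K.subtype_injective).toEquiv).symm
  obtain ⟨b, hb⟩ := IsPGroup.iff_card.1 Q.2
  have hK1 : Nat.card (Q : Subgroup K) * (Q : Subgroup K).index = Nat.card K :=
    Subgroup.card_mul_index _
  have hK2 : (N.subgroupOf K).index * Nat.card (N.subgroupOf K) = Nat.card K :=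
    Subgroup.index_mul_card _
  have hK3 : Nat.card (N.subgroupOf K) = Nat.card N :=
    Nat.card_congr (Subgroup.subgroupOfEquivOfLe hNK).toEquiv
  have hpk : (p : ℤ) ∣ k :=
    j2f_p_dvd p (Nat.card P) (Q : Subgroup K).index (N.subgroupOf K).index (Nat.card N) b
      (hcardP.trans hb) (by rw [hcardP, hK1, ← hK2, hK3]) Q.not_dvd_index hpN k hdvd
  obtain ⟨k', rfl⟩ := hpk
  -- Step 3
  let A : Rep.{0} ℤ K := Rep.res K.subtype C
  let ũK : cocycles₂ A := mapCocycles₂ K.subtype (𝟙 (Rep.res K.subtype C)) ũ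
  have hũK : ∀ a b : K, (ũK : K × K → C.V) (a, b) = ũ ((a : Γ), (b : Γ)) := fun a b => rfl
  have hcA : c ∈ cocycles₂ A := by
    rw [mem_cocycles₂_def]
    exact hc
  let c₁ : cocycles₂ A := ⟨c, hcA⟩ - ((p : ℤ) * k') • ũK
  have hc₁ : ∀ a b : K, (c₁ : K × K → C.V) (a, b) =
      c (a, b) - ((p : ℤ) * k') • ũ ((a : Γ), (b : Γ)) := fun a b => rfl
  -- the restriction to `P` is a coboundary
  have hzero : H2π (Rep.res P.subtype C)
      (⟨cP, hcP⟩ - ((p : ℤ) * k') • mapCocycles₂ P.subtype (𝟙 (Rep.res P.subtype C)) ũ) = 0 := by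
    rw [map_sub, map_zsmul, ← hgres, hk, sub_self]
  rw [H2π_eq_zero_iff] at hzero
  obtain ⟨tP, htP⟩ := hzero
  have htP' : ∀ a b : P, C.ρ (a : Γ) (tP b) - tP (a * b) + tP a =
      c (⟨a.1, hPK _ a.2⟩, ⟨b.1, hPK _ b.2⟩) - ((p : ℤ) * k') • ũ ((a : Γ), (b : Γ)) := by
    intro a b
    have := congrFun htP (a, b)
    rw [d₁₂_hom_apply] at this
    exact this
  have hres : (resSub A (Q : Subgroup K) 2).hom (H2π A c₁) = 0 := by
    have key := H2π_comp_map_apply (Q : Subgroup K).subtype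
      (𝟙 (Rep.res (Q : Subgroup K).subtype A)) c₁
    refine Eq.trans key ?_
    rw [H2π_eq_zero_iff]
    refine ⟨fun q : (Q : Subgroup K) => tP ⟨((q : K) : Γ), hQP q q.2⟩, ?_⟩
    funext ⟨a, b⟩
    rw [d₁₂_hom_apply]
    exact htP' ⟨((a : K) : Γ), hQP a a.2⟩ ⟨((b : K) : Γ), hQP b b.2⟩
  have hidx : (Q : Subgroup K).index • H2π A c₁ = 0 :=
    SylowRes.index_smul_eq_zero_of_res_eq_zero (Q : Subgroup K) 1 A (H2π A c₁) hres
  rw [← map_nsmul, H2π_eq_zero_iff] at hidx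
  obtain ⟨t₁, ht₁⟩ := hidx
  have ht₁' : ∀ a b : K, C.ρ (a : Γ) (t₁ b) - t₁ (a * b) + t₁ a =
      (Q : Subgroup K).index • (c (a, b) - ((p : ℤ) * k') • ũ ((a : Γ), (b : Γ))) := by
    intro a b
    have := congrFun ht₁ (a, b)
    rw [d₁₂_hom_apply] at this
    exact this
  refine ⟨(Q : Subgroup K).index, Q.not_dvd_index,
    fun ab => (Q : Subgroup K).index • (k' • ũ ((ab.1 : Γ), (ab.2 : Γ))), ?_, t₁, ?_⟩
  · intro a b d
    show C.ρ (a : Γ) ((Q : Subgroup K).index • (k' • ũ ((b : Γ), (d : Γ)))) -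
        (Q : Subgroup K).index • (k' • ũ (((a * b : K) : Γ), (d : Γ))) +
        (Q : Subgroup K).index • (k' • ũ ((a : Γ), ((b * d : K) : Γ))) -
        (Q : Subgroup K).index • (k' • ũ ((a : Γ), (b : Γ))) = 0
    rw [map_nsmul, map_zsmul]
    have := hũ (a : Γ) (b : Γ) (d : Γ)
    have e : (Q : Subgroup K).index • (k' • C.ρ (a : Γ) (ũ ((b : Γ), (d : Γ)))) -
        (Q : Subgroup K).index • (k' • ũ (((a * b : K) : Γ), (d : Γ))) +
        (Q : Subgroup K).index • (k' • ũ ((a : Γ), ((b * d : K) : Γ))) -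
        (Q : Subgroup K).index • (k' • ũ ((a : Γ), (b : Γ))) =
        (Q : Subgroup K).index • (k' • (C.ρ (a : Γ) (ũ ((b : Γ), (d : Γ))) -
          ũ ((a : Γ) * (b : Γ), (d : Γ)) + ũ ((a : Γ), (b : Γ) * (d : Γ)) -
          ũ ((a : Γ), (b : Γ)))) := by
      simp only [zsmul_sub, zsmul_add, nsmul_sub, nsmul_add, Subgroup.coe_mul]
    rw [e, this, zsmul_zero, nsmul_zero]
  · intro a b
    rw [ht₁' a b, smul_sub]
    have e : p • (Q : Subgroup K).index • (k' • ũ ((a : Γ), (b : Γ))) =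
        (Q : Subgroup K).index • (((p : ℤ) * k') • ũ ((a : Γ), (b : Γ))) := by
      rw [smul_comm, mul_smul, natCast_zsmul]
    show (Q : Subgroup K).index • c (a, b) =
      p • (Q : Subgroup K).index • (k' • ũ ((a : Γ), (b : Γ))) + _
    rw [e]
    abel

end Main

end Fermat.Agent.TW.E

end
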