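/-
TW-E / A4-loc (helper11): `stmtJ2Loc_of : StmtJ2Fin → StmtJ2Loc` (statements in TW/E/J2DivPlan.lean).
Descent of a homogeneous `K`-equivariant cocycle `c : K³ → J_v` to the finite level `Γ = G_v ⧸ V'`:
`ĉ(a, b) = c(1, a, ab)`, `c̄(ā, b̄) = ĉ(a, b)` on `K̄ = K.map mk ≤ Γ`, `N̄ = V.map mk`, `|N̄| = V'.relIndex V`;
A4-fin; `w(k₀,k₁,k₂) = k₀ c̄'(k₀⁻¹k₁, k₁⁻¹k₂)`, `t(k₀,k₁) = k₀ t̄(k₀⁻¹k₁)`.
-/
import Fermat.Agent.TW.E.J2DivPlan

set_option autoImplicit false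
set_option linter.unusedSectionVars false
set_option linter.unusedVariables false
set_option linter.style.haveILetI false

noncomputable section

namespace Fermat.Agent.TW.E

open CategoryTheory groupCohomology Fermat.Agent.PT Fermat.Agent.PT.F

attribute [local instance 1100] Rep.hV2

section Abstract

variable {H : Type} [Group H] (Y : Rep.{0} ℤ H) (K V V' : Subgroup H)

/-- `|V / V'| = V'.relIndex V` -/
lemma j2l_card_map [V'.Normal] :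
    Nat.card (V.map (QuotientGroup.mk' V')) = V'.relIndex V := by
  have h := Subgroup.relIndex_comap (⊥ : Subgroup (H ⧸ V')) (QuotientGroup.mk' V') V
  rw [Subgroup.relIndex_bot_left, MonoidHom.comap_bot, QuotientGroup.ker_mk'] at h
  exact h.symm

variable {K} in
/-- the inhomogeneous cochain of a homogeneous one -/
def j2lHat (c : K → K → K → Y.V) (ab : K × K) : Y.V := c 1 ab.1 (ab.1 * ab.2)

variable (c : K → K → K → Y.V)
  (hc1 : ∀ k k₀ k₁ k₂ : K, c (k * k₀) (k * k₁) (k * k₂) = Y.ρ (k : H) (c k₀ k₁ k₂))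
  (hc2 : ∀ k₀ k₁ k₂ k₃ : K, c k₁ k₂ k₃ - c k₀ k₂ k₃ + c k₀ k₁ k₃ - c k₀ k₁ k₂ = 0)
  (hc3 : ∀ k₀ k₁ k₂ s₀ s₁ s₂ : K, (s₀ : H) ∈ V → (s₁ : H) ∈ V → (s₂ : H) ∈ V →
    c (k₀ * s₀) (k₁ * s₁) (k₂ * s₂) = c k₀ k₁ k₂)

include hc1 hc2 in
lemma j2lHat_cocycle (a b d : K) :
    Y.ρ (a : H) (j2lHat Y c (b, d)) - j2lHat Y c (a * b, d) + j2lHat Y c (a, b * d) -
      j2lHat Y c (a, b) = 0 := by
  unfold j2lHat
  have h1 := hc1 a 1 b (b * d)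
  have h2 := hc2 1 a (a * b) (a * b * d)
  rw [mul_one, ← mul_assoc] at h1
  simp only
  rw [← h1, ← mul_assoc]
  exact h2

include hc3 in
lemma j2lHat_inv (hVn : V.Normal) (a b s s' : K) (hs : (s : H) ∈ V) (hs' : (s' : H) ∈ V) :
    j2lHat Y c (a * s, b * s') = j2lHat Y c (a, b) := by
  unfold j2lHat
  simp only
  have e : a * s * (b * s') = a * b * (b⁻¹ * s * b * s') := by group
  have hm : ((b⁻¹ * s * b * s' : K) : H) ∈ V := by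
    rw [Subgroup.coe_mul]
    refine V.mul_mem ?_ hs'
    have := hVn.conj_mem (s : H) hs ((b : H)⁻¹)
    simpa using this
  rw [e]
  have := hc3 1 a (a * b) 1 s (b⁻¹ * s * b * s') V.one_mem hs hm
  rw [mul_one] at this
  exact this

include hc1 hc3 in
lemma j2lHat_fixed (hVn : V.Normal) (hVK : V ≤ K) (a b : K) (s : H) (hs : s ∈ V) :
    Y.ρ s (j2lHat Y c (a, b)) = j2lHat Y c (a, b) := by
  unfold j2lHat
  simp only
  have h1 := hc1 ⟨s, hVK hs⟩ 1 a (a * b)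
  have hsa : ((a⁻¹ * ⟨s, hVK hs⟩ * a : K) : H) ∈ V := by
    have := hVn.conj_mem s hs ((a : H)⁻¹)
    simpa using this
  have hsab : (((a * b)⁻¹ * ⟨s, hVK hs⟩ * (a * b) : K) : H) ∈ V := by
    have := hVn.conj_mem s hs (((a * b : K) : H)⁻¹)
    simpa using this
  have h2 := hc3 1 a (a * b) ⟨s, hVK hs⟩ (a⁻¹ * ⟨s, hVK hs⟩ * a)
    ((a * b)⁻¹ * ⟨s, hVK hs⟩ * (a * b)) hs hsa hsab
  have e1 : (⟨s, hVK hs⟩ : K) * a = a * (a⁻¹ * ⟨s, hVK hs⟩ * a) := by group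
  have e2 : (⟨s, hVK hs⟩ : K) * (a * b) = a * b * ((a * b)⁻¹ * ⟨s, hVK hs⟩ * (a * b)) := by
    group
  rw [mul_one] at h1
  rw [one_mul] at h2
  have h3 : c ⟨s, hVK hs⟩ (⟨s, hVK hs⟩ * a) (⟨s, hVK hs⟩ * (a * b)) = c 1 a (a * b) := by
    rw [e1, e2]
    exact h2
  exact h1.symm.trans h3

end Abstract


section Descent

variable {H : Type} [Group H] (Y : Rep.{0} ℤ H) (K V V' : Subgroup H) [V'.Normal]

/-- the projection `K → K̄ = K.map mk` -/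
def j2lMk : K →* K.map (QuotientGroup.mk' V') := (QuotientGroup.mk' V').subgroupMap K

lemma j2lMk_coe (k : K) : ((j2lMk K V' k : K.map (QuotientGroup.mk' V')) : H ⧸ V') =
    ((k : H) : H ⧸ V') := rfl

variable {K V'} in
lemma j2l_out_mem (hV'K : V' ≤ K) (x : K.map (QuotientGroup.mk' V')) :
    (x : H ⧸ V').out ∈ K := by
  obtain ⟨k, hk, hkx⟩ := x.2
  have h1 : ((k : H) : H ⧸ V') = (((x : H ⧸ V').out : H) : H ⧸ V') := by
    rw [QuotientGroup.out_eq']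
    exact hkx
  have h2 : k⁻¹ * (x : H ⧸ V').out ∈ V' := QuotientGroup.eq.1 h1
  have e : (x : H ⧸ V').out = k * (k⁻¹ * (x : H ⧸ V').out) := by group
  rw [e]
  exact K.mul_mem hk (hV'K h2)

/-- representatives in `K` of the elements of `K̄` -/
def j2lLift (hV'K : V' ≤ K) (x : K.map (QuotientGroup.mk' V')) : K :=
  ⟨(x : H ⧸ V').out, j2l_out_mem hV'K x⟩

lemma j2lMk_lift (hV'K : V' ≤ K) (x : K.map (QuotientGroup.mk' V')) :
    j2lMk K V' (j2lLift K V' hV'K x) = x :=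
  Subtype.ext (QuotientGroup.out_eq' _)

lemma j2l_exists_mul (a b : K) (h : j2lMk K V' a = j2lMk K V' b) :
    ∃ s : K, (s : H) ∈ V' ∧ b = a * s := by
  refine ⟨a⁻¹ * b, ?_, by group⟩
  have h1 : (((a : H) : H ⧸ V')) = ((b : H) : H ⧸ V') := congrArg Subtype.val h
  have := QuotientGroup.eq.1 h1
  simpa using this

lemma j2lMk_eq_one (s : K) (hs : (s : H) ∈ V') : j2lMk K V' s = 1 := by
  apply Subtype.ext
  show ((s : H) : H ⧸ V') = 1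
  exact (QuotientGroup.eq_one_iff _).2 hs

lemma j2l_mem_of_mk_mem (hV'V : V' ≤ V) (k : K)
    (h : ((j2lMk K V' k : K.map (QuotientGroup.mk' V')) : H ⧸ V') ∈
      V.map (QuotientGroup.mk' V')) : (k : H) ∈ V := by
  obtain ⟨v₀, hv₀, hv₀k⟩ := h
  have h1 : ((v₀ : H) : H ⧸ V') = ((k : H) : H ⧸ V') := hv₀k
  have h2 : v₀⁻¹ * (k : H) ∈ V' := QuotientGroup.eq.1 h1
  have e : (k : H) = v₀ * (v₀⁻¹ * (k : H)) := by group
  rw [e]
  exact V.mul_mem hv₀ (hV'V h2)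

end Descent


section Main

variable {H : Type} [Group H] (Y : Rep.{0} ℤ H) (K V V' : Subgroup H) [V'.Normal]

lemma j2l_ρ_coe (k : K) (x : (Y.quotientToInvariants V').V) :
    (((Y.quotientToInvariants V').ρ
      ((j2lMk K V' k : K.map (QuotientGroup.mk' V')) : H ⧸ V') x :
        (Y.quotientToInvariants V').V) : Y.V) = Y.ρ (k : H) (x : Y.V) := rfl

lemma j2l_ρ_mul (a b : H) (x : Y.V) : Y.ρ (a * b) x = Y.ρ a (Y.ρ b x) := by
  rw [map_mul]; rfl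

lemma j2l_fixed (x : (Y.quotientToInvariants V').V) (s : H) (hs : s ∈ V') :
    Y.ρ s (x : Y.V) = x := x.2 ⟨s, hs⟩

theorem j2l_main (hFin : StmtJ2Fin) (p : ℕ) [Fact p.Prime] [Finite (H ⧸ V')]
    (u : H2 (Y.quotientToInvariants V')) (hu : IsPFundClass p (Y.quotientToInvariants V') u)
    (hVn : V.Normal) (hV'V : V' ≤ V) (hVK : V ≤ K) (hp : p ∣ V'.relIndex V)
    (c : K → K → K → Y.V)
    (hc1 : ∀ k k₀ k₁ k₂ : K, c (k * k₀) (k * k₁) (k * k₂) = Y.ρ (k : H) (c k₀ k₁ k₂))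
    (hc2 : ∀ k₀ k₁ k₂ k₃ : K, c k₁ k₂ k₃ - c k₀ k₂ k₃ + c k₀ k₁ k₃ - c k₀ k₁ k₂ = 0)
    (hc3 : ∀ k₀ k₁ k₂ s₀ s₁ s₂ : K, (s₀ : H) ∈ V → (s₁ : H) ∈ V → (s₂ : H) ∈ V →
      c (k₀ * s₀) (k₁ * s₁) (k₂ * s₂) = c k₀ k₁ k₂) :
    ∃ n : ℕ, ¬ p ∣ n ∧
      ∃ w : K → K → K → Y.V,
        (∀ k k₀ k₁ k₂ : K, w (k * k₀) (k * k₁) (k * k₂) = Y.ρ (k : H) (w k₀ k₁ k₂)) ∧
        (∀ k₀ k₁ k₂ k₃ : K, w k₁ k₂ k₃ - w k₀ k₂ k₃ + w k₀ k₁ k₃ - w k₀ k₁ k₂ = 0) ∧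
        (∀ k₀ k₁ k₂ s₀ s₁ s₂ : K, (s₀ : H) ∈ V' → (s₁ : H) ∈ V' → (s₂ : H) ∈ V' →
          w (k₀ * s₀) (k₁ * s₁) (k₂ * s₂) = w k₀ k₁ k₂) ∧
        ∃ t : K → K → Y.V,
          (∀ k k₀ k₁ : K, t (k * k₀) (k * k₁) = Y.ρ (k : H) (t k₀ k₁)) ∧
          (∀ k₀ k₁ s₀ s₁ : K, (s₀ : H) ∈ V' → (s₁ : H) ∈ V' →
            t (k₀ * s₀) (k₁ * s₁) = t k₀ k₁) ∧
          ∀ k₀ k₁ k₂ : K,
            n • c k₀ k₁ k₂ = p • w k₀ k₁ k₂ + (t k₁ k₂ - t k₀ k₂ + t k₀ k₁) := by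
  have hV'K : V' ≤ K := hV'V.trans hVK
  have hNK : V.map (QuotientGroup.mk' V') ≤ K.map (QuotientGroup.mk' V') :=
    Subgroup.map_mono hVK
  have hpN : p ∣ Nat.card (V.map (QuotientGroup.mk' V')) := by
    rw [j2l_card_map]; exact hp
  have hfix : ∀ (a b : K) (s : V'),
      Y.ρ (s : H) (j2lHat Y c (a, b)) = j2lHat Y c (a, b) :=
    fun a b s => j2lHat_fixed Y K V c hc1 hc3 hVn hVK a b s (hV'V s.2)
  have hinv : ∀ (a b s s' : K), (s : H) ∈ V → (s' : H) ∈ V →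
      j2lHat Y c (a * s, b * s') = j2lHat Y c (a, b) :=
    fun a b s s' hs hs' => j2lHat_inv Y K V c hc3 hVn a b s s' hs hs'
  -- representatives
  let L : K.map (QuotientGroup.mk' V') → K := j2lLift K V' hV'K
  have hL1 : ∀ x y : K.map (QuotientGroup.mk' V'),
      ∃ s : K, (s : H) ∈ V' ∧ L (x * y) = L x * L y * s := fun x y =>
    j2l_exists_mul K V' (L x * L y) (L (x * y)) (by
      rw [map_mul, j2lMk_lift, j2lMk_lift, j2lMk_lift])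
  have hL2 : ∀ k : K, ∃ s : K, (s : H) ∈ V' ∧ L (j2lMk K V' k) = k * s := fun k =>
    j2l_exists_mul K V' k (L (j2lMk K V' k)) (by rw [j2lMk_lift])
  -- the descended cochain
  let cb : K.map (QuotientGroup.mk' V') × K.map (QuotientGroup.mk' V') →
      (Y.quotientToInvariants V').V :=
    fun xy => ⟨j2lHat Y c (L xy.1, L xy.2), fun s => hfix _ _ s⟩
  have hcb_val : ∀ x y, ((cb (x, y) : (Y.quotientToInvariants V').V) : Y.V) =
      j2lHat Y c (L x, L y) := fun x y => rfl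
  have hcb_mk : ∀ a b : K, ((cb (j2lMk K V' a, j2lMk K V' b) :
      (Y.quotientToInvariants V').V) : Y.V) = j2lHat Y c (a, b) := by
    intro a b
    obtain ⟨s, hs, e⟩ := hL2 a
    obtain ⟨s', hs', e'⟩ := hL2 b
    rw [hcb_val, e, e']
    exact hinv a b s s' (hV'V hs) (hV'V hs')
  have hcb : ∀ a b d : K.map (QuotientGroup.mk' V'),
      (Y.quotientToInvariants V').ρ (a : H ⧸ V') (cb (b, d)) - cb (a * b, d) + cb (a, b * d) -
        cb (a, b) = 0 := by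
    intro a b d
    apply Subtype.ext
    have ha := j2lMk_lift K V' hV'K a
    have h1 : ((((Y.quotientToInvariants V').ρ (a : H ⧸ V') (cb (b, d)) :
        (Y.quotientToInvariants V').V)) : Y.V) = Y.ρ (L a : H) (j2lHat Y c (L b, L d)) := by
      have := j2l_ρ_coe Y K V' (L a) (cb (b, d))
      rw [ha] at this
      exact this
    have h2 : ((cb (a * b, d) : (Y.quotientToInvariants V').V) : Y.V) =
        j2lHat Y c (L a * L b, L d) := by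
      obtain ⟨s, hs, e⟩ := hL1 a b
      rw [hcb_val, e]
      have := hinv (L a * L b) (L d) s 1 (hV'V hs) V.one_mem
      rw [mul_one] at this
      exact this
    have h3 : ((cb (a, b * d) : (Y.quotientToInvariants V').V) : Y.V) =
        j2lHat Y c (L a, L b * L d) := by
      obtain ⟨s, hs, e⟩ := hL1 b d
      rw [hcb_val, e]
      have := hinv (L a) (L b * L d) 1 s V.one_mem (hV'V hs)
      rw [mul_one] at this
      exact this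
    show ((((Y.quotientToInvariants V').ρ (a : H ⧸ V') (cb (b, d)) :
        (Y.quotientToInvariants V').V)) : Y.V) - ((cb (a * b, d) :
        (Y.quotientToInvariants V').V) : Y.V) + ((cb (a, b * d) :
        (Y.quotientToInvariants V').V) : Y.V) - ((cb (a, b) :
        (Y.quotientToInvariants V').V) : Y.V) = 0
    rw [h1, h2, h3, hcb_val]
    exact j2lHat_cocycle Y K c hc1 hc2 (L a) (L b) (L d)
  have hcbN : ∀ a b s s' : K.map (QuotientGroup.mk' V'),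
      (s : H ⧸ V') ∈ V.map (QuotientGroup.mk' V') →
      (s' : H ⧸ V') ∈ V.map (QuotientGroup.mk' V') → cb (a * s, b * s') = cb (a, b) := by
    intro a b s s' hs hs'
    apply Subtype.ext
    obtain ⟨σ, hσ, e⟩ := hL1 a s
    obtain ⟨σ', hσ', e'⟩ := hL1 b s'
    have hLs : ((L s : K) : H) ∈ V := by
      apply j2l_mem_of_mk_mem K V V' hV'V
      rw [j2lMk_lift]
      exact hs
    have hLs' : ((L s' : K) : H) ∈ V := by
      apply j2l_mem_of_mk_mem K V V' hV'V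
      rw [j2lMk_lift]
      exact hs'
    rw [hcb_val, hcb_val, e, e', mul_assoc, mul_assoc]
    refine hinv (L a) (L b) (L s * σ) (L s' * σ') ?_ ?_
    · rw [Subgroup.coe_mul]; exact V.mul_mem hLs (hV'V hσ)
    · rw [Subgroup.coe_mul]; exact V.mul_mem hLs' (hV'V hσ')
  obtain ⟨n, hn, cb', hcb', tb, heq⟩ := hFin p (H ⧸ V') (Y.quotientToInvariants V') u hu
    (K.map (QuotientGroup.mk' V')) (V.map (QuotientGroup.mk' V')) hNK hpN cb hcb hcbN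
  -- coercions
  have hsub : ∀ x y : (Y.quotientToInvariants V').V,
      ((x - y : (Y.quotientToInvariants V').V) : Y.V) = (x : Y.V) - (y : Y.V) := fun _ _ => rfl
  have hadd : ∀ x y : (Y.quotientToInvariants V').V,
      ((x + y : (Y.quotientToInvariants V').V) : Y.V) = (x : Y.V) + (y : Y.V) := fun _ _ => rfl
  have hnsmul : ∀ (m : ℕ) (x : (Y.quotientToInvariants V').V),
      ((m • x : (Y.quotientToInvariants V').V) : Y.V) = m • (x : Y.V) := fun _ _ => rfl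
  have hzero : (((0 : (Y.quotientToInvariants V').V)) : Y.V) = 0 := rfl
  have hmk1 : ∀ s : K, (s : H) ∈ V' → j2lMk K V' s = 1 := fun s hs => j2lMk_eq_one K V' s hs
  have hmk_inv : ∀ (k₀ k₁ s₀ s₁ : K), (s₀ : H) ∈ V' → (s₁ : H) ∈ V' →
      j2lMk K V' ((k₀ * s₀)⁻¹ * (k₁ * s₁)) = j2lMk K V' (k₀⁻¹ * k₁) := by
    intro k₀ k₁ s₀ s₁ hs₀ hs₁
    have e : (k₀ * s₀)⁻¹ * (k₁ * s₁) = s₀⁻¹ * (k₀⁻¹ * k₁) * s₁ := by group
    rw [e, map_mul, map_mul, map_inv, hmk1 s₀ hs₀, hmk1 s₁ hs₁, inv_one, one_mul, mul_one]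
  refine ⟨n, hn,
    fun k₀ k₁ k₂ => Y.ρ (k₀ : H)
      ((cb' (j2lMk K V' (k₀⁻¹ * k₁), j2lMk K V' (k₁⁻¹ * k₂)) :
        (Y.quotientToInvariants V').V) : Y.V), ?_, ?_, ?_,
    fun k₀ k₁ => Y.ρ (k₀ : H)
      ((tb (j2lMk K V' (k₀⁻¹ * k₁)) : (Y.quotientToInvariants V').V) : Y.V), ?_, ?_, ?_⟩
  · intro k k₀ k₁ k₂
    have e1 : (k * k₀)⁻¹ * (k * k₁) = k₀⁻¹ * k₁ := by group
    have e2 : (k * k₁)⁻¹ * (k * k₂) = k₁⁻¹ * k₂ := by group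
    simp only
    rw [e1, e2, Subgroup.coe_mul, j2l_ρ_mul]
  · intro k₀ k₁ k₂ k₃
    simp only
    have hab : j2lMk K V' (k₀⁻¹ * k₂) = j2lMk K V' (k₀⁻¹ * k₁) * j2lMk K V' (k₁⁻¹ * k₂) := by
      rw [← map_mul]; congr 1; group
    have hbd : j2lMk K V' (k₁⁻¹ * k₃) = j2lMk K V' (k₁⁻¹ * k₂) * j2lMk K V' (k₂⁻¹ * k₃) := by
      rw [← map_mul]; congr 1; group
    have h : Y.ρ (k₀ : H) (Y.ρ ((k₀⁻¹ * k₁ : K) : H)
          ((cb' (j2lMk K V' (k₁⁻¹ * k₂), j2lMk K V' (k₂⁻¹ * k₃)) :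
            (Y.quotientToInvariants V').V) : Y.V) -
        ((cb' (j2lMk K V' (k₀⁻¹ * k₁) * j2lMk K V' (k₁⁻¹ * k₂), j2lMk K V' (k₂⁻¹ * k₃)) :
            (Y.quotientToInvariants V').V) : Y.V) +
        ((cb' (j2lMk K V' (k₀⁻¹ * k₁), j2lMk K V' (k₁⁻¹ * k₂) * j2lMk K V' (k₂⁻¹ * k₃)) :
            (Y.quotientToInvariants V').V) : Y.V) -
        ((cb' (j2lMk K V' (k₀⁻¹ * k₁), j2lMk K V' (k₁⁻¹ * k₂)) :
            (Y.quotientToInvariants V').V) : Y.V)) = Y.ρ (k₀ : H) 0 :=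
      congrArg (fun x : (Y.quotientToInvariants V').V => Y.ρ (k₀ : H) (x : Y.V))
        (hcb' (j2lMk K V' (k₀⁻¹ * k₁)) (j2lMk K V' (k₁⁻¹ * k₂)) (j2lMk K V' (k₂⁻¹ * k₃)))
    rw [map_sub, map_add, map_sub, map_zero, ← j2l_ρ_mul, ← Subgroup.coe_mul,
      mul_inv_cancel_left, ← hab, ← hbd] at h
    exact h
  · intro k₀ k₁ k₂ s₀ s₁ s₂ hs₀ hs₁ hs₂
    simp only
    rw [hmk_inv k₀ k₁ s₀ s₁ hs₀ hs₁, hmk_inv k₁ k₂ s₁ s₂ hs₁ hs₂, Subgroup.coe_mul, j2l_ρ_mul,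
      j2l_fixed Y V' _ (s₀ : H) hs₀]
  · intro k k₀ k₁
    have e1 : (k * k₀)⁻¹ * (k * k₁) = k₀⁻¹ * k₁ := by group
    simp only
    rw [e1, Subgroup.coe_mul, j2l_ρ_mul]
  · intro k₀ k₁ s₀ s₁ hs₀ hs₁
    simp only
    rw [hmk_inv k₀ k₁ s₀ s₁ hs₀ hs₁, Subgroup.coe_mul, j2l_ρ_mul,
      j2l_fixed Y V' _ (s₀ : H) hs₀]
  · intro k₀ k₁ k₂
    simp only
    have hab : j2lMk K V' (k₀⁻¹ * k₂) = j2lMk K V' (k₀⁻¹ * k₁) * j2lMk K V' (k₁⁻¹ * k₂) := by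
      rw [← map_mul]; congr 1; group
    have hc : c k₀ k₁ k₂ = Y.ρ (k₀ : H) (j2lHat Y c (k₀⁻¹ * k₁, k₁⁻¹ * k₂)) := by
      have := hc1 k₀ 1 (k₀⁻¹ * k₁) (k₀⁻¹ * k₁ * (k₁⁻¹ * k₂))
      rw [mul_one, mul_inv_cancel_left, ← mul_assoc, mul_inv_cancel_left,
        mul_inv_cancel_left] at this
      exact this
    have h : Y.ρ (k₀ : H) (n • ((cb (j2lMk K V' (k₀⁻¹ * k₁), j2lMk K V' (k₁⁻¹ * k₂)) :
          (Y.quotientToInvariants V').V) : Y.V)) =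
        Y.ρ (k₀ : H) (p • ((cb' (j2lMk K V' (k₀⁻¹ * k₁), j2lMk K V' (k₁⁻¹ * k₂)) :
          (Y.quotientToInvariants V').V) : Y.V) +
          (Y.ρ ((k₀⁻¹ * k₁ : K) : H) ((tb (j2lMk K V' (k₁⁻¹ * k₂)) :
            (Y.quotientToInvariants V').V) : Y.V) -
          ((tb (j2lMk K V' (k₀⁻¹ * k₁) * j2lMk K V' (k₁⁻¹ * k₂)) :
            (Y.quotientToInvariants V').V) : Y.V) +
          ((tb (j2lMk K V' (k₀⁻¹ * k₁)) : (Y.quotientToInvariants V').V) : Y.V))) :=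
      congrArg (fun x : (Y.quotientToInvariants V').V => Y.ρ (k₀ : H) (x : Y.V))
        (heq (j2lMk K V' (k₀⁻¹ * k₁)) (j2lMk K V' (k₁⁻¹ * k₂)))
    rw [hcb_mk, map_add, map_add, map_sub, ← j2l_ρ_mul, ← Subgroup.coe_mul,
      mul_inv_cancel_left, ← hab] at h
    rw [hc, ← map_nsmul, ← map_nsmul]
    exact h

end Main

/-- **A4-loc**: `StmtJ2Fin → StmtJ2Loc`. -/
theorem stmtJ2Loc_of (hFin : StmtJ2Fin) : StmtJ2Loc := by
  intro p hp G _ ι _ Gloc _ D hdepth v K U hU hUn hK c hc1 hc2 hc3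
  obtain ⟨U', hU', hU'U, hU'n, hpd⟩ := hdepth v U hU
  haveI : U'.Normal := hU'n
  haveI : (U'.comap (D.r v)).Normal := hU'n.comap _
  have hV' : U'.comap (D.r v) ∈ (D.𝒯loc v).lev := D.comap_mem v U' hU'
  haveI := (D.𝒯loc v).finiteIndex _ hV'
  haveI : Finite (Gloc v ⧸ U'.comap (D.r v)) := Subgroup.finite_quotient_of_finiteIndex
  obtain ⟨u, hu⟩ := D.cm_loc v (U'.comap (D.r v)) hV'
  obtain ⟨n, hn, w, hw1, hw2, hw3, t, ht1, ht3, h⟩ :=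
    j2l_main (D.Jloc v) K (U.comap (D.r v)) (U'.comap (D.r v)) hFin p u hu (hUn.comap _)
      (Subgroup.comap_mono hU'U) hK hpd c hc1 hc2
      (fun k₀ k₁ k₂ s₀ s₁ s₂ hs₀ hs₁ hs₂ => hc3 k₀ k₁ k₂ s₀ s₁ s₂ hs₀ hs₁ hs₂)
  exact ⟨n, hn, U', hU', hU'U, hU'n, w, hw1, hw2,
    fun k₀ k₁ k₂ s₀ s₁ s₂ hs₀ hs₁ hs₂ => hw3 k₀ k₁ k₂ s₀ s₁ s₂ hs₀ hs₁ hs₂, t, ht1,
    fun k₀ k₁ s₀ s₁ hs₀ hs₁ => ht3 k₀ k₁ s₀ s₁ hs₀ hs₁, h⟩

end Fermat.Agent.TW.E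

end
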