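/-
TW-E / A4 (helper11): `stmtJ2Div : StmtJ2Div` (statement in TW/E/Plan.lean):
`H²_lev(G, Hom_ℤ(ℤ[Ω], J))` is `p`-divisible up to multiples prime to `p`, for every abstract datum
with `HasPDepthGlob`.  Assembly of A4-fin (J2Fin.lean), A4-loc (J2Loc.lean), A4-glue (J2Glue.lean).
Mathematics: NOTES/TW-E-A4.md.
-/
import Fermat.Agent.TW.E.J2Fin
import Fermat.Agent.TW.E.J2Loc
import Fermat.Agent.TW.E.J2Glue

set_option autoImplicit false

namespace Fermat.Agent.TW.E

/-- **A4-loc**, unconditional. -/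
theorem stmtJ2Loc : StmtJ2Loc := stmtJ2Loc_of stmtJ2Fin

/-- **A4 (J2div)**: `In6` for permutation lattices, from `HasPDepthGlob`. -/
theorem stmtJ2Div : StmtJ2Div := stmtJ2Div_of stmtJ2Loc

end Fermat.Agent.TW.E
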