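/-
Project TW (S56) — part TW-E, piece A3 (helper87), file 1: the dictionary between Mathlib's
`groupCohomology A 3` and 3-cocycle FUNCTIONS `Γ × Γ × Γ → A`.

* `h3d_exists_of_noPTors`: if `H³(Γ, A)` has no `p`-torsion, every 3-cocycle function killed by
  `p` is the coboundary of a 2-cochain function.
-/
import Fermat.Agent.TW.E.Plan

set_option autoImplicit false
set_option linter.unusedSectionVars false
set_option linter.unusedVariables false
set_option linter.style.haveILetI false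

noncomputable section

namespace Fermat.Agent.TW.E

open CategoryTheory groupCohomology Fermat.Agent.PT

attribute [local instance 1100] Rep.hV2

variable {Γ : Type} [Group Γ] (A : Rep.{0} ℤ Γ)

/-- The coboundary of a 2-cochain with values in a representation. -/
def dTwoRep (y : Γ × Γ → A.V) (s : Γ × Γ × Γ) : A.V :=
  A.ρ s.1 (y (s.2.1, s.2.2)) - y (s.1 * s.2.1, s.2.2) + y (s.1, s.2.1 * s.2.2) - y (s.1, s.2.1)

/-- the 3-cochain `(Fin 3 → Γ) → A` attached to a function on triples -/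
def h3d_toFin3 (z : Γ × Γ × Γ → A.V) : (Fin 3 → Γ) → A.V := fun g => z (g 0, g 1, g 2)

/-- the function on pairs attached to a 2-cochain `(Fin 2 → Γ) → A` -/
def h3d_ofFin2 (y : (Fin 2 → Γ) → A.V) : Γ × Γ → A.V := fun s => y ![s.1, s.2]

set_option backward.isDefEq.respectTransparency false in
lemma h3d_d3 (z : Γ × Γ × Γ → A.V) (g : Fin 4 → Γ) :
    (inhomogeneousCochains.d A 3).hom (h3d_toFin3 A z) g = dThreeRep A z (g 0, g 1, g 2, g 3) := by
  rw [inhomogeneousCochains.d_hom_apply, Fin.sum_univ_four]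
  have c00 : Fin.contractNth (0 : Fin 4) (fun x1 x2 => x1 * x2) g 0 = g 0 * g 1 := rfl
  have c01 : Fin.contractNth (0 : Fin 4) (fun x1 x2 => x1 * x2) g 1 = g 2 := rfl
  have c02 : Fin.contractNth (0 : Fin 4) (fun x1 x2 => x1 * x2) g 2 = g 3 := rfl
  have c10 : Fin.contractNth (1 : Fin 4) (fun x1 x2 => x1 * x2) g 0 = g 0 := rfl
  have c11 : Fin.contractNth (1 : Fin 4) (fun x1 x2 => x1 * x2) g 1 = g 1 * g 2 := rfl
  have c12 : Fin.contractNth (1 : Fin 4) (fun x1 x2 => x1 * x2) g 2 = g 3 := rfl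
  have c20 : Fin.contractNth (2 : Fin 4) (fun x1 x2 => x1 * x2) g 0 = g 0 := rfl
  have c21 : Fin.contractNth (2 : Fin 4) (fun x1 x2 => x1 * x2) g 1 = g 1 := rfl
  have c22 : Fin.contractNth (2 : Fin 4) (fun x1 x2 => x1 * x2) g 2 = g 2 * g 3 := rfl
  have c30 : Fin.contractNth (3 : Fin 4) (fun x1 x2 => x1 * x2) g 0 = g 0 := rfl
  have c31 : Fin.contractNth (3 : Fin 4) (fun x1 x2 => x1 * x2) g 1 = g 1 := rfl
  have c32 : Fin.contractNth (3 : Fin 4) (fun x1 x2 => x1 * x2) g 2 = g 2 := rfl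
  have s0 : (fun i : Fin 3 => g i.succ) 0 = g 1 := rfl
  have s1 : (fun i : Fin 3 => g i.succ) 1 = g 2 := rfl
  have s2 : (fun i : Fin 3 => g i.succ) 2 = g 3 := rfl
  simp only [h3d_toFin3, dThreeRep, c00, c01, c02, c10, c11, c12, c20, c21, c22, c30, c31, c32,
    s0, s1, s2]
  have e0 : ((0 : Fin 4) : ℕ) + 1 = 1 := rfl
  have e1 : ((1 : Fin 4) : ℕ) + 1 = 2 := rfl
  have e2 : ((2 : Fin 4) : ℕ) + 1 = 3 := rfl
  have e3 : ((3 : Fin 4) : ℕ) + 1 = 4 := rfl
  rw [e0, e1, e2, e3]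
  have p1 : ((-1 : ℤ)) ^ 1 = -1 := by norm_num
  have p2 : ((-1 : ℤ)) ^ 2 = 1 := by norm_num
  have p3 : ((-1 : ℤ)) ^ 3 = -1 := by norm_num
  have p4 : ((-1 : ℤ)) ^ 4 = 1 := by norm_num
  rw [p1, p2, p3, p4, neg_smul, neg_smul, one_smul, one_smul, one_smul, one_smul]
  abel

set_option backward.isDefEq.respectTransparency false in
lemma h3d_d2 (y : (Fin 2 → Γ) → A.V) (g : Fin 3 → Γ) :
    (inhomogeneousCochains.d A 2).hom y g = dTwoRep A (h3d_ofFin2 A y) (g 0, g 1, g 2) := by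
  rw [inhomogeneousCochains.d_hom_apply, Fin.sum_univ_three]
  have h0 : (fun i : Fin 2 => g i.succ) = ![g 1, g 2] := by
    funext i; fin_cases i <;> rfl
  have h1 : Fin.contractNth (0 : Fin 3) (fun x1 x2 => x1 * x2) g = ![g 0 * g 1, g 2] := by
    funext i; fin_cases i <;> rfl
  have h2 : Fin.contractNth (1 : Fin 3) (fun x1 x2 => x1 * x2) g = ![g 0, g 1 * g 2] := by
    funext i; fin_cases i <;> rfl
  have h3 : Fin.contractNth (2 : Fin 3) (fun x1 x2 => x1 * x2) g = ![g 0, g 1] := by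
    funext i; fin_cases i <;> rfl
  rw [h0, h1, h2, h3]
  simp only [dTwoRep, h3d_ofFin2]
  have e0 : ((0 : Fin 3) : ℕ) + 1 = 1 := rfl
  have e1 : ((1 : Fin 3) : ℕ) + 1 = 2 := rfl
  have e2 : ((2 : Fin 3) : ℕ) + 1 = 3 := rfl
  rw [e0, e1, e2]
  have p1 : ((-1 : ℤ)) ^ 1 = -1 := by norm_num
  have p2 : ((-1 : ℤ)) ^ 2 = 1 := by norm_num
  have p3 : ((-1 : ℤ)) ^ 3 = -1 := by norm_num
  rw [p1, p2, p3, neg_smul, neg_smul, one_smul, one_smul, one_smul]
  abel

/-- `π x = 0` means that `x` is a coboundary. -/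
lemma h3d_exists_of_π_eq_zero (x : cocycles A 3) (hx : (π A 3).hom x = 0) :
    ∃ y : (Fin 2 → Γ) → A.V, (toCocycles A 2 3).hom y = x := by
  let T : ShortComplex (ModuleCat ℤ) :=
    ShortComplex.mk (toCocycles A 2 3) (π A 3)
      ((inhomogeneousCochains A).toCycles_comp_homologyπ 2 3)
  have hT : T.Exact :=
    T.exact_of_g_is_cokernel ((inhomogeneousCochains A).homologyIsCokernel 2 3 (by simp))
  exact (ShortComplex.moduleCat_exact_iff T).1 hT x hx

/-- **The dictionary in degree 3.** If `H³(Γ, A)` has no `p`-torsion, then every 3-cocycle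
function killed by `p` is the coboundary of a 2-cochain function. -/
theorem h3d_exists_of_noPTors (p : ℕ)
    (hA : ∀ x : groupCohomology A 3, IsPTors p x → x = 0)
    (z : Γ × Γ × Γ → A.V) (hz : ∀ s, dThreeRep A z s = 0) (hp : ∀ s, p • z s = 0) :
    ∃ y : Γ × Γ → A.V, ∀ s, z s = dTwoRep A y s := by
  have hd : (inhomogeneousCochains.d A 3).hom (h3d_toFin3 A z) = 0 := by
    funext g
    rw [h3d_d3, hz]
    rfl
  set x : cocycles A 3 := cocyclesMk (h3d_toFin3 A z) hd with hx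
  have hix : (iCocycles A 3).hom x = h3d_toFin3 A z := iCocycles_mk _ hd
  have hpx : p • x = 0 := by
    apply (ModuleCat.mono_iff_injective (iCocycles A 3)).1 inferInstance
    rw [map_nsmul, hix, map_zero]
    funext g
    exact hp _
  have hπ : (π A 3).hom x = 0 := by
    apply hA
    refine ⟨1, ?_⟩
    rw [pow_one, ← map_nsmul, hpx, map_zero]
  obtain ⟨y, hy⟩ := h3d_exists_of_π_eq_zero A x hπ
  refine ⟨h3d_ofFin2 A y, fun s => ?_⟩
  have h1 : (iCocycles A 3).hom ((toCocycles A 2 3).hom y) =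
      (inhomogeneousCochains.d A 2).hom y := by
    have h0 : toCocycles A 2 3 ≫ iCocycles A 3 = inhomogeneousCochains.d A 2 := by
      rw [← inhomogeneousCochains.d_def]
      exact (inhomogeneousCochains A).toCycles_i 2 3
    have h2 := congrArg (fun f => f.hom y) h0
    simp only [ModuleCat.hom_comp, LinearMap.comp_apply] at h2
    exact h2
  rw [hy, hix] at h1
  have h3 := congrFun h1 ![s.1, s.2.1, s.2.2]
  rw [h3d_d2] at h3
  exact h3

end Fermat.Agent.TW.E
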