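/-
Project TW (S56) — part TW-E, piece A3 (helper87), file 3: the level dictionary in degree 3
(one degree above PT/F/Level.lean), for an arbitrary group `G` and a normal subgroup `U`.

* `desc3_inv_of_cocycle`: a 3-cocycle which is right-`U`-invariant has `U`-invariant values.
* `desc3_main`: if `H³(G ⧸ U, X^U)` has no `p`-torsion, then every right-`U`-invariant 3-cocycle
  `z : G³ → X` killed by `p` is `d y` for a 2-cochain `y` defined at level `U` (`Desc₂ X U y`).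
-/
import Fermat.Agent.TW.E.H3Dict
import Fermat.Agent.PT.F.Level

set_option autoImplicit false
set_option linter.unusedSectionVars false
set_option linter.unusedVariables false
set_option linter.style.haveILetI false

noncomputable section

namespace Fermat.Agent.TW.E

open CategoryTheory groupCohomology Fermat.Agent.PT Fermat.Agent.PT.F

attribute [local instance 1100] Rep.hV2

variable {G : Type} [Group G] (X : Rep.{0} ℤ G) (U : Subgroup G) [U.Normal]

/-- Right-`U`-invariance of a 3-cochain. -/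
def RInv₃ {Y : Type} (z : G × G × G → Y) : Prop :=
  ∀ g g' g'' s s' s'' : G, s ∈ U → s' ∈ U → s'' ∈ U →
    z (g * s, g' * s', g'' * s'') = z (g, g', g'')

variable {X U}

lemma desc3_left_inv {Y : Type} {z : G × G × G → Y} (hzU : RInv₃ U z) (s g g' g'' : G)
    (hs : s ∈ U) : z (s * g, g', g'') = z (g, g', g'') := by
  have h1 : s * g = g * (g⁻¹ * s * g) := by group
  have h2 : g⁻¹ * s * g ∈ U := by
    have := (inferInstance : U.Normal).conj_mem s hs g⁻¹
    simpa using this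
  have := hzU g g' g'' (g⁻¹ * s * g) 1 1 h2 U.one_mem U.one_mem
  rw [mul_one, mul_one] at this
  rw [h1, this]

lemma desc3_first_inv {Y : Type} {z : G × G × G → Y} (hzU : RInv₃ U z) (s g' g'' : G)
    (hs : s ∈ U) : z (s, g', g'') = z (1, g', g'') := by
  have := hzU 1 g' g'' s 1 1 hs U.one_mem U.one_mem
  rw [mul_one, mul_one, one_mul] at this
  exact this

/-- A right-`U`-invariant 3-cocycle has `U`-invariant values. -/
theorem desc3_inv_of_cocycle {z : G × G × G → X.V} (hz : ∀ s, dThreeRep X z s = 0)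
    (hzU : RInv₃ U z) (s : G) (hs : s ∈ U) (t : G × G × G) : X.ρ s (z t) = z t := by
  obtain ⟨τ, ρ, κ⟩ := t
  have h1 := hz (s, τ, ρ, κ)
  have h2 := hz (1, τ, ρ, κ)
  simp only [dThreeRep] at h1 h2
  rw [desc3_left_inv hzU s τ ρ κ hs, desc3_first_inv hzU s _ _ hs, desc3_first_inv hzU s _ _ hs,
    desc3_first_inv hzU s _ _ hs] at h1
  rw [one_mul, map_one, Module.End.one_apply] at h2
  have h3 : X.ρ s (z (τ, ρ, κ)) - z (τ, ρ, κ) = 0 := by
    have e : X.ρ s (z (τ, ρ, κ)) - z (τ, ρ, κ) =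
        (X.ρ s (z (τ, ρ, κ)) - z (τ, ρ, κ) + z (1, τ * ρ, κ) - z (1, τ, ρ * κ) + z (1, τ, ρ)) -
        (z (τ, ρ, κ) - z (τ, ρ, κ) + z (1, τ * ρ, κ) - z (1, τ, ρ * κ) + z (1, τ, ρ)) := by
      abel
    rw [e, h1, h2, sub_zero]
  exact sub_eq_zero.1 h3

variable (X U)

/-- Inflation of 3-cochains of `G ⧸ U` with values in `X^U`. -/
def infl₃ (z : (G ⧸ U) × (G ⧸ U) × (G ⧸ U) → (X.quotientToInvariants U).V) : G × G × G → X.V :=
  fun s => (z ((s.1 : G ⧸ U), (s.2.1 : G ⧸ U), (s.2.2 : G ⧸ U))).1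

variable {X U}

/-- Descent of a 3-cochain defined at level `U`. -/
def descend₃ (z : G × G × G → X.V) (hz : ∀ t, ∀ s ∈ U, X.ρ s (z t) = z t) :
    (G ⧸ U) × (G ⧸ U) × (G ⧸ U) → (X.quotientToInvariants U).V :=
  fun q => ⟨z (q.1.out, q.2.1.out, q.2.2.out), fun s => hz _ s.1 s.2⟩

theorem infl₃_descend₃ (z : G × G × G → X.V) (hzU : RInv₃ U z)
    (hz : ∀ t, ∀ s ∈ U, X.ρ s (z t) = z t) : infl₃ X U (descend₃ z hz) = z := by
  funext ⟨g, g', g''⟩
  obtain ⟨s, hs⟩ := QuotientGroup.mk_out_eq_mul U g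
  obtain ⟨s', hs'⟩ := QuotientGroup.mk_out_eq_mul U g'
  obtain ⟨s'', hs''⟩ := QuotientGroup.mk_out_eq_mul U g''
  show z (Quotient.out (g : G ⧸ U), Quotient.out (g' : G ⧸ U), Quotient.out (g'' : G ⧸ U)) =
    z (g, g', g'')
  rw [hs, hs', hs'']
  exact hzU g g' g'' s s' s'' s.2 s'.2 s''.2

theorem infl₃_dThreeRep (z : (G ⧸ U) × (G ⧸ U) × (G ⧸ U) → (X.quotientToInvariants U).V)
    (g₀ g₁ g₂ g₃ : G) :
    ((dThreeRep (X.quotientToInvariants U) z
      ((g₀ : G ⧸ U), (g₁ : G ⧸ U), (g₂ : G ⧸ U), (g₃ : G ⧸ U))).1 : X.V) =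
      dThreeRep X (infl₃ X U z) (g₀, g₁, g₂, g₃) := rfl

theorem infl₃_dTwoRep (y : (G ⧸ U) × (G ⧸ U) → (X.quotientToInvariants U).V)
    (g₀ g₁ g₂ : G) :
    infl₃ X U (dTwoRep (X.quotientToInvariants U) y) (g₀, g₁, g₂) =
      dTwoRep X (infl₂ X U y) (g₀, g₁, g₂) := rfl

/-- **Descent in degree 3.** -/
theorem desc3_main (p : ℕ)
    (hX : ∀ x : groupCohomology (X.quotientToInvariants U) 3, IsPTors p x → x = 0)
    (z : G × G × G → X.V) (hz : ∀ s, dThreeRep X z s = 0) (hzU : RInv₃ U z)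
    (hp : ∀ s, p • z s = 0) :
    ∃ y : G × G → X.V, Desc₂ X U y ∧ ∀ s, z s = dTwoRep X y s := by
  have hinv : ∀ t, ∀ s ∈ U, X.ρ s (z t) = z t := fun t s hs => desc3_inv_of_cocycle hz hzU s hs t
  set zb := descend₃ z hinv with hzb
  have hinfl : infl₃ X U zb = z := infl₃_descend₃ z hzU hinv
  have hzb_coc : ∀ s, dThreeRep (X.quotientToInvariants U) zb s = 0 := by
    rintro ⟨q₀, q₁, q₂, q₃⟩
    obtain ⟨g₀, rfl⟩ := QuotientGroup.mk_surjective q₀
    obtain ⟨g₁, rfl⟩ := QuotientGroup.mk_surjective q₁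
    obtain ⟨g₂, rfl⟩ := QuotientGroup.mk_surjective q₂
    obtain ⟨g₃, rfl⟩ := QuotientGroup.mk_surjective q₃
    apply Subtype.ext
    rw [infl₃_dThreeRep, hinfl, hz]
    rfl
  have hzb_p : ∀ s, p • zb s = 0 := by
    intro s
    apply Subtype.ext
    show p • z _ = 0
    exact hp _
  obtain ⟨yb, hyb⟩ := h3d_exists_of_noPTors (X.quotientToInvariants U) p hX zb hzb_coc hzb_p
  refine ⟨infl₂ X U yb, desc₂_infl₂ yb, ?_⟩
  rintro ⟨g₀, g₁, g₂⟩
  rw [← infl₃_dTwoRep, ← hinfl]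
  show ((zb _).1 : X.V) = ((dTwoRep (X.quotientToInvariants U) yb _).1 : X.V)
  rw [hyb]

end Fermat.Agent.TW.E
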