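/-
Project TW (S56) — part TW-E, piece A3 (helper87), file 4: the LOCAL input of `StmtJ3`.

`r : H → G` a homomorphism, `U` a normal subgroup of `G` acting trivially on the finite `G`-set `Ω`,
`V = r⁻¹ U`, `Y₀` an `H`-module such that `Y₀^V` has a `p`-fundamental class for `H ⧸ V` (finite).
Then every right-`V`-invariant 3-cocycle `H³ → Hom_ℤ(ℤ[Ω], Y₀)` killed by `p` is the coboundary of
a 2-cochain defined at level `V` (`j3_local`).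
-/
import Fermat.Agent.TW.E.Desc3
import Fermat.Agent.TW.E.E3

set_option autoImplicit false
set_option linter.unusedSectionVars false
set_option linter.unusedVariables false
set_option linter.style.haveILetI false

noncomputable section

namespace Fermat.Agent.TW.E

open CategoryTheory groupCohomology Fermat.Agent.PT Fermat.Agent.PT.F

attribute [local instance 1100] Rep.hV2

/-! ### Transfer of "no `p`-torsion in `H³`" along a retraction -/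

theorem j3_noPTors_of_retract {Γ : Type} [Group Γ] {A B : Rep.{0} ℤ Γ} (f : A ⟶ B) (g : B ⟶ A)
    (hfg : f ≫ g = 𝟙 A) (p : ℕ) (hB : ∀ x : groupCohomology B 3, IsPTors p x → x = 0) :
    ∀ x : groupCohomology A 3, IsPTors p x → x = 0 := by
  rintro x ⟨k, hk⟩
  have h1 : (groupCohomology.map (MonoidHom.id Γ) f 3).hom x = 0 :=
    hB _ ⟨k, by rw [← map_nsmul, hk, map_zero]⟩
  have h2 : groupCohomology.map (MonoidHom.id Γ) f 3 ≫ groupCohomology.map (MonoidHom.id Γ) g 3 =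
      𝟙 _ := by
    rw [← groupCohomology.map_id_comp, hfg, groupCohomology.map_id]
  have h3 := congrArg (fun φ => φ.hom x) h2
  simp only [ModuleCat.hom_comp, LinearMap.comp_apply, ModuleCat.hom_id, LinearMap.id_apply] at h3
  rw [← h3, h1, map_zero]

section Quot

variable {G H : Type} [Group G] [Group H] (r : H →* G) (U : Subgroup G) [U.Normal]
  (Ω : Type) [MulAction G Ω] (hΩ : ∀ s ∈ U, ∀ ω : Ω, s • ω = ω)

/-- the homomorphism `H ⧸ r⁻¹U → Perm Ω` -/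
def j3_quotHom : H ⧸ (U.comap r) →* Equiv.Perm Ω :=
  QuotientGroup.lift (U.comap r) ((MulAction.toPermHom G Ω).comp r) (fun s hs => by
    ext ω
    exact hΩ (r s) hs ω)

/-- the action of `H ⧸ r⁻¹U` on `Ω` -/
@[reducible] def j3_quotAction : MulAction (H ⧸ (U.comap r)) Ω :=
  MulAction.compHom Ω (j3_quotHom r U Ω hΩ)

lemma j3_quot_smul (d : H) (ω : Ω) :
    (letI := j3_quotAction r U Ω hΩ; ((d : H ⧸ (U.comap r)) • ω)) = (r d) • ω := rfl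

/-- `ℤ[Ω]` as a module over `H ⧸ r⁻¹U` -/
abbrev j3_Mbar : Rep.{0} ℤ (H ⧸ (U.comap r)) :=
  @Rep.ofMulAction ℤ (H ⧸ (U.comap r)) _ _ Ω (j3_quotAction r U Ω hΩ)

/-- `ℤ[Ω]` as a module over `H` -/
abbrev j3_M : Rep.{0} ℤ H := Rep.res r (permZ G Ω)

lemma j3_Mbar_ρ_single (d : H) (ω : Ω) (n : ℤ) :
    (j3_Mbar r U Ω hΩ).ρ (d : H ⧸ (U.comap r)) (MonoidAlgebra.single ω n) =
      MonoidAlgebra.single ((r d) • ω) n := by
  letI := j3_quotAction r U Ω hΩ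
  exact Representation.ofMulAction_single (d : H ⧸ (U.comap r)) ω n

lemma j3_M_ρ_single (d : H) (ω : Ω) (n : ℤ) :
    (j3_M r Ω).ρ d (MonoidAlgebra.single ω n) = MonoidAlgebra.single ((r d) • ω) n :=
  Representation.ofMulAction_single (r d) ω n

lemma j3_Mbar_ρ (d : H) (m : MonoidAlgebra ℤ Ω) :
    (j3_Mbar r U Ω hΩ).ρ (d : H ⧸ (U.comap r)) m = (j3_M r Ω).ρ d m := by
  have h := e3_ext (G := G) Ω
    (((j3_Mbar r U Ω hΩ).ρ (d : H ⧸ (U.comap r))).toAddMonoidHom)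
    (((j3_M r Ω).ρ d).toAddMonoidHom) (fun ω => by
      show (j3_Mbar r U Ω hΩ).ρ (d : H ⧸ (U.comap r)) (MonoidAlgebra.single ω 1) =
        (j3_M r Ω).ρ d (MonoidAlgebra.single ω 1)
      rw [j3_Mbar_ρ_single, j3_M_ρ_single])
  exact DFunLike.congr_fun h m

include hΩ in
lemma j3_M_triv (s : H) (hs : s ∈ U.comap r) (m : MonoidAlgebra ℤ Ω) :
    (j3_M r Ω).ρ s m = m := by
  have h := e3_ext (G := G) Ω (((j3_M r Ω).ρ s).toAddMonoidHom)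
    (AddMonoidHom.id _) (fun ω => by
      show (j3_M r Ω).ρ s (MonoidAlgebra.single ω 1) = MonoidAlgebra.single ω 1
      rw [j3_M_ρ_single, hΩ (r s) hs ω])
  exact DFunLike.congr_fun h m

/-! ### The retraction `Hom(ℤ[Ω], Y₀)^V → Hom(ℤ[Ω], Y₀^V)` -/

variable (Y₀ : Rep.{0} ℤ H)

/-- `X = Hom_ℤ(ℤ[Ω], Y₀)` as an `H`-module -/
abbrev j3_X : Rep.{0} ℤ H := homRep (j3_M r Ω) Y₀

/-- `A = Hom_ℤ(ℤ[Ω], Y₀^V)` as an `H ⧸ V`-module -/
abbrev j3_A : Rep.{0} ℤ (H ⧸ (U.comap r)) :=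
  homRep (j3_Mbar r U Ω hΩ) (Y₀.quotientToInvariants (U.comap r))

include hΩ in
lemma j3_inv_val (x : ((j3_X r Ω Y₀).quotientToInvariants (U.comap r)).V)
    (m : MonoidAlgebra ℤ Ω) (s : ↥(U.comap r)) :
    Y₀.ρ (s : H) ((x.1 : MonoidAlgebra ℤ Ω →+ Y₀.V) m) = (x.1 : MonoidAlgebra ℤ Ω →+ Y₀.V) m := by
  have h1 : (j3_X r Ω Y₀).ρ (s : H) x.1 = x.1 := x.2 s
  have h2 := DFunLike.congr_fun h1 m
  have h3 : ((j3_X r Ω Y₀).ρ (s : H) x.1 : MonoidAlgebra ℤ Ω →+ Y₀.V) m =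
      Y₀.ρ (s : H) ((x.1 : MonoidAlgebra ℤ Ω →+ Y₀.V) ((j3_M r Ω).ρ (s : H)⁻¹ m)) := rfl
  rw [h3, j3_M_triv r U Ω hΩ _ ((U.comap r).inv_mem s.2)] at h2
  exact h2

/-- `x ↦ (m ↦ x m)`, values viewed in `Y₀^V` -/
def j3_fAdd : ((j3_X r Ω Y₀).quotientToInvariants (U.comap r)).V →+ (j3_A r U Ω hΩ Y₀).V where
  toFun x :=
    { toFun := fun m => ⟨(x.1 : MonoidAlgebra ℤ Ω →+ Y₀.V) m, fun s => j3_inv_val r U Ω hΩ Y₀ x m s⟩
      map_zero' := Subtype.ext (map_zero (x.1 : MonoidAlgebra ℤ Ω →+ Y₀.V))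
      map_add' := fun m m' => Subtype.ext (map_add (x.1 : MonoidAlgebra ℤ Ω →+ Y₀.V) m m') }
  map_zero' := by
    apply AddMonoidHom.ext
    intro m
    rfl
  map_add' x x' := by
    apply AddMonoidHom.ext
    intro m
    rfl

lemma j3_fAdd_apply (x : ((j3_X r Ω Y₀).quotientToInvariants (U.comap r)).V)
    (m : MonoidAlgebra ℤ Ω) :
    (((j3_fAdd r U Ω hΩ Y₀ x : MonoidAlgebra ℤ Ω →+ (Y₀.quotientToInvariants (U.comap r)).V) m).1
      : Y₀.V) = (x.1 : MonoidAlgebra ℤ Ω →+ Y₀.V) m := rfl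

/-- the additive map `m ↦ (k m).1` -/
def j3_gVal (k : (j3_A r U Ω hΩ Y₀).V) : MonoidAlgebra ℤ Ω →+ Y₀.V where
  toFun m := ((k : MonoidAlgebra ℤ Ω →+ (Y₀.quotientToInvariants (U.comap r)).V) m).1
  map_zero' := by
    rw [map_zero]
    rfl
  map_add' m m' := by
    rw [map_add]
    rfl

include hΩ in
lemma j3_gVal_inv (k : (j3_A r U Ω hΩ Y₀).V) (s : ↥(U.comap r)) :
    (j3_X r Ω Y₀).ρ (s : H) (j3_gVal r U Ω hΩ Y₀ k) = j3_gVal r U Ω hΩ Y₀ k := by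
  apply AddMonoidHom.ext
  intro m
  show Y₀.ρ (s : H) (j3_gVal r U Ω hΩ Y₀ k ((j3_M r Ω).ρ (s : H)⁻¹ m)) = j3_gVal r U Ω hΩ Y₀ k m
  rw [j3_M_triv r U Ω hΩ _ ((U.comap r).inv_mem s.2)]
  exact ((k : MonoidAlgebra ℤ Ω →+ (Y₀.quotientToInvariants (U.comap r)).V) m).2 s

/-- `k ↦ (m ↦ (k m).1)` -/
def j3_gAdd : (j3_A r U Ω hΩ Y₀).V →+ ((j3_X r Ω Y₀).quotientToInvariants (U.comap r)).V where
  toFun k := ⟨j3_gVal r U Ω hΩ Y₀ k, fun s => j3_gVal_inv r U Ω hΩ Y₀ k s⟩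
  map_zero' := by
    apply Subtype.ext
    apply AddMonoidHom.ext
    intro m
    rfl
  map_add' k k' := by
    apply Subtype.ext
    apply AddMonoidHom.ext
    intro m
    rfl

lemma j3_fAdd_comm (q : H ⧸ (U.comap r))
    (x : ((j3_X r Ω Y₀).quotientToInvariants (U.comap r)).V) :
    j3_fAdd r U Ω hΩ Y₀ (((j3_X r Ω Y₀).quotientToInvariants (U.comap r)).ρ q x) =
      (j3_A r U Ω hΩ Y₀).ρ q (j3_fAdd r U Ω hΩ Y₀ x) := by
  obtain ⟨d, rfl⟩ := QuotientGroup.mk_surjective q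
  apply AddMonoidHom.ext
  intro m
  apply Subtype.ext
  show Y₀.ρ d ((x.1 : MonoidAlgebra ℤ Ω →+ Y₀.V) ((j3_M r Ω).ρ d⁻¹ m)) =
    Y₀.ρ d ((x.1 : MonoidAlgebra ℤ Ω →+ Y₀.V)
      ((j3_Mbar r U Ω hΩ).ρ ((d : H ⧸ (U.comap r)))⁻¹ m))
  have h : ((d : H ⧸ (U.comap r)))⁻¹ = ((d⁻¹ : H) : H ⧸ (U.comap r)) := rfl
  rw [h, j3_Mbar_ρ]

lemma j3_gAdd_comm (q : H ⧸ (U.comap r)) (k : (j3_A r U Ω hΩ Y₀).V) :
    j3_gAdd r U Ω hΩ Y₀ ((j3_A r U Ω hΩ Y₀).ρ q k) =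
      ((j3_X r Ω Y₀).quotientToInvariants (U.comap r)).ρ q (j3_gAdd r U Ω hΩ Y₀ k) := by
  obtain ⟨d, rfl⟩ := QuotientGroup.mk_surjective q
  apply Subtype.ext
  apply AddMonoidHom.ext
  intro m
  show Y₀.ρ d (((k : MonoidAlgebra ℤ Ω →+ (Y₀.quotientToInvariants (U.comap r)).V)
      ((j3_Mbar r U Ω hΩ).ρ ((d : H ⧸ (U.comap r)))⁻¹ m)).1) =
    Y₀.ρ d (((k : MonoidAlgebra ℤ Ω →+ (Y₀.quotientToInvariants (U.comap r)).V)
      ((j3_M r Ω).ρ d⁻¹ m)).1)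
  have h : ((d : H ⧸ (U.comap r)))⁻¹ = ((d⁻¹ : H) : H ⧸ (U.comap r)) := rfl
  rw [h, j3_Mbar_ρ]

include hΩ in
/-- **local vanishing**: `H³(H ⧸ V, Hom(ℤ[Ω], Y₀)^V)` has no `p`-torsion. -/
theorem j3_local_noPTors (hperm : StmtH3FundPerm) (p : ℕ) [Fact p.Prime] [Fintype Ω]
    [Finite (H ⧸ (U.comap r))]
    (u : H2 (Y₀.quotientToInvariants (U.comap r)))
    (hu : IsPFundClass p (Y₀.quotientToInvariants (U.comap r)) u) :
    ∀ x : groupCohomology ((j3_X r Ω Y₀).quotientToInvariants (U.comap r)) 3,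
      IsPTors p x → x = 0 := by
  classical
  haveI : Fintype (H ⧸ (U.comap r)) := Fintype.ofFinite _
  have hA : ∀ x : groupCohomology (j3_A r U Ω hΩ Y₀) 3, IsPTors p x → x = 0 := by
    letI := j3_quotAction r U Ω hΩ
    exact hperm p (H ⧸ (U.comap r)) (Y₀.quotientToInvariants (U.comap r)) u hu Ω
  refine j3_noPTors_of_retract
    (PT.F.mkHom (j3_fAdd r U Ω hΩ Y₀) (j3_fAdd_comm r U Ω hΩ Y₀))
    (PT.F.mkHom (j3_gAdd r U Ω hΩ Y₀) (j3_gAdd_comm r U Ω hΩ Y₀)) ?_ p hA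
  apply Rep.hom_ext
  ext x m
  rfl

include hΩ in
/-- **The local input of J3.** -/
theorem j3_local (hperm : StmtH3FundPerm) (p : ℕ) [Fact p.Prime] [Fintype Ω]
    [Finite (H ⧸ (U.comap r))]
    (u : H2 (Y₀.quotientToInvariants (U.comap r)))
    (hu : IsPFundClass p (Y₀.quotientToInvariants (U.comap r)) u)
    (z : H × H × H → (MonoidAlgebra ℤ Ω →+ Y₀.V))
    (hz : ∀ s, dThreeRep (j3_X r Ω Y₀) z s = 0) (hzU : RInv₃ (U.comap r) z)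
    (hp : ∀ s, p • z s = 0) :
    ∃ y : H × H → (MonoidAlgebra ℤ Ω →+ Y₀.V), Desc₂ (j3_X r Ω Y₀) (U.comap r) y ∧
      ∀ s, z s = dTwoRep (j3_X r Ω Y₀) y s :=
  desc3_main p (j3_local_noPTors r U Ω hΩ Y₀ hperm p u hu) z hz hzU hp

end Quot

end Fermat.Agent.TW.E
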