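/-
Project TW (S56) — part TW-E, piece A3 (helper87), file 2: the explicit Shapiro homotopy in
degree 3, in HOMOGENEOUS form (pure group theory; one degree above PT/F/ShapiroHtpy.lean).

`shap3_main`: an `H`-equivariant, right-`U`-invariant homogeneous 3-cocycle `Φ : G⁴ → X` whose
restriction to `r(H)⁴` is `dΨ` (`Ψ` equivariant, right-`r⁻¹U`-invariant) is `dΘ` with `Θ`
equivariant and right-`U`-invariant: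
`Θ(g₀,g₁,g₂) = Ψ(πg₀,πg₁,πg₂) + Φ(rπg₀,g₀,g₁,g₂) - Φ(rπg₀,rπg₁,g₁,g₂) + Φ(rπg₀,rπg₁,rπg₂,g₂)`.
-/
import Fermat.Agent.PT.F.ShapiroHtpy

set_option autoImplicit false

namespace Fermat.Agent.TW.E

open Fermat.Agent.PT.F.ShapiroHtpy

variable {G H X : Type} [Group G] [Group H] [AddCommGroup X]

/-- **Explicit Shapiro homotopy in degree 3** (homogeneous form). -/
theorem shap3_main (r : H →* G) (act : H → X →+ X) (U : Subgroup G) [U.Normal]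
    (Φ : G → G → G → G → X) (Ψ : H → H → H → X)
    (hΦ1 : ∀ d g₀ g₁ g₂ g₃,
      Φ (r d * g₀) (r d * g₁) (r d * g₂) (r d * g₃) = act d (Φ g₀ g₁ g₂ g₃))
    (hΦ2 : ∀ g₀ g₁ g₂ g₃ g₄,
      Φ g₁ g₂ g₃ g₄ - Φ g₀ g₂ g₃ g₄ + Φ g₀ g₁ g₃ g₄ - Φ g₀ g₁ g₂ g₄ + Φ g₀ g₁ g₂ g₃ = 0)
    (hΦ3 : ∀ g₀ g₁ g₂ g₃ u₀ u₁ u₂ u₃, u₀ ∈ U → u₁ ∈ U → u₂ ∈ U → u₃ ∈ U →
      Φ (g₀ * u₀) (g₁ * u₁) (g₂ * u₂) (g₃ * u₃) = Φ g₀ g₁ g₂ g₃)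
    (hΨ1 : ∀ d d₀ d₁ d₂, Ψ (d * d₀) (d * d₁) (d * d₂) = act d (Ψ d₀ d₁ d₂))
    (hΨ3 : ∀ d₀ d₁ d₂ w₀ w₁ w₂, r w₀ ∈ U → r w₁ ∈ U → r w₂ ∈ U →
      Ψ (d₀ * w₀) (d₁ * w₁) (d₂ * w₂) = Ψ d₀ d₁ d₂)
    (hΦΨ : ∀ d₀ d₁ d₂ d₃,
      Φ (r d₀) (r d₁) (r d₂) (r d₃) = Ψ d₁ d₂ d₃ - Ψ d₀ d₂ d₃ + Ψ d₀ d₁ d₃ - Ψ d₀ d₁ d₂) :
    ∃ Θ : G → G → G → X,
      (∀ d g₀ g₁ g₂, Θ (r d * g₀) (r d * g₁) (r d * g₂) = act d (Θ g₀ g₁ g₂)) ∧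
      (∀ g₀ g₁ g₂ u₀ u₁ u₂, u₀ ∈ U → u₁ ∈ U → u₂ ∈ U →
        Θ (g₀ * u₀) (g₁ * u₁) (g₂ * u₂) = Θ g₀ g₁ g₂) ∧
      (∀ g₀ g₁ g₂ g₃, Φ g₀ g₁ g₂ g₃ = Θ g₁ g₂ g₃ - Θ g₀ g₂ g₃ + Θ g₀ g₁ g₃ - Θ g₀ g₁ g₂) := by
  obtain ⟨π, hπ⟩ := exists_proj r U
  have hπ' : ∀ (d : H) (g u : G), u ∈ U → ∃ w : H, r w ∈ U ∧ π (r d * g * u) = d * π g * w :=
    fun d g u hu => ⟨(d * π g)⁻¹ * π (r d * g * u), hπ d g u hu, by group⟩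
  refine ⟨fun g₀ g₁ g₂ => Ψ (π g₀) (π g₁) (π g₂) + Φ (r (π g₀)) g₀ g₁ g₂
      - Φ (r (π g₀)) (r (π g₁)) g₁ g₂ + Φ (r (π g₀)) (r (π g₁)) (r (π g₂)) g₂, ?_, ?_, ?_⟩
  · intro d g₀ g₁ g₂
    obtain ⟨w₀, hw₀, e₀⟩ := hπ' d g₀ 1 U.one_mem
    obtain ⟨w₁, hw₁, e₁⟩ := hπ' d g₁ 1 U.one_mem
    obtain ⟨w₂, hw₂, e₂⟩ := hπ' d g₂ 1 U.one_mem
    rw [mul_one] at e₀ e₁ e₂
    simp only [e₀, e₁, e₂]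
    rw [hΨ3 _ _ _ _ _ _ hw₀ hw₁ hw₂, hΨ1]
    have h1 : Φ (r (d * π g₀ * w₀)) (r d * g₀) (r d * g₁) (r d * g₂) =
        act d (Φ (r (π g₀)) g₀ g₁ g₂) := by
      have := hΦ3 (r d * r (π g₀)) (r d * g₀) (r d * g₁) (r d * g₂) (r w₀) 1 1 1 hw₀
        U.one_mem U.one_mem U.one_mem
      rw [mul_one, mul_one, mul_one] at this
      rw [map_mul, map_mul, this, hΦ1]
    have h2 : Φ (r (d * π g₀ * w₀)) (r (d * π g₁ * w₁)) (r d * g₁) (r d * g₂) =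
        act d (Φ (r (π g₀)) (r (π g₁)) g₁ g₂) := by
      have := hΦ3 (r d * r (π g₀)) (r d * r (π g₁)) (r d * g₁) (r d * g₂) (r w₀) (r w₁) 1 1
        hw₀ hw₁ U.one_mem U.one_mem
      rw [mul_one, mul_one] at this
      rw [map_mul, map_mul, map_mul, map_mul, this, hΦ1]
    have h3 : Φ (r (d * π g₀ * w₀)) (r (d * π g₁ * w₁)) (r (d * π g₂ * w₂)) (r d * g₂) =
        act d (Φ (r (π g₀)) (r (π g₁)) (r (π g₂)) g₂) := by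
      have := hΦ3 (r d * r (π g₀)) (r d * r (π g₁)) (r d * r (π g₂)) (r d * g₂) (r w₀) (r w₁)
        (r w₂) 1 hw₀ hw₁ hw₂ U.one_mem
      rw [mul_one] at this
      rw [map_mul, map_mul, map_mul, map_mul, map_mul, map_mul, this, hΦ1]
    rw [h1, h2, h3, map_add, map_sub, map_add]
  · intro g₀ g₁ g₂ u₀ u₁ u₂ hu₀ hu₁ hu₂
    obtain ⟨w₀, hw₀, e₀⟩ := hπ' 1 g₀ u₀ hu₀
    obtain ⟨w₁, hw₁, e₁⟩ := hπ' 1 g₁ u₁ hu₁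
    obtain ⟨w₂, hw₂, e₂⟩ := hπ' 1 g₂ u₂ hu₂
    rw [map_one, one_mul, one_mul] at e₀ e₁ e₂
    simp only [e₀, e₁, e₂]
    rw [hΨ3 _ _ _ _ _ _ hw₀ hw₁ hw₂]
    have h1 : Φ (r (π g₀ * w₀)) (g₀ * u₀) (g₁ * u₁) (g₂ * u₂) = Φ (r (π g₀)) g₀ g₁ g₂ := by
      rw [map_mul]
      exact hΦ3 _ _ _ _ _ _ _ _ hw₀ hu₀ hu₁ hu₂
    have h2 : Φ (r (π g₀ * w₀)) (r (π g₁ * w₁)) (g₁ * u₁) (g₂ * u₂) =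
        Φ (r (π g₀)) (r (π g₁)) g₁ g₂ := by
      rw [map_mul, map_mul]
      exact hΦ3 _ _ _ _ _ _ _ _ hw₀ hw₁ hu₁ hu₂
    have h3 : Φ (r (π g₀ * w₀)) (r (π g₁ * w₁)) (r (π g₂ * w₂)) (g₂ * u₂) =
        Φ (r (π g₀)) (r (π g₁)) (r (π g₂)) g₂ := by
      rw [map_mul, map_mul, map_mul]
      exact hΦ3 _ _ _ _ _ _ _ _ hw₀ hw₁ hw₂ hu₂
    rw [h1, h2, h3]
  · intro g₀ g₁ g₂ g₃
    have c1 := hΦ2 (r (π g₀)) g₀ g₁ g₂ g₃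
    have c2 := hΦ2 (r (π g₀)) (r (π g₁)) g₁ g₂ g₃
    have c3 := hΦ2 (r (π g₀)) (r (π g₁)) (r (π g₂)) g₂ g₃
    have c4 := hΦ2 (r (π g₀)) (r (π g₁)) (r (π g₂)) (r (π g₃)) g₃
    have c5 := hΦΨ (π g₀) (π g₁) (π g₂) (π g₃)
    beta_reduce
    rw [← sub_eq_zero]
    have key : Φ g₀ g₁ g₂ g₃ -
        (Ψ (π g₁) (π g₂) (π g₃) + Φ (r (π g₁)) g₁ g₂ g₃ - Φ (r (π g₁)) (r (π g₂)) g₂ g₃ +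
            Φ (r (π g₁)) (r (π g₂)) (r (π g₃)) g₃ -
          (Ψ (π g₀) (π g₂) (π g₃) + Φ (r (π g₀)) g₀ g₂ g₃ - Φ (r (π g₀)) (r (π g₂)) g₂ g₃ +
            Φ (r (π g₀)) (r (π g₂)) (r (π g₃)) g₃) +
          (Ψ (π g₀) (π g₁) (π g₃) + Φ (r (π g₀)) g₀ g₁ g₃ - Φ (r (π g₀)) (r (π g₁)) g₁ g₃ +
            Φ (r (π g₀)) (r (π g₁)) (r (π g₃)) g₃) -
          (Ψ (π g₀) (π g₁) (π g₂) + Φ (r (π g₀)) g₀ g₁ g₂ - Φ (r (π g₀)) (r (π g₁)) g₁ g₂ +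
            Φ (r (π g₀)) (r (π g₁)) (r (π g₂)) g₂)) =
        (Φ g₀ g₁ g₂ g₃ - Φ (r (π g₀)) g₁ g₂ g₃ + Φ (r (π g₀)) g₀ g₂ g₃ -
            Φ (r (π g₀)) g₀ g₁ g₃ + Φ (r (π g₀)) g₀ g₁ g₂) -
          (Φ (r (π g₁)) g₁ g₂ g₃ - Φ (r (π g₀)) g₁ g₂ g₃ + Φ (r (π g₀)) (r (π g₁)) g₂ g₃ -
            Φ (r (π g₀)) (r (π g₁)) g₁ g₃ + Φ (r (π g₀)) (r (π g₁)) g₁ g₂) +
          (Φ (r (π g₁)) (r (π g₂)) g₂ g₃ - Φ (r (π g₀)) (r (π g₂)) g₂ g₃ +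
            Φ (r (π g₀)) (r (π g₁)) g₂ g₃ - Φ (r (π g₀)) (r (π g₁)) (r (π g₂)) g₃ +
            Φ (r (π g₀)) (r (π g₁)) (r (π g₂)) g₂) -
          (Φ (r (π g₁)) (r (π g₂)) (r (π g₃)) g₃ - Φ (r (π g₀)) (r (π g₂)) (r (π g₃)) g₃ +
            Φ (r (π g₀)) (r (π g₁)) (r (π g₃)) g₃ - Φ (r (π g₀)) (r (π g₁)) (r (π g₂)) g₃ +
            Φ (r (π g₀)) (r (π g₁)) (r (π g₂)) (r (π g₃))) +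
          (Φ (r (π g₀)) (r (π g₁)) (r (π g₂)) (r (π g₃)) -
            (Ψ (π g₁) (π g₂) (π g₃) - Ψ (π g₀) (π g₂) (π g₃) + Ψ (π g₀) (π g₁) (π g₃) -
              Ψ (π g₀) (π g₁) (π g₂))) := by
      abel
    rw [key, c1, c2, c3, c4, c5]
    abel

end Fermat.Agent.TW.E
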