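/-
Project TW (S56) — part TW-E, piece A3 (helper87): `stmtJ3_of : StmtH3FundPerm → StmtJ3` and
`stmtJ3 : StmtJ3`.

`In5` for permutation lattices: a level 3-cocycle `z : G³ → Hom_ℤ(ℤ[Ω], J)` killed by `p` is the
coboundary of a level 2-cochain (`n = 1`).
Route: (1) local components `z_v = ev_v ∘ z ∘ r_v³` descend to the finite quotients `G_v ⧸ r_v⁻¹U`,
where `H³` has no `p`-torsion (`StmtH3FundPerm` + `cm_loc`): `z_v = d y_v` (J3Local.lean);
(2) semilocal Shapiro in degree 3 by the explicit homotopy (Shapiro3.lean, J3Shapiro.lean).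
-/
import Fermat.Agent.TW.E.J3Local
import Fermat.Agent.TW.E.J3Shapiro
import Fermat.Agent.TW.E.H3Fund
import Fermat.Agent.TW.E.H3Perm

set_option autoImplicit false
set_option linter.unusedSectionVars false
set_option linter.unusedVariables false
set_option linter.style.haveILetI false

noncomputable section

namespace Fermat.Agent.TW.E

open CategoryTheory groupCohomology Fermat.Agent.PT Fermat.Agent.PT.F

attribute [local instance 1100] Rep.hV2

section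

variable {p : ℕ} {G : Type} [Group G] {ι : Type} {Gloc : ι → Type} [∀ v, Group (Gloc v)]
  (D : PTDatum p G ι Gloc) (Ω : Type) [MulAction G Ω]

lemma j3_permZ_triv (U : Subgroup G) (hΩ : ∀ s ∈ U, ∀ ω : Ω, s • ω = ω) (s : G) (hs : s ∈ U)
    (m : (permZ G Ω).V) : (permZ G Ω).ρ s m = m := by
  have h := e3_ext (G := G) Ω (((permZ G Ω).ρ s).toAddMonoidHom)
    (AddMonoidHom.id _) (fun ω => by
      show (permZ G Ω).ρ s (MonoidAlgebra.single ω 1) = MonoidAlgebra.single ω 1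
      rw [e3_ρ_single, hΩ s hs ω])
  exact DFunLike.congr_fun h m

/-- the local component of a 3-cochain -/
def j3_zv (z : G × G × G → ((permZ G Ω).V →+ (PTJ D).V)) (v : ι)
    (s : Gloc v × Gloc v × Gloc v) : (permZ G Ω).V →+ (D.Jloc v).V :=
  (ev D v).comp (z (D.r v s.1, D.r v s.2.1, D.r v s.2.2))

lemma j3_zv_cocycle (z : G × G × G → ((permZ G Ω).V →+ (PTJ D).V))
    (hz : ∀ s, dThree (permZ G Ω) (PTJ D) z s = 0) (v : ι)
    (s : Gloc v × Gloc v × Gloc v × Gloc v) :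
    dThreeRep (j3_X (D.r v) Ω (D.Jloc v)) (j3_zv D Ω z v) s = 0 := by
  obtain ⟨d₀, d₁, d₂, d₃⟩ := s
  have h := hz (D.r v d₀, D.r v d₁, D.r v d₂, D.r v d₃)
  simp only [dThree] at h
  have h' := congrArg (fun φ => (ev D v).comp φ) h
  simp only [AddMonoidHom.comp_add, AddMonoidHom.comp_sub, AddMonoidHom.comp_zero] at h'
  rw [in2a_ev_conj, ← map_mul, ← map_mul, ← map_mul] at h'
  exact h'

lemma j3_zv_rinv (z : G × G × G → ((permZ G Ω).V →+ (PTJ D).V)) (U : Subgroup G)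
    (hzU : RInv₃ U z) (v : ι) : RInv₃ (U.comap (D.r v)) (j3_zv D Ω z v) := by
  intro g g' g'' s s' s'' hs hs' hs''
  unfold j3_zv
  simp only [map_mul]
  rw [hzU _ _ _ _ _ _ hs hs' hs'']

lemma j3_zv_p (z : G × G × G → ((permZ G Ω).V →+ (PTJ D).V)) (hp : ∀ s, p • z s = 0) (v : ι)
    (s : Gloc v × Gloc v × Gloc v) : p • j3_zv D Ω z v s = 0 := by
  unfold j3_zv
  apply AddMonoidHom.ext
  intro m
  have h := DFunLike.congr_fun (hp (D.r v s.1, D.r v s.2.1, D.r v s.2.2)) m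
  show p • ev D v (z (D.r v s.1, D.r v s.2.1, D.r v s.2.2) m) = 0
  rw [← map_nsmul]
  have h2 : p • (z (D.r v s.1, D.r v s.2.1, D.r v s.2.2) m) = 0 := h
  rw [h2, map_zero]

end

/-- **TW-E / A3**, from `StmtH3FundPerm`. -/
theorem stmtJ3_of (hperm : StmtH3FundPerm) : StmtJ3 := by
  intro p _ G _ ι _ Gloc _ D Ω _ _ hΩ z hzlev hz hp
  classical
  obtain ⟨U₁, hU₁, h₁⟩ := hzlev
  obtain ⟨U₂, hU₂, h₂⟩ := hΩ
  obtain ⟨U, hU, hUle, hUn⟩ := D.𝒯.exists_normal (U₁ ⊓ U₂) (D.𝒯.inf_mem U₁ U₂ hU₁ hU₂)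
  have hzU : RInv₃ U z := fun g g' g'' s s' s'' hs hs' hs'' =>
    h₁ g g' g'' s s' s'' (hUle hs).1 (hUle hs').1 (hUle hs'').1
  have hΩU : ∀ s ∈ U, ∀ ω : Ω, s • ω = ω := fun s hs ω => h₂ s (hUle hs).2 ω
  have hUM : ∀ s ∈ U, ∀ m : (permZ G Ω).V, (permZ G Ω).ρ s m = m :=
    fun s hs m => j3_permZ_triv Ω U hΩU s hs m
  have hloc : ∀ v, ∃ yv : Gloc v × Gloc v → ((permZ G Ω).V →+ (D.Jloc v).V),
      Desc₂ (homRep (Rep.res (D.r v) (permZ G Ω)) (D.Jloc v)) (U.comap (D.r v)) yv ∧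
      ∀ s, j3_zv D Ω z v s = dTwoRep (homRep (Rep.res (D.r v) (permZ G Ω)) (D.Jloc v)) yv s := by
    intro v
    have hVmem : U.comap (D.r v) ∈ (D.𝒯loc v).lev := D.comap_mem v U hU
    haveI : (U.comap (D.r v)).FiniteIndex := (D.𝒯loc v).finiteIndex _ hVmem
    haveI : Finite (Gloc v ⧸ (U.comap (D.r v))) := Subgroup.finite_quotient_of_finiteIndex
    obtain ⟨u, hu⟩ := D.cm_loc v (U.comap (D.r v)) hVmem
    exact j3_local (D.r v) U Ω hΩU (D.Jloc v) hperm p u hu (j3_zv D Ω z v)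
      (j3_zv_cocycle D Ω z hz v) (j3_zv_rinv D Ω z U hzU v) (j3_zv_p D Ω z hp v)
  choose yv hyv hzy using hloc
  obtain ⟨y, hylev, hy⟩ := j3_shapiro D (permZ G Ω) U hUn hU hUM z hz hzU yv hyv hzy
  refine ⟨1, ?_, y, hylev, fun s => ?_⟩
  · intro h
    exact (Fact.out : p.Prime).one_lt.ne' (Nat.dvd_one.1 h)
  · rw [one_smul]
    exact hy s

/-- **TW-E / A3.** -/
theorem stmtJ3 : StmtJ3 := stmtJ3_of (stmtH3FundPerm_of stmtH3Fund)

end Fermat.Agent.TW.E
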