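/-
TW-E, block E-add, FINAL wiring (helper30): all pieces `A0 … A10` are landed.

  `stmtC2Surj     : StmtC2Surj`      (A5, helper87,  from `stmtJ2Div`)
  `stmtC2SurjPerm : StmtC2SurjPerm`  (A5′)
  `stmtMu3        : StmtMu3`         (A7, helper21:  `H³_lev(G, Hom(ℤ[Ω], μ_p)) = 0`)
  `stmtH2Surj     : StmtH2Surj`      (A8, helper69:  right exactness of `H²_lev`)
  `stmtAdd        : StmtAdd`         (A10: the level Euler characteristic is additive)
all UNCONDITIONAL.
-/
import Fermat.Agent.TW.E.Add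
import Fermat.Agent.TW.E.H2SurjFinal
import Fermat.Agent.TW.E.H2FinFinal
import Fermat.Agent.TW.E.Mu3
import Fermat.Agent.TW.E.C2SurjPerm
import Fermat.Agent.TW.E.C2Surj
import Fermat.Agent.TW.E.J2Div
import Fermat.Agent.TW.E.J3
import Fermat.Agent.TW.E.In1Perm
import Fermat.Agent.TW.E.E3
import Fermat.Agent.TW.E.E2Div

set_option autoImplicit false

namespace Fermat.Agent.TW.E

/-- **A5**, unconditional. -/
theorem stmtC2Surj : StmtC2Surj := stmtC2Surj_of stmtJ2Div

/-- **A5′**, unconditional. -/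
theorem stmtC2SurjPerm : StmtC2SurjPerm := stmtC2SurjPerm_of stmtC2Surj

/-- **A7**, unconditional. -/
theorem stmtMu3 : StmtMu3 :=
  stmtMu3_of stmtJ3 stmtJ2Div stmtC2SurjPerm stmtIn1Perm stmtE3 stmtE2Div

/-- **A8**, unconditional. -/
theorem stmtH2Surj : StmtH2Surj := stmtH2Surj_of stmtMu3

/-- **A10 = block E-add**, unconditional: the level Euler characteristic is additive. -/
theorem stmtAdd : StmtAdd := stmtAdd_of stmtH2Surj stmtH2Fin

end Fermat.Agent.TW.E
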