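/-
Project TW (S56) — part TW-E, block **E-cyc** (captain helper75): piece **Y-fun**,
FUNCTORIALITY of level cohomology in the coefficients.
`levH1Map 𝒯 f`, `levH2Map 𝒯 f`, `invMap f` for `f : A ⟶ B` in `Rep k G`, with `id`, `comp`, `add`,
`smul`, `zero`.  Names `cyf_*`.
-/
import Fermat.Agent.PT.Plan

set_option autoImplicit false

noncomputable section

namespace Fermat.Agent.TW.E

open CategoryTheory groupCohomology Fermat.Agent.PT

section Fun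

variable {k : Type} [CommRing k] {G : Type} [Group G] (𝒯 : Tower G)

/-- push-forward of level 2-cocycles along `f : A ⟶ B` -/
def levCocycles₂Map {A B : Rep.{0} k G} (f : A ⟶ B) :
    ↥(levCocycles₂ 𝒯 A) →ₗ[k] ↥(levCocycles₂ 𝒯 B) :=
  (cochainsPullPush₂ (MonoidHom.id G) f.hom.toLinearMap).restrict fun _ hx =>
    ⟨cochainsPullPush₂_mem_cocycles₂ (MonoidHom.id G) _ (fun g a => Rep.hom_comm_apply f g a) hx.1,
      (hx.2.comp _ :)⟩

@[simp] lemma levCocycles₂Map_coe {A B : Rep.{0} k G} (f : A ⟶ B) (x : ↥(levCocycles₂ 𝒯 A))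
    (s : G × G) : ((levCocycles₂Map 𝒯 f x : ↥(levCocycles₂ 𝒯 B)) : G × G → B.V) s = f.hom (x.1 s) :=
  rfl

/-- **functoriality of `H²_lev`** in the coefficients -/
def levH2Map {A B : Rep.{0} k G} (f : A ⟶ B) : levH2 𝒯 A →ₗ[k] levH2 𝒯 B :=
  Submodule.mapQ _ _ (levCocycles₂Map 𝒯 f) fun x hx => by
    obtain ⟨y, hy, hyx⟩ := (mem_levCoboundaries₂_iff 𝒯 A _).1 hx
    refine (mem_levCoboundaries₂_iff 𝒯 B _).2
      ⟨cochainsPullPush₁ (MonoidHom.id G) f.hom.toLinearMap y, (hy.comp _ :), ?_⟩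
    rw [← cochainsPullPush₂_d₁₂ (MonoidHom.id G) _ (fun g a => Rep.hom_comm_apply f g a) y, hyx]
    rfl

@[simp] lemma levH2Map_mk {A B : Rep.{0} k G} (f : A ⟶ B) (x : ↥(levCocycles₂ 𝒯 A)) :
    levH2Map 𝒯 f (levH2π 𝒯 A x) = levH2π 𝒯 B (levCocycles₂Map 𝒯 f x) := rfl

lemma cyf_mapCocycles₁_apply {A B : Rep.{0} k G} (f : A ⟶ B) (c : cocycles₁ A) (g : G) :
    ((mapCocycles₁ (MonoidHom.id G) f).hom c : G → B.V) g = f.hom (c.1 g) := rfl

lemma cyf_H1_level {A B : Rep.{0} k G} (f : A ⟶ B) (x : H1 A) (hx : x ∈ levH1 𝒯 A) :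
    (groupCohomology.map (MonoidHom.id G) f 1).hom x ∈ levH1 𝒯 B := by
  rw [mem_levH1_iff] at hx ⊢
  obtain ⟨c, hc, rfl⟩ := hx
  refine ⟨(mapCocycles₁ (MonoidHom.id G) f).hom c, ?_, ?_⟩
  · have : ((mapCocycles₁ (MonoidHom.id G) f).hom c : G → B.V) = fun g => f.hom (c.1 g) := by
      ext g
      rfl
    rw [this]
    exact (hc.comp _ :)
  · have := congrArg (fun φ => φ.hom c) (H1π_comp_map (MonoidHom.id G) f)
    exact this.symm

/-- **functoriality of `H¹_lev`** in the coefficients -/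
def levH1Map {A B : Rep.{0} k G} (f : A ⟶ B) : ↥(levH1 𝒯 A) →ₗ[k] ↥(levH1 𝒯 B) :=
  (groupCohomology.map (MonoidHom.id G) f 1).hom.restrict (cyf_H1_level 𝒯 f)

lemma levH1Map_coe {A B : Rep.{0} k G} (f : A ⟶ B) (x : ↥(levH1 𝒯 A)) :
    ((levH1Map 𝒯 f x : ↥(levH1 𝒯 B)) : H1 B) =
      (groupCohomology.map (MonoidHom.id G) f 1).hom (x : H1 A) := rfl

/-- the value of `levH1Map` on the class of a cocycle -/
lemma levH1Map_mk {A B : Rep.{0} k G} (f : A ⟶ B) (c : cocycles₁ A) (x : ↥(levH1 𝒯 A))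
    (hx : (x : H1 A) = (H1π A).hom c) :
    ((levH1Map 𝒯 f x : ↥(levH1 𝒯 B)) : H1 B) =
      (H1π B).hom ((mapCocycles₁ (MonoidHom.id G) f).hom c) := by
  rw [levH1Map_coe, hx]
  have := congrArg (fun φ => φ.hom c) (H1π_comp_map (MonoidHom.id G) f)
  exact this

/-- **functoriality of `H⁰`** (invariants) in the coefficients -/
def invMap {A B : Rep.{0} k G} (f : A ⟶ B) : ↥(A.ρ.invariants) →ₗ[k] ↥(B.ρ.invariants) :=
  f.hom.toLinearMap.restrict fun x hx g => by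
    show B.ρ g (f.hom x) = f.hom x
    rw [← Rep.hom_comm_apply f g x, hx g]

@[simp] lemma invMap_coe {A B : Rep.{0} k G} (f : A ⟶ B) (x : ↥(A.ρ.invariants)) :
    ((invMap f x : ↥(B.ρ.invariants)) : B.V) = f.hom (x : A.V) := rfl

/-! ### linearity -/

lemma cyf_map_add {A B : Rep.{0} k G} (f g : A ⟶ B) (n : ℕ) :
    groupCohomology.map (MonoidHom.id G) (f + g) n =
      groupCohomology.map (MonoidHom.id G) f n + groupCohomology.map (MonoidHom.id G) g n := by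
  have h1 : cochainsMap (MonoidHom.id G) (f + g) =
      cochainsMap (MonoidHom.id G) f + cochainsMap (MonoidHom.id G) g :=
    (cochainsFunctor k G).map_add
  unfold groupCohomology.map
  rw [h1]
  exact HomologicalComplex.homologyMap_add _ _ _

/-- every element of `H¹_lev` is the class of a level cocycle -/
lemma cyf_exists_rep {A : Rep.{0} k G} (x : ↥(levH1 𝒯 A)) :
    ∃ c : cocycles₁ A, IsLevel₁ 𝒯 c ∧ (H1π A).hom c = (x : H1 A) :=
  (mem_levH1_iff 𝒯 A _).1 x.2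

lemma cyf_mapCocycles₁_ext {B : Rep.{0} k G} (c d : cocycles₁ B)
    (h : ∀ g, (c : G → B.V) g = (d : G → B.V) g) : c = d :=
  Subtype.ext (funext h)

@[simp] lemma levH1Map_id {A : Rep.{0} k G} : levH1Map 𝒯 (𝟙 A) = LinearMap.id := by
  ext x
  obtain ⟨c, -, hc⟩ := cyf_exists_rep 𝒯 x
  rw [levH1Map_mk 𝒯 (𝟙 A) c x hc.symm, LinearMap.id_apply, ← hc]
  congr 1

lemma levH1Map_comp {A B C : Rep.{0} k G} (f : A ⟶ B) (g : B ⟶ C) :
    levH1Map 𝒯 (f ≫ g) = (levH1Map 𝒯 g).comp (levH1Map 𝒯 f) := by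
  ext x
  obtain ⟨c, -, hc⟩ := cyf_exists_rep 𝒯 x
  rw [levH1Map_mk 𝒯 (f ≫ g) c x hc.symm, LinearMap.comp_apply,
    levH1Map_mk 𝒯 g ((mapCocycles₁ (MonoidHom.id G) f).hom c) (levH1Map 𝒯 f x)
      (levH1Map_mk 𝒯 f c x hc.symm)]
  congr 1

lemma levH1Map_add {A B : Rep.{0} k G} (f g : A ⟶ B) :
    levH1Map 𝒯 (f + g) = levH1Map 𝒯 f + levH1Map 𝒯 g := by
  ext x
  obtain ⟨c, -, hc⟩ := cyf_exists_rep 𝒯 x
  rw [LinearMap.add_apply, Submodule.coe_add, levH1Map_mk 𝒯 (f + g) c x hc.symm,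
    levH1Map_mk 𝒯 f c x hc.symm, levH1Map_mk 𝒯 g c x hc.symm, ← map_add]
  congr 1

lemma levH1Map_smul {A B : Rep.{0} k G} (a : k) (f : A ⟶ B) :
    levH1Map 𝒯 (a • f) = a • levH1Map 𝒯 f := by
  ext x
  obtain ⟨c, -, hc⟩ := cyf_exists_rep 𝒯 x
  rw [LinearMap.smul_apply, Submodule.coe_smul, levH1Map_mk 𝒯 (a • f) c x hc.symm,
    levH1Map_mk 𝒯 f c x hc.symm, ← map_smul]
  congr 1

@[simp] lemma levH1Map_zero {A B : Rep.{0} k G} : levH1Map 𝒯 (0 : A ⟶ B) = 0 := by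
  ext x
  obtain ⟨c, -, hc⟩ := cyf_exists_rep 𝒯 x
  rw [levH1Map_mk 𝒯 (0 : A ⟶ B) c x hc.symm, LinearMap.zero_apply, Submodule.coe_zero,
    ← map_zero (H1π B).hom]
  congr 1


@[simp] lemma levH2Map_id {A : Rep.{0} k G} : levH2Map 𝒯 (𝟙 A) = LinearMap.id := by
  apply Submodule.linearMap_qext
  ext x
  rfl

lemma levH2Map_comp {A B C : Rep.{0} k G} (f : A ⟶ B) (g : B ⟶ C) :
    levH2Map 𝒯 (f ≫ g) = (levH2Map 𝒯 g).comp (levH2Map 𝒯 f) := by
  apply Submodule.linearMap_qext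
  ext x
  rfl

lemma levH2Map_add {A B : Rep.{0} k G} (f g : A ⟶ B) :
    levH2Map 𝒯 (f + g) = levH2Map 𝒯 f + levH2Map 𝒯 g := by
  apply Submodule.linearMap_qext
  ext x
  rfl

lemma levH2Map_smul {A B : Rep.{0} k G} (a : k) (f : A ⟶ B) :
    levH2Map 𝒯 (a • f) = a • levH2Map 𝒯 f := by
  apply Submodule.linearMap_qext
  ext x
  rfl

@[simp] lemma levH2Map_zero {A B : Rep.{0} k G} : levH2Map 𝒯 (0 : A ⟶ B) = 0 := by
  apply Submodule.linearMap_qext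
  ext x
  rfl

@[simp] lemma invMap_id {A : Rep.{0} k G} : invMap (𝟙 A) = LinearMap.id := by
  ext x
  rfl

lemma invMap_comp {A B C : Rep.{0} k G} (f : A ⟶ B) (g : B ⟶ C) :
    invMap (f ≫ g) = (invMap g).comp (invMap f) := by
  ext x
  rfl

lemma invMap_add {A B : Rep.{0} k G} (f g : A ⟶ B) : invMap (f + g) = invMap f + invMap g := by
  ext x
  rfl

lemma invMap_smul {A B : Rep.{0} k G} (a : k) (f : A ⟶ B) : invMap (a • f) = a • invMap f := by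
  ext x
  rfl

@[simp] lemma invMap_zero {A B : Rep.{0} k G} : invMap (0 : A ⟶ B) = 0 := by
  ext x
  rfl

end Fun

end Fermat.Agent.TW.E

end
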