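import Fermat.Agent.TW.E.K0Plan

/-!
# TW-E / E-herb : Herbrand's lemma modulo `p`  (INTERFACE)

Mathlib-only (on top of `K0Plan`).  For a finitely generated `ℤ[Γ]`-module `X` (`X : Rep ℤ Γ`,
`IsFG X`) and an additive function `ψ` on `Rep (ZMod p) Γ` put
`h_ψ(X) := ψ (X / pX) - ψ (X[p])`.  Then

* `h_ψ` is additive on short exact sequences (`StmtHerbAdd`, the 6-term snake sequence);
* `h_ψ` vanishes on finite modules (`StmtHerbFin`);
* on lattices `h_ψ` only depends on the characteristic polynomials (`StmtHerbLat`, by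
  Brauer–Nesbitt `StmtBN`), hence only on the ranks of the fixed modules of the cyclic subgroups
  (`StmtHerbRat`: cyclotomic polynomials are irreducible over `ℚ`);
* consequently (`StmtHerbRank`, `StmtHerbUnits`): if `rank X^H + 1 = #(H \ S)` for every cyclic
  subgroup `H` and a finite `Γ`-set `S`, then `ψ (X/p) - ψ (X[p]) + ψ (𝔽_p) = ψ (𝔽_p[S])`.

Application (TW-E, E-cyc): `X` = the `Σ`-units of a number field `K` with `Γ = Gal(K/F)`,
`S` = the places of `K` in `Σ ∪ ∞`: the class of `E/p` in `K₀(𝔽_p[Γ])` from the NON-equivariant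
unit ranks of the subfields.

Since the quotient `X / pX` and the torsion `X[p]` can be realised in many ways, they enter
through the predicates `IsModP`, `IsTorP` ("`M` is a model of `X/pX`", "`T` is a model of `X[p]`").
-/

namespace Fermat.Agent.TW.E

open CategoryTheory

/-- `M` is a model of `X / pX`: there is an equivariant additive surjection `X → M` with kernel
`pX`. -/
def IsModP (p : ℕ) {Γ : Type} [Group Γ] (X : Rep.{0} ℤ Γ) (M : Rep.{0} (ZMod p) Γ) : Prop :=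
  ∃ f : X.V →+ M.V, Function.Surjective f ∧ (∀ g x, f (X.ρ g x) = M.ρ g (f x)) ∧
    ∀ x, f x = 0 ↔ ∃ y, x = p • y

/-- `T` is a model of `X[p]`: there is an equivariant additive injection `T → X` with image the
`p`-torsion of `X`. -/
def IsTorP (p : ℕ) {Γ : Type} [Group Γ] (X : Rep.{0} ℤ Γ) (T : Rep.{0} (ZMod p) Γ) : Prop :=
  ∃ f : T.V →+ X.V, Function.Injective f ∧ (∀ g t, f (T.ρ g t) = X.ρ g (f t)) ∧
    ∀ x, p • x = 0 ↔ ∃ t, f t = x

/-- The subgroup of `H`-fixed vectors. Its rank is `Module.finrank ℤ (fixedSub X H)` (for the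
canonical `ℤ`-module structure of an additive group: no instance issues). -/
def fixedSub {Γ : Type} [Group Γ] (X : Rep.{0} ℤ Γ) (H : Subgroup Γ) : AddSubgroup X.V where
  carrier := {x | ∀ h ∈ H, X.ρ h x = x}
  add_mem' := fun {a b} ha hb h hh => by rw [map_add, ha h hh, hb h hh]
  zero_mem' := fun h _ => map_zero _
  neg_mem' := fun {a} ha h hh => by rw [map_neg, ha h hh]

/-- `X` is finitely generated as an abelian group (instance-free). -/
def IsFG {Γ : Type} [Group Γ] (X : Rep.{0} ℤ Γ) : Prop := AddGroup.FG X.V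

/-- `X` is a lattice: free of finite rank as an abelian group (instance-free). -/
def IsLat {Γ : Type} [Group Γ] (X : Rep.{0} ℤ Γ) : Prop :=
  ∃ n : ℕ, Nonempty (X.V ≃+ (Fin n → ℤ))

/-- The characteristic polynomial of `g` on a lattice `X` (and `1` if `X` is not a lattice),
for the `ℤ`-module structure `X.hV2` carried by `X`. -/
noncomputable def latCharpoly {Γ : Type} [Group Γ] (X : Rep.{0} ℤ Γ) (g : Γ) : Polynomial ℤ :=
  open Classical in
  if h : @Module.Free ℤ X.V _ _ X.hV2 ∧ @Module.Finite ℤ X.V _ _ X.hV2 then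
    @LinearMap.charpoly ℤ X.V _ _ X.hV2 h.1 h.2 (X.ρ g) else 1

/-- **H-mod.** Models exist, are finite-dimensional for finitely generated `X`, and are unique up
to isomorphism. -/
def StmtHerbModels : Prop :=
  ∀ (p : ℕ) [Fact p.Prime] (Γ : Type) [Group Γ] (X : Rep.{0} ℤ Γ),
    (∃ M : Rep.{0} (ZMod p) Γ, IsModP p X M) ∧ (∃ T : Rep.{0} (ZMod p) Γ, IsTorP p X T) ∧
    (∀ M M' : Rep.{0} (ZMod p) Γ, IsModP p X M → IsModP p X M' → Nonempty (M ≅ M')) ∧
    (∀ T T' : Rep.{0} (ZMod p) Γ, IsTorP p X T → IsTorP p X T' → Nonempty (T ≅ T')) ∧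
    (IsFG X → ∀ M : Rep.{0} (ZMod p) Γ, IsModP p X M → Module.Finite (ZMod p) M.V) ∧
    (IsFG X → ∀ T : Rep.{0} (ZMod p) Γ, IsTorP p X T → Module.Finite (ZMod p) T.V)

/-- **H-add.** `h_ψ` is additive on short exact sequences of finitely generated modules. -/
def StmtHerbAdd : Prop :=
  ∀ (p : ℕ) [Fact p.Prime] (Γ : Type) [Group Γ] (ψ : Rep.{0} (ZMod p) Γ → ℤ), IsAddFun ψ →
    ∀ (X' X X'' : Rep.{0} ℤ Γ) (f : X' ⟶ X) (g : X ⟶ X''), IsFG X →
    Function.Injective f.hom → Function.Surjective g.hom → Function.Exact f.hom g.hom →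
    ∀ M' T' M T M'' T'' : Rep.{0} (ZMod p) Γ,
      IsModP p X' M' → IsTorP p X' T' → IsModP p X M → IsTorP p X T →
      IsModP p X'' M'' → IsTorP p X'' T'' →
      ψ M - ψ T = (ψ M' - ψ T') + (ψ M'' - ψ T'')

/-- **H-fin.** `h_ψ` vanishes on finite modules. -/
def StmtHerbFin : Prop :=
  ∀ (p : ℕ) [Fact p.Prime] (Γ : Type) [Group Γ] (ψ : Rep.{0} (ZMod p) Γ → ℤ), IsAddFun ψ →
    ∀ (X : Rep.{0} ℤ Γ), Finite X.V → ∀ M T : Rep.{0} (ZMod p) Γ,
      IsModP p X M → IsTorP p X T → ψ M = ψ T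

/-- **H-lat.** On lattices `ψ (X/p)` only depends on the characteristic polynomials of the
elements of `Γ` (Brauer–Nesbitt). -/
def StmtHerbLat : Prop :=
  ∀ (p : ℕ) [Fact p.Prime] (Γ : Type) [Group Γ] [Finite Γ] (ψ : Rep.{0} (ZMod p) Γ → ℤ),
    IsAddFun ψ → ∀ (X Y : Rep.{0} ℤ Γ), IsLat X → IsLat Y →
      (∀ g : Γ, latCharpoly X g = latCharpoly Y g) →
      ∀ M N : Rep.{0} (ZMod p) Γ, IsModP p X M → IsModP p Y N → ψ M = ψ N

/-- **H-rat.** For lattices, the characteristic polynomials of the elements of `Γ` are determined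
by the ranks of the fixed modules of the cyclic subgroups. -/
def StmtHerbRat : Prop :=
  ∀ (Γ : Type) [Group Γ] [Finite Γ] (X Y : Rep.{0} ℤ Γ), IsLat X → IsLat Y →
    (∀ H : Subgroup Γ, IsCyclic H →
      Module.finrank ℤ (fixedSub X H) = Module.finrank ℤ (fixedSub Y H)) →
    ∀ g : Γ, latCharpoly X g = latCharpoly Y g

/-- **H-rank.** Herbrand's lemma modulo `p`: for finitely generated `X`, `Y` with the same ranks of
fixed modules of all cyclic subgroups, `h_ψ(X) = h_ψ(Y)`. -/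
def StmtHerbRank : Prop :=
  ∀ (p : ℕ) [Fact p.Prime] (Γ : Type) [Group Γ] [Finite Γ] (ψ : Rep.{0} (ZMod p) Γ → ℤ),
    IsAddFun ψ → ∀ (X Y : Rep.{0} ℤ Γ), IsFG X → IsFG Y →
      (∀ H : Subgroup Γ, IsCyclic H →
        Module.finrank ℤ (fixedSub X H) = Module.finrank ℤ (fixedSub Y H)) →
      ∀ M T N U : Rep.{0} (ZMod p) Γ, IsModP p X M → IsTorP p X T → IsModP p Y N → IsTorP p Y U →
        ψ M - ψ T = ψ N - ψ U

/-- **H-perm.** The permutation lattice `ℤ[S]`: its reduction is `𝔽_p[S]`, it has no torsion, and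
the rank of its `H`-fixed module is the number of `H`-orbits on `S`. -/
def StmtHerbPerm : Prop :=
  ∀ (p : ℕ) [Fact p.Prime] (Γ : Type) [Group Γ] (S : Type) [Finite S] [MulAction Γ S],
    IsModP p (Rep.ofMulAction ℤ Γ S) (Rep.ofMulAction (ZMod p) Γ S) ∧
    (∀ T : Rep.{0} (ZMod p) Γ, IsTorP p (Rep.ofMulAction ℤ Γ S) T → Subsingleton T.V) ∧
    ∀ H : Subgroup Γ, Module.finrank ℤ (fixedSub (Rep.ofMulAction ℤ Γ S) H) =
      Nat.card (MulAction.orbitRel.Quotient H S)

/-- **H-units.** The form used for units: if `rank X^H + 1 = #(H \ S)` for all cyclic subgroups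
`H`, then `ψ (X/p) - ψ (X[p]) + ψ (𝔽_p) = ψ (𝔽_p[S])`. -/
def StmtHerbUnits : Prop :=
  ∀ (p : ℕ) [Fact p.Prime] (Γ : Type) [Group Γ] [Finite Γ] (ψ : Rep.{0} (ZMod p) Γ → ℤ),
    IsAddFun ψ → ∀ (X : Rep.{0} ℤ Γ), IsFG X →
      ∀ (S : Type) [Finite S] [MulAction Γ S],
      (∀ H : Subgroup Γ, IsCyclic H →
        Module.finrank ℤ (fixedSub X H) + 1 = Nat.card (MulAction.orbitRel.Quotient H S)) →
      ∀ M T : Rep.{0} (ZMod p) Γ, IsModP p X M → IsTorP p X T →
        ψ M - ψ T + ψ (Rep.trivial (ZMod p) Γ (ZMod p)) = ψ (Rep.ofMulAction (ZMod p) Γ S)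

end Fermat.Agent.TW.E
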