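/-
Project TW (S56) — part TW-E, block **E-cyc** (captain helper75): INTERFACE FILE.
Target: `StmtCyc` (Plan3.lean) — the Euler characteristic formula for the modules coinduced from
cyclic subgroups of order prime to `p`.  Mathematics and piece table: NOTES/TW-E-cyc.md.

Notation: `U` a normal level with `χ|_U = 1`, `Γ = G ⧸ U`, `𝓜 = regMu χ U = Hom_ℤ(ℤ[Γ], μ_p)`
(functions `Γ → 𝔽_p`, `(g ψ)(γ) = χ(g) ψ(ḡ⁻¹ γ)`), on which `Γ` acts by right translations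
`R_δ = regRt χ U δ` (`G`-endomorphisms).  By functoriality (`CycFun.lean`) `Γ` acts on
`H^j_lev(G, 𝓜)`: the representations `cycH0`, `cycH1`, `cycH2` of `Γ` over `𝔽_p`.
In the same way `Γ` acts on `H^j_lev(G, Hom_ℤ(ℤ[Γ], Y))` (`cycZ1`, `cycZ2`; `Y = E, J, C`).

  StmtCyc  ⟸ (Y-red)  StmtCycChi  ⟸ (Y-asm2)  StmtKum + StmtLink
  StmtKum  ⟸ (Y-asm1) StmtKumH0, StmtKumH1, StmtKumH2 (Kummer sequences), StmtBrSeq, StmtBrJ,
                       StmtBrC (the `p`-torsion of `H²(𝓔)`), StmtClFin, StmtUnitsCyc (concrete: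
                       class number, Dirichlet), E-herb (`StmtHerbUnits`, `StmtHerbFin`),
                       StmtKumSplice, StmtTorSplice (pure algebra).
  StmtLink : `coind_C^Γ M ≅ Hom_C(M^* ⊗ χ, 𝓜)` + linear functors commute with `Hom_C(N, -)`.

A piece `X` is DONE when `theorem stmtX : StmtX` (or `stmtX_of : … → StmtX`) is landed in its own
file `Fermat/Agent/TW/E/<File>.lean`, namespace `Fermat.Agent.TW.E`, sorry-free, names prefixed.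
-/
import Fermat.Agent.TW.E.Plan3
import Fermat.Agent.TW.E.CycFun
import Fermat.Agent.TW.E.HerbPlan

set_option autoImplicit false
set_option linter.unusedSectionVars false

noncomputable section

namespace Fermat.Agent.TW.E

open CategoryTheory groupCohomology Module Fermat.Agent.PT Fermat.Agent.PT.F Fermat.Agent.PT.B
  Fermat.Agent.TW.F ExtCitation

/-! ### The regular module `𝓜 = Hom_ℤ(ℤ[Γ], μ_p)`, `Γ = G ⧸ U` -/

section Reg

variable {p : ℕ} {G : Type} [Group G]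

/-- The action of `G` on the functions `Γ → 𝔽_p`, `Γ = G ⧸ U`:
`(g ψ)(γ) = χ(g) ψ(ḡ⁻¹ γ)`.  This is `Hom_ℤ(ℤ[Γ], μ_p)` with the conjugation action. -/
def regMuρ (χ : G →* (ZMod p)ˣ) (U : Subgroup G) [U.Normal] :
    Representation (ZMod p) G ((G ⧸ U) → ZMod p) where
  toFun g :=
    { toFun := fun ψ γ => (χ g : ZMod p) * ψ ((g : G ⧸ U)⁻¹ * γ)
      map_add' := fun ψ ψ' => by
        funext γ
        simp [mul_add]
      map_smul' := fun a ψ => by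
        funext γ
        simp [mul_left_comm] }
  map_one' := by
    ext ψ γ
    simp
  map_mul' g h := by
    ext ψ γ
    simp [mul_assoc]

/-- **The regular module** `𝓜_U = Hom_ℤ(ℤ[G ⧸ U], μ_p)` as an `𝔽_p`-representation of `G`. -/
def regMu (χ : G →* (ZMod p)ˣ) (U : Subgroup G) [U.Normal] : Rep.{0} (ZMod p) G :=
  Rep.of (regMuρ χ U)

@[simp] lemma regMu_ρ_apply (χ : G →* (ZMod p)ˣ) (U : Subgroup G) [U.Normal] (g : G)
    (ψ : (G ⧸ U) → ZMod p) (γ : G ⧸ U) :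
    (regMu χ U).ρ g ψ γ = (χ g : ZMod p) * ψ ((g : G ⧸ U)⁻¹ * γ) := rfl

/-- Right translation `(R_δ ψ)(γ) = ψ(γ δ)`, a `G`-endomorphism of `𝓜_U`. -/
def regRt (χ : G →* (ZMod p)ˣ) (U : Subgroup G) [U.Normal] (δ : G ⧸ U) :
    regMu χ U ⟶ regMu χ U :=
  Rep.ofHom (ρ := regMuρ χ U) (σ := regMuρ χ U)
    ⟨LinearMap.funLeft (ZMod p) (ZMod p) (fun γ : G ⧸ U => γ * δ), fun g => by
      ext ψ γ
      simp [regMuρ, LinearMap.funLeft, mul_assoc]⟩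

@[simp] lemma regRt_apply (χ : G →* (ZMod p)ˣ) (U : Subgroup G) [U.Normal] (δ : G ⧸ U)
    (ψ : (G ⧸ U) → ZMod p) (γ : G ⧸ U) : (regRt χ U δ).hom ψ γ = ψ (γ * δ) := rfl

lemma regRt_one (χ : G →* (ZMod p)ˣ) (U : Subgroup G) [U.Normal] :
    regRt χ U 1 = 𝟙 (regMu χ U) := by
  apply Rep.hom_ext
  ext ψ
  funext γ
  show (ψ : (G ⧸ U) → ZMod p) (γ * 1) = ψ γ
  rw [mul_one]

lemma regRt_mul (χ : G →* (ZMod p)ˣ) (U : Subgroup G) [U.Normal] (δ δ' : G ⧸ U) :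
    regRt χ U (δ * δ') = regRt χ U δ' ≫ regRt χ U δ := by
  apply Rep.hom_ext
  ext ψ
  funext γ
  show (ψ : (G ⧸ U) → ZMod p) (γ * (δ * δ')) = ψ (γ * δ * δ')
  rw [mul_assoc]

end Reg

/-! ### The `Γ`-modules `H^j_lev(G, 𝓜)` -/

section CycH

variable {p : ℕ} {G : Type} [Group G] (𝒯 : Tower G) (χ : G →* (ZMod p)ˣ)
  (U : Subgroup G) [U.Normal]

/-- the action of `Γ = G ⧸ U` on `H⁰(G, 𝓜_U)` -/
def cycH0ρ : Representation (ZMod p) (G ⧸ U) ↥((regMu χ U).ρ.invariants) where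
  toFun δ := invMap (regRt χ U δ)
  map_one' := by rw [regRt_one, invMap_id]; rfl
  map_mul' δ δ' := by rw [regRt_mul, invMap_comp]; rfl

/-- the action of `Γ = G ⧸ U` on `H¹_lev(G, 𝓜_U)` -/
def cycH1ρ : Representation (ZMod p) (G ⧸ U) ↥(levH1 𝒯 (regMu χ U)) where
  toFun δ := levH1Map 𝒯 (regRt χ U δ)
  map_one' := by rw [regRt_one, levH1Map_id]; rfl
  map_mul' δ δ' := by rw [regRt_mul, levH1Map_comp]; rfl

/-- the action of `Γ = G ⧸ U` on `H²_lev(G, 𝓜_U)` -/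
def cycH2ρ : Representation (ZMod p) (G ⧸ U) (levH2 𝒯 (regMu χ U)) where
  toFun δ := levH2Map 𝒯 (regRt χ U δ)
  map_one' := by rw [regRt_one, levH2Map_id]; rfl
  map_mul' δ δ' := by rw [regRt_mul, levH2Map_comp]; rfl

/-- `H⁰(G, 𝓜_U)` as a representation of `Γ = G ⧸ U` -/
def cycH0 : Rep.{0} (ZMod p) (G ⧸ U) := Rep.of (cycH0ρ χ U)

/-- `H¹_lev(G, 𝓜_U)` as a representation of `Γ = G ⧸ U` -/
def cycH1 : Rep.{0} (ZMod p) (G ⧸ U) := Rep.of (cycH1ρ 𝒯 χ U)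

/-- `H²_lev(G, 𝓜_U)` as a representation of `Γ = G ⧸ U` -/
def cycH2 : Rep.{0} (ZMod p) (G ⧸ U) := Rep.of (cycH2ρ 𝒯 χ U)

end CycH

/-! ### The `Γ`-modules `H^j_lev(G, Hom_ℤ(ℤ[Γ], Y))`, `Y ∈ {E, J, C}` -/

section CycZ

attribute [local instance 1100] Rep.hV2

variable {G : Type} [Group G] (U : Subgroup G) [U.Normal]

/-- right translation by `δ` on `ℤ[Γ]`, `γ ↦ γ δ` -/
def rtAdd (δ : G ⧸ U) : (permZ G (G ⧸ U)).V →+ (permZ G (G ⧸ U)).V :=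
  ((MonoidAlgebra.coeffAddEquiv (R := ℤ) (M := G ⧸ U)).symm.toAddMonoidHom.comp
    (Finsupp.mapDomain.addMonoidHom (fun γ : G ⧸ U => γ * δ))).comp
    (MonoidAlgebra.coeffAddEquiv (R := ℤ) (M := G ⧸ U)).toAddMonoidHom

lemma rtAdd_single (δ γ : G ⧸ U) (n : ℤ) :
    rtAdd U δ (MonoidAlgebra.single γ n) = MonoidAlgebra.single (γ * δ) n := by
  simp [rtAdd, MonoidAlgebra.coeffAddEquiv]

/-- additive maps out of `ℤ[Γ]` agree if they agree on the basis -/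
lemma cyc_ext {A : Type} [AddCommGroup A] (f f' : (permZ G (G ⧸ U)).V →+ A)
    (h : ∀ (γ : G ⧸ U) (n : ℤ), f (MonoidAlgebra.single γ n) = f' (MonoidAlgebra.single γ n)) :
    f = f' :=
  MonoidAlgebra.addMonoidHom_ext h

/-- left and right translations commute -/
lemma rtAdd_ρ (δ : G ⧸ U) (g : G) (m : (permZ G (G ⧸ U)).V) :
    rtAdd U δ ((permZ G (G ⧸ U)).ρ g m) = (permZ G (G ⧸ U)).ρ g (rtAdd U δ m) := by
  have h : (rtAdd U δ).comp (actAdd (permZ G (G ⧸ U)) g) =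
      (actAdd (permZ G (G ⧸ U)) g).comp (rtAdd U δ) := by
    apply cyc_ext
    intro γ n
    show rtAdd U δ ((permZ G (G ⧸ U)).ρ g (MonoidAlgebra.single γ n)) =
      (permZ G (G ⧸ U)).ρ g (rtAdd U δ (MonoidAlgebra.single γ n))
    rw [rtAdd_single]
    erw [Representation.ofMulAction_single, Representation.ofMulAction_single]
    rw [rtAdd_single]
    congr 1
    obtain ⟨x, rfl⟩ := QuotientGroup.mk_surjective γ
    obtain ⟨d, rfl⟩ := QuotientGroup.mk_surjective δ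
    rw [← QuotientGroup.mk_mul, MulAction.Quotient.smul_mk, MulAction.Quotient.smul_mk,
      ← QuotientGroup.mk_mul, smul_eq_mul, smul_eq_mul, mul_assoc]
  exact DFunLike.congr_fun h m

lemma rtAdd_one_apply (m : (permZ G (G ⧸ U)).V) : rtAdd U 1 m = m := by
  have h : rtAdd U 1 = AddMonoidHom.id _ := by
    apply cyc_ext
    intro γ n
    rw [rtAdd_single, mul_one]
    rfl
  rw [h]
  rfl

lemma rtAdd_mul_apply (δ δ' : G ⧸ U) (m : (permZ G (G ⧸ U)).V) :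
    rtAdd U (δ * δ') m = rtAdd U δ' (rtAdd U δ m) := by
  have h : rtAdd U (δ * δ') = (rtAdd U δ').comp (rtAdd U δ) := by
    apply cyc_ext
    intro γ n
    rw [rtAdd_single, AddMonoidHom.comp_apply, rtAdd_single, rtAdd_single, mul_assoc]
  rw [h]
  rfl

variable (Y : Rep.{0} ℤ G)

/-- `R_δ` on `Hom_ℤ(ℤ[Γ], Y)`: precomposition with the right translation by `δ`;
a `G`-endomorphism. -/
def homRt (δ : G ⧸ U) : homRep (permZ G (G ⧸ U)) Y ⟶ homRep (permZ G (G ⧸ U)) Y :=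
  mkHom (AddMonoidHom.compHom' (rtAdd U δ)) (fun g φ => by
    refine AddMonoidHom.ext fun m => ?_
    show (homRepρ (permZ G (G ⧸ U)) Y g φ) (rtAdd U δ m) =
      homRepρ (permZ G (G ⧸ U)) Y g (φ.comp (rtAdd U δ)) m
    rw [homRepρ_apply, homRepρ_apply, AddMonoidHom.comp_apply, rtAdd_ρ])

@[simp] lemma homRt_apply (δ : G ⧸ U) (φ : (permZ G (G ⧸ U)).V →+ Y.V)
    (m : (permZ G (G ⧸ U)).V) :
    ((homRt U Y δ).hom φ : (permZ G (G ⧸ U)).V →+ Y.V) m = φ (rtAdd U δ m) := rfl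

lemma homRt_one : homRt U Y 1 = 𝟙 _ := by
  apply Rep.hom_ext
  apply Representation.IntertwiningMap.ext
  refine LinearMap.ext fun φ => ?_
  refine AddMonoidHom.ext fun m => ?_
  show (φ : (permZ G (G ⧸ U)).V →+ Y.V) (rtAdd U 1 m) = φ m
  rw [rtAdd_one_apply]

lemma homRt_mul (δ δ' : G ⧸ U) : homRt U Y (δ * δ') = homRt U Y δ' ≫ homRt U Y δ := by
  apply Rep.hom_ext
  apply Representation.IntertwiningMap.ext
  refine LinearMap.ext fun φ => ?_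
  refine AddMonoidHom.ext fun m => ?_
  show (φ : (permZ G (G ⧸ U)).V →+ Y.V) (rtAdd U (δ * δ') m) = φ (rtAdd U δ' (rtAdd U δ m))
  rw [rtAdd_mul_apply]

variable (𝒯 : Tower G)

/-- `H¹_lev(G, Hom_ℤ(ℤ[Γ], Y))` as a representation of `Γ = G ⧸ U` over `ℤ` -/
def cycZ1 : Rep.{0} ℤ (G ⧸ U) :=
  Rep.of (X := ↥(levH1 𝒯 (homRep (permZ G (G ⧸ U)) Y)))
    { toFun := fun δ => levH1Map 𝒯 (homRt U Y δ)
      map_one' := by rw [homRt_one, levH1Map_id]; rfl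
      map_mul' := fun δ δ' => by rw [homRt_mul, levH1Map_comp]; rfl }

/-- `H²_lev(G, Hom_ℤ(ℤ[Γ], Y))` as a representation of `Γ = G ⧸ U` over `ℤ` -/
def cycZ2 : Rep.{0} ℤ (G ⧸ U) :=
  Rep.of (X := levH2 𝒯 (homRep (permZ G (G ⧸ U)) Y))
    { toFun := fun δ => levH2Map 𝒯 (homRt U Y δ)
      map_one' := by rw [homRt_one, levH2Map_id]; rfl
      map_mul' := fun δ δ' => by rw [homRt_mul, levH2Map_comp]; rfl }

end CycZ

/-! ### Splicing predicates (pure algebra) -/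

section Splice

variable {Γ : Type} [Group Γ]

/-- A Kummer-type exact sequence  `X —p→ X —a→ V —b→ Y —p→ Y`  of `Γ`-modules (`V` killed by
`p`): `a`, `b` are `Γ`-equivariant additive maps, `ker a = pX`, `ker b = im a`, `im b = Y[p]`. -/
def IsKumSeq (p : ℕ) (X : Rep.{0} ℤ Γ) (V : Rep.{0} (ZMod p) Γ) (Y : Rep.{0} ℤ Γ) : Prop :=
  ∃ (a : X.V →+ V.V) (b : V.V →+ Y.V),
    (∀ g x, a (X.ρ g x) = V.ρ g (a x)) ∧ (∀ g v, b (V.ρ g v) = Y.ρ g (b v)) ∧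
    (∀ x, a x = 0 ↔ ∃ y, x = p • y) ∧ (∀ v, b v = 0 ↔ ∃ x, a x = v) ∧
    (∀ y, p • y = 0 ↔ ∃ v, b v = y)

/-- A sequence  `X —i→ Y —π→ Z`  of `Γ`-modules which is short exact on the `p`-torsion:
`0 → X[p] → Y[p] → Z[p] → 0`. -/
def IsTorSeq (p : ℕ) (X Y Z : Rep.{0} ℤ Γ) : Prop :=
  ∃ (i : X.V →+ Y.V) (π : Y.V →+ Z.V),
    (∀ g x, i (X.ρ g x) = Y.ρ g (i x)) ∧ (∀ g y, π (Y.ρ g y) = Z.ρ g (π y)) ∧
    (∀ x, p • x = 0 → i x = 0 → x = 0) ∧
    (∀ y, p • y = 0 → (π y = 0 ↔ ∃ x, p • x = 0 ∧ i x = y)) ∧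
    (∀ z, p • z = 0 → ∃ y, p • y = 0 ∧ π y = z)

/-- **Y-spl1 (pure algebra).** `ψ(V) = ψ(X/p) + ψ(Y[p])` for a Kummer sequence. -/
def StmtKumSplice : Prop :=
  ∀ (p : ℕ) [Fact p.Prime] (Γ : Type) [Group Γ] (ψ : Rep.{0} (ZMod p) Γ → ℤ), IsAddFun ψ →
    ∀ (X Y : Rep.{0} ℤ Γ) (V : Rep.{0} (ZMod p) Γ), Module.Finite (ZMod p) V.V →
      IsKumSeq p X V Y → ∀ M T : Rep.{0} (ZMod p) Γ, IsModP p X M → IsTorP p Y T →
        ψ V = ψ M + ψ T

/-- **Y-spl2 (pure algebra).** `ψ(Y[p]) = ψ(X[p]) + ψ(Z[p])` for a sequence which is short exact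
on the `p`-torsion. -/
def StmtTorSplice : Prop :=
  ∀ (p : ℕ) [Fact p.Prime] (Γ : Type) [Group Γ] (ψ : Rep.{0} (ZMod p) Γ → ℤ), IsAddFun ψ →
    ∀ (X Y Z : Rep.{0} ℤ Γ), IsTorSeq p X Y Z →
      ∀ T TJ TC : Rep.{0} (ZMod p) Γ, IsTorP p X T → IsTorP p Y TJ → IsTorP p Z TC →
        Module.Finite (ZMod p) TJ.V → ψ TJ = ψ T + ψ TC

end Splice

/-! ### The Kummer package (abstract datum) -/

section Kummer

variable {p : ℕ} {G : Type} [Group G] {ι : Type} {Gloc : ι → Type} [∀ v, Group (Gloc v)]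

/-- the units of the level `U`: `E^U` as a representation of `Γ = G ⧸ U` -/
abbrev cycUnits (D : PTDatum p G ι Gloc) (U : Subgroup G) [U.Normal] : Rep.{0} ℤ (G ⧸ U) :=
  D.E.quotientToInvariants U

/-- the decomposition group of `v` in `Γ = G ⧸ U` -/
def cycDec (D : PTDatum p G ι Gloc) (U : Subgroup G) [U.Normal] (v : ι) : Subgroup (G ⧸ U) :=
  (D.r v).range.map (QuotientGroup.mk' U)

end Kummer

/-- **K-H0.** `H⁰(G, 𝓜) = μ_p ≅ E^U[p]`, `Γ`-equivariantly (`ψ ↦ ψ(1) • ζ`). -/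
def StmtKumH0 : Prop :=
  ∀ (p : ℕ) [Fact p.Prime] (G : Type) [Group G] (ι : Type) [Fintype ι] [Nonempty ι]
    (Gloc : ι → Type) [∀ v, Group (Gloc v)] (D : PTDatum p G ι Gloc)
    (U : Subgroup G) [U.Normal], U ∈ D.𝒯.lev → (∀ s ∈ U, D.χ s = 1) →
      IsTorP p (cycUnits D U) (cycH0 D.χ U)

/-- **K-H1.** The Kummer sequence in degree 1:
`E^U —p→ E^U —∂→ H¹_lev(G, 𝓜) —κ→ H¹_lev(G, 𝓔) —p→ H¹_lev(G, 𝓔)`, `Γ`-equivariantly. -/
def StmtKumH1 : Prop :=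
  ∀ (p : ℕ) [Fact p.Prime] (G : Type) [Group G] (ι : Type) [Fintype ι] [Nonempty ι]
    (Gloc : ι → Type) [∀ v, Group (Gloc v)] (D : PTDatum p G ι Gloc)
    (U : Subgroup G) [U.Normal], U ∈ D.𝒯.lev → (∀ s ∈ U, D.χ s = 1) →
      IsKumSeq p (cycUnits D U) (cycH1 D.𝒯 D.χ U) (cycZ1 U D.E D.𝒯)

/-- **K-H2.** The Kummer sequence in degree 2:
`H¹_lev(𝓔) —p→ H¹_lev(𝓔) —∂→ H²_lev(G, 𝓜) —κ→ H²_lev(G, 𝓔) —p→ H²_lev(G, 𝓔)`. -/
def StmtKumH2 : Prop :=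
  ∀ (p : ℕ) [Fact p.Prime] (G : Type) [Group G] (ι : Type) [Fintype ι] [Nonempty ι]
    (Gloc : ι → Type) [∀ v, Group (Gloc v)] (D : PTDatum p G ι Gloc)
    (U : Subgroup G) [U.Normal], U ∈ D.𝒯.lev → (∀ s ∈ U, D.χ s = 1) →
      IsKumSeq p (cycZ1 U D.E D.𝒯) (cycH2 D.𝒯 D.χ U) (cycZ2 U D.E D.𝒯)

/-- **K-Br.** `0 → H²(𝓔)[p] → H²(𝓙)[p] → H²(𝓒)[p] → 0`, `Γ`-equivariantly
(`In1` for `ℤ[Γ]`: injectivity; `exact`, `π_surj`: exactness in the middle; the generator of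
`H²(𝓒)[p]` comes from a local class: surjectivity). -/
def StmtBrSeq : Prop :=
  ∀ (p : ℕ) [Fact p.Prime] (G : Type) [Group G] (ι : Type) [Fintype ι] [Nonempty ι]
    (Gloc : ι → Type) [∀ v, Group (Gloc v)] (D : PTDatum p G ι Gloc), HasPDepthGlob D →
    ∀ (U : Subgroup G) [U.Normal], U ∈ D.𝒯.lev →
      IsTorSeq p (cycZ2 U D.E D.𝒯) (cycZ2 U (PTJ D) D.𝒯) (cycZ2 U D.C D.𝒯)

/-- **K-BrJ.** `H²_lev(G, Hom(ℤ[Γ], J))[p] ≅ 𝔽_p[⊔_v Γ ⧸ D_v]` as `Γ`-modules: the classes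
`e_{v,γ} = (Θ_{v,γ})_* u_v`, `Θ_{v,γ}(x)(γ') = 1_{[γ' ∈ D_v γ]}·x_v`, are permuted by `Γ` and
form a basis. -/
def StmtBrJ : Prop :=
  ∀ (p : ℕ) [Fact p.Prime] (G : Type) [Group G] (ι : Type) [Fintype ι] [Nonempty ι]
    (Gloc : ι → Type) [∀ v, Group (Gloc v)] (D : PTDatum p G ι Gloc), HasPDepthGlob D →
    ∀ (U : Subgroup G) [U.Normal], U ∈ D.𝒯.lev →
      ∃ T : Rep.{0} (ZMod p) (G ⧸ U), IsTorP p (cycZ2 U (PTJ D) D.𝒯) T ∧
        Nonempty (T ≅ Rep.ofMulAction (ZMod p) (G ⧸ U) (Σ v : ι, (G ⧸ U) ⧸ cycDec D U v))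

/-- **K-BrC.** `H²_lev(G, Hom(ℤ[Γ], C))[p] ≅ 𝔽_p` with trivial action of `Γ` (it is generated
by the image of a class of `H²_lev(G, C)` under the constants `C → Hom(ℤ[Γ], C)`, which are
invariant under right translations). -/
def StmtBrC : Prop :=
  ∀ (p : ℕ) [Fact p.Prime] (G : Type) [Group G] (ι : Type) [Fintype ι] [Nonempty ι]
    (Gloc : ι → Type) [∀ v, Group (Gloc v)] (D : PTDatum p G ι Gloc), HasPDepthGlob D →
    ∀ (U : Subgroup G) [U.Normal], U ∈ D.𝒯.lev →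
      ∃ T : Rep.{0} (ZMod p) (G ⧸ U), IsTorP p (cycZ2 U D.C D.𝒯) T ∧
        Nonempty (T ≅ Rep.trivial (ZMod p) (G ⧸ U) (ZMod p))

/-! ### The concrete inputs -/

/-- the image of complex conjugation in `G_ℚ ⧸ U` -/
def cycConj (U : Subgroup GQ) [U.Normal] : GQ ⧸ U := ((complexConjugation : GQ) : GQ ⧸ U)

/-- the subgroups of `Γ = G ⧸ U` whose coset spaces are the places of the level `U`:
`none ↦ ⟨c̄⟩` (the infinite places), `some v ↦ D_v` (the places above `v`). -/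
def cycPl {p : ℕ} {G : Type} [Group G] {ι : Type} {Gloc : ι → Type} [∀ v, Group (Gloc v)]
    (D : PTDatum p G ι Gloc) (U : Subgroup G) [U.Normal] (c : G ⧸ U) :
    Option ι → Subgroup (G ⧸ U) :=
  fun i => i.elim (Subgroup.zpowers c) (cycDec D U)

/-- **K-Cl (concrete input).** `H¹_lev(G_ℚ, Hom(ℤ[Γ], E_S))` (`= H¹(G_S(L), 𝒪_S^×) = Cl_S(L)`,
`L` the field of `U`) is finite. -/
def StmtClFin : Prop :=
  ∀ (S : Finset Nat.Primes), S.Nonempty → ∀ (U : Subgroup GQ) [U.Normal], U ∈ (towerS S).lev →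
    Finite ↥(levH1 (towerS S) (homRep (permZ GQ (GQ ⧸ U)) (ERep S)))

/-- **K-units (concrete input).** Dirichlet's `S`-unit theorem in group-theoretic form: the
`S`-units `E^U` of the field `L` of `U` are finitely generated, and for every (cyclic) subgroup
`H` of `Γ = Gal(L/ℚ)`:  `rank (E^U)^H + 1 = #(H \ (places of L above S ∪ {∞}))`. -/
def StmtUnitsCyc : Prop :=
  ∀ (p : ℕ) [Fact p.Prime] (hp2 : p ≠ 2) (S : Finset Nat.Primes) (hpS : pPrime p ∈ S)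
    (hcg : StmtCmGlob) (hcl : StmtCmLoc) (hh : StmtH90Loc) (hex : StmtExistC) (hsv : StmtSurvC)
    (U : Subgroup GQ) [U.Normal], U ∈ (towerS S).lev →
    IsFG (cycUnits (concreteDatum p hp2 S hpS hcg hcl hh hex hsv) U) ∧
    ∀ H : Subgroup (GQ ⧸ U), IsCyclic H →
      Module.finrank ℤ ↥(fixedSub (cycUnits (concreteDatum p hp2 S hpS hcg hcl hh hex hsv) U) H)
          + 1 =
        Nat.card (MulAction.orbitRel.Quotient H
          (Σ i : Option ↥S, (GQ ⧸ U) ⧸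
            cycPl (concreteDatum p hp2 S hpS hcg hcl hh hex hsv) U (cycConj U) i))

/-! ### The two halves and the targets -/

/-- **E-cyc/Kum (the Kummer package).** For a normal level `U` on which `χ` is trivial, in
`K₀(𝔽_p[Γ])`:  `[H⁰(𝓜)] - [H¹(𝓜)] + [H²(𝓜)] = -[𝔽_p[Γ ⧸ ⟨c̄⟩]]`. -/
def StmtKum : Prop :=
  ∀ (p : ℕ) [Fact p.Prime], p ≠ 2 → ∀ (S : Finset Nat.Primes), pPrime p ∈ S →
    StmtCmGlob → StmtCmLoc → StmtH90Loc → StmtExistC → StmtSurvC →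
    ∀ (U : Subgroup GQ) [U.Normal], U ∈ (towerS S).lev → (∀ s ∈ U, cycloChar p s = 1) →
      Module.Finite (ZMod p) ↥(levH1 (towerS S) (regMu (cycloChar p) U)) ∧
      Module.Finite (ZMod p) (levH2 (towerS S) (regMu (cycloChar p) U)) ∧
      ∀ ψ : Rep.{0} (ZMod p) (GQ ⧸ U) → ℤ, IsAddFun ψ →
        ψ (cycH0 (cycloChar p) U) + ψ (cycH2 (towerS S) (cycloChar p) U) +
            ψ (Rep.ofMulAction (ZMod p) (GQ ⧸ U) ((GQ ⧸ U) ⧸ Subgroup.zpowers (cycConj U))) =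
          ψ (cycH1 (towerS S) (cycloChar p) U)

/-- **E-cyc/Link.** For a subgroup `C ≤ Γ = G ⧸ U` of order prime to `p` and a finite
`𝔽_p[C]`-module `M`, the module `B = coind_C^Γ M` is `Hom_C(M^* ⊗ χ, 𝓜)`; hence for the additive
function `ψ = dim Hom_C(M^* ⊗ χ, -)`:  `h^j_lev(G, B) = ψ(H^j_lev(G, 𝓜))`, and
`dim B - dim B^{c} = ψ(𝔽_p[Γ ⧸ ⟨c̄⟩])` for every `c` with `c² = 1`, `χ(c) = -1`. -/
def StmtLink : Prop :=
  ∀ (p : ℕ) [Fact p.Prime], p ≠ 2 → ∀ (G : Type) [Group G] (𝒯 : Tower G)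
    (χ : G →* (ZMod p)ˣ) (U : Subgroup G) [U.Normal], U ∈ 𝒯.lev → (∀ s ∈ U, χ s = 1) →
    Module.Finite (ZMod p) ↥(levH1 𝒯 (regMu χ U)) →
    Module.Finite (ZMod p) (levH2 𝒯 (regMu χ U)) →
    ∀ (c : G), c * c = 1 → χ c = -1 →
    ∀ (C : Subgroup (G ⧸ U)), (Nat.card C).Coprime p →
    ∀ (M : Rep.{0} (ZMod p) C), Module.Finite (ZMod p) M.V →
      ∃ ψ : Rep.{0} (ZMod p) (G ⧸ U) → ℤ, IsAddFun ψ ∧
        Module.Finite (ZMod p)
          (levH2 𝒯 (Rep.res (QuotientGroup.mk' U) (Rep.coind C.subtype M))) ∧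
        (finrank (ZMod p)
            ↥((Rep.res (QuotientGroup.mk' U) (Rep.coind C.subtype M)).ρ.invariants) : ℤ) =
          ψ (cycH0 χ U) ∧
        (finrank (ZMod p)
            ↥(levH1 𝒯 (Rep.res (QuotientGroup.mk' U) (Rep.coind C.subtype M))) : ℤ) =
          ψ (cycH1 𝒯 χ U) ∧
        (finrank (ZMod p)
            (levH2 𝒯 (Rep.res (QuotientGroup.mk' U) (Rep.coind C.subtype M))) : ℤ) =
          ψ (cycH2 𝒯 χ U) ∧
        (finrank (ZMod p) (Rep.res (QuotientGroup.mk' U) (Rep.coind C.subtype M)).V : ℤ) =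
          finrank (ZMod p) ↥(LinearMap.ker
              ((Rep.res (QuotientGroup.mk' U) (Rep.coind C.subtype M)).ρ c - 1)) +
            ψ (Rep.ofMulAction (ZMod p) (G ⧸ U)
              ((G ⧸ U) ⧸ Subgroup.zpowers ((c : G) : G ⧸ U)))

/-- **E-cyc for levels trivialising `χ`** (and arbitrary subgroups `C` of order prime to `p`). -/
def StmtCycChi : Prop :=
  ∀ (p : ℕ) [Fact p.Prime], p ≠ 2 → ∀ (S : Finset Nat.Primes), pPrime p ∈ S →
    StmtCmGlob → StmtCmLoc → StmtH90Loc → StmtExistC → StmtSurvC →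
    ∀ (U : Subgroup GQ) [U.Normal], U ∈ (towerS S).lev → (∀ s ∈ U, cycloChar p s = 1) →
    ∀ (C : Subgroup (GQ ⧸ U)), (Nat.card C).Coprime p →
    ∀ (M : Rep.{0} (ZMod p) C), Module.Finite (ZMod p) M.V →
      ECFormula p S (Rep.res (QuotientGroup.mk' U) (Rep.coind C.subtype M))

/-- **Y-red.** Reduction of `StmtCyc` to levels trivialising `χ`: `U₁ := U₀ ⊓ ker χ` is a normal
level of index prime to `p` in `U₀`; `C₁ :=` the preimage of `C` in `G ⧸ U₁` has order prime to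
`p`, and `infl coind_C^{G/U₀} M ≅ infl coind_{C₁}^{G/U₁} (res M)`. -/
def StmtCycRed : Prop := StmtCycChi → StmtCyc

/-- **Y-asm1.** `StmtKum` from its pieces. -/
def StmtKumAsm : Prop :=
  StmtH2Fin → StmtPDepthTower → StmtHerbUnits → StmtHerbFin → StmtHerbModels → StmtKumSplice →
    StmtTorSplice → StmtSigmaAdd → StmtKumH0 → StmtKumH1 → StmtKumH2 → StmtBrSeq → StmtBrJ →
    StmtBrC → StmtClFin → StmtUnitsCyc → StmtKum

/-- **Y-asm2.** `StmtCycChi` from the two halves. -/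
def StmtCycChiAsm : Prop := StmtKum → StmtLink → StmtCycChi

/-! ### The pieces of the link (with the explicit additive function) -/

section LinkDefs

variable {p : ℕ} {G : Type} [Group G]

/-- the descent of `χ` to `Γ = G ⧸ U` -/
def cycChi (χ : G →* (ZMod p)ˣ) (U : Subgroup G) [U.Normal] (hχ : ∀ s ∈ U, χ s = 1) :
    (G ⧸ U) →* (ZMod p)ˣ :=
  QuotientGroup.lift U χ (fun s hs => hχ s hs)

/-- `Hom_C(N, V)`: the `C`-equivariant linear maps from a representation `N` of the subgroup `C`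
to (the restriction of) a representation `V` of `Γ`. -/
def homC {Γ : Type} [Group Γ] (C : Subgroup Γ) (N : Rep.{0} (ZMod p) C)
    (V : Rep.{0} (ZMod p) Γ) : Submodule (ZMod p) (N.V →ₗ[ZMod p] V.V) where
  carrier := {Λ | ∀ (c : C) (n : N.V), Λ (N.ρ c n) = V.ρ (c : Γ) (Λ n)}
  add_mem' := fun {a b} ha hb c n => by
    rw [LinearMap.add_apply, LinearMap.add_apply, ha c n, hb c n, map_add]
  zero_mem' := fun c n => by simp
  smul_mem' := fun r a ha c n => by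
    rw [LinearMap.smul_apply, LinearMap.smul_apply, ha c n, map_smul]

/-- the additive function `ψ_N(V) = dim Hom_C(N, V)` on `Rep (ZMod p) Γ` -/
def linkPsi {Γ : Type} [Group Γ] (C : Subgroup Γ) (N : Rep.{0} (ZMod p) C) :
    Rep.{0} (ZMod p) Γ → ℤ :=
  fun V => (finrank (ZMod p) ↥(homC C N V) : ℤ)

end LinkDefs

/-- **L-add (pure algebra).** `ψ_N = dim Hom_C(N, -)` is additive when `p ∤ |C|` (averaging). -/
def StmtLinkAdd : Prop :=
  ∀ (p : ℕ) [Fact p.Prime] (Γ : Type) [Group Γ] [Finite Γ] (C : Subgroup Γ),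
    (Nat.card C).Coprime p → ∀ (N : Rep.{0} (ZMod p) C), Module.Finite (ZMod p) N.V →
      IsAddFun (linkPsi C N)

/-- **L-fun.** `B = coind_C^Γ M ≅ Hom_C(N, 𝓜)`, `N = M^* ⊗ χ` (`= M.dualTwist χ̄`), as
`G`-modules, and the functors `H⁰`, `H¹_lev`, `H²_lev` commute with `Hom_C(N, -)`:
`h^j_lev(G, B) = dim Hom_C(N, H^j_lev(G, 𝓜))`. -/
def StmtLinkFun : Prop :=
  ∀ (p : ℕ) [Fact p.Prime] (G : Type) [Group G] (𝒯 : Tower G)
    (χ : G →* (ZMod p)ˣ) (U : Subgroup G) [U.Normal], U ∈ 𝒯.lev → ∀ (hχ : ∀ s ∈ U, χ s = 1),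
    Module.Finite (ZMod p) ↥(levH1 𝒯 (regMu χ U)) →
    Module.Finite (ZMod p) (levH2 𝒯 (regMu χ U)) →
    ∀ (C : Subgroup (G ⧸ U)), (Nat.card C).Coprime p →
    ∀ (M : Rep.{0} (ZMod p) C), Module.Finite (ZMod p) M.V →
      Module.Finite (ZMod p)
        (levH2 𝒯 (Rep.res (QuotientGroup.mk' U) (Rep.coind C.subtype M))) ∧
      (finrank (ZMod p)
          ↥((Rep.res (QuotientGroup.mk' U) (Rep.coind C.subtype M)).ρ.invariants) : ℤ) =
        linkPsi C (M.dualTwist ((cycChi χ U hχ).comp C.subtype)) (cycH0 χ U) ∧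
      (finrank (ZMod p)
          ↥(levH1 𝒯 (Rep.res (QuotientGroup.mk' U) (Rep.coind C.subtype M))) : ℤ) =
        linkPsi C (M.dualTwist ((cycChi χ U hχ).comp C.subtype)) (cycH1 𝒯 χ U) ∧
      (finrank (ZMod p)
          (levH2 𝒯 (Rep.res (QuotientGroup.mk' U) (Rep.coind C.subtype M))) : ℤ) =
        linkPsi C (M.dualTwist ((cycChi χ U hχ).comp C.subtype)) (cycH2 𝒯 χ U)

/-- **L-arch (pure algebra).** For `c̄ ∈ Γ` with `c̄² = 1`, `χ̄(c̄) = -1` (`p` odd) and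
`B = coind_C^Γ M`, `N = M.dualTwist χ̄`:  `dim B = dim B^{c̄} + dim Hom_C(N, 𝔽_p[Γ ⧸ ⟨c̄⟩])`
(`Hom_C(N, 𝔽_p[Γ/H]) ≅ (coind_C^Γ (M ⊗ χ̄⁻¹))^H ≅ B^{c̄ = -1}`). -/
def StmtLinkArch : Prop :=
  ∀ (p : ℕ) [Fact p.Prime], p ≠ 2 → ∀ (Γ : Type) [Group Γ] [Finite Γ] (χ : Γ →* (ZMod p)ˣ)
    (c : Γ), c * c = 1 → χ c = -1 → ∀ (C : Subgroup Γ), (Nat.card C).Coprime p →
    ∀ (M : Rep.{0} (ZMod p) C), Module.Finite (ZMod p) M.V →
      (finrank (ZMod p) (Rep.coind C.subtype M).V : ℤ) =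
        finrank (ZMod p) ↥(LinearMap.ker ((Rep.coind C.subtype M).ρ c - 1)) +
          linkPsi C (M.dualTwist (χ.comp C.subtype))
            (Rep.ofMulAction (ZMod p) Γ (Γ ⧸ Subgroup.zpowers c))

/-- **Y-asm3.** `StmtLink` from its three pieces. -/
def StmtLinkAsm : Prop := StmtLinkAdd → StmtLinkFun → StmtLinkArch → StmtLink

end Fermat.Agent.TW.E

end
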