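/-
TW-E / E-cyc, piece **K-BrC** (helper55): `stmtBrC_of : F.StmtH2pDep → F.StmtH2pSeed → StmtBrC`.

`H²_lev(G, Hom_ℤ(ℤ[Γ], C))[p] ≅ 𝔽_p` with trivial action of `Γ = G ⧸ U`.
* it is cyclic (`StmtH2pDep`, TW-F block F-h2perm);
* it is non-zero: `x₀ := [π ∘ Y]`, `Y` the seed class of `StmtH2pSeed` (its trace `π Y(N_Γ)` is not a
  level coboundary of `C`);
* `Γ` acts trivially: `R_δ x₀ = n x₀`, and the evaluation at the norm element `N_Γ` is invariant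
  under right translations, so `n [π Y(N)] = [π Y(N)] ≠ 0`, i.e. `n ≡ 1 mod p`.
-/
import Fermat.Agent.TW.E.Plan2
import Fermat.Agent.TW.E.ChaseLift
import Fermat.Agent.TW.F.PlanH2Perm

set_option autoImplicit false
set_option linter.unusedSectionVars false
set_option linter.style.haveILetI false

noncomputable section

namespace Fermat.Agent.TW.E

open CategoryTheory groupCohomology Module Fermat.Agent.PT Fermat.Agent.PT.F Fermat.Agent.TW.F
open Fermat.Agent.PT.F.ExactH2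

attribute [local instance 1100] Rep.hV2

/-! ### The bridge between `dOne`, `dTwo` and the Mathlib cocycles of `homRep M Y` -/

section Bridge

variable {G : Type} [Group G] (M Y : Rep.{0} ℤ G)

lemma brc_mem_cocycles₂_iff (y : G × G → (M.V →+ Y.V)) :
    y ∈ cocycles₂ (homRep M Y) ↔ ∀ s, dTwo M Y y s = 0 := by
  rw [mem_cocycles₂_iff]
  constructor
  · intro h s
    obtain ⟨σ, τ, ρ⟩ := s
    have h1 := h σ τ ρ
    show conjAdd M Y σ (y (τ, ρ)) - y (σ * τ, ρ) + y (σ, τ * ρ) - y (σ, τ) = 0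
    have h2 : (homRep M Y).ρ σ (y (τ, ρ)) = conjAdd M Y σ (y (τ, ρ)) := rfl
    rw [h2] at h1
    rw [sub_add_eq_add_sub, sub_sub, sub_eq_zero, ← h1]
  · intro h σ τ ρ
    have h1 : conjAdd M Y σ (y (τ, ρ)) - y (σ * τ, ρ) + y (σ, τ * ρ) - y (σ, τ) = 0 :=
      h (σ, τ, ρ)
    have h2 : (homRep M Y).ρ σ (y (τ, ρ)) = conjAdd M Y σ (y (τ, ρ)) := rfl
    rw [h2]
    rw [sub_add_eq_add_sub, sub_sub, sub_eq_zero] at h1
    exact h1.symm

lemma brc_d₁₂_eq (t : G → (M.V →+ Y.V)) : (d₁₂ (homRep M Y)).hom t = dOne M Y t := by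
  funext s
  obtain ⟨σ, τ⟩ := s
  rfl

lemma brc_mem_levCoboundaries₂_iff (𝒯 : Tower G) (y : G × G → (M.V →+ Y.V)) :
    y ∈ levCoboundaries₂ 𝒯 (homRep M Y) ↔
      ∃ t : G → (M.V →+ Y.V), IsLevel₁ 𝒯 t ∧ ∀ s, y s = dOne M Y t s := by
  rw [mem_levCoboundaries₂_iff]
  constructor
  · rintro ⟨t, ht, hty⟩
    exact ⟨t, ht, fun s => by rw [← hty, brc_d₁₂_eq]⟩
  · rintro ⟨t, ht, hty⟩
    exact ⟨t, ht, by rw [brc_d₁₂_eq]; funext s; exact (hty s).symm⟩

end Bridge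

/-! ### The norm element -/

section Norm

variable {G : Type} [Group G] (U : Subgroup G) [U.Normal]

lemma brc_N_eq [Fintype (G ⧸ U)] : h2pN U = ∑ ω : G ⧸ U, h2pE U ω := by
  unfold h2pN
  exact finsum_eq_sum_of_fintype _

/-- the norm element is `G`-invariant -/
lemma brc_ρ_N [Finite (G ⧸ U)] (σ : G) : (permZ G (G ⧸ U)).ρ σ (h2pN U) = h2pN U := by
  haveI : Fintype (G ⧸ U) := Fintype.ofFinite _
  rw [brc_N_eq, map_sum]
  have h1 : ∀ ω : G ⧸ U, (permZ G (G ⧸ U)).ρ σ (h2pE U ω) = h2pE U (σ • ω) := fun ω =>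
    chl_ρ_single (G ⧸ U) σ ω 1
  simp only [h1]
  exact Fintype.sum_equiv (MulAction.toPerm σ) _ _ (fun ω => rfl)

/-- the norm element is invariant under right translations -/
lemma brc_rtAdd_N [Finite (G ⧸ U)] (δ : G ⧸ U) : rtAdd U δ (h2pN U) = h2pN U := by
  haveI : Fintype (G ⧸ U) := Fintype.ofFinite _
  rw [brc_N_eq, map_sum]
  have h1 : ∀ ω : G ⧸ U, rtAdd U δ (h2pE U ω) = h2pE U (ω * δ) := fun ω =>
    rtAdd_single U δ ω 1
  simp only [h1]
  exact Fintype.sum_equiv (Equiv.mulRight δ) _ _ (fun ω => rfl)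

end Norm

/-! ### Elements of order `p` -/

section Order

variable {X : Type} [AddCommGroup X] {p : ℕ} [Fact p.Prime]

lemma brc_eq_zero_of_coprime {x : X} (hp : p • x = 0) {n : ℕ} (hn : ¬ p ∣ n) (h : n • x = 0) :
    x = 0 := by
  have hcop : Nat.Coprime n p := ((Nat.Prime.coprime_iff_not_dvd Fact.out).2 hn).symm
  have h1 : ((n : ℤ) * Nat.gcdA n p + (p : ℤ) * Nat.gcdB n p) • x = x := by
    rw [← Nat.gcd_eq_gcd_ab, hcop]
    simp
  rw [← h1, add_smul, mul_comm (n : ℤ), mul_comm (p : ℤ), mul_smul, mul_smul, natCast_zsmul,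
    natCast_zsmul, h, hp, smul_zero, smul_zero, add_zero]

lemma brc_nsmul_eq_of_modEq {x : X} (hp : p • x = 0) {m n : ℕ} (h : m ≡ n [MOD p]) :
    m • x = n • x := by
  have h1 : ∀ k : ℕ, k • x = (k % p) • x := fun k => by
    conv_lhs => rw [← Nat.div_add_mod k p]
    rw [add_smul, mul_comm, mul_smul, hp, smul_zero, zero_add]
  rw [h1 m, h1 n, h]

lemma brc_zsmul_eq_nsmul {x : X} (hp : p • x = 0) (z : ℤ) : ∃ n : ℕ, z • x = n • x := by
  have hp0 : (p : ℤ) ≠ 0 := by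
    have : p.Prime := Fact.out
    exact_mod_cast this.ne_zero
  refine ⟨(z % p).toNat, ?_⟩
  have h1 : ((z % p).toNat : ℤ) = z % p := Int.toNat_of_nonneg (Int.emod_nonneg z hp0)
  rw [← natCast_zsmul, h1]
  conv_lhs => rw [← Int.mul_ediv_add_emod z p]
  rw [add_smul, mul_smul, natCast_zsmul, smul_comm, hp, smul_zero, zero_add]

end Order

/-- **K-BrC.** -/
theorem stmtBrC_of (hDep : StmtH2pDep) (hSeed : StmtH2pSeed) : StmtBrC := by
  intro p _ G _ ι _ _ Gloc _ D hPD U hUn hU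
  have hpp : p.Prime := Fact.out
  haveI : U.FiniteIndex := D.𝒯.finiteIndex U hU
  haveI : Finite (G ⧸ U) := Subgroup.finite_quotient_of_finiteIndex
  obtain ⟨v⟩ : Nonempty ι := inferInstance
  obtain ⟨Y, ⟨hYl, hYc, t₁, ht₁, hYp⟩, -, hYN⟩ := hSeed p G ι Gloc D hPD U hUn hU v
  -- `W₀ := π ∘ Y`
  set W₀ : G × G → ((permZ G (G ⧸ U)).V →+ D.C.V) := fun s => (homAdd D.π).comp (Y s) with hW₀
  have hW₀l : IsLevel₂ D.𝒯 W₀ := hYl.comp (fun f => (homAdd D.π).comp f)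
  have hW₀c : ∀ s, dTwo (permZ G (G ⧸ U)) D.C W₀ s = 0 := fun s => by
    rw [hW₀, ← chl_comp_dTwo, hYc, AddMonoidHom.comp_zero]
  have hW₀p : ∀ s, p • W₀ s =
      dOne (permZ G (G ⧸ U)) D.C (fun σ => (homAdd D.π).comp (t₁ σ)) s := fun s => by
    rw [← comp_dOne, ← hYp, chl_comp_nsmul]
  have hW₀tl : IsLevel₁ D.𝒯 (fun σ => (homAdd D.π).comp (t₁ σ)) :=
    ht₁.comp (fun f => (homAdd D.π).comp f)
  have hW₀T : IsPTorsCoc D.𝒯 p (permZ G (G ⧸ U)) D.C W₀ := ⟨hW₀l, hW₀c, _, hW₀tl, hW₀p⟩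
  -- the class `x₀`
  set A := homRep (permZ G (G ⧸ U)) D.C with hA
  have hW₀mem : W₀ ∈ levCocycles₂ D.𝒯 A :=
    ⟨(brc_mem_cocycles₂_iff _ _ W₀).2 hW₀c, hW₀l⟩
  set x₀ : levH2 D.𝒯 A := levH2π D.𝒯 A ⟨W₀, hW₀mem⟩ with hx₀
  -- evaluation at the norm element
  set evN : A ⟶ D.C := evHom (permZ G (G ⧸ U)) D.C (h2pN U) (brc_ρ_N U) with hevN
  have hy₀ : levH2Map D.𝒯 evN x₀ ≠ 0 := by
    rw [hx₀, levH2Map_mk, Ne, levH2π_eq_zero_iff]
    exact hYN
  have hx₀ne : x₀ ≠ 0 := fun h => hy₀ (by rw [h, map_zero])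
  have hpx₀ : p • x₀ = 0 := by
    rw [hx₀, ← map_nsmul, levH2π_eq_zero_iff]
    exact (brc_mem_levCoboundaries₂_iff _ _ D.𝒯 _).2 ⟨_, hW₀tl, hW₀p⟩
  have hpy₀ : p • levH2Map D.𝒯 evN x₀ = 0 := by rw [← map_nsmul, hpx₀, map_zero]
  -- cyclicity
  have hcyc : ∀ x : levH2 D.𝒯 A, p • x = 0 → ∃ n : ℕ, x = n • x₀ := by
    intro x hx
    obtain ⟨w, rfl⟩ := levH2_exists_rep x
    rw [← map_nsmul, levH2π_eq_zero_iff] at hx
    obtain ⟨t, ht, htw⟩ := (brc_mem_levCoboundaries₂_iff _ _ D.𝒯 _).1 hx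
    have hwT : IsPTorsCoc D.𝒯 p (permZ G (G ⧸ U)) D.C (w : G × G → _) :=
      ⟨w.2.2, (brc_mem_cocycles₂_iff _ _ _).1 w.2.1, t, ht, htw⟩
    obtain ⟨a, b, hab, t', ht', hdep⟩ := hDep p G ι Gloc D U hUn hU _ _ hwT hW₀T
    have hrel : a • levH2π D.𝒯 A w + b • x₀ = 0 := by
      rw [hx₀, ← map_nsmul, ← map_nsmul, ← map_add, levH2π_eq_zero_iff]
      exact (brc_mem_levCoboundaries₂_iff _ _ D.𝒯 _).2 ⟨t', ht', hdep⟩
    have hpw : p • levH2π D.𝒯 A w = 0 := by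
      rw [← map_nsmul, levH2π_eq_zero_iff]
      exact (brc_mem_levCoboundaries₂_iff _ _ D.𝒯 _).2 ⟨t, ht, htw⟩
    have hpa : ¬ p ∣ a := by
      intro hpa
      obtain ⟨a', rfl⟩ := hpa
      rw [mul_comm, mul_smul, hpw, smul_zero, zero_add] at hrel
      exact hab ⟨Dvd.intro _ rfl, by
        by_contra hb
        exact hx₀ne (brc_eq_zero_of_coprime hpx₀ hb hrel)⟩
    -- invert `a` mod `p`
    have hcop : Nat.Coprime a p := ((Nat.Prime.coprime_iff_not_dvd hpp).2 hpa).symm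
    have hbez : ((a : ℤ) * Nat.gcdA a p + (p : ℤ) * Nat.gcdB a p) = 1 := by
      rw [← Nat.gcd_eq_gcd_ab, hcop]
      simp
    have h2 : (a : ℤ) • levH2π D.𝒯 A w = (-(b : ℤ)) • x₀ := by
      rw [neg_smul, natCast_zsmul, natCast_zsmul]
      exact eq_neg_of_add_eq_zero_left hrel
    have h1 : levH2π D.𝒯 A w = (Nat.gcdA a p * -(b : ℤ)) • x₀ := by
      have h3 : ((a : ℤ) * Nat.gcdA a p + (p : ℤ) * Nat.gcdB a p) • levH2π D.𝒯 A w =
          levH2π D.𝒯 A w := by rw [hbez, one_smul]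
      rw [add_smul, mul_comm (a : ℤ), mul_smul, mul_comm (p : ℤ), mul_smul (Nat.gcdB a p),
        natCast_zsmul _ p, hpw, smul_zero, add_zero, h2, ← mul_smul] at h3
      exact h3.symm
    obtain ⟨n, hn⟩ := brc_zsmul_eq_nsmul hpx₀ (Nat.gcdA a p * -(b : ℤ))
    exact ⟨n, by rw [h1, hn]⟩
  -- right translations act trivially
  have hR : ∀ δ : G ⧸ U, levH2Map D.𝒯 (homRt U D.C δ) x₀ = x₀ := by
    intro δ
    have hp1 : p • levH2Map D.𝒯 (homRt U D.C δ) x₀ = 0 := by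
      rw [← map_nsmul, hpx₀, map_zero]
    obtain ⟨n, hn⟩ := hcyc _ hp1
    have hcomp : homRt U D.C δ ≫ evN = evN := by
      apply Rep.hom_ext
      apply Representation.IntertwiningMap.ext
      refine LinearMap.ext fun φ => ?_
      show (φ : (permZ G (G ⧸ U)).V →+ D.C.V) (rtAdd U δ (h2pN U)) = φ (h2pN U)
      rw [brc_rtAdd_N]
    have h1 : levH2Map D.𝒯 evN (levH2Map D.𝒯 (homRt U D.C δ) x₀) = levH2Map D.𝒯 evN x₀ := by
      have := levH2Map_comp D.𝒯 (homRt U D.C δ) evN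
      rw [hcomp] at this
      exact (DFunLike.congr_fun this x₀).symm
    have h1' : n • levH2Map D.𝒯 evN x₀ = levH2Map D.𝒯 evN x₀ := by
      have h5 : levH2Map D.𝒯 evN (n • x₀) = n • levH2Map D.𝒯 evN x₀ :=
        map_nsmul (levH2Map D.𝒯 evN) n x₀
      rw [← h5, ← hn]
      exact h1
    clear h1
    have h1 := h1'
    -- `n • y₀ = y₀` with `y₀ ≠ 0` of order `p`
    have hn1 : n ≡ 1 [MOD p] := by
      rcases Nat.eq_zero_or_pos n with h0 | hpos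
      · exfalso
        rw [h0, zero_smul] at h1
        exact hy₀ h1.symm
      · obtain ⟨m, rfl⟩ : ∃ m, n = m + 1 := ⟨n - 1, (Nat.sub_add_cancel hpos).symm⟩
        have h2 : m • levH2Map D.𝒯 evN x₀ = 0 := by
          rw [add_smul, one_smul] at h1
          exact add_eq_right.1 h1
        have h4 : p ∣ m := by
          by_contra h5
          exact hy₀ (brc_eq_zero_of_coprime hpy₀ h5 h2)
        obtain ⟨k, rfl⟩ := h4
        show (p * k + 1) % p = 1 % p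
        rw [Nat.mul_add_mod]
    rw [hn, brc_nsmul_eq_of_modEq hpx₀ hn1, one_smul]
  -- the model `𝔽_p` with trivial action
  have hlift : (zmultiplesHom (levH2 D.𝒯 A) x₀) (p : ℤ) = 0 := by
    simpa using hpx₀
  let f : ZMod p →+ levH2 D.𝒯 A := ZMod.lift p ⟨zmultiplesHom (levH2 D.𝒯 A) x₀, hlift⟩
  have hf : ∀ n : ℤ, f (n : ZMod p) = n • x₀ := fun n => by
    simp [f]
  have hfn : ∀ n : ℕ, f (n : ZMod p) = n • x₀ := fun n => by
    have := hf (n : ℤ)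
    rw [natCast_zsmul] at this
    rw [← this]
    norm_cast
  have hfinj : Function.Injective f := by
    rw [injective_iff_map_eq_zero]
    intro z hz
    obtain ⟨n, rfl⟩ := ZMod.natCast_zmod_surjective z
    rw [hfn] at hz
    rw [ZMod.natCast_eq_zero_iff]
    by_contra h
    exact hx₀ne (brc_eq_zero_of_coprime hpx₀ h hz)
  refine ⟨Rep.trivial (ZMod p) (G ⧸ U) (ZMod p), ⟨f, hfinj, ?_, ?_⟩, ⟨Iso.refl _⟩⟩
  · intro δ t
    obtain ⟨n, rfl⟩ := ZMod.natCast_zmod_surjective t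
    change f (n : ZMod p) = levH2Map D.𝒯 (homRt U D.C δ) (f (n : ZMod p))
    rw [hfn]
    have h5 : levH2Map D.𝒯 (homRt U D.C δ) (n • x₀) =
        n • levH2Map D.𝒯 (homRt U D.C δ) x₀ := map_nsmul (levH2Map D.𝒯 (homRt U D.C δ)) n x₀
    rw [h5, hR δ]
  · intro x
    constructor
    · intro hx
      obtain ⟨n, hn⟩ := hcyc x hx
      refine ⟨(n : ZMod p), ?_⟩
      change f (n : ZMod p) = x
      rw [hfn, hn]
    · rintro ⟨t, rfl⟩
      obtain ⟨n, rfl⟩ := ZMod.natCast_zmod_surjective t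
      change p • f (n : ZMod p) = 0
      rw [hfn, smul_comm, hpx₀, smul_zero]

end Fermat.Agent.TW.E

end
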