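/-
TW-E / E-cyc, piece **K-BrC**, unconditional (helper55): `stmtBrC : StmtBrC`.
-/
import Fermat.Agent.TW.E.BrC
import Fermat.Agent.TW.F.H2Perm

set_option autoImplicit false

namespace Fermat.Agent.TW.E

/-- **K-BrC**: `H²_lev(G, Hom_ℤ(ℤ[Γ], C))[p] ≅ 𝔽_p` with trivial action of `Γ`. -/
theorem stmtBrC : StmtBrC :=
  stmtBrC_of Fermat.Agent.TW.F.stmtH2pDep Fermat.Agent.TW.F.stmtH2pSeed

end Fermat.Agent.TW.E
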