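/-
TW-E / E-cyc / K-BrJ, LOCAL piece (owner helper55) — INTERFACE.
`StmtBrJLoc`: for a place `v` and a normal global level `U`, with `K = r_v⁻¹ U ≤ G_v`:
`H²_lev(K, J_v)[p] = ℤ/p · [u|_K]` for a homogeneous level 2-cocycle `u` defined (and equivariant)
on ALL of `G_v`.  Homogeneous cochains, as in `StmtJ2Loc` (TW/E/J2DivPlan.lean); "level" means
right-invariant under `r_v⁻¹ U'` for a global level `U'`.
Used by the core of K-BrJ (helper11, TW/E/BrJCore.lean).  Proof: TW/E/BrJLoc.lean.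
-/
import Fermat.Agent.TW.E.Plan

set_option autoImplicit false

noncomputable section

namespace Fermat.Agent.TW.E

open CategoryTheory groupCohomology Fermat.Agent.PT Fermat.Agent.PT.F

attribute [local instance 1100] Rep.hV2

variable {p : ℕ} {G : Type} [Group G] {ι : Type} {Gloc : ι → Type} [∀ v, Group (Gloc v)]

/-- `c : K³ → J_v` is the homogeneous coboundary of a `K`-equivariant 1-cochain `t : K² → J_v`
which is right-invariant under a pulled-back global level. -/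
def BrjlCob (D : PTDatum p G ι Gloc) (v : ι) (K : Subgroup (Gloc v))
    (c : K → K → K → (D.Jloc v).V) : Prop :=
  ∃ t : K → K → (D.Jloc v).V,
    (∀ k k₀ k₁ : K, t (k * k₀) (k * k₁) = (D.Jloc v).ρ (k : Gloc v) (t k₀ k₁)) ∧
    (∃ U' ∈ D.𝒯.lev, ∀ k₀ k₁ s₀ s₁ : K, D.r v s₀ ∈ U' → D.r v s₁ ∈ U' →
      t (k₀ * s₀) (k₁ * s₁) = t k₀ k₁) ∧
    ∀ k₀ k₁ k₂ : K, c k₀ k₁ k₂ = t k₁ k₂ - t k₀ k₂ + t k₀ k₁

/-- **K-BrJ / LOC.**  `K = r_v⁻¹ U`, `U` a normal global level.  There is a homogeneous 2-cocycle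
`u : G_v³ → J_v`, `G_v`-equivariant, right-invariant under `r_v⁻¹ U₁` (`U₁ ≤ U` a normal global
level), whose restriction to `K³`
(1) is killed by `p` up to a level coboundary,
(3) is not a level coboundary,
(4) generates: every `K`-equivariant level 2-cocycle `c` on `K` with `p c` a level coboundary is
`a u + ` a level coboundary.
(Proof: `U₁` from `HasPDepthGlob`; `Γ₁ = G_v ⧸ r_v⁻¹ U₁` with the `p`-fundamental class `u₀` of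
`cm_loc`; `u` represents `(m/p) u₀`, `m` the order of `res_{K̄} u₀`; (4) is `StmtH2pCyclic` at a
common finite level, (3) is `StmtInflInjFin`.) -/
def StmtBrJLoc : Prop :=
  ∀ (p : ℕ) [Fact p.Prime] (G : Type) [Group G] (ι : Type) [Fintype ι] (Gloc : ι → Type)
    [∀ v, Group (Gloc v)] (D : PTDatum p G ι Gloc), HasPDepthGlob D →
    ∀ (v : ι) (U : Subgroup G), U ∈ D.𝒯.lev → U.Normal →
    ∃ u : Gloc v → Gloc v → Gloc v → (D.Jloc v).V,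
      (∀ d d₀ d₁ d₂ : Gloc v, u (d * d₀) (d * d₁) (d * d₂) = (D.Jloc v).ρ d (u d₀ d₁ d₂)) ∧
      (∀ d₀ d₁ d₂ d₃ : Gloc v, u d₁ d₂ d₃ - u d₀ d₂ d₃ + u d₀ d₁ d₃ - u d₀ d₁ d₂ = 0) ∧
      (∃ U₁ ∈ D.𝒯.lev, U₁ ≤ U ∧ U₁.Normal ∧ ∀ d₀ d₁ d₂ s₀ s₁ s₂ : Gloc v,
        D.r v s₀ ∈ U₁ → D.r v s₁ ∈ U₁ → D.r v s₂ ∈ U₁ →
        u (d₀ * s₀) (d₁ * s₁) (d₂ * s₂) = u d₀ d₁ d₂) ∧
      BrjlCob D v (U.comap (D.r v)) (fun k₀ k₁ k₂ => p • u k₀ k₁ k₂) ∧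
      ¬ BrjlCob D v (U.comap (D.r v)) (fun k₀ k₁ k₂ => u k₀ k₁ k₂) ∧
      ∀ c : ↥(U.comap (D.r v)) → ↥(U.comap (D.r v)) → ↥(U.comap (D.r v)) → (D.Jloc v).V,
        (∀ k k₀ k₁ k₂ : ↥(U.comap (D.r v)),
          c (k * k₀) (k * k₁) (k * k₂) = (D.Jloc v).ρ (k : Gloc v) (c k₀ k₁ k₂)) →
        (∀ k₀ k₁ k₂ k₃ : ↥(U.comap (D.r v)),
          c k₁ k₂ k₃ - c k₀ k₂ k₃ + c k₀ k₁ k₃ - c k₀ k₁ k₂ = 0) →
        (∃ U₂ ∈ D.𝒯.lev, ∀ k₀ k₁ k₂ s₀ s₁ s₂ : ↥(U.comap (D.r v)),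
          D.r v s₀ ∈ U₂ → D.r v s₁ ∈ U₂ → D.r v s₂ ∈ U₂ →
          c (k₀ * s₀) (k₁ * s₁) (k₂ * s₂) = c k₀ k₁ k₂) →
        BrjlCob D v (U.comap (D.r v)) (fun k₀ k₁ k₂ => p • c k₀ k₁ k₂) →
        ∃ a : ℕ, BrjlCob D v (U.comap (D.r v)) (fun k₀ k₁ k₂ => c k₀ k₁ k₂ - a • u k₀ k₁ k₂)

end Fermat.Agent.TW.E

end
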