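/-
TW-E / E-cyc / K-BrJ, the cohomological CORE (helper11): `stmtBrJCore_of : StmtBrJLoc → StmtBrJCore`.
Interfaces: `StmtBrJCore` (TW/E/BrJPlan.lean, helper60), `StmtBrJLoc` (TW/E/BrJLocPlan.lean, helper55).

Route (homogeneous cochains, dictionary of TW/E/J2Glue.lean).  `Γ = G ⧸ U`, `K_v = r_v⁻¹ U`.
* Part A `brjc_invSh`: inverse Shapiro `𝒰_v = u_v ∘ π³`, a `r_v(G_v)`-equivariant level cocycle on `G³`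
  restricting to `u_v` along `r_v`.
* Part B `brjcΘ`: the dictionary for 1-cochains, `Ψ^{dt} = d Θ^t`.
* Part C `brjc_family`: primitives at the orbit representatives extend to jointly equivariant families.
* Part D `brjcIdx v ω = (v, ω⁻¹ D_v)`: the place of `ω` over `v`; its fibres are the `G_v`-orbits.
* Part E `brjc_restrict`, `brjc_shapiro`: a level cocycle is a level coboundary iff its components at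
  the orbit representatives restrict to level coboundaries on `K_v`.
* Part F: `e x = j2dW (1_{[idx = x]} 𝒰)`; (1)–(4).
-/
import Fermat.Agent.TW.E.BrJPlan
import Fermat.Agent.TW.E.BrJLocPlan
import Fermat.Agent.TW.E.J2Glue

set_option autoImplicit false
set_option linter.unusedSectionVars false
set_option linter.unusedVariables false

noncomputable section

namespace Fermat.Agent.TW.E

open CategoryTheory groupCohomology Fermat.Agent.PT Fermat.Agent.PT.F Fermat.Agent.TW.F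

attribute [local instance 1100] Rep.hV2

/-! ### Part A: inverse Shapiro -/

theorem brjc_invSh {G H X : Type} [Group G] [Group H] [AddCommGroup X] (r : H →* G)
    (act : H → X →+ X) (U : Subgroup G) [U.Normal]
    (w : H → H → H → X)
    (hw1 : ∀ d d₀ d₁ d₂, w (d * d₀) (d * d₁) (d * d₂) = act d (w d₀ d₁ d₂))
    (hw2 : ∀ d₀ d₁ d₂ d₃, w d₁ d₂ d₃ - w d₀ d₂ d₃ + w d₀ d₁ d₃ - w d₀ d₁ d₂ = 0)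
    (hw3 : ∀ d₀ d₁ d₂ s₀ s₁ s₂, r s₀ ∈ U → r s₁ ∈ U → r s₂ ∈ U →
      w (d₀ * s₀) (d₁ * s₁) (d₂ * s₂) = w d₀ d₁ d₂) :
    ∃ W : G → G → G → X,
      (∀ d g₀ g₁ g₂, W (r d * g₀) (r d * g₁) (r d * g₂) = act d (W g₀ g₁ g₂)) ∧
      (∀ g₀ g₁ g₂ g₃, W g₁ g₂ g₃ - W g₀ g₂ g₃ + W g₀ g₁ g₃ - W g₀ g₁ g₂ = 0) ∧
      (∀ g₀ g₁ g₂ u₀ u₁ u₂, u₀ ∈ U → u₁ ∈ U → u₂ ∈ U →
        W (g₀ * u₀) (g₁ * u₁) (g₂ * u₂) = W g₀ g₁ g₂) ∧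
      ∀ d₀ d₁ d₂, W (r d₀) (r d₁) (r d₂) = w d₀ d₁ d₂ := by
  obtain ⟨π, hπ1, hπ⟩ := j2d_exists_proj r U
  have hπd : ∀ (d : H) (g : G), ∃ s : H, r s ∈ U ∧ π (r d * g) = d * π g * s := fun d g => by
    obtain ⟨s, hs, e⟩ := hπ d g 1 U.one_mem
    rw [mul_one] at e
    exact ⟨s, hs, e⟩
  have hπu : ∀ (g u : G), u ∈ U → ∃ s : H, r s ∈ U ∧ π (g * u) = π g * s := fun g u hu => by
    obtain ⟨s, hs, e⟩ := hπ 1 g u hu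
    rw [map_one, one_mul, one_mul] at e
    exact ⟨s, hs, e⟩
  have hπr : ∀ d : H, ∃ s : H, r s ∈ U ∧ π (r d) = d * s := fun d => by
    obtain ⟨s, hs, e⟩ := hπd d 1
    rw [mul_one, hπ1, mul_one] at e
    exact ⟨s, hs, e⟩
  refine ⟨fun g₀ g₁ g₂ => w (π g₀) (π g₁) (π g₂), ?_, ?_, ?_, ?_⟩
  · intro d g₀ g₁ g₂
    obtain ⟨s₀, hs₀, e₀⟩ := hπd d g₀
    obtain ⟨s₁, hs₁, e₁⟩ := hπd d g₁
    obtain ⟨s₂, hs₂, e₂⟩ := hπd d g₂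
    show w (π (r d * g₀)) (π (r d * g₁)) (π (r d * g₂)) = act d (w (π g₀) (π g₁) (π g₂))
    rw [e₀, e₁, e₂, hw3 _ _ _ _ _ _ hs₀ hs₁ hs₂, hw1]
  · exact fun g₀ g₁ g₂ g₃ => hw2 _ _ _ _
  · intro g₀ g₁ g₂ u₀ u₁ u₂ hu₀ hu₁ hu₂
    obtain ⟨s₀, hs₀, e₀⟩ := hπu g₀ u₀ hu₀
    obtain ⟨s₁, hs₁, e₁⟩ := hπu g₁ u₁ hu₁
    obtain ⟨s₂, hs₂, e₂⟩ := hπu g₂ u₂ hu₂
    show w (π (g₀ * u₀)) (π (g₁ * u₁)) (π (g₂ * u₂)) = w (π g₀) (π g₁) (π g₂)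
    rw [e₀, e₁, e₂, hw3 _ _ _ _ _ _ hs₀ hs₁ hs₂]
  · intro d₀ d₁ d₂
    obtain ⟨s₀, hs₀, e₀⟩ := hπr d₀
    obtain ⟨s₁, hs₁, e₁⟩ := hπr d₁
    obtain ⟨s₂, hs₂, e₂⟩ := hπr d₂
    show w (π (r d₀)) (π (r d₁)) (π (r d₂)) = w d₀ d₁ d₂
    rw [e₀, e₁, e₂, hw3 _ _ _ _ _ _ hs₀ hs₁ hs₂]

/-! ### Part B: the dictionary for 1-cochains -/

section Dict1

variable {p : ℕ} {G : Type} [Group G] {ι : Type} {Gloc : ι → Type} [∀ v, Group (Gloc v)]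
  (D : PTDatum p G ι Gloc) (Ω : Type) [MulAction G Ω]

/-- the homogeneous components of a 1-cochain with values in `Hom_ℤ(ℤ[Ω], J)` -/
def brjcΘ (t : G → ((permZ G Ω).V →+ (PTJ D).V)) (v : ι) (ω : Ω) (g₀ g₁ : G) :
    (D.Jloc v).V :=
  (t (g₀⁻¹ * g₁) (MonoidAlgebra.single (g₀⁻¹ • ω) 1)).1 v g₀

variable (t : G → ((permZ G Ω).V →+ (PTJ D).V))

lemma brjcΘ_equiv (v : ι) (ω : Ω) (d : Gloc v) (g₀ g₁ : G) :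
    brjcΘ D Ω t v (D.r v d • ω) (D.r v d * g₀) (D.r v d * g₁) =
      (D.Jloc v).ρ d (brjcΘ D Ω t v ω g₀ g₁) := by
  unfold brjcΘ
  have e1 : (D.r v d * g₀)⁻¹ * (D.r v d * g₁) = g₀⁻¹ * g₁ := by group
  have e3 : (D.r v d * g₀)⁻¹ • D.r v d • ω = g₀⁻¹ • ω := by
    rw [mul_inv_rev, mul_smul, inv_smul_smul]
  rw [e1, e3]
  exact ((t (g₀⁻¹ * g₁) (MonoidAlgebra.single (g₀⁻¹ • ω) 1)).2 v).1 d g₀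

lemma brjcΘ_dOne (v : ι) (ω : Ω) (g₀ g₁ g₂ : G) :
    j2dΨ D Ω (dOne (permZ G Ω) (PTJ D) t) v ω g₀ g₁ g₂ =
      brjcΘ D Ω t v ω g₁ g₂ - brjcΘ D Ω t v ω g₀ g₂ + brjcΘ D Ω t v ω g₀ g₁ := by
  unfold j2dΨ brjcΘ
  show ((PTJ D).ρ (g₀⁻¹ * g₁) (t (g₁⁻¹ * g₂)
        ((permZ G Ω).ρ (g₀⁻¹ * g₁)⁻¹ (MonoidAlgebra.single (g₀⁻¹ • ω) 1)))).1 v g₀ -
      (t (g₀⁻¹ * g₁ * (g₁⁻¹ * g₂)) (MonoidAlgebra.single (g₀⁻¹ • ω) 1)).1 v g₀ +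
      (t (g₀⁻¹ * g₁) (MonoidAlgebra.single (g₀⁻¹ • ω) 1)).1 v g₀ = _
  have e1 : g₀⁻¹ * g₁ * (g₁⁻¹ * g₂) = g₀⁻¹ * g₂ := by group
  have e3 : (permZ G Ω).ρ (g₀⁻¹ * g₁)⁻¹ (MonoidAlgebra.single (g₀⁻¹ • ω) 1) =
      MonoidAlgebra.single (g₁⁻¹ • ω) 1 := by
    rw [in1p_ρ_single]
    congr 1
    rw [mul_inv_rev, inv_inv, mul_smul, smul_inv_smul]
  rw [e1, e3]
  have e4 : ((PTJ D).ρ (g₀⁻¹ * g₁) (t (g₁⁻¹ * g₂)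
      (MonoidAlgebra.single (g₁⁻¹ • ω) 1))).1 v g₀ =
      (t (g₁⁻¹ * g₂) (MonoidAlgebra.single (g₁⁻¹ • ω) 1)).1 v g₁ := by
    show (t (g₁⁻¹ * g₂) (MonoidAlgebra.single (g₁⁻¹ • ω) 1)).1 v (g₀ * (g₀⁻¹ * g₁)) = _
    rw [mul_inv_cancel_left]
  rw [e4]

lemma brjcΘ_level [Fintype ι] [Finite Ω] (ht : IsLevel₁ D.𝒯 t) (U : Subgroup G)
    (hU : U ∈ D.𝒯.lev) (hUΩ : ∀ s ∈ U, ∀ ω : Ω, s • ω = ω) :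
    ∃ U' ∈ D.𝒯.lev, U' ≤ U ∧ U'.Normal ∧
      ∀ (v : ι) (ω : Ω) (g₀ g₁ u₀ u₁ : G), u₀ ∈ U' → u₁ ∈ U' →
        brjcΘ D Ω t v ω (g₀ * u₀) (g₁ * u₁) = brjcΘ D Ω t v ω g₀ g₁ := by
  classical
  obtain ⟨Ut, hUt, htU⟩ := ht
  have hfin := D.𝒯.finiteIndex Ut hUt
  have : Finite (G ⧸ Ut) := Subgroup.finite_quotient_of_finiteIndex
  have := Fintype.ofFinite (G ⧸ Ut)
  have := Fintype.ofFinite Ω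
  -- the levels of the finitely many values
  have hL : ∀ a : (G ⧸ Ut) × Ω × ι, ∃ L ∈ D.𝒯.lev, ∀ g s : G, s ∈ L →
      (t a.1.out (MonoidAlgebra.single a.2.1 1)).1 a.2.2 (g * s) =
        (t a.1.out (MonoidAlgebra.single a.2.1 1)).1 a.2.2 g := fun a =>
    ((t a.1.out (MonoidAlgebra.single a.2.1 1)).2 a.2.2).2
  choose L hL hLx using hL
  have hinf : (Finset.univ : Finset ((G ⧸ Ut) × Ω × ι)).inf L ⊓ (Ut ⊓ U) ∈ D.𝒯.lev :=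
    D.𝒯.inf_mem _ _ (tower_finset_inf_mem D.𝒯 _ _ fun a _ => hL a) (D.𝒯.inf_mem _ _ hUt hU)
  obtain ⟨U', hU', hU'le, hU'n⟩ := D.𝒯.exists_normal _ hinf
  have hU'L : ∀ a, U' ≤ L a := fun a =>
    (hU'le.trans inf_le_left).trans (Finset.inf_le (Finset.mem_univ a))
  have hU't : U' ≤ Ut := (hU'le.trans inf_le_right).trans inf_le_left
  have hU'U : U' ≤ U := (hU'le.trans inf_le_right).trans inf_le_right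
  -- `t` depends only on the class mod `Ut`
  have htout : ∀ a : G, t a = t ((a : G ⧸ Ut)).out := by
    intro a
    obtain ⟨s, hs⟩ := QuotientGroup.mk_out_eq_mul Ut a
    rw [hs, htU a (s : G) s.2]
  refine ⟨U', hU', hU'U, hU'n, fun v ω g₀ g₁ u₀ u₁ hu₀ hu₁ => ?_⟩
  unfold brjcΘ
  have e1 : t ((g₀ * u₀)⁻¹ * (g₁ * u₁)) = t (g₀⁻¹ * g₁) := by
    have a1 : (g₀ * u₀)⁻¹ * (g₁ * u₁) =
        g₀⁻¹ * g₁ * ((g₀⁻¹ * g₁)⁻¹ * u₀⁻¹ * (g₀⁻¹ * g₁) * u₁) := by group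
    have hc : (g₀⁻¹ * g₁)⁻¹ * u₀⁻¹ * (g₀⁻¹ * g₁) * u₁ ∈ U' := by
      refine U'.mul_mem ?_ hu₁
      simpa using hU'n.conj_mem u₀⁻¹ (U'.inv_mem hu₀) (g₀⁻¹ * g₁)⁻¹
    rw [a1]
    exact htU _ _ (hU't hc)
  have e2 : (g₀ * u₀)⁻¹ • ω = g₀⁻¹ • ω := by
    rw [mul_inv_rev, mul_smul, hUΩ _ (hU'U (U'.inv_mem hu₀))]
  rw [e1, e2, htout (g₀⁻¹ * g₁)]
  exact hLx (((g₀⁻¹ * g₁ : G) : G ⧸ Ut), g₀⁻¹ • ω, v) g₀ u₀ (hU'L _ hu₀)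

end Dict1

/-! ### Part C: extension from the orbit representatives -/

section Family

variable {G H X : Type} [Group G] [Group H] [AddCommGroup X] (r : H →* G)
  {Ω : Type} [MulAction G Ω] (act : H → X →+ X)

lemma brjc_rep_rep (ω : Ω) : permSh1_rep r (permSh1_rep r ω) = permSh1_rep r ω := by
  have h := permSh1_rep_smul r (permSh1_g r ω) (permSh1_rep r ω)
  rw [permSh1_g_spec] at h
  exact h.symm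

variable (hact : ∀ d d' x, act (d * d') x = act d (act d' x))

include hact in
lemma brjc_ext_equiv {S : Type} [MulAction G S] (F : Ω → S → X)
    (hF : ∀ ω, permSh1_rep r ω = ω → ∀ d s, r d • ω = ω → F ω (r d • s) = act d (F ω s))
    (ω : Ω) (e : H) (s : S) :
    j2dExt r act F (r e • ω) (r e • s) = act e (j2dExt r act F ω s) := by
  unfold j2dExt
  have hrep : permSh1_rep r (r e • ω) = permSh1_rep r ω := permSh1_rep_smul r e ω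
  have h1 : r (permSh1_g r (r e • ω)) • permSh1_rep r ω = r e • ω := by
    rw [← hrep]; exact permSh1_g_spec r (r e • ω)
  have h2 : r (permSh1_g r ω) • permSh1_rep r ω = ω := permSh1_g_spec r ω
  have hF₀ := hF (permSh1_rep r ω) (brjc_rep_rep r ω)
  rw [hrep]
  generalize permSh1_g r (r e • ω) = d' at h1 ⊢
  generalize permSh1_g r ω = d at h2 ⊢
  generalize permSh1_rep r ω = ω₀ at h1 h2 hF₀ ⊢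
  have hk : r (d'⁻¹ * e * d) • ω₀ = ω₀ := by
    rw [map_mul, map_mul, mul_smul, mul_smul, h2, ← h1, map_inv, inv_smul_smul]
  have e1 : (r d')⁻¹ • r e • s = r (d'⁻¹ * e * d) • (r d)⁻¹ • s := by
    rw [map_mul, map_mul, map_inv, mul_smul, mul_smul, smul_inv_smul]
  rw [e1, hF₀ _ _ hk, ← hact, ← hact]
  congr 2
  group

include hact in
/-- primitives at the orbit representatives extend to a jointly equivariant family of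
primitives -/
theorem brjc_family (U : Subgroup G) (Ψ : Ω → G → G → G → X)
    (hΨ1 : ∀ ω d g₀ g₁ g₂,
      Ψ (r d • ω) (r d * g₀) (r d * g₁) (r d * g₂) = act d (Ψ ω g₀ g₁ g₂))
    (Θ₀ : Ω → G → G → X)
    (hΘ1 : ∀ ω, permSh1_rep r ω = ω → ∀ d g₀ g₁, r d • ω = ω →
      Θ₀ ω (r d * g₀) (r d * g₁) = act d (Θ₀ ω g₀ g₁))
    (hΘ3 : ∀ ω, permSh1_rep r ω = ω → ∀ g₀ g₁ u₀ u₁, u₀ ∈ U → u₁ ∈ U →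
      Θ₀ ω (g₀ * u₀) (g₁ * u₁) = Θ₀ ω g₀ g₁)
    (h : ∀ ω, permSh1_rep r ω = ω → ∀ g₀ g₁ g₂,
      Ψ ω g₀ g₁ g₂ = Θ₀ ω g₁ g₂ - Θ₀ ω g₀ g₂ + Θ₀ ω g₀ g₁) :
    ∃ Θ : Ω → G → G → X,
      (∀ ω d g₀ g₁, Θ (r d • ω) (r d * g₀) (r d * g₁) = act d (Θ ω g₀ g₁)) ∧
      (∀ ω g₀ g₁ u₀ u₁, u₀ ∈ U → u₁ ∈ U → Θ ω (g₀ * u₀) (g₁ * u₁) = Θ ω g₀ g₁) ∧
      ∀ ω g₀ g₁ g₂, Ψ ω g₀ g₁ g₂ = Θ ω g₁ g₂ - Θ ω g₀ g₂ + Θ ω g₀ g₁ := by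
  let F₂ : Ω → G × G → X := fun ω s => Θ₀ ω s.1 s.2
  have hF₂ : ∀ ω, permSh1_rep r ω = ω → ∀ d (s : G × G), r d • ω = ω →
      F₂ ω (r d • s) = act d (F₂ ω s) := by
    rintro ω hω d ⟨g₀, g₁⟩ hd
    exact hΘ1 ω hω d g₀ g₁ hd
  have hΘ : ∀ ω g₀ g₁, j2dExt r act F₂ ω (g₀, g₁) =
      act (permSh1_g r ω) (Θ₀ (permSh1_rep r ω)
        ((r (permSh1_g r ω))⁻¹ * g₀) ((r (permSh1_g r ω))⁻¹ * g₁)) := fun ω g₀ g₁ => rfl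
  refine ⟨fun ω g₀ g₁ => j2dExt r act F₂ ω (g₀, g₁), ?_, ?_, ?_⟩
  · intro ω d g₀ g₁
    exact brjc_ext_equiv r act hact F₂ hF₂ ω d (g₀, g₁)
  · intro ω g₀ g₁ u₀ u₁ hu₀ hu₁
    simp only [hΘ]
    rw [← mul_assoc, ← mul_assoc, hΘ3 _ (brjc_rep_rep r ω) _ _ _ _ hu₀ hu₁]
  · intro ω g₀ g₁ g₂
    have hΨ : Ψ ω g₀ g₁ g₂ = act (permSh1_g r ω) (Ψ (permSh1_rep r ω)
        ((r (permSh1_g r ω))⁻¹ * g₀) ((r (permSh1_g r ω))⁻¹ * g₁)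
        ((r (permSh1_g r ω))⁻¹ * g₂)) := by
      have := hΨ1 (permSh1_rep r ω) (permSh1_g r ω) ((r (permSh1_g r ω))⁻¹ * g₀)
        ((r (permSh1_g r ω))⁻¹ * g₁) ((r (permSh1_g r ω))⁻¹ * g₂)
      rw [permSh1_g_spec, mul_inv_cancel_left, mul_inv_cancel_left, mul_inv_cancel_left] at this
      exact this
    simp only [hΘ]
    rw [hΨ, h _ (brjc_rep_rep r ω), map_add, map_sub]

end Family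

/-! ### Level coboundaries on `K_v` -/

section Cob

variable {p : ℕ} {G : Type} [Group G] {ι : Type} {Gloc : ι → Type} [∀ v, Group (Gloc v)]
  (D : PTDatum p G ι Gloc) (v : ι) (K : Subgroup (Gloc v))

lemma brjc_cob_zsmul (c : K → K → K → (D.Jloc v).V) (h : BrjlCob D v K c) (m : ℤ) :
    BrjlCob D v K (fun k₀ k₁ k₂ => m • c k₀ k₁ k₂) := by
  obtain ⟨t, ht1, ⟨U', hU', ht3⟩, ht⟩ := h
  refine ⟨fun k₀ k₁ => m • t k₀ k₁, fun k k₀ k₁ => ?_, ⟨U', hU', fun k₀ k₁ s₀ s₁ hs₀ hs₁ => ?_⟩,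
    fun k₀ k₁ k₂ => ?_⟩
  · show m • t (k * k₀) (k * k₁) = (D.Jloc v).ρ (k : Gloc v) (m • t k₀ k₁)
    rw [ht1, map_zsmul]
  · show m • t (k₀ * s₀) (k₁ * s₁) = m • t k₀ k₁
    rw [ht3 k₀ k₁ s₀ s₁ hs₀ hs₁]
  · show m • c k₀ k₁ k₂ = m • t k₁ k₂ - m • t k₀ k₂ + m • t k₀ k₁
    rw [ht, zsmul_add, zsmul_sub]

lemma brjc_cob_add (D : PTDatum p G ι Gloc) (c c' : K → K → K → (D.Jloc v).V)
    (h : BrjlCob D v K c) (h' : BrjlCob D v K c') :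
    BrjlCob D v K (fun k₀ k₁ k₂ => c k₀ k₁ k₂ + c' k₀ k₁ k₂) := by
  obtain ⟨t, ht1, ⟨U', hU', ht3⟩, ht⟩ := h
  obtain ⟨t', ht1', ⟨U'', hU'', ht3'⟩, ht'⟩ := h'
  refine ⟨fun k₀ k₁ => t k₀ k₁ + t' k₀ k₁, fun k k₀ k₁ => ?_,
    ⟨U' ⊓ U'', D.𝒯.inf_mem _ _ hU' hU'', fun k₀ k₁ s₀ s₁ hs₀ hs₁ => ?_⟩, fun k₀ k₁ k₂ => ?_⟩
  · show t (k * k₀) (k * k₁) + t' (k * k₀) (k * k₁) =
      (D.Jloc v).ρ (k : Gloc v) (t k₀ k₁ + t' k₀ k₁)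
    rw [ht1, ht1', map_add]
  · show t (k₀ * s₀) (k₁ * s₁) + t' (k₀ * s₀) (k₁ * s₁) = t k₀ k₁ + t' k₀ k₁
    rw [ht3 k₀ k₁ s₀ s₁ hs₀.1 hs₁.1, ht3' k₀ k₁ s₀ s₁ hs₀.2 hs₁.2]
  · show c k₀ k₁ k₂ + c' k₀ k₁ k₂ = t k₁ k₂ + t' k₁ k₂ - (t k₀ k₂ + t' k₀ k₂) +
      (t k₀ k₁ + t' k₀ k₁)
    rw [ht, ht']
    abel

lemma brjc_cob_congr (c c' : K → K → K → (D.Jloc v).V)
    (h : BrjlCob D v K c) (hc : ∀ k₀ k₁ k₂, c k₀ k₁ k₂ = c' k₀ k₁ k₂) : BrjlCob D v K c' := by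
  have : c = c' := funext fun k₀ => funext fun k₁ => funext fun k₂ => hc k₀ k₁ k₂
  rwa [← this]

lemma brjc_cob_zero : BrjlCob D v K (fun _ _ _ => 0) :=
  ⟨fun _ _ => 0, fun k k₀ k₁ => by simp, ⟨⊤, D.𝒯.top_mem, fun _ _ _ _ _ _ => rfl⟩,
    fun _ _ _ => by simp⟩

/-- Bezout: if `a c` and `p c` are level coboundaries and `p ∤ a`, then `c` is one -/
lemma brjc_cob_bezout [Fact p.Prime] (c : K → K → K → (D.Jloc v).V) (a : ℤ)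
    (ha : BrjlCob D v K (fun k₀ k₁ k₂ => a • c k₀ k₁ k₂))
    (hp : BrjlCob D v K (fun k₀ k₁ k₂ => p • c k₀ k₁ k₂)) (hpa : ¬ (p : ℤ) ∣ a) :
    BrjlCob D v K c := by
  have hprime : Prime (p : ℤ) := Nat.prime_iff_prime_int.1 Fact.out
  have hcop : IsCoprime (p : ℤ) a := (Prime.coprime_iff_not_dvd hprime).2 hpa
  obtain ⟨m, n, hmn⟩ := hcop
  refine brjc_cob_congr D v K _ c
    (brjc_cob_add v K D _ _ (brjc_cob_zsmul D v K _ hp m) (brjc_cob_zsmul D v K _ ha n))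
    fun k₀ k₁ k₂ => ?_
  show m • p • c k₀ k₁ k₂ + n • a • c k₀ k₁ k₂ = c k₀ k₁ k₂
  rw [← natCast_zsmul (c k₀ k₁ k₂) p, smul_smul, smul_smul, ← add_zsmul, hmn, one_zsmul]

end Cob

/-! ### Part D: the index set -/

section Idx

variable {p : ℕ} {G : Type} [Group G] {ι : Type} {Gloc : ι → Type} [∀ v, Group (Gloc v)]
  (D : PTDatum p G ι Gloc) (U : Subgroup G) [hUn : U.Normal]

lemma brjc_smul_eq (g : G) (ω : G ⧸ U) : g • ω = (g : G ⧸ U) * ω := by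
  obtain ⟨x, rfl⟩ := QuotientGroup.mk_surjective ω
  rfl

lemma brjc_smul_mul (g : G) (ω δ : G ⧸ U) : g • (ω * δ) = (g • ω) * δ := by
  rw [brjc_smul_eq, brjc_smul_eq, mul_assoc]

lemma brjc_triv (s : G) (hs : s ∈ U) (ω : G ⧸ U) : s • ω = ω := by
  rw [brjc_smul_eq, (QuotientGroup.eq_one_iff s).2 hs, one_mul]

lemma brjc_stab (g : G) (ω : G ⧸ U) (h : g • ω = ω) : g ∈ U := by
  rw [brjc_smul_eq] at h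
  have h1 : (g : G ⧸ U) = 1 := mul_right_cancel (h.trans (one_mul ω).symm)
  exact (QuotientGroup.eq_one_iff g).1 h1

/-- the place of `ω` over `v`: the class of `ω⁻¹` in `Γ ⧸ D_v` -/
def brjcIdx (v : ι) (ω : G ⧸ U) : Σ v : ι, (G ⧸ U) ⧸ cycDec D U v :=
  ⟨v, ((ω⁻¹ : G ⧸ U) : (G ⧸ U) ⧸ cycDec D U v)⟩

lemma brjc_mem_dec (v : ι) (d : Gloc v) : ((D.r v d : G) : G ⧸ U) ∈ cycDec D U v :=
  ⟨D.r v d, ⟨d, rfl⟩, rfl⟩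

lemma brjcIdx_smul (v : ι) (d : Gloc v) (ω : G ⧸ U) :
    brjcIdx D U v (D.r v d • ω) = brjcIdx D U v ω := by
  unfold brjcIdx
  congr 1
  rw [brjc_smul_eq, QuotientGroup.eq]
  have e : ((D.r v d : G ⧸ U) * ω)⁻¹⁻¹ * ω⁻¹ = (D.r v d : G ⧸ U) := by group
  rw [e]
  exact brjc_mem_dec D U v d

lemma brjcIdx_mul (v : ι) (ω δ : G ⧸ U) :
    brjcIdx D U v (ω * δ) = δ⁻¹ • brjcIdx D U v ω := by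
  unfold brjcIdx
  rw [mul_inv_rev]
  rfl

lemma brjcIdx_eq (v : ι) (ω ω' : G ⧸ U) (h : brjcIdx D U v ω = brjcIdx D U v ω') :
    ∃ d : Gloc v, D.r v d • ω' = ω := by
  unfold brjcIdx at h
  have h1 := eq_of_heq (Sigma.mk.inj_iff.1 h).2
  rw [QuotientGroup.eq] at h1
  obtain ⟨g, ⟨d, rfl⟩, hg⟩ := h1
  refine ⟨d, ?_⟩
  rw [brjc_smul_eq]
  have hg' : ((D.r v d : G) : G ⧸ U) = ω⁻¹⁻¹ * ω'⁻¹ := hg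
  rw [hg']
  group

lemma brjcIdx_surj (x : Σ v : ι, (G ⧸ U) ⧸ cycDec D U v) :
    ∃ ω : G ⧸ U, brjcIdx D U x.1 ω = x := by
  obtain ⟨v, q⟩ := x
  obtain ⟨γ, rfl⟩ := QuotientGroup.mk_surjective q
  exact ⟨γ⁻¹, by unfold brjcIdx; rw [inv_inv]⟩

end Idx

/-! ### Part E: restriction to the decomposition groups and Shapiro injectivity -/

section Core

variable {p : ℕ} {G : Type} [Group G] {ι : Type} {Gloc : ι → Type} [∀ v, Group (Gloc v)]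
  (D : PTDatum p G ι Gloc) (U : Subgroup G) [hUn : U.Normal]

/-- evaluation at the basis vector `ω`, the component `v` and the point `g` -/
def brjcEv (ω : G ⧸ U) (v : ι) (g : G) :
    ((permZ G (G ⧸ U)).V →+ (PTJ D).V) →+ (D.Jloc v).V where
  toFun f := (f (MonoidAlgebra.single ω 1)).1 v g
  map_zero' := rfl
  map_add' _ _ := rfl

lemma brjcEv_apply (ω : G ⧸ U) (v : ι) (g : G) (f : (permZ G (G ⧸ U)).V →+ (PTJ D).V) :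
    brjcEv D U ω v g f = (f (MonoidAlgebra.single ω 1)).1 v g := rfl

lemma brjc_ext (f f' : (permZ G (G ⧸ U)).V →+ (PTJ D).V)
    (h : ∀ ω v g, brjcEv D U ω v g f = brjcEv D U ω v g f') : f = f' := by
  apply in1p_ext
  intro ω
  apply in2a_J_ext
  intro v g
  exact h ω v g

lemma brjcΨ_eq (y : G × G → ((permZ G (G ⧸ U)).V →+ (PTJ D).V)) (v : ι) (ω : G ⧸ U)
    (g₀ g₁ g₂ : G) :
    j2dΨ D (G ⧸ U) y v ω g₀ g₁ g₂ = brjcEv D U (g₀⁻¹ • ω) v g₀ (y (g₀⁻¹ * g₁, g₁⁻¹ * g₂)) :=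
  rfl

/-- a level coboundary restricts to level coboundaries on the groups `r_v⁻¹ U` -/
theorem brjc_restrict [Fintype ι] (hU : U ∈ D.𝒯.lev)
    (y : G × G → ((permZ G (G ⧸ U)).V →+ (PTJ D).V))
    (t : G → ((permZ G (G ⧸ U)).V →+ (PTJ D).V)) (ht : IsLevel₁ D.𝒯 t)
    (h : ∀ s, y s = dOne (permZ G (G ⧸ U)) (PTJ D) t s) (v : ι) (ω : G ⧸ U) :
    BrjlCob D v (U.comap (D.r v)) (fun k₀ k₁ k₂ =>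
      j2dΨ D (G ⧸ U) y v ω (D.r v k₀) (D.r v k₁) (D.r v k₂)) := by
  have hfin := D.𝒯.finiteIndex U hU
  have : Finite (G ⧸ U) := Subgroup.finite_quotient_of_finiteIndex
  obtain ⟨U', hU', hU'U, hU'n, hΘ3⟩ :=
    brjcΘ_level D (G ⧸ U) t ht U hU (fun s hs ω => brjc_triv U s hs ω)
  have hy : y = dOne (permZ G (G ⧸ U)) (PTJ D) t := funext h
  refine ⟨fun k₀ k₁ => brjcΘ D (G ⧸ U) t v ω (D.r v k₀) (D.r v k₁), fun k k₀ k₁ => ?_,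
    ⟨U', hU', fun k₀ k₁ s₀ s₁ hs₀ hs₁ => ?_⟩, fun k₀ k₁ k₂ => ?_⟩
  · show brjcΘ D (G ⧸ U) t v ω (D.r v ((k * k₀ : ↥(U.comap (D.r v))) : Gloc v))
        (D.r v ((k * k₁ : ↥(U.comap (D.r v))) : Gloc v)) = _
    rw [Subgroup.coe_mul, Subgroup.coe_mul, map_mul, map_mul]
    have := brjcΘ_equiv D (G ⧸ U) t v ω (k : Gloc v) (D.r v k₀) (D.r v k₁)
    rwa [brjc_triv U _ k.2 ω] at this
  · show brjcΘ D (G ⧸ U) t v ω (D.r v ((k₀ * s₀ : ↥(U.comap (D.r v))) : Gloc v))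
        (D.r v ((k₁ * s₁ : ↥(U.comap (D.r v))) : Gloc v)) = _
    rw [Subgroup.coe_mul, Subgroup.coe_mul, map_mul, map_mul]
    exact hΘ3 v ω _ _ _ _ hs₀ hs₁
  · show j2dΨ D (G ⧸ U) y v ω (D.r v k₀) (D.r v k₁) (D.r v k₂) = _
    rw [hy, brjcΘ_dOne]


/-- **Shapiro injectivity**: a jointly equivariant level family of homogeneous cocycles whose
restrictions to the groups `r_v⁻¹ U` at the orbit representatives are level coboundaries is a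
level coboundary. -/
theorem brjc_shapiro [Fintype ι] (hU : U ∈ D.𝒯.lev)
    (Φ : ∀ v, (G ⧸ U) → G → G → G → (D.Jloc v).V)
    (U₁ : Subgroup G) (hU₁ : U₁ ∈ D.𝒯.lev) (hU₁n : U₁.Normal) (hU₁U : U₁ ≤ U)
    (hΦ1 : ∀ (v : ι) (ω : G ⧸ U) (d : Gloc v) (g₀ g₁ g₂ : G),
      Φ v (D.r v d • ω) (D.r v d * g₀) (D.r v d * g₁) (D.r v d * g₂) =
        (D.Jloc v).ρ d (Φ v ω g₀ g₁ g₂))
    (hΦ2 : ∀ (v : ι) (ω : G ⧸ U) (g₀ g₁ g₂ g₃ : G),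
      Φ v ω g₁ g₂ g₃ - Φ v ω g₀ g₂ g₃ + Φ v ω g₀ g₁ g₃ - Φ v ω g₀ g₁ g₂ = 0)
    (hΦ3 : ∀ (v : ι) (ω : G ⧸ U) (g₀ g₁ g₂ u₀ u₁ u₂ : G), u₀ ∈ U₁ → u₁ ∈ U₁ → u₂ ∈ U₁ →
      Φ v ω (g₀ * u₀) (g₁ * u₁) (g₂ * u₂) = Φ v ω g₀ g₁ g₂)
    (hcob : ∀ (v : ι) (ω : G ⧸ U), permSh1_rep (D.r v) ω = ω →
      BrjlCob D v (U.comap (D.r v)) (fun k₀ k₁ k₂ => Φ v ω (D.r v k₀) (D.r v k₁) (D.r v k₂))) :
    ∃ t : G → ((permZ G (G ⧸ U)).V →+ (PTJ D).V), IsLevel₁ D.𝒯 t ∧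
      ∀ s, j2dW D (G ⧸ U) Φ s = dOne (permZ G (G ⧸ U)) (PTJ D) t s := by
  classical
  have hfin := D.𝒯.finiteIndex U hU
  have : Finite (G ⧸ U) := Subgroup.finite_quotient_of_finiteIndex
  have := Fintype.ofFinite (G ⧸ U)
  -- step 1: the local primitives
  have h1 : ∀ (v : ι) (ω : G ⧸ U), ∃ U' ∈ D.𝒯.lev,
      ∃ t : ↥(U.comap (D.r v)) → ↥(U.comap (D.r v)) → (D.Jloc v).V,
        permSh1_rep (D.r v) ω = ω →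
        (∀ k k₀ k₁ : ↥(U.comap (D.r v)),
          t (k * k₀) (k * k₁) = (D.Jloc v).ρ (k : Gloc v) (t k₀ k₁)) ∧
        (∀ k₀ k₁ s₀ s₁ : ↥(U.comap (D.r v)), D.r v s₀ ∈ U' → D.r v s₁ ∈ U' →
          t (k₀ * s₀) (k₁ * s₁) = t k₀ k₁) ∧
        ∀ k₀ k₁ k₂ : ↥(U.comap (D.r v)),
          Φ v ω (D.r v k₀) (D.r v k₁) (D.r v k₂) = t k₁ k₂ - t k₀ k₂ + t k₀ k₁ := by
    intro v ω
    by_cases hω : permSh1_rep (D.r v) ω = ω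
    · obtain ⟨t, ht1, ⟨U', hU', ht3⟩, ht⟩ := hcob v ω hω
      exact ⟨U', hU', t, fun _ => ⟨ht1, ht3, ht⟩⟩
    · exact ⟨⊤, D.𝒯.top_mem, fun _ _ => 0, fun h => absurd h hω⟩
  choose U' hU' t₀ ht₀ using h1
  -- step 2: a common normal level
  have hinf : (Finset.univ : Finset (ι × (G ⧸ U))).inf (fun a => U' a.1 a.2) ⊓ U₁ ∈ D.𝒯.lev :=
    D.𝒯.inf_mem _ _ (tower_finset_inf_mem D.𝒯 _ _ fun a _ => hU' a.1 a.2) hU₁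
  obtain ⟨U₂, hU₂, hU₂le, hU₂n⟩ := D.𝒯.exists_normal _ hinf
  have hU₂' : ∀ v ω, U₂ ≤ U' v ω := fun v ω =>
    (hU₂le.trans inf_le_left).trans
      (Finset.inf_le (f := fun a : ι × (G ⧸ U) => U' a.1 a.2) (Finset.mem_univ (v, ω)))
  have hU₂U₁ : U₂ ≤ U₁ := hU₂le.trans inf_le_right
  have hU₂U : U₂ ≤ U := hU₂U₁.trans hU₁U
  have hΩ : ∀ s ∈ U₂, ∀ ω : G ⧸ U, s • ω = ω := fun s hs ω => brjc_triv U s (hU₂U hs) ω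
  -- step 3: the Shapiro homotopy at the representatives
  have h3 : ∀ (v : ι) (ω : G ⧸ U), ∃ Θ : G → G → (D.Jloc v).V,
      permSh1_rep (D.r v) ω = ω →
      (∀ (d : Gloc v) (g₀ g₁ : G), D.r v d • ω = ω →
        Θ (D.r v d * g₀) (D.r v d * g₁) = (D.Jloc v).ρ d (Θ g₀ g₁)) ∧
      (∀ g₀ g₁ u₀ u₁ : G, u₀ ∈ U₂ → u₁ ∈ U₂ → Θ (g₀ * u₀) (g₁ * u₁) = Θ g₀ g₁) ∧
      ∀ g₀ g₁ g₂ : G, Φ v ω g₀ g₁ g₂ = Θ g₁ g₂ - Θ g₀ g₂ + Θ g₀ g₁ := by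
    intro v ω
    by_cases hω : permSh1_rep (D.r v) ω = ω
    · obtain ⟨ht1, ht3, ht⟩ := ht₀ v ω hω
      have := hU₂n
      obtain ⟨W, -, -, -, Θ, hΘ1, hΘ3, hWΘ⟩ :=
        j2d_core ((D.r v).comp (U.comap (D.r v)).subtype)
          (fun k : ↥(U.comap (D.r v)) => actAdd (D.Jloc v) (k : Gloc v)) U₂ 1 0
          (Φ v ω) (fun _ _ _ => 0) (t₀ v ω)
          (fun k g₀ g₁ g₂ => by
            have := hΦ1 v ω (k : Gloc v) g₀ g₁ g₂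
            rwa [brjc_triv U _ k.2 ω] at this)
          (fun g₀ g₁ g₂ g₃ => hΦ2 v ω g₀ g₁ g₂ g₃)
          (fun g₀ g₁ g₂ u₀ u₁ u₂ hu₀ hu₁ hu₂ =>
            hΦ3 v ω g₀ g₁ g₂ u₀ u₁ u₂ (hU₂U₁ hu₀) (hU₂U₁ hu₁) (hU₂U₁ hu₂))
          (fun d d₀ d₁ d₂ => (map_zero _).symm)
          (fun d₀ d₁ d₂ d₃ => by simp)
          (fun d₀ d₁ d₂ s₀ s₁ s₂ _ _ _ => rfl)
          ht1
          (fun d₀ d₁ s₀ s₁ hs₀ hs₁ => ht3 d₀ d₁ s₀ s₁ (hU₂' v ω hs₀) (hU₂' v ω hs₁))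
          (fun d₀ d₁ d₂ => by
            rw [one_smul, zero_smul, zero_add]
            exact ht d₀ d₁ d₂)
      refine ⟨Θ, fun _ => ⟨fun d g₀ g₁ hd => ?_, hΘ3, fun g₀ g₁ g₂ => ?_⟩⟩
      · exact hΘ1 ⟨d, brjc_stab U _ ω hd⟩ g₀ g₁
      · have := hWΘ g₀ g₁ g₂
        rwa [one_smul, zero_smul, zero_add] at this
    · exact ⟨fun _ _ => 0, fun h => absurd h hω⟩
  choose Θ₀ hΘ₀ using h3
  -- step 4: jointly equivariant primitives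
  have h4 := fun v : ι =>
    brjc_family (D.r v) (fun d : Gloc v => actAdd (D.Jloc v) d)
      (fun d d' x => by
        show (D.Jloc v).ρ (d * d') x = (D.Jloc v).ρ d ((D.Jloc v).ρ d' x)
        rw [map_mul]; rfl)
      U₂ (Φ v) (fun ω d g₀ g₁ g₂ => hΦ1 v ω d g₀ g₁ g₂) (Θ₀ v)
      (fun ω hω d g₀ g₁ hd => (hΘ₀ v ω hω).1 d g₀ g₁ hd)
      (fun ω hω g₀ g₁ u₀ u₁ hu₀ hu₁ => (hΘ₀ v ω hω).2.1 g₀ g₁ u₀ u₁ hu₀ hu₁)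
      (fun ω hω g₀ g₁ g₂ => (hΘ₀ v ω hω).2.2 g₀ g₁ g₂)
  choose Θ hΘ1 hΘ3 hΘ using h4
  have hΘ1' : ∀ (v : ι) (ω : G ⧸ U) (d : Gloc v) (g₀ g₁ : G),
      Θ v (D.r v d • ω) (D.r v d * g₀) (D.r v d * g₁) = (D.Jloc v).ρ d (Θ v ω g₀ g₁) :=
    fun v ω d g₀ g₁ => hΘ1 v ω d g₀ g₁
  have hΦ3' : ∀ (v : ι) (ω : G ⧸ U) (g₀ g₁ g₂ u₀ u₁ u₂ : G), u₀ ∈ U₂ → u₁ ∈ U₂ → u₂ ∈ U₂ →
      Φ v ω (g₀ * u₀) (g₁ * u₁) (g₂ * u₂) = Φ v ω g₀ g₁ g₂ :=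
    fun v ω g₀ g₁ g₂ u₀ u₁ u₂ hu₀ hu₁ hu₂ =>
      hΦ3 v ω g₀ g₁ g₂ u₀ u₁ u₂ (hU₂U₁ hu₀) (hU₂U₁ hu₁) (hU₂U₁ hu₂)
  -- step 5: the primitive
  refine ⟨j2dT D (G ⧸ U) Θ, j2dT_level D (G ⧸ U) U₂ hU₂ hU₂n hΩ Θ hΘ1' hΘ3, ?_⟩
  rintro ⟨σ, τ⟩
  apply in1p_ext
  intro ω
  apply in2a_J_ext
  intro v g
  rw [j2dW_apply D (G ⧸ U) U₂ hU₂ hU₂n hΩ Φ hΦ1 hΦ3',
    j2dT_dOne_apply D (G ⧸ U) U₂ hU₂ hU₂n hΩ Θ hΘ1' hΘ3]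
  exact hΘ v (g • ω) g (g * σ) (g * σ * τ)

/-! ### Part F: the family `e x` -/

/-- the family of homogeneous cocycles with coefficients `a` -/
def brjcW (𝒰 : ∀ v, G → G → G → (D.Jloc v).V)
    (a : (Σ v : ι, (G ⧸ U) ⧸ cycDec D U v) → ℤ) :
    ∀ v, (G ⧸ U) → G → G → G → (D.Jloc v).V :=
  fun v ω g₀ g₁ g₂ => a (brjcIdx D U v ω) • 𝒰 v g₀ g₁ g₂

open Classical in
/-- the cocycle `e x` -/
def brjcE (𝒰 : ∀ v, G → G → G → (D.Jloc v).V) (x : Σ v : ι, (G ⧸ U) ⧸ cycDec D U v) :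
    G × G → ((permZ G (G ⧸ U)).V →+ (PTJ D).V) :=
  j2dW D (G ⧸ U) (brjcW D U 𝒰 (fun x' => if x' = x then 1 else 0))

section Fam

variable (𝒰 : ∀ v, G → G → G → (D.Jloc v).V)
  (h𝒰1 : ∀ (v : ι) (d : Gloc v) (g₀ g₁ g₂ : G),
    𝒰 v (D.r v d * g₀) (D.r v d * g₁) (D.r v d * g₂) = (D.Jloc v).ρ d (𝒰 v g₀ g₁ g₂))
  (h𝒰2 : ∀ (v : ι) (g₀ g₁ g₂ g₃ : G),
    𝒰 v g₁ g₂ g₃ - 𝒰 v g₀ g₂ g₃ + 𝒰 v g₀ g₁ g₃ - 𝒰 v g₀ g₁ g₂ = 0)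
  (U₁ : Subgroup G) (hU₁ : U₁ ∈ D.𝒯.lev) (hU₁n : U₁.Normal) (hU₁U : U₁ ≤ U)
  (h𝒰3 : ∀ (v : ι) (g₀ g₁ g₂ u₀ u₁ u₂ : G), u₀ ∈ U₁ → u₁ ∈ U₁ → u₂ ∈ U₁ →
    𝒰 v (g₀ * u₀) (g₁ * u₁) (g₂ * u₂) = 𝒰 v g₀ g₁ g₂)
  (a : (Σ v : ι, (G ⧸ U) ⧸ cycDec D U v) → ℤ)

include h𝒰1 in
lemma brjcW_equiv (v : ι) (ω : G ⧸ U) (d : Gloc v) (g₀ g₁ g₂ : G) :
    brjcW D U 𝒰 a v (D.r v d • ω) (D.r v d * g₀) (D.r v d * g₁) (D.r v d * g₂) =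
      (D.Jloc v).ρ d (brjcW D U 𝒰 a v ω g₀ g₁ g₂) := by
  unfold brjcW
  rw [brjcIdx_smul, h𝒰1, map_zsmul]

include h𝒰2 in
lemma brjcW_cocycle (v : ι) (ω : G ⧸ U) (g₀ g₁ g₂ g₃ : G) :
    brjcW D U 𝒰 a v ω g₁ g₂ g₃ - brjcW D U 𝒰 a v ω g₀ g₂ g₃ + brjcW D U 𝒰 a v ω g₀ g₁ g₃ -
      brjcW D U 𝒰 a v ω g₀ g₁ g₂ = 0 := by
  unfold brjcW
  rw [← zsmul_sub, ← zsmul_add, ← zsmul_sub, h𝒰2, zsmul_zero]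

include h𝒰3 in
lemma brjcW_level (v : ι) (ω : G ⧸ U) (g₀ g₁ g₂ u₀ u₁ u₂ : G) (hu₀ : u₀ ∈ U₁) (hu₁ : u₁ ∈ U₁)
    (hu₂ : u₂ ∈ U₁) :
    brjcW D U 𝒰 a v ω (g₀ * u₀) (g₁ * u₁) (g₂ * u₂) = brjcW D U 𝒰 a v ω g₀ g₁ g₂ := by
  unfold brjcW
  rw [h𝒰3 v g₀ g₁ g₂ u₀ u₁ u₂ hu₀ hu₁ hu₂]

include h𝒰1 hU₁ hU₁n hU₁U h𝒰3 in
lemma brjcW_apply (σ τ : G) (ω : G ⧸ U) (v : ι) (g : G) :
    brjcEv D U ω v g (j2dW D (G ⧸ U) (brjcW D U 𝒰 a) (σ, τ)) =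
      a (brjcIdx D U v (g • ω)) • 𝒰 v g (g * σ) (g * σ * τ) :=
  j2dW_apply D (G ⧸ U) U₁ hU₁ hU₁n (fun s hs ω => brjc_triv U s (hU₁U hs) ω)
    (brjcW D U 𝒰 a) (brjcW_equiv D U 𝒰 h𝒰1 a) (brjcW_level D U 𝒰 U₁ h𝒰3 a) σ τ ω v g

include h𝒰1 hU₁ hU₁n hU₁U h𝒰3 in
lemma brjc_sum (a : (Σ v : ι, (G ⧸ U) ⧸ cycDec D U v) →₀ ℤ) (s : G × G) :
    a.sum (fun x n => n • brjcE D U 𝒰 x s) = j2dW D (G ⧸ U) (brjcW D U 𝒰 ⇑a) s := by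
  classical
  obtain ⟨σ, τ⟩ := s
  apply brjc_ext
  intro ω v g
  rw [brjcW_apply D U 𝒰 h𝒰1 U₁ hU₁ hU₁n hU₁U h𝒰3, map_finsuppSum]
  have h1 : ∀ (x : Σ v : ι, (G ⧸ U) ⧸ cycDec D U v) (n : ℤ),
      brjcEv D U ω v g (n • brjcE D U 𝒰 x (σ, τ)) =
        (if brjcIdx D U v (g • ω) = x then n else 0) • 𝒰 v g (g * σ) (g * σ * τ) := by
    intro x n
    rw [map_zsmul]
    unfold brjcE
    rw [brjcW_apply D U 𝒰 h𝒰1 U₁ hU₁ hU₁n hU₁U h𝒰3]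
    split_ifs
    · rw [one_zsmul]
    · rw [zero_zsmul, zsmul_zero]
  simp only [h1]
  show ∑ x ∈ a.support, (if brjcIdx D U v (g • ω) = x then a x else 0) •
      𝒰 v g (g * σ) (g * σ * τ) = _
  by_cases h : brjcIdx D U v (g • ω) ∈ a.support
  · rw [Finset.sum_eq_single_of_mem _ h (fun b _ hb => by rw [if_neg hb.symm, zero_zsmul]),
      if_pos rfl]
  · rw [Finset.sum_eq_zero (fun b hb => by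
      have hne : brjcIdx D U v (g • ω) ≠ b := fun e => h (e ▸ hb)
      rw [if_neg hne, zero_zsmul]), Finsupp.notMem_support_iff.1 h, zero_zsmul]

end Fam


lemma brjc_Ψ_W (W : ∀ v, (G ⧸ U) → G → G → G → (D.Jloc v).V)
    (U₁ : Subgroup G) (hU₁ : U₁ ∈ D.𝒯.lev) (hU₁n : U₁.Normal) (hU₁U : U₁ ≤ U)
    (hW1 : ∀ (v : ι) (ω : G ⧸ U) (d : Gloc v) (g₀ g₁ g₂ : G),
      W v (D.r v d • ω) (D.r v d * g₀) (D.r v d * g₁) (D.r v d * g₂) =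
        (D.Jloc v).ρ d (W v ω g₀ g₁ g₂))
    (hW3 : ∀ (v : ι) (ω : G ⧸ U) (g₀ g₁ g₂ u₀ u₁ u₂ : G), u₀ ∈ U₁ → u₁ ∈ U₁ → u₂ ∈ U₁ →
      W v ω (g₀ * u₀) (g₁ * u₁) (g₂ * u₂) = W v ω g₀ g₁ g₂)
    (v : ι) (ω : G ⧸ U) (g₀ g₁ g₂ : G) :
    j2dΨ D (G ⧸ U) (j2dW D (G ⧸ U) W) v ω g₀ g₁ g₂ = W v ω g₀ g₁ g₂ := by
  unfold j2dΨ
  rw [j2dW_apply D (G ⧸ U) U₁ hU₁ hU₁n (fun s hs ω => brjc_triv U s (hU₁U hs) ω) W hW1 hW3,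
    smul_inv_smul, mul_inv_cancel_left, mul_inv_cancel_left]

section Final

variable [Fact p.Prime] [Fintype ι] (hU : U ∈ D.𝒯.lev)
  (𝒰 : ∀ v, G → G → G → (D.Jloc v).V)
  (h𝒰1 : ∀ (v : ι) (d : Gloc v) (g₀ g₁ g₂ : G),
    𝒰 v (D.r v d * g₀) (D.r v d * g₁) (D.r v d * g₂) = (D.Jloc v).ρ d (𝒰 v g₀ g₁ g₂))
  (h𝒰2 : ∀ (v : ι) (g₀ g₁ g₂ g₃ : G),
    𝒰 v g₁ g₂ g₃ - 𝒰 v g₀ g₂ g₃ + 𝒰 v g₀ g₁ g₃ - 𝒰 v g₀ g₁ g₂ = 0)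
  (U₁ : Subgroup G) (hU₁ : U₁ ∈ D.𝒯.lev) (hU₁n : U₁.Normal) (hU₁U : U₁ ≤ U)
  (h𝒰3 : ∀ (v : ι) (g₀ g₁ g₂ u₀ u₁ u₂ : G), u₀ ∈ U₁ → u₁ ∈ U₁ → u₂ ∈ U₁ →
    𝒰 v (g₀ * u₀) (g₁ * u₁) (g₂ * u₂) = 𝒰 v g₀ g₁ g₂)
  (u : ∀ v, Gloc v → Gloc v → Gloc v → (D.Jloc v).V)
  (h𝒰r : ∀ (v : ι) (d₀ d₁ d₂ : Gloc v), 𝒰 v (D.r v d₀) (D.r v d₁) (D.r v d₂) = u v d₀ d₁ d₂)
  (hup : ∀ v, BrjlCob D v (U.comap (D.r v)) (fun k₀ k₁ k₂ => p • u v k₀ k₁ k₂))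
  (hun : ∀ v, ¬ BrjlCob D v (U.comap (D.r v)) (fun k₀ k₁ k₂ => u v k₀ k₁ k₂))
  (hug : ∀ v, ∀ c : ↥(U.comap (D.r v)) → ↥(U.comap (D.r v)) → ↥(U.comap (D.r v)) →
      (D.Jloc v).V,
    (∀ k k₀ k₁ k₂ : ↥(U.comap (D.r v)),
      c (k * k₀) (k * k₁) (k * k₂) = (D.Jloc v).ρ (k : Gloc v) (c k₀ k₁ k₂)) →
    (∀ k₀ k₁ k₂ k₃ : ↥(U.comap (D.r v)),
      c k₁ k₂ k₃ - c k₀ k₂ k₃ + c k₀ k₁ k₃ - c k₀ k₁ k₂ = 0) →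
    (∃ U₂ ∈ D.𝒯.lev, ∀ k₀ k₁ k₂ s₀ s₁ s₂ : ↥(U.comap (D.r v)),
      D.r v s₀ ∈ U₂ → D.r v s₁ ∈ U₂ → D.r v s₂ ∈ U₂ →
      c (k₀ * s₀) (k₁ * s₁) (k₂ * s₂) = c k₀ k₁ k₂) →
    BrjlCob D v (U.comap (D.r v)) (fun k₀ k₁ k₂ => p • c k₀ k₁ k₂) →
    ∃ a : ℕ, BrjlCob D v (U.comap (D.r v)) (fun k₀ k₁ k₂ => c k₀ k₁ k₂ - a • u v k₀ k₁ k₂))

include hU h𝒰1 h𝒰2 hU₁ hU₁n hU₁U h𝒰3 h𝒰r hup in
/-- (1): `e x` is a level 2-cocycle of `p`-torsion class -/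
theorem brjc_one (x : Σ v : ι, (G ⧸ U) ⧸ cycDec D U v) :
    IsPTorsCoc D.𝒯 p (permZ G (G ⧸ U)) (PTJ D) (brjcE D U 𝒰 x) := by
  classical
  have hΩ : ∀ s ∈ U₁, ∀ ω : G ⧸ U, s • ω = ω := fun s hs ω => brjc_triv U s (hU₁U hs) ω
  refine ⟨j2dW_level D (G ⧸ U) U₁ hU₁ hU₁n hΩ _ (brjcW_equiv D U 𝒰 h𝒰1 _)
      (brjcW_level D U 𝒰 U₁ h𝒰3 _),
    j2dW_cocycle D (G ⧸ U) U₁ hU₁ hU₁n hΩ _ (brjcW_equiv D U 𝒰 h𝒰1 _)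
      (brjcW_level D U 𝒰 U₁ h𝒰3 _) (brjcW_cocycle D U 𝒰 h𝒰2 _), ?_⟩
  obtain ⟨t, ht, h⟩ := brjc_shapiro D U hU
    (brjcW D U 𝒰 (fun x' => if x' = x then (p : ℤ) else 0)) U₁ hU₁ hU₁n hU₁U
    (brjcW_equiv D U 𝒰 h𝒰1 _) (brjcW_cocycle D U 𝒰 h𝒰2 _) (brjcW_level D U 𝒰 U₁ h𝒰3 _)
    (fun v ω _ => by
      by_cases hx : brjcIdx D U v ω = x
      · refine brjc_cob_congr D v _ _ _ (hup v) fun k₀ k₁ k₂ => ?_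
        show p • u v k₀ k₁ k₂ = (if brjcIdx D U v ω = x then (p : ℤ) else 0) •
          𝒰 v (D.r v k₀) (D.r v k₁) (D.r v k₂)
        rw [if_pos hx, h𝒰r, natCast_zsmul]
      · refine brjc_cob_congr D v _ _ _ (brjc_cob_zero D v _) fun k₀ k₁ k₂ => ?_
        show (0 : (D.Jloc v).V) = (if brjcIdx D U v ω = x then (p : ℤ) else 0) •
          𝒰 v (D.r v k₀) (D.r v k₁) (D.r v k₂)
        rw [if_neg hx, zero_zsmul])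
  refine ⟨t, ht, fun s => ?_⟩
  rw [← h s]
  obtain ⟨σ, τ⟩ := s
  apply brjc_ext
  intro ω v g
  rw [map_nsmul, brjcW_apply D U 𝒰 h𝒰1 U₁ hU₁ hU₁n hU₁U h𝒰3]
  unfold brjcE
  rw [brjcW_apply D U 𝒰 h𝒰1 U₁ hU₁ hU₁n hU₁U h𝒰3]
  split_ifs
  · rw [one_zsmul, natCast_zsmul]
  · rw [zero_zsmul, nsmul_zero]

include h𝒰1 hU₁ hU₁n hU₁U h𝒰3 in
/-- (2): the right translations permute the `e x` -/
theorem brjc_two (δ : G ⧸ U) (x : Σ v : ι, (G ⧸ U) ⧸ cycDec D U v) (s : G × G) :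
    (brjcE D U 𝒰 x s).comp (rtAdd U δ) = brjcE D U 𝒰 (δ • x) s := by
  classical
  obtain ⟨σ, τ⟩ := s
  apply brjc_ext
  intro ω v g
  have e1 : brjcEv D U ω v g ((brjcE D U 𝒰 x (σ, τ)).comp (rtAdd U δ)) =
      brjcEv D U (ω * δ) v g (brjcE D U 𝒰 x (σ, τ)) := by
    show ((brjcE D U 𝒰 x (σ, τ)) (rtAdd U δ (MonoidAlgebra.single ω 1))).1 v g = _
    rw [rtAdd_single]
    rfl
  rw [e1]
  unfold brjcE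
  rw [brjcW_apply D U 𝒰 h𝒰1 U₁ hU₁ hU₁n hU₁U h𝒰3,
    brjcW_apply D U 𝒰 h𝒰1 U₁ hU₁ hU₁n hU₁U h𝒰3, brjc_smul_mul, brjcIdx_mul]
  by_cases h : brjcIdx D U v (g • ω) = δ • x
  · rw [if_pos h, if_pos (by rw [h, inv_smul_smul])]
  · rw [if_neg h, if_neg (fun h' => h (by rw [← h', smul_inv_smul]))]

include hU h𝒰1 hU₁ hU₁n hU₁U h𝒰3 h𝒰r hup hun in
/-- (3): independence mod `p` -/
theorem brjc_three (a : (Σ v : ι, (G ⧸ U) ⧸ cycDec D U v) →₀ ℤ)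
    (h : ∃ t : G → ((permZ G (G ⧸ U)).V →+ (PTJ D).V), IsLevel₁ D.𝒯 t ∧
      ∀ s, a.sum (fun x n => n • brjcE D U 𝒰 x s) = dOne (permZ G (G ⧸ U)) (PTJ D) t s)
    (x : Σ v : ι, (G ⧸ U) ⧸ cycDec D U v) : (p : ℤ) ∣ a x := by
  obtain ⟨t, ht, h⟩ := h
  by_contra hpa
  obtain ⟨ω, hω⟩ := brjcIdx_surj D U x
  have h1 := brjc_restrict D U hU (j2dW D (G ⧸ U) (brjcW D U 𝒰 ⇑a)) t ht
    (fun s => by rw [← brjc_sum D U 𝒰 h𝒰1 U₁ hU₁ hU₁n hU₁U h𝒰3]; exact h s) x.1 ω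
  refine hun x.1 (brjc_cob_bezout D x.1 _ _ (a x) ?_ (hup x.1) hpa)
  refine brjc_cob_congr D x.1 _ _ _ h1 fun k₀ k₁ k₂ => ?_
  rw [brjc_Ψ_W D U _ U₁ hU₁ hU₁n hU₁U (brjcW_equiv D U 𝒰 h𝒰1 _) (brjcW_level D U 𝒰 U₁ h𝒰3 _)]
  show a (brjcIdx D U x.1 ω) • 𝒰 x.1 (D.r x.1 k₀) (D.r x.1 k₁) (D.r x.1 k₂) = _
  rw [hω, h𝒰r]

include hU h𝒰1 h𝒰2 hU₁ hU₁n hU₁U h𝒰3 h𝒰r hug in
/-- (4): the `e x` span the `p`-torsion -/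
theorem brjc_four (y : G × G → ((permZ G (G ⧸ U)).V →+ (PTJ D).V))
    (hy : IsPTorsCoc D.𝒯 p (permZ G (G ⧸ U)) (PTJ D) y) :
    ∃ (a : (Σ v : ι, (G ⧸ U) ⧸ cycDec D U v) →₀ ℤ)
      (t : G → ((permZ G (G ⧸ U)).V →+ (PTJ D).V)), IsLevel₁ D.𝒯 t ∧
      ∀ s, y s = a.sum (fun x n => n • brjcE D U 𝒰 x s) +
        dOne (permZ G (G ⧸ U)) (PTJ D) t s := by
  classical
  obtain ⟨⟨Uy, hUy, hyU⟩, hycoc, t, ht, hpt⟩ := hy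
  have hfin := D.𝒯.finiteIndex U hU
  have : Finite (G ⧸ U) := Subgroup.finite_quotient_of_finiteIndex
  -- a normal level of `y` below `U₁`
  obtain ⟨U₃, hU₃, hU₃y, hU₃U₁, hU₃n⟩ := tower_exists_normal_le₂ D.𝒯 hUy hU₁
  have hU₃U : U₃ ≤ U := hU₃U₁.trans hU₁U
  have hΩ : ∀ s ∈ U₃, ∀ ω : G ⧸ U, s • ω = ω := fun s hs ω => brjc_triv U s (hU₃U hs) ω
  have hyU' : ∀ g g' s s' : G, s ∈ U₃ → s' ∈ U₃ → y (g * s, g' * s') = y (g, g') :=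
    fun g g' s s' hs hs' => hyU g g' s s' (hU₃y hs) (hU₃y hs')
  -- the local coefficients
  have hloc : ∀ (v : ι) (ω : G ⧸ U), ∃ a : ℕ, BrjlCob D v (U.comap (D.r v))
      (fun k₀ k₁ k₂ => j2dΨ D (G ⧸ U) y v ω (D.r v k₀) (D.r v k₁) (D.r v k₂) -
        a • u v k₀ k₁ k₂) := by
    intro v ω
    refine hug v (fun k₀ k₁ k₂ => j2dΨ D (G ⧸ U) y v ω (D.r v k₀) (D.r v k₁) (D.r v k₂))
      ?_ ?_ ?_ ?_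
    · intro k k₀ k₁ k₂
      show j2dΨ D (G ⧸ U) y v ω (D.r v ((k * k₀ : ↥(U.comap (D.r v))) : Gloc v))
        (D.r v ((k * k₁ : ↥(U.comap (D.r v))) : Gloc v))
        (D.r v ((k * k₂ : ↥(U.comap (D.r v))) : Gloc v)) = _
      rw [Subgroup.coe_mul, Subgroup.coe_mul, Subgroup.coe_mul, map_mul, map_mul, map_mul]
      have := j2dΨ_equiv D (G ⧸ U) y v ω (k : Gloc v) (D.r v k₀) (D.r v k₁) (D.r v k₂)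
      rwa [brjc_triv U _ k.2 ω] at this
    · intro k₀ k₁ k₂ k₃
      exact j2dΨ_cocycle D (G ⧸ U) y hycoc v ω _ _ _ _
    · refine ⟨U₃, hU₃, fun k₀ k₁ k₂ s₀ s₁ s₂ hs₀ hs₁ hs₂ => ?_⟩
      show j2dΨ D (G ⧸ U) y v ω (D.r v ((k₀ * s₀ : ↥(U.comap (D.r v))) : Gloc v))
        (D.r v ((k₁ * s₁ : ↥(U.comap (D.r v))) : Gloc v))
        (D.r v ((k₂ * s₂ : ↥(U.comap (D.r v))) : Gloc v)) = _
      rw [Subgroup.coe_mul, Subgroup.coe_mul, Subgroup.coe_mul, map_mul, map_mul, map_mul]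
      exact j2dΨ_level D (G ⧸ U) y hycoc U₃ hU₃n hyU' hΩ v ω _ _ _ _ _ _ hs₀ hs₁ hs₂
    · have h1 := brjc_restrict D U hU (fun s => p • y s) t ht hpt v ω
      exact brjc_cob_congr D v _ _ _ h1 (fun k₀ k₁ k₂ => rfl)
  choose aloc haloc using hloc
  -- the global coefficients
  choose ωx hωx using brjcIdx_surj D U
  let a₀ : (Σ v : ι, (G ⧸ U) ⧸ cycDec D U v) → ℤ := fun x =>
    (aloc x.1 (permSh1_rep (D.r x.1) (ωx x)) : ℤ)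
  have hXfin : Finite (Σ v : ι, (G ⧸ U) ⧸ cycDec D U v) := inferInstance
  let a : (Σ v : ι, (G ⧸ U) ⧸ cycDec D U v) →₀ ℤ := Finsupp.ofSupportFinite a₀ (Set.toFinite _)
  have ha : ⇑a = a₀ := rfl
  have key : ∀ (v : ι) (ω : G ⧸ U), permSh1_rep (D.r v) ω = ω →
      a₀ (brjcIdx D U v ω) = (aloc v ω : ℤ) := by
    intro v ω hω
    obtain ⟨d, hd⟩ := brjcIdx_eq D U v (ωx (brjcIdx D U v ω)) ω (hωx (brjcIdx D U v ω))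
    have hrep : permSh1_rep (D.r v) (ωx (brjcIdx D U v ω)) = ω := by
      rw [← hd, permSh1_rep_smul, hω]
    show (aloc v (permSh1_rep (D.r v) (ωx (brjcIdx D U v ω))) : ℤ) = aloc v ω
    rw [hrep]
  -- the difference family
  let Φ : ∀ v, (G ⧸ U) → G → G → G → (D.Jloc v).V := fun v ω g₀ g₁ g₂ =>
    j2dΨ D (G ⧸ U) y v ω g₀ g₁ g₂ - brjcW D U 𝒰 a₀ v ω g₀ g₁ g₂
  have hΦ1 : ∀ (v : ι) (ω : G ⧸ U) (d : Gloc v) (g₀ g₁ g₂ : G),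
      Φ v (D.r v d • ω) (D.r v d * g₀) (D.r v d * g₁) (D.r v d * g₂) =
        (D.Jloc v).ρ d (Φ v ω g₀ g₁ g₂) := by
    intro v ω d g₀ g₁ g₂
    show j2dΨ D (G ⧸ U) y v (D.r v d • ω) (D.r v d * g₀) (D.r v d * g₁) (D.r v d * g₂) -
      brjcW D U 𝒰 a₀ v (D.r v d • ω) (D.r v d * g₀) (D.r v d * g₁) (D.r v d * g₂) =
      (D.Jloc v).ρ d (j2dΨ D (G ⧸ U) y v ω g₀ g₁ g₂ - brjcW D U 𝒰 a₀ v ω g₀ g₁ g₂)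
    rw [j2dΨ_equiv, brjcW_equiv D U 𝒰 h𝒰1, map_sub]
  have hΦ2 : ∀ (v : ι) (ω : G ⧸ U) (g₀ g₁ g₂ g₃ : G),
      Φ v ω g₁ g₂ g₃ - Φ v ω g₀ g₂ g₃ + Φ v ω g₀ g₁ g₃ - Φ v ω g₀ g₁ g₂ = 0 := by
    intro v ω g₀ g₁ g₂ g₃
    have e1 := j2dΨ_cocycle D (G ⧸ U) y hycoc v ω g₀ g₁ g₂ g₃
    have e2 := brjcW_cocycle D U 𝒰 h𝒰2 a₀ v ω g₀ g₁ g₂ g₃
    show j2dΨ D (G ⧸ U) y v ω g₁ g₂ g₃ - brjcW D U 𝒰 a₀ v ω g₁ g₂ g₃ -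
      (j2dΨ D (G ⧸ U) y v ω g₀ g₂ g₃ - brjcW D U 𝒰 a₀ v ω g₀ g₂ g₃) +
      (j2dΨ D (G ⧸ U) y v ω g₀ g₁ g₃ - brjcW D U 𝒰 a₀ v ω g₀ g₁ g₃) -
      (j2dΨ D (G ⧸ U) y v ω g₀ g₁ g₂ - brjcW D U 𝒰 a₀ v ω g₀ g₁ g₂) = 0
    have e3 : j2dΨ D (G ⧸ U) y v ω g₁ g₂ g₃ - brjcW D U 𝒰 a₀ v ω g₁ g₂ g₃ -
      (j2dΨ D (G ⧸ U) y v ω g₀ g₂ g₃ - brjcW D U 𝒰 a₀ v ω g₀ g₂ g₃) +
      (j2dΨ D (G ⧸ U) y v ω g₀ g₁ g₃ - brjcW D U 𝒰 a₀ v ω g₀ g₁ g₃) -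
      (j2dΨ D (G ⧸ U) y v ω g₀ g₁ g₂ - brjcW D U 𝒰 a₀ v ω g₀ g₁ g₂) =
      (j2dΨ D (G ⧸ U) y v ω g₁ g₂ g₃ - j2dΨ D (G ⧸ U) y v ω g₀ g₂ g₃ +
        j2dΨ D (G ⧸ U) y v ω g₀ g₁ g₃ - j2dΨ D (G ⧸ U) y v ω g₀ g₁ g₂) -
      (brjcW D U 𝒰 a₀ v ω g₁ g₂ g₃ - brjcW D U 𝒰 a₀ v ω g₀ g₂ g₃ +
        brjcW D U 𝒰 a₀ v ω g₀ g₁ g₃ - brjcW D U 𝒰 a₀ v ω g₀ g₁ g₂) := by abel
    rw [e3, e1, e2, sub_zero]
  have hΦ3 : ∀ (v : ι) (ω : G ⧸ U) (g₀ g₁ g₂ u₀ u₁ u₂ : G), u₀ ∈ U₃ → u₁ ∈ U₃ → u₂ ∈ U₃ →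
      Φ v ω (g₀ * u₀) (g₁ * u₁) (g₂ * u₂) = Φ v ω g₀ g₁ g₂ := by
    intro v ω g₀ g₁ g₂ u₀ u₁ u₂ hu₀ hu₁ hu₂
    show j2dΨ D (G ⧸ U) y v ω (g₀ * u₀) (g₁ * u₁) (g₂ * u₂) -
      brjcW D U 𝒰 a₀ v ω (g₀ * u₀) (g₁ * u₁) (g₂ * u₂) =
      j2dΨ D (G ⧸ U) y v ω g₀ g₁ g₂ - brjcW D U 𝒰 a₀ v ω g₀ g₁ g₂
    rw [j2dΨ_level D (G ⧸ U) y hycoc U₃ hU₃n hyU' hΩ v ω _ _ _ _ _ _ hu₀ hu₁ hu₂,
      brjcW_level D U 𝒰 U₁ h𝒰3 a₀ v ω _ _ _ _ _ _ (hU₃U₁ hu₀) (hU₃U₁ hu₁) (hU₃U₁ hu₂)]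
  obtain ⟨t', ht', h'⟩ := brjc_shapiro D U hU Φ U₃ hU₃ hU₃n hU₃U hΦ1 hΦ2 hΦ3
    (fun v ω hω => by
      refine brjc_cob_congr D v _ _ _ (haloc v ω) fun k₀ k₁ k₂ => ?_
      show j2dΨ D (G ⧸ U) y v ω (D.r v k₀) (D.r v k₁) (D.r v k₂) - aloc v ω • u v k₀ k₁ k₂ =
        j2dΨ D (G ⧸ U) y v ω (D.r v k₀) (D.r v k₁) (D.r v k₂) -
          a₀ (brjcIdx D U v ω) • 𝒰 v (D.r v k₀) (D.r v k₁) (D.r v k₂)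
      rw [key v ω hω, h𝒰r, natCast_zsmul])
  refine ⟨a, t', ht', fun s => ?_⟩
  rw [brjc_sum D U 𝒰 h𝒰1 U₁ hU₁ hU₁n hU₁U h𝒰3, ← h' s, ha]
  obtain ⟨σ, τ⟩ := s
  apply brjc_ext
  intro ω v g
  have e1 : brjcEv D U ω v g (j2dW D (G ⧸ U) Φ (σ, τ)) = Φ v (g • ω) g (g * σ) (g * σ * τ) :=
    j2dW_apply D (G ⧸ U) U₃ hU₃ hU₃n hΩ Φ hΦ1 hΦ3 σ τ ω v g
  rw [map_add, brjcW_apply D U 𝒰 h𝒰1 U₁ hU₁ hU₁n hU₁U h𝒰3, e1]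
  show brjcEv D U ω v g (y (σ, τ)) = a₀ (brjcIdx D U v (g • ω)) • 𝒰 v g (g * σ) (g * σ * τ) +
    (j2dΨ D (G ⧸ U) y v (g • ω) g (g * σ) (g * σ * τ) -
      a₀ (brjcIdx D U v (g • ω)) • 𝒰 v g (g * σ) (g * σ * τ))
  rw [add_sub_cancel, j2dΨ_roundtrip]
  rfl

end Final

end Core

/-- **K-BrJ, the cohomological core**, from the local structure theorem. -/
theorem stmtBrJCore_of (hLoc : StmtBrJLoc) : StmtBrJCore := by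
  intro p _ G _ ι _ _ Gloc _ D hPD U hUn hU
  classical
  have hloc := fun v : ι => hLoc p G ι Gloc D hPD v U hU hUn
  choose u hu1 hu2 hu3 hup hun hug using hloc
  choose U₁v hU₁v hU₁vU hU₁vn hu3 using hu3
  have hinf : (Finset.univ : Finset ι).inf U₁v ⊓ U ∈ D.𝒯.lev :=
    D.𝒯.inf_mem _ _ (tower_finset_inf_mem D.𝒯 _ _ fun v _ => hU₁v v) hU
  obtain ⟨U₁, hU₁, hU₁le, hU₁n⟩ := D.𝒯.exists_normal _ hinf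
  have hU₁v' : ∀ v, U₁ ≤ U₁v v := fun v =>
    (hU₁le.trans inf_le_left).trans (Finset.inf_le (Finset.mem_univ v))
  have hU₁U : U₁ ≤ U := hU₁le.trans inf_le_right
  have hinv := fun v : ι =>
    haveI := hU₁n
    brjc_invSh (D.r v) (fun d : Gloc v => actAdd (D.Jloc v) d) U₁ (u v) (hu1 v) (hu2 v)
      (fun d₀ d₁ d₂ s₀ s₁ s₂ hs₀ hs₁ hs₂ =>
        hu3 v d₀ d₁ d₂ s₀ s₁ s₂ (hU₁v' v hs₀) (hU₁v' v hs₁) (hU₁v' v hs₂))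
  choose 𝒰 h𝒰1 h𝒰2 h𝒰3 h𝒰r using hinv
  refine ⟨brjcE D U 𝒰,
    fun x => brjc_one D U hU 𝒰 h𝒰1 h𝒰2 U₁ hU₁ hU₁n hU₁U h𝒰3 u h𝒰r hup x,
    fun δ x s => brjc_two D U 𝒰 h𝒰1 U₁ hU₁ hU₁n hU₁U h𝒰3 δ x s,
    fun a h x => brjc_three D U hU 𝒰 h𝒰1 U₁ hU₁ hU₁n hU₁U h𝒰3 u h𝒰r hup hun a h x,
    fun y hy => brjc_four D U hU 𝒰 h𝒰1 h𝒰2 U₁ hU₁ hU₁n hU₁U h𝒰3 u h𝒰r hug y hy⟩


end Fermat.Agent.TW.E

end
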