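/-
TW-E / E-cyc / K-BrJ, LOCAL piece (helper55) — abstract part.
* homogeneous ↔ inhomogeneous cochains on a group `Kt` with values in a `Kt`-module `X`
  (`brjlHat`, `brjlHat₁`, `brjlHom`, `brjlHom₁`);
* `brjl_exists_order_p`: a `p`-fundamental class of a finite group of order divisible by `p` has a
  multiple of exact order `p`;
* `brjl_cyc`, `brjl_infl_inj`: cyclicity of the `p`-torsion and injectivity of the inflation at
  finite levels, in the form used in TW/E/BrJLoc.lean.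
-/
import Fermat.Agent.TW.E.J2Fin
import Fermat.Agent.TW.F.H2pCycU
import Fermat.Agent.PT.F.InflInj
import Fermat.Agent.PT.F.H2pCyclic
import Fermat.Agent.PT.F.Level

set_option autoImplicit false
set_option linter.unusedSectionVars false
set_option linter.unusedVariables false
set_option linter.style.haveILetI false

noncomputable section

namespace Fermat.Agent.TW.E

open CategoryTheory groupCohomology Fermat.Agent.PT Fermat.Agent.PT.F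

attribute [local instance 1100] Rep.hV2

section Abstract

variable {Kt : Type} [Group Kt] (X : Rep.{0} ℤ Kt)

/-- the inhomogeneous 2-cochain of a homogeneous one -/
def brjlHat (c : Kt → Kt → Kt → X.V) : Kt × Kt → X.V := fun ab => c 1 ab.1 (ab.1 * ab.2)

/-- the inhomogeneous 1-cochain of a homogeneous one -/
def brjlHat₁ (t : Kt → Kt → X.V) : Kt → X.V := fun a => t 1 a

/-- the homogeneous 2-cochain of an inhomogeneous one -/
def brjlHom (y : Kt × Kt → X.V) : Kt → Kt → Kt → X.V :=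
  fun k₀ k₁ k₂ => X.ρ k₀ (y (k₀⁻¹ * k₁, k₁⁻¹ * k₂))

/-- the homogeneous 1-cochain of an inhomogeneous one -/
def brjlHom₁ (t : Kt → X.V) : Kt → Kt → X.V := fun k₀ k₁ => X.ρ k₀ (t (k₀⁻¹ * k₁))

lemma brjl_ρ_mul (a b : Kt) (x : X.V) : X.ρ (a * b) x = X.ρ a (X.ρ b x) := by
  rw [map_mul]; rfl

lemma brjl_ρ_one (x : X.V) : X.ρ 1 x = x := by
  rw [map_one]; rfl

variable {X}

lemma brjlHat_mem_cocycles₂ {c : Kt → Kt → Kt → X.V}
    (hc1 : ∀ k k₀ k₁ k₂ : Kt, c (k * k₀) (k * k₁) (k * k₂) = X.ρ k (c k₀ k₁ k₂))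
    (hc2 : ∀ k₀ k₁ k₂ k₃ : Kt, c k₁ k₂ k₃ - c k₀ k₂ k₃ + c k₀ k₁ k₃ - c k₀ k₁ k₂ = 0) :
    brjlHat X c ∈ cocycles₂ X := by
  rw [mem_cocycles₂_def]
  intro a b d
  unfold brjlHat
  have h1 := hc1 a 1 b (b * d)
  have h2 := hc2 1 a (a * b) (a * b * d)
  rw [mul_one, ← mul_assoc] at h1
  simp only
  rw [← h1, ← mul_assoc]
  exact h2

lemma brjlHat_desc₂ {c : Kt → Kt → Kt → X.V} (N : Subgroup Kt) [hN : N.Normal]
    (hc1 : ∀ k k₀ k₁ k₂ : Kt, c (k * k₀) (k * k₁) (k * k₂) = X.ρ k (c k₀ k₁ k₂))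
    (hc3 : ∀ k₀ k₁ k₂ s₀ s₁ s₂ : Kt, s₀ ∈ N → s₁ ∈ N → s₂ ∈ N →
      c (k₀ * s₀) (k₁ * s₁) (k₂ * s₂) = c k₀ k₁ k₂) :
    Desc₂ X N (brjlHat X c) := by
  refine ⟨fun a b s s' hs hs' => ?_, fun ab s hs => ?_⟩
  · unfold brjlHat
    simp only
    have e : a * s * (b * s') = a * b * (b⁻¹ * s * b * s') := by group
    have hm : b⁻¹ * s * b * s' ∈ N := by
      refine N.mul_mem ?_ hs'
      have := hN.conj_mem s hs b⁻¹
      simpa using this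
    rw [e]
    have := hc3 1 a (a * b) 1 s (b⁻¹ * s * b * s') N.one_mem hs hm
    rw [mul_one] at this
    exact this
  · obtain ⟨a, b⟩ := ab
    unfold brjlHat
    simp only
    have h1 := hc1 s 1 a (a * b)
    have hsa : a⁻¹ * s * a ∈ N := by
      have := hN.conj_mem s hs a⁻¹
      simpa using this
    have hsab : (a * b)⁻¹ * s * (a * b) ∈ N := by
      have := hN.conj_mem s hs (a * b)⁻¹
      simpa using this
    have h2 := hc3 1 a (a * b) s (a⁻¹ * s * a) ((a * b)⁻¹ * s * (a * b)) hs hsa hsab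
    have e1 : s * a = a * (a⁻¹ * s * a) := by group
    have e2 : s * (a * b) = a * b * ((a * b)⁻¹ * s * (a * b)) := by group
    rw [mul_one] at h1
    rw [one_mul] at h2
    have h3 : c s (s * a) (s * (a * b)) = c 1 a (a * b) := by
      rw [e1, e2]
      exact h2
    exact h1.symm.trans h3

lemma brjlHat₁_desc₁ {t : Kt → Kt → X.V} (N : Subgroup Kt) [hN : N.Normal]
    (ht1 : ∀ k k₀ k₁ : Kt, t (k * k₀) (k * k₁) = X.ρ k (t k₀ k₁))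
    (ht3 : ∀ k₀ k₁ s₀ s₁ : Kt, s₀ ∈ N → s₁ ∈ N → t (k₀ * s₀) (k₁ * s₁) = t k₀ k₁) :
    Desc₁ X N (brjlHat₁ X t) := by
  refine ⟨fun a s hs => ?_, fun a s hs => ?_⟩
  · unfold brjlHat₁
    have := ht3 1 a 1 s N.one_mem hs
    rw [mul_one] at this
    exact this
  · unfold brjlHat₁
    have h1 := ht1 s 1 a
    rw [mul_one] at h1
    have hsa : a⁻¹ * s * a ∈ N := by
      have := hN.conj_mem s hs a⁻¹
      simpa using this
    have h2 := ht3 1 a s (a⁻¹ * s * a) hs hsa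
    have e1 : s * a = a * (a⁻¹ * s * a) := by group
    rw [one_mul] at h2
    rw [← h1, e1]
    exact h2

lemma brjlHat_d {c : Kt → Kt → Kt → X.V} {t : Kt → Kt → X.V}
    (ht1 : ∀ k k₀ k₁ : Kt, t (k * k₀) (k * k₁) = X.ρ k (t k₀ k₁))
    (h : ∀ k₀ k₁ k₂ : Kt, c k₀ k₁ k₂ = t k₁ k₂ - t k₀ k₂ + t k₀ k₁) :
    (d₁₂ X).hom (brjlHat₁ X t) = brjlHat X c := by
  funext ab
  obtain ⟨a, b⟩ := ab
  rw [d₁₂_hom_apply]
  unfold brjlHat brjlHat₁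
  simp only
  have h1 := ht1 a 1 b
  rw [mul_one] at h1
  rw [h 1 a (a * b), h1]

lemma brjlHat_hom (y : Kt × Kt → X.V) : brjlHat X (brjlHom X y) = y := by
  funext ab
  obtain ⟨a, b⟩ := ab
  unfold brjlHat brjlHom
  simp only
  rw [brjl_ρ_one, inv_one, one_mul, inv_mul_cancel_left]

lemma brjlHom_hat {c : Kt → Kt → Kt → X.V}
    (hc1 : ∀ k k₀ k₁ k₂ : Kt, c (k * k₀) (k * k₁) (k * k₂) = X.ρ k (c k₀ k₁ k₂))
    (k₀ k₁ k₂ : Kt) : brjlHom X (brjlHat X c) k₀ k₁ k₂ = c k₀ k₁ k₂ := by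
  unfold brjlHat brjlHom
  simp only
  have := hc1 k₀ 1 (k₀⁻¹ * k₁) (k₀⁻¹ * k₁ * (k₁⁻¹ * k₂))
  rw [mul_one, mul_inv_cancel_left, ← mul_assoc, mul_inv_cancel_left,
    mul_inv_cancel_left] at this
  exact this.symm

lemma brjlHom_equiv (y : Kt × Kt → X.V) (k k₀ k₁ k₂ : Kt) :
    brjlHom X y (k * k₀) (k * k₁) (k * k₂) = X.ρ k (brjlHom X y k₀ k₁ k₂) := by
  unfold brjlHom
  have e1 : (k * k₀)⁻¹ * (k * k₁) = k₀⁻¹ * k₁ := by group
  have e2 : (k * k₁)⁻¹ * (k * k₂) = k₁⁻¹ * k₂ := by group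
  rw [e1, e2, brjl_ρ_mul]

lemma brjlHom_cocycle {y : Kt × Kt → X.V} (hy : y ∈ cocycles₂ X) (k₀ k₁ k₂ k₃ : Kt) :
    brjlHom X y k₁ k₂ k₃ - brjlHom X y k₀ k₂ k₃ + brjlHom X y k₀ k₁ k₃ -
      brjlHom X y k₀ k₁ k₂ = 0 := by
  unfold brjlHom
  have hab : k₀⁻¹ * k₂ = k₀⁻¹ * k₁ * (k₁⁻¹ * k₂) := by group
  have hbd : k₁⁻¹ * k₃ = k₁⁻¹ * k₂ * (k₂⁻¹ * k₃) := by group
  have h := congrArg (X.ρ k₀)
    ((mem_cocycles₂_def y).1 hy (k₀⁻¹ * k₁) (k₁⁻¹ * k₂) (k₂⁻¹ * k₃))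
  rw [map_sub, map_add, map_sub, map_zero, ← brjl_ρ_mul, mul_inv_cancel_left, ← hab, ← hbd] at h
  exact h

lemma brjlHom_inv {y : Kt × Kt → X.V} (N : Subgroup Kt) [hN : N.Normal] (hy : Desc₂ X N y)
    (k₀ k₁ k₂ s₀ s₁ s₂ : Kt) (hs₀ : s₀ ∈ N) (hs₁ : s₁ ∈ N) (hs₂ : s₂ ∈ N) :
    brjlHom X y (k₀ * s₀) (k₁ * s₁) (k₂ * s₂) = brjlHom X y k₀ k₁ k₂ := by
  unfold brjlHom
  have e1 : (k₀ * s₀)⁻¹ * (k₁ * s₁) =
      k₀⁻¹ * k₁ * ((k₀⁻¹ * k₁)⁻¹ * s₀⁻¹ * (k₀⁻¹ * k₁) * s₁) := by group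
  have e2 : (k₁ * s₁)⁻¹ * (k₂ * s₂) =
      k₁⁻¹ * k₂ * ((k₁⁻¹ * k₂)⁻¹ * s₁⁻¹ * (k₁⁻¹ * k₂) * s₂) := by group
  have hm1 : (k₀⁻¹ * k₁)⁻¹ * s₀⁻¹ * (k₀⁻¹ * k₁) * s₁ ∈ N := by
    refine N.mul_mem ?_ hs₁
    have := hN.conj_mem s₀⁻¹ (N.inv_mem hs₀) (k₀⁻¹ * k₁)⁻¹
    simpa using this
  have hm2 : (k₁⁻¹ * k₂)⁻¹ * s₁⁻¹ * (k₁⁻¹ * k₂) * s₂ ∈ N := by
    refine N.mul_mem ?_ hs₂
    have := hN.conj_mem s₁⁻¹ (N.inv_mem hs₁) (k₁⁻¹ * k₂)⁻¹
    simpa using this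
  rw [e1, e2, hy.1 _ _ _ _ hm1 hm2, brjl_ρ_mul, hy.2 _ s₀ hs₀]

lemma brjlHom₁_equiv (t : Kt → X.V) (k k₀ k₁ : Kt) :
    brjlHom₁ X t (k * k₀) (k * k₁) = X.ρ k (brjlHom₁ X t k₀ k₁) := by
  unfold brjlHom₁
  have e1 : (k * k₀)⁻¹ * (k * k₁) = k₀⁻¹ * k₁ := by group
  rw [e1, brjl_ρ_mul]

lemma brjlHom₁_inv {t : Kt → X.V} (N : Subgroup Kt) [hN : N.Normal] (ht : Desc₁ X N t)
    (k₀ k₁ s₀ s₁ : Kt) (hs₀ : s₀ ∈ N) (hs₁ : s₁ ∈ N) :
    brjlHom₁ X t (k₀ * s₀) (k₁ * s₁) = brjlHom₁ X t k₀ k₁ := by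
  unfold brjlHom₁
  have e1 : (k₀ * s₀)⁻¹ * (k₁ * s₁) =
      k₀⁻¹ * k₁ * ((k₀⁻¹ * k₁)⁻¹ * s₀⁻¹ * (k₀⁻¹ * k₁) * s₁) := by group
  have hm1 : (k₀⁻¹ * k₁)⁻¹ * s₀⁻¹ * (k₀⁻¹ * k₁) * s₁ ∈ N := by
    refine N.mul_mem ?_ hs₁
    have := hN.conj_mem s₀⁻¹ (N.inv_mem hs₀) (k₀⁻¹ * k₁)⁻¹
    simpa using this
  rw [e1, ht.1 _ _ hm1, brjl_ρ_mul, ht.2 _ s₀ hs₀]

lemma brjlHom_d (t : Kt → X.V) (k₀ k₁ k₂ : Kt) :
    brjlHom X ((d₁₂ X).hom t) k₀ k₁ k₂ =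
      brjlHom₁ X t k₁ k₂ - brjlHom₁ X t k₀ k₂ + brjlHom₁ X t k₀ k₁ := by
  unfold brjlHom brjlHom₁
  simp only
  rw [d₁₂_hom_apply]
  simp only
  have hab : k₀⁻¹ * k₁ * (k₁⁻¹ * k₂) = k₀⁻¹ * k₂ := by group
  rw [map_add, map_sub, ← brjl_ρ_mul, mul_inv_cancel_left, hab]

lemma brjlHom_sub_nsmul (y y' : Kt × Kt → X.V) (n : ℕ) (k₀ k₁ k₂ : Kt) :
    brjlHom X (y - n • y') k₀ k₁ k₂ = brjlHom X y k₀ k₁ k₂ - n • brjlHom X y' k₀ k₁ k₂ := by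
  unfold brjlHom
  simp only [Pi.sub_apply, Pi.smul_apply]
  rw [map_sub, map_nsmul]

lemma brjlHom_nsmul (y : Kt × Kt → X.V) (n : ℕ) (k₀ k₁ k₂ : Kt) :
    brjlHom X (n • y) k₀ k₁ k₂ = n • brjlHom X y k₀ k₁ k₂ := by
  unfold brjlHom
  simp only [Pi.smul_apply]
  rw [map_nsmul]

end Abstract

section Finite

/-- a `p`-fundamental class of a finite group of order divisible by `p` has a multiple of exact
order `p` -/
theorem brjl_exists_order_p (p : ℕ) [hp : Fact p.Prime] {Γ : Type} [Group Γ] [Finite Γ]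
    (C : Rep.{0} ℤ Γ) (u : H2 C) (hu : IsPFundClass p C u) (hpΓ : p ∣ Nat.card Γ) :
    ∃ m : ℕ, m • u ≠ 0 ∧ p • (m • u) = 0 := by
  classical
  obtain ⟨Q⟩ : Nonempty (Sylow p Γ) := inferInstance
  set P : Subgroup Γ := (Q : Subgroup Γ) with hP
  have hPp : IsPGroup p P := Q.2
  have hcard : Nat.card P * P.index = Nat.card Γ := Subgroup.card_mul_index P
  have hpP : p ∣ Nat.card P := by
    have h1 : p ∣ Nat.card P * P.index := hcard ▸ hpΓ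
    rcases (Nat.Prime.dvd_mul hp.out).1 h1 with h | h
    · exact h
    · exact absurd h Q.not_dvd_index
  have hbot : Subsingleton (H2 (Rep.res (⊥ : Subgroup Γ).subtype C)) := by
    have h := hu.h2_card ⊥ IsPGroup.of_bot
    rw [Subgroup.card_bot] at h
    exact (Nat.card_eq_one_iff_unique.1 h).1
  have hkill : Nat.card Γ • u = 0 := by
    have := SylowRes.index_smul_eq_zero_of_res_eq_zero (⊥ : Subgroup Γ) 1 C u
      (Subsingleton.elim _ _)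
    rwa [Subgroup.index_bot] at this
  have hfin : IsOfFinAddOrder u :=
    isOfFinAddOrder_iff_nsmul_eq_zero.2 ⟨Nat.card Γ, Nat.card_pos, hkill⟩
  have hm₀pos : 0 < addOrderOf u := hfin.addOrderOf_pos
  have hm₀g : ((addOrderOf u : ℕ) : ℤ) • (resSub C P 2).hom u = 0 := by
    rw [natCast_zsmul, ← map_nsmul, addOrderOf_nsmul_eq_zero, map_zero]
  have hdvd : (Nat.card P : ℤ) ∣ ((addOrderOf u : ℕ) : ℤ) :=
    j2f_dvd_of_zsmul_eq_zero ((resSub C P 2).hom u) (Nat.card P) (hu.h2_card P hPp)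
      (hu.h2_gen P hPp) _ hm₀g
  have hpm₀ : p ∣ addOrderOf u := hpP.trans (Int.natCast_dvd_natCast.1 hdvd)
  obtain ⟨m, hm⟩ := hpm₀
  refine ⟨m, ?_, ?_⟩
  · intro h0
    have h1 : addOrderOf u ∣ m := addOrderOf_dvd_of_nsmul_eq_zero h0
    have hmpos : 0 < m := by
      rcases Nat.eq_zero_or_pos m with h | h
      · rw [h, mul_zero] at hm
        omega
      · exact h
    have h2 : addOrderOf u ≤ m := Nat.le_of_dvd hmpos h1
    have h3 : 2 ≤ p := hp.out.two_le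
    nlinarith
  · rw [← mul_smul, ← hm]
    exact addOrderOf_nsmul_eq_zero u

end Finite

section Level

variable {Kt : Type} [Group Kt] {𝒯 : Tower Kt} {X : Rep.{0} ℤ Kt}

/-- injectivity of the inflation on `p`-primary classes, for primitives which descend -/
theorem brjl_infl_inj (p : ℕ) [Fact p.Prime] (hcm : HasPFund 𝒯 X p) {N N' : Subgroup Kt}
    [N.Normal] [N'.Normal] (hN : N ∈ 𝒯.lev) (hN' : N' ∈ 𝒯.lev) (hle : N' ≤ N)
    (y : cocycles₂ (X.quotientToInvariants N)) (hp : IsPTors p (H2π _ y))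
    (t : Kt → X.V) (htd : Desc₁ X N' t) (hty : (d₁₂ X).hom t = infl₂ X N y) :
    H2π _ y = 0 := by
  have hfin := 𝒯.finiteIndex N' hN'
  have : Finite (Kt ⧸ N') := Subgroup.finite_quotient_of_finiteIndex
  have h1 : trans₂ X hle y = (d₁₂ (X.quotientToInvariants N')).hom (descend₁ t htd) := by
    apply infl₂_injective
    rw [infl₂_trans₂, infl₂_d₁₂, infl₁_descend₁, hty]
  have h2 : (groupCohomology.map (transHom hle) (transRep X hle) 2).hom (H2π _ y) = 0 := by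
    rw [map_trans_H2π, H2π_eq_zero_iff]
    exact ⟨descend₁ t htd, h1.symm⟩
  obtain ⟨u, hu⟩ := hcm N' hN'
  refine stmtInflInjFin p (Kt ⧸ N') (Kt ⧸ N) (transHom hle) (transHom_surjective hle)
    (X.quotientToInvariants N') (X.quotientToInvariants N) (transRep X hle) ?_ ?_ hu.h1
    (H2π _ y) hp h2
  · intro a b hab
    have hab' : (a.1 : X.V) = b.1 :=
      congrArg (fun z : (X.quotientToInvariants N').V => (z.1 : X.V)) hab
    exact Subtype.ext hab'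
  · intro c hc
    refine ⟨⟨c.1, fun s => ?_⟩, rfl⟩
    have h3 : transHom hle ((s : Kt) : Kt ⧸ N') = 1 := by
      rw [transHom_mk]
      exact (QuotientGroup.eq_one_iff _).2 s.2
    exact congrArg Subtype.val (hc _ h3)

/-- cyclicity of the `p`-torsion at a finite level -/
theorem brjl_cyc (p : ℕ) [Fact p.Prime] (hcm : HasPFund 𝒯 X p) {N : Subgroup Kt} [N.Normal]
    (hN : N ∈ 𝒯.lev) (a b : H2 (X.quotientToInvariants N)) (hpa : p • a = 0) (hpb : p • b = 0)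
    (hne : a ≠ 0) : ∃ n : ℕ, b = n • a := by
  have hfin := 𝒯.finiteIndex N hN
  have : Finite (Kt ⧸ N) := Subgroup.finite_quotient_of_finiteIndex
  obtain ⟨u, hu⟩ := hcm N hN
  exact stmtH2pCyclic p (Kt ⧸ N) (X.quotientToInvariants N) u hu a b hpa hpb hne

variable (p : ℕ) [Fact p.Prime] (hcm : HasPFund 𝒯 X p) {N₁ : Subgroup Kt} [N₁.Normal]
  (hN₁ : N₁ ∈ 𝒯.lev) (y₁ : cocycles₂ (X.quotientToInvariants N₁))
  (hy₁ne : H2π _ y₁ ≠ 0) (hy₁p : p • H2π _ y₁ = 0)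

include hy₁p in
/-- (1′) `p ŷ` is the coboundary of a cochain defined at the level `N₁` -/
theorem brjl_abs_one : ∃ t : Kt → X.V, Desc₁ X N₁ t ∧ (d₁₂ X).hom t = p • infl₂ X N₁ y₁ := by
  have h : H2π _ (p • y₁) = 0 := by rw [map_nsmul]; exact hy₁p
  obtain ⟨tb, htb⟩ := (H2π_eq_zero_iff _).1 h
  refine ⟨infl₁ X N₁ tb, desc₁_infl₁ tb, ?_⟩
  rw [← infl₂_d₁₂, htb, ← infl₂_nsmul]
  rfl

include hcm hN₁ hy₁ne hy₁p in
/-- (3′) `ŷ` is not the coboundary of a cochain defined at some level -/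
theorem brjl_abs_three {N' : Subgroup Kt} (hN' : N' ∈ 𝒯.lev) (t : Kt → X.V)
    (ht : Desc₁ X N' t) : (d₁₂ X).hom t ≠ infl₂ X N₁ y₁ := by
  intro hty
  obtain ⟨N'', hN'', hle1, hle2, hn⟩ := tower_exists_normal_le₂ 𝒯 hN' hN₁
  have := hn
  exact hy₁ne (brjl_infl_inj p hcm hN₁ hN'' hle2 y₁ ⟨1, by rw [pow_one]; exact hy₁p⟩ t
    (ht.mono hle1) hty)

include hcm hN₁ hy₁ne hy₁p in
/-- (4′) every cocycle defined at some level with `p`-torsion class is a multiple of `ŷ` up to the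
coboundary of a cochain defined at some level -/
theorem brjl_abs_four {N' : Subgroup Kt} (hN' : N' ∈ 𝒯.lev) (c : Kt × Kt → X.V)
    (hc : c ∈ cocycles₂ X) (hcd : Desc₂ X N' c) (t : Kt → X.V) (ht : Desc₁ X N' t)
    (htc : (d₁₂ X).hom t = p • c) :
    ∃ n : ℕ, ∃ N'' ∈ 𝒯.lev, N''.Normal ∧ N'' ≤ N' ∧ N'' ≤ N₁ ∧ ∃ t' : Kt → X.V,
      Desc₁ X N'' t' ∧ (d₁₂ X).hom t' = c - n • infl₂ X N₁ y₁ := by
  obtain ⟨N'', hN'', hle1, hle2, hn⟩ := tower_exists_normal_le₂ 𝒯 hN' hN₁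
  have := hn
  have hcd' : Desc₂ X N'' c := hcd.mono hle1
  have htd' : Desc₁ X N'' t := ht.mono hle1
  have hac : descend₂ c hcd' ∈ cocycles₂ (X.quotientToInvariants N'') := by
    rw [← infl₂_mem_cocycles₂_iff, infl₂_descend₂]
    exact hc
  set a' : cocycles₂ (X.quotientToInvariants N'') := ⟨_, hac⟩ with ha'
  set y' : cocycles₂ (X.quotientToInvariants N'') :=
    ⟨trans₂ X hle2 y₁, trans₂_mem_cocycles₂ X hle2 y₁ y₁.2⟩ with hy'
  have hpa : p • (H2π _ a' : H2 (X.quotientToInvariants N'')) = 0 := by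
    rw [← map_nsmul, H2π_eq_zero_iff]
    refine ⟨descend₁ t htd', ?_⟩
    apply infl₂_injective
    rw [infl₂_d₁₂, infl₁_descend₁, htc]
    show _ = infl₂ X N'' (p • descend₂ c hcd')
    rw [infl₂_nsmul, infl₂_descend₂]
  have hy'map : (H2π _ y' : H2 (X.quotientToInvariants N'')) =
      (groupCohomology.map (transHom hle2) (transRep X hle2) 2).hom (H2π _ y₁) :=
    (map_trans_H2π X hle2 y₁).symm
  have hpy : p • (H2π _ y' : H2 (X.quotientToInvariants N'')) = 0 := by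
    rw [hy'map, ← map_nsmul, hy₁p, map_zero]
  have hne : (H2π _ y' : H2 (X.quotientToInvariants N'')) ≠ 0 := by
    intro h0
    obtain ⟨tb, htb⟩ := (H2π_eq_zero_iff _).1 h0
    refine brjl_abs_three p hcm hN₁ y₁ hy₁ne hy₁p hN'' (infl₁ X N'' tb)
      (desc₁_infl₁ tb) ?_
    rw [← infl₂_d₁₂, htb]
    exact infl₂_trans₂ X hle2 y₁
  obtain ⟨n, hn'⟩ := brjl_cyc p hcm hN'' _ _ hpy hpa hne
  have h5 : (H2π _ (a' - n • y') : H2 (X.quotientToInvariants N'')) = 0 := by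
    rw [map_sub, map_nsmul, hn', sub_self]
  obtain ⟨tb, htb⟩ := (H2π_eq_zero_iff _).1 h5
  refine ⟨n, N'', hN'', hn, hle1, hle2, infl₁ X N'' tb, desc₁_infl₁ tb, ?_⟩
  rw [← infl₂_d₁₂, htb]
  show infl₂ X N'' (descend₂ c hcd' - n • trans₂ X hle2 y₁) = _
  rw [infl₂_sub, infl₂_nsmul, infl₂_descend₂, infl₂_trans₂]

end Level

end Fermat.Agent.TW.E

end
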