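/-
TW-E / E-cyc / K-BrJ, LOCAL piece (helper55): `stmtBrJLoc : StmtBrJLoc` (TW/E/BrJLocPlan.lean).
`K = r_v⁻¹ U`; the tower of `K` cut out by the pulled-back normal global levels; `X = Res_K J_v`
has `p`-fundamental classes (`cm_loc` + `h2pcycu_transport`).  `U₁` from `HasPDepthGlob`,
`u₀` the class of `cm_loc` at `W₁ = r_v⁻¹ U₁`, `ũ` a cocycle representing `m u₀` with
`m · res_K u₀` of exact order `p` (`brjl_exists_order_p`), `u = brjlHom (infl ũ)`.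
(1), (3), (4) are `brjl_abs_one`, `brjl_abs_three`, `brjl_abs_four` through the dictionary
homogeneous ↔ inhomogeneous.
-/
import Fermat.Agent.TW.E.BrJLocAbs
import Fermat.Agent.TW.E.BrJLocPlan

set_option autoImplicit false
set_option linter.unusedSectionVars false
set_option linter.unusedVariables false
set_option linter.style.haveILetI false

noncomputable section

namespace Fermat.Agent.TW.E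

open CategoryTheory groupCohomology Fermat.Agent.PT Fermat.Agent.PT.F Fermat.Agent.TW.F

attribute [local instance 1100] Rep.hV2

section Tower

variable {p : ℕ} {G : Type} [Group G] {ι : Type} {Gloc : ι → Type} [∀ v, Group (Gloc v)]
  (D : PTDatum p G ι Gloc) (v : ι)

/-- the tower of `G_v` of the pulled-back global levels -/
def brjlTower : Tower (Gloc v) where
  lev := {V | ∃ U' ∈ D.𝒯.lev, V = U'.comap (D.r v)}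
  top_mem := ⟨⊤, D.𝒯.top_mem, rfl⟩
  inf_mem := by
    rintro _ _ ⟨U, hU, rfl⟩ ⟨U', hU', rfl⟩
    exact ⟨U ⊓ U', D.𝒯.inf_mem U U' hU hU', rfl⟩
  finiteIndex := by
    rintro _ ⟨U, hU, rfl⟩
    exact (D.𝒯loc v).finiteIndex _ (D.comap_mem v U hU)
  exists_normal := by
    rintro _ ⟨U, hU, rfl⟩
    obtain ⟨V, hV, hVU, hVn⟩ := D.𝒯.exists_normal U hU
    exact ⟨V.comap (D.r v), ⟨V, hV, rfl⟩, Subgroup.comap_mono hVU, hVn.comap _⟩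

lemma brjl_hasPFund : HasPFund (brjlTower D v) (D.Jloc v) p := by
  intro V hVn hV
  obtain ⟨U', hU', rfl⟩ := hV
  exact D.cm_loc v _ (D.comap_mem v U' hU')

end Tower

section Core

variable {H : Type} [Group H] (𝒯 : Tower H) (Y : Rep.{0} ℤ H) (p : ℕ) [Fact p.Prime]

/-- the abstract form of `StmtBrJLoc`: a group `H` with a tower, a module with `p`-fundamental
classes, normal levels `W₁ ≤ K` with `p ∣ [K : W₁]`. -/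
theorem brjl_core (hcm : HasPFund 𝒯 Y p) (K W₁ : Subgroup H) (hKn : K.Normal) (hK : K ∈ 𝒯.lev)
    (hW₁n : W₁.Normal) (hW₁ : W₁ ∈ 𝒯.lev) (hW₁K : W₁ ≤ K) (hpd : p ∣ W₁.relIndex K) :
    ∃ u : H → H → H → Y.V,
      (∀ d d₀ d₁ d₂ : H, u (d * d₀) (d * d₁) (d * d₂) = Y.ρ d (u d₀ d₁ d₂)) ∧
      (∀ d₀ d₁ d₂ d₃ : H, u d₁ d₂ d₃ - u d₀ d₂ d₃ + u d₀ d₁ d₃ - u d₀ d₁ d₂ = 0) ∧
      (∀ d₀ d₁ d₂ s₀ s₁ s₂ : H, s₀ ∈ W₁ → s₁ ∈ W₁ → s₂ ∈ W₁ →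
        u (d₀ * s₀) (d₁ * s₁) (d₂ * s₂) = u d₀ d₁ d₂) ∧
      (∃ t : K → K → Y.V,
        (∀ k k₀ k₁ : K, t (k * k₀) (k * k₁) = Y.ρ (k : H) (t k₀ k₁)) ∧
        (∀ k₀ k₁ s₀ s₁ : K, (s₀ : H) ∈ W₁ → (s₁ : H) ∈ W₁ → t (k₀ * s₀) (k₁ * s₁) = t k₀ k₁) ∧
        ∀ k₀ k₁ k₂ : K, p • u k₀ k₁ k₂ = t k₁ k₂ - t k₀ k₂ + t k₀ k₁) ∧
      (∀ W₃ ∈ 𝒯.lev, ∀ t : K → K → Y.V,
        (∀ k k₀ k₁ : K, t (k * k₀) (k * k₁) = Y.ρ (k : H) (t k₀ k₁)) →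
        (∀ k₀ k₁ s₀ s₁ : K, (s₀ : H) ∈ W₃ → (s₁ : H) ∈ W₃ → t (k₀ * s₀) (k₁ * s₁) = t k₀ k₁) →
        ¬ ∀ k₀ k₁ k₂ : K, u k₀ k₁ k₂ = t k₁ k₂ - t k₀ k₂ + t k₀ k₁) ∧
      (∀ W₂ ∈ 𝒯.lev, ∀ c : K → K → K → Y.V,
        (∀ k k₀ k₁ k₂ : K, c (k * k₀) (k * k₁) (k * k₂) = Y.ρ (k : H) (c k₀ k₁ k₂)) →
        (∀ k₀ k₁ k₂ k₃ : K, c k₁ k₂ k₃ - c k₀ k₂ k₃ + c k₀ k₁ k₃ - c k₀ k₁ k₂ = 0) →
        (∀ k₀ k₁ k₂ s₀ s₁ s₂ : K, (s₀ : H) ∈ W₂ → (s₁ : H) ∈ W₂ → (s₂ : H) ∈ W₂ →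
          c (k₀ * s₀) (k₁ * s₁) (k₂ * s₂) = c k₀ k₁ k₂) →
        ∀ t : K → K → Y.V,
        (∀ k k₀ k₁ : K, t (k * k₀) (k * k₁) = Y.ρ (k : H) (t k₀ k₁)) →
        (∀ k₀ k₁ s₀ s₁ : K, (s₀ : H) ∈ W₂ → (s₁ : H) ∈ W₂ → t (k₀ * s₀) (k₁ * s₁) = t k₀ k₁) →
        (∀ k₀ k₁ k₂ : K, p • c k₀ k₁ k₂ = t k₁ k₂ - t k₀ k₂ + t k₀ k₁) →
        ∃ a : ℕ, ∃ W ∈ 𝒯.lev, ∃ t' : K → K → Y.V,
          (∀ k k₀ k₁ : K, t' (k * k₀) (k * k₁) = Y.ρ (k : H) (t' k₀ k₁)) ∧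
          (∀ k₀ k₁ s₀ s₁ : K, (s₀ : H) ∈ W → (s₁ : H) ∈ W → t' (k₀ * s₀) (k₁ * s₁) = t' k₀ k₁) ∧
          ∀ k₀ k₁ k₂ : K, c k₀ k₁ k₂ - a • u k₀ k₁ k₂ = t' k₁ k₂ - t' k₀ k₂ + t' k₀ k₁) := by
  haveI := hKn
  haveI := hW₁n
  -- the finite level `W₁` and its class
  haveI := 𝒯.finiteIndex W₁ hW₁
  haveI : Finite (H ⧸ W₁) := Subgroup.finite_quotient_of_finiteIndex
  obtain ⟨u₀, hu₀⟩ := hcm W₁ hW₁
  -- the tower of `K`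
  have hcmK : HasPFund (h2pcycuTower 𝒯 K hK hKn) (Rep.res K.subtype Y) p :=
    h2pcycu_hasPFund hK hKn Y p hcm
  have hN₁ : W₁.subgroupOf K ∈ (h2pcycuTower 𝒯 K hK hKn).lev := ⟨W₁, hW₁, hW₁n, hW₁K, rfl⟩
  haveI := (h2pcycuTower 𝒯 K hK hKn).finiteIndex _ hN₁
  haveI : Finite (↥K ⧸ W₁.subgroupOf K) := Subgroup.finite_quotient_of_finiteIndex
  have hpK : p ∣ Nat.card (↥K ⧸ W₁.subgroupOf K) := by
    rw [← Subgroup.index_eq_card]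
    exact hpd
  -- the transported class and its multiple of order `p`
  have huK := h2pcycu_transport (p := p) (h2pcycu_φ K W₁) (h2pcycu_φ_injective K W₁)
    (Y.quotientToInvariants W₁) ((Rep.res K.subtype Y).quotientToInvariants (W₁.subgroupOf K))
    (h2pcycu_e Y K W₁ hW₁K) (h2pcycu_e_comm Y K W₁ hW₁K) u₀ hu₀
  obtain ⟨m, hmne, hmp⟩ := brjl_exists_order_p p _ _ huK hpK
  -- cocycles
  obtain ⟨ũ₀, hũ₀⟩ : ∃ ũ : cocycles₂ (Y.quotientToInvariants W₁), H2π _ ũ = u₀ := by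
    induction u₀ using H2_induction_on with
    | h x => exact ⟨x, rfl⟩
  set y₁ : cocycles₂ ((Rep.res K.subtype Y).quotientToInvariants (W₁.subgroupOf K)) :=
    mapCocycles₂ (h2pcycu_φ K W₁)
      (h2pcycu_hom (h2pcycu_φ K W₁) (Y.quotientToInvariants W₁)
        ((Rep.res K.subtype Y).quotientToInvariants (W₁.subgroupOf K))
        (h2pcycu_e Y K W₁ hW₁K) (h2pcycu_e_comm Y K W₁ hW₁K)) (m • ũ₀) with hy₁def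
  have hy₁ : H2π _ y₁ = m • (groupCohomology.map (h2pcycu_φ K W₁)
      (h2pcycu_hom (h2pcycu_φ K W₁) (Y.quotientToInvariants W₁)
        ((Rep.res K.subtype Y).quotientToInvariants (W₁.subgroupOf K))
        (h2pcycu_e Y K W₁ hW₁K) (h2pcycu_e_comm Y K W₁ hW₁K)) 2).hom u₀ := by
    rw [hy₁def, ← H2π_comp_map_apply, map_nsmul, map_nsmul, hũ₀]
  have hy₁ne : H2π _ y₁ ≠ 0 := by rw [hy₁]; exact hmne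
  have hy₁p : p • H2π _ y₁ = 0 := by rw [hy₁]; exact hmp
  -- the cocycle on `H`
  have hũcoc : infl₂ Y W₁ ((m • ũ₀ : cocycles₂ (Y.quotientToInvariants W₁)) :
      (H ⧸ W₁) × (H ⧸ W₁) → (Y.quotientToInvariants W₁).V) ∈ cocycles₂ Y :=
    (infl₂_mem_cocycles₂_iff _).2 (m • ũ₀).2
  have hres : ∀ k₀ k₁ k₂ : K,
      brjlHom Y (infl₂ Y W₁ ((m • ũ₀ : cocycles₂ (Y.quotientToInvariants W₁)) :
        (H ⧸ W₁) × (H ⧸ W₁) → (Y.quotientToInvariants W₁).V)) (k₀ : H) (k₁ : H) (k₂ : H) =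
      brjlHom (Rep.res K.subtype Y) (infl₂ (Rep.res K.subtype Y) (W₁.subgroupOf K) y₁)
        k₀ k₁ k₂ := fun k₀ k₁ k₂ => rfl
  refine ⟨brjlHom Y (infl₂ Y W₁ ((m • ũ₀ : cocycles₂ (Y.quotientToInvariants W₁)) :
      (H ⧸ W₁) × (H ⧸ W₁) → (Y.quotientToInvariants W₁).V)),
    fun d d₀ d₁ d₂ => brjlHom_equiv _ d d₀ d₁ d₂,
    fun d₀ d₁ d₂ d₃ => brjlHom_cocycle hũcoc d₀ d₁ d₂ d₃,
    fun d₀ d₁ d₂ s₀ s₁ s₂ hs₀ hs₁ hs₂ =>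
      brjlHom_inv W₁ (desc₂_infl₂ _) d₀ d₁ d₂ s₀ s₁ s₂ hs₀ hs₁ hs₂, ?_, ?_, ?_⟩
  · -- (1)
    obtain ⟨t, htd, htp⟩ := brjl_abs_one p y₁ hy₁p
    refine ⟨brjlHom₁ (Rep.res K.subtype Y) t, fun k k₀ k₁ => brjlHom₁_equiv t k k₀ k₁,
      fun k₀ k₁ s₀ s₁ hs₀ hs₁ => brjlHom₁_inv (W₁.subgroupOf K) htd k₀ k₁ s₀ s₁ hs₀ hs₁,
      fun k₀ k₁ k₂ => ?_⟩
    rw [hres, ← brjlHom_nsmul, ← htp, brjlHom_d]
  · -- (3)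
    intro W₃ hW₃ t ht1 ht3 hd
    obtain ⟨W', hW', hle1, hle2, hW'n⟩ := tower_exists_normal_le₂ 𝒯 hW₃ hK
    haveI := hW'n
    have hN' : W'.subgroupOf K ∈ (h2pcycuTower 𝒯 K hK hKn).lev := ⟨W', hW', hW'n, hle2, rfl⟩
    have htd : Desc₁ (Rep.res K.subtype Y) (W'.subgroupOf K)
        (brjlHat₁ (Rep.res K.subtype Y) t) :=
      brjlHat₁_desc₁ (W'.subgroupOf K) ht1
        (fun k₀ k₁ s₀ s₁ hs₀ hs₁ => ht3 k₀ k₁ s₀ s₁ (hle1 hs₀) (hle1 hs₁))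
    have h1 : (d₁₂ (Rep.res K.subtype Y)).hom (brjlHat₁ (Rep.res K.subtype Y) t) =
        brjlHat (Rep.res K.subtype Y)
          (brjlHom (Rep.res K.subtype Y)
            (infl₂ (Rep.res K.subtype Y) (W₁.subgroupOf K) y₁)) :=
      brjlHat_d ht1 (fun k₀ k₁ k₂ => (hres k₀ k₁ k₂).symm.trans (hd k₀ k₁ k₂))
    rw [brjlHat_hom] at h1
    exact brjl_abs_three p hcmK hN₁ y₁ hy₁ne hy₁p hN' _ htd h1
  · -- (4)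
    intro W₂ hW₂ c hc1 hc2 hc3 t ht1 ht3 hd
    obtain ⟨W', hW', hle1, hle2, hW'n⟩ := tower_exists_normal_le₂ 𝒯 hW₂ hK
    haveI := hW'n
    have hN' : W'.subgroupOf K ∈ (h2pcycuTower 𝒯 K hK hKn).lev := ⟨W', hW', hW'n, hle2, rfl⟩
    have hcd : Desc₂ (Rep.res K.subtype Y) (W'.subgroupOf K)
        (brjlHat (Rep.res K.subtype Y) c) :=
      brjlHat_desc₂ (W'.subgroupOf K) hc1
        (fun k₀ k₁ k₂ s₀ s₁ s₂ hs₀ hs₁ hs₂ =>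
          hc3 k₀ k₁ k₂ s₀ s₁ s₂ (hle1 hs₀) (hle1 hs₁) (hle1 hs₂))
    have htd : Desc₁ (Rep.res K.subtype Y) (W'.subgroupOf K)
        (brjlHat₁ (Rep.res K.subtype Y) t) :=
      brjlHat₁_desc₁ (W'.subgroupOf K) ht1
        (fun k₀ k₁ s₀ s₁ hs₀ hs₁ => ht3 k₀ k₁ s₀ s₁ (hle1 hs₀) (hle1 hs₁))
    have hcc : brjlHat (Rep.res K.subtype Y) c ∈ cocycles₂ (Rep.res K.subtype Y) :=
      brjlHat_mem_cocycles₂ hc1 hc2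
    have h1 : (d₁₂ (Rep.res K.subtype Y)).hom (brjlHat₁ (Rep.res K.subtype Y) t) =
        p • brjlHat (Rep.res K.subtype Y) c :=
      (brjlHat_d (X := Rep.res K.subtype Y) (c := fun k₀ k₁ k₂ => p • c k₀ k₁ k₂) (t := t)
        ht1 hd).trans (by funext ab; rfl)
    obtain ⟨n, N'', hN'', hN''n, -, -, t', ht'd, ht'⟩ :=
      brjl_abs_four p hcmK hN₁ y₁ hy₁ne hy₁p hN' _ hcc hcd _ htd h1
    obtain ⟨W'', hW'', -, -, rfl⟩ := hN''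
    refine ⟨n, W'', hW'', brjlHom₁ (Rep.res K.subtype Y) t',
      fun k k₀ k₁ => brjlHom₁_equiv t' k k₀ k₁,
      fun k₀ k₁ s₀ s₁ hs₀ hs₁ =>
        haveI := hN''n
        brjlHom₁_inv (W''.subgroupOf K) ht'd k₀ k₁ s₀ s₁ hs₀ hs₁,
      fun k₀ k₁ k₂ => ?_⟩
    rw [hres, ← brjlHom_d, ht', brjlHom_sub_nsmul, brjlHom_hat hc1]

end Core

/-- **K-BrJ / LOC**: `H²_lev(r_v⁻¹ U, J_v)[p] = ℤ/p · [u]` with `u` defined on `G_v`. -/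
theorem stmtBrJLoc : StmtBrJLoc := by
  intro p hp G _ ι _ Gloc _ D hdepth v U hU hUn
  obtain ⟨U₁, hU₁, hU₁U, hU₁n, hpd⟩ := hdepth v U hU
  obtain ⟨u, hu1, hu2, hu3, h1, h3, h4⟩ :=
    brjl_core (brjlTower D v) (D.Jloc v) p (brjl_hasPFund D v)
      (U.comap (D.r v)) (U₁.comap (D.r v)) (hUn.comap _) ⟨U, hU, rfl⟩ (hU₁n.comap _)
      ⟨U₁, hU₁, rfl⟩ (Subgroup.comap_mono hU₁U) hpd
  refine ⟨u, hu1, hu2, ⟨U₁, hU₁, hU₁U, hU₁n,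
    fun d₀ d₁ d₂ s₀ s₁ s₂ hs₀ hs₁ hs₂ => hu3 d₀ d₁ d₂ s₀ s₁ s₂ hs₀ hs₁ hs₂⟩, ?_, ?_, ?_⟩
  · obtain ⟨t, ht1, ht3, hd⟩ := h1
    exact ⟨t, ht1, ⟨U₁, hU₁, fun k₀ k₁ s₀ s₁ hs₀ hs₁ => ht3 k₀ k₁ s₀ s₁ hs₀ hs₁⟩, hd⟩
  · rintro ⟨t, ht1, ⟨U₃, hU₃, ht3⟩, hd⟩
    exact h3 (U₃.comap (D.r v)) ⟨U₃, hU₃, rfl⟩ t ht1
      (fun k₀ k₁ s₀ s₁ hs₀ hs₁ => ht3 k₀ k₁ s₀ s₁ hs₀ hs₁) hd
  · rintro c hc1 hc2 ⟨U₂, hU₂, hc3⟩ ⟨t, ht1, ⟨U₃, hU₃, ht3⟩, hd⟩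
    obtain ⟨a, W, ⟨U', hU', rfl⟩, t', ht'1, ht'3, hd'⟩ :=
      h4 ((U₂ ⊓ U₃).comap (D.r v)) ⟨U₂ ⊓ U₃, D.𝒯.inf_mem _ _ hU₂ hU₃, rfl⟩ c hc1 hc2
        (fun k₀ k₁ k₂ s₀ s₁ s₂ hs₀ hs₁ hs₂ => hc3 k₀ k₁ k₂ s₀ s₁ s₂
          (Subgroup.mem_inf.1 (Subgroup.mem_comap.1 hs₀)).1
          (Subgroup.mem_inf.1 (Subgroup.mem_comap.1 hs₁)).1
          (Subgroup.mem_inf.1 (Subgroup.mem_comap.1 hs₂)).1) t ht1
        (fun k₀ k₁ s₀ s₁ hs₀ hs₁ => ht3 k₀ k₁ s₀ s₁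
          (Subgroup.mem_inf.1 (Subgroup.mem_comap.1 hs₀)).2
          (Subgroup.mem_inf.1 (Subgroup.mem_comap.1 hs₁)).2) hd
    exact ⟨a, t', ht'1, ⟨U', hU', fun k₀ k₁ s₀ s₁ hs₀ hs₁ => ht'3 k₀ k₁ s₀ s₁ hs₀ hs₁⟩, hd'⟩

end Fermat.Agent.TW.E

end
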