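/-
TW-E / E-cyc, piece **K-Br**, unconditional (helper9): `stmtBrSeq : StmtBrSeq`.
-/
import Fermat.Agent.TW.E.BrSeq
import Fermat.Agent.TW.F.H2Perm

set_option autoImplicit false

namespace Fermat.Agent.TW.E

/-- **K-Br**: `0 → H²_lev(𝓔)[p] → H²_lev(𝓙)[p] → H²_lev(𝓒)[p] → 0`, `Γ`-equivariantly. -/
theorem stmtBrSeq : StmtBrSeq :=
  stmtBrSeq_of Fermat.Agent.TW.F.stmtH2pDep Fermat.Agent.TW.F.stmtH2pSeed

end Fermat.Agent.TW.E
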