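/-
Project TW (S56) — part TW-E, block E-cyc, piece **K-Cl** (helper69): the abstract part.
`H¹_lev(G, Hom_ℤ(ℤ[G/U], E))` injects into `C^U / π(J^U)`; hence it is finite as soon as `C^U` maps
to a finite set with fibres in `π(J^U)`-cosets.  Names `clf_*`.
-/
import Fermat.Agent.TW.E.Plan2
import Fermat.Agent.TW.E.ChaseLift
import Fermat.Agent.PT.F.SeqInIn4b
import Fermat.Agent.PT.F.SeqInIn3
import Fermat.Agent.PT.F.SeqInPermSh1

set_option autoImplicit false
set_option linter.style.haveILetI false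
set_option linter.unusedSectionVars false

noncomputable section

namespace Fermat.Agent.TW.E

open CategoryTheory groupCohomology Module Fermat.Agent.PT Fermat.Agent.PT.F Fermat.Agent.TW.F

attribute [local instance 1100] Rep.hV2

section Perm

variable {G : Type} [Group G] (U : Subgroup G) [U.Normal]

/-- `ℤ[G ⧸ U]` as a `G`-module is the inflation of the regular representation of `G ⧸ U`. -/
lemma clf_permZ_eq :
    permZ G (G ⧸ U) =
      Rep.res (QuotientGroup.mk' U) (Rep.ofMulAction ℤ (G ⧸ U) (G ⧸ U)) := by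
  have h : Representation.ofMulAction ℤ G (G ⧸ U) =
      (Representation.ofMulAction ℤ (G ⧸ U) (G ⧸ U)).comp (QuotientGroup.mk' U) := by
    ext g x : 2
    ext : 1
    show (Representation.ofMulAction ℤ G (G ⧸ U)) g (MonoidAlgebra.single x 1) =
      (Representation.ofMulAction ℤ (G ⧸ U) (G ⧸ U)) (QuotientGroup.mk' U g)
        (MonoidAlgebra.single x 1)
    rw [Representation.ofMulAction_single, Representation.ofMulAction_single]
    rfl
  show Rep.of (Representation.ofMulAction ℤ G (G ⧸ U)) = _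
  rw [h]

end Perm

section Datum

variable {p : ℕ} [Fact p.Prime] {G : Type} [Group G] {ι : Type} [Fintype ι] {Gloc : ι → Type}
  [∀ v, Group (Gloc v)] (D : PTDatum p G ι Gloc) (U : Subgroup G) [U.Normal]

/-- `In4` for `ℤ[G ⧸ U]` (Shapiro + Hilbert 90). -/
theorem clf_in4 (hU : U ∈ D.𝒯.lev) : In4 D (permZ G (G ⧸ U)) := by
  rw [clf_permZ_eq U]
  intro v c hc hcoc
  haveI : U.FiniteIndex := D.𝒯.finiteIndex U hU
  haveI : Finite (G ⧸ U) := inferInstance
  have hker : (QuotientGroup.mk' U).ker = U := QuotientGroup.ker_mk' U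
  have hkermem : ((QuotientGroup.mk' U).comp (D.r v)).ker ∈ (D.𝒯loc v).lev := by
    rw [← MonoidHom.comap_ker, hker]
    exact D.comap_mem v U hU
  obtain ⟨n, hn, t, ht⟩ := stmtPermSh1 (Gloc v) (G ⧸ U) (D.𝒯loc v)
    ((QuotientGroup.mk' U).comp (D.r v)) (G ⧸ U)
    (fun γ ω h => by simpa using h) hkermem (D.Jloc v) (⊥ : Submonoid ℕ)
    (fun c' hc' hl' => by
      obtain ⟨t, ht⟩ := stmtIn4b p G ι Gloc D v _ hkermem c' hc' hl'
      exact ⟨1, Submonoid.mem_bot.2 rfl, t, fun s => by rw [one_nsmul]; exact ht s⟩)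
    c hc hcoc
  have hn1 : n = 1 := Submonoid.mem_bot.1 hn
  subst hn1
  exact ⟨t, fun d => (one_nsmul (c d)).symm.trans (ht d)⟩

/-- `ev_v` is equivariant: `ev_v (r(d) x) = d (ev_v x)` -/
lemma clf_ev_ρ (v : ι) (d : Gloc v) (x : (PTJ D).V) :
    ev D v ((PTJ D).ρ (D.r v d) x) = (D.Jloc v).ρ d (ev D v x) := by
  show x.1 v (1 * D.r v d) = (D.Jloc v).ρ d (x.1 v 1)
  rw [one_mul, ← (x.2 v).1 d 1, mul_one]

/-- `H¹_lev(G, Hom_ℤ(ℤ[G ⧸ U], J)) = 0` -/
theorem clf_J_vanish (hU : U ∈ D.𝒯.lev) (y : G → ((permZ G (G ⧸ U)).V →+ (PTJ D).V))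
    (hy : IsLevel₁ D.𝒯 y) (hcoc : ∀ στ, dOne (permZ G (G ⧸ U)) (PTJ D) y στ = 0) :
    ∃ t : (permZ G (G ⧸ U)).V →+ (PTJ D).V, ∀ σ, y σ = dZero (permZ G (G ⧸ U)) (PTJ D) t σ := by
  have hM : IsLevTriv D.𝒯 (permZ G (G ⧸ U)) := by
    refine ⟨U, hU, fun s hs m => ?_⟩
    have h1 : ∀ ω : G ⧸ U, s • ω = ω := by
      intro ω
      obtain ⟨g, rfl⟩ := QuotientGroup.mk_surjective ω
      rw [MulAction.Quotient.smul_mk, smul_eq_mul, QuotientGroup.eq]
      have h := (inferInstance : U.Normal).conj_mem s⁻¹ (U.inv_mem hs) g⁻¹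
      simpa [mul_assoc] using h
    induction m using MonoidAlgebra.induction_linear with
    | zero => simp
    | add a b ha hb => rw [map_add, ha, hb]
    | single ω z => rw [chl_ρ_single, h1]
  refine in3_of_levTriv D _ hM y hy hcoc (fun v => ?_)
  refine clf_in4 D U hU v (fun d => (ev D v).comp (y (D.r v d))) ?_ ?_
  · obtain ⟨U', hU', h⟩ := hy
    refine ⟨U'.comap (D.r v), D.comap_mem v U' hU', fun g s hs => ?_⟩
    show (ev D v).comp (y (D.r v (g * s))) = (ev D v).comp (y (D.r v g))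
    rw [MonoidHom.map_mul (D.r v), h _ _ hs]
  · intro dd
    apply AddMonoidHom.ext
    intro m
    have h := DFunLike.congr_fun (hcoc (D.r v dd.1, D.r v dd.2)) m
    simp only [dOne, AddMonoidHom.add_apply, AddMonoidHom.sub_apply,
      AddMonoidHom.zero_apply] at h
    have h2 := congrArg (ev D v) h
    simp only [map_add, map_sub, map_zero] at h2
    simp only [dOne, AddMonoidHom.add_apply, AddMonoidHom.sub_apply,
      AddMonoidHom.zero_apply, AddMonoidHom.comp_apply, MonoidHom.map_mul]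
    have e1 : (conjAdd (Rep.res (D.r v) (permZ G (G ⧸ U))) (D.Jloc v) dd.1
        ((ev D v).comp (y (D.r v dd.2)))) m =
        ev D v ((conjAdd (permZ G (G ⧸ U)) (PTJ D) (D.r v dd.1) (y (D.r v dd.2))) m) := by
      rw [conjAdd_apply, conjAdd_apply, clf_ev_ρ, ← MonoidHom.map_inv (D.r v)]
      rfl
    rw [e1]
    exact h2

/-- the action of `s ∈ U` fixes `δ_1` -/
lemma clf_ρ_single_one {s : G} (hs : s ∈ U) :
    (permZ G (G ⧸ U)).ρ s (MonoidAlgebra.single (1 : G ⧸ U) 1) =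
      MonoidAlgebra.single (1 : G ⧸ U) 1 := by
  rw [chl_ρ_single]
  congr 1
  show s • ((1 : G) : G ⧸ U) = ((1 : G) : G ⧸ U)
  rw [MulAction.Quotient.smul_mk, smul_eq_mul, mul_one]
  exact (QuotientGroup.eq_one_iff s).2 hs

/-- `δ_{gU} = g δ_1` -/
lemma clf_single_mk (g : G) :
    (MonoidAlgebra.single ((g : G) : G ⧸ U) 1 : (permZ G (G ⧸ U)).V) =
      (permZ G (G ⧸ U)).ρ g (MonoidAlgebra.single (1 : G ⧸ U) 1) := by
  rw [chl_ρ_single]
  congr 1
  show _ = g • ((1 : G) : G ⧸ U)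
  rw [MulAction.Quotient.smul_mk, smul_eq_mul, mul_one]

/-- for a `U`-invariant `j`, `g j` only depends on `gU` -/
lemma clf_ρ_eq_of_mk_eq {Y : Rep.{0} ℤ G} {j : Y.V} (hj : ∀ s ∈ U, Y.ρ s j = j) {g g' : G}
    (h : ((g : G) : G ⧸ U) = g') : Y.ρ g j = Y.ρ g' j := by
  have h1 : g⁻¹ * g' ∈ U := QuotientGroup.eq.1 h
  have h2 : g' = g * (g⁻¹ * g') := by group
  rw [h2, map_mul, Module.End.mul_apply, hj _ h1]

/-- **K-Cl, abstract part.** -/
theorem clf_abs (hU : U ∈ D.𝒯.lev) (X : Type) [Finite X] (φ : D.C.V → X)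
    (hφ : ∀ x x' : D.C.V, (∀ s ∈ U, D.C.ρ s x = x) → (∀ s ∈ U, D.C.ρ s x' = x') → φ x = φ x' →
      ∃ j : (PTJ D).V, (∀ s ∈ U, (PTJ D).ρ s j = j) ∧ D.π.hom j = x - x') :
    Finite ↥(levH1 D.𝒯 (homRep (permZ G (G ⧸ U)) D.E)) := by
  -- notation
  have hπi : ∀ e : D.E.V, D.π.hom (D.i.hom e) = 0 := fun e => (D.exact _).2 ⟨e, rfl⟩
  -- representatives
  have hrep : ∀ x : ↥(levH1 D.𝒯 (homRep (permZ G (G ⧸ U)) D.E)),
      ∃ c : G → ((permZ G (G ⧸ U)).V →+ D.E.V), IsLevel₁ D.𝒯 c ∧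
        (∀ g h : G, c (g * h) = conjAdd (permZ G (G ⧸ U)) D.E g (c h) + c g) ∧
        ∃ hc : c ∈ cocycles₁ (homRep (permZ G (G ⧸ U)) D.E),
          (H1π (homRep (permZ G (G ⧸ U)) D.E)).hom ⟨c, hc⟩ = x.1 := by
    intro x
    obtain ⟨c, hc, hx⟩ := (mem_levH1_iff D.𝒯 _ x.1).1 x.2
    refine ⟨c.1, hc, ?_, c.2, hx⟩
    intro g h
    exact (mem_cocycles₁_iff c.1).1 c.2 g h
  choose c hc_lev hc_coc hc_mem hc_cls using hrep
  -- the images in `Hom(M, J)` are coboundaries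
  have ht : ∀ x, ∃ t : (permZ G (G ⧸ U)).V →+ (PTJ D).V,
      ∀ σ, (homAdd D.i).comp (c x σ) = dZero (permZ G (G ⧸ U)) (PTJ D) t σ := by
    intro x
    refine clf_J_vanish D U hU (fun σ => (homAdd D.i).comp (c x σ))
      ((hc_lev x).comp (fun f => (homAdd D.i).comp f)) ?_
    rintro ⟨σ, τ⟩
    apply AddMonoidHom.ext
    intro m
    have h := DFunLike.congr_fun (hc_coc x σ τ) m
    simp only [AddMonoidHom.add_apply] at h
    rw [conjAdd_apply] at h
    simp only [dOne, AddMonoidHom.add_apply, AddMonoidHom.sub_apply, AddMonoidHom.zero_apply]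
    rw [conjAdd_apply]
    simp only [AddMonoidHom.comp_apply, homAdd_apply]
    rw [h, map_add, Rep.hom_comm_apply]
    abel
  choose t ht using ht
  -- the key relation, evaluated
  have hkey : ∀ x σ m, (PTJ D).ρ σ (t x ((permZ G (G ⧸ U)).ρ σ⁻¹ m)) =
      t x m + D.i.hom (c x σ m) := by
    intro x σ m
    have h := DFunLike.congr_fun (ht x σ) m
    simp only [dZero, AddMonoidHom.sub_apply, AddMonoidHom.comp_apply, homAdd_apply] at h
    rw [conjAdd_apply] at h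
    rw [h]
    abel
  have hinv : ∀ x, ∀ s ∈ U, D.C.ρ s (D.π.hom (t x (MonoidAlgebra.single (1 : G ⧸ U) 1))) =
      D.π.hom (t x (MonoidAlgebra.single (1 : G ⧸ U) 1)) := by
    intro x s hs
    have h := hkey x s (MonoidAlgebra.single (1 : G ⧸ U) 1)
    rw [clf_ρ_single_one U (U.inv_mem hs)] at h
    rw [← Rep.hom_comm_apply, h, map_add, hπi, add_zero]
  refine Finite.of_injective
    (fun x => φ (D.π.hom (t x (MonoidAlgebra.single (1 : G ⧸ U) 1)))) ?_
  intro x x' hxx'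
  obtain ⟨j, hj, hπj⟩ := hφ _ _ (hinv x) (hinv x') hxx'
  -- the `G`-homomorphism of `j`
  have htj : ∀ (σ : G) (ω : G ⧸ U),
      (PTJ D).ρ σ ((PTJ D).ρ (Quotient.out (σ⁻¹ • ω)) j) = (PTJ D).ρ (Quotient.out ω) j := by
    intro σ ω
    rw [← Module.End.mul_apply, ← map_mul]
    apply clf_ρ_eq_of_mk_eq U hj
    have h1 : ((σ * Quotient.out (σ⁻¹ • ω) : G) : G ⧸ U) = σ • (σ⁻¹ • ω) := by
      conv_rhs => rw [← QuotientGroup.out_eq' (σ⁻¹ • ω)]
      rfl
    rw [h1, smul_inv_smul, QuotientGroup.out_eq']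
  have htj1 : (PTJ D).ρ (Quotient.out (1 : G ⧸ U)) j = j := by
    have h := clf_ρ_eq_of_mk_eq U hj (g := Quotient.out (1 : G ⧸ U)) (g' := 1)
      (QuotientGroup.out_eq' _)
    rw [h, map_one, Module.End.one_apply]
  -- `T = t x - t x' - t_j` has values in `i(E)`
  have hT0 : ∀ g : G, D.π.hom (t x (MonoidAlgebra.single ((g : G) : G ⧸ U) 1)
      - t x' (MonoidAlgebra.single ((g : G) : G ⧸ U) 1)
      - (PTJ D).ρ (Quotient.out ((g : G) : G ⧸ U)) j) = 0 := by
    intro g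
    have h1 := hkey x g ((permZ G (G ⧸ U)).ρ g (MonoidAlgebra.single (1 : G ⧸ U) 1))
    have h2 := hkey x' g ((permZ G (G ⧸ U)).ρ g (MonoidAlgebra.single (1 : G ⧸ U) 1))
    have h3 : (permZ G (G ⧸ U)).ρ g⁻¹
        ((permZ G (G ⧸ U)).ρ g (MonoidAlgebra.single (1 : G ⧸ U) 1)) =
        MonoidAlgebra.single (1 : G ⧸ U) 1 := by
      rw [← Module.End.mul_apply, ← map_mul, inv_mul_cancel, map_one, Module.End.one_apply]
    rw [h3, ← clf_single_mk] at h1 h2
    have h4 : (PTJ D).ρ (Quotient.out ((g : G) : G ⧸ U)) j = (PTJ D).ρ g j :=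
      clf_ρ_eq_of_mk_eq U hj (QuotientGroup.out_eq' _)
    have e1 : t x (MonoidAlgebra.single ((g : G) : G ⧸ U) 1) =
        (PTJ D).ρ g (t x (MonoidAlgebra.single (1 : G ⧸ U) 1)) -
          D.i.hom (c x g (MonoidAlgebra.single ((g : G) : G ⧸ U) 1)) := by
      rw [h1]; abel
    have e2 : t x' (MonoidAlgebra.single ((g : G) : G ⧸ U) 1) =
        (PTJ D).ρ g (t x' (MonoidAlgebra.single (1 : G ⧸ U) 1)) -
          D.i.hom (c x' g (MonoidAlgebra.single ((g : G) : G ⧸ U) 1)) := by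
      rw [h2]; abel
    rw [e1, e2, h4]
    simp only [map_sub, hπi, sub_zero, Rep.hom_comm_apply]
    rw [← map_sub, ← map_sub, hπj, sub_self, map_zero]
  have hTE : ∀ ω : G ⧸ U, ∃ e : D.E.V, D.i.hom e =
      t x (MonoidAlgebra.single ω 1) - t x' (MonoidAlgebra.single ω 1)
        - (PTJ D).ρ (Quotient.out ω) j := by
    intro ω
    obtain ⟨g, rfl⟩ := QuotientGroup.mk_surjective ω
    exact (D.exact _).1 (hT0 g)
  choose e he using hTE
  -- `c x - c x' = d⁰ t_E`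
  have hfin : ∀ σ, c x σ - c x' σ =
      dZero (permZ G (G ⧸ U)) D.E (chl_lift (G := G) (G ⧸ U) e) σ := by
    intro σ
    apply chl_ext
    intro ω
    apply D.i_injective
    simp only [dZero, AddMonoidHom.sub_apply]
    rw [conjAdd_apply, chl_ρ_single, chl_lift_single, chl_lift_single, one_smul, one_smul,
      map_sub, map_sub, Rep.hom_comm_apply D.i σ, he, he]
    have h1 := hkey x σ (MonoidAlgebra.single ω 1)
    have h2 := hkey x' σ (MonoidAlgebra.single ω 1)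
    rw [chl_ρ_single] at h1 h2
    simp only [map_sub]
    rw [h1, h2, htj σ ω]
    abel
  -- conclusion
  apply Subtype.ext
  rw [← hc_cls x, ← hc_cls x', H1π_eq_iff]
  refine ⟨chl_lift (G := G) (G ⧸ U) e, ?_⟩
  funext σ
  exact (hfin σ).symm

end Datum

end Fermat.Agent.TW.E

end
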