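/-
Project TW (S56) — part TW-E, block E-cyc, piece **K-Cl** (helper69): the concrete part.
`H¹_lev(G_ℚ, Hom_ℤ(ℤ[Γ], E_S))` is finite (`Γ = G_ℚ ⧸ U`, `U` a normal level of `towerS S`): it injects
into `C_S^U / π(J_S^U)`, and PT-B's comparison map `f_L : C_S^{G_L} → C_S(L)` identifies the latter
with a subgroup of `C_S(L) / im(J_L) = Cl_S(L)`, which is finite (`stmtCSExact`).
The statement is conditional on the five hypotheses of the concrete Poitou–Tate datum, like every
other concrete input of TW-E (`StmtUnitsCyc`, `StmtKum`, …).  Names `clf_*`.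
-/
import Fermat.Agent.TW.E.ClFinAbs
import Fermat.Agent.PT.B.Instance
import Fermat.Agent.PT.B.CompareFinal
import Fermat.Agent.PT.G.Exact

set_option autoImplicit false
set_option linter.style.haveILetI false
set_option linter.unusedSectionVars false

noncomputable section

namespace Fermat.Agent.TW.E

open CategoryTheory groupCohomology Module Fermat.Agent.PT Fermat.Agent.PT.F Fermat.Agent.PT.B
  Fermat.Agent.PT.G Fermat.Agent.TW.F ExtCitation

/-- **K-Cl (concrete input), in the form in which it is consumed**: for an odd prime `p ∈ S` (and the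
five hypotheses of the concrete datum) `H¹_lev(G_ℚ, Hom(ℤ[Γ], E_S))` is finite. -/
def StmtClFin' : Prop :=
  ∀ (p : ℕ) [Fact p.Prime] (_ : p ≠ 2) (S : Finset Nat.Primes) (_ : pPrime p ∈ S),
    StmtCmGlob → StmtCmLoc → StmtH90Loc → StmtExistC → StmtSurvC →
    ∀ (U : Subgroup GQ) [U.Normal], U ∈ (towerS S).lev →
      Finite ↥(levH1 (towerS S) (homRep (permZ GQ (GQ ⧸ U)) (ERep S)))

/-- the field of a normal level is a tower field -/
theorem clf_towerField (S : Finset Nat.Primes) (U : Subgroup GQ) [hn : U.Normal]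
    (hU : U ∈ (towerS S).lev) : ∃ L : QbarField, IsTowerField S L ∧ U = L.fixingSubgroup := by
  obtain ⟨L, hLur, rfl⟩ := hU
  haveI : IsAlgClosure ℚ (AlgebraicClosure ℚ) :=
    ⟨inferInstance, AlgebraicClosure.isAlgebraic ℚ⟩
  haveI : IsGalois ℚ (AlgebraicClosure ℚ) := inferInstance
  exact ⟨L, ⟨hLur, (InfiniteGalois.normal_iff_isGalois L).1 hn⟩, rfl⟩

theorem stmtClFin' : StmtClFin' := by
  intro p _ hp2 S hpS hcg hcl hh hex hsv U hn hU
  obtain ⟨L, hL, rfl⟩ := clf_towerField S U hU
  haveI := numberField_of_isTowerField hL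
  obtain ⟨f, hf⟩ := stmtCompare p S hpS
  haveI : Finite (CS S ↥L ⧸ LinearMap.range (csOfJ S ↥L)) := (stmtCSExact S ↥L).2
  classical
  refine clf_abs (concreteDatum p hp2 S hpS hcg hcl hh hex hsv) L.fixingSubgroup hU
    (CS S ↥L ⧸ LinearMap.range (csOfJ S ↥L))
    (fun x => if hx : x ∈ CInv S L then Submodule.Quotient.mk (f L hL ⟨x, hx⟩) else 0) ?_
  intro x x' hx hx' hxx'
  have hxm : x ∈ CInv S L := hx
  have hxm' : x' ∈ CInv S L := hx'
  simp only [dif_pos hxm, dif_pos hxm'] at hxx'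
  rw [Submodule.Quotient.eq] at hxx'
  obtain ⟨z, hz⟩ := hxx'
  refine ⟨thetaL S L hL.1 z, thetaL_invariant S L hL.1 z, ?_⟩
  have h1 := hf.idelic L hL z
  have h2 : f L hL (⟨x, hxm⟩ - ⟨x', hxm'⟩) = csOfJ S ↥L z := by
    rw [map_sub]
    exact hz.symm
  have h3 := hf.inj L hL (h1.trans h2.symm)
  exact congrArg Subtype.val h3

end Fermat.Agent.TW.E

end
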