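/-
TW-E / E-herb / H-mod (helper32): models of `X / pX` and of `X[p]` exist, are unique up to
isomorphism, and are finite-dimensional for finitely generated `X`.

Main result: `stmtHerbModels : StmtHerbModels` (statement in `TW/E/HerbPlan.lean`).
-/
import Mathlib
import Fermat.Agent.TW.E.HerbPlan

set_option autoImplicit false
set_option linter.style.haveILetI false
set_option linter.unusedSectionVars false

namespace Fermat.Agent.TW.E

open CategoryTheory

section

variable {p : ℕ} [hp : Fact p.Prime] {Γ : Type} [Group Γ]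

/-- a finitely generated abelian group carrying an `𝔽_p`-module structure is finite-dimensional -/
lemma hbm_finite_of_fg {A : Type*} [AddCommGroup A] [Module (ZMod p) A] (h : AddGroup.FG A) :
    Module.Finite (ZMod p) A := by
  obtain ⟨⟨S, hS⟩⟩ := h
  refine ⟨⟨S, eq_top_iff.2 (fun x _ => ?_)⟩⟩
  have hx : x ∈ AddSubgroup.closure (S : Set A) := hS ▸ AddSubgroup.mem_top x
  exact (AddSubgroup.closure_le (K := (Submodule.span (ZMod p) (S : Set A)).toAddSubgroup)).2
    Submodule.subset_span hx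

/-- a subgroup of a finitely generated abelian group is finitely generated -/
lemma hbm_fg_of_injective {A B : Type*} [AddCommGroup A] [AddCommGroup B] (f : A →+ B)
    (hf : Function.Injective f) (hB : AddGroup.FG B) : AddGroup.FG A := by
  haveI : Module.Finite ℤ B := Module.Finite.iff_addGroup_fg.mpr hB
  have : Module.Finite ℤ A := Module.Finite.of_injective f.toIntLinearMap hf
  exact Module.Finite.iff_addGroup_fg.mp this

/-- an additive equivariant bijection of `𝔽_p`-representations is an isomorphism -/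
lemma hbm_iso_of_addEquiv (M M' : Rep.{0} (ZMod p) Γ) (e : M.V ≃+ M'.V)
    (he : ∀ g m, e (M.ρ g m) = M'.ρ g (e m)) : Nonempty (M ≅ M') := by
  let l : M.V ≃ₗ[ZMod p] M'.V :=
    { e with map_smul' := fun c x => ZMod.map_smul e.toAddMonoidHom c x }
  exact ⟨Rep.mkIso (ρ := M.ρ) (σ := M'.ρ)
    (Representation.Equiv.mk l (fun g => LinearMap.ext (fun m => he g m)))⟩

/-- models of `X / pX` are unique -/
lemma hbm_modP_unique (X : Rep.{0} ℤ Γ) (M M' : Rep.{0} (ZMod p) Γ) (hM : IsModP p X M)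
    (hM' : IsModP p X M') : Nonempty (M ≅ M') := by
  obtain ⟨f, hfs, hfe, hfk⟩ := hM
  obtain ⟨f', hfs', hfe', hfk'⟩ := hM'
  have key : ∀ x y, f x = f y ↔ f' x = f' y := by
    intro x y
    rw [← sub_eq_zero, ← map_sub, hfk, ← sub_eq_zero (a := f' x), ← map_sub, hfk']
  let φ : M.V → M'.V := fun m => f' (Function.surjInv hfs m)
  have hφ : ∀ x, φ (f x) = f' x := fun x => (key _ _).1 (Function.surjInv_eq hfs (f x))
  let ψ : M'.V → M.V := fun m => f (Function.surjInv hfs' m)
  have hψ : ∀ x, ψ (f' x) = f x := fun x => (key _ _).2 (Function.surjInv_eq hfs' (f' x))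
  let e : M.V ≃+ M'.V :=
    { toFun := φ
      invFun := ψ
      left_inv := fun m => by obtain ⟨x, rfl⟩ := hfs m; rw [hφ, hψ]
      right_inv := fun m => by obtain ⟨x, rfl⟩ := hfs' m; rw [hψ, hφ]
      map_add' := fun a b => by
        obtain ⟨x, rfl⟩ := hfs a
        obtain ⟨y, rfl⟩ := hfs b
        rw [← map_add, hφ, hφ, hφ, map_add] }
  refine hbm_iso_of_addEquiv M M' e (fun g m => ?_)
  obtain ⟨x, rfl⟩ := hfs m
  change φ (M.ρ g (f x)) = M'.ρ g (φ (f x))
  rw [← hfe, hφ, hφ, hfe']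

/-- models of `X[p]` are unique -/
lemma hbm_torP_unique (X : Rep.{0} ℤ Γ) (T T' : Rep.{0} (ZMod p) Γ) (hT : IsTorP p X T)
    (hT' : IsTorP p X T') : Nonempty (T ≅ T') := by
  obtain ⟨f, hfi, hfe, hfk⟩ := hT
  obtain ⟨f', hfi', hfe', hfk'⟩ := hT'
  have h1 : ∀ t, ∃ t', f' t' = f t := fun t => (hfk' (f t)).1 ((hfk (f t)).2 ⟨t, rfl⟩)
  have h2 : ∀ t', ∃ t, f t = f' t' := fun t' => (hfk (f' t')).1 ((hfk' (f' t')).2 ⟨t', rfl⟩)
  choose φ hφ using h1
  choose ψ hψ using h2
  let e : T.V ≃+ T'.V :=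
    { toFun := φ
      invFun := ψ
      left_inv := fun t => hfi (by rw [hψ, hφ])
      right_inv := fun t => hfi' (by rw [hφ, hψ])
      map_add' := fun a b => hfi' (by rw [hφ, map_add, map_add, hφ, hφ]) }
  refine hbm_iso_of_addEquiv T T' e (fun g t => hfi' ?_)
  change f' (φ (T.ρ g t)) = f' (T'.ρ g (φ t))
  rw [hφ, hfe, hfe', hφ]

/-- models of `X / pX` are finite-dimensional for finitely generated `X` -/
lemma hbm_modP_finite (X : Rep.{0} ℤ Γ) (hX : IsFG X) (M : Rep.{0} (ZMod p) Γ)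
    (hM : IsModP p X M) : Module.Finite (ZMod p) M.V := by
  obtain ⟨f, hfs, -, -⟩ := hM
  haveI : AddGroup.FG X.V := hX
  exact hbm_finite_of_fg (AddGroup.fg_of_surjective hfs)

/-- models of `X[p]` are finite-dimensional for finitely generated `X` -/
lemma hbm_torP_finite (X : Rep.{0} ℤ Γ) (hX : IsFG X) (T : Rep.{0} (ZMod p) Γ)
    (hT : IsTorP p X T) : Module.Finite (ZMod p) T.V := by
  obtain ⟨f, hfi, -, -⟩ := hT
  exact hbm_finite_of_fg (hbm_fg_of_injective f hfi hX)

/-- a model of `X / pX` exists -/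
lemma hbm_exists_modP (X : Rep.{0} ℤ Γ) : ∃ M : Rep.{0} (ZMod p) Γ, IsModP p X M := by
  let N : AddSubgroup X.V := (nsmulAddMonoidHom (α := X.V) p).range
  have hN : ∀ x : X.V, p • x ∈ N := fun x => ⟨x, rfl⟩
  haveI : Module (ZMod p) (X.V ⧸ N) := QuotientAddGroup.zmodModule hN
  have hstab : ∀ g : Γ, N ≤ N.comap (X.ρ g).toAddMonoidHom := by
    rintro g _ ⟨y, rfl⟩
    exact ⟨X.ρ g y, (map_nsmul (X.ρ g) p y).symm⟩
  let F : Γ → Module.End (ZMod p) (X.V ⧸ N) := fun g =>
    (QuotientAddGroup.map N N (X.ρ g).toAddMonoidHom (hstab g)).toZModLinearMap p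
  have hF1 : F 1 = 1 := by
    apply LinearMap.ext
    intro q
    induction q using QuotientAddGroup.induction_on with
    | H x => simp [F]
  have hFmul : ∀ g h, F (g * h) = F g * F h := fun g h => by
    apply LinearMap.ext
    intro q
    induction q using QuotientAddGroup.induction_on with
    | H x => simp [F]
  let ρ : Representation (ZMod p) Γ (X.V ⧸ N) := MonoidHom.mk (OneHom.mk F hF1) hFmul
  refine ⟨Rep.of ρ, QuotientAddGroup.mk' N, QuotientAddGroup.mk'_surjective N, fun g x => rfl,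
    fun x => ?_⟩
  rw [QuotientAddGroup.mk'_apply, QuotientAddGroup.eq_zero_iff]
  constructor
  · rintro ⟨y, hy⟩
    exact ⟨y, hy.symm⟩
  · rintro ⟨y, rfl⟩
    exact ⟨y, rfl⟩

/-- a model of `X[p]` exists -/
lemma hbm_exists_torP (X : Rep.{0} ℤ Γ) : ∃ T : Rep.{0} (ZMod p) Γ, IsTorP p X T := by
  let K : AddSubgroup X.V := (nsmulAddMonoidHom (α := X.V) p).ker
  have hK : ∀ x : K, p • x = 0 := fun x => Subtype.ext x.2
  haveI : Module (ZMod p) K := AddCommGroup.zmodModule hK
  have hstab : ∀ (g : Γ) (x : K), ((X.ρ g).toAddMonoidHom.comp K.subtype) x ∈ K := by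
    intro g x
    change p • X.ρ g x.1 = 0
    rw [← map_nsmul]
    have hx : p • x.1 = 0 := x.2
    rw [hx, map_zero]
  let F : Γ → Module.End (ZMod p) K := fun g =>
    (((X.ρ g).toAddMonoidHom.comp K.subtype).codRestrict K (hstab g)).toZModLinearMap p
  have hF1 : F 1 = 1 := by
    apply LinearMap.ext
    intro x
    apply Subtype.ext
    simp [F]
  have hFmul : ∀ g h, F (g * h) = F g * F h := fun g h => by
    apply LinearMap.ext
    intro x
    apply Subtype.ext
    simp [F]
  let ρ : Representation (ZMod p) Γ K := MonoidHom.mk (OneHom.mk F hF1) hFmul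
  refine ⟨Rep.of ρ, K.subtype, K.subtype_injective, fun g t => rfl, fun x => ?_⟩
  constructor
  · intro hx
    exact ⟨⟨x, hx⟩, rfl⟩
  · rintro ⟨t, rfl⟩
    exact t.2

end

/-- **H-mod.** -/
theorem stmtHerbModels : StmtHerbModels := by
  intro p _ Γ _ X
  exact ⟨hbm_exists_modP X, hbm_exists_torP X, fun M M' => hbm_modP_unique X M M',
    fun T T' => hbm_torP_unique X T T', fun hX M => hbm_modP_finite X hX M,
    fun hX T => hbm_torP_finite X hX T⟩

end Fermat.Agent.TW.E
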