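/-
TW-E / E-herb / H-add (helper32): `h_ψ(X) = ψ (X/pX) - ψ (X[p])` is additive on short exact
sequences of finitely generated `ℤ[Γ]`-modules.

Main result: `stmtHerbAdd : StmtHerbAdd` (statement in `TW/E/HerbPlan.lean`).

Proof.  The snake lemma for multiplication by `p` on `0 → X' → X → X'' → 0` gives the six-term
exact sequence `0 → X'[p] → X[p] → X''[p] → X'/p → X/p → X''/p → 0` between the GIVEN models
(`hba_torMap`, `hba_delta`, `hba_modMap` construct the maps from functional relations,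
`hba_a_inj … hba_d_surj` are the exactness statements), and an additive function has vanishing
alternating sum on a six-term exact sequence (`hba_six`, by cutting it at the images `hbaIm`).
-/
import Mathlib
import Fermat.Agent.TW.E.HerbPlan
import Fermat.Agent.TW.E.HerbModels

set_option autoImplicit false
set_option linter.style.haveILetI false
set_option linter.unusedSectionVars false
set_option linter.unusedVariables false

namespace Fermat.Agent.TW.E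

open CategoryTheory

section generic

variable {k : Type} [Field k] {Γ : Type} [Group Γ]

/-- the range of a morphism is a stable submodule -/
lemma hba_range_stable {A B : Rep.{0} k Γ} (u : A ⟶ B) (g : Γ) :
    LinearMap.range u.hom.toLinearMap ≤ (LinearMap.range u.hom.toLinearMap).comap (B.ρ g) := by
  rintro _ ⟨a, rfl⟩
  exact ⟨A.ρ g a, Rep.hom_comm_apply u g a⟩

/-- the image of a morphism, as a representation -/
noncomputable def hbaIm {A B : Rep.{0} k Γ} (u : A ⟶ B) : Rep.{0} k Γ :=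
  B.subrepresentation (LinearMap.range u.hom.toLinearMap) (hba_range_stable u)

/-- the inclusion of the image -/
noncomputable def hbaIn {A B : Rep.{0} k Γ} (u : A ⟶ B) : hbaIm u ⟶ B :=
  Rep.subtype B (LinearMap.range u.hom.toLinearMap) (hba_range_stable u)

/-- the corestriction to the image -/
noncomputable def hbaCo {A B : Rep.{0} k Γ} (u : A ⟶ B) : A ⟶ hbaIm u :=
  Rep.ofHom (ρ := A.ρ)
    (σ := B.ρ.subrepresentation (LinearMap.range u.hom.toLinearMap) (hba_range_stable u))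
    ⟨u.hom.toLinearMap.rangeRestrict, fun g => LinearMap.ext (fun a =>
      Subtype.ext (Rep.hom_comm_apply u g a))⟩

lemma hbaIn_apply {A B : Rep.{0} k Γ} (u : A ⟶ B) (y : (hbaIm u).V) :
    ((hbaIn u).hom y : B.V) = (show LinearMap.range u.hom.toLinearMap from y).1 := rfl

lemma hbaCo_apply {A B : Rep.{0} k Γ} (u : A ⟶ B) (a : A.V) :
    (hbaIn u).hom ((hbaCo u).hom a) = u.hom a := rfl

lemma hbaIn_injective {A B : Rep.{0} k Γ} (u : A ⟶ B) : Function.Injective (hbaIn u).hom :=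
  fun _ _ h => Subtype.ext h

lemma hbaCo_surjective {A B : Rep.{0} k Γ} (u : A ⟶ B) : Function.Surjective (hbaCo u).hom := by
  rintro ⟨_, a, rfl⟩
  exact ⟨a, rfl⟩

lemma hbaIn_range {A B : Rep.{0} k Γ} (u : A ⟶ B) (y : B.V) :
    y ∈ Set.range (hbaIn u).hom ↔ y ∈ Set.range u.hom := by
  constructor
  · rintro ⟨⟨_, a, rfl⟩, rfl⟩
    exact ⟨a, rfl⟩
  · rintro ⟨a, rfl⟩
    exact ⟨(hbaCo u).hom a, rfl⟩

/-- a bijective morphism is an isomorphism -/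
lemma hba_iso_of_bijective {A B : Rep.{0} k Γ} (u : A ⟶ B) (hu : Function.Bijective u.hom) :
    Nonempty (A ≅ B) :=
  ⟨Rep.mkIso (ρ := A.ρ) (σ := B.ρ) (u.hom.ofBijective hu)⟩

variable {ψ : Rep.{0} k Γ → ℤ}

/-- (E1) -/
lemma hba_E1 (hψ : IsAddFun ψ) {A B C : Rep.{0} k Γ} (u : A ⟶ B) (v : B ⟶ C)
    (hB : Module.Finite k B.V) (hex : Function.Exact u.hom v.hom) :
    ψ B = ψ (hbaIm u) + ψ (hbaIm v) := by
  refine hψ.add (hbaIm u) B (hbaIm v) (hbaIn u) (hbaCo v) hB (hbaIn_injective u)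
    (hbaCo_surjective v) (fun y => ?_)
  rw [hbaIn_range, ← hex y]
  constructor
  · intro h
    have := congrArg (hbaIn v).hom h
    rwa [hbaCo_apply, map_zero] at this
  · intro h
    apply hbaIn_injective v
    rw [hbaCo_apply, map_zero, h]

/-- (E2) -/
lemma hba_E2 (hψ : IsAddFun ψ) {A B : Rep.{0} k Γ} (u : A ⟶ B)
    (hu : Function.Injective u.hom) : ψ (hbaIm u) = ψ A := by
  refine (hψ.iso _ _ (hba_iso_of_bijective (hbaCo u) ⟨?_, hbaCo_surjective u⟩)).symm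
  intro a b hab
  apply hu
  rw [← hbaCo_apply, hab, hbaCo_apply]

/-- (E3) -/
lemma hba_E3 (hψ : IsAddFun ψ) {B C : Rep.{0} k Γ} (v : B ⟶ C)
    (hv : Function.Surjective v.hom) : ψ (hbaIm v) = ψ C := by
  refine hψ.iso _ _ (hba_iso_of_bijective (hbaIn v) ⟨hbaIn_injective v, fun y => ?_⟩)
  exact (hbaIn_range v y).2 (hv y)

/-- the alternating sum over a six-term exact sequence vanishes -/
lemma hba_six (hψ : IsAddFun ψ) {A1 A2 A3 A4 A5 A6 : Rep.{0} k Γ}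
    (u1 : A1 ⟶ A2) (u2 : A2 ⟶ A3) (u3 : A3 ⟶ A4) (u4 : A4 ⟶ A5) (u5 : A5 ⟶ A6)
    (h2 : Module.Finite k A2.V) (h3 : Module.Finite k A3.V) (h4 : Module.Finite k A4.V)
    (h5 : Module.Finite k A5.V)
    (hinj : Function.Injective u1.hom) (hsurj : Function.Surjective u5.hom)
    (e2 : Function.Exact u1.hom u2.hom) (e3 : Function.Exact u2.hom u3.hom)
    (e4 : Function.Exact u3.hom u4.hom) (e5 : Function.Exact u4.hom u5.hom) :
    ψ A5 - ψ A2 = (ψ A4 - ψ A1) + (ψ A6 - ψ A3) := by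
  have k2 := hba_E1 hψ u1 u2 h2 e2
  have k3 := hba_E1 hψ u2 u3 h3 e3
  have k4 := hba_E1 hψ u3 u4 h4 e4
  have k5 := hba_E1 hψ u4 u5 h5 e5
  have k1 := hba_E2 hψ u1 hinj
  have k6 := hba_E3 hψ u5 hsurj
  omega

end generic

section snake

variable {p : ℕ} [hp : Fact p.Prime] {Γ : Type} [Group Γ]

/-- `π` is a structure map of the model `M` of `X / pX` -/
structure HbaMod (p : ℕ) (X : Rep.{0} ℤ Γ) (M : Rep.{0} (ZMod p) Γ) (π : X.V →+ M.V) : Prop where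
  surj : Function.Surjective π
  equiv : ∀ g x, π (X.ρ g x) = M.ρ g (π x)
  ker : ∀ x, π x = 0 ↔ ∃ y, x = p • y

/-- `ι` is a structure map of the model `T` of `X[p]` -/
structure HbaTor (p : ℕ) (X : Rep.{0} ℤ Γ) (T : Rep.{0} (ZMod p) Γ) (ι : T.V →+ X.V) : Prop where
  inj : Function.Injective ι
  equiv : ∀ g t, ι (T.ρ g t) = X.ρ g (ι t)
  mem : ∀ x, p • x = 0 ↔ ∃ t, ι t = x

/-- a morphism of `𝔽_p`-representations from a functional, additive, equivariant relation -/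
lemma hba_mkHom (A B : Rep.{0} (ZMod p) Γ) (P : A.V → B.V → Prop)
    (hex : ∀ a, ∃ b, P a b) (huniq : ∀ a b b', P a b → P a b' → b = b')
    (hadd : ∀ a b a' b', P a b → P a' b' → P (a + a') (b + b'))
    (hequiv : ∀ γ a b, P a b → P (A.ρ γ a) (B.ρ γ b)) :
    ∃ u : A ⟶ B, ∀ a, P a (u.hom a) := by
  choose φ hφ using hex
  let φA : A.V →+ B.V := AddMonoidHom.mk' φ
    (fun a a' => huniq _ _ _ (hφ (a + a')) (hadd _ _ _ _ (hφ a) (hφ a')))
  let l : A.V →ₗ[ZMod p] B.V := φA.toZModLinearMap p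
  let I : A.ρ.IntertwiningMap B.ρ :=
    ⟨l, fun γ => LinearMap.ext (fun a => huniq _ _ _ (hφ (A.ρ γ a)) (hequiv γ a _ (hφ a)))⟩
  exact ⟨Rep.ofHom (ρ := A.ρ) (σ := B.ρ) I, hφ⟩

/-- functoriality of `X[p]` -/
lemma hba_torMap {X Y : Rep.{0} ℤ Γ} {T U : Rep.{0} (ZMod p) Γ} {ι : T.V →+ X.V}
    {κ : U.V →+ Y.V} (hT : HbaTor p X T ι) (hU : HbaTor p Y U κ) (h : X.V →+ Y.V)
    (hh : ∀ γ x, h (X.ρ γ x) = Y.ρ γ (h x)) :
    ∃ u : T ⟶ U, ∀ t, κ (u.hom t) = h (ι t) := by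
  refine hba_mkHom T U (fun t u => κ u = h (ι t)) (fun t => ?_) (fun t u u' h1 h2 => ?_)
    (fun t u t' u' h1 h2 => ?_) (fun γ t u h1 => ?_)
  · refine (hU.mem (h (ι t))).1 ?_
    rw [← map_nsmul, (hT.mem (ι t)).2 ⟨t, rfl⟩, map_zero]
  · exact hU.inj (h1.trans h2.symm)
  · rw [map_add, map_add, map_add, h1, h2]
  · rw [hU.equiv, hT.equiv, hh, h1]

/-- functoriality of `X / pX` -/
lemma hba_modMap {X Y : Rep.{0} ℤ Γ} {M N : Rep.{0} (ZMod p) Γ} {π : X.V →+ M.V}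
    {ϖ : Y.V →+ N.V} (hM : HbaMod p X M π) (hN : HbaMod p Y N ϖ) (h : X.V →+ Y.V)
    (hh : ∀ γ x, h (X.ρ γ x) = Y.ρ γ (h x)) :
    ∃ u : M ⟶ N, ∀ x, u.hom (π x) = ϖ (h x) := by
  have key : ∀ x y, π x = π y → ϖ (h x) = ϖ (h y) := by
    intro x y hxy
    rw [← sub_eq_zero, ← map_sub, hM.ker] at hxy
    obtain ⟨z, hz⟩ := hxy
    rw [← sub_eq_zero, ← map_sub, ← map_sub, hz, map_nsmul]
    exact (hN.ker _).2 ⟨h z, rfl⟩
  have hex : ∀ m : M.V, ∃ n : N.V, ∃ x, π x = m ∧ ϖ (h x) = n := by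
    intro m
    obtain ⟨x, rfl⟩ := hM.surj m
    exact ⟨_, x, rfl, rfl⟩
  have huniq : ∀ (m : M.V) (n n' : N.V), (∃ x, π x = m ∧ ϖ (h x) = n) →
      (∃ x, π x = m ∧ ϖ (h x) = n') → n = n' := by
    intro m n n' h1 h2
    obtain ⟨x, rfl, rfl⟩ := h1
    obtain ⟨y, hy, rfl⟩ := h2
    exact key _ _ hy.symm
  have hadd : ∀ (m : M.V) (n : N.V) (m' : M.V) (n' : N.V), (∃ x, π x = m ∧ ϖ (h x) = n) →
      (∃ x, π x = m' ∧ ϖ (h x) = n') → ∃ x, π x = m + m' ∧ ϖ (h x) = n + n' := by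
    intro m n m' n' h1 h2
    obtain ⟨x, rfl, rfl⟩ := h1
    obtain ⟨y, rfl, rfl⟩ := h2
    exact ⟨x + y, map_add _ _ _, by rw [map_add, map_add]⟩
  have hequiv : ∀ (γ : Γ) (m : M.V) (n : N.V), (∃ x, π x = m ∧ ϖ (h x) = n) →
      ∃ x, π x = M.ρ γ m ∧ ϖ (h x) = N.ρ γ n := by
    intro γ m n h1
    obtain ⟨x, rfl, rfl⟩ := h1
    exact ⟨X.ρ γ x, hM.equiv γ x, by rw [hh, hN.equiv]⟩
  obtain ⟨u, hu⟩ := hba_mkHom M N (fun m n => ∃ x, π x = m ∧ ϖ (h x) = n) hex huniq hadd hequiv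
  refine ⟨u, fun x => ?_⟩
  obtain ⟨y, hy1, hy2⟩ := hu (π x)
  rw [← hy2]
  exact key _ _ hy1

variable {X' X X'' : Rep.{0} ℤ Γ} {M' T' M T M'' T'' : Rep.{0} (ZMod p) Γ}
  {f : X'.V →+ X.V} {g : X.V →+ X''.V}
  {ι' : T'.V →+ X'.V} {ι : T.V →+ X.V} {ι'' : T''.V →+ X''.V}
  {π' : X'.V →+ M'.V} {π : X.V →+ M.V} {π'' : X''.V →+ M''.V}
  (hf : Function.Injective f) (hg : Function.Surjective g)
  (hfg : ∀ x, g x = 0 ↔ ∃ x', f x' = x)
  (hfe : ∀ γ x, f (X'.ρ γ x) = X.ρ γ (f x)) (hge : ∀ γ x, g (X.ρ γ x) = X''.ρ γ (g x))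
  (hT' : HbaTor p X' T' ι') (hT : HbaTor p X T ι) (hT'' : HbaTor p X'' T'' ι'')
  (hM' : HbaMod p X' M' π') (hM : HbaMod p X M π) (hM'' : HbaMod p X'' M'' π'')

include hf hg hfg hfe hge hT'' hM' in
/-- the connecting map `X''[p] → X' / pX'` -/
lemma hba_delta :
    ∃ δ : T'' ⟶ M', ∀ t x x', g x = ι'' t → p • x = f x' → δ.hom t = π' x' := by
  have key : ∀ t x x' y y', g x = ι'' t → p • x = f x' → g y = ι'' t → p • y = f y' →
      π' x' = π' y' := by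
    intro t x x' y y' h1 h2 h3 h4
    have h5 : g (x - y) = 0 := by rw [map_sub, h1, h3, sub_self]
    obtain ⟨z, hz⟩ := (hfg _).1 h5
    have h6 : x' - y' = p • z := by
      apply hf
      rw [map_sub, ← h2, ← h4, map_nsmul, hz, smul_sub]
    rw [← sub_eq_zero, ← map_sub, h6]
    exact (hM'.ker _).2 ⟨z, rfl⟩
  have hex : ∀ t : T''.V, ∃ m : M'.V, ∃ x x', g x = ι'' t ∧ p • x = f x' ∧ π' x' = m := by
    intro t
    obtain ⟨x, hx⟩ := hg (ι'' t)
    have h1 : g (p • x) = 0 := by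
      rw [map_nsmul, hx]
      exact (hT''.mem _).2 ⟨t, rfl⟩
    obtain ⟨x', hx'⟩ := (hfg _).1 h1
    exact ⟨_, x, x', hx, hx'.symm, rfl⟩
  have huniq : ∀ (t : T''.V) (m m' : M'.V),
      (∃ x x', g x = ι'' t ∧ p • x = f x' ∧ π' x' = m) →
      (∃ x x', g x = ι'' t ∧ p • x = f x' ∧ π' x' = m') → m = m' := by
    intro t m m' h1 h2
    obtain ⟨x, x', h3, h4, rfl⟩ := h1
    obtain ⟨y, y', h5, h6, rfl⟩ := h2
    exact key t x x' y y' h3 h4 h5 h6
  have hadd : ∀ (t : T''.V) (m : M'.V) (t' : T''.V) (m' : M'.V),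
      (∃ x x', g x = ι'' t ∧ p • x = f x' ∧ π' x' = m) →
      (∃ x x', g x = ι'' t' ∧ p • x = f x' ∧ π' x' = m') →
      ∃ x x', g x = ι'' (t + t') ∧ p • x = f x' ∧ π' x' = m + m' := by
    intro t m t' m' h1 h2
    obtain ⟨x, x', h3, h4, rfl⟩ := h1
    obtain ⟨y, y', h5, h6, rfl⟩ := h2
    refine ⟨x + y, x' + y', ?_, ?_, map_add _ _ _⟩
    · rw [map_add, map_add, h3, h5]
    · rw [smul_add, map_add, h4, h6]
  have hequiv : ∀ (γ : Γ) (t : T''.V) (m : M'.V),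
      (∃ x x', g x = ι'' t ∧ p • x = f x' ∧ π' x' = m) →
      ∃ x x', g x = ι'' (T''.ρ γ t) ∧ p • x = f x' ∧ π' x' = M'.ρ γ m := by
    intro γ t m h1
    obtain ⟨x, x', h3, h4, rfl⟩ := h1
    refine ⟨X.ρ γ x, X'.ρ γ x', ?_, ?_, hM'.equiv γ x'⟩
    · rw [hge, h3, hT''.equiv]
    · rw [hfe, ← h4, map_nsmul]
  obtain ⟨δ, hδ⟩ := hba_mkHom T'' M'
    (fun t m => ∃ x x', g x = ι'' t ∧ p • x = f x' ∧ π' x' = m) hex huniq hadd hequiv
  refine ⟨δ, fun t x x' h1 h2 => ?_⟩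
  obtain ⟨y, y', h3, h4, h5⟩ := hδ t
  rw [← h5]
  exact key t y y' x x' h3 h4 h1 h2

variable {a : T' ⟶ T} {b : T ⟶ T''} {δ : T'' ⟶ M'} {c : M' ⟶ M} {d : M ⟶ M''}
  (ha : ∀ t, ι (a.hom t) = f (ι' t)) (hb : ∀ t, ι'' (b.hom t) = g (ι t))
  (hδ : ∀ t x x', g x = ι'' t → p • x = f x' → δ.hom t = π' x')
  (hc : ∀ x, c.hom (π' x) = π (f x)) (hd : ∀ x, d.hom (π x) = π'' (g x))

include hf hT' hT ha in
lemma hba_a_inj : Function.Injective a.hom := by
  intro t s hts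
  apply hT'.inj
  apply hf
  rw [← ha, ← ha, hts]

include hf hfg hT' hT hT'' ha hb in
lemma hba_ex_T : Function.Exact a.hom b.hom := by
  intro t
  constructor
  · intro h0
    have h1 : g (ι t) = 0 := by rw [← hb, h0, map_zero]
    obtain ⟨x', hx'⟩ := (hfg _).1 h1
    have h2 : p • x' = 0 := by
      apply hf
      rw [map_nsmul, hx', map_zero]
      exact (hT.mem _).2 ⟨t, rfl⟩
    obtain ⟨t', ht'⟩ := (hT'.mem _).1 h2
    refine ⟨t', hT.inj ?_⟩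
    rw [ha, ht', hx']
  · rintro ⟨t', rfl⟩
    apply hT''.inj
    rw [hb, ha, map_zero]
    exact (hfg _).2 ⟨_, rfl⟩

include hf hg hfg hT hT'' hM' hb hδ in
lemma hba_ex_T'' : Function.Exact b.hom δ.hom := by
  intro t
  constructor
  · intro h0
    obtain ⟨x, hx⟩ := hg (ι'' t)
    have h1 : g (p • x) = 0 := by
      rw [map_nsmul, hx]
      exact (hT''.mem _).2 ⟨t, rfl⟩
    obtain ⟨x', hx'⟩ := (hfg _).1 h1
    have h2 : π' x' = 0 := by rw [← hδ t x x' hx hx'.symm, h0]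
    obtain ⟨y', hy'⟩ := (hM'.ker _).1 h2
    have h3 : p • (x - f y') = 0 := by
      rw [smul_sub, ← hx', hy', map_nsmul, sub_self]
    obtain ⟨s, hs⟩ := (hT.mem _).1 h3
    refine ⟨s, hT''.inj ?_⟩
    rw [hb, hs, map_sub, hx, (hfg _).2 ⟨y', rfl⟩, sub_zero]
  · rintro ⟨s, rfl⟩
    rw [hδ (b.hom s) (ι s) 0 (hb s).symm (by rw [map_zero]; exact (hT.mem _).2 ⟨s, rfl⟩),
      map_zero]

include hg hfg hT'' hM' hM hδ hc in
lemma hba_ex_M' : Function.Exact δ.hom c.hom := by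
  intro m
  constructor
  · intro h0
    obtain ⟨x', rfl⟩ := hM'.surj m
    rw [hc] at h0
    obtain ⟨x, hx⟩ := (hM.ker _).1 h0
    have h1 : p • g x = 0 := by
      rw [← map_nsmul, ← hx]
      exact (hfg _).2 ⟨x', rfl⟩
    obtain ⟨t, ht⟩ := (hT''.mem _).1 h1
    exact ⟨t, hδ t x x' ht.symm hx.symm⟩
  · rintro ⟨t, rfl⟩
    obtain ⟨x, hx⟩ := hg (ι'' t)
    have h1 : g (p • x) = 0 := by
      rw [map_nsmul, hx]
      exact (hT''.mem _).2 ⟨t, rfl⟩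
    obtain ⟨x', hx'⟩ := (hfg _).1 h1
    rw [hδ t x x' hx hx'.symm, hc, hx']
    exact (hM.ker _).2 ⟨x, rfl⟩

include hg hfg hM' hM hM'' hc hd in
lemma hba_ex_M : Function.Exact c.hom d.hom := by
  intro m
  constructor
  · intro h0
    obtain ⟨x, rfl⟩ := hM.surj m
    rw [hd] at h0
    obtain ⟨y'', hy''⟩ := (hM''.ker _).1 h0
    obtain ⟨y, rfl⟩ := hg y''
    have h1 : g (x - p • y) = 0 := by rw [map_sub, hy'', map_nsmul, sub_self]
    obtain ⟨x', hx'⟩ := (hfg _).1 h1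
    refine ⟨π' x', ?_⟩
    rw [hc, hx', map_sub, (hM.ker (p • y)).2 ⟨y, rfl⟩, sub_zero]
  · rintro ⟨m', rfl⟩
    obtain ⟨x', rfl⟩ := hM'.surj m'
    rw [hc, hd, (hfg _).2 ⟨x', rfl⟩, map_zero]

include hg hM hM'' hd in
lemma hba_d_surj : Function.Surjective d.hom := by
  intro m''
  obtain ⟨x'', rfl⟩ := hM''.surj m''
  obtain ⟨x, rfl⟩ := hg x''
  exact ⟨π x, hd x⟩

end snake

section main

attribute [-instance] AddCommGroup.toIntModule

/-- **H-add.** -/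
theorem stmtHerbAdd : StmtHerbAdd := by
  intro p _ Γ _ ψ hψ X' X X'' f g hX hfi hgs hex M' T' M T M'' T'' hM' hT' hM hT hM'' hT''
  have fT : Module.Finite (ZMod p) T.V := hbm_torP_finite X hX T hT
  have fM : Module.Finite (ZMod p) M.V := hbm_modP_finite X hX M hM
  let fA : X'.V →+ X.V := f.hom.toLinearMap.toAddMonoidHom
  let gA : X.V →+ X''.V := g.hom.toLinearMap.toAddMonoidHom
  have hf : Function.Injective fA := hfi
  have hg : Function.Surjective gA := hgs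
  have hfg : ∀ x, gA x = 0 ↔ ∃ x', fA x' = x := fun x => hex x
  have hfe : ∀ γ x, fA (X'.ρ γ x) = X.ρ γ (fA x) := fun γ x => Rep.hom_comm_apply f γ x
  have hge : ∀ γ x, gA (X.ρ γ x) = X''.ρ γ (gA x) := fun γ x => Rep.hom_comm_apply g γ x
  have hX'' : IsFG X'' := by
    haveI : AddGroup.FG X.V := hX
    exact AddGroup.fg_of_surjective (f := gA) hg
  have hX' : IsFG X' := hbm_fg_of_injective fA hf hX
  have fT'' : Module.Finite (ZMod p) T''.V := hbm_torP_finite X'' hX'' T'' hT''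
  have fM' : Module.Finite (ZMod p) M'.V := hbm_modP_finite X' hX' M' hM'
  obtain ⟨π', hπ's, hπ'e, hπ'k⟩ := hM'
  obtain ⟨ι', hι'i, hι'e, hι'm⟩ := hT'
  obtain ⟨π, hπs, hπe, hπk⟩ := hM
  obtain ⟨ι, hιi, hιe, hιm⟩ := hT
  obtain ⟨π'', hπ''s, hπ''e, hπ''k⟩ := hM''
  obtain ⟨ι'', hι''i, hι''e, hι''m⟩ := hT''
  have sM' : HbaMod p X' M' π' := ⟨hπ's, hπ'e, hπ'k⟩
  have sT' : HbaTor p X' T' ι' := ⟨hι'i, hι'e, hι'm⟩
  have sM : HbaMod p X M π := ⟨hπs, hπe, hπk⟩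
  have sT : HbaTor p X T ι := ⟨hιi, hιe, hιm⟩
  have sM'' : HbaMod p X'' M'' π'' := ⟨hπ''s, hπ''e, hπ''k⟩
  have sT'' : HbaTor p X'' T'' ι'' := ⟨hι''i, hι''e, hι''m⟩
  obtain ⟨a, ha⟩ := hba_torMap sT' sT fA hfe
  obtain ⟨b, hb⟩ := hba_torMap sT sT'' gA hge
  obtain ⟨δ, hδ⟩ := hba_delta hf hg hfg hfe hge sT'' sM'
  obtain ⟨c, hc⟩ := hba_modMap sM' sM fA hfe
  obtain ⟨d, hd⟩ := hba_modMap sM sM'' gA hge
  exact hba_six hψ a b δ c d fT fT'' fM' fM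
    (hba_a_inj (hf := hf) (hT' := sT') (hT := sT) (ha := ha))
    (hba_d_surj (hg := hg) (hM := sM) (hM'' := sM'') (hd := hd))
    (hba_ex_T (hf := hf) (hfg := hfg) (hT' := sT') (hT := sT) (hT'' := sT'') (ha := ha)
      (hb := hb))
    (hba_ex_T'' (hf := hf) (hg := hg) (hfg := hfg) (hT := sT) (hT'' := sT'') (hM' := sM')
      (hb := hb) (hδ := hδ))
    (hba_ex_M' (hg := hg) (hfg := hfg) (hT'' := sT'') (hM' := sM') (hM := sM) (hδ := hδ)
      (hc := hc))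
    (hba_ex_M (hg := hg) (hfg := hfg) (hM' := sM') (hM := sM) (hM'' := sM'') (hc := hc)
      (hd := hd))

end main

end Fermat.Agent.TW.E
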