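import Fermat.Agent.TW.E.Plan2
import Fermat.Agent.TW.E.HerbAdd
import Fermat.Agent.PT.B.KernelField
import Fermat.Agent.PT.B.CycloField

/-!
# TW-E / E-cyc, piece Y-red (helper82): `stmtCycRed : StmtCycRed` (`StmtCycChi → StmtCyc`)

`U₀` a normal level, `C ≤ Γ₀ = G_ℚ ⧸ U₀` of order prime to `p`, `M` a representation of `C`.

* `cycred_level` : `U₁ := U₀ ⊓ ker χ` is a (normal) level of `towerS S` (`χ` = the mod `p`
  cyclotomic character, `p ∈ S`), on which `χ` is trivial;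
* `cycredPi : G ⧸ U₁ →* G ⧸ U₀`, `cycredC1 = ` the preimage `C₁` of `C`, `cycredM1 = res M`;
* `cycred_card_coprime` : `|C₁|` divides `|C| · (p - 1)`, hence is prime to `p`;
* `cycred_iso` : `infl coind_C^{Γ₀} M ≅ infl coind_{C₁}^{Γ₁} (res M)` (`f ↦ f ∘ π`);
* `cycred_ecFormula_of_iso` : `ECFormula` is invariant under isomorphisms (functoriality of
  `H⁰`, `H¹_lev`, `H²_lev`, `CycFun.lean`).
-/

set_option autoImplicit false
set_option linter.unusedSectionVars false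
set_option linter.style.haveILetI false

noncomputable section

namespace Fermat.Agent.TW.E

open CategoryTheory groupCohomology Module Fermat.Agent.PT Fermat.Agent.PT.F Fermat.Agent.PT.B
  Fermat.Agent.TW.F ExtCitation

/-! ### Invariance of the terms of the formula under isomorphisms -/

section Iso

variable {k : Type} [Field k] {G : Type} [Group G] (𝒯 : Tower G)

/-- `H²_lev` of isomorphic representations -/
def cycredH2Equiv {A B : Rep.{0} k G} (e : A ≅ B) : levH2 𝒯 A ≃ₗ[k] levH2 𝒯 B :=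
  LinearEquiv.ofLinearMap (levH2Map 𝒯 e.hom) (levH2Map 𝒯 e.inv)
    (by rw [← levH2Map_comp, e.inv_hom_id, levH2Map_id])
    (by rw [← levH2Map_comp, e.hom_inv_id, levH2Map_id])

/-- `H¹_lev` of isomorphic representations -/
def cycredH1Equiv {A B : Rep.{0} k G} (e : A ≅ B) : ↥(levH1 𝒯 A) ≃ₗ[k] ↥(levH1 𝒯 B) :=
  LinearEquiv.ofLinearMap (levH1Map 𝒯 e.hom) (levH1Map 𝒯 e.inv)
    (by rw [← levH1Map_comp, e.inv_hom_id, levH1Map_id])
    (by rw [← levH1Map_comp, e.hom_inv_id, levH1Map_id])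

/-- the invariants of isomorphic representations -/
def cycredInvEquiv {A B : Rep.{0} k G} (e : A ≅ B) :
    ↥(A.ρ.invariants) ≃ₗ[k] ↥(B.ρ.invariants) :=
  LinearEquiv.ofLinearMap (invMap e.hom) (invMap e.inv)
    (by rw [← invMap_comp, e.inv_hom_id, invMap_id])
    (by rw [← invMap_comp, e.hom_inv_id, invMap_id])

theorem cycred_hom_inv_apply {A B : Rep.{0} k G} (e : A ≅ B) (x : A.V) :
    e.inv.hom (e.hom.hom x) = x := by
  simp

theorem cycred_inv_hom_apply {A B : Rep.{0} k G} (e : A ≅ B) (y : B.V) :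
    e.hom.hom (e.inv.hom y) = y := by
  simp

/-- the underlying spaces of isomorphic representations -/
def cycredVEquiv {A B : Rep.{0} k G} (e : A ≅ B) : A.V ≃ₗ[k] B.V :=
  LinearEquiv.ofLinearMap e.hom.hom.toLinearMap e.inv.hom.toLinearMap
    (LinearMap.ext fun y => cycred_inv_hom_apply e y)
    (LinearMap.ext fun x => cycred_hom_inv_apply e x)

end Iso

/-- **`ECFormula` is invariant under isomorphisms.** -/
theorem cycred_ecFormula_of_iso {p : ℕ} [Fact p.Prime] (S : Finset Nat.Primes)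
    {B B' : Rep.{0} (ZMod p) GQ} (e : B ≅ B') (h : ECFormula p S B) : ECFormula p S B' := by
  obtain ⟨hfin, heq⟩ := h
  have e2 := cycredH2Equiv (towerS S) e
  have e1 := cycredH1Equiv (towerS S) e
  have e0 := cycredInvEquiv e
  have eV := cycredVEquiv e
  have ec : ↥((Rep.res archimedeanLoc B).ρ.invariants) ≃ₗ[ZMod p]
      ↥((Rep.res archimedeanLoc B').ρ.invariants) :=
    cycredInvEquiv ((Rep.resFunctor archimedeanLoc).mapIso e)
  refine ⟨?_, ?_⟩
  · haveI := hfin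
    exact Module.Finite.equiv e2
  · rw [← e2.finrank_eq, ← e1.finrank_eq, ← e0.finrank_eq, ← eV.finrank_eq, ← ec.finrank_eq]
    exact heq

/-! ### The level `U₀ ⊓ ker χ` -/

/-- `U₀ ⊓ ker χ` is a level of `towerS S` (`p ∈ S`). -/
theorem cycred_level (p : ℕ) [Fact p.Prime] (S : Finset Nat.Primes) (hpS : pPrime p ∈ S)
    (U₀ : Subgroup GQ) [U₀.Normal] (hU₀ : U₀ ∈ (towerS S).lev) :
    U₀ ⊓ (cycloChar p).ker ∈ (towerS S).lev := by
  obtain ⟨F₀, hF₀, hU⟩ := hU₀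
  obtain ⟨L, hL, hLχ⟩ := stmtCycloField p S hpS
  have hLker : L.fixingSubgroup ≤ (cycloChar p).ker := fun s hs => MonoidHom.mem_ker.2 (hLχ s hs)
  haveI : (U₀ ⊓ (cycloChar p).ker).Normal := inferInstance
  have hsup := hF₀.sup hL.1
  obtain ⟨hT, hfix⟩ := isTowerField_fixedField_of_normal S (U₀ ⊓ (cycloChar p).ker) (F₀ ⊔ L)
    hsup.1
    (by
      rw [IntermediateField.fixingSubgroup_sup, hU]
      exact inf_le_inf le_rfl hLker)
    (fun q hq A hA => le_inf (hU ▸ hF₀.2 q hq A hA) ((hL.1.2 q hq A hA).trans hLker))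
  exact ⟨_, hT.1, hfix.symm⟩

/-! ### The preimage of `C` and the coinduced representations -/

section Coind

variable {G : Type} [Group G] (U₀ U₁ : Subgroup G) [U₀.Normal] [U₁.Normal] (h10 : U₁ ≤ U₀)

/-- the projection `G ⧸ U₁ → G ⧸ U₀` -/
def cycredPi : G ⧸ U₁ →* G ⧸ U₀ := QuotientGroup.map U₁ U₀ (MonoidHom.id G) h10

@[simp] theorem cycredPi_mk (g : G) : cycredPi U₀ U₁ h10 (g : G ⧸ U₁) = (g : G ⧸ U₀) := rfl

theorem cycredPi_surjective : Function.Surjective (cycredPi U₀ U₁ h10) := by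
  intro γ
  induction γ using QuotientGroup.induction_on with
  | H g => exact ⟨(g : G ⧸ U₁), rfl⟩

theorem cycredPi_eq_one_iff (g : G) : cycredPi U₀ U₁ h10 (g : G ⧸ U₁) = 1 ↔ g ∈ U₀ := by
  rw [cycredPi_mk]
  exact QuotientGroup.eq_one_iff g

variable (C : Subgroup (G ⧸ U₀))

/-- the preimage `C₁` of `C` in `G ⧸ U₁` -/
def cycredC1 : Subgroup (G ⧸ U₁) := C.comap (cycredPi U₀ U₁ h10)

/-- the projection `C₁ → C` -/
def cycredPiC : cycredC1 U₀ U₁ h10 C →* C := (cycredPi U₀ U₁ h10).subgroupComap C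

@[simp] theorem cycredPiC_coe (c : cycredC1 U₀ U₁ h10 C) :
    ((cycredPiC U₀ U₁ h10 C c : C) : G ⧸ U₀) = cycredPi U₀ U₁ h10 (c : G ⧸ U₁) := rfl

/-- **`|C₁|` is prime to `p`**: `C₁` embeds in `C × 𝔽_p^×`. -/
theorem cycred_card_coprime {p : ℕ} [Fact p.Prime] (χ : G →* (ZMod p)ˣ)
    (hU₁ : ∀ g, g ∈ U₁ ↔ g ∈ U₀ ∧ χ g = 1) (hC : (Nat.card C).Coprime p) :
    (Nat.card (cycredC1 U₀ U₁ h10 C)).Coprime p := by
  have hp : p.Prime := Fact.out
  let χ₁ : G ⧸ U₁ →* (ZMod p)ˣ := QuotientGroup.lift U₁ χ (fun g hg => ((hU₁ g).1 hg).2)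
  let φ : cycredC1 U₀ U₁ h10 C →* C × (ZMod p)ˣ :=
    (cycredPiC U₀ U₁ h10 C).prod (χ₁.comp (cycredC1 U₀ U₁ h10 C).subtype)
  have hinj : Function.Injective φ := by
    rw [injective_iff_map_eq_one]
    rintro ⟨γ, hγ⟩ h1
    induction γ using QuotientGroup.induction_on with
    | H g =>
      have h2 : cycredPiC U₀ U₁ h10 C ⟨(g : G ⧸ U₁), hγ⟩ = 1 := congrArg Prod.fst h1
      have h3 : χ₁ (g : G ⧸ U₁) = 1 := congrArg Prod.snd h1
      have h4 : g ∈ U₀ := by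
        rw [← cycredPi_eq_one_iff U₀ U₁ h10]
        have := congrArg (Subtype.val) h2
        simpa using this
      have h5 : χ g = 1 := h3
      have h6 : g ∈ U₁ := (hU₁ g).2 ⟨h4, h5⟩
      apply Subtype.ext
      exact (QuotientGroup.eq_one_iff g).2 h6
  have hdvd := Subgroup.card_dvd_of_injective φ hinj
  rw [Nat.card_prod] at hdvd
  have hunits : Nat.card (ZMod p)ˣ = p - 1 := by
    rw [Nat.card_eq_fintype_card, ZMod.card_units_eq_totient, Nat.totient_prime hp]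
  rw [hunits] at hdvd
  have h1 : (p - 1).Coprime p := by
    have hp2 := hp.two_le
    apply Nat.Coprime.symm
    rw [Nat.Prime.coprime_iff_not_dvd hp]
    intro hd
    have := Nat.le_of_dvd (by omega) hd
    omega
  exact Nat.Coprime.coprime_dvd_left hdvd (Nat.Coprime.mul_left hC h1)

variable {k : Type} [Field k] (M : Rep.{0} k C)

/-- the restriction of `M` to `C₁` -/
abbrev cycredM1 : Rep.{0} k (cycredC1 U₀ U₁ h10 C) := Rep.res (cycredPiC U₀ U₁ h10 C) M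

/-- `f ↦ f ∘ π` on the coinduced modules -/
def cycredLin :
    ↥(Representation.coindV C.subtype M.ρ) →ₗ[k]
      ↥(Representation.coindV (cycredC1 U₀ U₁ h10 C).subtype (cycredM1 U₀ U₁ h10 C M).ρ) :=
  (LinearMap.funLeft k M.V (cycredPi U₀ U₁ h10)).restrict fun f hf c γ => by
    show f (cycredPi U₀ U₁ h10 ((c : G ⧸ U₁) * γ)) = M.ρ (cycredPiC U₀ U₁ h10 C c)
      (f (cycredPi U₀ U₁ h10 γ))
    rw [map_mul]
    exact hf (cycredPiC U₀ U₁ h10 C c) (cycredPi U₀ U₁ h10 γ)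

@[simp] theorem cycredLin_apply (f : ↥(Representation.coindV C.subtype M.ρ)) (γ : G ⧸ U₁) :
    (cycredLin U₀ U₁ h10 C M f).1 γ = f.1 (cycredPi U₀ U₁ h10 γ) := rfl

/-- `f ↦ f ∘ π` as a morphism of representations of `G` -/
def cycredHom :
    Rep.res (QuotientGroup.mk' U₀) (Rep.coind C.subtype M) ⟶
      Rep.res (QuotientGroup.mk' U₁)
        (Rep.coind (cycredC1 U₀ U₁ h10 C).subtype (cycredM1 U₀ U₁ h10 C M)) :=
  Rep.ofHom (ρ := (Representation.coind C.subtype M.ρ).comp (QuotientGroup.mk' U₀))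
    (σ := (Representation.coind (cycredC1 U₀ U₁ h10 C).subtype
      (cycredM1 U₀ U₁ h10 C M).ρ).comp (QuotientGroup.mk' U₁))
    ⟨cycredLin U₀ U₁ h10 C M, fun g => LinearMap.ext fun f => Subtype.ext (funext fun γ => by
      show f.1 (cycredPi U₀ U₁ h10 γ * (QuotientGroup.mk' U₀ g))
        = f.1 (cycredPi U₀ U₁ h10 (γ * (QuotientGroup.mk' U₁ g)))
      rw [map_mul]
      rfl)⟩

theorem cycredHom_apply
    (f : (Rep.res (QuotientGroup.mk' U₀) (Rep.coind C.subtype M)).V) :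
    (cycredHom U₀ U₁ h10 C M).hom f = cycredLin U₀ U₁ h10 C M f := rfl

theorem cycredHom_bijective : Function.Bijective (cycredHom U₀ U₁ h10 C M).hom := by
  constructor
  · intro f f' hff
    have h1 : cycredLin U₀ U₁ h10 C M f = cycredLin U₀ U₁ h10 C M f' := hff
    apply Subtype.ext
    funext γ
    obtain ⟨γ₁, rfl⟩ := cycredPi_surjective U₀ U₁ h10 γ
    have h2 := congrFun (congrArg Subtype.val h1) γ₁
    exact h2
  · intro F
    -- `F` is constant on the fibres of `π`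
    have hF : ∀ (c : cycredC1 U₀ U₁ h10 C) (γ : G ⧸ U₁),
        (F : ↥(Representation.coindV (cycredC1 U₀ U₁ h10 C).subtype
          (cycredM1 U₀ U₁ h10 C M).ρ)).1 ((c : G ⧸ U₁) * γ)
          = M.ρ (cycredPiC U₀ U₁ h10 C c) (F.1 γ) := fun c γ => F.2 c γ
    have hconst : ∀ γ γ' : G ⧸ U₁, cycredPi U₀ U₁ h10 γ = cycredPi U₀ U₁ h10 γ' →
        F.1 γ = F.1 γ' := by
      intro γ γ' hγ
      have hk : cycredPi U₀ U₁ h10 (γ * γ'⁻¹) = 1 := by
        rw [map_mul, map_inv, hγ, mul_inv_cancel]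
      have hkC : γ * γ'⁻¹ ∈ cycredC1 U₀ U₁ h10 C := by
        show cycredPi U₀ U₁ h10 (γ * γ'⁻¹) ∈ C
        rw [hk]
        exact one_mem C
      have h1 := hF ⟨γ * γ'⁻¹, hkC⟩ γ'
      have h2 : cycredPiC U₀ U₁ h10 C ⟨γ * γ'⁻¹, hkC⟩ = 1 := Subtype.ext hk
      rw [h2, map_one] at h1
      simpa using h1
    let s : G ⧸ U₀ → G ⧸ U₁ := Function.surjInv (cycredPi_surjective U₀ U₁ h10)
    have hs : ∀ γ, cycredPi U₀ U₁ h10 (s γ) = γ :=
      Function.surjInv_eq (cycredPi_surjective U₀ U₁ h10)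
    refine ⟨⟨fun γ => F.1 (s γ), fun c γ => ?_⟩, ?_⟩
    · obtain ⟨c₁, hc₁⟩ := cycredPi_surjective U₀ U₁ h10 (c : G ⧸ U₀)
      have hc₁C : c₁ ∈ cycredC1 U₀ U₁ h10 C := by
        show cycredPi U₀ U₁ h10 c₁ ∈ C
        rw [hc₁]
        exact c.2
      have h1 := hF ⟨c₁, hc₁C⟩ (s γ)
      have h2 : cycredPiC U₀ U₁ h10 C ⟨c₁, hc₁C⟩ = c := Subtype.ext hc₁
      rw [h2] at h1
      show F.1 (s (C.subtype c * γ)) = M.ρ c (F.1 (s γ))
      rw [← h1]
      apply hconst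
      rw [hs, map_mul, hs, hc₁]
      rfl
    · apply Subtype.ext
      funext γ
      show F.1 (s (cycredPi U₀ U₁ h10 γ)) = F.1 γ
      exact hconst _ _ (hs _)

/-- **`infl coind_C^{Γ₀} M ≅ infl coind_{C₁}^{Γ₁} (res M)`** -/
theorem cycred_iso :
    Nonempty (Rep.res (QuotientGroup.mk' U₀) (Rep.coind C.subtype M) ≅
      Rep.res (QuotientGroup.mk' U₁)
        (Rep.coind (cycredC1 U₀ U₁ h10 C).subtype (cycredM1 U₀ U₁ h10 C M))) :=
  hba_iso_of_bijective _ (cycredHom_bijective U₀ U₁ h10 C M)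

end Coind

/-! ### Y-red -/

/-- **Y-red.** `StmtCyc` from the levels trivialising `χ`. -/
theorem stmtCycRed : StmtCycRed := by
  intro hchi p _ hp2 S hpS hcg hcl hh hex hsv U₀ _ hU₀ C _ hCcop M hM
  obtain ⟨U₁, hU₁def⟩ : ∃ U₁ : Subgroup GQ, U₁ = U₀ ⊓ (cycloChar p).ker := ⟨_, rfl⟩
  haveI hn : U₁.Normal := by
    rw [hU₁def]
    infer_instance
  have hU₁ : U₁ ∈ (towerS S).lev := by
    rw [hU₁def]
    exact cycred_level p S hpS U₀ hU₀
  have hmem : ∀ g, g ∈ U₁ ↔ g ∈ U₀ ∧ cycloChar p g = 1 := by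
    intro g
    rw [hU₁def, Subgroup.mem_inf, MonoidHom.mem_ker]
  have hχ : ∀ s ∈ U₁, cycloChar p s = 1 := fun s hs => ((hmem s).1 hs).2
  have h10 : U₁ ≤ U₀ := fun g hg => ((hmem g).1 hg).1
  have hcop : (Nat.card (cycredC1 U₀ U₁ h10 C)).Coprime p :=
    cycred_card_coprime U₀ U₁ h10 C (cycloChar p) hmem hCcop
  have key := hchi p hp2 S hpS hcg hcl hh hex hsv U₁ hU₁ hχ (cycredC1 U₀ U₁ h10 C) hcop
    (cycredM1 U₀ U₁ h10 C M) hM
  obtain ⟨e⟩ := cycred_iso U₀ U₁ h10 C M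
  exact cycred_ecFormula_of_iso S e.symm key

end Fermat.Agent.TW.E
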