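import Fermat.Agent.TW.E.Plan2
import Fermat.Agent.TW.E.HerbAdd

/-!
# TW-E / E-cyc, piece Y-spl1 (helper82): `stmtKumSplice : StmtKumSplice`

Pure algebra.  For a Kummer sequence `X —p→ X —a→ V —b→ Y —p→ Y` of `Γ`-modules (`V` an
`𝔽_p`-representation of finite dimension), a model `M` of `X / pX` and a model `T` of `Y[p]`,
there is a short exact sequence `0 → M → V → T → 0` of `𝔽_p`-representations, hence
`ψ V = ψ M + ψ T` for every additive function `ψ`.
-/

set_option autoImplicit false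
set_option linter.unusedSectionVars false

namespace Fermat.Agent.TW.E

open CategoryTheory

section

variable {p : ℕ} [hp : Fact p.Prime] {Γ : Type} [Group Γ]

/-- the short exact sequence `0 → X/p → V → Y[p] → 0` of a Kummer sequence -/
theorem cycspl1_exists_ses {X Y : Rep.{0} ℤ Γ} {V M T : Rep.{0} (ZMod p) Γ}
    (hK : IsKumSeq p X V Y) (hM : IsModP p X M) (hT : IsTorP p Y T) :
    ∃ (u : M ⟶ V) (w : V ⟶ T), Function.Injective u.hom ∧ Function.Surjective w.hom ∧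
      Function.Exact u.hom w.hom := by
  obtain ⟨a, b, hae, hbe, hka, hkb, hib⟩ := hK
  obtain ⟨f, hfs, hfe, hfk⟩ := hM
  obtain ⟨f', hf'i, hf'e, hf'm⟩ := hT
  -- `a` factors through `f`
  have key : ∀ x y, f x = f y → a x = a y := by
    intro x y hxy
    rw [← sub_eq_zero, ← map_sub, hfk] at hxy
    rw [← sub_eq_zero, ← map_sub]
    exact (hka _).2 hxy
  obtain ⟨u, hu⟩ := hba_mkHom M V (fun m v => ∃ x, f x = m ∧ a x = v)
    (fun m => by
      obtain ⟨x, rfl⟩ := hfs m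
      exact ⟨_, x, rfl, rfl⟩)
    (fun m v v' h1 h2 => by
      obtain ⟨x, rfl, rfl⟩ := h1
      obtain ⟨y, hy, rfl⟩ := h2
      exact key _ _ hy.symm)
    (fun m v m' v' h1 h2 => by
      obtain ⟨x, rfl, rfl⟩ := h1
      obtain ⟨y, rfl, rfl⟩ := h2
      exact ⟨x + y, map_add _ _ _, map_add _ _ _⟩)
    (fun γ m v h1 => by
      obtain ⟨x, rfl, rfl⟩ := h1
      exact ⟨X.ρ γ x, hfe γ x, hae γ x⟩)
  have hu' : ∀ x, u.hom (f x) = a x := by
    intro x
    obtain ⟨y, hy1, hy2⟩ := hu (f x)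
    rw [← hy2]
    exact key _ _ hy1
  -- `b` corestricts to `T`
  obtain ⟨w, hw⟩ := hba_mkHom V T (fun v t => f' t = b v)
    (fun v => (hf'm _).1 ((hib _).2 ⟨v, rfl⟩))
    (fun v t t' h1 h2 => hf'i (h1.trans h2.symm))
    (fun v t v' t' h1 h2 => by rw [map_add, map_add, h1, h2])
    (fun γ v t h1 => by rw [hf'e, hbe, h1])
  refine ⟨u, w, ?_, ?_, ?_⟩
  · -- injectivity
    intro m m' hmm
    obtain ⟨x, rfl⟩ := hfs m
    obtain ⟨y, rfl⟩ := hfs m'
    rw [hu', hu'] at hmm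
    rw [← sub_eq_zero, ← map_sub] at hmm ⊢
    exact (hfk _).2 ((hka _).1 hmm)
  · -- surjectivity
    intro t
    obtain ⟨v, hv⟩ := (hib _).1 ((hf'm _).2 ⟨t, rfl⟩)
    exact ⟨v, hf'i ((hw v).trans hv)⟩
  · -- exactness
    intro v
    constructor
    · intro h0
      have h1 : b v = 0 := by rw [← hw v, h0, map_zero]
      obtain ⟨x, hx⟩ := (hkb _).1 h1
      exact ⟨f x, (hu' x).trans hx⟩
    · rintro ⟨m, rfl⟩
      obtain ⟨x, rfl⟩ := hfs m
      apply hf'i
      rw [hw, hu', map_zero]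
      exact (hkb _).2 ⟨x, rfl⟩

end

/-- **Y-spl1.** `ψ(V) = ψ(X/p) + ψ(Y[p])` for a Kummer sequence. -/
theorem stmtKumSplice : StmtKumSplice := by
  intro p _ Γ _ ψ hψ X Y V hV hK M T hM hT
  obtain ⟨u, w, hu, hw, hex⟩ := cycspl1_exists_ses hK hM hT
  exact hψ.add M V T u w hV hu hw hex

end Fermat.Agent.TW.E
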