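import Fermat.Agent.TW.E.Plan2
import Fermat.Agent.TW.E.HerbAdd

/-!
# TW-E / E-cyc, piece Y-spl2 (helper82): `stmtTorSplice : StmtTorSplice`

Pure algebra.  For a sequence `X —i→ Y —π→ Z` of `Γ`-modules which is short exact on the
`p`-torsion and models `T`, `TJ`, `TC` of `X[p]`, `Y[p]`, `Z[p]`, there is a short exact sequence
`0 → T → TJ → TC → 0` of `𝔽_p`-representations, hence `ψ TJ = ψ T + ψ TC` for every additive
function `ψ`.
-/

set_option autoImplicit false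
set_option linter.unusedSectionVars false

namespace Fermat.Agent.TW.E

open CategoryTheory

section

variable {p : ℕ} [hp : Fact p.Prime] {Γ : Type} [Group Γ]

/-- the short exact sequence `0 → X[p] → Y[p] → Z[p] → 0` of the models -/
theorem cycspl2_exists_ses {X Y Z : Rep.{0} ℤ Γ} {T TJ TC : Rep.{0} (ZMod p) Γ}
    (hS : IsTorSeq p X Y Z) (hT : IsTorP p X T) (hTJ : IsTorP p Y TJ) (hTC : IsTorP p Z TC) :
    ∃ (u : T ⟶ TJ) (w : TJ ⟶ TC), Function.Injective u.hom ∧ Function.Surjective w.hom ∧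
      Function.Exact u.hom w.hom := by
  obtain ⟨i, π, hie, hπe, hinj, hmid, hsurj⟩ := hS
  obtain ⟨fT, hTi, hTe, hTm⟩ := hT
  obtain ⟨fJ, hJi, hJe, hJm⟩ := hTJ
  obtain ⟨fC, hCi, hCe, hCm⟩ := hTC
  obtain ⟨u, hu⟩ := hba_torMap (p := p) (ι := fT) (κ := fJ) ⟨hTi, hTe, hTm⟩ ⟨hJi, hJe, hJm⟩ i hie
  obtain ⟨w, hw⟩ := hba_torMap (p := p) (ι := fJ) (κ := fC) ⟨hJi, hJe, hJm⟩ ⟨hCi, hCe, hCm⟩ π hπe
  refine ⟨u, w, ?_, ?_, ?_⟩
  · -- injectivity
    intro t t' htt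
    apply hTi
    have h1 : i (fT t) = i (fT t') := by rw [← hu, ← hu, htt]
    have h2 : fT (t - t') = 0 := by
      apply hinj _ ((hTm _).2 ⟨t - t', rfl⟩)
      rw [map_sub, map_sub, h1, sub_self]
    rw [map_sub, sub_eq_zero] at h2
    exact h2
  · -- surjectivity
    intro c
    obtain ⟨y, hy, hyc⟩ := hsurj (fC c) ((hCm _).2 ⟨c, rfl⟩)
    obtain ⟨s, rfl⟩ := (hJm _).1 hy
    exact ⟨s, hCi ((hw s).trans hyc)⟩
  · -- exactness
    intro s
    constructor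
    · intro h0
      have h1 : π (fJ s) = 0 := by rw [← hw s, h0, map_zero]
      obtain ⟨x, hx, hxs⟩ := (hmid _ ((hJm _).2 ⟨s, rfl⟩)).1 h1
      obtain ⟨t, rfl⟩ := (hTm _).1 hx
      exact ⟨t, hJi ((hu t).trans hxs)⟩
    · rintro ⟨t, rfl⟩
      apply hCi
      rw [hw, hu, map_zero]
      exact (hmid _ ((hJm _).2 ⟨u.hom t, by rw [hu]⟩)).2 ⟨fT t, (hTm _).2 ⟨t, rfl⟩, rfl⟩

end

/-- **Y-spl2.** `ψ(Y[p]) = ψ(X[p]) + ψ(Z[p])` for a sequence which is short exact on the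
`p`-torsion. -/
theorem stmtTorSplice : StmtTorSplice := by
  intro p _ Γ _ ψ hψ X Y Z hS T TJ TC hT hTJ hTC hfin
  obtain ⟨u, w, hu, hw, hex⟩ := cycspl2_exists_ses hS hT hTJ hTC
  exact hψ.add T TJ TC u w hfin hu hw hex

end Fermat.Agent.TW.E
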