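/-
TW-E / E-herb / H-perm (helper32): the permutation lattice `ℤ[S]`.  Its reduction modulo `p` is
`𝔽_p[S]` (`hbpRed`), it has no `p`-torsion (`hbp_torsionFree`), and the rank of its `H`-fixed
module is the number of `H`-orbits on `S` (`hbp_finrank`, through `hbpEquiv`: the fixed vectors are
the functions on the orbit space).

Main result: `stmtHerbPerm : StmtHerbPerm` (statement in `TW/E/HerbPlan.lean`).
-/
import Mathlib
import Fermat.Agent.TW.E.HerbPlan

set_option autoImplicit false
set_option linter.style.haveILetI false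
set_option linter.unusedSectionVars false
set_option linter.unusedVariables false

namespace Fermat.Agent.TW.E

open CategoryTheory

section

variable {Γ : Type} [Group Γ] {S : Type} [MulAction Γ S]

/-- the coefficients of a translate -/
lemma hbp_coeff_smul (k : Type) [Semiring k] (γ : Γ) (x : MonoidAlgebra k S) (s : S) :
    (Representation.ofMulAction k Γ S γ x).coeff (γ • s) = x.coeff s := by
  rw [Representation.ofMulAction_def]
  simp only [LinearMap.coe_comp, LinearEquiv.coe_coe, Function.comp_apply]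
  change (Finsupp.mapDomain (γ • ·) x.coeff) (γ • s) = x.coeff s
  exact Finsupp.mapDomain_apply (MulAction.injective γ) _ _

/-- the coefficients of a translate, second form -/
lemma hbp_coeff_smul' (k : Type) [Semiring k] (γ : Γ) (x : MonoidAlgebra k S) (s : S) :
    (Representation.ofMulAction k Γ S γ x).coeff s = x.coeff (γ⁻¹ • s) := by
  conv_lhs => rw [← smul_inv_smul γ s]
  exact hbp_coeff_smul k γ x _

/-- reduction of the coefficients modulo `p` -/
noncomputable def hbpRed (p : ℕ) (S : Type) : MonoidAlgebra ℤ S →+ MonoidAlgebra (ZMod p) S :=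
  (MonoidAlgebra.coeffAddEquiv (R := ZMod p) (M := S)).symm.toAddMonoidHom.comp
    ((Finsupp.mapRange.addMonoidHom (Int.castAddHom (ZMod p))).comp
      (MonoidAlgebra.coeffAddEquiv (R := ℤ) (M := S)).toAddMonoidHom)

lemma hbpRed_coeff (p : ℕ) (x : MonoidAlgebra ℤ S) (s : S) :
    (hbpRed p S x).coeff s = ((x.coeff s : ℤ) : ZMod p) := rfl

lemma hbp_ext {k : Type} [Semiring k] {x y : MonoidAlgebra k S}
    (h : ∀ s, x.coeff s = y.coeff s) : x = y :=
  MonoidAlgebra.coeff_injective (Finsupp.ext h)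

lemma hbp_nsmul_coeff {k : Type} [Semiring k] (n : ℕ) (x : MonoidAlgebra k S) (s : S) :
    (n • x).coeff s = n • x.coeff s := rfl

variable {p : ℕ} [hp : Fact p.Prime]

lemma hbpRed_surjective : Function.Surjective (hbpRed p S) := by
  intro y
  refine ⟨MonoidAlgebra.ofCoeff (Finsupp.mapRange (fun c : ZMod p => (c.val : ℤ)) (by simp)
    y.coeff), hbp_ext (fun s => ?_)⟩
  rw [hbpRed_coeff]
  simp

lemma hbpRed_equiv (γ : Γ) (x : MonoidAlgebra ℤ S) :
    hbpRed p S (Representation.ofMulAction ℤ Γ S γ x) =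
      Representation.ofMulAction (ZMod p) Γ S γ (hbpRed p S x) := by
  refine hbp_ext (fun s => ?_)
  rw [hbpRed_coeff, hbp_coeff_smul', hbp_coeff_smul', hbpRed_coeff]

lemma hbpRed_ker (x : MonoidAlgebra ℤ S) : hbpRed p S x = 0 ↔ ∃ y, x = p • y := by
  constructor
  · intro h
    have h1 : ∀ s, (p : ℤ) ∣ x.coeff s := by
      intro s
      rw [← ZMod.intCast_zmod_eq_zero_iff_dvd, ← hbpRed_coeff, h]
      rfl
    refine ⟨MonoidAlgebra.ofCoeff (Finsupp.mapRange (fun c : ℤ => c / p) (by simp) x.coeff),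
      hbp_ext (fun s => ?_)⟩
    rw [hbp_nsmul_coeff, nsmul_eq_mul]
    change x.coeff s = (p : ℤ) * (x.coeff s / p)
    rw [Int.mul_ediv_cancel' (h1 s)]
  · rintro ⟨y, rfl⟩
    refine hbp_ext (fun s => ?_)
    rw [hbpRed_coeff, hbp_nsmul_coeff, nsmul_eq_mul]
    simp

lemma hbp_torsionFree (x : MonoidAlgebra ℤ S) (h : p • x = 0) : x = 0 := by
  refine hbp_ext (fun s => ?_)
  have h1 : (p • x).coeff s = 0 := by rw [h]; rfl
  rw [hbp_nsmul_coeff, nsmul_eq_mul] at h1
  rcases mul_eq_zero.1 h1 with h2 | h2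
  · exact absurd (by exact_mod_cast h2) hp.out.ne_zero
  · exact h2

variable [Finite S]

/-- fixed vectors have coefficients constant on orbits -/
lemma hbp_fixed_coeff (H : Subgroup Γ) (x : MonoidAlgebra ℤ S)
    (hx : x ∈ fixedSub (Rep.ofMulAction ℤ Γ S) H) (h : Γ) (hh : h ∈ H) (s : S) :
    x.coeff (h • s) = x.coeff s := by
  have h1 : Representation.ofMulAction ℤ Γ S h x = x := hx h hh
  conv_lhs => rw [← h1]
  exact hbp_coeff_smul ℤ h x s

/-- functions constant on orbits give fixed vectors -/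
lemma hbp_fixed_of_const (H : Subgroup Γ) (c : S → ℤ)
    (hc : ∀ h ∈ H, ∀ s, c (h • s) = c s) :
    (MonoidAlgebra.ofCoeff (Finsupp.equivFunOnFinite.symm c) : MonoidAlgebra ℤ S) ∈
      fixedSub (Rep.ofMulAction ℤ Γ S) H := by
  intro h hh
  refine hbp_ext (fun s => ?_)
  change (Representation.ofMulAction ℤ Γ S h _).coeff s = _
  rw [hbp_coeff_smul']
  change c (h⁻¹ • s) = c s
  exact hc h⁻¹ (H.inv_mem hh) s

/-- the fixed vectors are the functions on the orbit space -/
noncomputable def hbpEquiv (H : Subgroup Γ) :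
    fixedSub (Rep.ofMulAction ℤ Γ S) H ≃+ (MulAction.orbitRel.Quotient H S → ℤ) where
  toFun x := fun q => Quotient.liftOn' q (fun s => (x.1 : MonoidAlgebra ℤ S).coeff s)
    (fun s t hst => by
      obtain ⟨h, rfl⟩ := hst
      exact hbp_fixed_coeff H x.1 x.2 h.1 h.2 t)
  invFun φ := ⟨MonoidAlgebra.ofCoeff (Finsupp.equivFunOnFinite.symm
      (fun s => φ (Quotient.mk'' s))),
    hbp_fixed_of_const H _ (fun h hh s => by
      congr 1
      exact Quotient.sound' ⟨⟨h, hh⟩, rfl⟩)⟩
  left_inv x := by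
    apply Subtype.ext
    exact hbp_ext (fun s => rfl)
  right_inv φ := by
    funext q
    induction q using Quotient.inductionOn' with
    | h s => rfl
  map_add' x y := by
    funext q
    induction q using Quotient.inductionOn' with
    | h s => rfl

/-- the rank of the fixed vectors is the number of orbits -/
lemma hbp_finrank (H : Subgroup Γ) :
    Module.finrank ℤ (fixedSub (Rep.ofMulAction ℤ Γ S) H) =
      Nat.card (MulAction.orbitRel.Quotient H S) := by
  haveI : Finite (MulAction.orbitRel.Quotient H S) := Quotient.finite _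
  haveI := Fintype.ofFinite (MulAction.orbitRel.Quotient H S)
  rw [LinearEquiv.finrank_eq (hbpEquiv (S := S) H).toIntLinearEquiv,
    Module.finrank_fintype_fun_eq_card, Nat.card_eq_fintype_card]

end

/-- **H-perm.** -/
theorem stmtHerbPerm : StmtHerbPerm := by
  intro p _ Γ _ S _ _
  refine ⟨⟨hbpRed p S, hbpRed_surjective, fun g x => hbpRed_equiv g x, fun x => hbpRed_ker x⟩,
    fun T hT => ?_, fun H => hbp_finrank H⟩
  obtain ⟨ι, hιi, -, hιm⟩ := hT
  refine ⟨fun a b => hιi ?_⟩
  rw [hbp_torsionFree (p := p) (ι a) ((hιm _).2 ⟨a, rfl⟩),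
    hbp_torsionFree (p := p) (ι b) ((hιm _).2 ⟨b, rfl⟩)]

end Fermat.Agent.TW.E
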