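/-
TW-E / E-herb / H-fin (helper32): `h_ψ(X) = ψ (X/pX) - ψ (X[p])` vanishes on finite modules.

Main result: `stmtHerbFin_of : StmtHerbAdd → StmtHerbModels → StmtHerbFin`
(statements in `TW/E/HerbPlan.lean`).

Proof.  Strong induction on `#X`.  If multiplication by `p` is surjective on `X`, it is bijective
and both `X / pX` and `X[p]` vanish.  Otherwise `0 → X[p] → X → pX → 0` and H-add give
`h(X) = h(X[p]) + h(pX)`; `h(pX) = 0` by induction, and `h(K) = 0` for `K = X[p]` since a model of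
`K / pK` is also a model of `K[p]`.
-/
import Mathlib
import Fermat.Agent.TW.E.HerbPlan

set_option autoImplicit false
set_option linter.style.haveILetI false
set_option linter.unusedSectionVars false
set_option linter.unusedVariables false

namespace Fermat.Agent.TW.E

open CategoryTheory

section

attribute [-instance] AddCommGroup.toIntModule

variable {p : ℕ} {Γ : Type} [Group Γ]

/-- multiplication by `p` on `X`, as a linear map -/
noncomputable def hbfMul (p : ℕ) (X : Rep.{0} ℤ Γ) : X.V →ₗ[ℤ] X.V :=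
  (p : ℤ) • (LinearMap.id : X.V →ₗ[ℤ] X.V)

lemma hbfMul_apply (X : Rep.{0} ℤ Γ) (x : X.V) : hbfMul p X x = p • x := by
  simp [hbfMul]

lemma hbfMul_comm (X : Rep.{0} ℤ Γ) (g : Γ) (x : X.V) :
    hbfMul p X (X.ρ g x) = X.ρ g (hbfMul p X x) := by
  rw [hbfMul_apply, hbfMul_apply, map_nsmul]

lemma hbf_ker_stable (X : Rep.{0} ℤ Γ) (g : Γ) :
    LinearMap.ker (hbfMul p X) ≤ (LinearMap.ker (hbfMul p X)).comap (X.ρ g) := by
  intro x hx
  rw [Submodule.mem_comap, LinearMap.mem_ker, hbfMul_comm, LinearMap.mem_ker.1 hx, map_zero]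

lemma hbf_range_stable (X : Rep.{0} ℤ Γ) (g : Γ) :
    LinearMap.range (hbfMul p X) ≤ (LinearMap.range (hbfMul p X)).comap (X.ρ g) := by
  rintro _ ⟨x, rfl⟩
  exact ⟨X.ρ g x, hbfMul_comm X g x⟩

/-- `X[p]` as a representation -/
noncomputable def hbfK (p : ℕ) (X : Rep.{0} ℤ Γ) : Rep.{0} ℤ Γ :=
  X.subrepresentation (LinearMap.ker (hbfMul p X)) (hbf_ker_stable X)

/-- `pX` as a representation -/
noncomputable def hbfY (p : ℕ) (X : Rep.{0} ℤ Γ) : Rep.{0} ℤ Γ :=
  X.subrepresentation (LinearMap.range (hbfMul p X)) (hbf_range_stable X)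

/-- the inclusion `X[p] → X` -/
noncomputable def hbfI (p : ℕ) (X : Rep.{0} ℤ Γ) : hbfK p X ⟶ X :=
  Rep.subtype X (LinearMap.ker (hbfMul p X)) (hbf_ker_stable X)

/-- multiplication by `p` as a morphism `X → pX` -/
noncomputable def hbfQ (p : ℕ) (X : Rep.{0} ℤ Γ) : X ⟶ hbfY p X :=
  Rep.ofHom (ρ := X.ρ)
    (σ := X.ρ.subrepresentation (LinearMap.range (hbfMul p X)) (hbf_range_stable X))
    ⟨(hbfMul p X).rangeRestrict, fun g => LinearMap.ext (fun x =>
      Subtype.ext (hbfMul_comm X g x))⟩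

lemma hbfI_injective (X : Rep.{0} ℤ Γ) : Function.Injective (hbfI p X).hom :=
  fun _ _ h => Subtype.ext h

lemma hbfQ_surjective (X : Rep.{0} ℤ Γ) : Function.Surjective (hbfQ p X).hom := by
  rintro ⟨_, x, rfl⟩
  exact ⟨x, rfl⟩

lemma hbfQ_val (X : Rep.{0} ℤ Γ) (x : X.V) :
    ((show LinearMap.range (hbfMul p X) from (hbfQ p X).hom x) : X.V) = hbfMul p X x := rfl

lemma hbf_exact (X : Rep.{0} ℤ Γ) : Function.Exact (hbfI p X).hom (hbfQ p X).hom := by
  intro x
  constructor
  · intro h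
    have h1 : hbfMul p X x = 0 := by
      rw [← hbfQ_val, h]
      rfl
    exact ⟨⟨x, h1⟩, rfl⟩
  · rintro ⟨⟨y, hy⟩, rfl⟩
    apply Subtype.ext
    exact hy

/-- elements of `X[p]` are killed by `p` -/
lemma hbfK_kill (X : Rep.{0} ℤ Γ) (y : (hbfK p X).V) : p • y = 0 := by
  obtain ⟨x, hx⟩ := y
  apply Subtype.ext
  have h1 : hbfMul p X x = 0 := hx
  rw [hbfMul_apply] at h1
  exact h1

/-- a model of `K / pK` is a model of `K[p]` if `K` is killed by `p` -/
lemma hbf_tor_of_mod (K : Rep.{0} ℤ Γ) (hK : ∀ y : K.V, p • y = 0) (M : Rep.{0} (ZMod p) Γ)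
    (hM : IsModP p K M) : IsTorP p K M := by
  obtain ⟨π, hπs, hπe, hπk⟩ := hM
  have hπi : Function.Injective π := by
    rw [injective_iff_map_eq_zero]
    intro x hx
    obtain ⟨y, rfl⟩ := (hπk x).1 hx
    exact hK y
  let e : K.V ≃+ M.V := AddEquiv.ofBijective π ⟨hπi, hπs⟩
  refine ⟨e.symm.toAddMonoidHom, e.symm.injective, fun g m => ?_, fun x => ?_⟩
  · apply hπi
    change e (e.symm (M.ρ g m)) = π (K.ρ g (e.symm m))
    rw [e.apply_symm_apply, hπe]
    change M.ρ g m = M.ρ g (e (e.symm m))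
    rw [e.apply_symm_apply]
  · constructor
    · intro _
      exact ⟨e x, e.symm_apply_apply x⟩
    · intro _
      exact hK x

/-- two representations on trivial modules have the same value under `ψ` -/
lemma hbf_subsingleton [Fact p.Prime] {ψ : Rep.{0} (ZMod p) Γ → ℤ} (hψ : IsAddFun ψ) (M T : Rep.{0} (ZMod p) Γ)
    (hM : ∀ m : M.V, m = 0) (hT : ∀ t : T.V, t = 0) : ψ M = ψ T := by
  haveI : Subsingleton M.V := ⟨fun a b => (hM a).trans (hM b).symm⟩
  haveI : Subsingleton T.V := ⟨fun a b => (hT a).trans (hT b).symm⟩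
  exact hψ.iso M T ⟨Rep.mkIso (ρ := M.ρ) (σ := T.ρ)
    (Representation.Equiv.mk (LinearEquiv.ofSubsingleton M.V T.V)
      (fun g => LinearMap.ext fun m => Subsingleton.elim _ _))⟩

/-- the induction -/
lemma hbf_main [Fact p.Prime] (hAdd : StmtHerbAdd) (hMod : StmtHerbModels) {ψ : Rep.{0} (ZMod p) Γ → ℤ}
    (hψ : IsAddFun ψ) :
    ∀ n : ℕ, ∀ X : Rep.{0} ℤ Γ, Finite X.V → Nat.card X.V = n →
      ∀ M T : Rep.{0} (ZMod p) Γ, IsModP p X M → IsTorP p X T → ψ M = ψ T := by
  intro n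
  induction n using Nat.strong_induction_on with
  | _ n ih =>
    intro X hXfin hcard M T hM hT
    by_cases hsurj : Function.Surjective (hbfMul p X)
    · have hinj : Function.Injective (hbfMul p X) := Finite.injective_iff_surjective.2 hsurj
      obtain ⟨π, hπs, -, hπk⟩ := hM
      obtain ⟨ι, hιi, -, hιm⟩ := hT
      refine hbf_subsingleton hψ M T (fun m => ?_) (fun t => ?_)
      · obtain ⟨x, rfl⟩ := hπs m
        obtain ⟨y, hy⟩ := hsurj x
        exact (hπk x).2 ⟨y, by rw [← hy, hbfMul_apply]⟩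
      · apply hιi
        rw [map_zero]
        apply hinj
        rw [hbfMul_apply, map_zero]
        exact (hιm _).2 ⟨t, rfl⟩
    · obtain ⟨⟨MK, hMK⟩, -, -, -, -, -⟩ := hMod p Γ (hbfK p X)
      obtain ⟨⟨MY, hMY⟩, ⟨TY, hTY⟩, -, -, -, -⟩ := hMod p Γ (hbfY p X)
      have hTK : IsTorP p (hbfK p X) MK := hbf_tor_of_mod (hbfK p X) (hbfK_kill X) MK hMK
      have hYfin : Finite (hbfY p X).V :=
        Finite.of_injective (fun y : LinearMap.range (hbfMul p X) => (y : X.V))
          Subtype.val_injective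
      have hlt : Nat.card (hbfY p X).V < n := by
        rw [← hcard]
        haveI := Fintype.ofFinite X.V
        haveI := Fintype.ofFinite (hbfY p X).V
        rw [Nat.card_eq_fintype_card, Nat.card_eq_fintype_card]
        refine Fintype.card_lt_of_injective_not_surjective
          (fun y : LinearMap.range (hbfMul p X) => (y : X.V)) Subtype.val_injective
          (fun h => hsurj (fun x => ?_))
        obtain ⟨⟨_, z, rfl⟩, rfl⟩ := h x
        exact ⟨z, rfl⟩
      have hY := ih _ hlt (hbfY p X) hYfin rfl MY TY hMY hTY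
      have hXfg : IsFG X := by
        unfold IsFG
        infer_instance
      have key := hAdd p Γ ψ hψ (hbfK p X) X (hbfY p X) (hbfI p X) (hbfQ p X) hXfg
        (hbfI_injective X) (hbfQ_surjective X) (hbf_exact X) MK MK M T MY TY hMK hTK hM hT
        hMY hTY
      omega

end

/-- **H-fin** from H-add and H-mod. -/
theorem stmtHerbFin_of (hAdd : StmtHerbAdd) (hMod : StmtHerbModels) : StmtHerbFin := by
  intro p _ Γ _ ψ hψ X hX M T hM hT
  exact hbf_main hAdd hMod hψ _ X hX rfl M T hM hT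

end Fermat.Agent.TW.E
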