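/-
TW-E / E-herb / H-fin (helper32), unconditional form: `stmtHerbAdd` (`HerbAdd.lean`) and
`stmtHerbModels` (`HerbModels.lean`) plugged into `stmtHerbFin_of` (`HerbFin.lean`).
-/
import Fermat.Agent.TW.E.HerbFin
import Fermat.Agent.TW.E.HerbAdd
import Fermat.Agent.TW.E.HerbModels

set_option autoImplicit false

namespace Fermat.Agent.TW.E

/-- **H-fin**, unconditional. -/
theorem stmtHerbFin : StmtHerbFin := stmtHerbFin_of stmtHerbAdd stmtHerbModels

end Fermat.Agent.TW.E
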