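/-
TW-E / E-herb / H-lat (helper32): on lattices `ψ (X/p)` only depends on the characteristic
polynomials of the elements of `Γ`.

Main result: `stmtHerbLat_of : StmtBN → StmtHerbLat` (statements in `TW/E/K0Plan.lean`,
`TW/E/HerbPlan.lean`).

Proof.  Let `b` be a `ℤ`-basis of the lattice `X` and `f : X → M` the structure map of a model `M`
of `X / pX`.  Then `f ∘ b` is a basis of `M` over `𝔽_p` (`hbl_basis`), the matrix of `M.ρ g` in this
basis is the reduction of the matrix of `X.ρ g`, hence
`repCharpoly M g = (latCharpoly X g).map (ℤ → 𝔽_p)` (`hbl_core`).  Then Brauer–Nesbitt.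
-/
import Mathlib
import Fermat.Agent.TW.E.HerbPlan

set_option autoImplicit false
set_option linter.style.haveILetI false
set_option linter.unusedSectionVars false

namespace Fermat.Agent.TW.E

open Polynomial Module

section

attribute [-instance] AddCommGroup.toIntModule
attribute [-instance] ZSMul.toSMul

variable {p : ℕ} [hp : Fact p.Prime] {Γ : Type} [Group Γ]

/-- an additive map into an `𝔽_p`-module turns integer multiples into `𝔽_p`-multiples -/
lemma hbl_map_zsmul {A B : Type*} [AddCommGroup A] [Module ℤ A] [AddCommGroup B]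
    [Module (ZMod p) B] (f : A →+ B) (z : ℤ) (x : A) : f (z • x) = (z : ZMod p) • f x := by
  have := map_intCast_smul f ℤ (ZMod p) z x
  simpa using this

/-- `p • y` as an integer multiple -/
lemma hbl_nsmul_eq {A : Type*} [AddCommGroup A] [Module ℤ A] (n : ℕ) (y : A) :
    n • y = (n : ℤ) • y := (Nat.cast_smul_eq_nsmul ℤ n y).symm

/-- the reduction of a `ℤ`-basis of `X` is a basis of a model of `X / pX` -/
lemma hbl_basis (X : Rep.{0} ℤ Γ) (M : Rep.{0} (ZMod p) Γ) {n : ℕ} (b : Basis (Fin n) ℤ X.V)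
    (f : X.V →+ M.V) (hfsurj : Function.Surjective f)
    (hfker : ∀ x, f x = 0 ↔ ∃ y, x = p • y) :
    LinearIndependent (ZMod p) (fun i => f (b i)) ∧
      ⊤ ≤ Submodule.span (ZMod p) (Set.range (fun i => f (b i))) := by
  constructor
  · rw [Fintype.linearIndependent_iff]
    intro c hc i
    have h1 : f (∑ j, ((c j).val : ℤ) • b j) = 0 := by
      rw [map_sum, ← hc]
      refine Finset.sum_congr rfl (fun j _ => ?_)
      rw [hbl_map_zsmul (p := p)]
      congr 1
      simp
    obtain ⟨y, hy⟩ := (hfker _).1 h1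
    rw [hbl_nsmul_eq p y] at hy
    have h3 := congrArg (fun x => b.repr x i) hy
    simp only [map_sum, map_smul, Finsupp.coe_finsetSum, Finsupp.coe_smul, Finset.sum_apply,
      Pi.smul_apply, Basis.repr_self, smul_eq_mul] at h3
    rw [Finset.sum_eq_single i (fun j _ hj => by simp [hj])
      (fun h => absurd (Finset.mem_univ i) h)] at h3
    simp only [Finsupp.single_eq_same, mul_one] at h3
    have h4 : (((c i).val : ℤ) : ZMod p) = 0 := by
      rw [h3]
      simp
    simpa using h4
  · intro m _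
    obtain ⟨x, rfl⟩ := hfsurj m
    rw [← b.sum_repr x, map_sum]
    refine Submodule.sum_mem _ (fun j _ => ?_)
    rw [hbl_map_zsmul (p := p)]
    exact Submodule.smul_mem _ _ (Submodule.subset_span ⟨j, rfl⟩)

/-- the characteristic polynomials of a model of `X / pX` are the reductions of those of `X` -/
lemma hbl_core (X : Rep.{0} ℤ Γ) (M : Rep.{0} (ZMod p) Γ) (hX : IsLat X) (hM : IsModP p X M) :
    Module.Finite (ZMod p) M.V ∧
      ∀ g : Γ, repCharpoly M g = (latCharpoly X g).map (Int.castRingHom (ZMod p)) := by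
  classical
  obtain ⟨n, ⟨e⟩⟩ := hX
  obtain ⟨f, hfsurj, hfeq, hfker⟩ := hM
  let e' : X.V ≃ₗ[ℤ] (Fin n → ℤ) := e.toIntLinearEquiv
  let b : Basis (Fin n) ℤ X.V := Basis.ofEquivFun e'
  have hfree : Module.Free ℤ X.V := Module.Free.of_basis b
  have hfin : Module.Finite ℤ X.V := Module.Finite.of_basis b
  obtain ⟨hli, hsp⟩ := hbl_basis X M b f hfsurj hfker
  let B : Basis (Fin n) (ZMod p) M.V := Basis.mk hli hsp
  have hB : ∀ i, B i = f (b i) := fun i => Basis.mk_apply hli hsp i
  have hMfin : Module.Finite (ZMod p) M.V := Module.Finite.of_basis B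
  refine ⟨hMfin, fun g => ?_⟩
  have hc : latCharpoly X g = LinearMap.charpoly (X.ρ g) := by
    unfold latCharpoly
    exact dif_pos ⟨hfree, hfin⟩
  have hr : repCharpoly M g = LinearMap.charpoly (M.ρ g) := by
    unfold repCharpoly
    exact dif_pos hMfin
  have hmat : LinearMap.toMatrix B B (M.ρ g) =
      (LinearMap.toMatrix b b (X.ρ g)).map (Int.castRingHom (ZMod p)) := by
    ext i j
    rw [LinearMap.toMatrix_apply, Matrix.map_apply, hB, ← hfeq]
    have h1 : X.ρ g (b j) = ∑ k, (LinearMap.toMatrix b b (X.ρ g) k j) • b k := by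
      conv_lhs => rw [← b.sum_repr (X.ρ g (b j))]
      refine Finset.sum_congr rfl (fun k _ => ?_)
      rw [LinearMap.toMatrix_apply]
    rw [h1, map_sum]
    have h2 : ∀ k, f ((LinearMap.toMatrix b b (X.ρ g) k j) • b k) =
        ((LinearMap.toMatrix b b (X.ρ g) k j : ℤ) : ZMod p) • B k := by
      intro k
      rw [hbl_map_zsmul (p := p), hB]
    simp only [h2, map_sum, map_smul, Finsupp.coe_finsetSum, Finsupp.coe_smul, Finset.sum_apply,
      Pi.smul_apply, Basis.repr_self, smul_eq_mul]
    rw [Finset.sum_eq_single i (fun k _ hk => by simp [hk])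
      (fun h => absurd (Finset.mem_univ i) h)]
    simp
  rw [hr, hc, ← LinearMap.charpoly_toMatrix (M.ρ g) B, hmat, Matrix.charpoly_map,
    LinearMap.charpoly_toMatrix (X.ρ g) b]

end

/-- **H-lat** from Brauer–Nesbitt. -/
theorem stmtHerbLat_of (hBN : StmtBN) : StmtHerbLat := by
  intro p _ Γ _ _ ψ hψ X Y hX hY hchar M N hM hN
  obtain ⟨hMfin, hMc⟩ := hbl_core X M hX hM
  obtain ⟨hNfin, hNc⟩ := hbl_core Y N hY hN
  refine hBN p Γ ψ hψ M N hMfin hNfin (fun g _ => ?_)
  rw [hMc g, hNc g, hchar g]

end Fermat.Agent.TW.E
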