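/-
TW-E / E-K0 piece K1b (helper87): independence of the traces of pairwise non-isomorphic simple
representations of a finite group over `𝔽_p`, with diagonal value `1`.

Proof: the product `Π i, T i` is a semisimple `k[Γ]`-module; by Schur the endomorphism ring is
diagonal; for `D = End (T i₀)` (a finite division ring, so a field) there is a `D`-linear `x` of
`k`-trace `1` (rank one, `Tr_{D/k}` is onto); by the density theorem `x` on the factor `i₀` and `0`
on the others is the action of some `r ∈ k[Γ]`.
-/
import Fermat.Agent.TW.E.K0Plan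

set_option autoImplicit false
set_option linter.style.haveILetI false

noncomputable section

namespace Fermat.Agent.TW.E

open CategoryTheory

/-- **Lemma A.** `k` a finite field, `D` a finite field extension, `T ≠ 0` a `D`-vector space of
finite dimension over `k`: there is a `k`-linear endomorphism of `T` commuting with `D` and of
`k`-trace `1`. -/
theorem k0tr_exists_trace_one (k : Type) [Field k] [Finite k]
    (D : Type) [Field D] [Algebra k D] [Finite D]
    (T : Type) [AddCommGroup T] [Module k T] [Module D T] [IsScalarTower k D T]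
    [Module.Finite k T] [Nontrivial T] :
    ∃ x : T →ₗ[k] T, (∀ (d : D) (v : T), x (d • v) = d • x v) ∧ LinearMap.trace k T x = 1 := by
  haveI : Module.Finite k D := Module.Finite.of_finite
  haveI : Algebra.IsSeparable k D := Algebra.IsAlgebraic.isSeparable_of_perfectField
  obtain ⟨d₀, hd₀⟩ := Algebra.trace_surjective k D 1
  obtain ⟨b, hb⟩ := exists_ne (0 : T)
  -- a `D`-linear functional with `λ b = 1`
  have hinj : Function.Injective (LinearMap.toSpanSingleton D T b) := by
    intro d d' h
    have h1 : (d - d') • b = 0 := by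
      rw [sub_smul]
      exact sub_eq_zero.mpr h
    rcases smul_eq_zero.mp h1 with h2 | h2
    · exact sub_eq_zero.mp h2
    · exact absurd h2 hb
  obtain ⟨lam, hlam⟩ := LinearMap.exists_leftInverse_of_injective
    (LinearMap.toSpanSingleton D T b) (LinearMap.ker_eq_bot.mpr hinj)
  have hlam' : ∀ d : D, lam (d • b) = d := fun d => by
    have := LinearMap.congr_fun hlam d
    simpa using this
  -- the two `k`-linear maps
  let A : T →ₗ[k] D := (d₀ • lam).restrictScalars k
  let B : D →ₗ[k] T := (LinearMap.toSpanSingleton D T b).restrictScalars k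
  refine ⟨B ∘ₗ A, ?_, ?_⟩
  · intro d v
    show (d₀ • lam) (d • v) • b = d • ((d₀ • lam) v • b)
    rw [map_smul, smul_eq_mul, mul_smul]
  · rw [LinearMap.trace_comp_comm', ← hd₀, Algebra.trace_apply]
    congr 1
    ext d
    show (d₀ • lam) (d • b) = d₀ * d
    rw [LinearMap.smul_apply, hlam', smul_eq_mul]

/-- The endomorphism ring of a finite simple module: an endomorphism of `k`-trace one
commuting with all `R`-endomorphisms. -/
theorem k0tr_exists_commuting (k : Type) [Field k] [Finite k] (R : Type) [Ring R] [Algebra k R]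
    (T : Type) [AddCommGroup T] [Module R T] [Module k T] [IsScalarTower k R T]
    [Module.Finite k T] [IsSimpleModule R T] :
    ∃ x : T →ₗ[k] T, (∀ (d : Module.End R T) (v : T), x (d v) = d (x v)) ∧
      LinearMap.trace k T x = 1 := by
  classical
  haveI : Finite T := Module.finite_of_finite k
  haveI : Finite (Module.End R T) :=
    Finite.of_injective (fun f : Module.End R T => (f : T → T)) DFunLike.coe_injective
  haveI : Nontrivial T := IsSimpleModule.nontrivial R T
  letI : Field (Module.End R T) := littleWedderburn (Module.End R T)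
  haveI : IsScalarTower k (Module.End R T) T := ⟨fun c f v => rfl⟩
  obtain ⟨x, hx, hxtr⟩ := k0tr_exists_trace_one k (Module.End R T) T
  exact ⟨x, fun d v => hx d v, hxtr⟩

/-- **The module-theoretic core.** Pairwise non-isomorphic simple modules over a `k`-algebra
(`k` a finite field), of finite dimension: some element acts with trace one on a given one of
them and as zero on the others. -/
theorem k0tr_core (k : Type) [Field k] [Finite k] (R : Type) [Ring R] [Algebra k R]
    (ι : Type) [Finite ι] (M : ι → Type) [∀ i, AddCommGroup (M i)] [∀ i, Module R (M i)]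
    [∀ i, Module k (M i)] [∀ i, IsScalarTower k R (M i)] [∀ i, Module.Finite k (M i)]
    [∀ i, IsSimpleModule R (M i)]
    (hM : ∀ i j, Nonempty (M i ≃ₗ[R] M j) → i = j) (i₀ : ι) :
    ∃ r : R, LinearMap.trace k (M i₀) (Algebra.lsmul k k (M i₀) r) = 1 ∧
      ∀ i, i ≠ i₀ → ∀ v : M i, r • v = 0 := by
  classical
  haveI := Fintype.ofFinite ι
  haveI : ∀ i, Finite (M i) := fun i => Module.finite_of_finite k
  haveI : Fintype (∀ i, M i) := Fintype.ofFinite _
  obtain ⟨x, hx, hxtr⟩ := k0tr_exists_commuting k R (M i₀)
  -- off-diagonal components of an endomorphism vanish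
  have hoff : ∀ (φ : Module.End R (∀ i, M i)) (i j : ι), i ≠ j → ∀ w : M j,
      (φ (Pi.single j w)) i = 0 := by
    intro φ i j hij w
    let ψ : M j →ₗ[R] M i := (LinearMap.proj i) ∘ₗ φ ∘ₗ (LinearMap.single R M j)
    rcases LinearMap.bijective_or_eq_zero ψ with h | h
    · exact absurd (hM j i ⟨LinearEquiv.ofBijective ψ h⟩) (Ne.symm hij)
    · exact LinearMap.congr_fun h w
  have hdiag : ∀ (φ : Module.End R (∀ i, M i)) (m : ∀ i, M i),
      (φ m) i₀ = (φ (Pi.single i₀ (m i₀))) i₀ := by
    intro φ m
    have hm : m = ∑ j, Pi.single j (m j) := (Finset.univ_sum_single m).symm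
    conv_lhs => rw [hm]
    rw [map_sum, Finset.sum_apply, Finset.sum_eq_single i₀]
    · intro j _ hj
      exact hoff φ i₀ j (Ne.symm hj) (m j)
    · intro h
      exact absurd (Finset.mem_univ i₀) h
  -- the endomorphism `f = x` on the `i₀`-th factor
  let f : Module.End (Module.End R (∀ i, M i)) (∀ i, M i) :=
    { toFun := fun m => Pi.single i₀ (x (m i₀))
      map_add' := by
        intro m m'
        rw [Pi.add_apply, map_add, Pi.single_add]
      map_smul' := by
        intro φ m
        show Pi.single i₀ (x ((φ m) i₀)) = φ (Pi.single i₀ (x (m i₀)))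
        funext i
        by_cases hi : i = i₀
        · subst hi
          rw [Pi.single_eq_same, hdiag φ m]
          exact hx ((LinearMap.proj i) ∘ₗ φ ∘ₗ (LinearMap.single R M i)) (m i)
        · rw [Pi.single_eq_of_ne hi, hoff φ i i₀ hi] }
  obtain ⟨r, hr⟩ := jacobson_density f Finset.univ
  refine ⟨r, ?_, ?_⟩
  · have hrx : Algebra.lsmul k k (M i₀) r = x := by
      ext v
      have h1 := congrFun (hr (Pi.single i₀ v) (Finset.mem_univ _)) i₀
      have h2 : f (Pi.single i₀ v) i₀ = x v := by
        show (Pi.single i₀ (x ((Pi.single i₀ v : ∀ i, M i) i₀)) : ∀ i, M i) i₀ = x v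
        rw [Pi.single_eq_same, Pi.single_eq_same]
      rw [h2, Pi.smul_apply, Pi.single_eq_same] at h1
      rw [h1]
      rfl
    rw [hrx, hxtr]
  · intro i hi v
    have h1 := congrFun (hr (Pi.single i v) (Finset.mem_univ _)) i
    have h2 : f (Pi.single i v) i = 0 := by
      show (Pi.single i₀ (x ((Pi.single i v : ∀ i, M i) i₀)) : ∀ i, M i) i = 0
      rw [Pi.single_eq_of_ne hi]
    rw [h2, Pi.smul_apply, Pi.single_eq_same] at h1
    exact h1.symm

/-- The trace of the action of `r ∈ k[Γ]` on `ρ.asModule`. -/
theorem k0tr_trace_lsmul {k Γ V : Type} [Field k] [Group Γ] [Fintype Γ] [AddCommGroup V]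
    [Module k V] (ρ : Representation k Γ V) (r : MonoidAlgebra k Γ) :
    LinearMap.trace k ρ.asModule (Algebra.lsmul k k ρ.asModule r)
      = ∑ g, r.coeff g * LinearMap.trace k V (ρ g) := by
  have h1 : (Algebra.lsmul k k ρ.asModule r : ρ.asModule →ₗ[k] ρ.asModule)
      = (ρ.asAlgebraHom r : V →ₗ[k] V) := rfl
  rw [h1]
  show LinearMap.trace k V (ρ.asAlgebraHom r) = _
  rw [Representation.asAlgebraHom_def, MonoidAlgebra.lift_apply,
    Finsupp.sum_fintype _ _ (fun g => zero_smul k (ρ g)), map_sum]
  refine Finset.sum_congr rfl fun g _ => ?_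
  rw [map_smul, smul_eq_mul]

/-- **K1b.** -/
theorem stmtTraceIndep : StmtTraceIndep := by
  intro p _ Γ _ _ ι _ T hT hne i₀
  haveI : ∀ i, Module.Finite (ZMod p) (T i).V := fun i => (hT i).1
  haveI : ∀ i, Representation.IsIrreducible (T i).ρ := fun i => (hT i).2
  haveI : Finite (ZMod p) := inferInstance
  have hM : ∀ i j, Nonempty ((T i).ρ.asModule ≃ₗ[MonoidAlgebra (ZMod p) Γ] (T j).ρ.asModule) →
      i = j := by
    rintro i j ⟨e⟩
    apply hne
    let f : Representation.IntertwiningMap (T i).ρ (T j).ρ :=
      (Representation.IntertwiningMap.equivLinearMapAsModule (T i).ρ (T j).ρ).symm e.toLinearMap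
    have hf : Function.Bijective f := e.bijective
    exact ⟨Rep.mkIso (f.ofBijective hf)⟩
  obtain ⟨r, hr1, hr0⟩ := k0tr_core (ZMod p) (MonoidAlgebra (ZMod p) Γ) ι
    (fun i => (T i).ρ.asModule) hM i₀
  refine ⟨fun g => r.coeff g, ?_, ?_⟩
  · rw [← k0tr_trace_lsmul (T i₀).ρ r]
    exact hr1
  · intro i hi
    rw [← k0tr_trace_lsmul (T i).ρ r]
    have h0 : (Algebra.lsmul (ZMod p) (ZMod p) (T i).ρ.asModule r) = 0 := by
      ext v
      exact hr0 i hi v
    rw [h0, map_zero]

end Fermat.Agent.TW.E

end
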