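import Fermat.Agent.TW.E.K0BN
import Fermat.Agent.TW.E.K0JH
import Fermat.Agent.TW.E.K0Trace
import Fermat.Agent.TW.E.K0Descent

/-!
# TW-E / E-K0 / K1 : Brauer–Nesbitt (unconditional)
-/

namespace Fermat.Agent.TW.E

/-- **Brauer–Nesbitt** for additive functions: two finite-dimensional representations of a finite
group over `𝔽_p` on which every `p`-regular element has the same characteristic polynomial have
the same value under every additive function. -/
theorem stmtBN : StmtBN :=
  stmtBN_of stmtJH stmtTraceIndep stmtDescent

end Fermat.Agent.TW.E
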