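/-
TW-E / E-herb / H-lat (helper32), unconditional form: Brauer–Nesbitt `stmtBN` (`K0BNFinal.lean`)
plugged into `stmtHerbLat_of` (`HerbLat.lean`).
-/
import Fermat.Agent.TW.E.HerbLat
import Fermat.Agent.TW.E.K0BNFinal

set_option autoImplicit false

namespace Fermat.Agent.TW.E

/-- **H-lat**, unconditional. -/
theorem stmtHerbLat : StmtHerbLat := stmtHerbLat_of stmtBN

end Fermat.Agent.TW.E
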