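/-
TW-E / E-herb / H-rank (helper32): Herbrand's lemma modulo `p`.  For finitely generated
`ℤ[Γ]`-modules `X`, `Y` with the same ranks of the fixed modules of all cyclic subgroups,
`ψ (X/p) - ψ (X[p]) = ψ (Y/p) - ψ (Y[p])`.

Main result: `stmtHerbRank_of : StmtHerbAdd → StmtHerbFin → StmtHerbLat → StmtHerbRat →
StmtHerbModels → StmtHerbRank` (statements in `TW/E/HerbPlan.lean`).

Proof.  `T` := torsion subgroup of `X` (`hbkT`, finite), `L := X / T` (`hbkL`, a lattice).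
H-add and H-fin give `h(X) = h(L) = ψ (L/p)` (`hbk_reduce`; `L[p] = 0`).  The projection
`X^H → L^H` has torsion kernel and torsion cokernel (norm argument), so the ranks agree
(`hbk_finrank_fixed`, by `hbk_finrank_eq`: rank-nullity over `ℤ`).  Then H-rat and H-lat.
-/
import Mathlib
import Fermat.Agent.TW.E.HerbPlan

set_option autoImplicit false
set_option linter.style.haveILetI false
set_option linter.unusedSectionVars false
set_option linter.unusedVariables false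

namespace Fermat.Agent.TW.E

open CategoryTheory

section abstract

/-- an additive map with torsion kernel and torsion cokernel preserves the rank -/
lemma hbk_finrank_eq {A B : Type} [AddCommGroup A] [AddCommGroup B] (φ : A →+ B)
    (hker : ∀ a, φ a = 0 → ∃ n : ℕ, 0 < n ∧ n • a = 0)
    (hcoker : ∀ b, ∃ n : ℕ, 0 < n ∧ ∃ a, φ a = n • b) :
    Module.finrank ℤ A = Module.finrank ℤ B := by
  let f : A →ₗ[ℤ] B := φ.toIntLinearMap
  have h1 := rank_quotient_add_rank_of_isDomain (LinearMap.ker f)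
  have h2 := rank_quotient_add_rank_of_isDomain (LinearMap.range f)
  have h3 : Module.rank ℤ (LinearMap.ker f) = 0 := by
    rw [rank_eq_zero_iff]
    rintro ⟨a, ha⟩
    obtain ⟨n, hn, hna⟩ := hker a ha
    refine ⟨(n : ℤ), by exact_mod_cast hn.ne', Subtype.ext ?_⟩
    simpa using hna
  have h4 : Module.rank ℤ (B ⧸ LinearMap.range f) = 0 := by
    rw [rank_eq_zero_iff]
    intro b
    induction b using Submodule.Quotient.induction_on with
    | H b =>
      obtain ⟨n, hn, a, ha⟩ := hcoker b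
      refine ⟨(n : ℤ), by exact_mod_cast hn.ne', ?_⟩
      rw [← Submodule.Quotient.mk_smul, Submodule.Quotient.mk_eq_zero]
      exact ⟨a, ha.trans (Nat.cast_smul_eq_nsmul ℤ n b).symm⟩
  have h5 : Module.rank ℤ (A ⧸ LinearMap.ker f) = Module.rank ℤ (LinearMap.range f) :=
    LinearEquiv.rank_eq f.quotKerEquivRange
  rw [h3, add_zero, h5] at h1
  rw [h4, zero_add] at h2
  unfold Module.finrank
  rw [← h1, ← h2]

end abstract

section construct

attribute [-instance] AddCommGroup.toIntModule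
attribute [-instance] ZSMul.toSMul

variable {Γ : Type} [Group Γ]

/-- a finitely generated abelian group is a finite module, for any module structure -/
lemma hbk_finite_of_fg {R : Type} [Ring R] {A : Type} [AddCommGroup A] [Module R A]
    (h : AddGroup.FG A) : Module.Finite R A := by
  obtain ⟨⟨S, hS⟩⟩ := h
  refine ⟨⟨S, eq_top_iff.2 (fun x _ => ?_)⟩⟩
  have hx : x ∈ AddSubgroup.closure (S : Set A) := hS ▸ AddSubgroup.mem_top x
  exact (AddSubgroup.closure_le (K := (Submodule.span R (S : Set A)).toAddSubgroup)).2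
    Submodule.subset_span hx

/-- the torsion submodule -/
noncomputable def hbkW (X : Rep.{0} ℤ Γ) : Submodule ℤ X.V := Submodule.torsion ℤ X.V

lemma hbk_mem_W (X : Rep.{0} ℤ Γ) (x : X.V) : x ∈ hbkW X ↔ ∃ n : ℕ, 0 < n ∧ n • x = 0 := by
  constructor
  · rintro ⟨⟨a, ha⟩, hax⟩
    have ha0 : a ≠ 0 := nonZeroDivisors.ne_zero ha
    have hax' : a • x = 0 := hax
    refine ⟨a.natAbs, Int.natAbs_pos.2 ha0, ?_⟩
    rw [← Nat.cast_smul_eq_nsmul ℤ]
    rcases Int.natAbs_eq a with h | h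
    · rw [← h, hax']
    · have h2 : ((a.natAbs : ℕ) : ℤ) = -a := by omega
      rw [h2, neg_smul, hax', neg_zero]
  · rintro ⟨n, hn, hnx⟩
    have hn0 : (n : ℤ) ≠ 0 := by exact_mod_cast hn.ne'
    refine ⟨⟨(n : ℤ), mem_nonZeroDivisors_of_ne_zero hn0⟩, ?_⟩
    change (n : ℤ) • x = 0
    rw [Nat.cast_smul_eq_nsmul ℤ, hnx]

lemma hbk_W_stable (X : Rep.{0} ℤ Γ) (g : Γ) : hbkW X ≤ (hbkW X).comap (X.ρ g) := by
  intro x hx
  rw [Submodule.mem_comap, hbk_mem_W]
  obtain ⟨n, hn, hnx⟩ := (hbk_mem_W X x).1 hx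
  exact ⟨n, hn, by rw [← map_nsmul, hnx, map_zero]⟩

/-- the torsion subgroup, as a representation -/
noncomputable def hbkT (X : Rep.{0} ℤ Γ) : Rep.{0} ℤ Γ :=
  X.subrepresentation (hbkW X) (hbk_W_stable X)

/-- the torsion-free quotient, as a representation -/
noncomputable def hbkL (X : Rep.{0} ℤ Γ) : Rep.{0} ℤ Γ :=
  X.quotient (hbkW X) (hbk_W_stable X)

/-- the inclusion of the torsion subgroup -/
noncomputable def hbkI (X : Rep.{0} ℤ Γ) : hbkT X ⟶ X :=
  Rep.subtype X (hbkW X) (hbk_W_stable X)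

/-- the projection to the torsion-free quotient -/
noncomputable def hbkQ (X : Rep.{0} ℤ Γ) : X ⟶ hbkL X :=
  Rep.mkQ X (hbkW X) (hbk_W_stable X)

lemma hbkI_injective (X : Rep.{0} ℤ Γ) : Function.Injective (hbkI X).hom :=
  fun _ _ h => Subtype.ext h

lemma hbkQ_surjective (X : Rep.{0} ℤ Γ) : Function.Surjective (hbkQ X).hom :=
  fun y => Submodule.mkQ_surjective (hbkW X) y

lemma hbkQ_eq_zero (X : Rep.{0} ℤ Γ) (x : X.V) : (hbkQ X).hom x = 0 ↔ x ∈ hbkW X := by
  change (hbkW X).mkQ x = 0 ↔ _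
  rw [← LinearMap.mem_ker, Submodule.ker_mkQ]

lemma hbk_exact (X : Rep.{0} ℤ Γ) : Function.Exact (hbkI X).hom (hbkQ X).hom := by
  intro x
  rw [hbkQ_eq_zero]
  constructor
  · intro hx
    exact ⟨⟨x, hx⟩, rfl⟩
  · rintro ⟨y, rfl⟩
    exact y.2

/-- the torsion subgroup of a finitely generated module is finite -/
lemma hbkT_finite (X : Rep.{0} ℤ Γ) (hX : IsFG X) : Finite (hbkT X).V := by
  haveI : Module.Finite ℤ X.V := hbk_finite_of_fg hX
  haveI : IsNoetherian ℤ X.V := inferInstance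
  haveI : Module.Finite ℤ (Submodule.torsion ℤ X.V) := inferInstance
  exact Module.finite_of_fg_torsion (Submodule.torsion ℤ X.V) Submodule.torsion_isTorsion

/-- the torsion-free quotient of a finitely generated module is a lattice -/
lemma hbkL_isLat (X : Rep.{0} ℤ Γ) (hX : IsFG X) : IsLat (hbkL X) := by
  haveI : Module.Finite ℤ X.V := hbk_finite_of_fg hX
  haveI : Module.Finite ℤ (X.V ⧸ Submodule.torsion ℤ X.V) := inferInstance
  haveI : Module.Free ℤ (X.V ⧸ Submodule.torsion ℤ X.V) :=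
    Module.free_of_finite_type_torsion_free'
  exact ⟨_, ⟨(Module.finBasis ℤ (X.V ⧸ Submodule.torsion ℤ X.V)).equivFun.toAddEquiv⟩⟩

/-- the quotient is torsion-free -/
lemma hbkL_torsionFree (X : Rep.{0} ℤ Γ) (y : (hbkL X).V) (n : ℕ) (hn : 0 < n)
    (hy : n • y = 0) : y = 0 := by
  obtain ⟨x, rfl⟩ := hbkQ_surjective X y
  rw [← map_nsmul, hbkQ_eq_zero, hbk_mem_W] at hy
  obtain ⟨m, hm, hmx⟩ := hy
  rw [hbkQ_eq_zero, hbk_mem_W]
  exact ⟨m * n, Nat.mul_pos hm hn, by rw [mul_smul, hmx]⟩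

end construct

section ranks

attribute [-instance] AddCommGroup.toIntModule
attribute [-instance] ZSMul.toSMul

variable {Γ : Type} [Group Γ]

/-- the norm over a finite subgroup is fixed -/
lemma hbk_norm_fixed (X : Rep.{0} ℤ Γ) (H : Subgroup Γ) [Fintype H] (x : X.V) :
    (∑ h : H, X.ρ (h : Γ) x) ∈ fixedSub X H := by
  intro h' hh'
  rw [map_sum]
  refine Fintype.sum_bijective (fun h : H => (⟨h', hh'⟩ : H) * h)
    (Group.mulLeft_bijective _) _ _ (fun h => ?_)
  rw [← Module.End.mul_apply, ← map_mul]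
  rfl

/-- the projection of the norm -/
lemma hbk_norm_proj (X : Rep.{0} ℤ Γ) (H : Subgroup Γ) [Fintype H] (x : X.V)
    (hx : (hbkQ X).hom x ∈ fixedSub (hbkL X) H) :
    (hbkQ X).hom (∑ h : H, X.ρ (h : Γ) x) = Fintype.card H • (hbkQ X).hom x := by
  rw [map_sum]
  have h1 : ∀ h : H, (hbkQ X).hom (X.ρ (h : Γ) x) = (hbkQ X).hom x := by
    intro h
    rw [Rep.hom_comm_apply]
    exact hx h.1 h.2
  rw [Finset.sum_congr rfl (fun h _ => h1 h), Finset.sum_const, Finset.card_univ]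

/-- the projection on fixed vectors -/
noncomputable def hbkFix (X : Rep.{0} ℤ Γ) (H : Subgroup Γ) :
    fixedSub X H →+ fixedSub (hbkL X) H :=
  AddMonoidHom.mk' (fun x => ⟨(hbkQ X).hom x.1, fun h hh => by
      rw [← Rep.hom_comm_apply, x.2 h hh]⟩)
    (fun a b => Subtype.ext (map_add (hbkQ X).hom a.1 b.1))

/-- the ranks of the fixed modules of `X` and of its torsion-free quotient agree -/
lemma hbk_finrank_fixed (X : Rep.{0} ℤ Γ) (H : Subgroup Γ) [Finite H] :
    @Module.finrank ℤ (fixedSub X H) _ _ (AddCommGroup.toIntModule _) =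
      @Module.finrank ℤ (fixedSub (hbkL X) H) _ _ (AddCommGroup.toIntModule _) := by
  haveI := Fintype.ofFinite H
  refine hbk_finrank_eq (hbkFix X H) (fun a ha => ?_) (fun b => ?_)
  · have h1 : (hbkQ X).hom a.1 = 0 := congrArg Subtype.val ha
    rw [hbkQ_eq_zero, hbk_mem_W] at h1
    obtain ⟨n, hn, hna⟩ := h1
    exact ⟨n, hn, Subtype.ext hna⟩
  · obtain ⟨y, hy⟩ := b
    obtain ⟨x, rfl⟩ := hbkQ_surjective X y
    refine ⟨Fintype.card H, Fintype.card_pos, ⟨_, hbk_norm_fixed X H x⟩, Subtype.ext ?_⟩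
    exact hbk_norm_proj X H x hy

end ranks

section main

variable {p : ℕ} [Fact p.Prime] {Γ : Type} [Group Γ]

/-- an additive function vanishes on zero representations -/
lemma hbk_psi_zero {ψ : Rep.{0} (ZMod p) Γ → ℤ} (hψ : IsAddFun ψ) (Z : Rep.{0} (ZMod p) Γ)
    (hZ : Subsingleton Z.V) : ψ Z = 0 := by
  have h := hψ.add Z Z Z (𝟙 Z) (𝟙 Z) inferInstance (fun a b _ => Subsingleton.elim a b)
    (fun y => ⟨y, Subsingleton.elim _ _⟩)
    (fun y => ⟨fun _ => ⟨y, Subsingleton.elim _ _⟩, fun _ => Subsingleton.elim _ _⟩)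
  omega

/-- `h_ψ(X) = ψ (L / p)` for the torsion-free quotient `L` of `X` -/
lemma hbk_reduce (hAdd : StmtHerbAdd) (hFin : StmtHerbFin) (hMod : StmtHerbModels)
    {ψ : Rep.{0} (ZMod p) Γ → ℤ} (hψ : IsAddFun ψ) (X : Rep.{0} ℤ Γ) (hX : IsFG X)
    (M T : Rep.{0} (ZMod p) Γ) (hM : IsModP p X M) (hT : IsTorP p X T)
    (ML : Rep.{0} (ZMod p) Γ) (hML : IsModP p (hbkL X) ML) : ψ M - ψ T = ψ ML := by
  obtain ⟨⟨MT, hMT⟩, ⟨TT, hTT⟩, -⟩ := hMod p Γ (hbkT X)
  obtain ⟨-, ⟨TL, hTL⟩, -⟩ := hMod p Γ (hbkL X)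
  have h1 := hAdd p Γ ψ hψ (hbkT X) X (hbkL X) (hbkI X) (hbkQ X) hX (hbkI_injective X)
    (hbkQ_surjective X) (hbk_exact X) MT TT M T ML TL hMT hTT hM hT hML hTL
  have h2 := hFin p Γ ψ hψ (hbkT X) (hbkT_finite X hX) MT TT hMT hTT
  have h3 : ψ TL = 0 := by
    refine hbk_psi_zero hψ TL ?_
    obtain ⟨ι, hιi, -, hιm⟩ := hTL
    have h0 : ∀ t : TL.V, t = 0 := by
      intro t
      apply hιi
      rw [map_zero]
      exact hbkL_torsionFree X (ι t) p (Fact.out : p.Prime).pos ((hιm _).2 ⟨t, rfl⟩)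
    exact ⟨fun a b => (h0 a).trans (h0 b).symm⟩
  omega

end main

/-- **H-rank** from H-add, H-fin, H-lat, H-rat and H-mod. -/
theorem stmtHerbRank_of (hAdd : StmtHerbAdd) (hFin : StmtHerbFin) (hLat : StmtHerbLat)
    (hRat : StmtHerbRat) (hMod : StmtHerbModels) : StmtHerbRank := by
  intro p _ Γ _ _ ψ hψ X Y hX hY hrank M T N U hM hT hN hU
  obtain ⟨⟨ML, hML⟩, -⟩ := hMod p Γ (hbkL X)
  obtain ⟨⟨NL, hNL⟩, -⟩ := hMod p Γ (hbkL Y)
  rw [hbk_reduce hAdd hFin hMod hψ X hX M T hM hT ML hML,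
    hbk_reduce hAdd hFin hMod hψ Y hY N U hN hU NL hNL]
  refine hLat p Γ ψ hψ (hbkL X) (hbkL Y) (hbkL_isLat X hX) (hbkL_isLat Y hY)
    (hRat Γ (hbkL X) (hbkL Y) (hbkL_isLat X hX) (hbkL_isLat Y hY) (fun H hH => ?_)) ML NL hML hNL
  exact (hbk_finrank_fixed X H).symm.trans ((hrank H hH).trans (hbk_finrank_fixed Y H))

end Fermat.Agent.TW.E
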