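/-
TW-E / E-herb / H-rat (helper32): for lattices, the characteristic polynomials of the elements of
`Γ` are determined by the ranks of the fixed modules of the cyclic subgroups.

Main result: `stmtHerbRat : StmtHerbRat` (statement in `TW/E/HerbPlan.lean`).

Proof.  Fix `g` of order `n`, `σ = ρ(g)` on the lattice `X`, `σ_ℂ` its base change to `ℂ ⊗ X`.
* Part A (linear algebra over `ℂ`): `σ_ℂ ^ n = 1`, so `σ_ℂ` is semisimple and
  `dim ker (σ_ℂ - μ) = rootMultiplicity μ χ` (`hbr_finrank_ker_linear`); kernels of pairwise coprime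
  polynomials add up (`hbr_finrank_ker_prod`), hence
  `dim ker (σ_ℂ ^ e - 1) = Σ_{μ ^ e = 1} rootMultiplicity μ χ` (`hbr_finrank_ker_pow`); the roots of
  `χ` are `n`-th roots of unity (`hbr_root_pow`).
* Part B (polynomials): for `P ∈ ℚ[X]` the root multiplicity at a primitive `d`-th root of unity
  only depends on `d`, because `Φ_d` is irreducible over `ℚ` (`hbr_pow_dvd_iff`,
  `hbr_rootMultiplicity_eq`); so the sums over the `e`-th roots of unity are
  `Σ_{d ∣ e} φ(d) m_d` (`hbr_sum_nthRoots`) and determine all `m_d` (`hbr_mult_eq`), hence the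
  polynomial (`hbr_poly_eq`).
* Part C (base change): `rank_ℤ ker h = dim_ℂ ker (h ⊗ ℂ)` by flatness
  (`hbr_finrank_ker_baseChange`), and `fixedSub X ⟨g ^ e⟩ = ker (σ ^ e - 1)`
  (`hbr_finrank_fixedSub`).
-/
import Mathlib
import Fermat.Agent.TW.E.HerbPlan

set_option autoImplicit false
set_option linter.style.haveILetI false
set_option linter.unusedSectionVars false

namespace Fermat.Agent.TW.E

open Polynomial Module TensorProduct

section PartA

variable {K : Type*} [Field K] {V : Type*} [AddCommGroup V] [Module K V] [FiniteDimensional K V]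

/-- additivity of the dimension of kernels for pairwise coprime polynomials -/
lemma hbr_finrank_ker_prod {ι : Type*} [DecidableEq ι] (s : Finset ι) (P : ι → K[X])
    (hP : (s : Set ι).Pairwise (fun i j => IsCoprime (P i) (P j))) (σ : Module.End K V) :
    finrank K (LinearMap.ker (aeval σ (∏ i ∈ s, P i))) =
      ∑ i ∈ s, finrank K (LinearMap.ker (aeval σ (P i))) := by
  induction s using Finset.induction_on with
  | empty =>
    have key : ∀ Q : K[X], Q = 1 → finrank K (LinearMap.ker (aeval σ Q)) = 0 := by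
      rintro Q rfl
      have h1 : aeval σ (1 : K[X]) = LinearMap.id := map_one _
      rw [h1, LinearMap.ker_id, finrank_bot]
    rw [Finset.sum_empty]
    exact key _ Finset.prod_empty
  | insert a s ha ih =>
    rw [Finset.prod_insert ha, Finset.sum_insert ha]
    have hcop : IsCoprime (P a) (∏ i ∈ s, P i) := by
      refine IsCoprime.prod_right (fun i hi => ?_)
      exact hP (Finset.mem_coe.2 (Finset.mem_insert_self a s))
        (Finset.mem_coe.2 (Finset.mem_insert_of_mem hi)) (fun h => ha (h ▸ hi))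
    have h1 := Polynomial.sup_ker_aeval_eq_ker_aeval_mul_of_coprime σ hcop
    have h2 := Polynomial.disjoint_ker_aeval_of_isCoprime σ hcop
    have h3 := Submodule.finrank_sup_add_finrank_inf_eq (LinearMap.ker (aeval σ (P a)))
      (LinearMap.ker (aeval σ (∏ i ∈ s, P i)))
    rw [h2.eq_bot, finrank_bot, add_zero, h1] at h3
    rw [h3, ih (fun i hi j hj hij => hP (Finset.mem_coe.2 (Finset.mem_insert_of_mem hi))
      (Finset.mem_coe.2 (Finset.mem_insert_of_mem hj)) hij)]

end PartA

section PartAC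

variable {V : Type*} [AddCommGroup V] [Module ℂ V] [FiniteDimensional ℂ V]

/-- an endomorphism of finite order is semisimple: geometric = algebraic multiplicity -/
lemma hbr_finrank_ker_linear (σ : Module.End ℂ V) (n : ℕ) (hn : 0 < n) (hσ : σ ^ n = 1)
    (μ : ℂ) :
    finrank ℂ (LinearMap.ker (aeval σ (X - C μ))) =
      (LinearMap.charpoly σ).rootMultiplicity μ := by
  have hsep : (X ^ n - C (1 : ℂ)).Separable :=
    separable_X_pow_sub_C 1 (by exact_mod_cast hn.ne') one_ne_zero
  have hss : σ.IsSemisimple :=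
    Module.End.isSemisimple_of_squarefree_aeval_eq_zero hsep.squarefree (by simp [hσ])
  have hfs : σ.IsFinitelySemisimple := hss.isFinitelySemisimple
  rw [← LinearMap.finrank_maxGenEigenspace_eq σ μ, hfs.maxGenEigenspace_eq_eigenspace μ,
    Module.End.eigenspace_def]
  have e : aeval σ (X - C μ) = σ - μ • 1 := by
    simp [Algebra.algebraMap_eq_smul_one]
  rw [e]

/-- the rank of the fixed space of `σ ^ e` in terms of the characteristic polynomial -/
lemma hbr_finrank_ker_pow (σ : Module.End ℂ V) (n : ℕ) (hn : 0 < n) (hσ : σ ^ n = 1)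
    (e : ℕ) (he : 0 < e) :
    finrank ℂ (LinearMap.ker (σ ^ e - 1)) =
      ∑ μ ∈ nthRootsFinset e (1 : ℂ), (LinearMap.charpoly σ).rootMultiplicity μ := by
  classical
  have h1 : σ ^ e - 1 = aeval σ (∏ μ ∈ nthRootsFinset e (1 : ℂ), (X - C μ)) := by
    rw [← X_pow_sub_one_eq_prod he (Complex.isPrimitiveRoot_exp e he.ne')]
    simp
  rw [h1, hbr_finrank_ker_prod]
  · exact Finset.sum_congr rfl (fun μ _ => hbr_finrank_ker_linear σ n hn hσ μ)
  · intro μ _ ν _ hμν
    exact isCoprime_X_sub_C_of_isUnit_sub (sub_ne_zero.mpr hμν).isUnit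

/-- the roots of the characteristic polynomial of an endomorphism of finite order are roots of
unity -/
lemma hbr_root_pow (σ : Module.End ℂ V) (n : ℕ) (hn : 0 < n) (hσ : σ ^ n = 1) (μ : ℂ)
    (hμ : (LinearMap.charpoly σ).rootMultiplicity μ ≠ 0) : μ ^ n = 1 := by
  rw [← hbr_finrank_ker_linear σ n hn hσ μ] at hμ
  have hne : LinearMap.ker (aeval σ (X - C μ)) ≠ ⊥ := by
    intro h
    rw [h, finrank_bot] at hμ
    exact hμ rfl
  obtain ⟨v, hv, hv0⟩ := Submodule.exists_mem_ne_zero_of_ne_bot hne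
  have h1 : σ v = μ • v := by
    have h0 : (aeval σ (X - C μ)) v = 0 := hv
    have e : aeval σ (X - C μ) = σ - μ • 1 := by
      simp [Algebra.algebraMap_eq_smul_one]
    rw [e] at h0
    have h0' : σ v - μ • v = 0 := by simpa using h0
    exact sub_eq_zero.mp h0'
  have h2 : ∀ k : ℕ, (σ ^ k) v = μ ^ k • v := by
    intro k
    induction k with
    | zero => simp
    | succ k ih =>
      rw [pow_succ, Module.End.mul_apply, h1, map_smul, ih, smul_smul, pow_succ, mul_comm]
  have h3 := h2 n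
  rw [hσ, Module.End.one_apply] at h3
  have h4 : (μ ^ n - 1) • v = 0 := by
    rw [sub_smul, one_smul, ← h3, sub_self]
  rcases smul_eq_zero.mp h4 with h | h
  · exact sub_eq_zero.mp h
  · exact absurd h hv0

end PartAC

section PartB

/-- divisibility by powers of `X - μ` over `ℂ`, `μ` a primitive `d`-th root of unity, is
divisibility by powers of the cyclotomic polynomial over `ℚ` -/
lemma hbr_pow_dvd_iff {d : ℕ} (hd : 0 < d) {μ : ℂ} (hμ : IsPrimitiveRoot μ d) :
    ∀ (j : ℕ) (P : ℚ[X]), P ≠ 0 →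
      ((X - C μ) ^ j ∣ P.map (algebraMap ℚ ℂ) ↔ cyclotomic d ℚ ^ j ∣ P) := by
  have hΦmap : (cyclotomic d ℚ).map (algebraMap ℚ ℂ) = cyclotomic d ℂ := map_cyclotomic d _
  have : NeZero (d : ℂ) := ⟨by exact_mod_cast hd.ne'⟩
  have hroot : (cyclotomic d ℂ).IsRoot μ := (isRoot_cyclotomic_iff).2 hμ
  have hdvd : (X - C μ) ∣ cyclotomic d ℂ := dvd_iff_isRoot.2 hroot
  have hsep : (cyclotomic d ℂ).Separable := separable_cyclotomic d ℂ
  have hm1 : (cyclotomic d ℂ).rootMultiplicity μ = 1 :=
    le_antisymm (rootMultiplicity_le_one_of_separable hsep μ)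
      ((rootMultiplicity_pos (cyclotomic_ne_zero d ℂ)).2 hroot)
  intro j
  induction j with
  | zero => intro P _; simp
  | succ j ih =>
    intro P hP
    have hPℂ : P.map (algebraMap ℚ ℂ) ≠ 0 :=
      (Polynomial.map_ne_zero_iff (algebraMap ℚ ℂ).injective).2 hP
    constructor
    · intro h
      -- `μ` is a root of `P`
      have h1 : (X - C μ) ∣ P.map (algebraMap ℚ ℂ) :=
        dvd_trans (dvd_pow_self _ (Nat.succ_ne_zero j)) h
      have h2 : aeval μ P = 0 := by
        have := dvd_iff_isRoot.1 h1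
        rwa [IsRoot.def, eval_map_algebraMap] at this
      have h3 : cyclotomic d ℚ ∣ P := by
        rw [cyclotomic_eq_minpoly_rat hμ hd]
        exact minpoly.dvd ℚ μ h2
      obtain ⟨P₁, rfl⟩ := h3
      have hP₁ : P₁ ≠ 0 := right_ne_zero_of_mul hP
      rw [Polynomial.map_mul, hΦmap] at h hPℂ
      have h4 : j + 1 ≤ (cyclotomic d ℂ * P₁.map (algebraMap ℚ ℂ)).rootMultiplicity μ :=
        (le_rootMultiplicity_iff hPℂ).2 h
      rw [rootMultiplicity_mul hPℂ, hm1] at h4
      have h5 : j ≤ (P₁.map (algebraMap ℚ ℂ)).rootMultiplicity μ := by omega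
      have h6 : (X - C μ) ^ j ∣ P₁.map (algebraMap ℚ ℂ) :=
        (le_rootMultiplicity_iff (right_ne_zero_of_mul hPℂ)).1 h5
      rw [pow_succ']
      exact mul_dvd_mul_left _ ((ih P₁ hP₁).1 h6)
    · intro h
      have h1 : (cyclotomic d ℚ ^ (j + 1)).map (algebraMap ℚ ℂ) ∣ P.map (algebraMap ℚ ℂ) :=
        Polynomial.map_dvd _ h
      rw [Polynomial.map_pow, hΦmap] at h1
      exact dvd_trans (pow_dvd_pow_of_dvd hdvd _) h1

/-- the root multiplicity at a primitive `d`-th root of unity only depends on `d` -/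
lemma hbr_rootMultiplicity_eq {d : ℕ} (hd : 0 < d) {μ ν : ℂ} (hμ : IsPrimitiveRoot μ d)
    (hν : IsPrimitiveRoot ν d) (P : ℚ[X]) (hP : P ≠ 0) :
    (P.map (algebraMap ℚ ℂ)).rootMultiplicity μ = (P.map (algebraMap ℚ ℂ)).rootMultiplicity ν := by
  have hPℂ : P.map (algebraMap ℚ ℂ) ≠ 0 :=
    (Polynomial.map_ne_zero_iff (algebraMap ℚ ℂ).injective).2 hP
  have key : ∀ {a b : ℂ}, IsPrimitiveRoot a d → IsPrimitiveRoot b d →
      (P.map (algebraMap ℚ ℂ)).rootMultiplicity a ≤ (P.map (algebraMap ℚ ℂ)).rootMultiplicity b := by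
    intro a b ha hb
    rw [le_rootMultiplicity_iff hPℂ, hbr_pow_dvd_iff hd hb _ P hP,
      ← hbr_pow_dvd_iff hd ha _ P hP, ← le_rootMultiplicity_iff hPℂ]
  exact le_antisymm (key hμ hν) (key hν hμ)

/-- the chosen primitive root -/
noncomputable def hbrZeta (d : ℕ) : ℂ := Complex.exp (2 * Real.pi * Complex.I / d)

lemma hbrZeta_spec {d : ℕ} (hd : 0 < d) : IsPrimitiveRoot (hbrZeta d) d :=
  Complex.isPrimitiveRoot_exp d hd.ne'

/-- the sum of the root multiplicities over the `e`-th roots of unity -/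
lemma hbr_sum_nthRoots (P : ℚ[X]) (hP : P ≠ 0) (e : ℕ) :
    ∑ μ ∈ nthRootsFinset e (1 : ℂ), (P.map (algebraMap ℚ ℂ)).rootMultiplicity μ =
      ∑ d ∈ Nat.divisors e,
        Nat.totient d * (P.map (algebraMap ℚ ℂ)).rootMultiplicity (hbrZeta d) := by
  classical
  rw [IsPrimitiveRoot.nthRoots_one_eq_biUnion_primitiveRoots, Finset.sum_biUnion]
  · refine Finset.sum_congr rfl (fun d hd => ?_)
    have hd0 : 0 < d := Nat.pos_of_mem_divisors hd
    rw [← (hbrZeta_spec hd0).card_primitiveRoots, Finset.card_eq_sum_ones, Finset.sum_mul]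
    refine Finset.sum_congr rfl (fun μ hμ => ?_)
    rw [one_mul]
    exact hbr_rootMultiplicity_eq hd0 ((mem_primitiveRoots hd0).1 hμ) (hbrZeta_spec hd0) P hP
  · intro a _ b _ hab
    exact IsPrimitiveRoot.disjoint hab

/-- equal sums over all `e`-th roots of unity force equal multiplicities -/
lemma hbr_mult_eq (P Q : ℚ[X]) (hP : P ≠ 0) (hQ : Q ≠ 0)
    (h : ∀ e : ℕ, 0 < e →
      ∑ μ ∈ nthRootsFinset e (1 : ℂ), (P.map (algebraMap ℚ ℂ)).rootMultiplicity μ =
        ∑ μ ∈ nthRootsFinset e (1 : ℂ), (Q.map (algebraMap ℚ ℂ)).rootMultiplicity μ) :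
    ∀ d : ℕ, 0 < d → (P.map (algebraMap ℚ ℂ)).rootMultiplicity (hbrZeta d) =
      (Q.map (algebraMap ℚ ℂ)).rootMultiplicity (hbrZeta d) := by
  intro d
  induction d using Nat.strong_induction_on with
  | _ d ih =>
    intro hd
    have h1 := h d hd
    rw [hbr_sum_nthRoots P hP, hbr_sum_nthRoots Q hQ, ← Nat.cons_self_properDivisors hd.ne',
      Finset.sum_cons, Finset.sum_cons] at h1
    have h2 : ∑ x ∈ d.properDivisors,
        Nat.totient x * (P.map (algebraMap ℚ ℂ)).rootMultiplicity (hbrZeta x) =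
        ∑ x ∈ d.properDivisors,
          Nat.totient x * (Q.map (algebraMap ℚ ℂ)).rootMultiplicity (hbrZeta x) := by
      refine Finset.sum_congr rfl (fun x hx => ?_)
      rw [ih x (Nat.mem_properDivisors.1 hx).2
        (Nat.pos_of_dvd_of_pos (Nat.mem_properDivisors.1 hx).1 hd)]
    rw [h2] at h1
    have h3 := Nat.add_right_cancel h1
    exact Nat.eq_of_mul_eq_mul_left (Nat.totient_pos.2 hd) h3

/-- two monic rational polynomials whose complex roots are roots of unity, with the same number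
of roots (with multiplicities) among the `e`-th roots of unity for all `e`, are equal -/
theorem hbr_poly_eq (P Q : ℚ[X]) (hP : P.Monic) (hQ : Q.Monic)
    (hPr : ∀ μ : ℂ, (P.map (algebraMap ℚ ℂ)).rootMultiplicity μ ≠ 0 → ∃ n : ℕ, 0 < n ∧ μ ^ n = 1)
    (hQr : ∀ μ : ℂ, (Q.map (algebraMap ℚ ℂ)).rootMultiplicity μ ≠ 0 → ∃ n : ℕ, 0 < n ∧ μ ^ n = 1)
    (h : ∀ e : ℕ, 0 < e →
      ∑ μ ∈ nthRootsFinset e (1 : ℂ), (P.map (algebraMap ℚ ℂ)).rootMultiplicity μ =
        ∑ μ ∈ nthRootsFinset e (1 : ℂ), (Q.map (algebraMap ℚ ℂ)).rootMultiplicity μ) :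
    P = Q := by
  classical
  have hm := hbr_mult_eq P Q hP.ne_zero hQ.ne_zero h
  have hall : ∀ μ : ℂ, (P.map (algebraMap ℚ ℂ)).rootMultiplicity μ =
      (Q.map (algebraMap ℚ ℂ)).rootMultiplicity μ := by
    intro μ
    by_cases hμ : ∃ n : ℕ, 0 < n ∧ μ ^ n = 1
    · obtain ⟨n, hn, hμn⟩ := hμ
      have hfin : IsOfFinOrder μ := isOfFinOrder_iff_pow_eq_one.2 ⟨n, hn, hμn⟩
      have hd : 0 < orderOf μ := hfin.orderOf_pos
      have hprim : IsPrimitiveRoot μ (orderOf μ) := IsPrimitiveRoot.orderOf μ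
      rw [hbr_rootMultiplicity_eq hd hprim (hbrZeta_spec hd) P hP.ne_zero,
        hbr_rootMultiplicity_eq hd hprim (hbrZeta_spec hd) Q hQ.ne_zero]
      exact hm _ hd
    · have h1 : (P.map (algebraMap ℚ ℂ)).rootMultiplicity μ = 0 := by
        by_contra h0
        exact hμ (hPr μ h0)
      have h2 : (Q.map (algebraMap ℚ ℂ)).rootMultiplicity μ = 0 := by
        by_contra h0
        exact hμ (hQr μ h0)
      rw [h1, h2]
  have hroots : (P.map (algebraMap ℚ ℂ)).roots = (Q.map (algebraMap ℚ ℂ)).roots := by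
    ext μ
    rw [count_roots, count_roots, hall μ]
  have hPm : (P.map (algebraMap ℚ ℂ)).Monic := hP.map _
  have hQm : (Q.map (algebraMap ℚ ℂ)).Monic := hQ.map _
  have h1 : P.map (algebraMap ℚ ℂ) = Q.map (algebraMap ℚ ℂ) := by
    rw [(IsAlgClosed.splits (P.map (algebraMap ℚ ℂ))).eq_prod_roots_of_monic hPm,
      (IsAlgClosed.splits (Q.map (algebraMap ℚ ℂ))).eq_prod_roots_of_monic hQm, hroots]
  exact Polynomial.map_injective _ (algebraMap ℚ ℂ).injective h1

end PartB

section PartC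

attribute [-instance] AddCommGroup.toIntModule

/-- kernels and flat base change: ranks -/
lemma hbr_finrank_ker_baseChange {M : Type*} [AddCommGroup M] [Module ℤ M] [Module.Free ℤ M]
    [Module.Finite ℤ M] (h : M →ₗ[ℤ] M) :
    finrank ℂ (LinearMap.ker (h.baseChange ℂ)) = finrank ℤ (LinearMap.ker h) := by
  have h1 : LinearMap.ker (h.baseChange ℂ) =
      LinearMap.range (AlgebraTensorModule.lTensor ℂ ℂ (LinearMap.ker h).subtype) :=
    Module.Flat.ker_lTensor_eq ℂ ℂ h
  have hinj : Function.Injective (AlgebraTensorModule.lTensor ℂ ℂ (LinearMap.ker h).subtype) :=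
    Module.Flat.lTensor_preserves_injective_linearMap (M := ℂ) (LinearMap.ker h).subtype
      (Submodule.injective_subtype _)
  rw [h1, LinearMap.finrank_range_of_inj hinj, Module.finrank_baseChange]

variable {Γ : Type} [Group Γ]

/-- a lattice is free of finite rank for the module structure `X.hV2` -/
lemma hbr_free_finite (X : Rep.{0} ℤ Γ) (hX : IsLat X) :
    @Module.Free ℤ X.V _ _ X.hV2 ∧ @Module.Finite ℤ X.V _ _ X.hV2 := by
  obtain ⟨n, ⟨e⟩⟩ := hX
  let e' : X.V ≃ₗ[ℤ] (Fin n → ℤ) := e.toIntLinearEquiv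
  exact ⟨Module.Free.of_equiv e'.symm, Module.Finite.equiv e'.symm⟩

/-- membership in the fixed subgroup of a cyclic subgroup -/
lemma hbr_mem_fixedSub (X : Rep.{0} ℤ Γ) (h : Γ) (x : X.V) :
    x ∈ fixedSub X (Subgroup.zpowers h) ↔ X.ρ h x = x := by
  constructor
  · intro hx
    exact hx h (Subgroup.mem_zpowers h)
  · intro hx k hk
    let S : Subgroup Γ :=
      { carrier := {γ | X.ρ γ x = x}
        one_mem' := by simp
        mul_mem' := fun {a b} ha hb => by
          show X.ρ (a * b) x = x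
          rw [map_mul, Module.End.mul_apply, hb, ha]
        inv_mem' := fun {a} ha => by
          show X.ρ a⁻¹ x = x
          have h1 : X.ρ a⁻¹ (X.ρ a x) = x := by
            rw [← Module.End.mul_apply, ← map_mul, inv_mul_cancel, map_one, Module.End.one_apply]
          rw [ha] at h1
          exact h1 }
    have hle : Subgroup.zpowers h ≤ S := (Subgroup.zpowers_le).2 hx
    exact hle hk

/-- the rank of the fixed subgroup of `⟨g ^ e⟩` is the rank of the kernel of `ρ(g)^e - 1` -/
lemma hbr_finrank_fixedSub (X : Rep.{0} ℤ Γ) (g : Γ) (e : ℕ) :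
    @Module.finrank ℤ (fixedSub X (Subgroup.zpowers (g ^ e))) _ _ (AddCommGroup.toIntModule _) =
      finrank ℤ (LinearMap.ker ((X.ρ g) ^ e - 1)) := by
  have hiff : ∀ x : X.V, x ∈ fixedSub X (Subgroup.zpowers (g ^ e)) ↔
      x ∈ LinearMap.ker ((X.ρ g) ^ e - 1) := by
    intro x
    rw [hbr_mem_fixedSub, LinearMap.mem_ker, LinearMap.sub_apply, Module.End.one_apply,
      sub_eq_zero, map_pow]
  let E : (fixedSub X (Subgroup.zpowers (g ^ e))) ≃+ (LinearMap.ker ((X.ρ g) ^ e - 1)) :=
    { toFun := fun x => ⟨x.1, (hiff x.1).1 x.2⟩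
      invFun := fun x => ⟨x.1, (hiff x.1).2 x.2⟩
      left_inv := fun x => rfl
      right_inv := fun x => rfl
      map_add' := fun x y => rfl }
  letI : Module ℤ (fixedSub X (Subgroup.zpowers (g ^ e))) := AddCommGroup.toIntModule _
  exact LinearEquiv.finrank_eq E.toIntLinearEquiv

end PartC

section Main

attribute [-instance] AddCommGroup.toIntModule

variable {Γ : Type} [Group Γ] [Finite Γ]

/-- the three properties of the characteristic polynomial of `g` on a lattice `X` -/
lemma hbr_main (X : Rep.{0} ℤ Γ) (hX : IsLat X) (g : Γ) :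
    (latCharpoly X g).Monic ∧
    (∀ μ : ℂ, (((latCharpoly X g).map (Int.castRingHom ℚ)).map
        (algebraMap ℚ ℂ)).rootMultiplicity μ ≠ 0 → ∃ n : ℕ, 0 < n ∧ μ ^ n = 1) ∧
    ∀ e : ℕ, 0 < e →
      ∑ μ ∈ nthRootsFinset e (1 : ℂ), (((latCharpoly X g).map (Int.castRingHom ℚ)).map
        (algebraMap ℚ ℂ)).rootMultiplicity μ =
      @Module.finrank ℤ (fixedSub X (Subgroup.zpowers (g ^ e))) _ _
        (AddCommGroup.toIntModule _) := by
  obtain ⟨hfree, hfin⟩ := hbr_free_finite X hX
  haveI := hfree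
  haveI := hfin
  have hc : latCharpoly X g = LinearMap.charpoly (X.ρ g) := by
    unfold latCharpoly
    exact dif_pos ⟨hfree, hfin⟩
  have hn : 0 < orderOf g := orderOf_pos g
  have hρ : (X.ρ g) ^ orderOf g = 1 := by
    rw [← map_pow, pow_orderOf_eq_one, map_one]
  have hσ : ((X.ρ g).baseChange ℂ) ^ orderOf g = 1 := by
    rw [← LinearMap.baseChange_pow, hρ, LinearMap.baseChange_one]
  have hχ : LinearMap.charpoly ((X.ρ g).baseChange ℂ) =
      ((latCharpoly X g).map (Int.castRingHom ℚ)).map (algebraMap ℚ ℂ) := by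
    rw [LinearMap.charpoly_baseChange, hc, Polynomial.map_map]
    congr 1
  refine ⟨?_, ?_, ?_⟩
  · rw [hc]
    exact LinearMap.charpoly_monic _
  · intro μ hμ
    rw [← hχ] at hμ
    exact ⟨orderOf g, hn, hbr_root_pow _ _ hn hσ μ hμ⟩
  · intro e he
    rw [← hχ, ← hbr_finrank_ker_pow _ _ hn hσ e he, hbr_finrank_fixedSub X g e,
      ← hbr_finrank_ker_baseChange]
    rw [LinearMap.baseChange_sub, LinearMap.baseChange_pow, LinearMap.baseChange_one]

/-- **H-rat**: `StmtHerbRat`. -/
theorem stmtHerbRat : StmtHerbRat := by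
  intro Γ _ _ X Y hX hY hrank g
  obtain ⟨hXm, hXr, hXs⟩ := hbr_main X hX g
  obtain ⟨hYm, hYr, hYs⟩ := hbr_main Y hY g
  have h := hbr_poly_eq _ _ (hXm.map (Int.castRingHom ℚ)) (hYm.map (Int.castRingHom ℚ)) hXr hYr
    (fun e he => by
      rw [hXs e he, hYs e he]
      exact hrank (Subgroup.zpowers (g ^ e)) inferInstance)
  exact Polynomial.map_injective (Int.castRingHom ℚ) Int.cast_injective h

end Main

end Fermat.Agent.TW.E
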