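/-
TW-E / E-herb / H-rank (helper32), unconditional form: all inputs of `stmtHerbRank_of`
(`HerbRank.lean`) are on main.
-/
import Fermat.Agent.TW.E.HerbRank
import Fermat.Agent.TW.E.HerbAdd
import Fermat.Agent.TW.E.HerbFinFinal
import Fermat.Agent.TW.E.HerbLatFinal
import Fermat.Agent.TW.E.HerbRat
import Fermat.Agent.TW.E.HerbModels

set_option autoImplicit false

namespace Fermat.Agent.TW.E

/-- **H-rank**, unconditional. -/
theorem stmtHerbRank : StmtHerbRank :=
  stmtHerbRank_of stmtHerbAdd stmtHerbFin stmtHerbLat stmtHerbRat stmtHerbModels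

end Fermat.Agent.TW.E
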