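/-
TW-E / E-herb / H-units (helper32): the form of Herbrand's lemma used for units.  If
`rank X^H + 1 = #(H \ S)` for all cyclic subgroups `H`, then
`ψ (X/p) - ψ (X[p]) + ψ (𝔽_p) = ψ (𝔽_p[S])`.

Main result: `stmtHerbUnits_of : StmtHerbRank → StmtHerbAdd → StmtHerbPerm → StmtHerbModels →
StmtHerbUnits` (statements in `TW/E/HerbPlan.lean`).

Proof.  `X₁ := X ⊕ ℤ` (`hbuX1`).  H-add on `0 → X → X₁ → ℤ → 0` gives
`h(X₁) = h(X) + ψ (𝔽_p)`; `rank X₁^H = rank X^H + 1` (`hbu_finrank_fixed`, rank-nullity over `ℤ`)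
`= rank ℤ[S]^H` (H-perm), so H-rank gives `h(X₁) = h(ℤ[S]) = ψ (𝔽_p[S])`.
-/
import Mathlib
import Fermat.Agent.TW.E.HerbPlan
import Fermat.Agent.TW.E.HerbModels
import Fermat.Agent.TW.E.HerbRank

set_option autoImplicit false
set_option linter.style.haveILetI false
set_option linter.unusedSectionVars false
set_option linter.unusedVariables false

namespace Fermat.Agent.TW.E

open CategoryTheory

section abstract

/-- finitely generated, from finiteness for any `ℤ`-module structure -/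
lemma hbu_fg_of_finite {A : Type} [AddCommGroup A] (inst : Module ℤ A)
    (h : @Module.Finite ℤ A _ _ inst) : AddGroup.FG A := by
  have e : inst = AddCommGroup.toIntModule A := Subsingleton.elim _ _
  subst e
  exact Module.Finite.iff_addGroup_fg.mp h

/-- the rank of an extension of `ℤ` by `A` -/
lemma hbu_finrank_succ {A B : Type} [AddCommGroup A] [AddCommGroup B] (hB : AddGroup.FG B)
    (i : A →+ B) (s : B →+ ℤ) (hi : Function.Injective i) (hs : Function.Surjective s)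
    (hex : ∀ b, s b = 0 → ∃ a, i a = b) (hsi : ∀ a, s (i a) = 0) :
    Module.finrank ℤ B = Module.finrank ℤ A + 1 := by
  haveI : Module.Finite ℤ B := Module.Finite.iff_addGroup_fg.mpr hB
  haveI : Module.Finite ℤ A := Module.Finite.of_injective i.toIntLinearMap hi
  let f : B →ₗ[ℤ] ℤ := s.toIntLinearMap
  have h := LinearMap.rank_range_add_rank_ker f
  have h1 : LinearMap.range f = ⊤ := LinearMap.range_eq_top.2 hs
  let e : A ≃ₗ[ℤ] LinearMap.ker f :=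
    LinearEquiv.ofBijective (i.toIntLinearMap.codRestrict (LinearMap.ker f) (fun a => hsi a))
      ⟨fun a b hab => hi (congrArg Subtype.val hab), fun ⟨b, hb⟩ => by
        obtain ⟨a, ha⟩ := hex b hb
        exact ⟨a, Subtype.ext ha⟩⟩
  have h2 : Module.rank ℤ (LinearMap.ker f) = Module.rank ℤ A := e.rank_eq.symm
  have h3 : Module.rank ℤ ℤ = 1 := Module.rank_self ℤ
  rw [h1, rank_top, h3, h2, ← Module.finrank_eq_rank ℤ A, ← Module.finrank_eq_rank ℤ B] at h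
  have h4 : ((1 + Module.finrank ℤ A : ℕ) : Cardinal) = ((Module.finrank ℤ B : ℕ) : Cardinal) := by
    push_cast
    exact h
  have h5 := Nat.cast_injective h4
  omega

end abstract

section construct

attribute [-instance] AddCommGroup.toIntModule
attribute [-instance] ZSMul.toSMul

variable {Γ : Type} [Group Γ]

/-- `X ⊕ ℤ` -/
noncomputable def hbuX1 (X : Rep.{0} ℤ Γ) : Rep.{0} ℤ Γ :=
  Rep.of (X.ρ.prod (Representation.trivial ℤ Γ ℤ))

/-- the inclusion `X → X ⊕ ℤ` -/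
noncomputable def hbuInl (X : Rep.{0} ℤ Γ) : X ⟶ hbuX1 X :=
  Rep.ofHom (ρ := X.ρ) (σ := X.ρ.prod (Representation.trivial ℤ Γ ℤ))
    (Representation.IntertwiningMap.inl ℤ X.ρ (Representation.trivial ℤ Γ ℤ))

/-- the projection `X ⊕ ℤ → ℤ` -/
noncomputable def hbuSnd (X : Rep.{0} ℤ Γ) : hbuX1 X ⟶ Rep.trivial ℤ Γ ℤ :=
  Rep.ofHom (ρ := X.ρ.prod (Representation.trivial ℤ Γ ℤ)) (σ := Representation.trivial ℤ Γ ℤ)
    (Representation.IntertwiningMap.snd ℤ X.ρ (Representation.trivial ℤ Γ ℤ))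

lemma hbuInl_apply (X : Rep.{0} ℤ Γ) (x : X.V) :
    (hbuInl X).hom x = ((x, 0) : X.V × ℤ) := rfl

lemma hbuSnd_apply (X : Rep.{0} ℤ Γ) (y : X.V × ℤ) :
    (hbuSnd X).hom y = y.2 := rfl

lemma hbuX1_ρ (X : Rep.{0} ℤ Γ) (g : Γ) (y : X.V × ℤ) :
    (hbuX1 X).ρ g y = ((X.ρ g y.1, y.2) : X.V × ℤ) := rfl

lemma hbuInl_injective (X : Rep.{0} ℤ Γ) : Function.Injective (hbuInl X).hom :=
  fun a b h => congrArg Prod.fst h

lemma hbuSnd_surjective (X : Rep.{0} ℤ Γ) : Function.Surjective (hbuSnd X).hom :=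
  fun n => ⟨((0 : X.V), n), rfl⟩

lemma hbu_exact (X : Rep.{0} ℤ Γ) : Function.Exact (hbuInl X).hom (hbuSnd X).hom := by
  rintro ⟨x, n⟩
  constructor
  · intro h
    have h1 : n = 0 := h
    subst h1
    exact ⟨x, rfl⟩
  · rintro ⟨a, ha⟩
    have h1 : ((a, 0) : X.V × ℤ) = (x, n) := ha
    exact (congrArg Prod.snd h1).symm

lemma hbuX1_fg (X : Rep.{0} ℤ Γ) (hX : IsFG X) : IsFG (hbuX1 X) := by
  haveI : Module.Finite ℤ X.V := hbk_finite_of_fg hX
  have h : Module.Finite ℤ (X.V × ℤ) := inferInstance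
  exact hbu_fg_of_finite (A := X.V × ℤ) _ h

end construct

section ranks

attribute [-instance] AddCommGroup.toIntModule
attribute [-instance] ZSMul.toSMul

variable {Γ : Type} [Group Γ]

/-- the inclusion on fixed vectors -/
noncomputable def hbuFixI (X : Rep.{0} ℤ Γ) (H : Subgroup Γ) :
    fixedSub X H →+ fixedSub (hbuX1 X) H :=
  AddMonoidHom.mk' (fun a => ⟨((a.1, 0) : X.V × ℤ), fun h hh => by
      rw [hbuX1_ρ]
      exact Prod.ext (a.2 h hh) rfl⟩)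
    (fun a b => Subtype.ext (Prod.ext rfl (add_zero (0 : ℤ)).symm))

/-- the projection on fixed vectors -/
noncomputable def hbuFixS (X : Rep.{0} ℤ Γ) (H : Subgroup Γ) : fixedSub (hbuX1 X) H →+ ℤ :=
  AddMonoidHom.mk' (fun b => (b.1 : X.V × ℤ).2) (fun a b => rfl)

/-- `rank (X ⊕ ℤ)^H = rank X^H + 1` -/
lemma hbu_finrank_fixed (X : Rep.{0} ℤ Γ) (hX : IsFG X) (H : Subgroup Γ) :
    @Module.finrank ℤ (fixedSub (hbuX1 X) H) _ _ (AddCommGroup.toIntModule _) =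
      @Module.finrank ℤ (fixedSub X H) _ _ (AddCommGroup.toIntModule _) + 1 := by
  have hfg : AddGroup.FG (fixedSub (hbuX1 X) H) :=
    hbm_fg_of_injective (fixedSub (hbuX1 X) H).subtype Subtype.val_injective (hbuX1_fg X hX)
  refine hbu_finrank_succ hfg (hbuFixI X H) (hbuFixS X H) (fun a b hab => ?_) (fun n => ?_)
    (fun b hb => ?_) (fun a => rfl)
  · apply Subtype.ext
    have h1 : ((a.1, 0) : X.V × ℤ) = (b.1, 0) := congrArg Subtype.val hab
    exact congrArg Prod.fst h1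
  · refine ⟨⟨(((0 : X.V), n) : X.V × ℤ), fun h hh => ?_⟩, rfl⟩
    rw [hbuX1_ρ]
    exact Prod.ext (map_zero _) rfl
  · obtain ⟨⟨x, n⟩, hxn⟩ := b
    have h1 : n = 0 := hb
    subst h1
    refine ⟨⟨x, fun h hh => ?_⟩, rfl⟩
    have h2 := hxn h hh
    rw [hbuX1_ρ] at h2
    exact congrArg Prod.fst h2

variable (p : ℕ) [Fact p.Prime]

/-- `𝔽_p` is a model of `ℤ / p` -/
lemma hbu_modP_int : IsModP p (Rep.trivial ℤ Γ ℤ) (Rep.trivial (ZMod p) Γ (ZMod p)) := by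
  refine ⟨Int.castAddHom (ZMod p), ZMod.intCast_surjective, fun g x => rfl, fun x => ?_⟩
  rw [Int.coe_castAddHom, ZMod.intCast_zmod_eq_zero_iff_dvd]
  constructor
  · rintro ⟨c, rfl⟩
    exact ⟨c, (nsmul_eq_mul p c).symm⟩
  · rintro ⟨y, rfl⟩
    exact ⟨y, nsmul_eq_mul p y⟩

/-- `ℤ` has no `p`-torsion -/
lemma hbu_torP_int (T : Rep.{0} (ZMod p) Γ) (hT : IsTorP p (Rep.trivial ℤ Γ ℤ) T) :
    Subsingleton T.V := by
  obtain ⟨ι, hιi, -, hιm⟩ := hT
  have h0 : ∀ t : T.V, t = 0 := by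
    intro t
    apply hιi
    rw [map_zero]
    have h1 : p • ι t = 0 := (hιm _).2 ⟨t, rfl⟩
    rw [nsmul_eq_mul] at h1
    rcases mul_eq_zero.1 h1 with h2 | h2
    · exact absurd (by exact_mod_cast h2) (Fact.out : p.Prime).ne_zero
    · exact h2
  exact ⟨fun a b => (h0 a).trans (h0 b).symm⟩

/-- `ℤ[S]` is finitely generated -/
lemma hbu_perm_fg (S : Type) [Finite S] [MulAction Γ S] : IsFG (Rep.ofMulAction ℤ Γ S) := by
  have h : Module.Finite ℤ (S →₀ ℤ) := inferInstance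
  haveI : AddGroup.FG (S →₀ ℤ) := hbu_fg_of_finite _ h
  exact AddGroup.fg_of_surjective
    (f := (MonoidAlgebra.coeffAddEquiv (R := ℤ) (M := S)).symm.toAddMonoidHom)
    (MonoidAlgebra.coeffAddEquiv (R := ℤ) (M := S)).symm.surjective

end ranks

/-- **H-units** from H-rank, H-add, H-perm and H-mod. -/
theorem stmtHerbUnits_of (hRank : StmtHerbRank) (hAdd : StmtHerbAdd) (hPerm : StmtHerbPerm)
    (hMod : StmtHerbModels) : StmtHerbUnits := by
  intro p _ Γ _ _ ψ hψ X hX S _ _ hrank M T hM hT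
  obtain ⟨⟨M1, hM1⟩, ⟨T1, hT1⟩, -⟩ := hMod p Γ (hbuX1 X)
  obtain ⟨-, ⟨TZ, hTZ⟩, -⟩ := hMod p Γ (Rep.trivial ℤ Γ ℤ)
  obtain ⟨-, ⟨TS, hTS⟩, -⟩ := hMod p Γ (Rep.ofMulAction ℤ Γ S)
  obtain ⟨hPS, hPT, hPr⟩ := hPerm p Γ S
  have h1 := hAdd p Γ ψ hψ X (hbuX1 X) (Rep.trivial ℤ Γ ℤ) (hbuInl X) (hbuSnd X)
    (hbuX1_fg X hX) (hbuInl_injective X) (hbuSnd_surjective X) (hbu_exact X)
    M T M1 T1 (Rep.trivial (ZMod p) Γ (ZMod p)) TZ hM hT hM1 hT1 (hbu_modP_int p) hTZ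
  have h2 : ψ TZ = 0 := hbk_psi_zero hψ TZ (hbu_torP_int p TZ hTZ)
  have h3 : ψ TS = 0 := hbk_psi_zero hψ TS (hPT TS hTS)
  have h4 := hRank p Γ ψ hψ (hbuX1 X) (Rep.ofMulAction ℤ Γ S) (hbuX1_fg X hX)
    (hbu_perm_fg S) (fun H hH => (hbu_finrank_fixed X hX H).trans ((hrank H hH).trans (hPr H).symm))
    M1 T1 (Rep.ofMulAction (ZMod p) Γ S) TS hM1 hT1 hPS hTS
  omega

end Fermat.Agent.TW.E
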