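/-
TW-E / E-herb (helper32): Herbrand's lemma modulo `p`, final unconditional statements.
All pieces of `TW/E/HerbPlan.lean` are proved:
`stmtHerbModels`, `stmtHerbAdd`, `stmtHerbFin`, `stmtHerbLat`, `stmtHerbRat`, `stmtHerbPerm`,
`stmtHerbRank`, `stmtHerbUnits`.
-/
import Fermat.Agent.TW.E.HerbUnits
import Fermat.Agent.TW.E.HerbRankFinal
import Fermat.Agent.TW.E.HerbPerm

set_option autoImplicit false

namespace Fermat.Agent.TW.E

/-- **H-units**, unconditional: if `rank X^H + 1 = #(H \ S)` for all cyclic subgroups `H` of the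
finite group `Γ`, then `ψ (X/p) - ψ (X[p]) + ψ (𝔽_p) = ψ (𝔽_p[S])` for every additive `ψ`. -/
theorem stmtHerbUnits : StmtHerbUnits :=
  stmtHerbUnits_of stmtHerbRank stmtHerbAdd stmtHerbPerm stmtHerbModels

end Fermat.Agent.TW.E
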