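import Fermat.Agent.TW.E.K0Plan

/-!
# TW-E / E-K0, piece K5: additive functions on permutation representations of disjoint unions
(helper35)

`stmtSigmaAdd : StmtSigmaAdd` — for an additive `ψ` and a finite family of finite `Γ`-sets `X i`,
`ψ (k[Σ i, X i]) = ∑ i, ψ (k[X i])`.

Proof: `ψ` is additive on products of representations (split exact sequence `inl`, `snd`),
`k[X ⊕ Y] ≅ k[X] × k[Y]`, `ψ (k[∅]) = 0`, equivariant bijections induce isomorphisms, and
`Fintype.induction_empty_option`.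
-/

set_option autoImplicit false

namespace Fermat.Agent.TW.E

open CategoryTheory MonoidAlgebra

section

variable {k Γ : Type} [Field k] [Group Γ]

/-- `ψ` vanishes on representations on subsingleton modules. -/
theorem k0si_zero (ψ : Rep.{0} k Γ → ℤ) (hψ : IsAddFun ψ) (M : Rep.{0} k Γ)
    [Subsingleton M.V] : ψ M = 0 := by
  have h := hψ.add M M M (𝟙 M) (𝟙 M) inferInstance
    (fun x y _ => Subsingleton.elim x y) (fun y => ⟨y, Subsingleton.elim _ _⟩)
    (fun y => ⟨fun _ => ⟨y, Subsingleton.elim _ _⟩, fun _ => Subsingleton.elim _ _⟩)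
  omega

/-- `ψ` is additive on products. -/
theorem k0si_prod (ψ : Rep.{0} k Γ → ℤ) (hψ : IsAddFun ψ) {V W : Type} [AddCommGroup V]
    [Module k V] [AddCommGroup W] [Module k W] [Module.Finite k V] [Module.Finite k W]
    (ρ : Representation k Γ V) (σ : Representation k Γ W) :
    ψ (Rep.of (ρ.prod σ)) = ψ (Rep.of ρ) + ψ (Rep.of σ) := by
  refine hψ.add (Rep.of ρ) (Rep.of (ρ.prod σ)) (Rep.of σ)
    (Rep.ofHom (Representation.IntertwiningMap.inl k ρ σ))
    (Rep.ofHom (Representation.IntertwiningMap.snd k ρ σ)) ?_ ?_ ?_ ?_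
  · change Module.Finite k (V × W)
    infer_instance
  · intro x y hxy
    have := congrArg Prod.fst hxy
    exact this
  · exact fun y => ⟨(0, y), rfl⟩
  · intro y
    constructor
    · intro hy
      refine ⟨y.1, ?_⟩
      apply Prod.ext
      · rfl
      · exact hy.symm
    · rintro ⟨x, rfl⟩
      rfl

/-- an equivariant bijection of `Γ`-sets induces an isomorphism of permutation
representations. -/
theorem k0si_iso (X Y : Type) [MulAction Γ X] [MulAction Γ Y] (u : X ≃ Y)
    (hu : ∀ (g : Γ) (x : X), u (g • x) = g • u x) :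
    Nonempty (Rep.ofMulAction k Γ X ≅ Rep.ofMulAction k Γ Y) := by
  refine ⟨Rep.mkIso (Representation.Equiv.mk (mapDomainLinearEquiv k k u) ?_)⟩
  intro g
  apply MonoidAlgebra.lhom_ext'
  intro x
  ext
  simp [hu]

/-- `k[X ⊕ Y] ≅ k[X] × k[Y]`. -/
theorem k0si_sum_iso (X Y : Type) [MulAction Γ X] [MulAction Γ Y] :
    Nonempty (Rep.ofMulAction k Γ (X ⊕ Y) ≅
      Rep.of ((Representation.ofMulAction k Γ X).prod (Representation.ofMulAction k Γ Y))) := by
  let e : MonoidAlgebra k (X ⊕ Y) ≃ₗ[k] MonoidAlgebra k X × MonoidAlgebra k Y :=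
    (coeffLinearEquiv k).trans <| (Finsupp.sumFinsuppLEquivProdFinsupp k).trans <|
      ((coeffLinearEquiv k).symm.prodCongr (coeffLinearEquiv k).symm)
  refine ⟨Rep.mkIso (Representation.Equiv.mk e ?_)⟩
  intro g
  apply MonoidAlgebra.lhom_ext'
  intro x
  ext
  · rcases x with x | y
    · simp [e, Finsupp.sumFinsuppLEquivProdFinsupp]
    · simp [e, Finsupp.sumFinsuppLEquivProdFinsupp]
  · rcases x with x | y
    · simp [e, Finsupp.sumFinsuppLEquivProdFinsupp]
    · simp [e, Finsupp.sumFinsuppLEquivProdFinsupp]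

/-- `ψ (k[X ⊕ Y]) = ψ (k[X]) + ψ (k[Y])`. -/
theorem k0si_sum (ψ : Rep.{0} k Γ → ℤ) (hψ : IsAddFun ψ) (X Y : Type) [Finite X] [Finite Y]
    [MulAction Γ X] [MulAction Γ Y] :
    ψ (Rep.ofMulAction k Γ (X ⊕ Y)) = ψ (Rep.ofMulAction k Γ X) + ψ (Rep.ofMulAction k Γ Y) := by
  have : Module.Finite k (MonoidAlgebra k X) :=
    Module.Finite.equiv (coeffLinearEquiv (S := k) (M := X) k).symm
  have : Module.Finite k (MonoidAlgebra k Y) :=
    Module.Finite.equiv (coeffLinearEquiv (S := k) (M := Y) k).symm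
  rw [hψ.iso _ _ (k0si_sum_iso X Y)]
  exact k0si_prod ψ hψ _ _

/-- `ψ (k[X]) = 0` for an empty `Γ`-set. -/
theorem k0si_empty (ψ : Rep.{0} k Γ → ℤ) (hψ : IsAddFun ψ) (X : Type) [IsEmpty X]
    [MulAction Γ X] : ψ (Rep.ofMulAction k Γ X) = 0 := by
  have : Subsingleton (Rep.ofMulAction k Γ X).V := by
    change Subsingleton (MonoidAlgebra k X)
    exact (coeffLinearEquiv (S := k) (M := X) k).toEquiv.subsingleton
  exact k0si_zero ψ hψ _

/-- the equivariant bijection `Σ o : Option ι, X o ≃ X none ⊕ Σ i, X (some i)`. -/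
def k0siOption {ι : Type} (X : Option ι → Type) :
    (Σ o, X o) ≃ X none ⊕ Σ i, X (some i) where
  toFun z :=
    match z with
    | ⟨none, x⟩ => Sum.inl x
    | ⟨some i, x⟩ => Sum.inr ⟨i, x⟩
  invFun z :=
    match z with
    | Sum.inl x => ⟨none, x⟩
    | Sum.inr ⟨i, x⟩ => ⟨some i, x⟩
  left_inv z := by
    rcases z with ⟨_ | i, x⟩ <;> rfl
  right_inv z := by
    rcases z with x | ⟨i, x⟩ <;> rfl

end

/-- **K5.** Additivity on disjoint unions. -/
theorem stmtSigmaAdd : StmtSigmaAdd := by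
  intro k Γ _ _ ψ hψ ι _
  refine Fintype.induction_empty_option
    (P := fun (ι : Type) [Fintype ι] => ∀ (X : ι → Type) [∀ i, Finite (X i)]
      [∀ i, MulAction Γ (X i)],
      ψ (Rep.ofMulAction k Γ (Σ i, X i)) = ∑ i, ψ (Rep.ofMulAction k Γ (X i))) ?_ ?_ ?_ ι
  · -- transport along an equivalence
    intro α β _ e hα X _ _
    let _ : Fintype α := Fintype.ofEquiv β e.symm
    have h := hα (fun a => X (e a))
    have hiso : Nonempty (Rep.ofMulAction k Γ (Σ a, X (e a)) ≅ Rep.ofMulAction k Γ (Σ b, X b)) :=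
      k0si_iso _ _ (Equiv.sigmaCongrLeft e) (fun g x => by rcases x with ⟨a, x⟩; rfl)
    rw [← hψ.iso _ _ hiso, h]
    exact Equiv.sum_comp e fun b => ψ (Rep.ofMulAction k Γ (X b))
  · -- empty index type
    intro X _ _
    rw [k0si_empty ψ hψ]
    simp
  · -- `Option`
    intro α _ hα X _ _
    have hiso : Nonempty (Rep.ofMulAction k Γ (Σ o, X o) ≅
        Rep.ofMulAction k Γ (X none ⊕ Σ i, X (some i))) :=
      k0si_iso _ _ (k0siOption X) (fun g x => by rcases x with ⟨_ | i, x⟩ <;> rfl)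
    rw [hψ.iso _ _ hiso, k0si_sum ψ hψ, hα (fun i => X (some i)), Fintype.sum_option]

end Fermat.Agent.TW.E
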