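/-
Project TW (S56) — part TW-E, block E-cyc (captain helper75): piece **Y-asm1**,
the assembly of the Kummer package `StmtKum` from its pieces.  Names `kua_*`.
-/
import Fermat.Agent.TW.E.Plan2
import Fermat.Agent.TW.E.Asm

set_option autoImplicit false
set_option linter.unusedSectionVars false
set_option linter.style.haveILetI false

noncomputable section

namespace Fermat.Agent.TW.E

open CategoryTheory groupCohomology Module Fermat.Agent.PT Fermat.Agent.PT.F Fermat.Agent.PT.B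
  Fermat.Agent.TW.F ExtCitation

/-- `𝓜_U` is trivial on `U` when `χ|_U = 1` -/
theorem kua_trivOnLevel {p : ℕ} {G : Type} [Group G] (𝒯 : Tower G) (χ : G →* (ZMod p)ˣ)
    (U : Subgroup G) [U.Normal] (hU : U ∈ 𝒯.lev) (hχ : ∀ s ∈ U, χ s = 1) :
    TrivOnLevel 𝒯 (regMu χ U) := by
  refine ⟨U, hU, fun s hs => ?_⟩
  ext ψ
  funext γ
  show ((χ s : (ZMod p)ˣ) : ZMod p) * (ψ : (G ⧸ U) → ZMod p) ((s : G ⧸ U)⁻¹ * γ) = ψ γ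
  rw [hχ s hs, (QuotientGroup.eq_one_iff s).2 hs, inv_one, one_mul, Units.val_one, one_mul]

/-- the value of an additive function on the zero... iso-invariance under an isomorphism -/
theorem kua_iso {k Γ : Type} [Field k] [Group Γ] {ψ : Rep.{0} k Γ → ℤ} (hψ : IsAddFun ψ)
    {M N : Rep.{0} k Γ} (h : Nonempty (M ≅ N)) : ψ M = ψ N := hψ.iso M N h

/-- **Y-asm1**, with the class-number input in the form in which it is proved (K-Cl,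
`StmtClFin'` of `ClFin.lean`: for an odd `p ∈ S` and the five hypotheses of the datum). -/
theorem stmtKum_of' (hGF : Fermat.Agent.TW.F.StmtGloFin) (hH2Fin : StmtH2Fin)
    (hPD : StmtPDepthTower) (hHU : StmtHerbUnits) (hHF : StmtHerbFin) (hHM : StmtHerbModels)
    (hKS : StmtKumSplice) (hTS : StmtTorSplice) (hSA : StmtSigmaAdd) (hK0 : StmtKumH0)
    (hK1 : StmtKumH1) (hK2 : StmtKumH2) (hBS : StmtBrSeq) (hBJ : StmtBrJ) (hBC : StmtBrC)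
    (hCl : ∀ (p : ℕ) [Fact p.Prime] (_ : p ≠ 2) (S : Finset Nat.Primes) (_ : pPrime p ∈ S),
        StmtCmGlob → StmtCmLoc → StmtH90Loc → StmtExistC → StmtSurvC →
        ∀ (U : Subgroup GQ) [U.Normal], U ∈ (towerS S).lev →
          Finite ↥(levH1 (towerS S) (homRep (permZ GQ (GQ ⧸ U)) (ERep S))))
    (hUn : StmtUnitsCyc) : StmtKum := by
  intro p _ hp2 S hpS hcg hcl hh hex hsv U _ hU hχ
  haveI : Nonempty ↥S := ⟨⟨pPrime p, hpS⟩⟩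
  haveI : U.FiniteIndex := (towerS S).finiteIndex U hU
  haveI : Finite (GQ ⧸ U) := Subgroup.finite_quotient_of_finiteIndex
  set D := concreteDatum p hp2 S hpS hcg hcl hh hex hsv with hD
  have hPDG : HasPDepthGlob D := asm_hasPDepthGlob hPD p hp2 S hpS hcg hcl hh hex hsv
  have hU' : U ∈ D.𝒯.lev := hU
  have hχ' : ∀ s ∈ U, D.χ s = 1 := hχ
  have htriv : TrivOnLevel D.𝒯 (regMu D.χ U) := kua_trivOnLevel D.𝒯 D.χ U hU' hχ'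
  haveI : Fintype (GQ ⧸ U) := Fintype.ofFinite _
  haveI hfd : FiniteDimensional (ZMod p) (regMu D.χ U) := by
    change Module.Finite (ZMod p) ((GQ ⧸ U) → ZMod p)
    infer_instance
  have hf1 : Module.Finite (ZMod p) ↥(levH1 D.𝒯 (regMu D.χ U)) := by
    haveI : Finite ↥(levH1 D.𝒯 (regMu D.χ U)) := hGF p GQ ↥S (GlocS S) D (regMu D.χ U) htriv
    exact Module.Finite.of_finite
  have hf2 : Module.Finite (ZMod p) (levH2 D.𝒯 (regMu D.χ U)) :=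
    hH2Fin p GQ ↥S (GlocS S) D hPDG (regMu D.χ U) htriv
  refine ⟨hf1, hf2, fun ψ hψ => ?_⟩
  -- the models
  obtain ⟨⟨Xm, hXm⟩, -, -, -, -, -⟩ := hHM p (GQ ⧸ U) (cycUnits D U)
  obtain ⟨⟨Clm, hClm⟩, ⟨Clt, hClt⟩, -, -, -, -⟩ := hHM p (GQ ⧸ U) (cycZ1 U D.E D.𝒯)
  obtain ⟨-, ⟨Brt, hBrt⟩, -, -, -, -⟩ := hHM p (GQ ⧸ U) (cycZ2 U D.E D.𝒯)
  obtain ⟨BJt, hBJt, hBJiso⟩ := hBJ p GQ ↥S (GlocS S) D hPDG U hU'
  obtain ⟨BCt, hBCt, hBCiso⟩ := hBC p GQ ↥S (GlocS S) D hPDG U hU'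
  have hXt : IsTorP p (cycUnits D U) (cycH0 D.χ U) := hK0 p GQ ↥S (GlocS S) D U hU' hχ'
  -- the Kummer sequences
  have e1 : ψ (cycH1 D.𝒯 D.χ U) = ψ Xm + ψ Clt :=
    hKS p (GQ ⧸ U) ψ hψ (cycUnits D U) (cycZ1 U D.E D.𝒯) (cycH1 D.𝒯 D.χ U) hf1
      (hK1 p GQ ↥S (GlocS S) D U hU' hχ') Xm Clt hXm hClt
  have e2 : ψ (cycH2 D.𝒯 D.χ U) = ψ Clm + ψ Brt :=
    hKS p (GQ ⧸ U) ψ hψ (cycZ1 U D.E D.𝒯) (cycZ2 U D.E D.𝒯) (cycH2 D.𝒯 D.χ U) hf2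
      (hK2 p GQ ↥S (GlocS S) D U hU' hχ') Clm Brt hClm hBrt
  -- the class group
  have e3 : ψ Clm = ψ Clt :=
    hHF p (GQ ⧸ U) ψ hψ (cycZ1 U D.E D.𝒯) (hCl p hp2 S hpS hcg hcl hh hex hsv U hU) Clm Clt hClm hClt
  -- the Brauer group
  have hBJfin : Module.Finite (ZMod p) BJt.V := by
    obtain ⟨i⟩ := hBJiso
    haveI : Module.Finite (ZMod p)
        (Rep.ofMulAction (ZMod p) (GQ ⧸ U) (Σ v : ↥S, (GQ ⧸ U) ⧸ cycDec D U v)).V := by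
      change Module.Finite (ZMod p) (MonoidAlgebra (ZMod p) (Σ v : ↥S, (GQ ⧸ U) ⧸ cycDec D U v))
      infer_instance
    exact Module.Finite.of_surjective i.inv.hom.toLinearMap (asm_iso_bij i.symm).2
  have e4 : ψ BJt = ψ Brt + ψ BCt :=
    hTS p (GQ ⧸ U) ψ hψ (cycZ2 U D.E D.𝒯) (cycZ2 U (PTJ D) D.𝒯) (cycZ2 U D.C D.𝒯)
      (hBS p GQ ↥S (GlocS S) D hPDG U hU') Brt BJt BCt hBrt hBJt hBCt hBJfin
  have e5 : ψ BJt = ψ (Rep.ofMulAction (ZMod p) (GQ ⧸ U) (Σ v : ↥S, (GQ ⧸ U) ⧸ cycDec D U v)) :=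
    hψ.iso _ _ hBJiso
  have e6 : ψ BCt = ψ (Rep.trivial (ZMod p) (GQ ⧸ U) (ZMod p)) := hψ.iso _ _ hBCiso
  -- the units
  obtain ⟨hFG, hrk⟩ := hUn p hp2 S hpS hcg hcl hh hex hsv U hU
  have e7 : ψ Xm - ψ (cycH0 D.χ U) + ψ (Rep.trivial (ZMod p) (GQ ⧸ U) (ZMod p)) =
      ψ (Rep.ofMulAction (ZMod p) (GQ ⧸ U)
        (Σ i : Option ↥S, (GQ ⧸ U) ⧸ cycPl D U (cycConj U) i)) :=
    hHU p (GQ ⧸ U) ψ hψ (cycUnits D U) hFG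
      (Σ i : Option ↥S, (GQ ⧸ U) ⧸ cycPl D U (cycConj U) i) hrk Xm (cycH0 D.χ U) hXm hXt
  -- the places
  have e8 : ψ (Rep.ofMulAction (ZMod p) (GQ ⧸ U)
        (Σ i : Option ↥S, (GQ ⧸ U) ⧸ cycPl D U (cycConj U) i)) =
      ∑ i : Option ↥S, ψ (Rep.ofMulAction (ZMod p) (GQ ⧸ U)
        ((GQ ⧸ U) ⧸ cycPl D U (cycConj U) i)) :=
    hSA (ZMod p) (GQ ⧸ U) ψ hψ (Option ↥S)
      (fun i => (GQ ⧸ U) ⧸ cycPl D U (cycConj U) i)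
  have e9 : ψ (Rep.ofMulAction (ZMod p) (GQ ⧸ U) (Σ v : ↥S, (GQ ⧸ U) ⧸ cycDec D U v)) =
      ∑ v : ↥S, ψ (Rep.ofMulAction (ZMod p) (GQ ⧸ U) ((GQ ⧸ U) ⧸ cycDec D U v)) :=
    hSA (ZMod p) (GQ ⧸ U) ψ hψ ↥S (fun v => (GQ ⧸ U) ⧸ cycDec D U v)
  rw [Fintype.sum_option] at e8
  have e10 : ψ (Rep.ofMulAction (ZMod p) (GQ ⧸ U)
        ((GQ ⧸ U) ⧸ cycPl D U (cycConj U) none)) =
      ψ (Rep.ofMulAction (ZMod p) (GQ ⧸ U) ((GQ ⧸ U) ⧸ Subgroup.zpowers (cycConj U))) := rfl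
  have e11 : (∑ v : ↥S, ψ (Rep.ofMulAction (ZMod p) (GQ ⧸ U)
        ((GQ ⧸ U) ⧸ cycPl D U (cycConj U) (some v)))) =
      ∑ v : ↥S, ψ (Rep.ofMulAction (ZMod p) (GQ ⧸ U) ((GQ ⧸ U) ⧸ cycDec D U v)) := rfl
  show ψ (cycH0 D.χ U) + ψ (cycH2 D.𝒯 D.χ U) +
      ψ (Rep.ofMulAction (ZMod p) (GQ ⧸ U) ((GQ ⧸ U) ⧸ Subgroup.zpowers (cycConj U))) =
    ψ (cycH1 D.𝒯 D.χ U)
  linarith

/-- **Y-asm1.** -/
theorem stmtKum_of (hGF : Fermat.Agent.TW.F.StmtGloFin) (hH2Fin : StmtH2Fin)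
    (hPD : StmtPDepthTower) (hHU : StmtHerbUnits) (hHF : StmtHerbFin) (hHM : StmtHerbModels)
    (hKS : StmtKumSplice) (hTS : StmtTorSplice) (hSA : StmtSigmaAdd) (hK0 : StmtKumH0)
    (hK1 : StmtKumH1) (hK2 : StmtKumH2) (hBS : StmtBrSeq) (hBJ : StmtBrJ) (hBC : StmtBrC)
    (hCl : StmtClFin) (hUn : StmtUnitsCyc) : StmtKum :=
  stmtKum_of' hGF hH2Fin hPD hHU hHF hHM hKS hTS hSA hK0 hK1 hK2 hBS hBJ hBC
    (fun _ _ _ S hpS _ _ _ _ _ U _ hU => hCl S ⟨_, hpS⟩ U hU) hUn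

end Fermat.Agent.TW.E

end
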