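/-
Project TW (S56) — part TW-E, block **E-cyc**, SHARED BASE of the Kummer pieces K-H0, K-H1, K-H2
(helper35).  Names `kumb*`.

* `kumbLift` : the additive map induced along a surjection;
* `kumbZ1`, `kumbCls` : level 1-cocycles (as functions) and their classes in `H¹_lev`
  (any coefficient ring), `kumb_cls_surj`, `kumb_cls_eq_zero_iff`, `kumb_levH1Map_cls`;
* `kumbKappa D U : 𝓜 → Hom_ℤ(ℤ[Γ], E)`, `κ(ψ)(e_γ) = ψ(γ).val • ζ`: additive, injective, with image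
  the `p`-torsion, equivariant for `G` (`kumb_kappa_conj`) and for the right translations
  (`kumb_kappa_rt`); its inverse `kumbKinv` on the `p`-torsion.
-/
import Fermat.Agent.TW.E.Plan2
import Fermat.Agent.TW.E.H2SurjMu

set_option autoImplicit false
set_option linter.unusedSectionVars false
set_option linter.style.haveILetI false

noncomputable section

namespace Fermat.Agent.TW.E

open CategoryTheory groupCohomology Module Fermat.Agent.PT Fermat.Agent.PT.F Fermat.Agent.PT.B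
  Fermat.Agent.TW.F

attribute [local instance 1100] Rep.hV2

/-! ### Lifting additive maps along surjections -/

section Lift

variable {X V W : Type} [AddCommGroup X] [AddCommGroup V] [AddCommGroup W]

/-- The additive map `V → W` induced by `β : X → W` along a surjection `α : X → V` with
`ker α ≤ ker β`. -/
def kumbLift (α : X →+ V) (β : X →+ W) (hα : Function.Surjective α)
    (h : ∀ x, α x = 0 → β x = 0) : V →+ W where
  toFun v := β (Classical.choose (hα v))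
  map_zero' := h _ (Classical.choose_spec (hα 0))
  map_add' v w := by
    rw [← map_add, ← sub_eq_zero, ← map_sub]
    apply h
    rw [map_sub, map_add, Classical.choose_spec (hα (v + w)), Classical.choose_spec (hα v),
      Classical.choose_spec (hα w), sub_self]

lemma kumbLift_apply (α : X →+ V) (β : X →+ W) (hα : Function.Surjective α)
    (h : ∀ x, α x = 0 → β x = 0) (x : X) : kumbLift α β hα h (α x) = β x := by
  show β (Classical.choose (hα (α x))) = β x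
  rw [← sub_eq_zero, ← map_sub]
  apply h
  rw [map_sub, Classical.choose_spec (hα (α x)), sub_self]

end Lift

/-! ### Classes of level 1-cocycles -/

section Cls

variable {k : Type} [CommRing k] {G : Type} [Group G] (𝒯 : Tower G) (B : Rep.{0} k G)

/-- level 1-cocycles, as a submodule of the functions -/
def kumbZ1 : Submodule k (G → B.V) := cocycles₁ B ⊓ levCochains₁ 𝒯 B

lemma mem_kumbZ1 (x : G → B.V) : x ∈ kumbZ1 𝒯 B ↔ x ∈ cocycles₁ B ∧ IsLevel₁ 𝒯 x := Iff.rfl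

/-- the class of a level 1-cocycle -/
def kumbCls : ↥(kumbZ1 𝒯 B) →ₗ[k] ↥(levH1 𝒯 B) :=
  LinearMap.codRestrict (levH1 𝒯 B)
    ((H1π B).hom ∘ₗ (Submodule.inclusion (inf_le_left : kumbZ1 𝒯 B ≤ cocycles₁ B)))
    (fun x => (mem_levH1_iff 𝒯 B _).2 ⟨⟨x.1, x.2.1⟩, x.2.2, rfl⟩)

lemma kumbCls_val (x : ↥(kumbZ1 𝒯 B)) :
    ((kumbCls 𝒯 B x : ↥(levH1 𝒯 B)) : H1 B) = (H1π B).hom ⟨x.1, x.2.1⟩ := rfl

lemma kumbCls_surjective : Function.Surjective (kumbCls 𝒯 B) := by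
  rintro ⟨y, hy⟩
  obtain ⟨c, hc, rfl⟩ := (mem_levH1_iff 𝒯 B y).1 hy
  exact ⟨⟨c.1, c.2, hc⟩, Subtype.ext rfl⟩

lemma kumbCls_eq_zero_iff (x : ↥(kumbZ1 𝒯 B)) :
    kumbCls 𝒯 B x = 0 ↔ ∃ b : B.V, ∀ g : G, (x : G → B.V) g = B.ρ g b - b := by
  rw [← Subtype.coe_inj, kumbCls_val, Submodule.coe_zero]
  rw [H1π_eq_zero_iff (⟨x.1, x.2.1⟩ : cocycles₁ B)]
  constructor
  · rintro ⟨b, hb⟩
    exact ⟨b, fun g => (congrFun hb g).symm⟩
  · rintro ⟨b, hb⟩
    exact ⟨b, funext fun g => (hb g).symm⟩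

variable {B} in
/-- push-forward of level 1-cocycles along a morphism -/
def kumbPush {B' : Rep.{0} k G} (f : B ⟶ B') : ↥(kumbZ1 𝒯 B) →ₗ[k] ↥(kumbZ1 𝒯 B') :=
  (LinearMap.compLeft f.hom.toLinearMap G).restrict (p := kumbZ1 𝒯 B) (q := kumbZ1 𝒯 B')
    (fun x hx => ⟨(mem_cocycles₁_iff _).2 fun g h => by
      show f.hom (x (g * h)) = B'.ρ g (f.hom (x h)) + f.hom (x g)
      rw [(mem_cocycles₁_iff x).1 hx.1 g h, map_add, Rep.hom_comm_apply], hx.2.comp _⟩)

variable {B} in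
lemma kumbPush_apply {B' : Rep.{0} k G} (f : B ⟶ B') (x : ↥(kumbZ1 𝒯 B)) (g : G) :
    ((kumbPush 𝒯 f x : ↥(kumbZ1 𝒯 B')) : G → B'.V) g = f.hom ((x : G → B.V) g) := rfl

variable {B} in
/-- `levH1Map` on classes -/
lemma kumb_levH1Map_cls {B' : Rep.{0} k G} (f : B ⟶ B') (x : ↥(kumbZ1 𝒯 B)) :
    levH1Map 𝒯 f (kumbCls 𝒯 B x) = kumbCls 𝒯 B' (kumbPush 𝒯 f x) := by
  apply Subtype.ext
  rw [levH1Map_mk 𝒯 f ⟨x.1, x.2.1⟩ (kumbCls 𝒯 B x) (kumbCls_val 𝒯 B x), kumbCls_val]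
  rfl

end Cls

/-! ### `κ : 𝓜 → Hom_ℤ(ℤ[Γ], E)` -/

section Kappa

variable {p : ℕ} [Fact p.Prime] {G : Type} [Group G] {ι : Type} {Gloc : ι → Type}
  [∀ v, Group (Gloc v)] (D : PTDatum p G ι Gloc) (U : Subgroup G) [U.Normal]

/-- `κ(ψ)(e_γ) = ψ(γ).val • ζ` -/
def kumbKappa : ((G ⧸ U) → ZMod p) →+ ((permZ G (G ⧸ U)).V →+ D.E.V) where
  toFun ψ := chl_lift (G ⧸ U) (fun γ => h2mTheta D (ψ γ))
  map_zero' := by
    apply chl_ext
    intro γ
    rw [chl_lift_single, one_smul, Pi.zero_apply, map_zero, AddMonoidHom.zero_apply]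
  map_add' ψ ψ' := by
    apply chl_ext
    intro γ
    rw [AddMonoidHom.add_apply, chl_lift_single, chl_lift_single, chl_lift_single, one_smul,
      one_smul, one_smul, Pi.add_apply, map_add]

lemma kumb_kappa_single (ψ : (G ⧸ U) → ZMod p) (γ : G ⧸ U) :
    kumbKappa D U ψ (MonoidAlgebra.single γ 1) = h2mTheta D (ψ γ) := by
  show chl_lift (G ⧸ U) (fun γ => h2mTheta D (ψ γ)) (MonoidAlgebra.single γ 1) = _
  rw [chl_lift_single, one_smul]

lemma kumb_kappa_injective : Function.Injective (kumbKappa D U) := by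
  intro ψ ψ' h
  funext γ
  have h1 : kumbKappa D U ψ (MonoidAlgebra.single γ 1) =
      kumbKappa D U ψ' (MonoidAlgebra.single γ 1) := by rw [h]
  rw [kumb_kappa_single, kumb_kappa_single] at h1
  exact h2m_theta_injective D h1

lemma kumb_p_kappa (ψ : (G ⧸ U) → ZMod p) : p • kumbKappa D U ψ = 0 := by
  apply chl_ext
  intro γ
  rw [AddMonoidHom.nsmul_apply, kumb_kappa_single, h2m_p_theta, AddMonoidHom.zero_apply]

lemma kumb_kappa_surj (h : (permZ G (G ⧸ U)).V →+ D.E.V) (hp : p • h = 0) :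
    ∃ ψ : (G ⧸ U) → ZMod p, kumbKappa D U ψ = h := by
  have h1 : ∀ γ : G ⧸ U, ∃ a : ZMod p, h2mTheta D a = h (MonoidAlgebra.single γ 1) := by
    intro γ
    apply h2m_theta_surj
    rw [← AddMonoidHom.nsmul_apply, hp, AddMonoidHom.zero_apply]
  choose a ha using h1
  refine ⟨a, ?_⟩
  apply chl_ext
  intro γ
  rw [kumb_kappa_single, ha]

/-- the action of `G` on the basis of `ℤ[Γ]` -/
lemma kumb_smul_mk (g : G) (γ : G ⧸ U) : g • γ = (g : G ⧸ U) * γ := by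
  obtain ⟨x, rfl⟩ := QuotientGroup.mk_surjective γ
  rfl

/-- `κ` is `G`-equivariant -/
lemma kumb_kappa_conj (g : G) (ψ : (G ⧸ U) → ZMod p) :
    conjAdd (permZ G (G ⧸ U)) D.E g (kumbKappa D U ψ) =
      kumbKappa D U (regMuρ D.χ U g ψ) := by
  apply chl_ext
  intro γ
  rw [conjAdd_apply, chl_ρ_single, kumb_kappa_single, kumb_kappa_single, h2m_theta_ρ,
    kumb_smul_mk, QuotientGroup.mk_inv]
  rfl

/-- `κ` commutes with the right translations -/
lemma kumb_kappa_rt (δ : G ⧸ U) (ψ : (G ⧸ U) → ZMod p) :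
    (kumbKappa D U ψ).comp (rtAdd U δ) = kumbKappa D U (fun γ => ψ (γ * δ)) := by
  apply chl_ext
  intro γ
  rw [AddMonoidHom.comp_apply, rtAdd_single, kumb_kappa_single, kumb_kappa_single]

/-- the inverse of `κ` (on the `p`-torsion) -/
def kumbKinv (h : (permZ G (G ⧸ U)).V →+ D.E.V) : (G ⧸ U) → ZMod p :=
  Function.invFun (kumbKappa D U) h

lemma kumb_kinv_kappa (ψ : (G ⧸ U) → ZMod p) : kumbKinv D U (kumbKappa D U ψ) = ψ :=
  Function.leftInverse_invFun (kumb_kappa_injective D U) ψ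

lemma kumb_kappa_kinv (h : (permZ G (G ⧸ U)).V →+ D.E.V) (hp : p • h = 0) :
    kumbKappa D U (kumbKinv D U h) = h := by
  obtain ⟨ψ, rfl⟩ := kumb_kappa_surj D U h hp
  rw [kumb_kinv_kappa]

lemma kumb_kinv_add (h h' : (permZ G (G ⧸ U)).V →+ D.E.V) (hp : p • h = 0) (hp' : p • h' = 0) :
    kumbKinv D U (h + h') = kumbKinv D U h + kumbKinv D U h' := by
  obtain ⟨ψ, rfl⟩ := kumb_kappa_surj D U h hp
  obtain ⟨ψ', rfl⟩ := kumb_kappa_surj D U h' hp'
  rw [← map_add, kumb_kinv_kappa, kumb_kinv_kappa, kumb_kinv_kappa]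

lemma kumb_kinv_sub (h h' : (permZ G (G ⧸ U)).V →+ D.E.V) (hp : p • h = 0) (hp' : p • h' = 0) :
    kumbKinv D U (h - h') = kumbKinv D U h - kumbKinv D U h' := by
  obtain ⟨ψ, rfl⟩ := kumb_kappa_surj D U h hp
  obtain ⟨ψ', rfl⟩ := kumb_kappa_surj D U h' hp'
  rw [← map_sub, kumb_kinv_kappa, kumb_kinv_kappa, kumb_kinv_kappa]

lemma kumb_kinv_zero : kumbKinv D U 0 = 0 := by
  rw [← map_zero (kumbKappa D U), kumb_kinv_kappa]

lemma kumb_kinv_conj (g : G) (h : (permZ G (G ⧸ U)).V →+ D.E.V) (hp : p • h = 0) :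
    kumbKinv D U (conjAdd (permZ G (G ⧸ U)) D.E g h) = regMuρ D.χ U g (kumbKinv D U h) := by
  obtain ⟨ψ, rfl⟩ := kumb_kappa_surj D U h hp
  rw [kumb_kappa_conj, kumb_kinv_kappa, kumb_kinv_kappa]

lemma kumb_kinv_rt (δ : G ⧸ U) (h : (permZ G (G ⧸ U)).V →+ D.E.V) (hp : p • h = 0) :
    kumbKinv D U (h.comp (rtAdd U δ)) = fun γ => kumbKinv D U h (γ * δ) := by
  obtain ⟨ψ, rfl⟩ := kumb_kappa_surj D U h hp
  rw [kumb_kappa_rt, kumb_kinv_kappa, kumb_kinv_kappa]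

end Kappa

end Fermat.Agent.TW.E

end
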