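/-
Project TW (S56) — part TW-E, block **E-cyc**, piece **K-H0** (helper35):
`H⁰(G, 𝓜) ≅ E^U[p]`, `Γ`-equivariantly, `ψ ↦ ψ(1).val • ζ`.  Names `kumh0_*`.
-/
import Fermat.Agent.TW.E.KumBase

set_option autoImplicit false
set_option linter.unusedSectionVars false
set_option linter.style.haveILetI false

noncomputable section

namespace Fermat.Agent.TW.E

open CategoryTheory groupCohomology Module Fermat.Agent.PT Fermat.Agent.PT.F Fermat.Agent.PT.B
  Fermat.Agent.TW.F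

attribute [local instance 1100] Rep.hV2

section H0

variable {p : ℕ} [Fact p.Prime] {G : Type} [Group G] {ι : Type} {Gloc : ι → Type}
  [∀ v, Group (Gloc v)] (D : PTDatum p G ι Gloc) (U : Subgroup G) [U.Normal]

/-- an invariant element of `𝓜` as a function -/
def kumh0Fn (ψ : ↥((regMu D.χ U).ρ.invariants)) : (G ⧸ U) → ZMod p := ψ.1

/-- `θ(a)` is fixed by `U` when `χ|_U = 1` -/
lemma kumh0_theta_mem (hχ : ∀ s ∈ U, D.χ s = 1) (a : ZMod p) :
    h2mTheta D a ∈ Representation.invariants (D.E.ρ.comp U.subtype) := by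
  intro s
  show D.E.ρ (s : G) (h2mTheta D a) = h2mTheta D a
  rw [h2m_theta_ρ, hχ s s.2, Units.val_one, one_mul]

/-- the map `ψ ↦ θ(ψ 1)` -/
def kumh0Map (hχ : ∀ s ∈ U, D.χ s = 1) :
    ↥((regMu D.χ U).ρ.invariants) →+ ↥(Representation.invariants (D.E.ρ.comp U.subtype)) where
  toFun ψ := ⟨h2mTheta D ((kumh0Fn D U ψ) 1), kumh0_theta_mem D U hχ _⟩
  map_zero' := by
    apply Subtype.ext
    show h2mTheta D ((0 : (G ⧸ U) → ZMod p) 1) = 0
    rw [Pi.zero_apply, map_zero]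
  map_add' ψ ψ' := by
    apply Subtype.ext
    show h2mTheta D (((kumh0Fn D U ψ) + (kumh0Fn D U ψ')) 1) = _ + _
    rw [Pi.add_apply, map_add]

lemma kumh0Map_val (hχ : ∀ s ∈ U, D.χ s = 1) (ψ : ↥((regMu D.χ U).ρ.invariants)) :
    ((kumh0Map D U hχ ψ : ↥(Representation.invariants (D.E.ρ.comp U.subtype))) : D.E.V) =
      h2mTheta D ((kumh0Fn D U ψ) 1) := rfl

/-- an invariant function is determined by its value at `1` -/
lemma kumh0_inv_apply (ψ : ↥((regMu D.χ U).ρ.invariants)) (g : G) :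
    (kumh0Fn D U ψ) (g : G ⧸ U) = (D.χ g : ZMod p) * (kumh0Fn D U ψ) 1 := by
  have h : regMuρ D.χ U g (kumh0Fn D U ψ) = kumh0Fn D U ψ := ψ.2 g
  have h' := congrFun h (g : G ⧸ U)
  change (D.χ g : ZMod p) * kumh0Fn D U ψ ((g : G ⧸ U)⁻¹ * (g : G ⧸ U)) = _ at h'
  rw [inv_mul_cancel] at h'
  exact h'.symm

end H0

/-- **K-H0.** -/
theorem stmtKumH0 : StmtKumH0 := by
  intro p _ G _ ι _ _ Gloc _ D U _ hU hχ
  refine ⟨kumh0Map D U hχ, ?_, ?_, ?_⟩
  · -- injective
    intro ψ ψ' h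
    have h1 : h2mTheta D ((kumh0Fn D U ψ) 1) = h2mTheta D ((kumh0Fn D U ψ') 1) :=
      congrArg Subtype.val h
    have h2 := h2m_theta_injective D h1
    apply Subtype.ext
    funext γ
    obtain ⟨g, rfl⟩ := QuotientGroup.mk_surjective γ
    show kumh0Fn D U ψ (g : G ⧸ U) = kumh0Fn D U ψ' (g : G ⧸ U)
    rw [kumh0_inv_apply D U ψ g, kumh0_inv_apply D U ψ' g, h2]
  · -- equivariant
    intro δ ψ
    obtain ⟨d, rfl⟩ := QuotientGroup.mk_surjective δ
    apply Subtype.ext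
    show h2mTheta D ((kumh0Fn D U ψ) (1 * (d : G ⧸ U))) =
      D.E.ρ d (h2mTheta D ((kumh0Fn D U ψ) 1))
    rw [one_mul, kumh0_inv_apply D U ψ d, h2m_theta_ρ]
  · -- the image is the `p`-torsion
    intro x
    constructor
    · intro hx
      have hx1 : p • (x : D.E.V) = 0 := by
        have := congrArg Subtype.val hx
        exact this
      obtain ⟨a, ha⟩ := h2m_theta_surj D (x : D.E.V) hx1
      refine ⟨⟨fun γ => ((cycChi D.χ U hχ γ : (ZMod p)ˣ) : ZMod p) * a, ?_⟩, ?_⟩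
      · intro g
        funext γ
        obtain ⟨y, rfl⟩ := QuotientGroup.mk_surjective γ
        rw [regMu_ρ_apply]
        show (D.χ g : ZMod p) * (((cycChi D.χ U hχ ((g : G ⧸ U)⁻¹ * (y : G ⧸ U)) : (ZMod p)ˣ) :
          ZMod p) * a) = ((cycChi D.χ U hχ (y : G ⧸ U) : (ZMod p)ˣ) : ZMod p) * a
        rw [← mul_assoc, ← QuotientGroup.mk_inv, ← QuotientGroup.mk_mul]
        have e1 : cycChi D.χ U hχ ((g⁻¹ * y : G) : G ⧸ U) = D.χ (g⁻¹ * y) := rfl
        have e2 : cycChi D.χ U hχ ((y : G) : G ⧸ U) = D.χ y := rfl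
        rw [e1, e2, ← Units.val_mul, ← map_mul, mul_inv_cancel_left]
      · apply Subtype.ext
        show h2mTheta D (((cycChi D.χ U hχ 1 : (ZMod p)ˣ) : ZMod p) * a) = _
        rw [map_one, Units.val_one, one_mul, ha]
    · rintro ⟨ψ, rfl⟩
      apply Subtype.ext
      show p • h2mTheta D ((kumh0Fn D U ψ) 1) = 0
      exact h2m_p_theta D _

end Fermat.Agent.TW.E

end
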