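/-
Project TW (S56) — part TW-E, block E-cyc, piece **K-H1** (helper81), part 1: toolkit.

* `kumh1Lift` : the additive map induced along a surjection;
* `kumh1Z1`, `kumh1Cls` : level 1-cocycles (as functions) and their classes in `H¹_lev`, for
  any coefficient ring (used for `𝓜` over `𝔽_p` and for `𝓔 = Hom_ℤ(ℤ[Γ], E)` over `ℤ`);
* `kumh1Kap` : `κ : 𝓜 = regMu χ U → Hom_ℤ(ℤ[Γ], E)`, `κ ψ (δ_γ) = (ψ γ).val • ζ`, with the
  dictionary of cochains (from `H2FinKap.lean`, `Ω = Γ = G ⧸ U`).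
-/
import Fermat.Agent.TW.E.Plan2
import Fermat.Agent.TW.E.H2FinKap

set_option autoImplicit false
set_option linter.unusedSectionVars false
set_option linter.style.haveILetI false

noncomputable section

namespace Fermat.Agent.TW.E

open CategoryTheory groupCohomology Module Fermat.Agent.PT Fermat.Agent.PT.F Fermat.Agent.TW.F
open Fermat.Agent.PT.F.ExactH2

attribute [local instance 1100] Rep.hV2

/-! ### Lifting additive maps along surjections -/

section Lift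

variable {X V W : Type*} [AddCommGroup X] [AddCommGroup V] [AddCommGroup W]

/-- the additive map `V → W` induced by `β : X → W` along a surjection `α : X → V` with
`ker α ≤ ker β` -/
def kumh1Lift (α : X →+ V) (β : X →+ W) (hα : Function.Surjective α)
    (h : ∀ x, α x = 0 → β x = 0) : V →+ W :=
  AddMonoidHom.mk' (fun v => β (Function.surjInv hα v)) (fun v w => by
    rw [← map_add]
    have h1 : α (Function.surjInv hα (v + w)
        - (Function.surjInv hα v + Function.surjInv hα w)) = 0 := by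
      rw [map_sub, map_add, Function.surjInv_eq hα, Function.surjInv_eq hα,
        Function.surjInv_eq hα, sub_self]
    have h2 := h _ h1
    rwa [map_sub, sub_eq_zero] at h2)

theorem kumh1Lift_apply (α : X →+ V) (β : X →+ W) (hα : Function.Surjective α)
    (h : ∀ x, α x = 0 → β x = 0) (x : X) : kumh1Lift α β hα h (α x) = β x := by
  have h1 : α (Function.surjInv hα (α x) - x) = 0 := by
    rw [map_sub, Function.surjInv_eq hα, sub_self]
  have h2 := h _ h1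
  rwa [map_sub, sub_eq_zero] at h2

end Lift

/-! ### Classes of level 1-cocycles -/

section Cls

variable {k : Type} [CommRing k] {G : Type} [Group G] (𝒯 : Tower G) (A : Rep.{0} k G)

/-- level 1-cocycles, as a submodule of the functions -/
def kumh1Z1 : Submodule k (G → A.V) := cocycles₁ A ⊓ levCochains₁ 𝒯 A

theorem mem_kumh1Z1 (x : G → A.V) :
    x ∈ kumh1Z1 𝒯 A ↔ x ∈ cocycles₁ A ∧ IsLevel₁ 𝒯 x := Iff.rfl

/-- the class of a level 1-cocycle -/
def kumh1Cls : ↥(kumh1Z1 𝒯 A) →ₗ[k] ↥(levH1 𝒯 A) :=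
  LinearMap.codRestrict (levH1 𝒯 A)
    ((H1π A).hom ∘ₗ (Submodule.inclusion (inf_le_left : kumh1Z1 𝒯 A ≤ cocycles₁ A)))
    (fun x => (mem_levH1_iff 𝒯 A _).2 ⟨⟨x.1, x.2.1⟩, x.2.2, rfl⟩)

theorem kumh1Cls_val (x : ↥(kumh1Z1 𝒯 A)) :
    ((kumh1Cls 𝒯 A x : ↥(levH1 𝒯 A)) : H1 A) = (H1π A).hom ⟨x.1, x.2.1⟩ := rfl

theorem kumh1Cls_surjective : Function.Surjective (kumh1Cls 𝒯 A) := by
  rintro ⟨y, hy⟩
  obtain ⟨c, hc, rfl⟩ := (mem_levH1_iff 𝒯 A y).1 hy
  exact ⟨⟨c.1, c.2, hc⟩, Subtype.ext rfl⟩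

theorem kumh1Cls_eq_zero_iff (x : ↥(kumh1Z1 𝒯 A)) :
    kumh1Cls 𝒯 A x = 0 ↔ ∃ m : A.V, ∀ g : G, (x : G → A.V) g = A.ρ g m - m := by
  rw [← Subtype.coe_inj, kumh1Cls_val, Submodule.coe_zero,
    H1π_eq_zero_iff (⟨x.1, x.2.1⟩ : cocycles₁ A)]
  constructor
  · rintro ⟨m, hm⟩
    refine ⟨m, fun g => ?_⟩
    have := congrFun hm g
    rw [d₀₁_hom_apply] at this
    exact this.symm
  · rintro ⟨m, hm⟩
    refine ⟨m, funext fun g => ?_⟩
    rw [d₀₁_hom_apply]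
    exact (hm g).symm

/-- the class of the push-forward of a level cocycle -/
theorem kumh1_levH1Map_cls {B : Rep.{0} k G} (f : A ⟶ B) (x : ↥(kumh1Z1 𝒯 A))
    (y : ↥(kumh1Z1 𝒯 B)) (hy : ∀ g, (y : G → B.V) g = f.hom ((x : G → A.V) g)) :
    levH1Map 𝒯 f (kumh1Cls 𝒯 A x) = kumh1Cls 𝒯 B y := by
  apply Subtype.ext
  rw [levH1Map_mk 𝒯 f ⟨x.1, x.2.1⟩ (kumh1Cls 𝒯 A x) (kumh1Cls_val 𝒯 A x), kumh1Cls_val]
  congr 1
  exact Subtype.ext (funext fun g => (hy g).symm)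

end Cls

/-! ### The bridge for `Hom_ℤ(M, Y)` -/

section Bridge

variable {G : Type} [Group G] (M Y : Rep.{0} ℤ G)

theorem kumh1_homRep_ρ (g : G) (t : M.V →+ Y.V) : (homRep M Y).ρ g t = conjAdd M Y g t := rfl

/-- the Mathlib cocycle condition for `Hom_ℤ(M, Y)` is the PT-F one -/
theorem kumh1_mem_cocycles₁_homRep (c : G → (M.V →+ Y.V)) :
    c ∈ cocycles₁ (homRep M Y) ↔ ∀ s, dOne M Y c s = 0 := by
  rw [mem_cocycles₁_iff]
  constructor
  · rintro h ⟨σ, τ⟩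
    show conjAdd M Y σ (c τ) - c (σ * τ) + c σ = 0
    have h1 := h σ τ
    rw [kumh1_homRep_ρ] at h1
    rw [h1]
    abel
  · intro h σ τ
    have h1 : conjAdd M Y σ (c τ) - c (σ * τ) + c σ = 0 := h (σ, τ)
    rw [kumh1_homRep_ρ]
    have h2 : c (σ * τ) = conjAdd M Y σ (c τ) - c (σ * τ) + c σ + c (σ * τ) := by
      rw [h1, zero_add]
    rw [h2]
    abel

theorem kumh1_dZero_eq (t : M.V →+ Y.V) (g : G) :
    dZero M Y t g = (homRep M Y).ρ g t - t := rfl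

/-- `d¹ d⁰ = 0` -/
theorem kumh1_dOne_dZero (t : M.V →+ Y.V) (s : G × G) : dOne M Y (dZero M Y t) s = 0 := by
  obtain ⟨σ, τ⟩ := s
  show conjAdd M Y σ (conjAdd M Y τ t - t) - (conjAdd M Y (σ * τ) t - t)
    + (conjAdd M Y σ t - t) = 0
  rw [map_sub, conjAdd_mul]
  abel

theorem kumh1_dZero_add (t t' : M.V →+ Y.V) (g : G) :
    dZero M Y (t + t') g = dZero M Y t g + dZero M Y t' g := by
  show conjAdd M Y g (t + t') - (t + t') = conjAdd M Y g t - t + (conjAdd M Y g t' - t')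
  rw [map_add]
  abel

theorem kumh1_dZero_sub (t t' : M.V →+ Y.V) (g : G) :
    dZero M Y (t - t') g = dZero M Y t g - dZero M Y t' g := by
  show conjAdd M Y g (t - t') - (t - t') = conjAdd M Y g t - t - (conjAdd M Y g t' - t')
  rw [map_sub]
  abel

theorem kumh1_dZero_nsmul (n : ℕ) (t : M.V →+ Y.V) (g : G) :
    dZero M Y (n • t) g = n • dZero M Y t g := by
  show conjAdd M Y g (n • t) - n • t = n • (conjAdd M Y g t - t)
  rw [map_nsmul, smul_sub]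

/-- `d⁰ t = 0` iff `t` is `G`-equivariant -/
theorem kumh1_dZero_eq_zero_iff (t : M.V →+ Y.V) :
    (∀ g, dZero M Y t g = 0) ↔ ∀ g, conjAdd M Y g t = t := by
  constructor
  · intro h g
    have := h g
    exact sub_eq_zero.mp this
  · intro h g
    show conjAdd M Y g t - t = 0
    rw [h g, sub_self]

end Bridge

/-! ### `κ` on the regular module -/

section Kap

variable {p : ℕ} [Fact p.Prime] {G : Type} [Group G] {ι : Type} {Gloc : ι → Type}
  [∀ v, Group (Gloc v)] (D : PTDatum p G ι Gloc) (U : Subgroup G) [U.Normal]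

/-- the regular module `𝓜` is the twisted function module of the `G`-set `Γ = G ⧸ U` -/
theorem kumh1_regMu_ρ (g : G) (ψ : (G ⧸ U) → ZMod p) :
    (regMu D.χ U).ρ g ψ = (eh2fTw D.χ (G ⧸ U)).ρ g ψ := by
  funext γ
  rw [regMu_ρ_apply]
  show _ = ((D.χ g : (ZMod p)ˣ) : ZMod p) * ψ (g⁻¹ • γ)
  congr 2

/-- `κ : 𝓜 → Hom_ℤ(ℤ[Γ], E)`, `κ ψ (δ_γ) = (ψ γ).val • ζ` -/
def kumh1Kap : (regMu D.χ U).V →+ ((permZ G (G ⧸ U)).V →+ D.E.V) := eh2fKap D (G ⧸ U)

theorem kumh1Kap_single (ψ : (regMu D.χ U).V) (γ : G ⧸ U) :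
    kumh1Kap D U ψ (MonoidAlgebra.single γ 1) = kapVal D.ζ (ψ γ) :=
  eh2fKap_single D (G ⧸ U) ψ γ

theorem kumh1Kap_injective : Function.Injective (kumh1Kap D U) :=
  eh2fKap_injective D (G ⧸ U)

theorem kumh1Kap_conj (g : G) (ψ : (regMu D.χ U).V) :
    kumh1Kap D U ((regMu D.χ U).ρ g ψ)
      = conjAdd (permZ G (G ⧸ U)) D.E g (kumh1Kap D U ψ) := by
  have h := eh2fKap_conj D (G ⧸ U) g ψ
  rw [← kumh1_regMu_ρ D U g ψ] at h
  exact h

theorem kumh1Kap_p (ψ : (regMu D.χ U).V) : p • kumh1Kap D U ψ = 0 := eh2fKap_p D (G ⧸ U) ψ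

theorem kumh1Kap_surj (h : (permZ G (G ⧸ U)).V →+ D.E.V) (hp : p • h = 0) :
    ∃ ψ : (regMu D.χ U).V, kumh1Kap D U ψ = h := eh2fKap_surj D (G ⧸ U) h hp

/-- `κ (d⁰ ψ) = d⁰ (κ ψ)` -/
theorem kumh1Kap_d₀₁ (ψ : (regMu D.χ U).V) (g : G) :
    kumh1Kap D U ((regMu D.χ U).ρ g ψ - ψ) = dZero (permZ G (G ⧸ U)) D.E (kumh1Kap D U ψ) g := by
  rw [map_sub, kumh1Kap_conj]
  rfl

/-- 1-cocycles of `𝓜` are the cochains whose `κ` is a `dOne`-cocycle -/
theorem kumh1_mem_cocycles₁_regMu (z : G → (regMu D.χ U).V) :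
    z ∈ cocycles₁ (regMu D.χ U) ↔
      ∀ s, dOne (permZ G (G ⧸ U)) D.E (fun x => kumh1Kap D U (z x)) s = 0 := by
  rw [mem_cocycles₁_iff]
  have key : ∀ σ τ : G, dOne (permZ G (G ⧸ U)) D.E (fun x => kumh1Kap D U (z x)) (σ, τ) =
      kumh1Kap D U ((regMu D.χ U).ρ σ (z τ) - z (σ * τ) + z σ) := by
    intro σ τ
    rw [map_add, map_sub, kumh1Kap_conj]
    rfl
  constructor
  · rintro h ⟨σ, τ⟩
    rw [key]
    have h0 : (regMu D.χ U).ρ σ (z τ) - z (σ * τ) + z σ = 0 := by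
      have := h σ τ
      rw [this]
      abel
    rw [h0, map_zero]
  · intro h σ τ
    have h1 := h (σ, τ)
    rw [key] at h1
    have h2 := kumh1Kap_injective D U (h1.trans (map_zero _).symm)
    have h3 : z (σ * τ) = (regMu D.χ U).ρ σ (z τ) - z (σ * τ) + z σ + z (σ * τ) := by
      rw [h2, zero_add]
    rw [h3]
    abel

/-- a level cochain killed by `p` is `κ` of a level cochain -/
theorem kumh1_exists_kap₁ {𝒯 : Tower G} (c : G → ((permZ G (G ⧸ U)).V →+ D.E.V))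
    (hc : IsLevel₁ 𝒯 c) (hp : ∀ σ, p • c σ = 0) :
    ∃ z : G → (regMu D.χ U).V, IsLevel₁ 𝒯 z ∧ ∀ σ, kumh1Kap D U (z σ) = c σ :=
  eh2f_exists_kap₁ D (G ⧸ U) c hc hp

/-- `κ` commutes with the right translations -/
theorem kumh1Kap_rt (δ : G ⧸ U) (ψ : (regMu D.χ U).V) :
    kumh1Kap D U ((regRt D.χ U δ).hom ψ) = (kumh1Kap D U ψ).comp (rtAdd U δ) := by
  apply chl_ext
  intro γ
  rw [kumh1Kap_single, AddMonoidHom.comp_apply, rtAdd_single, kumh1Kap_single]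
  rfl

end Kap

/-! ### The level set `Γ = G ⧸ U` -/

section LevSet

variable {G : Type} [Group G] (𝒯 : Tower G) (U : Subgroup G) [U.Normal]

theorem kumh1_smul_mk (g x : G) : g • (x : G ⧸ U) = ((g * x : G) : G ⧸ U) := rfl

theorem kumh1_smul_eq (s : G) (hs : s ∈ U) (γ : G ⧸ U) : s • γ = γ := by
  obtain ⟨x, rfl⟩ := QuotientGroup.mk_surjective γ
  rw [kumh1_smul_mk]
  apply QuotientGroup.eq.mpr
  have h1 : (s * x)⁻¹ * x = x⁻¹ * s⁻¹ * x := by group
  rw [h1]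
  exact (inferInstance : U.Normal).conj_mem' s⁻¹ (U.inv_mem hs) x

theorem kumh1_isLevSet (hU : U ∈ 𝒯.lev) : IsLevSet 𝒯 (G ⧸ U) :=
  ⟨U, hU, fun s hs γ => kumh1_smul_eq U s hs γ⟩

theorem kumh1_finite (hU : U ∈ 𝒯.lev) : Finite (G ⧸ U) := by
  haveI := 𝒯.finiteIndex U hU
  exact Subgroup.finite_quotient_of_finiteIndex

end LevSet

end Fermat.Agent.TW.E

end
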