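/-
Project TW (S56) — part TW-E, block E-cyc, piece **K-H1** (helper81), part 2: the map `φ`.

`φ : E^U → Hom_ℤ(ℤ[Γ], E)^G`, `φ e (δ_γ) = γ e`, is a bijection onto the `G`-invariant additive
maps (inverse: evaluation at `δ_1`), and `φ (δ e) = φ e ∘ (· δ)`.
-/
import Fermat.Agent.TW.E.KumH1Base
import Fermat.Agent.TW.E.ChaseLift

set_option autoImplicit false
set_option linter.unusedSectionVars false
set_option linter.style.haveILetI false

noncomputable section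

namespace Fermat.Agent.TW.E

open CategoryTheory groupCohomology Module Fermat.Agent.PT Fermat.Agent.PT.F Fermat.Agent.TW.F
open Fermat.Agent.PT.F.ExactH2

attribute [local instance 1100] Rep.hV2

section Phi

variable {p : ℕ} [Fact p.Prime] {G : Type} [Group G] {ι : Type} {Gloc : ι → Type}
  [∀ v, Group (Gloc v)] (D : PTDatum p G ι Gloc) (U : Subgroup G) [U.Normal]

/-- the inclusion `E^U → E` -/
def kumh1Val : (cycUnits D U).V →+ D.E.V :=
  AddMonoidHom.mk' (fun e => (e : D.E.V)) (fun _ _ => rfl)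

theorem kumh1Val_injective : Function.Injective (kumh1Val D U) := fun _ _ h => Subtype.ext h

theorem kumh1Val_ρ (x : G) (e : (cycUnits D U).V) :
    kumh1Val D U ((cycUnits D U).ρ (x : G ⧸ U) e) = D.E.ρ x (kumh1Val D U e) := rfl

theorem kumh1Val_fix (e : (cycUnits D U).V) (s : G) (hs : s ∈ U) :
    D.E.ρ s (kumh1Val D U e) = kumh1Val D U e := e.2 ⟨s, hs⟩

/-- an `U`-fixed element of `E`, as an element of `E^U` -/
def kumh1Mk (e₀ : D.E.V) (h : ∀ s ∈ U, D.E.ρ s e₀ = e₀) : (cycUnits D U).V :=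
  ⟨e₀, fun s => h s.1 s.2⟩

theorem kumh1Val_mk (e₀ : D.E.V) (h : ∀ s ∈ U, D.E.ρ s e₀ = e₀) :
    kumh1Val D U (kumh1Mk D U e₀ h) = e₀ := rfl

/-- `φ e : δ_γ ↦ γ e` -/
def kumh1Phi : (cycUnits D U).V →+ ((permZ G (G ⧸ U)).V →+ D.E.V) :=
  AddMonoidHom.mk'
    (fun e => chl_lift (G := G) (G ⧸ U) (fun γ => kumh1Val D U ((cycUnits D U).ρ γ e)))
    (fun e e' => by
      apply chl_ext
      intro γ
      rw [AddMonoidHom.add_apply, chl_lift_single, chl_lift_single, chl_lift_single, one_smul,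
        one_smul, one_smul, map_add, map_add])

theorem kumh1Phi_single (e : (cycUnits D U).V) (γ : G ⧸ U) :
    kumh1Phi D U e (MonoidAlgebra.single γ 1) = kumh1Val D U ((cycUnits D U).ρ γ e) := by
  show chl_lift (G := G) (G ⧸ U) _ _ = _
  rw [chl_lift_single, one_smul]

theorem kumh1Phi_single_mk (e : (cycUnits D U).V) (x : G) :
    kumh1Phi D U e (MonoidAlgebra.single (x : G ⧸ U) 1) = D.E.ρ x (kumh1Val D U e) := by
  rw [kumh1Phi_single, kumh1Val_ρ]

/-- `φ e` is `G`-invariant -/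
theorem kumh1Phi_conj (g : G) (e : (cycUnits D U).V) :
    conjAdd (permZ G (G ⧸ U)) D.E g (kumh1Phi D U e) = kumh1Phi D U e := by
  apply chl_ext
  intro γ
  obtain ⟨x, rfl⟩ := QuotientGroup.mk_surjective γ
  rw [conjAdd_apply, chl_ρ_single, kumh1_smul_mk, kumh1Phi_single_mk, kumh1Phi_single_mk,
    ← Module.End.mul_apply, ← map_mul, mul_inv_cancel_left]

theorem kumh1Phi_dZero (e : (cycUnits D U).V) (g : G) :
    dZero (permZ G (G ⧸ U)) D.E (kumh1Phi D U e) g = 0 := by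
  show conjAdd _ _ g _ - _ = 0
  rw [kumh1Phi_conj, sub_self]

/-- `φ (δ e) = φ e ∘ (· δ)` -/
theorem kumh1Phi_ρ (δ : G ⧸ U) (e : (cycUnits D U).V) :
    kumh1Phi D U ((cycUnits D U).ρ δ e) = (kumh1Phi D U e).comp (rtAdd U δ) := by
  apply chl_ext
  intro γ
  rw [AddMonoidHom.comp_apply, rtAdd_single, kumh1Phi_single, kumh1Phi_single, map_mul]
  rfl

/-- the value at `δ_1` of a `G`-invariant map is `U`-fixed -/
theorem kumh1_inv_fix (t : (permZ G (G ⧸ U)).V →+ D.E.V)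
    (ht : ∀ g, conjAdd (permZ G (G ⧸ U)) D.E g t = t) (s : G) (hs : s ∈ U) :
    D.E.ρ s (t (MonoidAlgebra.single (1 : G ⧸ U) 1)) = t (MonoidAlgebra.single (1 : G ⧸ U) 1) := by
  have h1 := DFunLike.congr_fun (ht s) (MonoidAlgebra.single (1 : G ⧸ U) 1)
  rw [conjAdd_apply, chl_ρ_single, kumh1_smul_eq U s⁻¹ (U.inv_mem hs)] at h1
  exact h1

/-- a `G`-invariant map is `φ` of its value at `δ_1` -/
theorem kumh1Phi_mk (t : (permZ G (G ⧸ U)).V →+ D.E.V)
    (ht : ∀ g, conjAdd (permZ G (G ⧸ U)) D.E g t = t) :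
    kumh1Phi D U (kumh1Mk D U (t (MonoidAlgebra.single (1 : G ⧸ U) 1))
      (kumh1_inv_fix D U t ht)) = t := by
  apply chl_ext
  intro γ
  obtain ⟨x, rfl⟩ := QuotientGroup.mk_surjective γ
  rw [kumh1Phi_single_mk, kumh1Val_mk]
  have h1 := DFunLike.congr_fun (ht x) (MonoidAlgebra.single ((x : G) : G ⧸ U) 1)
  rw [conjAdd_apply, chl_ρ_single, kumh1_smul_mk, inv_mul_cancel] at h1
  exact h1

/-- `φ e (δ_1) = e` -/
theorem kumh1Phi_single_one (e : (cycUnits D U).V) :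
    kumh1Phi D U e (MonoidAlgebra.single (1 : G ⧸ U) 1) = kumh1Val D U e := by
  rw [kumh1Phi_single, map_one]
  rfl

/-- `d⁰` commutes with the right translations -/
theorem kumh1_dZero_comp_rt (δ : G ⧸ U) (t : (permZ G (G ⧸ U)).V →+ D.E.V) (σ : G) :
    (dZero (permZ G (G ⧸ U)) D.E t σ).comp (rtAdd U δ)
      = dZero (permZ G (G ⧸ U)) D.E (t.comp (rtAdd U δ)) σ := by
  refine AddMonoidHom.ext fun m => ?_
  show D.E.ρ σ (t ((permZ G (G ⧸ U)).ρ σ⁻¹ (rtAdd U δ m))) - t (rtAdd U δ m)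
    = D.E.ρ σ (t (rtAdd U δ ((permZ G (G ⧸ U)).ρ σ⁻¹ m))) - t (rtAdd U δ m)
  rw [rtAdd_ρ]

end Phi

end Fermat.Agent.TW.E

end
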