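/-
Project TW (S56) — part TW-E, block E-cyc, piece **K-H1** (helper81), part 3: the sequence.

`E^U —p→ E^U —a→ H¹_lev(G, 𝓜) —b→ H¹_lev(G, 𝓔) —p→ H¹_lev(G, 𝓔)`,  `𝓜 = regMu χ U`,
`𝓔 = Hom_ℤ(ℤ[Γ], E)`, `Γ = G ⧸ U`.

* `a e = [z]` for any `(ε, z)` with `p ε = φ e`, `κ ∘ z = d⁰ ε`;
* `b [z] = [κ ∘ z]`.
-/
import Fermat.Agent.TW.E.KumH1Phi

set_option autoImplicit false
set_option linter.unusedSectionVars false
set_option linter.style.haveILetI false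

noncomputable section

namespace Fermat.Agent.TW.E

open CategoryTheory groupCohomology Module Fermat.Agent.PT Fermat.Agent.PT.F Fermat.Agent.TW.F
open Fermat.Agent.PT.F.ExactH2

attribute [local instance 1100] Rep.hV2

section Seq

variable {p : ℕ} [Fact p.Prime] {G : Type} [Group G] {ι : Type} {Gloc : ι → Type}
  [∀ v, Group (Gloc v)] (D : PTDatum p G ι Gloc) (U : Subgroup G) [U.Normal]

/-- the triples `(e, ε, z)` with `p ε = φ e` and `κ ∘ z = d⁰ ε` -/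
def kumh1W : AddSubgroup
    ((cycUnits D U).V × ((permZ G (G ⧸ U)).V →+ D.E.V) × (G → (regMu D.χ U).V)) where
  carrier := {w | p • w.2.1 = kumh1Phi D U w.1 ∧
    ∀ σ, kumh1Kap D U (w.2.2 σ) = dZero (permZ G (G ⧸ U)) D.E w.2.1 σ}
  zero_mem' := by
    refine ⟨?_, fun σ => ?_⟩
    · show p • (0 : (permZ G (G ⧸ U)).V →+ D.E.V) = kumh1Phi D U 0
      rw [smul_zero, map_zero]
    · show kumh1Kap D U 0 = dZero (permZ G (G ⧸ U)) D.E 0 σ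
      rw [map_zero]
      show (0 : (permZ G (G ⧸ U)).V →+ D.E.V) = conjAdd _ _ σ 0 - 0
      rw [map_zero, sub_zero]
  add_mem' := by
    rintro ⟨e, ε, z⟩ ⟨e', ε', z'⟩ ⟨h1, h2⟩ ⟨h1', h2'⟩
    refine ⟨?_, fun σ => ?_⟩
    · show p • (ε + ε') = kumh1Phi D U (e + e')
      rw [smul_add, map_add]
      exact congrArg₂ (· + ·) h1 h1'
    · show kumh1Kap D U (z σ + z' σ) = dZero (permZ G (G ⧸ U)) D.E (ε + ε') σ
      rw [map_add, kumh1_dZero_add]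
      exact congrArg₂ (· + ·) (h2 σ) (h2' σ)
  neg_mem' := by
    rintro ⟨e, ε, z⟩ ⟨h1, h2⟩
    refine ⟨?_, fun σ => ?_⟩
    · show p • (-ε) = kumh1Phi D U (-e)
      rw [smul_neg, map_neg]
      exact congrArg (- ·) h1
    · show kumh1Kap D U (- z σ) = dZero (permZ G (G ⧸ U)) D.E (-ε) σ
      rw [map_neg]
      have h3 : dZero (permZ G (G ⧸ U)) D.E (-ε) σ = - dZero (permZ G (G ⧸ U)) D.E ε σ := by
        show conjAdd _ _ σ (-ε) - (-ε) = - (conjAdd _ _ σ ε - ε)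
        rw [map_neg]
        abel
      rw [h3]
      exact congrArg (- ·) (h2 σ)

theorem mem_kumh1W (e : (cycUnits D U).V) (ε : (permZ G (G ⧸ U)).V →+ D.E.V)
    (z : G → (regMu D.χ U).V) :
    (e, ε, z) ∈ kumh1W D U ↔ p • ε = kumh1Phi D U e ∧
      ∀ σ, kumh1Kap D U (z σ) = dZero (permZ G (G ⧸ U)) D.E ε σ := Iff.rfl

variable {D U}

/-- a cochain whose `κ` is a coboundary `d⁰ ε` is a level cocycle -/
theorem kumh1_mem_Z1_of_kap (hU : U ∈ D.𝒯.lev) (ε : (permZ G (G ⧸ U)).V →+ D.E.V)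
    (z : G → (regMu D.χ U).V)
    (hz : ∀ σ, kumh1Kap D U (z σ) = dZero (permZ G (G ⧸ U)) D.E ε σ) :
    z ∈ kumh1Z1 D.𝒯 (regMu D.χ U) := by
  rw [mem_kumh1Z1]
  constructor
  · rw [kumh1_mem_cocycles₁_regMu]
    intro s
    have h1 : (fun x => kumh1Kap D U (z x)) = dZero (permZ G (G ⧸ U)) D.E ε := funext hz
    rw [h1]
    exact kumh1_dOne_dZero _ _ ε s
  · haveI := kumh1_finite D.𝒯 U hU
    have hE : IsDiscrete D.𝒯 D.E := D.E_discrete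
    obtain ⟨V, hV, h⟩ := chl_isLevel₁_dZero (kumh1_isLevSet D.𝒯 U hU) hE ε
    refine ⟨V, hV, fun σ s hs => ?_⟩
    apply kumh1Kap_injective D U
    rw [hz, hz]
    exact h σ s hs

variable (D U)

/-- `α : (e, ε, z) ↦ e` -/
def kumh1Alpha : ↥(kumh1W D U) →+ (cycUnits D U).V :=
  (AddMonoidHom.fst _ _).comp (kumh1W D U).subtype

/-- `β : (e, ε, z) ↦ [z]` -/
def kumh1Beta (hU : U ∈ D.𝒯.lev) : ↥(kumh1W D U) →+ ↥(levH1 D.𝒯 (regMu D.χ U)) :=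
  AddMonoidHom.mk'
    (fun w => kumh1Cls D.𝒯 (regMu D.χ U) ⟨w.1.2.2, kumh1_mem_Z1_of_kap hU w.1.2.1 w.1.2.2 w.2.2⟩)
    (fun w w' => by
      rw [← map_add]
      rfl)

theorem kumh1Beta_apply (hU : U ∈ D.𝒯.lev) (e : (cycUnits D U).V)
    (ε : (permZ G (G ⧸ U)).V →+ D.E.V) (z : G → (regMu D.χ U).V) (hw : (e, ε, z) ∈ kumh1W D U)
    (hz : z ∈ kumh1Z1 D.𝒯 (regMu D.χ U)) :
    kumh1Beta D U hU ⟨(e, ε, z), hw⟩ = kumh1Cls D.𝒯 (regMu D.χ U) ⟨z, hz⟩ := rfl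

theorem kumh1Alpha_apply (e : (cycUnits D U).V)
    (ε : (permZ G (G ⧸ U)).V →+ D.E.V) (z : G → (regMu D.χ U).V) (hw : (e, ε, z) ∈ kumh1W D U) :
    kumh1Alpha D U ⟨(e, ε, z), hw⟩ = e := rfl

/-- `p`-th roots in `Hom_ℤ(ℤ[Γ], E)` -/
theorem kumh1_exists_root (t : (permZ G (G ⧸ U)).V →+ D.E.V) :
    ∃ t' : (permZ G (G ⧸ U)).V →+ D.E.V, p • t' = t := by
  obtain ⟨t', ht'⟩ := chl_exists_lift (G := G) (G ⧸ U) (nsmulAddMonoidHom (α := D.E.V) p)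
    (fun e => by
      obtain ⟨e', he'⟩ := D.E_div e
      exact ⟨e', he'⟩) t
  refine ⟨t', AddMonoidHom.ext fun m => ?_⟩
  have := DFunLike.congr_fun ht' m
  exact this

/-- every `e` has a triple -/
theorem kumh1Alpha_surjective : Function.Surjective (kumh1Alpha D U) := by
  intro e
  obtain ⟨ε, hε⟩ := kumh1_exists_root D U (kumh1Phi D U e)
  have h1 : ∀ σ, p • dZero (permZ G (G ⧸ U)) D.E ε σ = 0 := by
    intro σ
    rw [← kumh1_dZero_nsmul, hε, kumh1Phi_dZero]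
  choose z hz using fun σ => kumh1Kap_surj D U (dZero (permZ G (G ⧸ U)) D.E ε σ) (h1 σ)
  exact ⟨⟨(e, ε, z), hε, hz⟩, rfl⟩

theorem kumh1_ker (hU : U ∈ D.𝒯.lev) (w : ↥(kumh1W D U)) (hw : kumh1Alpha D U w = 0) :
    kumh1Beta D U hU w = 0 := by
  obtain ⟨⟨e, ε, z⟩, hmem⟩ := w
  have he : e = 0 := hw
  subst he
  have h1 : p • ε = kumh1Phi D U 0 := hmem.1
  have h2 : ∀ σ, kumh1Kap D U (z σ) = dZero (permZ G (G ⧸ U)) D.E ε σ := hmem.2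
  rw [map_zero] at h1
  obtain ⟨ψ, hψ⟩ := kumh1Kap_surj D U ε h1
  have h3 : kumh1Beta D U hU ⟨(0, ε, z), hmem⟩
      = kumh1Cls D.𝒯 (regMu D.χ U) ⟨z, kumh1_mem_Z1_of_kap hU ε z h2⟩ := rfl
  rw [h3, kumh1Cls_eq_zero_iff]
  refine ⟨ψ, fun g => ?_⟩
  apply kumh1Kap_injective D U
  show kumh1Kap D U (z g) = _
  rw [h2, kumh1Kap_d₀₁, hψ]

/-- **the connecting map** `a : E^U → H¹_lev(G, 𝓜)` -/
def kumh1A (hU : U ∈ D.𝒯.lev) : (cycUnits D U).V →+ ↥(levH1 D.𝒯 (regMu D.χ U)) :=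
  kumh1Lift (kumh1Alpha D U) (kumh1Beta D U hU) (kumh1Alpha_surjective D U) (kumh1_ker D U hU)

theorem kumh1A_apply (hU : U ∈ D.𝒯.lev) (e : (cycUnits D U).V)
    (ε : (permZ G (G ⧸ U)).V →+ D.E.V) (z : G → (regMu D.χ U).V) (hw : (e, ε, z) ∈ kumh1W D U)
    (hz : z ∈ kumh1Z1 D.𝒯 (regMu D.χ U)) :
    kumh1A D U hU e = kumh1Cls D.𝒯 (regMu D.χ U) ⟨z, hz⟩ :=
  kumh1Lift_apply (kumh1Alpha D U) (kumh1Beta D U hU) (kumh1Alpha_surjective D U)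
    (kumh1_ker D U hU) ⟨(e, ε, z), hw⟩

/-- every `e` has a triple (unpacked) -/
theorem kumh1_exists_triple (hU : U ∈ D.𝒯.lev) (e : (cycUnits D U).V) :
    ∃ (ε : (permZ G (G ⧸ U)).V →+ D.E.V) (z : G → (regMu D.χ U).V),
      (e, ε, z) ∈ kumh1W D U ∧ z ∈ kumh1Z1 D.𝒯 (regMu D.χ U) := by
  obtain ⟨⟨⟨e', ε, z⟩, hw⟩, he⟩ := kumh1Alpha_surjective D U e
  have he' : e' = e := he
  subst he'
  exact ⟨ε, z, hw, kumh1_mem_Z1_of_kap hU ε z hw.2⟩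


/-! ### The map `b` -/

/-- the push-forward of a level cocycle is a level cocycle -/
theorem kumh1_map_mem_Z1 {k : Type} [CommRing k] (𝒯 : Tower G) {A B : Rep.{0} k G} (f : A ⟶ B)
    (x : ↥(kumh1Z1 𝒯 A)) : (fun g => f.hom ((x : G → A.V) g)) ∈ kumh1Z1 𝒯 B := by
  rw [mem_kumh1Z1]
  refine ⟨?_, ?_⟩
  · exact ((mapCocycles₁ (MonoidHom.id G) f).hom ⟨x.1, x.2.1⟩).2
  · exact (x.2.2.comp _ :)

/-- classes agree iff the cocycles differ by a coboundary -/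
theorem kumh1Cls_eq_iff {k : Type} [CommRing k] (𝒯 : Tower G) (A : Rep.{0} k G)
    (x y : ↥(kumh1Z1 𝒯 A)) :
    kumh1Cls 𝒯 A x = kumh1Cls 𝒯 A y ↔
      ∃ m : A.V, ∀ g : G, (x : G → A.V) g - (y : G → A.V) g = A.ρ g m - m := by
  rw [← sub_eq_zero, ← map_sub, kumh1Cls_eq_zero_iff]
  rfl

/-- `κ ∘ z` is a level cocycle of `𝓔` -/
theorem kumh1_kap_mem_Z1 (z : ↥(kumh1Z1 D.𝒯 (regMu D.χ U))) :
    (fun σ => kumh1Kap D U ((z : G → (regMu D.χ U).V) σ))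
      ∈ kumh1Z1 D.𝒯 (homRep (permZ G (G ⧸ U)) D.E) := by
  rw [mem_kumh1Z1]
  constructor
  · rw [kumh1_mem_cocycles₁_homRep]
    exact (kumh1_mem_cocycles₁_regMu D U z.1).1 z.2.1
  · exact (z.2.2.comp _ :)

/-- `z ↦ κ ∘ z` on level cocycles -/
def kumh1KapZ : ↥(kumh1Z1 D.𝒯 (regMu D.χ U)) →+
    ↥(kumh1Z1 D.𝒯 (homRep (permZ G (G ⧸ U)) D.E)) :=
  AddMonoidHom.mk' (fun z => ⟨fun σ => kumh1Kap D U ((z : G → (regMu D.χ U).V) σ),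
      kumh1_kap_mem_Z1 D U z⟩)
    (fun _ _ => Subtype.ext (funext fun _ => map_add (kumh1Kap D U) _ _))

theorem kumh1KapZ_apply (z : ↥(kumh1Z1 D.𝒯 (regMu D.χ U))) (σ : G) :
    ((kumh1KapZ D U z : ↥(kumh1Z1 D.𝒯 (homRep (permZ G (G ⧸ U)) D.E))) :
      G → ((permZ G (G ⧸ U)).V →+ D.E.V)) σ = kumh1Kap D U ((z : G → (regMu D.χ U).V) σ) := rfl

theorem kumh1B_ker (z : ↥(kumh1Z1 D.𝒯 (regMu D.χ U)))
    (hz : (kumh1Cls D.𝒯 (regMu D.χ U)).toAddMonoidHom z = 0) :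
    ((kumh1Cls D.𝒯 (homRep (permZ G (G ⧸ U)) D.E)).toAddMonoidHom.comp (kumh1KapZ D U)) z
      = 0 := by
  have hz' : kumh1Cls D.𝒯 (regMu D.χ U) z = 0 := hz
  show kumh1Cls D.𝒯 (homRep (permZ G (G ⧸ U)) D.E) (kumh1KapZ D U z) = 0
  rw [kumh1Cls_eq_zero_iff] at hz' ⊢
  obtain ⟨ψ, hψ⟩ := hz'
  refine ⟨kumh1Kap D U ψ, fun g => ?_⟩
  rw [kumh1KapZ_apply, hψ g, kumh1Kap_d₀₁]
  rfl

/-- **the map** `b : H¹_lev(G, 𝓜) → H¹_lev(G, 𝓔)`, `[z] ↦ [κ ∘ z]` -/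
def kumh1B : ↥(levH1 D.𝒯 (regMu D.χ U)) →+ ↥(levH1 D.𝒯 (homRep (permZ G (G ⧸ U)) D.E)) :=
  kumh1Lift (kumh1Cls D.𝒯 (regMu D.χ U)).toAddMonoidHom
    ((kumh1Cls D.𝒯 (homRep (permZ G (G ⧸ U)) D.E)).toAddMonoidHom.comp (kumh1KapZ D U))
    (kumh1Cls_surjective D.𝒯 (regMu D.χ U)) (kumh1B_ker D U)

theorem kumh1B_apply (z : ↥(kumh1Z1 D.𝒯 (regMu D.χ U))) :
    kumh1B D U (kumh1Cls D.𝒯 (regMu D.χ U) z)
      = kumh1Cls D.𝒯 (homRep (permZ G (G ⧸ U)) D.E) (kumh1KapZ D U z) :=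
  kumh1Lift_apply (kumh1Cls D.𝒯 (regMu D.χ U)).toAddMonoidHom
    ((kumh1Cls D.𝒯 (homRep (permZ G (G ⧸ U)) D.E)).toAddMonoidHom.comp (kumh1KapZ D U))
    (kumh1Cls_surjective D.𝒯 (regMu D.χ U)) (kumh1B_ker D U) z

/-! ### Equivariance -/

theorem kumh1_comp_nsmul (δ : G ⧸ U) (ε : (permZ G (G ⧸ U)).V →+ D.E.V) :
    p • (ε.comp (rtAdd U δ)) = (p • ε).comp (rtAdd U δ) := rfl

/-- (1) `a` is `Γ`-equivariant -/
theorem kumh1A_ρ (hU : U ∈ D.𝒯.lev) (δ : G ⧸ U) (e : (cycUnits D U).V) :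
    kumh1A D U hU ((cycUnits D U).ρ δ e)
      = levH1Map D.𝒯 (regRt D.χ U δ) (kumh1A D U hU e) := by
  obtain ⟨ε, z, hw, hz⟩ := kumh1_exists_triple D U hU e
  have hw' : ((cycUnits D U).ρ δ e, ε.comp (rtAdd U δ),
      fun σ => (regRt D.χ U δ).hom (z σ)) ∈ kumh1W D U := by
    refine ⟨?_, fun σ => ?_⟩
    · show p • (ε.comp (rtAdd U δ)) = kumh1Phi D U ((cycUnits D U).ρ δ e)
      rw [kumh1Phi_ρ, ← hw.1]
      rfl
    · show kumh1Kap D U ((regRt D.χ U δ).hom (z σ))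
        = dZero (permZ G (G ⧸ U)) D.E (ε.comp (rtAdd U δ)) σ
      rw [kumh1Kap_rt, hw.2 σ]
      exact kumh1_dZero_comp_rt D U δ ε σ
  have hz' := kumh1_mem_Z1_of_kap hU _ _ hw'.2
  rw [kumh1A_apply D U hU _ _ _ hw' hz', kumh1A_apply D U hU _ _ _ hw hz]
  exact (kumh1_levH1Map_cls D.𝒯 (regMu D.χ U) (regRt D.χ U δ) ⟨z, hz⟩ ⟨_, hz'⟩
    (fun g => rfl)).symm

/-- (2) `b` is `Γ`-equivariant -/
theorem kumh1B_ρ (δ : G ⧸ U) (v : ↥(levH1 D.𝒯 (regMu D.χ U))) :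
    kumh1B D U (levH1Map D.𝒯 (regRt D.χ U δ) v)
      = levH1Map D.𝒯 (homRt U D.E δ) (kumh1B D U v) := by
  obtain ⟨z, rfl⟩ := kumh1Cls_surjective D.𝒯 (regMu D.χ U) v
  have hz' := kumh1_map_mem_Z1 D.𝒯 (regRt D.χ U δ) z
  rw [kumh1_levH1Map_cls D.𝒯 (regMu D.χ U) (regRt D.χ U δ) z ⟨_, hz'⟩ (fun g => rfl),
    kumh1B_apply, kumh1B_apply]
  refine (kumh1_levH1Map_cls D.𝒯 _ (homRt U D.E δ) (kumh1KapZ D U z) _ (fun g => ?_)).symm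
  rw [kumh1KapZ_apply, kumh1KapZ_apply]
  show kumh1Kap D U ((regRt D.χ U δ).hom (z.1 g)) = (kumh1Kap D U (z.1 g)).comp (rtAdd U δ)
  exact kumh1Kap_rt D U δ _


/-! ### Exactness -/

/-- the zero cochain -/
theorem kumh1_zero_mem_W (y : (cycUnits D U).V) :
    (p • y, kumh1Phi D U y, fun _ => (0 : (regMu D.χ U).V)) ∈ kumh1W D U := by
  refine ⟨?_, fun σ => ?_⟩
  · show p • kumh1Phi D U y = kumh1Phi D U (p • y)
    rw [map_nsmul]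
  · show kumh1Kap D U 0 = dZero (permZ G (G ⧸ U)) D.E (kumh1Phi D U y) σ
    rw [map_zero, kumh1Phi_dZero]

/-- (3) `ker a = p E^U` -/
theorem kumh1A_eq_zero_iff (hU : U ∈ D.𝒯.lev) (e : (cycUnits D U).V) :
    kumh1A D U hU e = 0 ↔ ∃ y : (cycUnits D U).V, e = p • y := by
  constructor
  · intro h
    obtain ⟨ε, z, hw, hz⟩ := kumh1_exists_triple D U hU e
    rw [kumh1A_apply D U hU _ _ _ hw hz, kumh1Cls_eq_zero_iff] at h
    obtain ⟨ψ, hψ⟩ := h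
    -- `ε - κ ψ` is invariant
    have h1 : ∀ g, conjAdd (permZ G (G ⧸ U)) D.E g (ε - kumh1Kap D U ψ)
        = ε - kumh1Kap D U ψ := by
      rw [← kumh1_dZero_eq_zero_iff]
      intro g
      have hψ' : z g = (regMu D.χ U).ρ g ψ - ψ := hψ g
      have hw2 : kumh1Kap D U (z g) = dZero (permZ G (G ⧸ U)) D.E ε g := hw.2 g
      rw [kumh1_dZero_sub, ← hw2, ← kumh1Kap_d₀₁, hψ', sub_self]
    refine ⟨kumh1Mk D U _ (kumh1_inv_fix D U _ h1), ?_⟩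
    apply kumh1Val_injective D U
    rw [map_nsmul, kumh1Val_mk, ← kumh1Phi_single_one, ← hw.1]
    show p • ε (MonoidAlgebra.single 1 1) = p • (ε (MonoidAlgebra.single 1 1)
      - kumh1Kap D U ψ (MonoidAlgebra.single 1 1))
    have h2 : p • kumh1Kap D U ψ (MonoidAlgebra.single (1 : G ⧸ U) 1) = 0 := by
      have := DFunLike.congr_fun (kumh1Kap_p D U ψ) (MonoidAlgebra.single (1 : G ⧸ U) 1)
      exact this
    rw [smul_sub, h2, sub_zero]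
  · rintro ⟨y, rfl⟩
    have hw := kumh1_zero_mem_W D U y
    have hz := kumh1_mem_Z1_of_kap hU _ _ hw.2
    rw [kumh1A_apply D U hU _ _ _ hw hz]
    have h0 : (⟨fun _ => (0 : (regMu D.χ U).V), hz⟩ : ↥(kumh1Z1 D.𝒯 (regMu D.χ U))) = 0 := rfl
    rw [h0, map_zero]

/-- (4) `ker b = im a` -/
theorem kumh1B_eq_zero_iff (hU : U ∈ D.𝒯.lev) (v : ↥(levH1 D.𝒯 (regMu D.χ U))) :
    kumh1B D U v = 0 ↔ ∃ x : (cycUnits D U).V, kumh1A D U hU x = v := by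
  constructor
  · intro h
    obtain ⟨z, rfl⟩ := kumh1Cls_surjective D.𝒯 (regMu D.χ U) v
    rw [kumh1B_apply, kumh1Cls_eq_zero_iff] at h
    obtain ⟨t, ht⟩ := h
    have ht' : ∀ g, kumh1Kap D U (z.1 g) = dZero (permZ G (G ⧸ U)) D.E t g := ht
    -- `p t` is invariant
    have h1 : ∀ g, conjAdd (permZ G (G ⧸ U)) D.E g (p • t) = p • t := by
      rw [← kumh1_dZero_eq_zero_iff]
      intro g
      rw [kumh1_dZero_nsmul, ← ht' g, kumh1Kap_p]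
    have hw : (kumh1Mk D U _ (kumh1_inv_fix D U _ h1), t, z.1) ∈ kumh1W D U :=
      ⟨(kumh1Phi_mk D U _ h1).symm, ht'⟩
    exact ⟨_, kumh1A_apply D U hU _ _ _ hw z.2⟩
  · rintro ⟨x, rfl⟩
    obtain ⟨ε, z, hw, hz⟩ := kumh1_exists_triple D U hU x
    rw [kumh1A_apply D U hU _ _ _ hw hz, kumh1B_apply, kumh1Cls_eq_zero_iff]
    exact ⟨ε, fun g => hw.2 g⟩

/-- (5) `im b = H¹_lev(G, 𝓔)[p]` -/
theorem kumh1B_range_iff (hU : U ∈ D.𝒯.lev)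
    (y : ↥(levH1 D.𝒯 (homRep (permZ G (G ⧸ U)) D.E))) :
    p • y = 0 ↔ ∃ v : ↥(levH1 D.𝒯 (regMu D.χ U)), kumh1B D U v = y := by
  constructor
  · intro h
    obtain ⟨c, rfl⟩ := kumh1Cls_surjective D.𝒯 (homRep (permZ G (G ⧸ U)) D.E) y
    rw [← map_nsmul, kumh1Cls_eq_zero_iff] at h
    obtain ⟨t, ht⟩ := h
    have ht' : ∀ g, p • c.1 g = dZero (permZ G (G ⧸ U)) D.E t g := ht
    obtain ⟨t', rfl⟩ := kumh1_exists_root D U t
    haveI := kumh1_finite D.𝒯 U hU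
    have hE : IsDiscrete D.𝒯 D.E := D.E_discrete
    have hlev : IsLevel₁ D.𝒯 (dZero (permZ G (G ⧸ U)) D.E t') :=
      chl_isLevel₁_dZero (kumh1_isLevSet D.𝒯 U hU) hE t'
    -- the coboundary `d⁰ t'` as a level cocycle
    have hd : dZero (permZ G (G ⧸ U)) D.E t' ∈ kumh1Z1 D.𝒯 (homRep (permZ G (G ⧸ U)) D.E) := by
      rw [mem_kumh1Z1]
      exact ⟨(kumh1_mem_cocycles₁_homRep _ _ _).2 (fun s => kumh1_dOne_dZero _ _ t' s), hlev⟩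
    -- `c'' = c - d⁰ t'` is killed by `p`
    have hc'' : ∀ σ, p • (c.1 σ - dZero (permZ G (G ⧸ U)) D.E t' σ) = 0 := by
      intro σ
      rw [smul_sub, ht' σ, kumh1_dZero_nsmul, sub_self]
    have hlev'' : IsLevel₁ D.𝒯 (fun σ => c.1 σ - dZero (permZ G (G ⧸ U)) D.E t' σ) :=
      chl_isLevel₁_sub c.2.2 hlev
    obtain ⟨z, hzlev, hz⟩ := kumh1_exists_kap₁ D U _ hlev'' hc''
    have hzmem : z ∈ kumh1Z1 D.𝒯 (regMu D.χ U) := by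
      rw [mem_kumh1Z1]
      refine ⟨?_, hzlev⟩
      rw [kumh1_mem_cocycles₁_regMu, ← kumh1_mem_cocycles₁_homRep]
      have h1 : (fun x => kumh1Kap D U (z x))
          = c.1 - dZero (permZ G (G ⧸ U)) D.E t' := funext hz
      rw [h1]
      exact Submodule.sub_mem _ c.2.1 hd.1
    refine ⟨kumh1Cls D.𝒯 (regMu D.χ U) ⟨z, hzmem⟩, ?_⟩
    rw [kumh1B_apply, kumh1Cls_eq_iff]
    refine ⟨-t', fun g => ?_⟩
    have h2 : kumh1Kap D U (z g) = c.1 g - dZero (permZ G (G ⧸ U)) D.E t' g := hz g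
    have h3 : (homRep (permZ G (G ⧸ U)) D.E).ρ g (-t')
        = - conjAdd (permZ G (G ⧸ U)) D.E g t' := by
      rw [kumh1_homRep_ρ, map_neg]
    show kumh1Kap D U (z g) - c.1 g = _
    rw [h2, h3, sub_sub_cancel_left, neg_sub_neg]
    show -(conjAdd (permZ G (G ⧸ U)) D.E g t' - t') = _
    rw [neg_sub]
  · rintro ⟨v, rfl⟩
    obtain ⟨z, rfl⟩ := kumh1Cls_surjective D.𝒯 (regMu D.χ U) v
    rw [kumh1B_apply, ← map_nsmul]
    have h0 : p • kumh1KapZ D U z = 0 :=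
      Subtype.ext (funext fun σ => kumh1Kap_p D U (z.1 σ))
    rw [h0, map_zero]

end Seq

/-- **K-H1.** The Kummer sequence in degree 1. -/
theorem stmtKumH1 : StmtKumH1 := by
  intro p _ G _ ι _ _ Gloc _ D U _ hU _
  exact ⟨kumh1A D U hU, kumh1B D U, fun g x => kumh1A_ρ D U hU g x,
    fun g v => kumh1B_ρ D U g v, fun x => kumh1A_eq_zero_iff D U hU x,
    fun v => kumh1B_eq_zero_iff D U hU v, fun y => kumh1B_range_iff D U hU y⟩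

end Fermat.Agent.TW.E

end
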