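/-
Project TW (S56) — part TW-E, block **E-cyc**, piece **K-H2** (helper35): the Kummer sequence in
degree 2,
  `H¹_lev(𝓔) —p→ H¹_lev(𝓔) —a→ H²_lev(G, 𝓜) —b→ H²_lev(G, 𝓔) —p→ H²_lev(G, 𝓔)`,
`𝓔 = Hom_ℤ(ℤ[Γ], E)`, `𝓜 = Hom_ℤ(ℤ[Γ], μ_p)`, `Γ`-equivariantly.  Names `kumh2*`.

`P` = the level 1-cochains `c̃` of `𝓔` with `p • d c̃ = 0`;  `α : P → Z¹_lev(𝓔)`, `c̃ ↦ p • c̃` (onto:
`E` is `p`-divisible, roots are chosen by a function of the value);  `β : P → H²_lev(𝓜)`,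
`c̃ ↦ [κ⁻¹ ∘ d c̃]`;  `a` is induced by `β` along `cls ∘ α`;  `b = κ_*`.
-/
import Fermat.Agent.TW.E.KumBase

set_option autoImplicit false
set_option linter.unusedSectionVars false
set_option linter.style.haveILetI false

noncomputable section

namespace Fermat.Agent.TW.E

open CategoryTheory groupCohomology Module Fermat.Agent.PT Fermat.Agent.PT.F Fermat.Agent.PT.B
  Fermat.Agent.TW.F
open Fermat.Agent.PT.F.ExactH2

attribute [local instance 1100] Rep.hV2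

/-! ### Bridge: Mathlib cocycles of `Hom_ℤ(M, Y)` versus `dOne`, `dTwo` -/

section Bridge

variable {G : Type} [Group G] (M Y : Rep.{0} ℤ G)

lemma kumh2_mem_cocycles₁ (c : G → (M.V →+ Y.V)) :
    c ∈ cocycles₁ (homRep M Y) ↔ ∀ s, dOne M Y c s = 0 := by
  rw [mem_cocycles₁_def]
  constructor
  · intro h s
    exact h s.1 s.2
  · intro h g g'
    exact h (g, g')

lemma kumh2_mem_cocycles₂ (y : G × G → (M.V →+ Y.V)) :
    y ∈ cocycles₂ (homRep M Y) ↔ ∀ s, dTwo M Y y s = 0 := by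
  rw [mem_cocycles₂_def]
  constructor
  · intro h s
    exact h s.1 s.2.1 s.2.2
  · intro h g g' g''
    exact h (g, g', g'')

lemma kumh2_d₁₂ (t : G → (M.V →+ Y.V)) : (d₁₂ (homRep M Y)).hom t = dOne M Y t := rfl

lemma kumh2_d₀₁ (h : M.V →+ Y.V) (g : G) :
    (homRep M Y).ρ g h - h = dZero M Y h g := rfl

lemma kumh2_mem_levCob (𝒯 : Tower G) (y : G × G → (M.V →+ Y.V)) :
    y ∈ levCoboundaries₂ 𝒯 (homRep M Y) ↔ ∃ t : G → (M.V →+ Y.V), IsLevel₁ 𝒯 t ∧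
      ∀ s, y s = dOne M Y t s := by
  rw [mem_levCoboundaries₂_iff]
  constructor
  · rintro ⟨t, ht, rfl⟩
    exact ⟨t, ht, fun s => rfl⟩
  · rintro ⟨t, ht, h⟩
    exact ⟨t, ht, funext fun s => (h s).symm⟩

end Bridge

/-! ### The differentials of `𝓜` on functions, and `κ` -/

section MSide

variable {p : ℕ} [Fact p.Prime] {G : Type} [Group G] {ι : Type} {Gloc : ι → Type}
  [∀ v, Group (Gloc v)] (D : PTDatum p G ι Gloc) (U : Subgroup G) [U.Normal]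

/-- `d¹` of `𝓜` on functions -/
def kumh2D1 (x : G → ((G ⧸ U) → ZMod p)) (s : G × G) : (G ⧸ U) → ZMod p :=
  regMuρ D.χ U s.1 (x s.2) - x (s.1 * s.2) + x s.1

/-- `d²` of `𝓜` on functions -/
def kumh2D2 (w : G × G → ((G ⧸ U) → ZMod p)) (s : G × G × G) : (G ⧸ U) → ZMod p :=
  regMuρ D.χ U s.1 (w (s.2.1, s.2.2)) - w (s.1 * s.2.1, s.2.2) + w (s.1, s.2.1 * s.2.2)
    - w (s.1, s.2.1)

lemma kumh2_d₁₂_M (x : G → (regMu D.χ U).V) :
    (d₁₂ (regMu D.χ U)).hom x = kumh2D1 D U x := rfl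

lemma kumh2_mem_cocycles₂_M (w : G × G → (regMu D.χ U).V) :
    w ∈ cocycles₂ (regMu D.χ U) ↔ ∀ s, kumh2D2 D U w s = 0 := by
  rw [mem_cocycles₂_def]
  constructor
  · intro h s
    exact h s.1 s.2.1 s.2.2
  · intro h g g' g''
    exact h (g, g', g'')

lemma kumh2_mem_levCob_M (w : G × G → (regMu D.χ U).V) :
    w ∈ levCoboundaries₂ D.𝒯 (regMu D.χ U) ↔ ∃ x : G → ((G ⧸ U) → ZMod p), IsLevel₁ D.𝒯 x ∧
      ∀ s, w s = kumh2D1 D U x s := by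
  rw [mem_levCoboundaries₂_iff]
  constructor
  · rintro ⟨x, hx, rfl⟩
    exact ⟨x, hx, fun s => rfl⟩
  · rintro ⟨x, hx, h⟩
    exact ⟨x, hx, funext fun s => (h s).symm⟩

/-- `κ` commutes with `d¹` -/
lemma kumh2_kappa_D1 (x : G → ((G ⧸ U) → ZMod p)) (s : G × G) :
    kumbKappa D U (kumh2D1 D U x s) =
      dOne (permZ G (G ⧸ U)) D.E (fun g => kumbKappa D U (x g)) s := by
  unfold kumh2D1 dOne
  rw [map_add, map_sub, kumb_kappa_conj]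

/-- `κ` commutes with `d²` -/
lemma kumh2_kappa_D2 (w : G × G → ((G ⧸ U) → ZMod p)) (s : G × G × G) :
    kumbKappa D U (kumh2D2 D U w s) =
      dTwo (permZ G (G ⧸ U)) D.E (fun g => kumbKappa D U (w g)) s := by
  unfold kumh2D2 dTwo
  rw [map_sub, map_add, map_sub, kumb_kappa_conj]

/-- a function with values in the `p`-torsion is `κ` of a function -/
lemma kumh2_kappa_kinv₂ (y : G × G → ((permZ G (G ⧸ U)).V →+ D.E.V)) (hy : ∀ s, p • y s = 0) :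
    (fun s => kumbKappa D U (kumbKinv D U (y s))) = y :=
  funext fun s => kumb_kappa_kinv D U (y s) (hy s)

lemma kumh2_kappa_kinv₁ (c : G → ((permZ G (G ⧸ U)).V →+ D.E.V)) (hc : ∀ g, p • c g = 0) :
    (fun g => kumbKappa D U (kumbKinv D U (c g))) = c :=
  funext fun g => kumb_kappa_kinv D U (c g) (hc g)

/-- a chosen `p`-th root of an additive map `ℤ[Γ] → E` -/
def kumh2Root (h : (permZ G (G ⧸ U)).V →+ D.E.V) : (permZ G (G ⧸ U)).V →+ D.E.V :=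
  chl_lift (G ⧸ U) (fun γ => Classical.choose (D.E_div (h (MonoidAlgebra.single γ 1))))

lemma kumh2_root (h : (permZ G (G ⧸ U)).V →+ D.E.V) : p • kumh2Root D U h = h := by
  apply chl_ext
  intro γ
  rw [AddMonoidHom.nsmul_apply, kumh2Root, chl_lift_single, one_smul]
  exact Classical.choose_spec (D.E_div (h (MonoidAlgebra.single γ 1)))

end MSide

/-! ### The group `P` and the maps `α`, `β` -/

section Main

variable {p : ℕ} [Fact p.Prime] {G : Type} [Group G] {ι : Type} {Gloc : ι → Type}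
  [∀ v, Group (Gloc v)] (D : PTDatum p G ι Gloc) (U : Subgroup G) [U.Normal]

lemma kumh2_dOne_zero (M Y : Rep.{0} ℤ G) (s : G × G) :
    dOne M Y (0 : G → (M.V →+ Y.V)) s = 0 := by
  unfold dOne
  simp

lemma kumh2_levSet (hU : U ∈ D.𝒯.lev) : IsLevSet D.𝒯 (G ⧸ U) :=
  h2s_isLevSet D.𝒯 U U hU le_rfl

lemma kumh2_finite (hU : U ∈ D.𝒯.lev) : Finite (G ⧸ U) :=
  haveI := D.𝒯.finiteIndex U hU
  Subgroup.finite_quotient_of_finiteIndex

/-- precomposition with a right translation commutes with conjugation -/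
lemma kumh2_conj_rt (Y : Rep.{0} ℤ G) (δ : G ⧸ U) (g : G)
    (F : (permZ G (G ⧸ U)).V →+ Y.V) :
    conjAdd (permZ G (G ⧸ U)) Y g (F.comp (rtAdd U δ)) =
      (conjAdd (permZ G (G ⧸ U)) Y g F).comp (rtAdd U δ) := by
  refine AddMonoidHom.ext fun m => ?_
  change Y.ρ g (F (rtAdd U δ ((permZ G (G ⧸ U)).ρ g⁻¹ m))) =
    Y.ρ g (F ((permZ G (G ⧸ U)).ρ g⁻¹ (rtAdd U δ m)))
  rw [rtAdd_ρ]

lemma kumh2_dOne_rt (Y : Rep.{0} ℤ G) (δ : G ⧸ U)
    (t : G → ((permZ G (G ⧸ U)).V →+ Y.V)) (s : G × G) :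
    dOne (permZ G (G ⧸ U)) Y (fun g => (t g).comp (rtAdd U δ)) s =
      (dOne (permZ G (G ⧸ U)) Y t s).comp (rtAdd U δ) := by
  unfold dOne
  simp only [AddMonoidHom.sub_comp, AddMonoidHom.add_comp]
  rw [kumh2_conj_rt]

/-- `P`: the level 1-cochains `c̃` of `𝓔` with `p • d c̃ = 0` -/
def kumh2P : AddSubgroup (G → ((permZ G (G ⧸ U)).V →+ D.E.V)) where
  carrier := {c | IsLevel₁ D.𝒯 c ∧ ∀ s, p • dOne (permZ G (G ⧸ U)) D.E c s = 0}
  add_mem' := fun {c c'} hc hc' => ⟨hc.1.add hc'.1, fun s => by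
    rw [show (c + c') = fun g => c g + c' g from rfl, chl_dOne_add, smul_add, hc.2 s, hc'.2 s,
      add_zero]⟩
  zero_mem' := ⟨isLevel₁_const D.𝒯 0, fun s => by rw [kumh2_dOne_zero, smul_zero]⟩
  neg_mem' := fun {c} hc => ⟨hc.1.comp (fun x => -x), fun s => by
    rw [show (-c) = fun g => - c g from rfl, chl_dOne_neg, smul_neg, hc.2 s, neg_zero]⟩

lemma mem_kumh2P (c : G → ((permZ G (G ⧸ U)).V →+ D.E.V)) :
    c ∈ kumh2P D U ↔ IsLevel₁ D.𝒯 c ∧ ∀ s, p • dOne (permZ G (G ⧸ U)) D.E c s = 0 := Iff.rfl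

/-- the `𝓜`-valued 2-cochain `κ⁻¹ ∘ d c̃` -/
def kumh2W (c : G → ((permZ G (G ⧸ U)).V →+ D.E.V)) : G × G → ((G ⧸ U) → ZMod p) :=
  fun s => kumbKinv D U (dOne (permZ G (G ⧸ U)) D.E c s)

lemma kumh2_kappa_W (c : G → ((permZ G (G ⧸ U)).V →+ D.E.V)) (hc : c ∈ kumh2P D U) (s : G × G) :
    kumbKappa D U (kumh2W D U c s) = dOne (permZ G (G ⧸ U)) D.E c s :=
  kumb_kappa_kinv D U _ (hc.2 s)

lemma kumh2_W_mem (hU : U ∈ D.𝒯.lev) (c : G → ((permZ G (G ⧸ U)).V →+ D.E.V))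
    (hc : c ∈ kumh2P D U) :
    (kumh2W D U c : G × G → (regMu D.χ U).V) ∈ levCocycles₂ D.𝒯 (regMu D.χ U) := by
  refine ⟨(kumh2_mem_cocycles₂_M D U _).2 fun s => ?_, ?_⟩
  · apply kumb_kappa_injective D U
    rw [kumh2_kappa_D2, map_zero]
    have h : (fun g => kumbKappa D U (kumh2W D U c g)) = dOne (permZ G (G ⧸ U)) D.E c :=
      funext fun s => kumh2_kappa_W D U c hc s
    rw [h, chl_dTwo_dOne]
  · haveI := kumh2_finite D U hU
    exact (chl_isLevel₂_dOne (kumh2_levSet D U hU) D.E_discrete c hc.1).comp (kumbKinv D U)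

/-- `β : P → H²_lev(G, 𝓜)`, `c̃ ↦ [κ⁻¹ ∘ d c̃]` -/
def kumh2Beta (hU : U ∈ D.𝒯.lev) : ↥(kumh2P D U) →+ levH2 D.𝒯 (regMu D.χ U) :=
  AddMonoidHom.mk'
    (fun c => levH2π D.𝒯 (regMu D.χ U) ⟨kumh2W D U c.1, kumh2_W_mem D U hU c.1 c.2⟩)
    (fun c c' => by
      rw [← map_add]
      congr 1
      apply Subtype.ext
      funext s
      show kumbKinv D U (dOne (permZ G (G ⧸ U)) D.E (c.1 + c'.1) s) =
        kumbKinv D U (dOne (permZ G (G ⧸ U)) D.E c.1 s) +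
          kumbKinv D U (dOne (permZ G (G ⧸ U)) D.E c'.1 s)
      rw [show (c.1 + c'.1) = fun g => c.1 g + c'.1 g from rfl, chl_dOne_add,
        kumb_kinv_add D U _ _ (c.2.2 s) (c'.2.2 s)])

lemma kumh2Beta_apply (hU : U ∈ D.𝒯.lev) (c : ↥(kumh2P D U)) :
    kumh2Beta D U hU c =
      levH2π D.𝒯 (regMu D.χ U) ⟨kumh2W D U c.1, kumh2_W_mem D U hU c.1 c.2⟩ := rfl

/-- `α : P → Z¹_lev(𝓔)`, `c̃ ↦ p • c̃` -/
def kumh2Alpha : ↥(kumh2P D U) →+ ↥(kumbZ1 D.𝒯 (homRep (permZ G (G ⧸ U)) D.E)) :=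
  AddMonoidHom.mk'
    (fun c => ⟨fun g => p • c.1 g,
      (kumh2_mem_cocycles₁ _ _ _).2 fun s => by
        rw [dOne_nsmul]
        exact c.2.2 s,
      chl_isLevel₁_nsmul p c.2.1⟩)
    (fun c c' => by
      apply Subtype.ext
      funext g
      show p • (c.1 g + c'.1 g) = p • c.1 g + p • c'.1 g
      rw [smul_add])

lemma kumh2Alpha_val (c : ↥(kumh2P D U)) (g : G) :
    ((kumh2Alpha D U c : ↥(kumbZ1 D.𝒯 (homRep (permZ G (G ⧸ U)) D.E))) :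
      G → ((permZ G (G ⧸ U)).V →+ D.E.V)) g = p • c.1 g := rfl

/-- `cls ∘ α : P → H¹_lev(𝓔)` is onto -/
lemma kumh2_clsAlpha_surj :
    Function.Surjective
      ((kumbCls D.𝒯 (homRep (permZ G (G ⧸ U)) D.E)).toAddMonoidHom.comp (kumh2Alpha D U)) := by
  intro x
  obtain ⟨c, rfl⟩ := kumbCls_surjective D.𝒯 (homRep (permZ G (G ⧸ U)) D.E) x
  have hc1 : ∀ s, dOne (permZ G (G ⧸ U)) D.E (c : G → ((permZ G (G ⧸ U)).V →+ D.E.V)) s = 0 :=
    (kumh2_mem_cocycles₁ _ _ _).1 c.2.1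
  have hroot : (fun g => p • kumh2Root D U ((c : G → ((permZ G (G ⧸ U)).V →+ D.E.V)) g)) =
      (c : G → ((permZ G (G ⧸ U)).V →+ D.E.V)) := funext fun g => kumh2_root D U _
  refine ⟨⟨fun g => kumh2Root D U ((c : G → ((permZ G (G ⧸ U)).V →+ D.E.V)) g),
    c.2.2.comp (kumh2Root D U), fun s => ?_⟩, ?_⟩
  · rw [← dOne_nsmul, hroot, hc1]
  · show kumbCls D.𝒯 _ (kumh2Alpha D U _) = kumbCls D.𝒯 _ c
    congr 1
    apply Subtype.ext
    exact hroot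

/-- the kernel condition for `a` -/
lemma kumh2_ker_a (hU : U ∈ D.𝒯.lev) (c : ↥(kumh2P D U))
    (h : (kumbCls D.𝒯 (homRep (permZ G (G ⧸ U)) D.E)).toAddMonoidHom.comp (kumh2Alpha D U) c = 0) :
    kumh2Beta D U hU c = 0 := by
  haveI := kumh2_finite D U hU
  have h' : kumbCls D.𝒯 (homRep (permZ G (G ⧸ U)) D.E) (kumh2Alpha D U c) = 0 := h
  obtain ⟨b, hb⟩ := (kumbCls_eq_zero_iff D.𝒯 _ _).1 h'
  have hb' : ∀ g, p • c.1 g = dZero (permZ G (G ⧸ U)) D.E b g := fun g => hb g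
  set t' := kumh2Root D U b with ht'
  have hpt' : p • t' = b := kumh2_root D U b
  have htors : ∀ g, p • (c.1 g - dZero (permZ G (G ⧸ U)) D.E t' g) = 0 := by
    intro g
    rw [smul_sub, ← dZero_nsmul, hpt', hb', sub_self]
  have hxlev : IsLevel₁ D.𝒯
      (fun g => kumbKinv D U (c.1 g - dZero (permZ G (G ⧸ U)) D.E t' g)) :=
    (chl_isLevel₁_sub c.2.1
      (chl_isLevel₁_dZero (kumh2_levSet D U hU) D.E_discrete t')).comp (kumbKinv D U)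
  rw [kumh2Beta_apply, levH2π_eq_zero_iff]
  refine (kumh2_mem_levCob_M D U _).2
    ⟨fun g => kumbKinv D U (c.1 g - dZero (permZ G (G ⧸ U)) D.E t' g), hxlev, fun s => ?_⟩
  apply kumb_kappa_injective D U
  show kumbKappa D U (kumh2W D U c.1 s) = _
  rw [kumh2_kappa_W D U c.1 c.2, kumh2_kappa_D1, kumh2_kappa_kinv₁ D U _ htors, dOne_sub,
    dOne_dZero, sub_zero]

/-- **the map `a`** : `H¹_lev(𝓔) → H²_lev(G, 𝓜)` -/
def kumh2A (hU : U ∈ D.𝒯.lev) :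
    ↥(levH1 D.𝒯 (homRep (permZ G (G ⧸ U)) D.E)) →+ levH2 D.𝒯 (regMu D.χ U) :=
  kumbLift ((kumbCls D.𝒯 (homRep (permZ G (G ⧸ U)) D.E)).toAddMonoidHom.comp (kumh2Alpha D U))
    (kumh2Beta D U hU) (kumh2_clsAlpha_surj D U) (kumh2_ker_a D U hU)

lemma kumh2A_spec (hU : U ∈ D.𝒯.lev) (c : ↥(kumh2P D U)) :
    kumh2A D U hU (kumbCls D.𝒯 (homRep (permZ G (G ⧸ U)) D.E) (kumh2Alpha D U c)) =
      kumh2Beta D U hU c :=
  kumbLift_apply _ _ _ _ c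

lemma kumh2_exists_P (x : ↥(levH1 D.𝒯 (homRep (permZ G (G ⧸ U)) D.E))) :
    ∃ c : ↥(kumh2P D U),
      kumbCls D.𝒯 (homRep (permZ G (G ⧸ U)) D.E) (kumh2Alpha D U c) = x :=
  kumh2_clsAlpha_surj D U x

/-- push-forward of level 2-cocycles along `κ` -/
def kumh2PushK : ↥(levCocycles₂ D.𝒯 (regMu D.χ U)) →+
    ↥(levCocycles₂ D.𝒯 (homRep (permZ G (G ⧸ U)) D.E)) :=
  AddMonoidHom.mk'
    (fun w => ⟨fun s => kumbKappa D U (w.1 s),
      (kumh2_mem_cocycles₂ _ _ _).2 fun s => by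
        rw [← kumh2_kappa_D2 D U (fun s => w.1 s), (kumh2_mem_cocycles₂_M D U _).1 w.2.1 s,
          map_zero],
      w.2.2.comp (kumbKappa D U)⟩)
    (fun w w' => by
      apply Subtype.ext
      funext s
      exact map_add (kumbKappa D U) (w.1 s) (w'.1 s))

lemma kumh2PushK_val (w : ↥(levCocycles₂ D.𝒯 (regMu D.χ U))) (s : G × G) :
    ((kumh2PushK D U w : ↥(levCocycles₂ D.𝒯 (homRep (permZ G (G ⧸ U)) D.E))) :
      G × G → ((permZ G (G ⧸ U)).V →+ D.E.V)) s = kumbKappa D U (w.1 s) := rfl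

lemma kumh2_ker_b (w : ↥(levCocycles₂ D.𝒯 (regMu D.χ U)))
    (h : (levH2π D.𝒯 (regMu D.χ U)).toAddMonoidHom w = 0) :
    ((levH2π D.𝒯 (homRep (permZ G (G ⧸ U)) D.E)).toAddMonoidHom.comp (kumh2PushK D U)) w = 0 := by
  have h' : levH2π D.𝒯 (regMu D.χ U) w = 0 := h
  rw [levH2π_eq_zero_iff] at h'
  obtain ⟨x, hx, hwx⟩ := (kumh2_mem_levCob_M D U _).1 h'
  show levH2π D.𝒯 (homRep (permZ G (G ⧸ U)) D.E) (kumh2PushK D U w) = 0
  rw [levH2π_eq_zero_iff]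
  refine (kumh2_mem_levCob _ _ D.𝒯 _).2
    ⟨fun g => kumbKappa D U (x g), hx.comp (kumbKappa D U), fun s => ?_⟩
  rw [kumh2PushK_val, hwx s, kumh2_kappa_D1]

/-- **the map `b = κ_*`** : `H²_lev(G, 𝓜) → H²_lev(G, 𝓔)` -/
def kumh2B : levH2 D.𝒯 (regMu D.χ U) →+ levH2 D.𝒯 (homRep (permZ G (G ⧸ U)) D.E) :=
  kumbLift (levH2π D.𝒯 (regMu D.χ U)).toAddMonoidHom
    ((levH2π D.𝒯 (homRep (permZ G (G ⧸ U)) D.E)).toAddMonoidHom.comp (kumh2PushK D U))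
    (Submodule.mkQ_surjective _) (kumh2_ker_b D U)

lemma kumh2B_spec (w : ↥(levCocycles₂ D.𝒯 (regMu D.χ U))) :
    kumh2B D U (levH2π D.𝒯 (regMu D.χ U) w) =
      levH2π D.𝒯 (homRep (permZ G (G ⧸ U)) D.E) (kumh2PushK D U w) :=
  kumbLift_apply _ _ _ _ w

end Main

section Clauses

variable {p : ℕ} [Fact p.Prime] {G : Type} [Group G] {ι : Type} {Gloc : ι → Type}
  [∀ v, Group (Gloc v)] (D : PTDatum p G ι Gloc) (U : Subgroup G) [U.Normal]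

/-- `a` is equivariant -/
lemma kumh2_a_equiv (hU : U ∈ D.𝒯.lev) (δ : G ⧸ U)
    (x : ↥(levH1 D.𝒯 (homRep (permZ G (G ⧸ U)) D.E))) :
    kumh2A D U hU (levH1Map D.𝒯 (homRt U D.E δ) x) =
      levH2Map D.𝒯 (regRt D.χ U δ) (kumh2A D U hU x) := by
  obtain ⟨c, rfl⟩ := kumh2_exists_P D U x
  have hRc : (fun g => (c.1 g).comp (rtAdd U δ)) ∈ kumh2P D U :=
    ⟨c.2.1.comp (fun φ => φ.comp (rtAdd U δ)), fun s => by
      rw [kumh2_dOne_rt]
      refine AddMonoidHom.ext fun m => ?_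
      show p • (dOne (permZ G (G ⧸ U)) D.E c.1 s) (rtAdd U δ m) = 0
      rw [← AddMonoidHom.nsmul_apply, c.2.2 s, AddMonoidHom.zero_apply]⟩
  have e : levH1Map D.𝒯 (homRt U D.E δ)
      (kumbCls D.𝒯 (homRep (permZ G (G ⧸ U)) D.E) (kumh2Alpha D U c)) =
      kumbCls D.𝒯 (homRep (permZ G (G ⧸ U)) D.E)
        (kumh2Alpha D U ⟨fun g => (c.1 g).comp (rtAdd U δ), hRc⟩) := by
    rw [kumb_levH1Map_cls]
    congr 1
  rw [e, kumh2A_spec, kumh2A_spec, kumh2Beta_apply, kumh2Beta_apply, levH2Map_mk]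
  congr 1
  apply Subtype.ext
  funext s
  show kumbKinv D U (dOne (permZ G (G ⧸ U)) D.E (fun g => (c.1 g).comp (rtAdd U δ)) s) = _
  rw [kumh2_dOne_rt, kumb_kinv_rt D U δ _ (c.2.2 s)]
  rfl

/-- `b` is equivariant -/
lemma kumh2_b_equiv (δ : G ⧸ U) (v : levH2 D.𝒯 (regMu D.χ U)) :
    kumh2B D U (levH2Map D.𝒯 (regRt D.χ U δ) v) =
      levH2Map D.𝒯 (homRt U D.E δ) (kumh2B D U v) := by
  obtain ⟨w, rfl⟩ := Submodule.mkQ_surjective _ v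
  show kumh2B D U (levH2Map D.𝒯 (regRt D.χ U δ) (levH2π D.𝒯 (regMu D.χ U) w)) =
    levH2Map D.𝒯 (homRt U D.E δ) (kumh2B D U (levH2π D.𝒯 (regMu D.χ U) w))
  rw [levH2Map_mk, kumh2B_spec, kumh2B_spec, levH2Map_mk]
  congr 1
  apply Subtype.ext
  funext s
  exact (kumb_kappa_rt D U δ (w.1 s)).symm

/-- `ker a = p H¹` -/
lemma kumh2_ker_a_iff (hU : U ∈ D.𝒯.lev) (x : ↥(levH1 D.𝒯 (homRep (permZ G (G ⧸ U)) D.E))) :
    kumh2A D U hU x = 0 ↔ ∃ y : ↥(levH1 D.𝒯 (homRep (permZ G (G ⧸ U)) D.E)), x = p • y := by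
  constructor
  · intro hx
    obtain ⟨c, rfl⟩ := kumh2_exists_P D U x
    rw [kumh2A_spec, kumh2Beta_apply, levH2π_eq_zero_iff] at hx
    obtain ⟨x₁, hx₁lev, hx₁⟩ := (kumh2_mem_levCob_M D U _).1 hx
    have hd : ∀ s, dOne (permZ G (G ⧸ U)) D.E c.1 s =
        dOne (permZ G (G ⧸ U)) D.E (fun g => kumbKappa D U (x₁ g)) s := fun s => by
      rw [← kumh2_kappa_W D U c.1 c.2 s, ← kumh2_kappa_D1]
      exact congrArg (kumbKappa D U) (hx₁ s)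
    have hc'mem : (fun g => c.1 g - kumbKappa D U (x₁ g)) ∈
        kumbZ1 D.𝒯 (homRep (permZ G (G ⧸ U)) D.E) :=
      ⟨(kumh2_mem_cocycles₁ _ _ _).2 fun s => by rw [dOne_sub, hd s, sub_self],
        chl_isLevel₁_sub c.2.1 (hx₁lev.comp (kumbKappa D U))⟩
    refine ⟨kumbCls D.𝒯 _ ⟨_, hc'mem⟩, ?_⟩
    rw [← map_nsmul]
    congr 1
    apply Subtype.ext
    funext g
    show p • c.1 g = p • (c.1 g - kumbKappa D U (x₁ g))
    rw [smul_sub, kumb_p_kappa, sub_zero]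
  · rintro ⟨y, rfl⟩
    obtain ⟨c', rfl⟩ := kumbCls_surjective D.𝒯 _ y
    have hc'0 : ∀ s, dOne (permZ G (G ⧸ U)) D.E
        (c' : G → ((permZ G (G ⧸ U)).V →+ D.E.V)) s = 0 :=
      (kumh2_mem_cocycles₁ _ _ _).1 c'.2.1
    have hcP : (c' : G → ((permZ G (G ⧸ U)).V →+ D.E.V)) ∈ kumh2P D U :=
      ⟨c'.2.2, fun s => by rw [hc'0 s, smul_zero]⟩
    have e : p • kumbCls D.𝒯 (homRep (permZ G (G ⧸ U)) D.E) c' =
        kumbCls D.𝒯 (homRep (permZ G (G ⧸ U)) D.E) (kumh2Alpha D U ⟨_, hcP⟩) := by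
      rw [← map_nsmul]
      congr 1
    rw [e, kumh2A_spec, kumh2Beta_apply, levH2π_eq_zero_iff]
    have hW : kumh2W D U (c' : G → ((permZ G (G ⧸ U)).V →+ D.E.V)) = 0 := funext fun s => by
      show kumbKinv D U (dOne (permZ G (G ⧸ U)) D.E _ s) = 0
      rw [hc'0 s, kumb_kinv_zero]
    show (kumh2W D U (c' : G → ((permZ G (G ⧸ U)).V →+ D.E.V)) :
      G × G → (regMu D.χ U).V) ∈ _
    rw [hW]
    exact Submodule.zero_mem _

/-- `ker b = im a` -/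
lemma kumh2_ker_b_iff (hU : U ∈ D.𝒯.lev) (v : levH2 D.𝒯 (regMu D.χ U)) :
    kumh2B D U v = 0 ↔ ∃ x, kumh2A D U hU x = v := by
  constructor
  · intro hv
    obtain ⟨w, rfl⟩ := Submodule.mkQ_surjective _ v
    have hv' : levH2π D.𝒯 (homRep (permZ G (G ⧸ U)) D.E) (kumh2PushK D U w) = 0 := by
      rw [← kumh2B_spec]
      exact hv
    rw [levH2π_eq_zero_iff] at hv'
    obtain ⟨t, htlev, ht⟩ := (kumh2_mem_levCob _ _ D.𝒯 _).1 hv'
    have ht' : ∀ s, kumbKappa D U (w.1 s) = dOne (permZ G (G ⧸ U)) D.E t s := ht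
    have htP : t ∈ kumh2P D U := ⟨htlev, fun s => by
      rw [← ht' s]
      exact kumb_p_kappa D U _⟩
    refine ⟨kumbCls D.𝒯 _ (kumh2Alpha D U ⟨t, htP⟩), ?_⟩
    rw [kumh2A_spec, kumh2Beta_apply]
    show levH2π D.𝒯 (regMu D.χ U) _ = levH2π D.𝒯 (regMu D.χ U) w
    congr 1
    apply Subtype.ext
    funext s
    show kumbKinv D U (dOne (permZ G (G ⧸ U)) D.E t s) = w.1 s
    rw [← ht' s]
    exact kumb_kinv_kappa D U (w.1 s)
  · rintro ⟨x, rfl⟩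
    obtain ⟨c, rfl⟩ := kumh2_exists_P D U x
    rw [kumh2A_spec, kumh2Beta_apply, kumh2B_spec, levH2π_eq_zero_iff]
    refine (kumh2_mem_levCob _ _ D.𝒯 _).2 ⟨c.1, c.2.1, fun s => ?_⟩
    rw [kumh2PushK_val]
    exact kumh2_kappa_W D U c.1 c.2 s

/-- `im b = H²(𝓔)[p]` -/
lemma kumh2_im_b_iff (hU : U ∈ D.𝒯.lev) (y : levH2 D.𝒯 (homRep (permZ G (G ⧸ U)) D.E)) :
    p • y = 0 ↔ ∃ v, kumh2B D U v = y := by
  haveI := kumh2_finite D U hU
  have hΩ := kumh2_levSet D U hU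
  constructor
  · intro hy
    obtain ⟨y₀, rfl⟩ := Submodule.mkQ_surjective _ y
    have hy' : levH2π D.𝒯 (homRep (permZ G (G ⧸ U)) D.E) (p • y₀) = 0 := by
      rw [map_nsmul]
      exact hy
    rw [levH2π_eq_zero_iff] at hy'
    obtain ⟨t, htlev, ht⟩ := (kumh2_mem_levCob _ _ D.𝒯 _).1 hy'
    have ht0 : ∀ s, p • (y₀ : G × G → ((permZ G (G ⧸ U)).V →+ D.E.V)) s =
        dOne (permZ G (G ⧸ U)) D.E t s := ht
    have ht'lev : IsLevel₁ D.𝒯 (fun g => kumh2Root D U (t g)) := htlev.comp (kumh2Root D U)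
    have hpt' : (fun g => p • kumh2Root D U (t g)) = t := funext fun g => kumh2_root D U _
    have hy₀coc : ∀ s, dTwo (permZ G (G ⧸ U)) D.E
        (y₀ : G × G → ((permZ G (G ⧸ U)).V →+ D.E.V)) s = 0 :=
      (kumh2_mem_cocycles₂ _ _ _).1 y₀.2.1
    have hy₁tors : ∀ s, p • ((y₀ : G × G → ((permZ G (G ⧸ U)).V →+ D.E.V)) s -
        dOne (permZ G (G ⧸ U)) D.E (fun g => kumh2Root D U (t g)) s) = 0 := by
      intro s
      rw [smul_sub, ← dOne_nsmul, hpt', ht0 s, sub_self]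
    have hy₁lev : IsLevel₂ D.𝒯 (fun s => (y₀ : G × G → ((permZ G (G ⧸ U)).V →+ D.E.V)) s -
        dOne (permZ G (G ⧸ U)) D.E (fun g => kumh2Root D U (t g)) s) :=
      chl_isLevel₂_sub y₀.2.2 (chl_isLevel₂_dOne hΩ D.E_discrete _ ht'lev)
    have hy₁coc : ∀ s, dTwo (permZ G (G ⧸ U)) D.E
        (fun s => (y₀ : G × G → ((permZ G (G ⧸ U)).V →+ D.E.V)) s -
          dOne (permZ G (G ⧸ U)) D.E (fun g => kumh2Root D U (t g)) s) s = 0 := by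
      intro s
      rw [chl_dTwo_sub, hy₀coc, chl_dTwo_dOne, sub_zero]
    have hwmem : ((fun s => kumbKinv D U ((y₀ : G × G → ((permZ G (G ⧸ U)).V →+ D.E.V)) s -
        dOne (permZ G (G ⧸ U)) D.E (fun g => kumh2Root D U (t g)) s)) :
          G × G → (regMu D.χ U).V) ∈ levCocycles₂ D.𝒯 (regMu D.χ U) := by
      refine ⟨(kumh2_mem_cocycles₂_M D U _).2 fun s => ?_, hy₁lev.comp (kumbKinv D U)⟩
      apply kumb_kappa_injective D U
      rw [kumh2_kappa_D2, kumh2_kappa_kinv₂ D U _ hy₁tors, hy₁coc, map_zero]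
    refine ⟨levH2π D.𝒯 (regMu D.χ U) ⟨_, hwmem⟩, ?_⟩
    rw [kumh2B_spec, ← sub_eq_zero, ← map_sub, levH2π_eq_zero_iff]
    refine (kumh2_mem_levCob _ _ D.𝒯 _).2
      ⟨fun g => - kumh2Root D U (t g), ht'lev.comp (fun x => -x), fun s => ?_⟩
    show kumbKappa D U (kumbKinv D U ((y₀ : G × G → ((permZ G (G ⧸ U)).V →+ D.E.V)) s -
        dOne (permZ G (G ⧸ U)) D.E (fun g => kumh2Root D U (t g)) s)) -
      (y₀ : G × G → ((permZ G (G ⧸ U)).V →+ D.E.V)) s = _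
    rw [kumb_kappa_kinv D U _ (hy₁tors s), chl_dOne_neg]
    abel
  · rintro ⟨v, rfl⟩
    have hv : p • v = 0 := by
      have h1 := Nat.cast_smul_eq_nsmul (ZMod p) p v
      rw [← h1, ZMod.natCast_self, zero_smul]
    rw [← map_nsmul, hv, map_zero]

end Clauses

/-- **K-H2.** -/
theorem stmtKumH2 : StmtKumH2 := by
  intro p _ G _ ι _ _ Gloc _ D U _ hU hχ
  exact ⟨kumh2A D U hU, kumh2B D U, kumh2_a_equiv D U hU, kumh2_b_equiv D U,
    kumh2_ker_a_iff D U hU, kumh2_ker_b_iff D U hU, kumh2_im_b_iff D U hU⟩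

end Fermat.Agent.TW.E

end
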