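/-
TW-E / E-cyc, piece L-add (helper88): `ψ_N = dim Hom_C(N, -)` is an additive function on
`Rep (ZMod p) Γ` when `p ∤ |C|` (left exact always; right exact by averaging a linear lift).

`stmtLinkAdd : StmtLinkAdd`.
-/
import Fermat.Agent.TW.E.Plan2

set_option autoImplicit false

noncomputable section

namespace Fermat.Agent.TW.E

open CategoryTheory Module

variable {p : ℕ} {Γ : Type} [Group Γ] (C : Subgroup Γ) (N : Rep.{0} (ZMod p) C)

/-- post-composition with a morphism, `Hom_C(N, V) → Hom_C(N, W)` -/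
def ladPost {V W : Rep.{0} (ZMod p) Γ} (f : V ⟶ W) :
    ↥(homC C N V) →ₗ[ZMod p] ↥(homC C N W) where
  toFun Λ := ⟨f.hom.toLinearMap ∘ₗ Λ.1, fun c n => by
    show f.hom (Λ.1 (N.ρ c n)) = W.ρ (c : Γ) (f.hom (Λ.1 n))
    rw [Λ.2 c n, Rep.hom_comm_apply]⟩
  map_add' Λ Λ' := by
    apply Subtype.ext
    apply LinearMap.ext
    intro n
    show f.hom (Λ.1 n + Λ'.1 n) = f.hom (Λ.1 n) + f.hom (Λ'.1 n)
    rw [map_add]
  map_smul' r Λ := by
    apply Subtype.ext
    apply LinearMap.ext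
    intro n
    show f.hom (r • Λ.1 n) = r • f.hom (Λ.1 n)
    rw [map_smul]

lemma ladPost_apply {V W : Rep.{0} (ZMod p) Γ} (f : V ⟶ W) (Λ : ↥(homC C N V)) (n : N.V) :
    (ladPost C N f Λ).1 n = f.hom (Λ.1 n) := rfl

/-- `Hom_C(N, -)` of an isomorphism -/
def ladIso {V W : Rep.{0} (ZMod p) Γ} (e : V ≅ W) :
    ↥(homC C N V) ≃ₗ[ZMod p] ↥(homC C N W) :=
  LinearEquiv.ofLinearMap (ladPost C N e.hom) (ladPost C N e.inv)
    (by
      apply LinearMap.ext
      intro Λ
      apply Subtype.ext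
      apply LinearMap.ext
      intro n
      show e.hom.hom (e.inv.hom (Λ.1 n)) = Λ.1 n
      have h := congrArg (fun f : W ⟶ W => f.hom (Λ.1 n)) e.inv_hom_id
      exact h)
    (by
      apply LinearMap.ext
      intro Λ
      apply Subtype.ext
      apply LinearMap.ext
      intro n
      show e.inv.hom (e.hom.hom (Λ.1 n)) = Λ.1 n
      have h := congrArg (fun f : V ⟶ V => f.hom (Λ.1 n)) e.hom_inv_id
      exact h)

/-- the kernel of `g_*` is the image of `f_*` -/
lemma lad_exact {V' V V'' : Rep.{0} (ZMod p) Γ} (f : V' ⟶ V) (g : V ⟶ V'')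
    (hf : Function.Injective f.hom) (hfg : Function.Exact f.hom g.hom) :
    LinearMap.ker (ladPost C N g) = LinearMap.range (ladPost C N f) := by
  ext Λ
  rw [LinearMap.mem_ker, LinearMap.mem_range]
  constructor
  · intro h
    have h0 : ∀ n, g.hom (Λ.1 n) = 0 := fun n => by
      have := congrArg (fun Λ' : ↥(homC C N V'') => Λ'.1 n) h
      exact this
    -- lift pointwise
    have hex : ∀ n, ∃ x : V'.V, f.hom x = Λ.1 n := fun n => (hfg (Λ.1 n)).1 (h0 n)
    choose s hs using hex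
    have hadd : ∀ a b, s (a + b) = s a + s b := fun a b => by
      apply hf
      rw [map_add, hs, hs, hs, map_add]
    have hsmul : ∀ (r : ZMod p) a, s (r • a) = r • s a := fun r a => by
      apply hf
      rw [map_smul, hs, hs, map_smul]
    refine ⟨⟨{ toFun := s, map_add' := hadd, map_smul' := hsmul }, fun c n => ?_⟩, ?_⟩
    · show s (N.ρ c n) = V'.ρ (c : Γ) (s n)
      apply hf
      rw [hs, Rep.hom_comm_apply, hs]
      exact Λ.2 c n
    · apply Subtype.ext
      apply LinearMap.ext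
      intro n
      exact hs n
  · rintro ⟨Λ', rfl⟩
    apply Subtype.ext
    apply LinearMap.ext
    intro n
    show g.hom (f.hom (Λ'.1 n)) = 0
    exact (hfg _).2 ⟨_, rfl⟩

lemma lad_injective {V' V : Rep.{0} (ZMod p) Γ} (f : V' ⟶ V)
    (hf : Function.Injective f.hom) : Function.Injective (ladPost C N f) := by
  intro Λ Λ' h
  apply Subtype.ext
  apply LinearMap.ext
  intro n
  apply hf
  have := congrArg (fun Λ'' : ↥(homC C N V) => Λ''.1 n) h
  exact this

/-- averaging: `g_*` is surjective when `|C|` is invertible -/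
lemma lad_surjective [Fact p.Prime] [Finite C] (hC : (Nat.card C).Coprime p)
    {V V'' : Rep.{0} (ZMod p) Γ} (g : V ⟶ V'')
    (hg : Function.Surjective g.hom) : Function.Surjective (ladPost C N g) := by
  classical
  let _ : Fintype C := Fintype.ofFinite _
  intro Λ
  obtain ⟨s, hs⟩ := LinearMap.exists_rightInverse_of_surjective g.hom.toLinearMap
    (LinearMap.range_eq_top.2 hg)
  have hs' : ∀ v, g.hom (s v) = v := fun v => LinearMap.congr_fun hs v
  have hcard : ((Nat.card C : ℕ) : ZMod p) ≠ 0 := by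
    intro h0
    rw [ZMod.natCast_eq_zero_iff] at h0
    have hp : p.Prime := Fact.out
    have h1 : p ∣ Nat.gcd (Nat.card C) p := Nat.dvd_gcd h0 dvd_rfl
    rw [hC] at h1
    exact hp.one_lt.ne' (Nat.dvd_one.1 h1)
  -- the averaged lift
  let A : N.V →ₗ[ZMod p] V.V :=
    ((Nat.card C : ℕ) : ZMod p)⁻¹ •
      ∑ c : C, (V.ρ (c : Γ)) ∘ₗ s ∘ₗ Λ.1 ∘ₗ (N.ρ c⁻¹)
  have hA : ∀ n, A n = ((Nat.card C : ℕ) : ZMod p)⁻¹ •
      ∑ c : C, V.ρ (c : Γ) (s (Λ.1 (N.ρ c⁻¹ n))) := fun n => by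
    show (((Nat.card C : ℕ) : ZMod p)⁻¹ • ∑ c : C, (V.ρ (c : Γ)) ∘ₗ s ∘ₗ Λ.1 ∘ₗ (N.ρ c⁻¹)) n = _
    rw [LinearMap.smul_apply, LinearMap.sum_apply]
    rfl
  refine ⟨⟨A, fun c₀ n => ?_⟩, ?_⟩
  · rw [hA, hA, map_smul, map_sum]
    congr 1
    -- reindex `c ↦ c₀ * c`
    rw [← Equiv.sum_comp (Equiv.mulLeft c₀)
      (fun c : C => V.ρ (c : Γ) (s (Λ.1 (N.ρ c⁻¹ (N.ρ c₀ n)))))]
    refine Finset.sum_congr rfl fun c _ => ?_
    show V.ρ ((c₀ * c : C) : Γ) (s (Λ.1 (N.ρ (c₀ * c)⁻¹ (N.ρ c₀ n)))) =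
      V.ρ (c₀ : Γ) (V.ρ (c : Γ) (s (Λ.1 (N.ρ c⁻¹ n))))
    have e1 : N.ρ (c₀ * c)⁻¹ (N.ρ c₀ n) = N.ρ c⁻¹ n := by
      rw [← Module.End.mul_apply, ← map_mul]
      congr 2
      group
    rw [e1, Subgroup.coe_mul, map_mul]
    rfl
  · apply Subtype.ext
    apply LinearMap.ext
    intro n
    show g.hom (A n) = Λ.1 n
    rw [hA, map_smul, map_sum]
    have h1 : ∀ c : C, g.hom (V.ρ (c : Γ) (s (Λ.1 (N.ρ c⁻¹ n)))) = Λ.1 n := fun c => by
      rw [Rep.hom_comm_apply, hs', ← Λ.2 c, ← Module.End.mul_apply, ← map_mul, mul_inv_cancel,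
        map_one]
      rfl
    rw [Finset.sum_congr rfl fun c _ => h1 c, Finset.sum_const, Finset.card_univ,
      ← Nat.card_eq_fintype_card, ← Nat.cast_smul_eq_nsmul (ZMod p), smul_smul,
      inv_mul_cancel₀ hcard, one_smul]

/-- **L-add** -/
theorem stmtLinkAdd : StmtLinkAdd := by
  intro p _ Γ _ _ C hC N hN
  refine ⟨fun V W ⟨e⟩ => ?_, fun V' V V'' f g hV hf hg hfg => ?_⟩
  · show (finrank (ZMod p) ↥(homC C N V) : ℤ) = finrank (ZMod p) ↥(homC C N W)
    rw [(ladIso C N e).finrank_eq]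
  · show (finrank (ZMod p) ↥(homC C N V) : ℤ) =
      finrank (ZMod p) ↥(homC C N V') + finrank (ZMod p) ↥(homC C N V'')
    have : Module.Finite (ZMod p) N.V := hN
    have : Module.Finite (ZMod p) V.V := hV
    have h1 := LinearMap.finrank_range_add_finrank_ker (ladPost C N g)
    have h2 : LinearMap.range (ladPost C N g) = ⊤ :=
      LinearMap.range_eq_top.2 (lad_surjective C N hC g hg)
    have h3 : finrank (ZMod p) ↥(LinearMap.range (ladPost C N g)) =
        finrank (ZMod p) ↥(homC C N V'') := by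
      rw [h2, finrank_top]
    have h4 : finrank (ZMod p) ↥(LinearMap.ker (ladPost C N g)) =
        finrank (ZMod p) ↥(homC C N V') := by
      rw [lad_exact C N f g hf hfg]
      exact LinearMap.finrank_range_of_inj (lad_injective C N f hf)
    rw [h3, h4] at h1
    rw [← h1]
    push_cast
    ring

end Fermat.Agent.TW.E

end
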