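/-
TW-E / E-cyc, piece L-arch (helper88): for `c̄ ∈ Γ` with `c̄² = 1`, `χ̄(c̄) = -1` (`p` odd),
`B = coind_C^Γ M` and `N = M.dualTwist χ̄`:
  `dim B = dim B^{c̄} + dim Hom_C(N, 𝔽_p[Γ ⧸ ⟨c̄⟩])`.

Both `B^{c̄ = -1}` and `Hom_C(N, 𝔽_p[Γ/H])` are identified with
`X = {F : Γ/H → M | F(c x) = χ(c)⁻¹ c F(x)}`:  `f(γ) = χ(γ) F(γH)`,  `Λ(ν)(x) = ν(F x)`.

`stmtLinkArch : StmtLinkArch`.
-/
import Fermat.Agent.TW.E.Plan2

set_option autoImplicit false

noncomputable section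

namespace Fermat.Agent.TW.E

open CategoryTheory Module

section Inv

variable {k V : Type} [Field k] [AddCommGroup V] [Module k V]

/-- for an involution `T` in characteristic `≠ 2`, `range (T - 1) = ker (T + 1)` -/
lemma lar_range_eq_ker (T : V →ₗ[k] V) (hT : ∀ v, T (T v) = v) (h2 : (2 : k) ≠ 0) :
    LinearMap.range (T - 1) = LinearMap.ker (T + 1) := by
  ext v
  rw [LinearMap.mem_range, LinearMap.mem_ker]
  constructor
  · rintro ⟨w, rfl⟩
    simp only [LinearMap.sub_apply, LinearMap.add_apply, Module.End.one_apply, map_sub, hT]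
    abel
  · intro h
    have h1 : T v = -v := by
      have : T v + v = 0 := h
      exact eq_neg_of_add_eq_zero_left this
    refine ⟨(-(2 : k)⁻¹) • v, ?_⟩
    have e : (T - 1) ((-(2 : k)⁻¹) • v) = ((2 : k) * (2 : k)⁻¹) • v := by
      rw [LinearMap.sub_apply, Module.End.one_apply, map_smul, h1, mul_smul, two_smul]
      simp only [neg_smul, smul_neg, neg_neg]
      abel
    rw [e, mul_inv_cancel₀ h2, one_smul]

/-- rank–nullity for an involution -/
lemma lar_finrank_inv [FiniteDimensional k V] (T : V →ₗ[k] V) (hT : ∀ v, T (T v) = v)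
    (h2 : (2 : k) ≠ 0) :
    finrank k V = finrank k ↥(LinearMap.ker (T - 1)) + finrank k ↥(LinearMap.ker (T + 1)) := by
  have h := LinearMap.finrank_range_add_finrank_ker (T - 1)
  rw [lar_range_eq_ker T hT h2] at h
  omega

end Inv

section Zp

variable {Γ : Type} [Group Γ]

/-- the subgroup generated by an involution is `{1, c}` -/
lemma lar_mem_zpowers {c : Γ} (hc : c * c = 1) {h : Γ} (hh : h ∈ Subgroup.zpowers c) :
    h = 1 ∨ h = c := by
  obtain ⟨n, rfl⟩ := Subgroup.mem_zpowers_iff.1 hh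
  have h2 : c ^ (2 : ℤ) = 1 := by
    rw [zpow_two, hc]
  have e : c ^ n = c ^ (n % 2) := by
    conv_lhs => rw [← Int.emod_add_mul_ediv n 2]
    rw [zpow_add, zpow_mul, h2, one_zpow, mul_one]
  rcases Int.emod_two_eq_zero_or_one n with h0 | h1
  · left
    rw [e, h0, zpow_zero]
  · right
    rw [e, h1, zpow_one]

end Zp

section Main

variable {p : ℕ} [Fact p.Prime] {Γ : Type} [Group Γ] (χ : Γ →* (ZMod p)ˣ) (c : Γ)
  (C : Subgroup Γ) (M : Rep.{0} (ZMod p) C)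

/-- `X = {F : Γ/H → M | F(c' x) = χ(c')⁻¹ c' F(x)}` -/
def larX : Submodule (ZMod p) ((Γ ⧸ Subgroup.zpowers c) → M.V) where
  carrier := {F | ∀ (c' : C) (x : Γ ⧸ Subgroup.zpowers c),
    F ((c' : Γ) • x) = (((χ (c' : Γ))⁻¹ : (ZMod p)ˣ) : ZMod p) • M.ρ c' (F x)}
  add_mem' := fun {F F'} hF hF' c' x => by
    show F ((c' : Γ) • x) + F' ((c' : Γ) • x) = _ • M.ρ c' (F x + F' x)
    rw [hF c' x, hF' c' x, map_add, smul_add]
  zero_mem' := fun c' x => by
    show (0 : M.V) = _ • M.ρ c' (0 : M.V)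
    rw [map_zero, smul_zero]
  smul_mem' := fun r F hF c' x => by
    show r • F ((c' : Γ) • x) = _ • M.ρ c' (r • F x)
    rw [hF c' x, map_smul, smul_comm]

/-- `Φ₁ : X → B`, `F ↦ (γ ↦ χ(γ) F(γH))` -/
def larPhi1 : ↥(larX χ c C M) →ₗ[ZMod p] (Rep.coind C.subtype M).V where
  toFun F := ⟨fun γ => (χ γ : ZMod p) • F.1 (γ : Γ ⧸ Subgroup.zpowers c), fun c' γ => by
    show (χ ((c' : Γ) * γ) : ZMod p) • F.1 (((c' : Γ) * γ : Γ) : Γ ⧸ Subgroup.zpowers c) =
      M.ρ c' ((χ γ : ZMod p) • F.1 (γ : Γ ⧸ Subgroup.zpowers c))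
    have e : (((c' : Γ) * γ : Γ) : Γ ⧸ Subgroup.zpowers c) =
        (c' : Γ) • ((γ : Γ) : Γ ⧸ Subgroup.zpowers c) := rfl
    rw [e, F.2 c' _, map_smul, smul_smul]
    congr 1
    rw [map_mul, Units.val_mul, mul_comm ((χ (c' : Γ) : (ZMod p)ˣ) : ZMod p), mul_assoc,
      ← Units.val_mul, mul_inv_cancel, Units.val_one, mul_one]⟩
  map_add' F F' := by
    apply Subtype.ext
    funext γ
    show (χ γ : ZMod p) • (F.1 _ + F'.1 _) = (χ γ : ZMod p) • F.1 _ + (χ γ : ZMod p) • F'.1 _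
    rw [smul_add]
  map_smul' r F := by
    apply Subtype.ext
    funext γ
    show (χ γ : ZMod p) • (r • F.1 _) = r • ((χ γ : ZMod p) • F.1 _)
    rw [smul_comm]

lemma larPhi1_apply (F : ↥(larX χ c C M)) (γ : Γ) :
    (larPhi1 χ c C M F).1 γ = (χ γ : ZMod p) • F.1 (γ : Γ ⧸ Subgroup.zpowers c) := rfl

lemma larPhi1_injective : Function.Injective (larPhi1 χ c C M) := by
  rw [injective_iff_map_eq_zero]
  intro F hF
  apply Subtype.ext
  funext x
  induction x using QuotientGroup.induction_on with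
  | H γ =>
    have h1 : (larPhi1 χ c C M F).1 γ = 0 := by rw [hF]; rfl
    rw [larPhi1_apply] at h1
    have h2 := congrArg (fun m => (((χ γ)⁻¹ : (ZMod p)ˣ) : ZMod p) • m) h1
    simp only [smul_smul, smul_zero] at h2
    rw [← Units.val_mul, inv_mul_cancel, Units.val_one, one_smul] at h2
    exact h2

lemma lar_coind_mem (f : (Rep.coind C.subtype M).V) (c' : C) (γ : Γ) :
    f.1 ((c' : Γ) * γ) = M.ρ c' (f.1 γ) := f.2 c' γ

/-- `range Φ₁ = ker (T + 1)` -/
lemma larPhi1_range (hc : c * c = 1) (hχ : χ c = -1) :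
    LinearMap.range (larPhi1 χ c C M) =
      LinearMap.ker ((Rep.coind C.subtype M).ρ c + 1) := by
  have hχ' : ((χ c : (ZMod p)ˣ) : ZMod p) = -1 := by rw [hχ]; simp
  ext f
  rw [LinearMap.mem_range, LinearMap.mem_ker]
  constructor
  · rintro ⟨F, rfl⟩
    apply Subtype.ext
    funext γ
    show (χ (γ * c) : ZMod p) • F.1 ((γ * c : Γ) : Γ ⧸ Subgroup.zpowers c) +
      (χ γ : ZMod p) • F.1 (γ : Γ ⧸ Subgroup.zpowers c) = 0
    have e : ((γ * c : Γ) : Γ ⧸ Subgroup.zpowers c) = (γ : Γ ⧸ Subgroup.zpowers c) :=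
      QuotientGroup.mk_mul_of_mem γ (Subgroup.mem_zpowers c)
    rw [e, map_mul, Units.val_mul, hχ', mul_neg, mul_one, neg_smul, neg_add_cancel]
  · intro hf
    have hf' : ∀ γ, f.1 (γ * c) = -f.1 γ := fun γ => by
      have h1 := congrArg (fun g : (Rep.coind C.subtype M).V => g.1 γ) hf
      have h2 : f.1 (γ * c) + f.1 γ = 0 := h1
      exact eq_neg_of_add_eq_zero_left h2
    -- the function `γ ↦ χ(γ)⁻¹ f(γ)` is right `H`-invariant
    have hinv : ∀ γ γ' : Γ, ((γ : Γ) : Γ ⧸ Subgroup.zpowers c) = (γ' : Γ ⧸ Subgroup.zpowers c) →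
        (((χ γ)⁻¹ : (ZMod p)ˣ) : ZMod p) • f.1 γ = (((χ γ')⁻¹ : (ZMod p)ˣ) : ZMod p) • f.1 γ' := by
      intro γ γ' h
      have hm : γ⁻¹ * γ' ∈ Subgroup.zpowers c := QuotientGroup.eq.1 h
      rcases lar_mem_zpowers hc hm with h1 | h1
      · have : γ' = γ := by
          rw [← mul_one γ, ← h1, mul_inv_cancel_left]
        rw [this]
      · have : γ' = γ * c := by
          rw [← h1, mul_inv_cancel_left]
        rw [this, hf', map_mul, mul_inv, hχ, smul_neg]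
        have e1 : (((χ γ)⁻¹ * (-1 : (ZMod p)ˣ)⁻¹ : (ZMod p)ˣ) : ZMod p) =
            -(((χ γ)⁻¹ : (ZMod p)ˣ) : ZMod p) := by
          rw [inv_neg_one, Units.val_mul, Units.val_neg, Units.val_one, mul_neg, mul_one]
        rw [e1, neg_smul, neg_neg]
    let F : (Γ ⧸ Subgroup.zpowers c) → M.V := fun x =>
      (((χ x.out)⁻¹ : (ZMod p)ˣ) : ZMod p) • f.1 x.out
    have hF : ∀ γ : Γ, F (γ : Γ ⧸ Subgroup.zpowers c) =
        (((χ γ)⁻¹ : (ZMod p)ˣ) : ZMod p) • f.1 γ := fun γ =>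
      hinv _ _ (QuotientGroup.out_eq' _)
    have hFX : F ∈ larX χ c C M := by
      intro c' x
      induction x using QuotientGroup.induction_on with
      | H γ =>
        have e : (c' : Γ) • ((γ : Γ) : Γ ⧸ Subgroup.zpowers c) =
            (((c' : Γ) * γ : Γ) : Γ ⧸ Subgroup.zpowers c) := rfl
        rw [e, hF, hF, lar_coind_mem, map_smul, smul_smul, map_mul, mul_inv, Units.val_mul]
    refine ⟨⟨F, hFX⟩, ?_⟩
    apply Subtype.ext
    funext γ
    rw [larPhi1_apply]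
    show (χ γ : ZMod p) • F (γ : Γ ⧸ Subgroup.zpowers c) = f.1 γ
    rw [hF, smul_smul, ← Units.val_mul, mul_inv_cancel, Units.val_one, one_smul]

variable [Finite Γ]

/-- functions on `Γ/H` as elements of `𝔽_p[Γ/H]` -/
def larE : ((Γ ⧸ Subgroup.zpowers c) → ZMod p) ≃ₗ[ZMod p]
    MonoidAlgebra (ZMod p) (Γ ⧸ Subgroup.zpowers c) :=
  (Finsupp.linearEquivFunOnFinite (ZMod p) (ZMod p) (Γ ⧸ Subgroup.zpowers c)).symm ≪≫ₗ
    (MonoidAlgebra.coeffLinearEquiv (ZMod p)).symm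

lemma larE_coeff (φ : (Γ ⧸ Subgroup.zpowers c) → ZMod p) (x : Γ ⧸ Subgroup.zpowers c) :
    (larE (p := p) c φ).coeff x = φ x := rfl

/-- `Φ₂ : X → Hom(M^*, 𝔽_p[Γ/H])`, `Φ₂(F)(ν)(x) = ν(F x)` -/
def larPhi2 : ↥(larX χ c C M) →ₗ[ZMod p]
    (Module.Dual (ZMod p) M.V →ₗ[ZMod p] MonoidAlgebra (ZMod p) (Γ ⧸ Subgroup.zpowers c)) where
  toFun F := (larE (p := p) c).toLinearMap ∘ₗ
    LinearMap.pi (fun x => Module.Dual.eval (ZMod p) M.V (F.1 x))
  map_add' F F' := by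
    apply LinearMap.ext
    intro ν
    apply MonoidAlgebra.ext
    apply Finsupp.ext
    intro x
    show ν (F.1 x + F'.1 x) = ν (F.1 x) + ν (F'.1 x)
    rw [map_add]
  map_smul' r F := by
    apply LinearMap.ext
    intro ν
    apply MonoidAlgebra.ext
    apply Finsupp.ext
    intro x
    show ν (r • F.1 x) = r • ν (F.1 x)
    rw [map_smul]

lemma larPhi2_coeff (F : ↥(larX χ c C M)) (ν : Module.Dual (ZMod p) M.V)
    (x : Γ ⧸ Subgroup.zpowers c) : (larPhi2 χ c C M F ν).coeff x = ν (F.1 x) := rfl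

lemma larPhi2_injective : Function.Injective (larPhi2 χ c C M) := by
  rw [injective_iff_map_eq_zero]
  intro F hF
  apply Subtype.ext
  funext x
  show F.1 x = 0
  rw [← Module.forall_dual_apply_eq_zero_iff (ZMod p)]
  intro ν
  rw [← larPhi2_coeff, hF]
  rfl

/-- `range Φ₂ = Hom_C(N, 𝔽_p[Γ/H])` -/
lemma larPhi2_range [Module.Finite (ZMod p) M.V] :
    LinearMap.range (larPhi2 χ c C M) =
      homC C (M.dualTwist (χ.comp C.subtype))
        (Rep.ofMulAction (ZMod p) Γ (Γ ⧸ Subgroup.zpowers c)) := by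
  ext Λ
  rw [LinearMap.mem_range]
  constructor
  · rintro ⟨F, rfl⟩
    intro c' ν
    apply MonoidAlgebra.ext
    apply Finsupp.ext
    intro x
    have h1 : ((Rep.ofMulAction (ZMod p) Γ (Γ ⧸ Subgroup.zpowers c)).ρ (c' : Γ)
        (larPhi2 χ c C M F ν)).coeff x = (larPhi2 χ c C M F ν).coeff ((c' : Γ)⁻¹ • x) :=
      Representation.coeff_ofMulAction (c' : Γ) _ x
    rw [h1, larPhi2_coeff, larPhi2_coeff]
    have h2 : (M.dualTwist (χ.comp C.subtype)).ρ c' ν =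
        ((χ.comp C.subtype) c' : ZMod p) • (ν ∘ₗ M.ρ c'⁻¹) := Rep.dualTwist_ρ_apply M _ c' ν
    rw [h2]
    have h3 := F.2 c'⁻¹ x
    have e : ((c'⁻¹ : C) : Γ) = (c' : Γ)⁻¹ := rfl
    rw [e] at h3
    have e3 : ((χ ((c' : Γ)⁻¹))⁻¹ : (ZMod p)ˣ) = χ (c' : Γ) := by rw [map_inv, inv_inv]
    rw [h3, e3, map_smul]
    rfl
  · intro hΛ
    -- `F x` is the vector with `ν (F x) = (Λ ν).coeff x`
    let coeffAt : (Γ ⧸ Subgroup.zpowers c) →
        MonoidAlgebra (ZMod p) (Γ ⧸ Subgroup.zpowers c) →ₗ[ZMod p] ZMod p := fun x =>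
      (Finsupp.lapply x) ∘ₗ (MonoidAlgebra.coeffLinearEquiv (ZMod p)).toLinearMap
    have hcoeffAt : ∀ x y, coeffAt x y = y.coeff x := fun x y => rfl
    let F : (Γ ⧸ Subgroup.zpowers c) → M.V := fun x =>
      (Module.evalEquiv (ZMod p) M.V).symm ((coeffAt x) ∘ₗ Λ)
    have hF : ∀ (ν : Module.Dual (ZMod p) M.V) x, ν (F x) = (Λ ν).coeff x := fun ν x =>
      Module.apply_evalEquiv_symm_apply (ZMod p) M.V ν _
    have hFX : F ∈ larX χ c C M := by
      intro c' x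
      rw [← sub_eq_zero, ← Module.forall_dual_apply_eq_zero_iff (ZMod p)]
      intro ν
      rw [map_sub, sub_eq_zero, map_smul, hF]
      -- `c'⁻¹ ⋆ ν = χ(c')⁻¹ • (ν ∘ ρ(c'))`
      have h2 : (M.dualTwist (χ.comp C.subtype)).ρ c'⁻¹ ν =
          (((χ (c' : Γ))⁻¹ : (ZMod p)ˣ) : ZMod p) • (ν ∘ₗ M.ρ c') := by
        rw [Rep.dualTwist_ρ_apply, inv_inv, map_inv]
        rfl
      have h3 := hΛ c'⁻¹ ν
      have h4 : (Λ ((M.dualTwist (χ.comp C.subtype)).ρ c'⁻¹ ν)).coeff x =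
          (Λ ν).coeff ((c' : Γ) • x) := by
        rw [h3]
        have := Representation.coeff_ofMulAction (k := ZMod p) ((c'⁻¹ : C) : Γ) (Λ ν) x
        have e : (((c'⁻¹ : C) : Γ))⁻¹ = (c' : Γ) := inv_inv _
        rw [e] at this
        exact this
      have h5 : (Λ ((M.dualTwist (χ.comp C.subtype)).ρ c'⁻¹ ν)).coeff x =
          (((χ (c' : Γ))⁻¹ : (ZMod p)ˣ) : ZMod p) • ν (M.ρ c' (F x)) := by
        rw [h2, map_smul]
        have h6 : (Λ (ν ∘ₗ M.ρ c')).coeff x = ν (M.ρ c' (F x)) := by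
          rw [← hF]
          rfl
        rw [← h6]
        rfl
      rw [← h4, h5]
    refine ⟨⟨F, hFX⟩, ?_⟩
    apply LinearMap.ext
    intro ν
    apply MonoidAlgebra.ext
    apply Finsupp.ext
    intro x
    rw [larPhi2_coeff]
    exact hF ν x

end Main

/-- **L-arch** -/
theorem stmtLinkArch : StmtLinkArch := by
  intro p _ hp2 Γ _ _ χ c hc hχ C _hC M hM
  have : Module.Finite (ZMod p) M.V := hM
  have hp : p.Prime := Fact.out
  have h2 : (2 : ZMod p) ≠ 0 := by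
    intro h
    have h' : ((2 : ℕ) : ZMod p) = 0 := by exact_mod_cast h
    rw [ZMod.natCast_eq_zero_iff] at h'
    have := (Nat.prime_dvd_prime_iff_eq hp Nat.prime_two).1 h'
    exact hp2 this
  have hfin : Module.Finite (ZMod p) (Rep.coind C.subtype M).V := by
    show Module.Finite (ZMod p) ↥(Representation.coindV C.subtype M.ρ)
    infer_instance
  have hT : ∀ f, (Rep.coind C.subtype M).ρ c ((Rep.coind C.subtype M).ρ c f) = f := by
    intro f
    rw [← Module.End.mul_apply, ← map_mul, hc, map_one]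
    rfl
  have h1 := lar_finrank_inv ((Rep.coind C.subtype M).ρ c) hT h2
  have h3 : finrank (ZMod p) ↥(LinearMap.ker ((Rep.coind C.subtype M).ρ c + 1)) =
      finrank (ZMod p) ↥(larX χ c C M) := by
    rw [← larPhi1_range χ c C M hc hχ]
    exact LinearMap.finrank_range_of_inj (larPhi1_injective χ c C M)
  have h4 : finrank (ZMod p) ↥(homC C (M.dualTwist (χ.comp C.subtype))
      (Rep.ofMulAction (ZMod p) Γ (Γ ⧸ Subgroup.zpowers c))) =
      finrank (ZMod p) ↥(larX χ c C M) := by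
    rw [← larPhi2_range χ c C M]
    exact LinearMap.finrank_range_of_inj (larPhi2_injective χ c C M)
  show (finrank (ZMod p) (Rep.coind C.subtype M).V : ℤ) =
    finrank (ZMod p) ↥(LinearMap.ker ((Rep.coind C.subtype M).ρ c - 1)) +
      (finrank (ZMod p) ↥(homC C (M.dualTwist (χ.comp C.subtype))
        (Rep.ofMulAction (ZMod p) Γ (Γ ⧸ Subgroup.zpowers c))) : ℤ)
  rw [h4, ← h3, h1]
  push_cast
  ring

end Fermat.Agent.TW.E

end
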