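/-
Project TW (S56) — part TW-E, block E-cyc (captain helper75): pieces **Y-asm3** and **Y-asm2**.
* `stmtLinkAsm : StmtLinkAsm`  (`StmtLinkAdd → StmtLinkFun → StmtLinkArch → StmtLink`);
* `stmtCycChi_of` : `cycloChar p c = -1` (`c` = complex conjugation) `→ StmtKum → StmtLink → StmtCycChi`.
Names `cya_*`.
-/
import Fermat.Agent.TW.E.Plan2
import Fermat.Agent.TW.E.Asm

set_option autoImplicit false
set_option linter.unusedSectionVars false
set_option linter.style.haveILetI false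

noncomputable section

namespace Fermat.Agent.TW.E

open CategoryTheory groupCohomology Module Fermat.Agent.PT Fermat.Agent.PT.F Fermat.Agent.PT.B
  Fermat.Agent.TW.F ExtCitation

/-- **Y-asm3.** -/
theorem stmtLinkAsm : StmtLinkAsm := by
  intro hAdd hFun hArch p _ hp2 G _ 𝒯 χ U _ hU hχ hf1 hf2 c hcc hχc C hC M hM
  haveI : U.FiniteIndex := 𝒯.finiteIndex U hU
  haveI : Finite (G ⧸ U) := Subgroup.finite_quotient_of_finiteIndex
  haveI := hM
  have hN : Module.Finite (ZMod p) (M.dualTwist ((cycChi χ U hχ).comp C.subtype)).V := by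
    change Module.Finite (ZMod p) (Module.Dual (ZMod p) M.V)
    infer_instance
  refine ⟨linkPsi C (M.dualTwist ((cycChi χ U hχ).comp C.subtype)),
    hAdd p (G ⧸ U) C hC _ hN, ?_⟩
  obtain ⟨h2f, h0, h1, h2⟩ := hFun p G 𝒯 χ U hU hχ hf1 hf2 C hC M hM
  refine ⟨h2f, h0, h1, h2, ?_⟩
  have hcc' : ((c : G) : G ⧸ U) * ((c : G) : G ⧸ U) = 1 := by
    rw [← QuotientGroup.mk_mul, hcc]
    rfl
  have hχc' : cycChi χ U hχ ((c : G) : G ⧸ U) = -1 := by
    rw [← hχc]
    rfl
  exact hArch p hp2 (G ⧸ U) (cycChi χ U hχ) ((c : G) : G ⧸ U) hcc' hχc' C hC M hM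

/-- the invariants of complex conjugation, as a kernel -/
theorem cya_cinv_eq {p : ℕ} (B : Rep.{0} (ZMod p) GQ) :
    finrank (ZMod p) ↥((Rep.res archimedeanLoc B).ρ.invariants) =
      finrank (ZMod p) ↥(LinearMap.ker (B.ρ complexConjugation - 1)) := by
  have h : ((Rep.res archimedeanLoc B).ρ.invariants : Submodule (ZMod p) B.V) =
      LinearMap.ker (B.ρ complexConjugation - 1) := by
    ext x
    rw [asm_mem_cinv, LinearMap.mem_ker, LinearMap.sub_apply, Module.End.one_apply, sub_eq_zero]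
  exact congrArg (fun W : Submodule (ZMod p) B.V => finrank (ZMod p) ↥W) h

/-- **Y-asm2.** -/
theorem stmtCycChi_of (hconj : ∀ (p : ℕ) [Fact p.Prime], p ≠ 2 → cycloChar p complexConjugation = -1)
    (hKum : StmtKum) (hLink : StmtLink) : StmtCycChi := by
  intro p _ hp2 S hpS hcg hcl hh hex hsv U _ hU hχ C hC M hM
  obtain ⟨hf1, hf2, hK⟩ := hKum p hp2 S hpS hcg hcl hh hex hsv U hU hχ
  obtain ⟨ψ, hψ, h2f, h0, h1, h2, ha⟩ :=
    hLink p hp2 GQ (towerS S) (cycloChar p) U hU hχ hf1 hf2 complexConjugation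
      complexConjugation_mul_self (hconj p hp2) C hC M hM
  have hk := hK ψ hψ
  refine ⟨h2f, ?_⟩
  rw [cya_cinv_eq]
  have hk' : ψ (cycH0 (cycloChar p) U) + ψ (cycH2 (towerS S) (cycloChar p) U) +
      ψ (Rep.ofMulAction (ZMod p) (GQ ⧸ U)
        ((GQ ⧸ U) ⧸ Subgroup.zpowers ((complexConjugation : GQ) : GQ ⧸ U))) =
      ψ (cycH1 (towerS S) (cycloChar p) U) := hk
  have key : ((finrank (ZMod p)
      ↥((Rep.res (QuotientGroup.mk' U) (Rep.coind C.subtype M)).ρ.invariants) +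
      finrank (ZMod p) (levH2 (towerS S) (Rep.res (QuotientGroup.mk' U) (Rep.coind C.subtype M))) +
      finrank (ZMod p) (Rep.res (QuotientGroup.mk' U) (Rep.coind C.subtype M)).V : ℕ) : ℤ) =
      ((finrank (ZMod p)
        ↥(levH1 (towerS S) (Rep.res (QuotientGroup.mk' U) (Rep.coind C.subtype M))) +
      finrank (ZMod p) ↥(LinearMap.ker
        ((Rep.res (QuotientGroup.mk' U) (Rep.coind C.subtype M)).ρ complexConjugation - 1)) : ℕ) :
        ℤ) := by
    push_cast
    rw [h0, h1, h2, ha]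
    linarith
  exact_mod_cast key

end Fermat.Agent.TW.E

end
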