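/-
Project TW (S56) — part TW-E, block E-cyc, piece **L-fun** (helper79): the CONCRETE morphisms.

`B = infl coind_C^Γ M`, `𝓜 = regMu χ U`, `N = M.dualTwist χ̄|_C` (`Γ = G ⧸ U`, `χ̄ = cycChi χ U hχ`):
* `lfunJ ν : B ⟶ 𝓜`, `(j_ν f)(γ) = χ̄(γ) ν(f(γ⁻¹))`;
* `lfunI m : 𝓜 ⟶ B`, `(i_m ψ)(γ) = χ̄(γ) |C|⁻¹ ∑_c χ̄(c)⁻¹ ψ(γ⁻¹ c) c·m`;
with the relations (I), (II), (III) of `LinkFunA.lean`.
-/
import Fermat.Agent.TW.E.Plan2
import Fermat.Agent.TW.E.LinkFunA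

set_option autoImplicit false
set_option linter.unusedSectionVars false

noncomputable section

namespace Fermat.Agent.TW.E

open CategoryTheory Module

section Concrete

variable {p : ℕ} [Fact p.Prime] {G : Type} [Group G] (χ : G →* (ZMod p)ˣ)
  (U : Subgroup G) [U.Normal] (hχ : ∀ s ∈ U, χ s = 1) (C : Subgroup (G ⧸ U))
  (M : Rep.{0} (ZMod p) C)

lemma lfun_cycChi_mk (g : G) : cycChi χ U hχ (g : G ⧸ U) = χ g := rfl

/-- right translation, as an endomorphism of `Rep.of (regMuρ χ U)` (`= regRt χ U δ`) -/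
def lfunRt (δ : G ⧸ U) : Rep.of (regMuρ χ U) ⟶ Rep.of (regMuρ χ U) :=
  Rep.ofHom (ρ := regMuρ χ U) (σ := regMuρ χ U)
    ⟨LinearMap.funLeft (ZMod p) (ZMod p) (fun γ : G ⧸ U => γ * δ), fun g => by
      ext ψ γ
      simp [regMuρ, LinearMap.funLeft, mul_assoc]⟩

lemma lfunRt_eq (δ : G ⧸ U) : lfunRt χ U δ = regRt χ U δ := rfl

lemma lfunRt_apply (δ : G ⧸ U) (ψ : (G ⧸ U) → ZMod p) (γ : G ⧸ U) :
    (lfunRt χ U δ).hom ψ γ = ψ (γ * δ) := rfl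

/-- the linear map underlying `j ν` -/
def lfunJlin (ν : Module.Dual (ZMod p) M.V) :
    ↥(Representation.coindV C.subtype M.ρ) →ₗ[ZMod p] ((G ⧸ U) → ZMod p) where
  toFun f := fun γ => ((cycChi χ U hχ γ : (ZMod p)ˣ) : ZMod p) * ν (f.1 γ⁻¹)
  map_add' f f' := by
    funext γ
    simp only [Submodule.coe_add, Pi.add_apply, map_add, mul_add]
  map_smul' a f := by
    funext γ
    simp only [Submodule.coe_smul, Pi.smul_apply, map_smul, smul_eq_mul, RingHom.id_apply]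
    ring

lemma lfunJlin_apply (ν : Module.Dual (ZMod p) M.V)
    (f : ↥(Representation.coindV C.subtype M.ρ)) (γ : G ⧸ U) :
    lfunJlin χ U hχ C M ν f γ = ((cycChi χ U hχ γ : (ZMod p)ˣ) : ZMod p) * ν (f.1 γ⁻¹) := rfl

/-- `j ν : B ⟶ 𝓜` -/
def lfunJ (ν : Module.Dual (ZMod p) M.V) :
    Rep.res (QuotientGroup.mk' U) (Rep.coind C.subtype M) ⟶ Rep.of (regMuρ χ U) :=
  Rep.ofHom (ρ := (Representation.coind C.subtype M.ρ).comp (QuotientGroup.mk' U))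
    (σ := regMuρ χ U)
    ⟨lfunJlin χ U hχ C M ν, fun g => by
      ext f γ
      show lfunJlin χ U hχ C M ν ((Representation.coind C.subtype M.ρ) (g : G ⧸ U) f) γ =
        (χ g : ZMod p) * lfunJlin χ U hχ C M ν f ((g : G ⧸ U)⁻¹ * γ)
      rw [lfunJlin_apply, lfunJlin_apply, map_mul, map_inv, lfun_cycChi_mk, Units.val_mul,
        mul_inv_rev, inv_inv]
      have h1 : ((Representation.coind C.subtype M.ρ) (g : G ⧸ U) f).1 γ⁻¹ =
          f.1 (γ⁻¹ * (g : G ⧸ U)) := rfl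
      rw [h1, ← mul_assoc, ← mul_assoc, ← Units.val_mul, mul_inv_cancel, Units.val_one, one_mul]⟩


lemma lfunJ_hom_apply (ν : Module.Dual (ZMod p) M.V)
    (f : ↥(Representation.coindV C.subtype M.ρ)) (γ : G ⧸ U) :
    ((lfunJ χ U hχ C M ν).hom f : (G ⧸ U) → ZMod p) γ =
      ((cycChi χ U hχ γ : (ZMod p)ˣ) : ZMod p) * ν (f.1 γ⁻¹) := rfl

variable [Fintype C]

/-- the function underlying `i m ψ` -/
def lfunIfun (m : M.V) (ψ : (G ⧸ U) → ZMod p) : (G ⧸ U) → M.V :=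
  fun γ => ((cycChi χ U hχ γ : (ZMod p)ˣ) : ZMod p) • ((Fintype.card C : ZMod p)⁻¹ •
    ∑ c : C, ((((cycChi χ U hχ (c : G ⧸ U))⁻¹ : (ZMod p)ˣ) : ZMod p) *
      ψ (γ⁻¹ * (c : G ⧸ U))) • M.ρ c m)

lemma lfunIfun_apply (m : M.V) (ψ : (G ⧸ U) → ZMod p) (γ : G ⧸ U) :
    lfunIfun χ U hχ C M m ψ γ = ((cycChi χ U hχ γ : (ZMod p)ˣ) : ZMod p) •
      ((Fintype.card C : ZMod p)⁻¹ •
        ∑ c : C, ((((cycChi χ U hχ (c : G ⧸ U))⁻¹ : (ZMod p)ˣ) : ZMod p) *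
          ψ (γ⁻¹ * (c : G ⧸ U))) • M.ρ c m) := rfl

lemma lfunIfun_mem (m : M.V) (ψ : (G ⧸ U) → ZMod p) :
    lfunIfun χ U hχ C M m ψ ∈ Representation.coindV C.subtype M.ρ := by
  intro c₀ γ
  rw [lfunIfun_apply, lfunIfun_apply, map_smul, map_smul, map_sum, map_mul, Units.val_mul,
    mul_smul]
  have h1 : (cycChi χ U hχ) (C.subtype c₀) = (cycChi χ U hχ) (c₀ : G ⧸ U) := rfl
  rw [h1, smul_comm (((cycChi χ U hχ (c₀ : G ⧸ U)) : (ZMod p)ˣ) : ZMod p)]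
  congr 1
  rw [smul_comm (((cycChi χ U hχ (c₀ : G ⧸ U)) : (ZMod p)ˣ) : ZMod p)]
  congr 1
  rw [Finset.smul_sum]
  refine (Fintype.sum_equiv (Equiv.mulLeft c₀) _ _ (fun c' => ?_)).symm
  rw [Equiv.coe_mulLeft, map_smul, smul_smul, map_mul, Module.End.mul_apply]
  congr 1
  have h2 : (C.subtype c₀ * γ)⁻¹ * ((c₀ * c' : C) : G ⧸ U) = γ⁻¹ * (c' : G ⧸ U) := by
    rw [Subgroup.coe_mul, mul_inv_rev, mul_assoc, Subgroup.coe_subtype, inv_mul_cancel_left]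
  rw [h2, Subgroup.coe_mul, map_mul, mul_inv, Units.val_mul, ← mul_assoc, ← mul_assoc,
    ← Units.val_mul, mul_inv_cancel, Units.val_one, one_mul]

/-- the linear map underlying `i m` -/
def lfunIlin (m : M.V) :
    ((G ⧸ U) → ZMod p) →ₗ[ZMod p] ↥(Representation.coindV C.subtype M.ρ) where
  toFun ψ := ⟨lfunIfun χ U hχ C M m ψ, lfunIfun_mem χ U hχ C M m ψ⟩
  map_add' ψ ψ' := by
    apply Subtype.ext
    funext γ
    simp only [Submodule.coe_add, Pi.add_apply, lfunIfun_apply, mul_add, add_smul,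
      Finset.sum_add_distrib, smul_add]
  map_smul' a ψ := by
    apply Subtype.ext
    funext γ
    simp only [Submodule.coe_smul, Pi.smul_apply, lfunIfun_apply, smul_eq_mul, RingHom.id_apply,
      Finset.smul_sum, smul_smul]
    refine Finset.sum_congr rfl (fun c _ => ?_)
    congr 1
    ring

lemma lfunIlin_apply (m : M.V) (ψ : (G ⧸ U) → ZMod p) (γ : G ⧸ U) :
    (lfunIlin χ U hχ C M m ψ).1 γ = ((cycChi χ U hχ γ : (ZMod p)ˣ) : ZMod p) •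
      ((Fintype.card C : ZMod p)⁻¹ •
        ∑ c : C, ((((cycChi χ U hχ (c : G ⧸ U))⁻¹ : (ZMod p)ˣ) : ZMod p) *
          ψ (γ⁻¹ * (c : G ⧸ U))) • M.ρ c m) := rfl

/-- `i m : 𝓜 ⟶ B` -/
def lfunI (m : M.V) :
    Rep.of (regMuρ χ U) ⟶ Rep.res (QuotientGroup.mk' U) (Rep.coind C.subtype M) :=
  Rep.ofHom (ρ := regMuρ χ U)
    (σ := (Representation.coind C.subtype M.ρ).comp (QuotientGroup.mk' U))
    ⟨lfunIlin χ U hχ C M m, fun g => by
      ext ψ γ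
      show (lfunIlin χ U hχ C M m ((regMuρ χ U) g ψ)).1 γ =
        (lfunIlin χ U hχ C M m ψ).1 (γ * (g : G ⧸ U))
      rw [lfunIlin_apply, lfunIlin_apply, map_mul, lfun_cycChi_mk, Units.val_mul, mul_smul]
      congr 1
      rw [smul_comm ((χ g : (ZMod p)ˣ) : ZMod p)]
      congr 1
      rw [Finset.smul_sum]
      refine Finset.sum_congr rfl (fun c _ => ?_)
      rw [smul_smul]
      congr 1
      have h1 : (regMuρ χ U) g ψ (γ⁻¹ * (c : G ⧸ U)) =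
          (χ g : ZMod p) * ψ ((g : G ⧸ U)⁻¹ * (γ⁻¹ * (c : G ⧸ U))) := rfl
      rw [h1, mul_inv_rev, mul_assoc]
      ring⟩

lemma lfunI_hom_apply (m : M.V) (ψ : (G ⧸ U) → ZMod p) (γ : G ⧸ U) :
    (((lfunI χ U hχ C M m).hom ψ : ↥(Representation.coindV C.subtype M.ρ)) : (G ⧸ U) → M.V) γ =
      ((cycChi χ U hχ γ : (ZMod p)ˣ) : ZMod p) •
      ((Fintype.card C : ZMod p)⁻¹ •
        ∑ c : C, ((((cycChi χ U hχ (c : G ⧸ U))⁻¹ : (ZMod p)ˣ) : ZMod p) *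
          ψ (γ⁻¹ * (c : G ⧸ U))) • M.ρ c m) := rfl


/-! ### The relations -/

lemma lfun_hom_ext {k : Type} [CommRing k] {G' : Type} [Group G'] {A A' : Rep.{0} k G'}
    {f g : A ⟶ A'} (h : ∀ x, f.hom x = g.hom x) : f = g :=
  Rep.hom_ext (Representation.IntertwiningMap.ext (LinearMap.ext h))

/-- `j` is additive -/
lemma lfunJ_add (ν ν' : Module.Dual (ZMod p) M.V) :
    lfunJ χ U hχ C M (ν + ν') = lfunJ χ U hχ C M ν + lfunJ χ U hχ C M ν' := by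
  apply lfun_hom_ext
  intro f
  rw [Rep.add_hom, Representation.IntertwiningMap.coe_add, Pi.add_apply]
  funext γ
  show ((cycChi χ U hχ γ : (ZMod p)ˣ) : ZMod p) * (ν + ν') (f.1 γ⁻¹) =
    ((cycChi χ U hχ γ : (ZMod p)ˣ) : ZMod p) * ν (f.1 γ⁻¹) +
      ((cycChi χ U hχ γ : (ZMod p)ˣ) : ZMod p) * ν' (f.1 γ⁻¹)
  rw [LinearMap.add_apply, mul_add]

/-- `j` is homogeneous -/
lemma lfunJ_smul (a : ZMod p) (ν : Module.Dual (ZMod p) M.V) :
    lfunJ χ U hχ C M (a • ν) = a • lfunJ χ U hχ C M ν := by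
  apply lfun_hom_ext
  intro f
  rw [Rep.smul_hom, Representation.IntertwiningMap.smul_apply]
  funext γ
  show ((cycChi χ U hχ γ : (ZMod p)ˣ) : ZMod p) * (a • ν) (f.1 γ⁻¹) =
    a * (((cycChi χ U hχ γ : (ZMod p)ˣ) : ZMod p) * ν (f.1 γ⁻¹))
  rw [LinearMap.smul_apply, smul_eq_mul]
  ring

/-- (III) `j (c ⋆ ν) = j ν ≫ R c` -/
lemma lfun_rel3 (c : C) (ν : Module.Dual (ZMod p) M.V) :
    lfunJ χ U hχ C M ((M.dualTwist ((cycChi χ U hχ).comp C.subtype)).ρ c ν) =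
      lfunJ χ U hχ C M ν ≫ lfunRt χ U (c : G ⧸ U) := by
  apply lfun_hom_ext
  intro f
  rw [Rep.hom_comp, Representation.IntertwiningMap.comp_apply]
  funext γ
  show ((cycChi χ U hχ γ : (ZMod p)ˣ) : ZMod p) *
      ((M.dualTwist ((cycChi χ U hχ).comp C.subtype)).ρ c ν) (f.1 γ⁻¹) =
    ((cycChi χ U hχ (γ * (c : G ⧸ U)) : (ZMod p)ˣ) : ZMod p) * ν (f.1 (γ * (c : G ⧸ U))⁻¹)
  rw [Rep.dualTwist_ρ_apply, LinearMap.smul_apply, LinearMap.comp_apply, smul_eq_mul, map_mul,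
    Units.val_mul, mul_inv_rev, mul_assoc]
  have h1 : f.1 ((c : G ⧸ U)⁻¹ * γ⁻¹) = M.ρ c⁻¹ (f.1 γ⁻¹) := f.2 c⁻¹ γ⁻¹
  rw [h1]
  rfl


/-- (II) `i a ≫ j ν = |C|⁻¹ • ∑ c, coord_a (c⁻¹ ⋆ ν) • R c` -/
lemma lfun_rel2 {ι : Type} [Fintype ι] [DecidableEq ι] (bM : Basis ι (ZMod p) M.V) (a : ι)
    (ν : Module.Dual (ZMod p) M.V) :
    lfunI χ U hχ C M (bM a) ≫ lfunJ χ U hχ C M ν =
      (Fintype.card C : ZMod p)⁻¹ • ∑ c : C,
        (bM.dualBasis.coord a ((M.dualTwist ((cycChi χ U hχ).comp C.subtype)).ρ c⁻¹ ν)) •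
          lfunRt χ U (c : G ⧸ U) := by
  apply lfun_hom_ext
  intro ψ
  rw [Rep.hom_comp, Representation.IntertwiningMap.comp_apply, Rep.smul_hom,
    Representation.IntertwiningMap.smul_apply, Rep.sum_hom,
    Representation.IntertwiningMap.sum_apply]
  funext γ
  have hL : ((lfunJ χ U hχ C M ν).hom ((lfunI χ U hχ C M (bM a)).hom ψ) : (G ⧸ U) → ZMod p) γ =
      ((cycChi χ U hχ γ : (ZMod p)ˣ) : ZMod p) *
        ν (((lfunI χ U hχ C M (bM a)).hom ψ :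
          ↥(Representation.coindV C.subtype M.ρ)).1 γ⁻¹) := rfl
  rw [hL, lfunI_hom_apply, map_smul, map_smul, map_sum, smul_eq_mul, smul_eq_mul, ← mul_assoc,
    ← mul_assoc, map_inv, ← Units.val_mul, mul_inv_cancel, Units.val_one, one_mul]
  show _ = ((Fintype.card C : ZMod p)⁻¹ • ∑ c : C,
    ((bM.dualBasis.coord a ((M.dualTwist ((cycChi χ U hχ).comp C.subtype)).ρ c⁻¹ ν)) •
      lfunRt χ U (c : G ⧸ U)).hom ψ : (G ⧸ U) → ZMod p) γ
  rw [Pi.smul_apply, smul_eq_mul, Finset.sum_apply]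
  congr 1
  refine Finset.sum_congr rfl (fun c _ => ?_)
  rw [Rep.smul_hom, Representation.IntertwiningMap.smul_apply, Pi.smul_apply, lfunRt_apply,
    map_smul, smul_eq_mul, smul_eq_mul, inv_inv, Basis.coord_apply, Basis.dualBasis_repr,
    Rep.dualTwist_ρ_apply, LinearMap.smul_apply, LinearMap.comp_apply, smul_eq_mul, inv_inv]
  have h1 : (((cycChi χ U hχ).comp C.subtype) c⁻¹ : (ZMod p)ˣ) =
      (cycChi χ U hχ (c : G ⧸ U))⁻¹ := by
    rw [map_inv]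
    rfl
  rw [h1]
  ring


/-- (I) `∑ a, j (b a) ≫ i a = 𝟙 B` -/
lemma lfun_rel1 (hC : (Fintype.card C : ZMod p) ≠ 0) {ι : Type} [Fintype ι] [DecidableEq ι]
    (bM : Basis ι (ZMod p) M.V) :
    ∑ a, lfunJ χ U hχ C M (bM.dualBasis a) ≫ lfunI χ U hχ C M (bM a) =
      𝟙 (Rep.res (QuotientGroup.mk' U) (Rep.coind C.subtype M)) := by
  apply lfun_hom_ext
  intro f
  rw [Rep.sum_hom, Representation.IntertwiningMap.sum_apply, Rep.hom_id,
    Representation.IntertwiningMap.id_apply]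
  apply Subtype.ext
  funext γ
  rw [Submodule.coe_sum, Finset.sum_apply]
  have hterm : ∀ a, (((lfunJ χ U hχ C M (bM.dualBasis a) ≫ lfunI χ U hχ C M (bM a)).hom f :
      ↥(Representation.coindV C.subtype M.ρ)) : (G ⧸ U) → M.V) γ =
      ((cycChi χ U hχ γ : (ZMod p)ˣ) : ZMod p) • ((Fintype.card C : ZMod p)⁻¹ •
        ∑ c : C, ((((cycChi χ U hχ γ)⁻¹ : (ZMod p)ˣ) : ZMod p) *
          bM.repr (M.ρ c⁻¹ (f.1 γ)) a) • M.ρ c (bM a)) := by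
    intro a
    rw [Rep.hom_comp, Representation.IntertwiningMap.comp_apply, lfunI_hom_apply]
    congr 2
    refine Finset.sum_congr rfl (fun c _ => ?_)
    congr 1
    rw [lfunJ_hom_apply, Basis.coe_dualBasis, Basis.coord_apply, mul_inv_rev, inv_inv]
    have h1 : f.1 ((c : G ⧸ U)⁻¹ * γ) = M.ρ c⁻¹ (f.1 γ) := f.2 c⁻¹ γ
    rw [h1, map_mul, map_inv, Units.val_mul, ← mul_assoc, ← mul_assoc, mul_comm _
      (((cycChi χ U hχ γ)⁻¹ : (ZMod p)ˣ) : ZMod p), mul_assoc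
      (((cycChi χ U hχ γ)⁻¹ : (ZMod p)ˣ) : ZMod p), ← Units.val_mul, inv_mul_cancel,
      Units.val_one, mul_one]
  rw [Finset.sum_congr rfl (fun a _ => hterm a), ← Finset.smul_sum, ← Finset.smul_sum,
    Finset.sum_comm]
  have hc : ∀ c : C, ∑ a, ((((cycChi χ U hχ γ)⁻¹ : (ZMod p)ˣ) : ZMod p) *
      bM.repr (M.ρ c⁻¹ (f.1 γ)) a) • M.ρ c (bM a) =
      (((cycChi χ U hχ γ)⁻¹ : (ZMod p)ˣ) : ZMod p) • f.1 γ := by
    intro c
    have h2 : ∑ a, bM.repr (M.ρ c⁻¹ (f.1 γ)) a • bM a = M.ρ c⁻¹ (f.1 γ) := bM.sum_repr _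
    have h3 : M.ρ c (M.ρ c⁻¹ (f.1 γ)) = f.1 γ := by
      rw [← Module.End.mul_apply, ← map_mul, mul_inv_cancel, map_one, Module.End.one_apply]
    rw [← h3]
    conv_rhs => rw [← h2]
    rw [map_sum, Finset.smul_sum]
    refine Finset.sum_congr rfl (fun a _ => ?_)
    rw [map_smul, smul_smul, h3]
  rw [Finset.sum_congr rfl (fun c _ => hc c), Finset.sum_const, Finset.card_univ,
    ← Nat.cast_smul_eq_nsmul (ZMod p), smul_smul, smul_smul, smul_smul]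
  have h4 : ((cycChi χ U hχ γ : (ZMod p)ˣ) : ZMod p) * (Fintype.card C : ZMod p)⁻¹ *
      (Fintype.card C : ZMod p) * (((cycChi χ U hχ γ)⁻¹ : (ZMod p)ˣ) : ZMod p) = 1 := by
    rw [mul_assoc _ (Fintype.card C : ZMod p)⁻¹, inv_mul_cancel₀ hC, mul_one, ← Units.val_mul,
      mul_inv_cancel, Units.val_one]
  rw [h4, one_smul]

end Concrete

end Fermat.Agent.TW.E

end
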