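/-
Project TW (S56) — part TW-E, block E-cyc, piece **L-fun** (helper79):
`theorem stmtLinkFun : StmtLinkFun`.

`B = infl coind_C^Γ M` is "`Hom_C(N, 𝓜)`" (`N = M.dualTwist χ̄|_C`, `𝓜 = regMu χ U`) through the
morphisms `lfunJ`, `lfunI` (`LinkFunB.lean`), and every linear functor (`invMap`, `levH1Map`,
`levH2Map`) commutes with `Hom_C(N, -)` (`lfun_abstract`, `LinkFunA.lean`).
-/
import Fermat.Agent.TW.E.LinkFunB

set_option autoImplicit false

noncomputable section

namespace Fermat.Agent.TW.E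

open CategoryTheory groupCohomology Module Fermat.Agent.PT

lemma lfun_finrank_of {k : Type} [Field k] {X N Y : Type} [AddCommGroup X] [Module k X]
    [AddCommGroup N] [Module k N] [AddCommGroup Y] [Module k Y]
    (Φ : X →ₗ[k] (N →ₗ[k] Y)) (hinj : Function.Injective Φ) (S : Submodule k (N →ₗ[k] Y))
    (hS : ∀ Λ, Λ ∈ LinearMap.range Φ ↔ Λ ∈ S) : finrank k X = finrank k S := by
  rw [← LinearMap.finrank_range_of_inj hinj, Submodule.ext hS]

/-- **L-fun.** -/
theorem stmtLinkFun : StmtLinkFun := by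
  intro p _ G _ 𝒯 χ U _ _ hχ hfin1 hfin2 C hC M hM
  classical
  have hp : p.Prime := Fact.out
  have hcard0 : Nat.card C ≠ 0 := by
    intro h0
    rw [h0, Nat.coprime_zero_left] at hC
    exact hp.one_lt.ne' hC
  have : Finite C := Nat.finite_of_card_ne_zero hcard0
  let _ : Fintype C := Fintype.ofFinite C
  have hCk : (Fintype.card C : ZMod p) ≠ 0 := by
    rw [Ne, ZMod.natCast_eq_zero_iff, ← Nat.card_eq_fintype_card]
    intro hdvd
    have h1 : p ∣ Nat.gcd (Nat.card C) p := Nat.dvd_gcd hdvd (dvd_refl p)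
    rw [Nat.Coprime] at hC
    rw [hC] at h1
    exact hp.one_lt.ne' (Nat.dvd_one.1 h1)
  have : Module.Finite (ZMod p) M.V := hM
  set bM := Module.finBasis (ZMod p) M.V with hbM
  -- the three instances of the abstract theorem
  have h0 := lfun_abstract (k := ZMod p) (G := G) (fun A => ↥(A.ρ.invariants))
    (fun f => invMap f) (fun A => invMap_id) (fun f g => invMap_comp f g)
    (fun f g => invMap_add f g) (fun a f => invMap_smul a f)
    (B := Rep.res (QuotientGroup.mk' U) (Rep.coind C.subtype M)) (𝓜 := regMu χ U) hCk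
    (M.dualTwist ((cycChi χ U hχ).comp C.subtype)).ρ
    (fun c => regRt χ U (c : G ⧸ U)) (regRt_one χ U) (fun c c' => regRt_mul χ U c c')
    (lfunJ χ U hχ C M) (lfunJ_add χ U hχ C M) (lfunJ_smul χ U hχ C M)
    bM.dualBasis (fun a => lfunI χ U hχ C M (bM a))
    (lfun_rel1 χ U hχ C M hCk bM) (fun a ν => lfun_rel2 χ U hχ C M bM a ν)
    (fun c ν => lfun_rel3 χ U hχ C M c ν)
  have h1 := lfun_abstract (k := ZMod p) (G := G) (fun A => ↥(levH1 𝒯 A))
    (fun f => levH1Map 𝒯 f) (fun A => levH1Map_id 𝒯) (fun f g => levH1Map_comp 𝒯 f g)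
    (fun f g => levH1Map_add 𝒯 f g) (fun a f => levH1Map_smul 𝒯 a f)
    (B := Rep.res (QuotientGroup.mk' U) (Rep.coind C.subtype M)) (𝓜 := regMu χ U) hCk
    (M.dualTwist ((cycChi χ U hχ).comp C.subtype)).ρ
    (fun c => regRt χ U (c : G ⧸ U)) (regRt_one χ U) (fun c c' => regRt_mul χ U c c')
    (lfunJ χ U hχ C M) (lfunJ_add χ U hχ C M) (lfunJ_smul χ U hχ C M)
    bM.dualBasis (fun a => lfunI χ U hχ C M (bM a))
    (lfun_rel1 χ U hχ C M hCk bM) (fun a ν => lfun_rel2 χ U hχ C M bM a ν)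
    (fun c ν => lfun_rel3 χ U hχ C M c ν)
  have h2 := lfun_abstract (k := ZMod p) (G := G) (fun A => levH2 𝒯 A)
    (fun f => levH2Map 𝒯 f) (fun A => levH2Map_id 𝒯) (fun f g => levH2Map_comp 𝒯 f g)
    (fun f g => levH2Map_add 𝒯 f g) (fun a f => levH2Map_smul 𝒯 a f)
    (B := Rep.res (QuotientGroup.mk' U) (Rep.coind C.subtype M)) (𝓜 := regMu χ U) hCk
    (M.dualTwist ((cycChi χ U hχ).comp C.subtype)).ρ
    (fun c => regRt χ U (c : G ⧸ U)) (regRt_one χ U) (fun c c' => regRt_mul χ U c c')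
    (lfunJ χ U hχ C M) (lfunJ_add χ U hχ C M) (lfunJ_smul χ U hχ C M)
    bM.dualBasis (fun a => lfunI χ U hχ C M (bM a))
    (lfun_rel1 χ U hχ C M hCk bM) (fun a ν => lfun_rel2 χ U hχ C M bM a ν)
    (fun c ν => lfun_rel3 χ U hχ C M c ν)
  refine ⟨?_, ?_, ?_, ?_⟩
  · have : Module.Finite (ZMod p) (levH2 𝒯 (regMu χ U)) := hfin2
    exact Module.Finite.of_injective _ h2.1
  · rw [linkPsi]
    congr 1
    exact lfun_finrank_of _ h0.1 (homC C (M.dualTwist ((cycChi χ U hχ).comp C.subtype))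
      (cycH0 χ U)) (fun Λ => h0.2 Λ)
  · rw [linkPsi]
    congr 1
    exact lfun_finrank_of _ h1.1 (homC C (M.dualTwist ((cycChi χ U hχ).comp C.subtype))
      (cycH1 𝒯 χ U)) (fun Λ => h1.2 Λ)
  · rw [linkPsi]
    congr 1
    exact lfun_finrank_of _ h2.1 (homC C (M.dualTwist ((cycChi χ U hχ).comp C.subtype))
      (cycH2 𝒯 χ U)) (fun Λ => h2.2 Λ)

end Fermat.Agent.TW.E

end
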