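/-
E-cyc, final wiring (helper75, captain): `StmtCyc` from the pieces of `Plan2.lean`.

All the pieces are landed: `stmtCyc : StmtCyc` is unconditional.
-/
import Fermat.Agent.TW.E.KumAsm
import Fermat.Agent.TW.E.LinkAsm
import Fermat.Agent.TW.E.CycRed
import Fermat.Agent.TW.E.CycSpl1
import Fermat.Agent.TW.E.CycSpl2
import Fermat.Agent.TW.E.KumH0
import Fermat.Agent.TW.E.KumH1
import Fermat.Agent.TW.E.KumH2
import Fermat.Agent.TW.E.ClFin
import Fermat.Agent.TW.E.LinkFun
import Fermat.Agent.TW.E.UnitsCycFinal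
import Fermat.Agent.TW.E.HerbFinal
import Fermat.Agent.TW.E.LinkAdd
import Fermat.Agent.TW.E.LinkArch
import Fermat.Agent.TW.E.BrSeqFinal
import Fermat.Agent.TW.E.BrJCore
import Fermat.Agent.TW.E.BrJLoc
import Fermat.Agent.TW.E.PDepthTower
import Fermat.Agent.TW.E.H2FinFinal
import Fermat.Agent.TW.E.BrCFinal
import Fermat.Agent.TW.E.K0Sigma
import Fermat.Agent.TW.F.GloFin
import Fermat.Agent.EC.DetChar

set_option autoImplicit false

namespace Fermat.Agent.TW.E

/-- **E-cyc/Kum**, unconditional. -/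
theorem cycfin_stmtKum : StmtKum :=
  stmtKum_of' Fermat.Agent.TW.F.stmtGloFin stmtH2Fin stmtPDepthTower stmtHerbUnits stmtHerbFin
    stmtHerbModels stmtKumSplice stmtTorSplice stmtSigmaAdd stmtKumH0 stmtKumH1 stmtKumH2
    stmtBrSeq (stmtBrJ_of (stmtBrJCore_of stmtBrJLoc)) stmtBrC stmtClFin' stmtUnitsCyc

/-- **E-cyc/Link**, unconditional. -/
theorem cycfin_stmtLink : StmtLink := stmtLinkAsm stmtLinkAdd stmtLinkFun stmtLinkArch

/-- `StmtCycChi`, unconditional. -/
theorem stmtCycChi : StmtCycChi :=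
  stmtCycChi_of (fun p _ _ => Fermat.Agent.EC.DetChar.cycloChar_complexConj)
    cycfin_stmtKum cycfin_stmtLink

/-- **Block E-cyc: `StmtCyc`, unconditional.** -/
theorem stmtCyc : StmtCyc := stmtCycRed stmtCycChi

end Fermat.Agent.TW.E
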