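import Fermat.Agent.TW.E.K0Plan

/-!
# TW-E / E-K0, piece K2: characteristic polynomials of permutation representations

`stmtPermCharpoly : StmtPermCharpoly`: if two finite `Γ`-sets `X`, `Y` have, for a fixed `g : Γ`,
the same number of fixed points under every power `g ^ e`, then the permutation representations
`k[X]` and `k[Y]` have the same characteristic polynomial at `g`.

Proof: the counting hypothesis forces the two `⟨g⟩`-sets to be isomorphic (induction on the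
number of points, removing an orbit of minimal period on both sides: `k0pe_core`,
`k0pe_exists_equiv`); the induced linear equivalence `k[X] ≃ k[Y]` conjugates the two operators
(`k0pe_conj`) and the characteristic polynomial is invariant under conjugation.
-/

set_option autoImplicit false

namespace Fermat.Agent.TW.E

open MulAction

section Core

variable {Γ X Y : Type} [Group Γ] [MulAction Γ X] [MulAction Γ Y]

theorem k0pe_period_pos [Finite X] (g : Γ) (x : X) : 0 < period g x :=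
  Function.minimalPeriod_pos_of_mem_periodicPts
    (Function.Injective.mem_periodicPts (MulAction.injective g) x)

/-- equal periods: the orbit maps have the same fibres -/
theorem k0pe_zpow_iff (g : Γ) {x₀ : X} {y₀ : Y} (h : period g x₀ = period g y₀) (i j : ℤ) :
    g ^ i • x₀ = g ^ j • x₀ ↔ g ^ i • y₀ = g ^ j • y₀ := by
  have key : ∀ {Z : Type} [MulAction Γ Z] (z : Z),
      g ^ i • z = g ^ j • z ↔ (period g z : ℤ) ∣ i - j := by
    intro Z _ z
    rw [← zpow_smul_eq_iff_period_dvd, sub_eq_neg_add, zpow_add, mul_smul, zpow_neg,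
      inv_smul_eq_iff]
  rw [key x₀, key y₀, h]

/-- the orbit of `x₀` under the powers of `g` -/
def k0peOrb (g : Γ) (x₀ : X) : Set X := {x | ∃ i : ℤ, g ^ i • x₀ = x}

theorem k0pe_self_mem_orb (g : Γ) (x₀ : X) : x₀ ∈ k0peOrb g x₀ := ⟨0, by rw [zpow_zero, one_smul]⟩

theorem k0pe_orb_smul (g : Γ) (x₀ x : X) : g • x ∈ k0peOrb g x₀ ↔ x ∈ k0peOrb g x₀ := by
  constructor
  · rintro ⟨i, hi⟩
    exact ⟨-1 + i, by rw [zpow_add, mul_smul, hi, zpow_neg_one, inv_smul_smul]⟩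
  · rintro ⟨i, rfl⟩
    exact ⟨1 + i, by rw [zpow_one_add, mul_smul]⟩

theorem k0pe_stable_zpow (g : Γ) {S : Set X} (hS : ∀ x, g • x ∈ S ↔ x ∈ S) (i : ℤ) (x : X) :
    g ^ i • x ∈ S ↔ x ∈ S := by
  induction i using Int.induction_on generalizing x with
  | zero => rw [zpow_zero, one_smul]
  | succ i ih => rw [add_comm, zpow_one_add, mul_smul, hS, ih]
  | pred i ih =>
    rw [sub_eq_neg_add, zpow_add, mul_smul, zpow_neg_one, ← hS, smul_inv_smul, ih]

theorem k0pe_orb_subset (g : Γ) {S : Set X} (hS : ∀ x, g • x ∈ S ↔ x ∈ S) {x₀ : X}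
    (hx₀ : x₀ ∈ S) : k0peOrb g x₀ ⊆ S := by
  rintro _ ⟨i, rfl⟩
  exact (k0pe_stable_zpow g hS i x₀).mpr hx₀

open Classical in
/-- the orbit map -/
noncomputable def k0peV (g : Γ) (x₀ : X) (y₀ : Y) (x : X) : Y :=
  if h : ∃ i : ℤ, g ^ i • x₀ = x then g ^ h.choose • y₀ else y₀

theorem k0peV_apply (g : Γ) {x₀ : X} {y₀ : Y} (h : period g x₀ = period g y₀) (i : ℤ) :
    k0peV g x₀ y₀ (g ^ i • x₀) = g ^ i • y₀ := by
  have hex : ∃ j : ℤ, g ^ j • x₀ = g ^ i • x₀ := ⟨i, rfl⟩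
  rw [k0peV, dif_pos hex]
  exact (k0pe_zpow_iff g h _ _).mp hex.choose_spec

/-- the fixed points of `g ^ e` in the two orbits correspond -/
theorem k0pe_orb_count (g : Γ) {x₀ : X} {y₀ : Y} (h : period g x₀ = period g y₀) (e : ℕ) :
    {x | x ∈ k0peOrb g x₀ ∧ g ^ e • x = x}.ncard =
      {y | y ∈ k0peOrb g y₀ ∧ g ^ e • y = y}.ncard := by
  refine Set.ncard_congr (fun x _ => k0peV g x₀ y₀ x) ?_ ?_ ?_
  · rintro _ ⟨⟨i, rfl⟩, hfix⟩
    rw [k0peV_apply g h]
    refine ⟨⟨i, rfl⟩, ?_⟩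
    rw [← zpow_natCast, ← mul_smul, ← zpow_add] at hfix ⊢
    exact (k0pe_zpow_iff g h _ _).mp hfix
  · rintro _ _ ⟨⟨i, rfl⟩, -⟩ ⟨⟨j, rfl⟩, -⟩ hij
    rw [k0peV_apply g h, k0peV_apply g h] at hij
    exact (k0pe_zpow_iff g h _ _).mpr hij
  · rintro _ ⟨⟨i, rfl⟩, hfix⟩
    refine ⟨g ^ i • x₀, ⟨⟨i, rfl⟩, ?_⟩, k0peV_apply g h i⟩
    rw [← zpow_natCast, ← mul_smul, ← zpow_add] at hfix ⊢
    exact (k0pe_zpow_iff g h _ _).mpr hfix

theorem k0pe_core [Finite X] [Finite Y] [Nonempty Y] (g : Γ) :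
    ∀ (n : ℕ) (S : Set X) (T : Set Y), (∀ x, g • x ∈ S ↔ x ∈ S) → (∀ y, g • y ∈ T ↔ y ∈ T) →
      S.ncard = n →
      (∀ e : ℕ, {x | x ∈ S ∧ g ^ e • x = x}.ncard = {y | y ∈ T ∧ g ^ e • y = y}.ncard) →
      ∃ u : X → Y, (∀ x ∈ S, u x ∈ T) ∧ Set.InjOn u S ∧ ∀ x ∈ S, u (g • x) = g • u x := by
  classical
  intro n
  induction n using Nat.strong_induction_on with
  | _ n ih =>
  intro S T hS hT hn hcount
  rcases S.eq_empty_or_nonempty with hSe | hSne
  · subst hSe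
    exact ⟨fun _ => Classical.arbitrary Y, fun x hx => absurd hx (Set.notMem_empty x),
      Set.injOn_empty _, fun x hx => absurd hx (Set.notMem_empty x)⟩
  -- a point of minimal period in `S`
  obtain ⟨x₀, hx₀S, hxmin⟩ := Set.exists_min_image S (fun x => period g x) S.toFinite hSne
  have hd := k0pe_period_pos g x₀
  -- a point of `T` fixed by `g ^ d`
  have hT1 : ({y | y ∈ T ∧ g ^ (period g x₀) • y = y} : Set Y).Nonempty := by
    rw [← Set.ncard_pos (Set.toFinite _), ← hcount, Set.ncard_pos (Set.toFinite _)]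
    exact ⟨x₀, hx₀S, pow_period_smul g x₀⟩
  obtain ⟨y₁, hy₁T, hy₁⟩ := hT1
  obtain ⟨y₀, hy₀T, hymin⟩ := Set.exists_min_image T (fun y => period g y) T.toFinite ⟨y₁, hy₁T⟩
  have hd₀ := k0pe_period_pos g y₀
  have hS1 : ({x | x ∈ S ∧ g ^ (period g y₀) • x = x} : Set X).Nonempty := by
    rw [← Set.ncard_pos (Set.toFinite _), hcount, Set.ncard_pos (Set.toFinite _)]
    exact ⟨y₀, hy₀T, pow_period_smul g y₀⟩
  obtain ⟨x₁, hx₁S, hx₁⟩ := hS1
  have hper : period g x₀ = period g y₀ := by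
    have h1 : period g y₁ ≤ period g x₀ := Nat.le_of_dvd hd (pow_smul_eq_iff_period_dvd.mp hy₁)
    have h2 : period g x₁ ≤ period g y₀ := Nat.le_of_dvd hd₀ (pow_smul_eq_iff_period_dvd.mp hx₁)
    have h3 := hxmin x₁ hx₁S
    have h4 := hymin y₁ hy₁T
    exact le_antisymm (h3.trans h2) (h4.trans h1)
  -- remove the two orbits
  have hOX := k0pe_orb_subset g hS hx₀S
  have hOY := k0pe_orb_subset g hT hy₀T
  have hS' : ∀ x, g • x ∈ S \ k0peOrb g x₀ ↔ x ∈ S \ k0peOrb g x₀ := fun x => by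
    rw [Set.mem_sdiff, Set.mem_sdiff, hS, k0pe_orb_smul]
  have hT' : ∀ y, g • y ∈ T \ k0peOrb g y₀ ↔ y ∈ T \ k0peOrb g y₀ := fun y => by
    rw [Set.mem_sdiff, Set.mem_sdiff, hT, k0pe_orb_smul]
  have hlt : (S \ k0peOrb g x₀).ncard < n := by
    rw [← hn]
    refine Set.ncard_lt_ncard ⟨Set.sdiff_subset, fun h => ?_⟩ S.toFinite
    exact (h hx₀S).2 (k0pe_self_mem_orb g x₀)
  have hcount' : ∀ e : ℕ, {x | x ∈ S \ k0peOrb g x₀ ∧ g ^ e • x = x}.ncard =
      {y | y ∈ T \ k0peOrb g y₀ ∧ g ^ e • y = y}.ncard := by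
    intro e
    have e1 : {x | x ∈ S \ k0peOrb g x₀ ∧ g ^ e • x = x} =
        {x | x ∈ S ∧ g ^ e • x = x} \ {x | x ∈ k0peOrb g x₀ ∧ g ^ e • x = x} := by
      ext x
      simp only [Set.mem_sdiff, Set.mem_ofPred_eq]
      tauto
    have e2 : {y | y ∈ T \ k0peOrb g y₀ ∧ g ^ e • y = y} =
        {y | y ∈ T ∧ g ^ e • y = y} \ {y | y ∈ k0peOrb g y₀ ∧ g ^ e • y = y} := by
      ext y
      simp only [Set.mem_sdiff, Set.mem_ofPred_eq]
      tauto
    have s1 : {x | x ∈ k0peOrb g x₀ ∧ g ^ e • x = x} ⊆ {x | x ∈ S ∧ g ^ e • x = x} :=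
      fun x hx => ⟨hOX hx.1, hx.2⟩
    have s2 : {y | y ∈ k0peOrb g y₀ ∧ g ^ e • y = y} ⊆ {y | y ∈ T ∧ g ^ e • y = y} :=
      fun y hy => ⟨hOY hy.1, hy.2⟩
    rw [e1, e2, Set.ncard_sdiff s1 (Set.toFinite _), Set.ncard_sdiff s2 (Set.toFinite _), hcount e,
      k0pe_orb_count g hper e]
  obtain ⟨u', hu'T, hu'inj, hu'eq⟩ := ih _ hlt _ _ hS' hT' rfl hcount'
  obtain ⟨u, hu1, hu2⟩ : ∃ u : X → Y, (∀ x ∈ k0peOrb g x₀, u x = k0peV g x₀ y₀ x) ∧
      (∀ x, x ∉ k0peOrb g x₀ → u x = u' x) :=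
    ⟨fun x => if x ∈ k0peOrb g x₀ then k0peV g x₀ y₀ x else u' x,
      fun x hx => if_pos hx, fun x hx => if_neg hx⟩
  have hu1' : ∀ i : ℤ, u (g ^ i • x₀) = g ^ i • y₀ := fun i => by
    rw [hu1 _ ⟨i, rfl⟩, k0peV_apply g hper]
  refine ⟨u, ?_, ?_, ?_⟩
  · intro x hx
    by_cases hxO : x ∈ k0peOrb g x₀
    · obtain ⟨i, rfl⟩ := hxO
      rw [hu1']
      exact hOY ⟨i, rfl⟩
    · rw [hu2 x hxO]
      exact (hu'T x ⟨hx, hxO⟩).1
  · intro x hx x' hx' hxx'
    by_cases hxO : x ∈ k0peOrb g x₀ <;> by_cases hx'O : x' ∈ k0peOrb g x₀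
    · obtain ⟨i, rfl⟩ := hxO
      obtain ⟨j, rfl⟩ := hx'O
      rw [hu1', hu1'] at hxx'
      exact (k0pe_zpow_iff g hper _ _).mpr hxx'
    · obtain ⟨i, rfl⟩ := hxO
      rw [hu1', hu2 x' hx'O] at hxx'
      exact absurd ⟨i, hxx'⟩ (hu'T x' ⟨hx', hx'O⟩).2
    · obtain ⟨j, rfl⟩ := hx'O
      rw [hu1', hu2 x hxO] at hxx'
      exact absurd ⟨j, hxx'.symm⟩ (hu'T x ⟨hx, hxO⟩).2
    · rw [hu2 x hxO, hu2 x' hx'O] at hxx'
      exact hu'inj ⟨hx, hxO⟩ ⟨hx', hx'O⟩ hxx'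
  · intro x hx
    by_cases hxO : x ∈ k0peOrb g x₀
    · obtain ⟨i, rfl⟩ := hxO
      rw [hu1', ← mul_smul, ← mul_smul, ← zpow_one_add, hu1']
    · rw [hu2 x hxO, hu2 _ (fun h => hxO ((k0pe_orb_smul g x₀ x).mp h))]
      exact hu'eq x ⟨hx, hxO⟩

theorem k0pe_exists_equiv [Finite X] [Finite Y] (g : Γ)
    (h : ∀ e : ℕ, Nat.card (fixedBy X (g ^ e)) = Nat.card (fixedBy Y (g ^ e))) :
    ∃ u : X ≃ Y, ∀ x, u (g • x) = g • u x := by
  have hcard : Nat.card X = Nat.card Y := by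
    have h0 := h 0
    have eX : (fixedBy X (g ^ 0) : Set X) = Set.univ := by
      ext x; simp
    have eY : (fixedBy Y (g ^ 0) : Set Y) = Set.univ := by
      ext y; simp
    rw [eX, eY, Nat.card_coe_set_eq, Nat.card_coe_set_eq, Set.ncard_univ, Set.ncard_univ] at h0
    exact h0
  rcases isEmpty_or_nonempty Y with hY | hY
  · have : IsEmpty X := by
      rw [← Finite.card_eq_zero_iff (α := X), hcard]
      exact Finite.card_eq_zero_iff.mpr hY
    exact ⟨Equiv.equivOfIsEmpty X Y, fun x => isEmptyElim x⟩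
  · have hc : ∀ e : ℕ, {x | x ∈ (Set.univ : Set X) ∧ g ^ e • x = x}.ncard =
        {y | y ∈ (Set.univ : Set Y) ∧ g ^ e • y = y}.ncard := by
      intro e
      have h1 := h e
      rw [Nat.card_coe_set_eq, Nat.card_coe_set_eq] at h1
      have eX : {x | x ∈ (Set.univ : Set X) ∧ g ^ e • x = x} = fixedBy X (g ^ e) := by
        ext x; simp [MulAction.mem_fixedBy]
      have eY : {y | y ∈ (Set.univ : Set Y) ∧ g ^ e • y = y} = fixedBy Y (g ^ e) := by
        ext y; simp [MulAction.mem_fixedBy]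
      rw [eX, eY, h1]
    obtain ⟨u, -, hinj, heq⟩ := k0pe_core g _ Set.univ Set.univ (fun _ => by simp)
      (fun _ => by simp) rfl hc
    have hinj' : Function.Injective u := fun a b hab => hinj (Set.mem_univ a) (Set.mem_univ b) hab
    have hbij : Function.Bijective u := hinj'.bijective_of_nat_card_le hcard.ge
    exact ⟨Equiv.ofBijective u hbij, fun x => heq x (Set.mem_univ x)⟩

end Core

/-- conjugating the permutation representation by a `g`-equivariant bijection -/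
theorem k0pe_conj (k : Type) {Γ X Y : Type} [Field k] [Group Γ] [MulAction Γ X] [MulAction Γ Y]
    (g : Γ) (u : X ≃ Y) (hu : ∀ x, u (g • x) = g • u x) :
    ((MonoidAlgebra.coeffLinearEquiv k (S := k) (M := X)) ≪≫ₗ
        (Finsupp.domLCongr u : (X →₀ k) ≃ₗ[k] (Y →₀ k)) ≪≫ₗ
        (MonoidAlgebra.coeffLinearEquiv k (S := k) (M := Y)).symm).conj
      (Representation.ofMulAction k Γ X g) = Representation.ofMulAction k Γ Y g := by
  set E := ((MonoidAlgebra.coeffLinearEquiv k (S := k) (M := X)) ≪≫ₗ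
        (Finsupp.domLCongr u : (X →₀ k) ≃ₗ[k] (Y →₀ k)) ≪≫ₗ
        (MonoidAlgebra.coeffLinearEquiv k (S := k) (M := Y)).symm) with hE
  have hEs : ∀ (x : X) (r : k), E (MonoidAlgebra.single x r) = MonoidAlgebra.single (u x) r := by
    intro x r
    simp [hE]
  have hEsymm : ∀ (y : Y) (r : k),
      E.symm (MonoidAlgebra.single y r) = MonoidAlgebra.single (u.symm y) r := by
    intro y r
    rw [LinearEquiv.symm_apply_eq, hEs, Equiv.apply_symm_apply]
  refine MonoidAlgebra.lhom_ext' fun y => ?_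
  refine LinearMap.ext fun r => ?_
  simp only [LinearMap.comp_apply, MonoidAlgebra.lsingle_apply, LinearEquiv.conj_apply_apply]
  rw [hEsymm, Representation.ofMulAction_single, hEs, Representation.ofMulAction_single, hu,
    Equiv.apply_symm_apply]

/-- **K2.** -/
theorem stmtPermCharpoly : StmtPermCharpoly := by
  intro k Γ _ _ X Y _ _ _ _ g h
  obtain ⟨u, hu⟩ := k0pe_exists_equiv g h
  have hX : Module.Finite k (Rep.ofMulAction k Γ X).V :=
    (inferInstance : Module.Finite k (MonoidAlgebra k X))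
  have hY : Module.Finite k (Rep.ofMulAction k Γ Y).V :=
    (inferInstance : Module.Finite k (MonoidAlgebra k Y))
  rw [repCharpoly, repCharpoly, dif_pos hX, dif_pos hY]
  have key := k0pe_conj k g u hu
  have := LinearEquiv.charpoly_conj
    ((MonoidAlgebra.coeffLinearEquiv k (S := k) (M := X)) ≪≫ₗ
        (Finsupp.domLCongr u : (X →₀ k) ≃ₗ[k] (Y →₀ k)) ≪≫ₗ
        (MonoidAlgebra.coeffLinearEquiv k (S := k) (M := Y)).symm)
    (Representation.ofMulAction k Γ X g)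
  rw [key] at this
  exact this.symm

end Fermat.Agent.TW.E
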