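import Fermat.Agent.TW.E.K0
import Fermat.Agent.TW.E.K0BNFinal
import Fermat.Agent.TW.E.K0Perm
import Fermat.Agent.TW.E.K0Marks
import Fermat.Agent.TW.E.K0HomPerm
import Fermat.Agent.TW.E.K0Sigma

/-!
# TW-E / E-K0 : Artin induction modulo `p` for additive functions (unconditional)
-/

namespace Fermat.Agent.TW.E

/-- **E-K0.** Let `Γ` be a finite group and `φ : Rep (ZMod p) Γ → ℤ` be invariant under
isomorphisms and additive on short exact sequences of finite-dimensional representations.
If `φ` vanishes on all representations coinduced from cyclic subgroups of order prime to `p`,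
then `φ` vanishes on all finite-dimensional representations. -/
theorem stmtK0 : StmtK0 :=
  stmtK0_of stmtBN stmtPermCharpoly stmtMarks stmtHomPerm stmtSigmaAdd

end Fermat.Agent.TW.E
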