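/-
TW-E / A10 (helper30): **E-add**, the Euler characteristic of level cohomology is additive.

`stmtAdd_of : StmtH2Surj → StmtH2Fin → StmtAdd`.

For `0 → B₁ → B → B₂ → 0` the level long exact sequence
`0 → H⁰(B₁) → H⁰(B) → H⁰(B₂) → H¹(B₁) → H¹(B) → H¹(B₂) → H²(B₁) → H²(B) → H²(B₂) → 0`
(LESMaps/LESConn/LESExact.lean; exact at `H²(B₂)` by `StmtH2Surj`) consists of finite-dimensional
spaces (`F.stmtGloFin`, `StmtH2Fin`); count dimensions.
-/
import Fermat.Agent.TW.E.LESExact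
import Fermat.Agent.TW.F.GloFin

set_option autoImplicit false

noncomputable section

namespace Fermat.Agent.TW.E

open CategoryTheory groupCohomology Module Fermat.Agent.PT Fermat.Agent.PT.F Fermat.Agent.TW.F

/-- the arithmetic of the nine-term sequence -/
theorem eadd_arith (p0 q0 r0 p1 q1 r1 p2 q2 r2 a b c d e f' g' h : ℕ)
    (h0 : a = p0) (h1 : q0 = a + b) (h2 : r0 = b + c) (h3 : p1 = c + d) (h4 : q1 = d + e)
    (h5 : r1 = e + f') (h6 : p2 = f' + g') (h7 : q2 = g' + h) (h8 : h = r2) :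
    q0 + q2 + p1 + r1 = q1 + (p0 + p2) + (r0 + r2) := by
  omega

/-- **E-add**, generic form over a tower: additivity of the Euler characteristic of level
cohomology from finiteness and the surjectivity of `H²_lev(B) → H²_lev(B₂)`. -/
theorem eadd_generic {p : ℕ} [Fact p.Prime] {G : Type} [Group G] (𝒯 : Tower G)
    (B₁ B B₂ : Rep.{0} (ZMod p) G) [FiniteDimensional (ZMod p) B]
    (f : B₁ ⟶ B) (g : B ⟶ B₂) (hf : Function.Injective f.hom) (hg : Function.Surjective g.hom)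
    (hex : Function.Exact f.hom g.hom) (hB : TrivOnLevel 𝒯 B)
    (hfin1 : ∀ (A : Rep.{0} (ZMod p) G) [FiniteDimensional (ZMod p) A], TrivOnLevel 𝒯 A →
      Finite ↥(levH1 𝒯 A))
    (hfin2 : ∀ (A : Rep.{0} (ZMod p) G) [FiniteDimensional (ZMod p) A], TrivOnLevel 𝒯 A →
      Module.Finite (ZMod p) (levH2 𝒯 A))
    (hsurj : ∀ w₂ : G × G → B₂.V, w₂ ∈ levCocycles₂ 𝒯 B₂ →
      ∃ w : G × G → B.V, w ∈ levCocycles₂ 𝒯 B ∧
        (fun s => g.hom (w s)) - w₂ ∈ levCoboundaries₂ 𝒯 B₂) :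
    (finrank (ZMod p) ↥(B.ρ.invariants) + finrank (ZMod p) (levH2 𝒯 B) +
        finrank (ZMod p) ↥(levH1 𝒯 B₁) + finrank (ZMod p) ↥(levH1 𝒯 B₂) : ℕ) =
      finrank (ZMod p) ↥(levH1 𝒯 B) +
        (finrank (ZMod p) ↥(B₁.ρ.invariants) + finrank (ZMod p) (levH2 𝒯 B₁)) +
        (finrank (ZMod p) ↥(B₂.ρ.invariants) + finrank (ZMod p) (levH2 𝒯 B₂)) := by
  have hfd₁ : FiniteDimensional (ZMod p) B₁ :=
    Module.Finite.of_injective f.hom.toLinearMap hf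
  have hfd₂ : FiniteDimensional (ZMod p) B₂ :=
    Module.Finite.of_surjective g.hom.toLinearMap hg
  have hB₁ : TrivOnLevel 𝒯 B₁ := eadd_triv_of_injective f hf hB
  have hB₂ : TrivOnLevel 𝒯 B₂ := eadd_triv_of_surjective g hg hB
  have i1 : Finite ↥(levH1 𝒯 B₁) := hfin1 B₁ hB₁
  have i2 : Finite ↥(levH1 𝒯 B) := hfin1 B hB
  have i3 : Finite ↥(levH1 𝒯 B₂) := hfin1 B₂ hB₂
  have j1 : Module.Finite (ZMod p) (levH2 𝒯 B₁) := hfin2 B₁ hB₁
  have j2 : Module.Finite (ZMod p) (levH2 𝒯 B) := hfin2 B hB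
  have h0 := eadd_finrank_range_of_inj (eaddH0 f) (eadd_exact0 f hf)
  have h1 := eadd_exact_count (eaddH0 f) (eaddH0 g) (eadd_exact1 f g hf hex)
  have h2 := eadd_exact_count (eaddH0 g) (eaddD0 f g hf hg hex hB)
    (eadd_exact2 f g hf hg hex hB)
  have h3 := eadd_exact_count (eaddD0 f g hf hg hex hB) (eaddH1 f)
    (eadd_exact3 f g hf hg hex hB)
  have h4 := eadd_exact_count (eaddH1 (𝒯 := 𝒯) f) (eaddH1 g) (eadd_exact4 f g hf hg hex hB)
  have h5 := eadd_exact_count (eaddH1 (𝒯 := 𝒯) g) (eaddD1 f g hf hg hex hB)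
    (eadd_exact5 f g hf hg hex hB)
  have h6 := eadd_exact_count (eaddD1 f g hf hg hex hB) (eaddH2 (𝒯 := 𝒯) f)
    (eadd_exact6 f g hf hg hex hB)
  have h7 := eadd_exact_count (eaddH2 (𝒯 := 𝒯) f) (eaddH2 g) (eadd_exact7 f g hf hg hex hB)
  have h8 := eadd_finrank_range_of_surj (eaddH2 (𝒯 := 𝒯) g) (eadd_exact8 g hsurj)
  exact eadd_arith _ _ _ _ _ _ _ _ _ _ _ _ _ _ _ _ _ h0 h1 h2 h3 h4 h5 h6 h7 h8

/-- **A10 (E-add)**: `StmtH2Surj → StmtH2Fin → StmtAdd`. -/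
theorem stmtAdd_of (h8 : StmtH2Surj) (h9 : StmtH2Fin) : StmtAdd := by
  intro p _ G _ ι _ _ Gloc _ D hPD B₁ B B₂ _ f g hf hg hex hB
  have hfd₂ : FiniteDimensional (ZMod p) B₂ :=
    Module.Finite.of_surjective g.hom.toLinearMap hg
  exact eadd_generic D.𝒯 B₁ B B₂ f g hf hg hex hB
    (fun A _ hA => stmtGloFin p G ι Gloc D A hA)
    (fun A _ hA => h9 p G ι Gloc D hPD A hA)
    (fun w₂ hw₂ => h8 p G ι Gloc D hPD B B₂ g hg hB w₂ hw₂)

end Fermat.Agent.TW.E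

end
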