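/-
TW-E / E-cyc / K-BrJ — final wiring: `stmtBrJ : StmtBrJ` (unconditional).
wrap (helper60, BrJPlan.lean) ∘ core (helper11, BrJCore.lean) ∘ local (helper55, BrJLoc.lean).
-/
import Fermat.Agent.TW.E.BrJPlan
import Fermat.Agent.TW.E.BrJCore
import Fermat.Agent.TW.E.BrJLoc

set_option autoImplicit false

namespace Fermat.Agent.TW.E

/-- **K-BrJ**: the `p`-torsion of `H²_lev(G, Hom(ℤ[G/U], J))` is the permutation module on the
places. -/
theorem stmtBrJ : StmtBrJ := stmtBrJ_of (stmtBrJCore_of stmtBrJLoc)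

end Fermat.Agent.TW.E
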