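/-
Project TW, part TW-E, block E-add, piece A1′ (helper1), UNCONDITIONAL form:
`stmtH3FundPerm : StmtH3FundPerm` from `stmtH3FundPerm_of` (H3Perm.lean) and `stmtH3Fund`
(H3Fund.lean, helper87).
-/
import Fermat.Agent.TW.E.H3Perm
import Fermat.Agent.TW.E.H3Fund

set_option autoImplicit false

namespace Fermat.Agent.TW.E

/-- **A1′**, unconditional: `H³(Γ, Hom_ℤ(ℤ[Ω], Y))` has no `p`-torsion if `Y` has a
`p`-fundamental class. -/
theorem stmtH3FundPerm : StmtH3FundPerm := stmtH3FundPerm_of stmtH3Fund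

end Fermat.Agent.TW.E
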