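import Fermat.Agent.TW.E.K0Plan

/-!
# TW-E / E-K0 / K1 : Brauer–Nesbitt, assembled

`stmtBN_of : StmtJH → StmtTraceIndep → StmtDescent → StmtBN`.
-/

namespace Fermat.Agent.TW.E

open CategoryTheory

section general

variable {k Γ : Type} [Field k] [Group Γ]

theorem k0bn_repCharpoly_eq (M : Rep.{0} k Γ) [Module.Finite k M.V] (g : Γ) :
    repCharpoly M g = LinearMap.charpoly (M.ρ g) := by
  unfold repCharpoly
  rw [dif_pos (inferInstance : Module.Finite k M.V)]

theorem k0bn_repCharpoly_monic (M : Rep.{0} k Γ) (g : Γ) : (repCharpoly M g).Monic := by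
  unfold repCharpoly
  split_ifs with h
  · exact LinearMap.charpoly_monic _
  · exact Polynomial.monic_one

/-- The trace is minus the next coefficient of the characteristic polynomial. -/
theorem k0bn_nextCoeff_charpoly {V : Type} [AddCommGroup V] [Module k V] [Module.Finite k V]
    (f : V →ₗ[k] V) : (LinearMap.charpoly f).nextCoeff = - LinearMap.trace k V f := by
  classical
  have b := Module.finBasis k V
  rw [LinearMap.trace_eq_matrix_trace k b f, Matrix.trace_eq_neg_charpoly_nextCoeff,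
    LinearMap.charpoly_toMatrix, neg_neg]

theorem k0bn_nextCoeff_repCharpoly (M : Rep.{0} k Γ) [Module.Finite k M.V] (g : Γ) :
    (repCharpoly M g).nextCoeff = - LinearMap.trace k M.V (M.ρ g) := by
  rw [k0bn_repCharpoly_eq, k0bn_nextCoeff_charpoly]

end general

section zmod

variable {p : ℕ} [Fact p.Prime]

/-- Over `𝔽_p`, the characteristic polynomial of `f ^ p` is that of `f`. -/
theorem k0bn_charpoly_pow_p {V : Type} [AddCommGroup V] [Module (ZMod p) V]
    [Module.Finite (ZMod p) V] (f : V →ₗ[ZMod p] V) :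
    LinearMap.charpoly (f ^ p) = LinearMap.charpoly f := by
  classical
  have b := Module.finBasis (ZMod p) V
  rw [← LinearMap.charpoly_toMatrix (f ^ p) b, ← LinearMap.toMatrix_pow, ZMod.charpoly_pow_card,
    LinearMap.charpoly_toMatrix]

theorem k0bn_charpoly_pow_p_pow {V : Type} [AddCommGroup V] [Module (ZMod p) V]
    [Module.Finite (ZMod p) V] (f : V →ₗ[ZMod p] V) (a : ℕ) :
    LinearMap.charpoly (f ^ (p ^ a)) = LinearMap.charpoly f := by
  induction a with
  | zero => simp
  | succ a ih => rw [pow_succ, pow_mul, k0bn_charpoly_pow_p, ih]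

variable {Γ : Type} [Group Γ]

theorem k0bn_repCharpoly_pow (M : Rep.{0} (ZMod p) Γ) (g : Γ) (a : ℕ) :
    repCharpoly M (g ^ (p ^ a)) = repCharpoly M g := by
  unfold repCharpoly
  split_ifs with h
  · rw [map_pow, k0bn_charpoly_pow_p_pow]
  · rfl

/-- The `p`-regular part. -/
theorem k0bn_exists_regular [Finite Γ] (g : Γ) :
    ∃ g' : Γ, (orderOf g').Coprime p ∧
      ∀ M : Rep.{0} (ZMod p) Γ, repCharpoly M g' = repCharpoly M g := by
  have hp : p.Prime := Fact.out
  refine ⟨g ^ (p ^ (orderOf g).factorization p), ?_, fun M => k0bn_repCharpoly_pow M g _⟩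
  rw [orderOf_pow_of_dvd (pow_ne_zero _ hp.ne_zero) (Nat.ordProj_dvd _ _)]
  exact (Nat.coprime_ordCompl hp (orderOf_pos g).ne').symm

end zmod

section canon

variable {k Γ : Type} [Field k] [Group Γ]

theorem k0bn_canonRep_eq_of_iso {M N : Rep.{0} k Γ} (h : Nonempty (M ≅ N)) :
    canonRep M = canonRep N := by
  unfold canonRep
  congr 1
  exact Quotient.sound h

theorem k0bn_simpleCanon_eq_of_iso (S T : SimpleCanon k Γ) (h : Nonempty (S.1 ≅ T.1)) :
    S = T := by
  apply Subtype.ext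
  rw [← S.2.2, ← T.2.2]
  exact k0bn_canonRep_eq_of_iso h

end canon

/-- **K1.** Brauer–Nesbitt, from its pieces. -/
theorem stmtBN_of (hJH : StmtJH) (hTr : StmtTraceIndep) (hDe : StmtDescent) : StmtBN := by
  intro p _ Γ _ _ φ hφ M N hM hN hchar
  let _ : Fintype Γ := Fintype.ofFinite Γ
  -- all elements
  have hall : ∀ g : Γ, repCharpoly M g = repCharpoly N g := by
    intro g
    obtain ⟨g', hg', hg'M⟩ := k0bn_exists_regular (p := p) g
    rw [← hg'M M, ← hg'M N]
    exact hchar g' hg'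
  obtain ⟨m, hmφ, hmP⟩ := hJH (ZMod p) Γ M hM
  obtain ⟨n, hnφ, hnP⟩ := hJH (ZMod p) Γ N hN
  have hmn : m = n := by
    refine hDe p Γ (SimpleCanon (ZMod p) Γ) (fun S g => repCharpoly S.1 g)
      (fun S g => k0bn_repCharpoly_monic S.1 g) ?_ m n fun g => ?_
    · intro F i₀ hi₀
      obtain ⟨a, ha1, ha0⟩ := hTr p Γ (Fin F.card) (fun i => (F.equivFin.symm i).1.1)
        (fun i => (F.equivFin.symm i).1.2.1)
        (fun i j h => F.equivFin.symm.injective
          (Subtype.ext (k0bn_simpleCanon_eq_of_iso _ _ h))) (F.equivFin ⟨i₀, hi₀⟩)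
      obtain ⟨Q, hQ⟩ : ∃ Q : Rep.{0} (ZMod p) Γ → ZMod p,
          ∀ S, Q S = ∑ g, a g * LinearMap.trace (ZMod p) S.V (S.ρ g) := ⟨_, fun _ => rfl⟩
      refine ⟨fun g => - a g, ?_, fun i hi hne => ?_⟩
      · have : Module.Finite (ZMod p) i₀.1.V := i₀.2.1.1
        simp only [k0bn_nextCoeff_repCharpoly, neg_mul_neg]
        have ha1' : Q (F.equivFin.symm (F.equivFin ⟨i₀, hi₀⟩)).1.1 = 1 := (hQ _).trans ha1
        rw [Equiv.symm_apply_apply, hQ] at ha1'
        exact ha1'
      · have : Module.Finite (ZMod p) i.1.V := i.2.1.1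
        simp only [k0bn_nextCoeff_repCharpoly, neg_mul_neg]
        have h0 : Q (F.equivFin.symm (F.equivFin ⟨i, hi⟩)).1.1 = 0 :=
          (hQ _).trans (ha0 (F.equivFin ⟨i, hi⟩) fun h =>
            hne (congrArg Subtype.val (F.equivFin.injective h)))
        rw [Equiv.symm_apply_apply, hQ] at h0
        exact h0
    · rw [← hmP g, ← hnP g]
      exact hall g
  rw [hmφ φ hφ, hnφ φ hφ, hmn]

end Fermat.Agent.TW.E
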