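/-
TW-E / A10 (helper30), part 1: abstract linear algebra for the long exact sequence.

* `eaddLift α β hα h : V →ₗ W` for `α : X → V` surjective, `β : X → W`, `ker α ≤ ker β`
  (`eaddLift_apply : eaddLift α β hα h (α x) = β x`);
* `eadd_count`: the alternating sum of dimensions in a nine-term exact sequence
  `0 → P0 → Q0 → R0 → P1 → Q1 → R1 → P2 → Q2 → R2 → 0` vanishes.

All codomains carry only `[AddCommMonoid] [Module]` (see the technical note in TW/F/GWFinal.lean:
`levH2` is a quotient module).
-/
import Mathlib

set_option autoImplicit false

noncomputable section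

namespace Fermat.Agent.TW.E

open Module

section Lift

variable {k : Type} [Ring k] {X V W : Type} [AddCommGroup X] [Module k X]
  [AddCommMonoid V] [Module k V] [AddCommMonoid W] [Module k W]

/-- The map `V → W` induced by `β : X → W` along a surjection `α : X → V` with
`ker α ≤ ker β`. -/
def eaddLift (α : X →ₗ[k] V) (β : X →ₗ[k] W) (hα : Function.Surjective α)
    (h : ∀ x, α x = 0 → β x = 0) : V →ₗ[k] W where
  toFun v := β (Classical.choose (hα v))
  map_add' v w := by
    let _ : AddCommGroup V := Module.addCommMonoidToAddCommGroup k
    let _ : AddCommGroup W := Module.addCommMonoidToAddCommGroup k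
    rw [← map_add, ← sub_eq_zero, ← map_sub]
    apply h
    rw [map_sub, map_add, Classical.choose_spec (hα (v + w)), Classical.choose_spec (hα v),
      Classical.choose_spec (hα w), sub_self]
  map_smul' c v := by
    let _ : AddCommGroup V := Module.addCommMonoidToAddCommGroup k
    let _ : AddCommGroup W := Module.addCommMonoidToAddCommGroup k
    rw [RingHom.id_apply, ← map_smul, ← sub_eq_zero, ← map_sub]
    apply h
    rw [map_sub, map_smul, Classical.choose_spec (hα (c • v)), Classical.choose_spec (hα v),
      sub_self]

theorem eaddLift_apply (α : X →ₗ[k] V) (β : X →ₗ[k] W) (hα : Function.Surjective α)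
    (h : ∀ x, α x = 0 → β x = 0) (x : X) : eaddLift α β hα h (α x) = β x := by
  let _ : AddCommGroup V := Module.addCommMonoidToAddCommGroup k
  let _ : AddCommGroup W := Module.addCommMonoidToAddCommGroup k
  show β (Classical.choose (hα (α x))) = β x
  rw [← sub_eq_zero, ← map_sub]
  apply h
  rw [map_sub, Classical.choose_spec (hα (α x)), sub_self]

end Lift

section Count

variable {k : Type} [Field k]

/-- rank–nullity, codomain an `AddCommMonoid`, in pointwise form: if `K` is the kernel and `R`
the range of `f`, then `dim R + dim K = dim X`. -/
theorem eadd_rank_nullity {X Y : Type} [AddCommGroup X] [Module k X]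
    [AddCommMonoid Y] [Module k Y] [Module.Finite k X] (f : X →ₗ[k] Y) :
    finrank k ↥(LinearMap.range f) + finrank k ↥(LinearMap.ker f) = finrank k X := by
  let _ : AddCommGroup Y := Module.addCommMonoidToAddCommGroup k
  exact LinearMap.finrank_range_add_finrank_ker f

/-- The dimension count of an exact sequence `X → Y → Z` at `Y`, `Y` finite-dimensional:
`dim Y = dim range(X → Y) + dim range(Y → Z)`. -/
theorem eadd_exact_count {X Y Z : Type} [AddCommMonoid X] [Module k X]
    [AddCommMonoid Y] [Module k Y] [AddCommMonoid Z] [Module k Z] [Module.Finite k Y]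
    (f : X →ₗ[k] Y) (g : Y →ₗ[k] Z) (h : ∀ y, g y = 0 ↔ ∃ x, f x = y) :
    finrank k Y = finrank k ↥(LinearMap.range f) + finrank k ↥(LinearMap.range g) := by
  let _ : AddCommGroup Y := Module.addCommMonoidToAddCommGroup k
  have hker : LinearMap.ker g = LinearMap.range f := by
    ext y
    rw [LinearMap.mem_ker, LinearMap.mem_range]
    exact h y
  have := eadd_rank_nullity g
  rw [hker] at this
  omega

/-- the range of an injective map has the dimension of the source -/
theorem eadd_finrank_range_of_inj {X Y : Type} [AddCommMonoid X] [Module k X]
    [AddCommMonoid Y] [Module k Y] (f : X →ₗ[k] Y) (hf : Function.Injective f) :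
    finrank k ↥(LinearMap.range f) = finrank k X := by
  let _ : AddCommGroup X := Module.addCommMonoidToAddCommGroup k
  let _ : AddCommGroup Y := Module.addCommMonoidToAddCommGroup k
  exact LinearMap.finrank_range_of_inj hf

/-- the range of a surjective map has the dimension of the target -/
theorem eadd_finrank_range_of_surj {X Y : Type} [AddCommMonoid X] [Module k X]
    [AddCommMonoid Y] [Module k Y] (f : X →ₗ[k] Y) (hf : Function.Surjective f) :
    finrank k ↥(LinearMap.range f) = finrank k Y := by
  rw [LinearMap.range_eq_top.2 hf, finrank_top]

end Count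

end Fermat.Agent.TW.E

end
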