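/-
TW-E / A10 (helper30), part 2: cochain-level facts for the level long exact sequence.

`B` a representation of `G` over `ZMod p`, trivial on a level of the tower `𝒯`.
* `eadd_isLevel_d01`, `eadd_isLevel_d12`: coboundaries of level cochains are level;
* `eadd_push_d01`, `eadd_push_d12`: equivariant maps commute with `d`;
* `eadd_cocycle₁_of_push`, `eadd_cocycle₂_of_push`: an injective equivariant map detects cocycles;
* `eadd_triv_of_injective`, `eadd_triv_of_surjective`.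
-/
import Fermat.Agent.TW.E.Plan
import Fermat.Agent.TW.E.LESAlg

set_option autoImplicit false

noncomputable section

namespace Fermat.Agent.TW.E

open CategoryTheory groupCohomology Module Fermat.Agent.PT Fermat.Agent.PT.F Fermat.Agent.TW.F

section Basic

variable {p : ℕ} {G : Type} [Group G] {𝒯 : Tower G}

/-- `TrivOnLevel` with a NORMAL level. -/
theorem eadd_triv_normal {B : Rep.{0} (ZMod p) G} (hB : TrivOnLevel 𝒯 B) :
    ∃ U ∈ 𝒯.lev, U.Normal ∧ ∀ s ∈ U, ∀ b : B.V, B.ρ s b = b := by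
  obtain ⟨U, hU, hUt⟩ := hB
  obtain ⟨V, hV, hVU, hVn⟩ := 𝒯.exists_normal U hU
  refine ⟨V, hV, hVn, fun s hs b => ?_⟩
  rw [hUt s (hVU hs)]
  rfl

/-- the difference of level cochains is level -/
theorem eadd_isLevel₁_sub {X : Type} [Sub X] {x y : G → X} (hx : IsLevel₁ 𝒯 x)
    (hy : IsLevel₁ 𝒯 y) : IsLevel₁ 𝒯 (fun σ => x σ - y σ) := by
  obtain ⟨U, hU, h⟩ := hx
  obtain ⟨U', hU', h'⟩ := hy
  refine ⟨U ⊓ U', 𝒯.inf_mem U U' hU hU', fun g s hs => ?_⟩
  simp only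
  rw [h g s hs.1, h' g s hs.2]

/-- the difference of level 2-cochains is level -/
theorem eadd_isLevel₂_sub {X : Type} [Sub X] {x y : G × G → X} (hx : IsLevel₂ 𝒯 x)
    (hy : IsLevel₂ 𝒯 y) : IsLevel₂ 𝒯 (fun s => x s - y s) := by
  obtain ⟨U, hU, h⟩ := hx
  obtain ⟨U', hU', h'⟩ := hy
  refine ⟨U ⊓ U', 𝒯.inf_mem U U' hU hU', fun g g' s s' hs hs' => ?_⟩
  simp only
  rw [h g g' s s' hs.1 hs'.1, h' g g' s s' hs.2 hs'.2]

/-- `σ ↦ σ b - b` is level. -/
theorem eadd_isLevel_d01 {B : Rep.{0} (ZMod p) G} (hB : TrivOnLevel 𝒯 B) (b : B.V) :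
    IsLevel₁ 𝒯 ((d₀₁ B).hom b) := by
  obtain ⟨U, hU, -, hUt⟩ := eadd_triv_normal hB
  refine ⟨U, hU, fun g s hs => ?_⟩
  rw [d₀₁_hom_apply, d₀₁_hom_apply, map_mul, Module.End.mul_apply, hUt s hs]

/-- `d` of a level 1-cochain is a level 2-cochain. -/
theorem eadd_isLevel_d12 {B : Rep.{0} (ZMod p) G} (hB : TrivOnLevel 𝒯 B) (x : G → B.V)
    (hx : IsLevel₁ 𝒯 x) : IsLevel₂ 𝒯 ((d₁₂ B).hom x) := by
  obtain ⟨U, hU, hUn, hUt⟩ := eadd_triv_normal hB
  obtain ⟨V, hV, hx⟩ := hx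
  obtain ⟨W, hW, hWle, hWn⟩ := 𝒯.exists_normal (U ⊓ V) (𝒯.inf_mem U V hU hV)
  refine ⟨W, hW, fun g g' s s' hs hs' => ?_⟩
  have hsU : s ∈ U := (hWle hs).1
  have hsV : s ∈ V := (hWle hs).2
  have hs'V : s' ∈ V := (hWle hs').2
  rw [d₁₂_hom_apply, d₁₂_hom_apply]
  simp only
  have e1 : x (g' * s') = x g' := hx g' s' hs'V
  have e2 : x (g * s) = x g := hx g s hsV
  have e3 : x (g * s * (g' * s')) = x (g * g') := by
    have h1 : g * s * (g' * s') = g * g' * (g'⁻¹ * s * g' * s') := by group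
    rw [h1]
    apply hx
    apply V.mul_mem _ hs'V
    have := hWn.conj_mem s hs g'⁻¹
    rw [inv_inv] at this
    exact (hWle this).2
  rw [e1, e2, e3, map_mul, Module.End.mul_apply, hUt s hsU]

variable {B B' : Rep.{0} (ZMod p) G} (φ : B ⟶ B')

/-- equivariant maps commute with `d₀₁` -/
theorem eadd_push_d01 (b : B.V) (σ : G) :
    φ.hom ((d₀₁ B).hom b σ) = (d₀₁ B').hom (φ.hom b) σ := by
  rw [d₀₁_hom_apply, d₀₁_hom_apply, map_sub, Rep.hom_comm_apply]

/-- equivariant maps commute with `d₁₂` -/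
theorem eadd_push_d12 (x : G → B.V) (s : G × G) :
    φ.hom ((d₁₂ B).hom x s) = (d₁₂ B').hom (fun σ => φ.hom (x σ)) s := by
  rw [d₁₂_hom_apply, d₁₂_hom_apply, map_add, map_sub, Rep.hom_comm_apply]

/-- push-forward of a 1-cocycle -/
theorem eadd_push_cocycle₁ (x : G → B.V) (hx : x ∈ cocycles₁ B) :
    (fun σ => φ.hom (x σ)) ∈ cocycles₁ B' := by
  rw [mem_cocycles₁_iff] at hx ⊢
  intro g h
  show φ.hom (x (g * h)) = B'.ρ g (φ.hom (x h)) + φ.hom (x g)
  rw [hx g h, map_add, Rep.hom_comm_apply]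

/-- push-forward of a 2-cocycle -/
theorem eadd_push_cocycle₂ (x : G × G → B.V) (hx : x ∈ cocycles₂ B) :
    (fun s => φ.hom (x s)) ∈ cocycles₂ B' := by
  rw [mem_cocycles₂_iff] at hx ⊢
  intro g h j
  show φ.hom (x (g * h, j)) + φ.hom (x (g, h)) = B'.ρ g (φ.hom (x (h, j))) + φ.hom (x (g, h * j))
  rw [← map_add, hx g h j, map_add, Rep.hom_comm_apply]

/-- an injective equivariant map detects 1-cocycles -/
theorem eadd_cocycle₁_of_push (hφ : Function.Injective φ.hom) (x : G → B.V)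
    (hx : (fun σ => φ.hom (x σ)) ∈ cocycles₁ B') : x ∈ cocycles₁ B := by
  rw [mem_cocycles₁_iff] at hx ⊢
  intro g h
  apply hφ
  have : φ.hom (x (g * h)) = B'.ρ g (φ.hom (x h)) + φ.hom (x g) := hx g h
  rw [this, map_add, Rep.hom_comm_apply]

/-- an injective equivariant map detects 2-cocycles -/
theorem eadd_cocycle₂_of_push (hφ : Function.Injective φ.hom) (x : G × G → B.V)
    (hx : (fun s => φ.hom (x s)) ∈ cocycles₂ B') : x ∈ cocycles₂ B := by
  rw [mem_cocycles₂_iff] at hx ⊢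
  intro g h j
  apply hφ
  have : φ.hom (x (g * h, j)) + φ.hom (x (g, h)) =
      B'.ρ g (φ.hom (x (h, j))) + φ.hom (x (g, h * j)) := hx g h j
  rw [map_add, this, map_add, Rep.hom_comm_apply]

/-- a subrepresentation of a module trivial on a level is trivial on a level -/
theorem eadd_triv_of_injective (hφ : Function.Injective φ.hom) (hB' : TrivOnLevel 𝒯 B') :
    TrivOnLevel 𝒯 B := by
  obtain ⟨U, hU, hUt⟩ := hB'
  refine ⟨U, hU, fun s hs => ?_⟩
  ext b
  apply hφ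
  rw [Rep.hom_comm_apply, hUt s hs]
  rfl

/-- a quotient of a module trivial on a level is trivial on a level -/
theorem eadd_triv_of_surjective (hφ : Function.Surjective φ.hom) (hB : TrivOnLevel 𝒯 B) :
    TrivOnLevel 𝒯 B' := by
  obtain ⟨U, hU, hUt⟩ := hB
  refine ⟨U, hU, fun s hs => ?_⟩
  ext b'
  obtain ⟨b, rfl⟩ := hφ b'
  rw [← Rep.hom_comm_apply, hUt s hs]
  rfl

end Basic

end Fermat.Agent.TW.E

end
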