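/-
TW-E / A10 (helper30), part 3: the maps of the level long exact sequence.

For `B` over `ZMod p`:
* `eaddZ1 𝒯 B` level 1-cocycles (as a submodule of `G → B`), `eaddCls1 : Z¹_lev → H¹_lev` (onto);
* `eaddPush1`, `eaddPush2`: push-forward of level cocycles along `φ : B ⟶ B'`;
* `eaddH0 φ`, `eaddH1 𝒯 φ`, `eaddH2 𝒯 φ`: the induced maps on `H⁰`, `H¹_lev`, `H²_lev`.
-/
import Fermat.Agent.TW.E.LESBasic

set_option autoImplicit false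

noncomputable section

namespace Fermat.Agent.TW.E

open CategoryTheory groupCohomology Module Fermat.Agent.PT Fermat.Agent.PT.F Fermat.Agent.TW.F

section Maps

variable {p : ℕ} {G : Type} [Group G] (𝒯 : Tower G)

/-- level 1-cocycles, as a submodule of the functions -/
def eaddZ1 (B : Rep.{0} (ZMod p) G) : Submodule (ZMod p) (G → B.V) :=
  cocycles₁ B ⊓ levCochains₁ 𝒯 B

theorem mem_eaddZ1 (B : Rep.{0} (ZMod p) G) (x : G → B.V) :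
    x ∈ eaddZ1 𝒯 B ↔ x ∈ cocycles₁ B ∧ IsLevel₁ 𝒯 x := Iff.rfl

/-- the class of a level 1-cocycle -/
def eaddCls1 (B : Rep.{0} (ZMod p) G) : ↥(eaddZ1 𝒯 B) →ₗ[ZMod p] ↥(levH1 𝒯 B) :=
  LinearMap.codRestrict (levH1 𝒯 B)
    ((H1π B).hom ∘ₗ (Submodule.inclusion (inf_le_left : eaddZ1 𝒯 B ≤ cocycles₁ B)))
    (fun x => (mem_levH1_iff 𝒯 B _).2 ⟨⟨x.1, x.2.1⟩, x.2.2, rfl⟩)

theorem eaddCls1_val (B : Rep.{0} (ZMod p) G) (x : ↥(eaddZ1 𝒯 B)) :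
    ((eaddCls1 𝒯 B x : ↥(levH1 𝒯 B)) : H1 B) = (H1π B).hom ⟨x.1, x.2.1⟩ := rfl

theorem eaddCls1_surjective (B : Rep.{0} (ZMod p) G) : Function.Surjective (eaddCls1 𝒯 B) := by
  rintro ⟨y, hy⟩
  obtain ⟨c, hc, rfl⟩ := (mem_levH1_iff 𝒯 B y).1 hy
  exact ⟨⟨c.1, c.2, hc⟩, Subtype.ext rfl⟩

theorem eaddCls1_eq_zero_iff (B : Rep.{0} (ZMod p) G) (x : ↥(eaddZ1 𝒯 B)) :
    eaddCls1 𝒯 B x = 0 ↔ (x : G → B.V) ∈ coboundaries₁ B := by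
  rw [← Subtype.coe_inj, eaddCls1_val, Submodule.coe_zero]
  exact H1π_eq_zero_iff (⟨x.1, x.2.1⟩ : cocycles₁ B)

variable {𝒯}
variable {B B' : Rep.{0} (ZMod p) G} (φ : B ⟶ B')

/-- push-forward of level 1-cocycles -/
def eaddPush1 : ↥(eaddZ1 𝒯 B) →ₗ[ZMod p] ↥(eaddZ1 𝒯 B') :=
  (LinearMap.compLeft φ.hom.toLinearMap G).restrict (p := eaddZ1 𝒯 B) (q := eaddZ1 𝒯 B')
    (fun x hx => ⟨eadd_push_cocycle₁ φ x hx.1, hx.2.comp _⟩)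

theorem eaddPush1_apply (x : ↥(eaddZ1 𝒯 B)) (σ : G) :
    ((eaddPush1 φ x : ↥(eaddZ1 𝒯 B')) : G → B'.V) σ = φ.hom ((x : G → B.V) σ) := rfl

/-- push-forward of level 2-cocycles -/
def eaddPush2 : ↥(levCocycles₂ 𝒯 B) →ₗ[ZMod p] ↥(levCocycles₂ 𝒯 B') :=
  (LinearMap.compLeft φ.hom.toLinearMap (G × G)).restrict (p := levCocycles₂ 𝒯 B)
    (q := levCocycles₂ 𝒯 B')
    (fun x hx => ⟨eadd_push_cocycle₂ φ x hx.1, hx.2.comp _⟩)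

theorem eaddPush2_apply (x : ↥(levCocycles₂ 𝒯 B)) (s : G × G) :
    ((eaddPush2 φ x : ↥(levCocycles₂ 𝒯 B')) : G × G → B'.V) s = φ.hom ((x : G × G → B.V) s) :=
  rfl

/-- the map on `H⁰` -/
def eaddH0 : ↥(B.ρ.invariants) →ₗ[ZMod p] ↥(B'.ρ.invariants) :=
  φ.hom.toLinearMap.restrict (p := B.ρ.invariants) (q := B'.ρ.invariants)
    (fun b hb s => by
      show B'.ρ s (φ.hom b) = φ.hom b
      rw [← Rep.hom_comm_apply, hb s])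

theorem eaddH0_val (b : ↥(B.ρ.invariants)) :
    ((eaddH0 φ b : ↥(B'.ρ.invariants)) : B'.V) = φ.hom (b : B.V) := rfl

/-- the map on `H¹_lev` -/
def eaddH1 : ↥(levH1 𝒯 B) →ₗ[ZMod p] ↥(levH1 𝒯 B') :=
  eaddLift (eaddCls1 𝒯 B) (eaddCls1 𝒯 B' ∘ₗ eaddPush1 φ) (eaddCls1_surjective 𝒯 B)
    (fun x hx => by
      rw [LinearMap.comp_apply, eaddCls1_eq_zero_iff]
      obtain ⟨b, hb⟩ := (eaddCls1_eq_zero_iff 𝒯 B x).1 hx
      refine ⟨φ.hom b, ?_⟩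
      funext σ
      rw [eaddPush1_apply, ← hb]
      exact (eadd_push_d01 φ b σ).symm)

theorem eaddH1_cls (x : ↥(eaddZ1 𝒯 B)) :
    eaddH1 φ (eaddCls1 𝒯 B x) = eaddCls1 𝒯 B' (eaddPush1 φ x) :=
  eaddLift_apply _ _ _ _ x

/-- the map on `H²_lev` -/
def eaddH2 : levH2 𝒯 B →ₗ[ZMod p] levH2 𝒯 B' :=
  eaddLift (levH2π 𝒯 B) (levH2π 𝒯 B' ∘ₗ eaddPush2 φ) (Submodule.mkQ_surjective _)
    (fun x hx => by
      rw [LinearMap.comp_apply, levH2π_eq_zero_iff]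
      obtain ⟨t, ht, htx⟩ := (mem_levCoboundaries₂_iff 𝒯 B _).1
        ((levH2π_eq_zero_iff 𝒯 B x).1 hx)
      refine (mem_levCoboundaries₂_iff 𝒯 B' _).2 ⟨fun σ => φ.hom (t σ), ht.comp _, ?_⟩
      funext s
      rw [eaddPush2_apply, ← htx]
      exact (eadd_push_d12 φ t s).symm)

theorem eaddH2_cls (x : ↥(levCocycles₂ 𝒯 B)) :
    eaddH2 φ (levH2π 𝒯 B x) = levH2π 𝒯 B' (eaddPush2 φ x) :=
  eaddLift_apply _ _ _ _ x

end Maps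

end Fermat.Agent.TW.E

end
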