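/-
TW-E / A10 (helper30), part 4: the connecting maps of the level long exact sequence.

`0 → B₁ →f B →g B₂ → 0` exact, `B` trivial on a level.
* `eaddRetr f hf` a LINEAR retraction of `f`, `eaddSec g hg` a LINEAR section of `g`
  (not equivariant; only used on elements of `ker g`, resp. to lift level cochains);
* `eaddD0 : H⁰(B₂) → H¹_lev(B₁)`, `b₂ = g b ↦ [σ ↦ f⁻¹(σ b - b)]`;
* `eaddD1 : H¹_lev(B₂) → H²_lev(B₁)`, `[g ∘ x] ↦ [f⁻¹ ∘ d x]` (`x` a level 1-cochain of `B`).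
-/
import Fermat.Agent.TW.E.LESMaps

set_option autoImplicit false

noncomputable section

namespace Fermat.Agent.TW.E

open CategoryTheory groupCohomology Module Fermat.Agent.PT Fermat.Agent.PT.F Fermat.Agent.TW.F

section Conn

variable {p : ℕ} [Fact p.Prime] {G : Type} [Group G] {𝒯 : Tower G}
  {B₁ B B₂ : Rep.{0} (ZMod p) G} (f : B₁ ⟶ B) (g : B ⟶ B₂)

/-- a linear retraction of the injective map `f` -/
def eaddRetr (hf : Function.Injective f.hom) : B.V →ₗ[ZMod p] B₁.V :=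
  Classical.choose (LinearMap.exists_leftInverse_of_injective f.hom.toLinearMap
    (LinearMap.ker_eq_bot.2 hf))

theorem eaddRetr_apply (hf : Function.Injective f.hom) (b₁ : B₁.V) :
    eaddRetr f hf (f.hom b₁) = b₁ := by
  have := Classical.choose_spec (LinearMap.exists_leftInverse_of_injective f.hom.toLinearMap
    (LinearMap.ker_eq_bot.2 hf))
  exact LinearMap.congr_fun this b₁

variable {f g} in
theorem eaddRetr_spec (hf : Function.Injective f.hom) (hex : Function.Exact f.hom g.hom)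
    (b : B.V) (hb : g.hom b = 0) : f.hom (eaddRetr f hf b) = b := by
  obtain ⟨b₁, rfl⟩ := (hex b).1 hb
  rw [eaddRetr_apply]

/-- a linear section of the surjective map `g` -/
def eaddSec (hg : Function.Surjective g.hom) : B₂.V →ₗ[ZMod p] B.V :=
  Classical.choose (LinearMap.exists_rightInverse_of_surjective g.hom.toLinearMap
    (LinearMap.range_eq_top.2 hg))

theorem eaddSec_apply (hg : Function.Surjective g.hom) (b₂ : B₂.V) :
    g.hom (eaddSec g hg b₂) = b₂ := by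
  have := Classical.choose_spec (LinearMap.exists_rightInverse_of_surjective g.hom.toLinearMap
    (LinearMap.range_eq_top.2 hg))
  exact LinearMap.congr_fun this b₂

variable {f g} in
theorem eadd_gf (hex : Function.Exact f.hom g.hom) (b₁ : B₁.V) : g.hom (f.hom b₁) = 0 :=
  (hex _).2 ⟨b₁, rfl⟩

/-! ### `δ⁰` -/

/-- elements of `B` with `G`-invariant image in `B₂` -/
def eaddX0 : Submodule (ZMod p) B.V := (B₂.ρ.invariants).comap g.hom.toLinearMap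

theorem mem_eaddX0 (b : B.V) : b ∈ eaddX0 g ↔ ∀ s : G, B₂.ρ s (g.hom b) = g.hom b := Iff.rfl

/-- `X⁰ → H⁰(B₂)` -/
def eaddA0 : ↥(eaddX0 g) →ₗ[ZMod p] ↥(B₂.ρ.invariants) :=
  g.hom.toLinearMap.restrict (p := eaddX0 g) (q := B₂.ρ.invariants) (fun _ hb => hb)

theorem eaddA0_val (b : ↥(eaddX0 g)) :
    ((eaddA0 g b : ↥(B₂.ρ.invariants)) : B₂.V) = g.hom (b : B.V) := rfl

theorem eaddA0_surjective (hg : Function.Surjective g.hom) : Function.Surjective (eaddA0 g) := by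
  rintro ⟨b₂, hb₂⟩
  obtain ⟨b, rfl⟩ := hg b₂
  exact ⟨⟨b, hb₂⟩, Subtype.ext rfl⟩

variable {g} in
/-- for `b ∈ X⁰`, `d b` has values in `ker g` -/
theorem eadd_g_d01 (b : B.V) (hb : b ∈ eaddX0 g) (σ : G) : g.hom ((d₀₁ B).hom b σ) = 0 := by
  rw [eadd_push_d01, d₀₁_hom_apply, (mem_eaddX0 g b).1 hb σ, sub_self]

variable {f g} in
theorem eadd_f_retr_d01 (hf : Function.Injective f.hom) (hex : Function.Exact f.hom g.hom)
    (b : B.V) (hb : b ∈ eaddX0 g) (σ : G) :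
    f.hom (eaddRetr f hf ((d₀₁ B).hom b σ)) = (d₀₁ B).hom b σ :=
  eaddRetr_spec hf hex _ (eadd_g_d01 b hb σ)

/-- `X⁰ → Z¹_lev(B₁)`, `b ↦ f⁻¹ ∘ d b` -/
def eaddB0 (hf : Function.Injective f.hom) (hex : Function.Exact f.hom g.hom)
    (hB : TrivOnLevel 𝒯 B) : ↥(eaddX0 g) →ₗ[ZMod p] ↥(eaddZ1 𝒯 B₁) :=
  LinearMap.codRestrict (eaddZ1 𝒯 B₁)
    ((LinearMap.compLeft (eaddRetr f hf) G) ∘ₗ (d₀₁ B).hom ∘ₗ (eaddX0 g).subtype)
    (fun b => by
      refine ⟨eadd_cocycle₁_of_push f hf _ ?_, (eadd_isLevel_d01 hB b.1).comp _⟩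
      have : (fun σ => f.hom (eaddRetr f hf ((d₀₁ B).hom b.1 σ))) = (d₀₁ B).hom b.1 :=
        funext fun σ => eadd_f_retr_d01 hf hex b.1 b.2 σ
      show (fun σ => f.hom (eaddRetr f hf ((d₀₁ B).hom b.1 σ))) ∈ cocycles₁ B
      rw [this]
      exact d₀₁_apply_mem_cocycles₁ _)

theorem eaddB0_apply (hf : Function.Injective f.hom) (hex : Function.Exact f.hom g.hom)
    (hB : TrivOnLevel 𝒯 B) (b : ↥(eaddX0 g)) (σ : G) :
    ((eaddB0 f g hf hex hB b : ↥(eaddZ1 𝒯 B₁)) : G → B₁.V) σ =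
      eaddRetr f hf ((d₀₁ B).hom (b : B.V) σ) := rfl

theorem eadd_f_B0 (hf : Function.Injective f.hom) (hex : Function.Exact f.hom g.hom)
    (hB : TrivOnLevel 𝒯 B) (b : ↥(eaddX0 g)) (σ : G) :
    f.hom (((eaddB0 f g hf hex hB b : ↥(eaddZ1 𝒯 B₁)) : G → B₁.V) σ) =
      (d₀₁ B).hom (b : B.V) σ := by
  rw [eaddB0_apply]
  exact eadd_f_retr_d01 hf hex b.1 b.2 σ

/-- **the connecting map** `δ⁰ : H⁰(B₂) → H¹_lev(B₁)` -/
def eaddD0 (hf : Function.Injective f.hom) (hg : Function.Surjective g.hom)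
    (hex : Function.Exact f.hom g.hom) (hB : TrivOnLevel 𝒯 B) :
    ↥(B₂.ρ.invariants) →ₗ[ZMod p] ↥(levH1 𝒯 B₁) :=
  eaddLift (eaddA0 g) (eaddCls1 𝒯 B₁ ∘ₗ eaddB0 f g hf hex hB) (eaddA0_surjective g hg)
    (fun b hb => by
      rw [LinearMap.comp_apply, eaddCls1_eq_zero_iff]
      have hb0 : g.hom (b : B.V) = 0 := by
        have := congrArg Subtype.val hb
        rwa [eaddA0_val] at this
      obtain ⟨b₁, hb₁⟩ := (hex _).1 hb0
      refine ⟨b₁, ?_⟩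
      funext σ
      apply hf
      rw [eadd_f_B0, eadd_push_d01, hb₁])

theorem eaddD0_apply (hf : Function.Injective f.hom) (hg : Function.Surjective g.hom)
    (hex : Function.Exact f.hom g.hom) (hB : TrivOnLevel 𝒯 B) (b : ↥(eaddX0 g)) :
    eaddD0 f g hf hg hex hB (eaddA0 g b) = eaddCls1 𝒯 B₁ (eaddB0 f g hf hex hB b) :=
  eaddLift_apply _ _ _ _ b

/-! ### `δ¹` -/

variable (𝒯) in
/-- level 1-cochains `x` of `B` such that `g ∘ x` is a cocycle -/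
def eaddX1 : Submodule (ZMod p) (G → B.V) :=
  levCochains₁ 𝒯 B ⊓ (cocycles₁ B₂).comap (LinearMap.compLeft g.hom.toLinearMap G)

theorem mem_eaddX1 (x : G → B.V) :
    x ∈ eaddX1 𝒯 g ↔ IsLevel₁ 𝒯 x ∧ (fun σ => g.hom (x σ)) ∈ cocycles₁ B₂ := Iff.rfl

/-- `X¹ → Z¹_lev(B₂)`, `x ↦ g ∘ x` -/
def eaddA1pre : ↥(eaddX1 𝒯 g) →ₗ[ZMod p] ↥(eaddZ1 𝒯 B₂) :=
  (LinearMap.compLeft g.hom.toLinearMap G).restrict (p := eaddX1 𝒯 g) (q := eaddZ1 𝒯 B₂)
    (fun _ hx => ⟨hx.2, hx.1.comp _⟩)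

theorem eaddA1pre_apply (x : ↥(eaddX1 𝒯 g)) (σ : G) :
    ((eaddA1pre g x : ↥(eaddZ1 𝒯 B₂)) : G → B₂.V) σ = g.hom ((x : G → B.V) σ) := rfl

/-- `X¹ → H¹_lev(B₂)` -/
def eaddA1 : ↥(eaddX1 𝒯 g) →ₗ[ZMod p] ↥(levH1 𝒯 B₂) :=
  eaddCls1 𝒯 B₂ ∘ₗ eaddA1pre g

theorem eaddA1_surjective (hg : Function.Surjective g.hom) :
    Function.Surjective (eaddA1 (𝒯 := 𝒯) g) := by
  intro y
  obtain ⟨x₂, rfl⟩ := eaddCls1_surjective 𝒯 B₂ y
  have hfun : (fun σ => g.hom (eaddSec g hg ((x₂ : G → B₂.V) σ))) = (x₂ : G → B₂.V) :=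
    funext fun σ => eaddSec_apply g hg _
  refine ⟨⟨fun σ => eaddSec g hg ((x₂ : G → B₂.V) σ), x₂.2.2.comp _, ?_⟩, ?_⟩
  · show (fun σ => g.hom (eaddSec g hg ((x₂ : G → B₂.V) σ))) ∈ cocycles₁ B₂
    rw [hfun]
    exact x₂.2.1
  · show eaddCls1 𝒯 B₂ _ = eaddCls1 𝒯 B₂ x₂
    congr 1
    exact Subtype.ext hfun

variable {g} in
/-- for `x ∈ X¹`, `d x` has values in `ker g` -/
theorem eadd_g_d12 (x : G → B.V) (hx : x ∈ eaddX1 𝒯 g) (s : G × G) :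
    g.hom ((d₁₂ B).hom x s) = 0 := by
  rw [eadd_push_d12]
  have : (d₁₂ B₂).hom (fun σ => g.hom (x σ)) = 0 := hx.2
  rw [this]
  rfl

variable {f g} in
theorem eadd_f_retr_d12 (hf : Function.Injective f.hom) (hex : Function.Exact f.hom g.hom)
    (x : G → B.V) (hx : x ∈ eaddX1 𝒯 g) (s : G × G) :
    f.hom (eaddRetr f hf ((d₁₂ B).hom x s)) = (d₁₂ B).hom x s :=
  eaddRetr_spec hf hex _ (eadd_g_d12 x hx s)

/-- `X¹ → Z²_lev(B₁)`, `x ↦ f⁻¹ ∘ d x` -/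
def eaddB1 (hf : Function.Injective f.hom) (hex : Function.Exact f.hom g.hom)
    (hB : TrivOnLevel 𝒯 B) : ↥(eaddX1 𝒯 g) →ₗ[ZMod p] ↥(levCocycles₂ 𝒯 B₁) :=
  LinearMap.codRestrict (levCocycles₂ 𝒯 B₁)
    ((LinearMap.compLeft (eaddRetr f hf) (G × G)) ∘ₗ (d₁₂ B).hom ∘ₗ (eaddX1 𝒯 g).subtype)
    (fun x => by
      refine ⟨eadd_cocycle₂_of_push f hf _ ?_, (eadd_isLevel_d12 hB x.1 x.2.1).comp _⟩
      have : (fun s => f.hom (eaddRetr f hf ((d₁₂ B).hom x.1 s))) = (d₁₂ B).hom x.1 :=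
        funext fun s => eadd_f_retr_d12 hf hex x.1 x.2 s
      show (fun s => f.hom (eaddRetr f hf ((d₁₂ B).hom x.1 s))) ∈ cocycles₂ B
      rw [this]
      exact d₁₂_apply_mem_cocycles₂ _)

theorem eaddB1_apply (hf : Function.Injective f.hom) (hex : Function.Exact f.hom g.hom)
    (hB : TrivOnLevel 𝒯 B) (x : ↥(eaddX1 𝒯 g)) (s : G × G) :
    ((eaddB1 f g hf hex hB x : ↥(levCocycles₂ 𝒯 B₁)) : G × G → B₁.V) s =
      eaddRetr f hf ((d₁₂ B).hom (x : G → B.V) s) := rfl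

theorem eadd_f_B1 (hf : Function.Injective f.hom) (hex : Function.Exact f.hom g.hom)
    (hB : TrivOnLevel 𝒯 B) (x : ↥(eaddX1 𝒯 g)) (s : G × G) :
    f.hom (((eaddB1 f g hf hex hB x : ↥(levCocycles₂ 𝒯 B₁)) : G × G → B₁.V) s) =
      (d₁₂ B).hom (x : G → B.V) s := by
  rw [eaddB1_apply]
  exact eadd_f_retr_d12 hf hex x.1 x.2 s

/-- a level cochain with values in `ker g` comes from a level cochain of `B₁` -/
theorem eadd_exists_pull (hf : Function.Injective f.hom) (hex : Function.Exact f.hom g.hom)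
    (x : G → B.V) (hx : IsLevel₁ 𝒯 x) (hgx : ∀ σ, g.hom (x σ) = 0) :
    ∃ t : G → B₁.V, IsLevel₁ 𝒯 t ∧ ∀ σ, f.hom (t σ) = x σ :=
  ⟨fun σ => eaddRetr f hf (x σ), hx.comp _, fun σ => eaddRetr_spec hf hex _ (hgx σ)⟩

/-- **the connecting map** `δ¹ : H¹_lev(B₂) → H²_lev(B₁)` -/
def eaddD1 (hf : Function.Injective f.hom) (hg : Function.Surjective g.hom)
    (hex : Function.Exact f.hom g.hom) (hB : TrivOnLevel 𝒯 B) :
    ↥(levH1 𝒯 B₂) →ₗ[ZMod p] levH2 𝒯 B₁ :=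
  eaddLift (eaddA1 g) (levH2π 𝒯 B₁ ∘ₗ eaddB1 f g hf hex hB) (eaddA1_surjective g hg)
    (fun x hx => by
      rw [LinearMap.comp_apply, levH2π_eq_zero_iff]
      -- `g ∘ x = d b₂`, `b₂ = g b`
      obtain ⟨b₂, hb₂⟩ := (eaddCls1_eq_zero_iff 𝒯 B₂ _).1 hx
      obtain ⟨b, rfl⟩ := hg b₂
      -- `x - d b` has values in `ker g`
      have hker : ∀ σ, g.hom ((x : G → B.V) σ - (d₀₁ B).hom b σ) = 0 := by
        intro σ
        rw [map_sub, eadd_push_d01, sub_eq_zero]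
        exact (congrFun hb₂ σ).symm
      obtain ⟨t, ht, htx⟩ := eadd_exists_pull f g hf hex
        (fun σ => (x : G → B.V) σ - (d₀₁ B).hom b σ)
        (eadd_isLevel₁_sub x.2.1 (eadd_isLevel_d01 hB b)) hker
      refine (mem_levCoboundaries₂_iff 𝒯 B₁ _).2 ⟨t, ht, ?_⟩
      funext s
      apply hf
      rw [eadd_f_B1, eadd_push_d12]
      have h1 : (fun σ => f.hom (t σ)) = (x : G → B.V) - (d₀₁ B).hom b := funext htx
      rw [h1, map_sub]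
      have h2 : (d₁₂ B).hom ((d₀₁ B).hom b) = 0 :=
        LinearMap.mem_ker.1 (d₀₁_apply_mem_cocycles₁ b)
      rw [h2, sub_zero])

theorem eaddD1_apply (hf : Function.Injective f.hom) (hg : Function.Surjective g.hom)
    (hex : Function.Exact f.hom g.hom) (hB : TrivOnLevel 𝒯 B) (x : ↥(eaddX1 𝒯 g)) :
    eaddD1 f g hf hg hex hB (eaddA1 g x) = levH2π 𝒯 B₁ (eaddB1 f g hf hex hB x) :=
  eaddLift_apply _ _ _ _ x

end Conn

end Fermat.Agent.TW.E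

end
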