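/-
TW-E / A10 (helper30), part 5: exactness of the level long exact sequence
`0 → H⁰(B₁) → H⁰(B) → H⁰(B₂) → H¹(B₁) → H¹(B) → H¹(B₂) → H²(B₁) → H²(B) → H²(B₂)`
(level cohomology; `0 → B₁ →f B →g B₂ → 0` exact, `B` trivial on a level).
Every statement has the form `next y = 0 ↔ ∃ x, prev x = y`.
-/
import Fermat.Agent.TW.E.LESConn

set_option autoImplicit false

noncomputable section

namespace Fermat.Agent.TW.E

open CategoryTheory groupCohomology Module Fermat.Agent.PT Fermat.Agent.PT.F Fermat.Agent.TW.F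

section Exact

variable {p : ℕ} [Fact p.Prime] {G : Type} [Group G] {𝒯 : Tower G}
  {B₁ B B₂ : Rep.{0} (ZMod p) G} (f : B₁ ⟶ B) (g : B ⟶ B₂)
  (hf : Function.Injective f.hom) (hg : Function.Surjective g.hom)
  (hex : Function.Exact f.hom g.hom) (hB : TrivOnLevel 𝒯 B)

/-- equality of classes in `H²_lev` -/
theorem eadd_levH2π_eq {A : Rep.{0} (ZMod p) G} (x y : ↥(levCocycles₂ 𝒯 A))
    (h : (fun s => (x : G × G → A.V) s - (y : G × G → A.V) s) ∈ levCoboundaries₂ 𝒯 A) :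
    levH2π 𝒯 A x = levH2π 𝒯 A y := by
  rw [← sub_eq_zero, ← map_sub, levH2π_eq_zero_iff]
  exact h

/-- equality of classes in `H¹_lev` -/
theorem eadd_cls1_eq {A : Rep.{0} (ZMod p) G} (x y : ↥(eaddZ1 𝒯 A))
    (h : (fun σ => (x : G → A.V) σ - (y : G → A.V) σ) ∈ coboundaries₁ A) :
    eaddCls1 𝒯 A x = eaddCls1 𝒯 A y := by
  rw [← sub_eq_zero, ← map_sub, eaddCls1_eq_zero_iff]
  exact h

include hf in
/-- `H⁰(B₁) → H⁰(B)` is injective -/
theorem eadd_exact0 : Function.Injective (eaddH0 f) := by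
  intro x y h
  apply Subtype.ext
  apply hf
  have := congrArg Subtype.val h
  rwa [eaddH0_val, eaddH0_val] at this

include hf hex in
/-- exactness at `H⁰(B)` -/
theorem eadd_exact1 (y : ↥(B.ρ.invariants)) :
    eaddH0 g y = 0 ↔ ∃ x, eaddH0 f x = y := by
  constructor
  · intro h
    have h0 : g.hom (y : B.V) = 0 := by
      have := congrArg Subtype.val h
      rwa [eaddH0_val] at this
    obtain ⟨b₁, hb₁⟩ := (hex _).1 h0
    refine ⟨⟨b₁, fun s => ?_⟩, Subtype.ext hb₁⟩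
    apply hf
    rw [Rep.hom_comm_apply, hb₁]
    exact y.2 s
  · rintro ⟨x, rfl⟩
    apply Subtype.ext
    rw [eaddH0_val, eaddH0_val]
    exact eadd_gf hex _

include hf hg hex hB in
/-- exactness at `H⁰(B₂)` -/
theorem eadd_exact2 (y : ↥(B₂.ρ.invariants)) :
    eaddD0 f g hf hg hex hB y = 0 ↔ ∃ x, eaddH0 g x = y := by
  constructor
  · intro h
    obtain ⟨b, rfl⟩ := eaddA0_surjective g hg y
    rw [eaddD0_apply, eaddCls1_eq_zero_iff] at h
    obtain ⟨b₁, hb₁⟩ := h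
    have hinv : ∀ s : G, B.ρ s ((b : B.V) - f.hom b₁) = (b : B.V) - f.hom b₁ := by
      intro s
      have h1 := congrArg f.hom (congrFun hb₁ s)
      rw [eadd_f_B0, eadd_push_d01, d₀₁_hom_apply, d₀₁_hom_apply] at h1
      rw [map_sub, sub_eq_sub_iff_add_eq_add]
      rw [sub_eq_sub_iff_add_eq_add] at h1
      rw [← h1]
      exact add_comm _ _
    refine ⟨⟨(b : B.V) - f.hom b₁, hinv⟩, Subtype.ext ?_⟩
    rw [eaddH0_val, eaddA0_val]
    show g.hom ((b : B.V) - f.hom b₁) = g.hom (b : B.V)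
    rw [map_sub, eadd_gf hex, sub_zero]
  · rintro ⟨x, rfl⟩
    have hx0 : (x : B.V) ∈ eaddX0 g := fun s => by
      show B₂.ρ s (g.hom (x : B.V)) = g.hom (x : B.V)
      rw [← Rep.hom_comm_apply, x.2 s]
    have e : eaddH0 g x = eaddA0 g ⟨(x : B.V), hx0⟩ := Subtype.ext rfl
    rw [e, eaddD0_apply, eaddCls1_eq_zero_iff]
    refine ⟨0, ?_⟩
    funext σ
    rw [map_zero, eaddB0_apply]
    show (0 : G → B₁.V) σ = eaddRetr f hf ((d₀₁ B).hom (x : B.V) σ)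
    rw [d₀₁_hom_apply, x.2 σ, sub_self, map_zero]
    rfl

include hf hg hex hB in
/-- exactness at `H¹_lev(B₁)` -/
theorem eadd_exact3 (y : ↥(levH1 𝒯 B₁)) :
    eaddH1 f y = 0 ↔ ∃ x, eaddD0 f g hf hg hex hB x = y := by
  constructor
  · intro h
    obtain ⟨x₁, rfl⟩ := eaddCls1_surjective 𝒯 B₁ y
    rw [eaddH1_cls, eaddCls1_eq_zero_iff] at h
    obtain ⟨b, hb⟩ := h
    have hbσ : ∀ σ, (d₀₁ B).hom b σ = f.hom ((x₁ : G → B₁.V) σ) := fun σ => congrFun hb σ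
    have hb0 : b ∈ eaddX0 g := by
      intro s
      have h1 := congrArg g.hom (hbσ s)
      rw [eadd_gf hex, eadd_push_d01, d₀₁_hom_apply, sub_eq_zero] at h1
      exact h1
    refine ⟨eaddA0 g ⟨b, hb0⟩, ?_⟩
    rw [eaddD0_apply]
    congr 1
    apply Subtype.ext
    funext σ
    apply hf
    rw [eadd_f_B0]
    exact hbσ σ
  · rintro ⟨x, rfl⟩
    obtain ⟨b, rfl⟩ := eaddA0_surjective g hg x
    rw [eaddD0_apply, eaddH1_cls, eaddCls1_eq_zero_iff]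
    refine ⟨(b : B.V), ?_⟩
    funext σ
    rw [eaddPush1_apply, eadd_f_B0]

include hf hg hex hB in
/-- exactness at `H¹_lev(B)` -/
theorem eadd_exact4 (y : ↥(levH1 𝒯 B)) :
    eaddH1 g y = 0 ↔ ∃ x, eaddH1 f x = y := by
  constructor
  · intro h
    obtain ⟨x, rfl⟩ := eaddCls1_surjective 𝒯 B y
    rw [eaddH1_cls, eaddCls1_eq_zero_iff] at h
    obtain ⟨b₂, hb₂⟩ := h
    obtain ⟨b, rfl⟩ := hg b₂
    have hker : ∀ σ, g.hom ((x : G → B.V) σ - (d₀₁ B).hom b σ) = 0 := by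
      intro σ
      rw [map_sub, eadd_push_d01, sub_eq_zero]
      exact (congrFun hb₂ σ).symm
    obtain ⟨t, ht, htx⟩ := eadd_exists_pull f g hf hex
      (fun σ => (x : G → B.V) σ - (d₀₁ B).hom b σ)
      (eadd_isLevel₁_sub x.2.2 (eadd_isLevel_d01 hB b)) hker
    have hft : (fun σ => f.hom (t σ)) = (x : G → B.V) - (d₀₁ B).hom b := funext htx
    have htc : t ∈ cocycles₁ B₁ := by
      apply eadd_cocycle₁_of_push f hf
      rw [hft]
      exact (cocycles₁ B).sub_mem x.2.1 (d₀₁_apply_mem_cocycles₁ b)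
    refine ⟨eaddCls1 𝒯 B₁ ⟨t, htc, ht⟩, ?_⟩
    rw [eaddH1_cls]
    apply eadd_cls1_eq
    refine ⟨-b, ?_⟩
    funext σ
    rw [eaddPush1_apply]
    show _ = f.hom (t σ) - (x : G → B.V) σ
    rw [htx σ, map_neg]
    simp
  · rintro ⟨x, rfl⟩
    obtain ⟨t, rfl⟩ := eaddCls1_surjective 𝒯 B₁ x
    rw [eaddH1_cls, eaddH1_cls, eaddCls1_eq_zero_iff]
    refine ⟨0, ?_⟩
    funext σ
    rw [map_zero, eaddPush1_apply, eaddPush1_apply, eadd_gf hex]
    rfl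

include hf hg hex hB in
/-- exactness at `H¹_lev(B₂)` -/
theorem eadd_exact5 (y : ↥(levH1 𝒯 B₂)) :
    eaddD1 f g hf hg hex hB y = 0 ↔ ∃ x, eaddH1 g x = y := by
  constructor
  · intro h
    obtain ⟨x, rfl⟩ := eaddA1_surjective g hg y
    rw [eaddD1_apply, levH2π_eq_zero_iff] at h
    obtain ⟨t₁, ht₁, ht₁x⟩ := (mem_levCoboundaries₂_iff 𝒯 B₁ _).1 h
    -- `z = x - f ∘ t₁` is a level cocycle of `B`
    have hzl : IsLevel₁ 𝒯 (fun σ => (x : G → B.V) σ - f.hom (t₁ σ)) :=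
      eadd_isLevel₁_sub x.2.1 (ht₁.comp _)
    have hzc : (fun σ => (x : G → B.V) σ - f.hom (t₁ σ)) ∈ cocycles₁ B := by
      rw [cocycles₁, LinearMap.mem_ker]
      have e : (fun σ => (x : G → B.V) σ - f.hom (t₁ σ)) =
          (x : G → B.V) - (fun σ => f.hom (t₁ σ)) := rfl
      rw [e, map_sub, sub_eq_zero]
      funext s
      rw [← eadd_push_d12, ht₁x, eadd_f_B1]
    refine ⟨eaddCls1 𝒯 B ⟨_, hzc, hzl⟩, ?_⟩
    rw [eaddH1_cls]
    show _ = eaddCls1 𝒯 B₂ (eaddA1pre g x)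
    congr 1
    apply Subtype.ext
    funext σ
    rw [eaddPush1_apply, eaddA1pre_apply]
    show g.hom ((x : G → B.V) σ - f.hom (t₁ σ)) = _
    rw [map_sub, eadd_gf hex, sub_zero]
  · rintro ⟨x, rfl⟩
    obtain ⟨z, rfl⟩ := eaddCls1_surjective 𝒯 B x
    have hz1 : (z : G → B.V) ∈ eaddX1 𝒯 g :=
      ⟨z.2.2, eadd_push_cocycle₁ g _ z.2.1⟩
    have e : eaddH1 g (eaddCls1 𝒯 B z) = eaddA1 g ⟨(z : G → B.V), hz1⟩ := by
      rw [eaddH1_cls]
      rfl
    rw [e, eaddD1_apply, levH2π_eq_zero_iff]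
    have hzero : ((eaddB1 f g hf hex hB ⟨(z : G → B.V), hz1⟩ : ↥(levCocycles₂ 𝒯 B₁)) :
        G × G → B₁.V) = 0 := by
      funext s
      rw [eaddB1_apply]
      have : (d₁₂ B).hom (z : G → B.V) = 0 := LinearMap.mem_ker.1 z.2.1
      show eaddRetr f hf ((d₁₂ B).hom (z : G → B.V) s) = 0
      rw [this]
      exact map_zero _
    rw [hzero]
    exact zero_mem _

include hf hg hex hB in
/-- exactness at `H²_lev(B₁)` -/
theorem eadd_exact6 (y : levH2 𝒯 B₁) :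
    eaddH2 f y = 0 ↔ ∃ x, eaddD1 f g hf hg hex hB x = y := by
  constructor
  · intro h
    obtain ⟨w₁, rfl⟩ := Submodule.mkQ_surjective _ y
    rw [eaddH2_cls, levH2π_eq_zero_iff] at h
    obtain ⟨t, ht, htw⟩ := (mem_levCoboundaries₂_iff 𝒯 B _).1 h
    have htw' : ∀ s, (d₁₂ B).hom t s = f.hom ((w₁ : G × G → B₁.V) s) := fun s => congrFun htw s
    have ht1 : t ∈ eaddX1 𝒯 g := by
      refine ⟨ht, ?_⟩
      show (fun σ => g.hom (t σ)) ∈ cocycles₁ B₂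
      rw [cocycles₁, LinearMap.mem_ker]
      funext s
      rw [← eadd_push_d12, htw' s, eadd_gf hex]
      rfl
    refine ⟨eaddA1 g ⟨t, ht1⟩, ?_⟩
    rw [eaddD1_apply]
    show levH2π 𝒯 B₁ _ = levH2π 𝒯 B₁ w₁
    congr 1
    apply Subtype.ext
    funext s
    apply hf
    rw [eadd_f_B1]
    exact htw' s
  · rintro ⟨x, rfl⟩
    obtain ⟨t, rfl⟩ := eaddA1_surjective g hg x
    rw [eaddD1_apply, eaddH2_cls, levH2π_eq_zero_iff]
    refine (mem_levCoboundaries₂_iff 𝒯 B _).2 ⟨(t : G → B.V), t.2.1, ?_⟩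
    funext s
    rw [eaddPush2_apply, eadd_f_B1]

include hf hg hex hB in
/-- exactness at `H²_lev(B)` -/
theorem eadd_exact7 (y : levH2 𝒯 B) :
    eaddH2 g y = 0 ↔ ∃ x, eaddH2 f x = y := by
  constructor
  · intro h
    obtain ⟨w, rfl⟩ := Submodule.mkQ_surjective _ y
    rw [eaddH2_cls, levH2π_eq_zero_iff] at h
    obtain ⟨t₂, ht₂, ht₂w⟩ := (mem_levCoboundaries₂_iff 𝒯 B₂ _).1 h
    -- lift `t₂` to a level cochain of `B`
    let t : G → B.V := fun σ => eaddSec g hg (t₂ σ)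
    have htl : IsLevel₁ 𝒯 t := ht₂.comp _
    have hgt : (fun σ => g.hom (t σ)) = t₂ := funext fun σ => eaddSec_apply g hg _
    have hdl : IsLevel₂ 𝒯 (fun s => (w : G × G → B.V) s - (d₁₂ B).hom t s) :=
      eadd_isLevel₂_sub w.2.2 (eadd_isLevel_d12 hB t htl)
    have hker : ∀ s, g.hom ((w : G × G → B.V) s - (d₁₂ B).hom t s) = 0 := by
      intro s
      rw [map_sub, eadd_push_d12, hgt, ht₂w, sub_eq_zero]
      rfl
    let w₁ : G × G → B₁.V := fun s => eaddRetr f hf ((w : G × G → B.V) s - (d₁₂ B).hom t s)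
    have hfw₁ : ∀ s, f.hom (w₁ s) = (w : G × G → B.V) s - (d₁₂ B).hom t s :=
      fun s => eaddRetr_spec hf hex _ (hker s)
    have hw₁c : w₁ ∈ cocycles₂ B₁ := by
      apply eadd_cocycle₂_of_push f hf
      have e : (fun s => f.hom (w₁ s)) = (w : G × G → B.V) - (d₁₂ B).hom t := funext hfw₁
      rw [e]
      exact (cocycles₂ B).sub_mem w.2.1 (d₁₂_apply_mem_cocycles₂ t)
    have hw₁l : IsLevel₂ 𝒯 w₁ := hdl.comp _
    refine ⟨levH2π 𝒯 B₁ ⟨w₁, hw₁c, hw₁l⟩, ?_⟩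
    rw [eaddH2_cls]
    apply eadd_levH2π_eq
    refine (mem_levCoboundaries₂_iff 𝒯 B _).2 ⟨fun σ => -t σ, htl.comp (fun v => -v), ?_⟩
    funext s
    rw [eaddPush2_apply]
    show _ = f.hom (w₁ s) - (w : G × G → B.V) s
    rw [hfw₁ s]
    have e : (fun σ => -t σ) = -t := rfl
    rw [e, map_neg]
    simp
  · rintro ⟨x, rfl⟩
    obtain ⟨w₁, rfl⟩ := Submodule.mkQ_surjective _ x
    rw [eaddH2_cls, eaddH2_cls, levH2π_eq_zero_iff]
    have hzero : ((eaddPush2 g (eaddPush2 f w₁) : ↥(levCocycles₂ 𝒯 B₂)) : G × G → B₂.V) = 0 := by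
      funext s
      rw [eaddPush2_apply, eaddPush2_apply, eadd_gf hex]
      rfl
    rw [hzero]
    exact zero_mem _

/-- surjectivity of `H²_lev(B) → H²_lev(B₂)`, from the statement of `StmtH2Surj` -/
theorem eadd_exact8
    (hsurj : ∀ w₂ : G × G → B₂.V, w₂ ∈ levCocycles₂ 𝒯 B₂ →
      ∃ w : G × G → B.V, w ∈ levCocycles₂ 𝒯 B ∧
        (fun s => g.hom (w s)) - w₂ ∈ levCoboundaries₂ 𝒯 B₂) :
    Function.Surjective (eaddH2 (𝒯 := 𝒯) g) := by
  intro y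
  obtain ⟨w₂, rfl⟩ := Submodule.mkQ_surjective _ y
  obtain ⟨w, hw, hww⟩ := hsurj w₂.1 w₂.2
  refine ⟨levH2π 𝒯 B ⟨w, hw⟩, ?_⟩
  rw [eaddH2_cls]
  exact eadd_levH2π_eq _ _ hww

end Exact

end Fermat.Agent.TW.E

end
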