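/-
Project TW (S56) — part TW-E, block E-cyc, piece **L-fun** (helper79): the ABSTRACT core.

A `k`-linear functor `H` on `Rep k G` (given by its data `H`, `Hmap` and the four laws) commutes
with `Hom_C(N, -)`:  if `B` is "`Hom_C(N, 𝓜)`", i.e. there are morphisms `j ν : B ⟶ 𝓜` (linear in
`ν ∈ N`), `i a : 𝓜 ⟶ B` (`a` running through a basis `b` of `N`) and `R c : 𝓜 ⟶ 𝓜` (`c ∈ C`) with
  (I)   `∑ a, j (b a) ≫ i a = 𝟙 B`,
  (II)  `i a ≫ j ν = |C|⁻¹ • ∑ c, coord_a (c⁻¹ ⋆ ν) • R c`,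
  (III) `j (c ⋆ ν) = j ν ≫ R c`,
then `x ↦ (ν ↦ H (j ν) x)` is an isomorphism of `H B` onto
`{Λ : N → H 𝓜 | Λ (c ⋆ ν) = H (R c) (Λ ν)}`.
-/
import Mathlib

set_option autoImplicit false

noncomputable section

namespace Fermat.Agent.TW.E

open CategoryTheory Module

section Abstract

variable {k : Type} [Field k] {G : Type} [Group G]
  (H : Rep.{0} k G → Type) [∀ A, AddCommGroup (H A)] [∀ A, Module k (H A)]
  (Hmap : ∀ {A A' : Rep.{0} k G}, (A ⟶ A') → H A →ₗ[k] H A')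

include Hmap in
lemma lfun_map_zero
    (hsmul : ∀ {A A' : Rep.{0} k G} (a : k) (f : A ⟶ A'), Hmap (a • f) = a • Hmap f)
    (A A' : Rep.{0} k G) : Hmap (0 : A ⟶ A') = 0 := by
  have h := hsmul (0 : k) (0 : A ⟶ A')
  rw [zero_smul, zero_smul] at h
  exact h

lemma lfun_map_sum
    (hadd : ∀ {A A' : Rep.{0} k G} (f g : A ⟶ A'), Hmap (f + g) = Hmap f + Hmap g)
    (hsmul : ∀ {A A' : Rep.{0} k G} (a : k) (f : A ⟶ A'), Hmap (a • f) = a • Hmap f)
    {A A' : Rep.{0} k G} {ι : Type} (s : Finset ι) (f : ι → (A ⟶ A')) :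
    Hmap (∑ c ∈ s, f c) = ∑ c ∈ s, Hmap (f c) := by
  classical
  induction s using Finset.induction_on with
  | empty => rw [Finset.sum_empty, Finset.sum_empty, lfun_map_zero H Hmap hsmul]
  | insert a s ha ih => rw [Finset.sum_insert ha, Finset.sum_insert ha, hadd, ih]

/-- the map `x ↦ (ν ↦ H (j ν) x)` -/
def lfunPhi
    (hadd : ∀ {A A' : Rep.{0} k G} (f g : A ⟶ A'), Hmap (f + g) = Hmap f + Hmap g)
    (hsmul : ∀ {A A' : Rep.{0} k G} (a : k) (f : A ⟶ A'), Hmap (a • f) = a • Hmap f)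
    {B 𝓜 : Rep.{0} k G} {N : Type} [AddCommGroup N] [Module k N]
    (j : N → (B ⟶ 𝓜)) (hjadd : ∀ ν ν', j (ν + ν') = j ν + j ν')
    (hjsmul : ∀ (a : k) ν, j (a • ν) = a • j ν) : H B →ₗ[k] (N →ₗ[k] H 𝓜) where
  toFun x :=
    { toFun := fun ν => Hmap (j ν) x
      map_add' := fun ν ν' => by rw [hjadd, hadd, LinearMap.add_apply]
      map_smul' := fun a ν => by rw [hjsmul, hsmul, LinearMap.smul_apply, RingHom.id_apply] }
  map_add' x y := by
    ext ν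
    simp only [LinearMap.coe_mk, AddHom.coe_mk, map_add, LinearMap.add_apply]
  map_smul' a x := by
    ext ν
    simp only [LinearMap.coe_mk, AddHom.coe_mk, map_smul, LinearMap.smul_apply, RingHom.id_apply]

lemma lfunPhi_apply
    (hadd : ∀ {A A' : Rep.{0} k G} (f g : A ⟶ A'), Hmap (f + g) = Hmap f + Hmap g)
    (hsmul : ∀ {A A' : Rep.{0} k G} (a : k) (f : A ⟶ A'), Hmap (a • f) = a • Hmap f)
    {B 𝓜 : Rep.{0} k G} {N : Type} [AddCommGroup N] [Module k N]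
    (j : N → (B ⟶ 𝓜)) (hjadd : ∀ ν ν', j (ν + ν') = j ν + j ν')
    (hjsmul : ∀ (a : k) ν, j (a • ν) = a • j ν) (x : H B) (ν : N) :
    lfunPhi H Hmap hadd hsmul j hjadd hjsmul x ν = Hmap (j ν) x := rfl

/-- **The abstract link theorem.** -/
theorem lfun_abstract
    (hid : ∀ A : Rep.{0} k G, Hmap (𝟙 A) = LinearMap.id)
    (hcomp : ∀ {A A' A'' : Rep.{0} k G} (f : A ⟶ A') (g : A' ⟶ A''),
      Hmap (f ≫ g) = (Hmap g).comp (Hmap f))
    (hadd : ∀ {A A' : Rep.{0} k G} (f g : A ⟶ A'), Hmap (f + g) = Hmap f + Hmap g)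
    (hsmul : ∀ {A A' : Rep.{0} k G} (a : k) (f : A ⟶ A'), Hmap (a • f) = a • Hmap f)
    {B 𝓜 : Rep.{0} k G} {C : Type} [Group C] [Fintype C] (hC : (Fintype.card C : k) ≠ 0)
    {N : Type} [AddCommGroup N] [Module k N] (ρN : Representation k C N)
    (R : C → (𝓜 ⟶ 𝓜)) (hR1 : R 1 = 𝟙 𝓜) (hRmul : ∀ c c', R (c * c') = R c' ≫ R c)
    (j : N → (B ⟶ 𝓜)) (hjadd : ∀ ν ν', j (ν + ν') = j ν + j ν')
    (hjsmul : ∀ (a : k) ν, j (a • ν) = a • j ν)
    {ι : Type} [Fintype ι] (b : Basis ι k N) (i : ι → (𝓜 ⟶ B))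
    (hI : ∑ a, j (b a) ≫ i a = 𝟙 B)
    (hII : ∀ a ν, i a ≫ j ν =
      (Fintype.card C : k)⁻¹ • ∑ c : C, (b.coord a (ρN c⁻¹ ν)) • R c)
    (hIII : ∀ c ν, j (ρN c ν) = j ν ≫ R c) :
    Function.Injective (lfunPhi H Hmap hadd hsmul j hjadd hjsmul) ∧
      ∀ Λ : N →ₗ[k] H 𝓜, Λ ∈ LinearMap.range (lfunPhi H Hmap hadd hsmul j hjadd hjsmul) ↔
        ∀ c ν, Λ (ρN c ν) = Hmap (R c) (Λ ν) := by
  classical
  have hsum := @lfun_map_sum k _ G _ H _ _ @Hmap @hadd @hsmul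
  refine ⟨?_, fun Λ => ⟨?_, ?_⟩⟩
  · -- injectivity
    rw [injective_iff_map_eq_zero]
    intro x hx
    have h1 : ∀ ν, Hmap (j ν) x = 0 := fun ν => by
      rw [← lfunPhi_apply H Hmap hadd hsmul j hjadd hjsmul, hx, LinearMap.zero_apply]
    have h2 : x = Hmap (∑ a, j (b a) ≫ i a) x := by rw [hI, hid, LinearMap.id_apply]
    rw [h2, hsum, LinearMap.sum_apply]
    refine Finset.sum_eq_zero (fun a _ => ?_)
    rw [hcomp, LinearMap.comp_apply, h1, map_zero]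
  · rintro ⟨x, rfl⟩ c ν
    rw [lfunPhi_apply, lfunPhi_apply, hIII, hcomp, LinearMap.comp_apply]
  · intro hΛ
    refine ⟨∑ a, Hmap (i a) (Λ (b a)), ?_⟩
    ext ν
    rw [lfunPhi_apply, map_sum]
    have h1 : ∀ a, Hmap (j ν) (Hmap (i a) (Λ (b a))) =
        (Fintype.card C : k)⁻¹ • ∑ c : C, Hmap (R c) ((b.coord a (ρN c⁻¹ ν)) • Λ (b a)) := by
      intro a
      rw [← LinearMap.comp_apply, ← hcomp, hII, hsmul, hsum, LinearMap.smul_apply,
        LinearMap.sum_apply]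
      congr 1
      refine Finset.sum_congr rfl (fun c _ => ?_)
      rw [hsmul, LinearMap.smul_apply, map_smul]
    rw [Finset.sum_congr rfl (fun a _ => h1 a), ← Finset.smul_sum, Finset.sum_comm]
    have h2 : ∀ c : C, ∑ a, Hmap (R c) ((b.coord a (ρN c⁻¹ ν)) • Λ (b a)) = Λ ν := by
      intro c
      rw [← map_sum]
      have h3 : ∑ a, (b.coord a (ρN c⁻¹ ν)) • Λ (b a) = Λ (ρN c⁻¹ ν) := by
        conv_rhs => rw [← b.sum_repr (ρN c⁻¹ ν)]
        rw [map_sum]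
        refine Finset.sum_congr rfl (fun a _ => ?_)
        rw [map_smul, Basis.coord_apply]
      rw [h3, hΛ, ← LinearMap.comp_apply, ← hcomp, ← hRmul, mul_inv_cancel, hR1, hid,
        LinearMap.id_apply]
    rw [Finset.sum_congr rfl (fun c _ => h2 c), Finset.sum_const, Finset.card_univ,
      ← Nat.cast_smul_eq_nsmul k, smul_smul, inv_mul_cancel₀ hC, one_smul]

end Abstract

end Fermat.Agent.TW.E

end
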