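/-
Project TW (S56) — part TW-E, block E-cyc, piece **K-units** (helper48): INTERFACE FILE.
Target: `StmtUnitsCyc` (Plan2.lean) = Dirichlet's `S`-unit theorem in group-theoretic form.

Notation: `U = Gal(ℚ̄/L)` a normal level of `towerS S`, `Γ = G_ℚ ⧸ U`, `H ≤ Γ`, `V` the preimage of
`H` in `G_ℚ`, `F = ℚ̄^V` (a subfield of `L`, unramified outside `S`, `Gal(ℚ̄/F) = V`).

* **FIX** (`StmtUcycFix`): `(E_S^U)^H ≃ 𝒪_{F,S}^× = nUnits (sProd S) F` (by `stmtUnitsS`);
  hence `rank (E^U)^H = r_F + #{P ∣ sProd S}` (`stmtUnitRank`).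
* **INF** (`StmtUcycInf`): the infinite places of `F` are the places `g ↦ |ι_ℂ (g⁻¹ x)|`,
  `g ∈ G_ℚ`, and two of them agree iff `g' ∈ Gal(ℚ̄/F) g ⟨c⟩`.
* **FIN** (`StmtUcycFin`): the primes of `𝓞 F` over `q` are the traces of the places
  `g • padicPlace q`, and two of them agree iff `g' ∈ Gal(ℚ̄/F) g D_q`,
  `D_q = range (localGaloisToGlobal q)`.
* **ABS** (`UnitsCycAbs.lean`): counting of double cosets and of orbits on a disjoint union.
* assembly (`UnitsCyc.lean`): `stmtUnitsCyc_of : StmtUcycFix → StmtUcycInf → StmtUcycFin →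
  StmtUnitsCyc`.
-/
import Fermat.Agent.TW.E.Plan2
import Fermat.Agent.TW.ChebPrime

set_option autoImplicit false
set_option linter.unusedSectionVars false

noncomputable section

namespace Fermat.Agent.TW.E

open CategoryTheory NumberField Fermat.Agent.PT Fermat.Agent.PT.B Fermat.Agent.PT.G
  Fermat.Agent.PT.G1 ExtCitation
open scoped Pointwise

/-- the complex embedding `x ↦ ι_ℂ (g⁻¹ x)` of `F ⊆ ℚ̄` attached to `g ∈ G_ℚ` -/
def ucycEmb (F : QbarField) (g : GQ) : ↥F →+* ℂ :=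
  (complexEmbedding.toRingHom.comp
    (((g⁻¹ : GQ) : AlgebraicClosure ℚ ≃ₐ[ℚ] AlgebraicClosure ℚ) :
      AlgebraicClosure ℚ →+* AlgebraicClosure ℚ)).comp (algebraMap ↥F (AlgebraicClosure ℚ))

@[simp] lemma ucycEmb_apply (F : QbarField) (g : GQ) (x : ↥F) :
    ucycEmb F g x = complexEmbedding ((g⁻¹ : GQ) (x : AlgebraicClosure ℚ)) := rfl

/-- the infinite place `x ↦ |ι_ℂ (g⁻¹ x)|` of `F ⊆ ℚ̄` attached to `g ∈ G_ℚ` -/
def ucycInfPl (F : QbarField) (g : GQ) : InfinitePlace ↥F := InfinitePlace.mk (ucycEmb F g)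

/-- the prime of `𝓞 F` below the place `g • padicPlace q` of `ℚ̄` -/
def ucycFinPl (q : ℕ) [Fact q.Prime] (F : QbarField) (g : GQ) : Ideal (𝓞 ↥F) :=
  Fermat.Agent.TW.twcPrime F (g • padicPlace q)

/-- **K-units/FIX.** The `H`-invariants of the `S`-units of the level `U` are the `S`-units of
the fixed field of the preimage of `H`. -/
def StmtUcycFix : Prop :=
  ∀ (S : Finset Nat.Primes) (U : Subgroup GQ) [U.Normal], U ∈ (towerS S).lev →
    ∀ H : Subgroup (GQ ⧸ U),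
      Nonempty (↥(fixedSub ((ERep S).quotientToInvariants U) H) ≃+
        Additive ↥(nUnits (sProd S)
          ↥(IntermediateField.fixedField (H.comap (QuotientGroup.mk' U)))))

/-- **K-units/INF.** The infinite places of `F` are the `ucycInfPl F g`; two of them agree iff
`g' ∈ Gal(ℚ̄/F) g ⟨c⟩`. -/
def StmtUcycInf : Prop :=
  ∀ (F : QbarField) [NumberField ↥F],
    (∀ w : InfinitePlace ↥F, ∃ g : GQ, ucycInfPl F g = w) ∧
    ∀ g g' : GQ, ucycInfPl F g = ucycInfPl F g' ↔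
      ∃ v ∈ F.fixingSubgroup, ∃ d ∈ Subgroup.zpowers (complexConjugation : GQ), g' = v * g * d

/-- **K-units/FIN.** The primes of `𝓞 F` over `q` are the `ucycFinPl q F g`; two of them agree iff
`g' ∈ Gal(ℚ̄/F) g D_q`. -/
def StmtUcycFin : Prop :=
  ∀ (q : ℕ) [Fact q.Prime] (F : QbarField) [NumberField ↥F],
    (∀ g : GQ, (ucycFinPl q F g).IsPrime ∧ (q : 𝓞 ↥F) ∈ ucycFinPl q F g) ∧
    (∀ P : Ideal (𝓞 ↥F), P.IsPrime → (q : 𝓞 ↥F) ∈ P → ∃ g : GQ, ucycFinPl q F g = P) ∧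
    ∀ g g' : GQ, ucycFinPl q F g = ucycFinPl q F g' ↔
      ∃ v ∈ F.fixingSubgroup, ∃ d ∈ (localGaloisToGlobal q).range, g' = v * g * d

/-- **K-units/TR** (used for FIN): the trace on `F` of a valuation subring of `ℚ̄` is determined
by the prime of `𝓞 F` below it (`𝓞 F` is a Dedekind domain). -/
def StmtUcycTrace : Prop :=
  ∀ (F : QbarField) [NumberField ↥F] (A A' : ValuationSubring (AlgebraicClosure ℚ)),
    Fermat.Agent.TW.twcPrime F A ≠ ⊥ →
    Fermat.Agent.TW.twcPrime F A = Fermat.Agent.TW.twcPrime F A' →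
    ∀ x ∈ F, x ∈ A ↔ x ∈ A'

end Fermat.Agent.TW.E

end
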