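/-
Project TW (S56) — part TW-E, block E-cyc, piece **K-units/TR** (helper82).

`stmtUcycTrace : StmtUcycTrace`: the trace on a number field `F ⊆ ℚ̄` of a valuation subring `A`
of `ℚ̄` is determined by the prime `twcPrime F A` of `𝓞 F` below it, when this prime is nonzero.

Proof: `𝓞 F` is a Dedekind domain, so every `x ∈ F` is `n / d` or `d / n` with `n, d ∈ 𝓞 F`,
`d ∉ P` (`exists_primeCompl_mul_eq_or_mul_eq`).  The elements of `𝓞 F` outside `P` are units of
`A` and of `A'`; in the second case `x ∈ A` forces `n ∉ P`.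
-/
import Fermat.Agent.TW.E.UnitsCycPlan

set_option autoImplicit false

noncomputable section

namespace Fermat.Agent.TW.E

open NumberField Fermat.Agent.TW Fermat.Agent.PT.B

/-- the valuation of an integer of `F` is at most one -/
theorem ucyctr_val_le_one (F : QbarField) (A : ValuationSubring (AlgebraicClosure ℚ))
    (z : 𝓞 ↥F) : A.valuation (Cheb.intEmb F z) ≤ 1 :=
  (A.valuation_le_one_iff _).2 (Cheb.intEmb_mem F A z)

/-- the valuation of an integer of `F` outside the prime below `A` is one -/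
theorem ucyctr_val_eq_one_iff (F : QbarField) (A : ValuationSubring (AlgebraicClosure ℚ))
    (z : 𝓞 ↥F) : A.valuation (Cheb.intEmb F z) = 1 ↔ z ∉ twcPrime F A := by
  rw [twc_mem_prime, ValuationSubring.mem_nonunits_iff]
  constructor
  · intro h
    rw [h]
    exact lt_irrefl _
  · intro h
    exact le_antisymm (ucyctr_val_le_one F A z) (not_lt.1 h)

/-- one direction of `StmtUcycTrace` -/
theorem ucyctr_mem_of_mem (F : QbarField) [NumberField ↥F]
    (A A' : ValuationSubring (AlgebraicClosure ℚ)) (hne : twcPrime F A ≠ ⊥)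
    (h : twcPrime F A = twcPrime F A') (x : AlgebraicClosure ℚ) (hxF : x ∈ F) (hxA : x ∈ A) :
    x ∈ A' := by
  let v : IsDedekindDomain.HeightOneSpectrum (𝓞 ↥F) := ⟨twcPrime F A, inferInstance, hne⟩
  obtain ⟨n, d, hnd⟩ := v.exists_primeCompl_mul_eq_or_mul_eq (K := ↥F) ⟨x, hxF⟩
  have hd : (d : 𝓞 ↥F) ∉ twcPrime F A := d.2
  have hdA : A.valuation (Cheb.intEmb F d) = 1 := (ucyctr_val_eq_one_iff F A d).2 hd
  have hdA' : A'.valuation (Cheb.intEmb F d) = 1 := (ucyctr_val_eq_one_iff F A' d).2 (h ▸ hd)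
  rw [← A'.valuation_le_one_iff]
  rcases hnd with hnd | hnd
  · have h1 : x * Cheb.intEmb F d = Cheb.intEmb F n := congrArg Subtype.val hnd
    have h2 := congrArg A'.valuation h1
    rw [map_mul, hdA', mul_one] at h2
    rw [h2]
    exact ucyctr_val_le_one F A' n
  · have h1 : x * Cheb.intEmb F n = Cheb.intEmb F d := congrArg Subtype.val hnd
    have h2 := congrArg A.valuation h1
    rw [map_mul, hdA] at h2
    have hxA1 : A.valuation x ≤ 1 := (A.valuation_le_one_iff _).2 hxA
    have hnA : A.valuation (Cheb.intEmb F n) = 1 := by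
      refine le_antisymm (ucyctr_val_le_one F A n) ?_
      calc (1 : A.ValueGroup) = A.valuation x * A.valuation (Cheb.intEmb F n) := h2.symm
        _ ≤ 1 * A.valuation (Cheb.intEmb F n) := mul_le_mul_left hxA1 _
        _ = A.valuation (Cheb.intEmb F n) := one_mul _
    have hn : n ∉ twcPrime F A := (ucyctr_val_eq_one_iff F A n).1 hnA
    have hnA' : A'.valuation (Cheb.intEmb F n) = 1 := (ucyctr_val_eq_one_iff F A' n).2 (h ▸ hn)
    have h3 := congrArg A'.valuation h1
    rw [map_mul, hdA', hnA', mul_one] at h3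
    exact h3.le

/-- **K-units/TR.** -/
theorem stmtUcycTrace : StmtUcycTrace := by
  intro F _ A A' hne h x hxF
  exact ⟨ucyctr_mem_of_mem F A A' hne h x hxF,
    ucyctr_mem_of_mem F A' A (h ▸ hne) h.symm x hxF⟩

end Fermat.Agent.TW.E
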