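/-
Project TW (S56) — part TW-E, block E-cyc, piece **K-units/ABS** (helper48): counting lemmas
(Mathlib only).

* `ucyc_card_eq_of_surj`: two surjections with the same fibres have equinumerous targets;
* `ucyc_card_orbits`: if `Φ : G → X` is onto with fibres the double cosets `V g D`
  (`V` the preimage of `H ≤ G ⧸ U`), then `#X = #(H \ (G ⧸ U) ⧸ D̄)`;
* `ucyc_card_sigma_orbits`: the orbits on a disjoint union.
-/
import Mathlib

set_option autoImplicit false

namespace Fermat.Agent.TW.E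

/-- Two surjections with the same fibres have equinumerous targets. -/
theorem ucyc_card_eq_of_surj {G X Y : Type*} (f : G → X) (h : G → Y)
    (hf : Function.Surjective f) (hh : Function.Surjective h)
    (hiff : ∀ a b, f a = f b ↔ h a = h b) : Nat.card X = Nat.card Y := by
  refine Nat.card_congr (Equiv.ofBijective (fun x => h (Function.surjInv hf x)) ⟨?_, ?_⟩)
  · intro x x' hxx
    have h1 := (hiff _ _).2 hxx
    rwa [Function.surjInv_eq hf, Function.surjInv_eq hf] at h1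
  · intro y
    obtain ⟨g, rfl⟩ := hh y
    refine ⟨f g, ?_⟩
    exact (hiff _ _).1 (Function.surjInv_eq hf (f g))

/-- **Counting double cosets.** -/
theorem ucyc_card_orbits {G : Type*} [Group G] (U : Subgroup G) [U.Normal]
    (H : Subgroup (G ⧸ U)) (D : Subgroup G) {X : Type*} (Φ : G → X)
    (hsurj : Function.Surjective Φ)
    (hiff : ∀ g g' : G, Φ g = Φ g' ↔
      ∃ v ∈ H.comap (QuotientGroup.mk' U), ∃ d ∈ D, g' = v * g * d) :
    Nat.card X =
      Nat.card (MulAction.orbitRel.Quotient H ((G ⧸ U) ⧸ D.map (QuotientGroup.mk' U))) := by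
  let π : G → MulAction.orbitRel.Quotient H ((G ⧸ U) ⧸ D.map (QuotientGroup.mk' U)) :=
    fun g => Quotient.mk'' (QuotientGroup.mk (QuotientGroup.mk g : G ⧸ U))
  have hπ : Function.Surjective π := by
    intro y
    induction y using Quotient.inductionOn' with
    | h a =>
      obtain ⟨b, rfl⟩ := QuotientGroup.mk_surjective a
      obtain ⟨g, rfl⟩ := QuotientGroup.mk_surjective b
      exact ⟨g, rfl⟩
  refine ucyc_card_eq_of_surj Φ π hsurj hπ fun g g' => ?_
  rw [hiff]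
  show _ ↔ (Quotient.mk'' _ : MulAction.orbitRel.Quotient H _) = Quotient.mk'' _
  rw [Quotient.eq'']
  show _ ↔ MulAction.orbitRel H _ _ _
  rw [MulAction.orbitRel_apply, MulAction.mem_orbit_iff]
  constructor
  · rintro ⟨v, hv, d, hd, rfl⟩
    refine ⟨⟨(QuotientGroup.mk v : G ⧸ U)⁻¹, H.inv_mem hv⟩, ?_⟩
    show ((QuotientGroup.mk v : G ⧸ U)⁻¹ • (QuotientGroup.mk (QuotientGroup.mk (v * g * d) : G ⧸ U) :
      (G ⧸ U) ⧸ D.map (QuotientGroup.mk' U))) = _
    rw [MulAction.Quotient.smul_mk, smul_eq_mul, QuotientGroup.eq]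
    refine ⟨d⁻¹, D.inv_mem hd, ?_⟩
    show (QuotientGroup.mk d⁻¹ : G ⧸ U) = _
    rw [← QuotientGroup.mk_inv, ← QuotientGroup.mk_mul, ← QuotientGroup.mk_inv,
      ← QuotientGroup.mk_mul]
    congr 1
    group
  · rintro ⟨⟨h, hh⟩, hhg⟩
    obtain ⟨v, rfl⟩ := QuotientGroup.mk_surjective h
    have h1 : ((QuotientGroup.mk v : G ⧸ U) • (QuotientGroup.mk (QuotientGroup.mk g' : G ⧸ U) :
      (G ⧸ U) ⧸ D.map (QuotientGroup.mk' U))) = QuotientGroup.mk (QuotientGroup.mk g : G ⧸ U) := hhg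
    rw [MulAction.Quotient.smul_mk, smul_eq_mul, QuotientGroup.eq] at h1
    obtain ⟨d, hd, hdeq⟩ := h1
    have h2 : (QuotientGroup.mk d : G ⧸ U) =
        QuotientGroup.mk ((v * g')⁻¹ * g) := by
      rw [QuotientGroup.mk_mul, QuotientGroup.mk_inv, QuotientGroup.mk_mul]
      exact hdeq
    rw [QuotientGroup.eq] at h2
    -- `u = d⁻¹ (v g')⁻¹ g ∈ U`, so `g' = v⁻¹ (g u⁻¹ g⁻¹) g d⁻¹`
    set u : G := d⁻¹ * ((v * g')⁻¹ * g) with hu
    refine ⟨v⁻¹ * (g * u⁻¹ * g⁻¹), ?_, d⁻¹, D.inv_mem hd, ?_⟩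
    · rw [Subgroup.mem_comap]
      show (QuotientGroup.mk (v⁻¹ * (g * u⁻¹ * g⁻¹)) : G ⧸ U) ∈ H
      have h3 : (QuotientGroup.mk (g * u⁻¹ * g⁻¹) : G ⧸ U) = 1 := by
        rw [QuotientGroup.eq_one_iff]
        exact Subgroup.Normal.conj_mem inferInstance _ (U.inv_mem h2) g
      rw [QuotientGroup.mk_mul, h3, mul_one, QuotientGroup.mk_inv]
      exact H.inv_mem hh
    · rw [hu]
      group

/-- **Orbits on a disjoint union.** -/
theorem ucyc_card_sigma_orbits {M : Type*} [Group M] {ι : Type*} [Fintype ι] (α : ι → Type*)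
    [∀ i, MulAction M (α i)] [∀ i, Finite (α i)] :
    Nat.card (MulAction.orbitRel.Quotient M (Σ i, α i)) =
      ∑ i, Nat.card (MulAction.orbitRel.Quotient M (α i)) := by
  rw [← Nat.card_sigma]
  let π : (Σ i, α i) → MulAction.orbitRel.Quotient M (Σ i, α i) := Quotient.mk''
  let π' : (Σ i, α i) → Σ i, MulAction.orbitRel.Quotient M (α i) :=
    fun x => ⟨x.1, Quotient.mk'' x.2⟩
  have hπ : Function.Surjective π := Quotient.mk''_surjective
  have hπ' : Function.Surjective π' := by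
    rintro ⟨i, y⟩
    induction y using Quotient.inductionOn' with
    | h a => exact ⟨⟨i, a⟩, rfl⟩
  refine ucyc_card_eq_of_surj π π' hπ hπ' ?_
  rintro ⟨i, a⟩ ⟨j, b⟩
  show (Quotient.mk'' _ : MulAction.orbitRel.Quotient M _) = Quotient.mk'' _ ↔ _
  rw [Quotient.eq'']
  show MulAction.orbitRel M _ _ _ ↔ _
  rw [MulAction.orbitRel_apply, MulAction.mem_orbit_iff]
  constructor
  · rintro ⟨m, hm⟩
    have h1 : (⟨j, m • b⟩ : Σ i, α i) = ⟨i, a⟩ := hm
    obtain ⟨rfl, h2⟩ := Sigma.mk.inj_iff.1 h1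
    rw [heq_iff_eq] at h2
    show (⟨j, Quotient.mk'' a⟩ : Σ i, MulAction.orbitRel.Quotient M (α i)) = ⟨j, Quotient.mk'' b⟩
    congr 1
    rw [Quotient.eq'']
    show MulAction.orbitRel M _ _ _
    rw [MulAction.orbitRel_apply, MulAction.mem_orbit_iff]
    exact ⟨m, h2⟩
  · intro h
    have h1 : (⟨i, Quotient.mk'' a⟩ : Σ i, MulAction.orbitRel.Quotient M (α i)) =
        ⟨j, Quotient.mk'' b⟩ := h
    obtain ⟨rfl, h2⟩ := Sigma.mk.inj_iff.1 h1
    rw [heq_iff_eq, Quotient.eq''] at h2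
    have h3 : MulAction.orbitRel M _ a b := h2
    rw [MulAction.orbitRel_apply, MulAction.mem_orbit_iff] at h3
    obtain ⟨m, hm⟩ := h3
    exact ⟨m, by show (⟨i, m • b⟩ : Σ i, α i) = ⟨i, a⟩; rw [hm]⟩

end Fermat.Agent.TW.E
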