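/-
Project TW (S56) — part TW-E, block E-cyc, piece **K-units/FIN** (helper48).

`stmtUcycFin_of : StmtUcycTrace → StmtUcycFin`: the primes of `𝓞 F` over `q` are the traces of
the places `g • padicPlace q`, `g ∈ G_ℚ`, and two of them agree iff `g' ∈ Gal(ℚ̄/F) g D_q`.

Inputs: `Cheb.exists_valuationSubring_of_ideal` (a place over a prime), `TW.S.sconjp_exists_smul_eq`
(`G_ℚ` is transitive on the places over `q`), `S14.exists_fixing_smul_eq` (`Gal(ℚ̄/F)` is transitive
on the places with the same trace on `F`), `TW.L.stmtDecFull` (`D_q` is the decomposition group).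
-/
import Fermat.Agent.TW.E.UnitsCycPlan
import Fermat.Agent.TW.L.DecFull
import Fermat.Agent.TW.L.FrobExists
import Fermat.Agent.TW.S.ConjPlaces
import Fermat.Agent.S14.ValGalois

set_option autoImplicit false
set_option linter.unusedSectionVars false
set_option linter.style.haveILetI false

noncomputable section

namespace Fermat.Agent.TW.E

open CategoryTheory NumberField Fermat.Agent.PT Fermat.Agent.PT.B Fermat.Agent.PT.G
  Fermat.Agent.PT.G1 ExtCitation Fermat.Agent.TW
open scoped Pointwise

/-- The trace prime is invariant under `Gal(ℚ̄/F)`. -/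
theorem ucycfin_prime_smul (F : QbarField) (v : GQ) (hv : v ∈ F.fixingSubgroup)
    (B : ValuationSubring (AlgebraicClosure ℚ)) : twcPrime F (v • B) = twcPrime F B := by
  ext x
  rw [twc_mem_prime, twc_mem_prime, mem_nonunits_smul_valuationSubring_iff]
  have h1 : v⁻¹ ∈ F.fixingSubgroup := F.fixingSubgroup.inv_mem hv
  rw [IntermediateField.mem_fixingSubgroup_iff] at h1
  have h2 : (v⁻¹ : GQ) (Cheb.intEmb F x) = Cheb.intEmb F x := h1 _ (x : ↥F).2
  rw [h2]

/-- The places `g • padicPlace q` lie over `q`. -/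
theorem ucycfin_liesOver (q : ℕ) [Fact q.Prime] (g : GQ) :
    (g • padicPlace q).LiesOverPrime q :=
  liesOverPrime_smul (padicPlace q) g q (Fermat.Agent.TW.L.lfrobex_liesOverPrime q)

/-- the trace prime of a place over `q` is not zero -/
theorem ucycfin_ne_bot (q : ℕ) [hq : Fact q.Prime] (F : QbarField)
    (A : ValuationSubring (AlgebraicClosure ℚ)) (hA : A.LiesOverPrime q) : twcPrime F A ≠ ⊥ := by
  intro h
  have h1 : (q : 𝓞 ↥F) ∈ twcPrime F A := twc_natCast_mem_prime F A hA
  rw [h, Ideal.mem_bot] at h1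
  have h2 : ((q : ℕ) : 𝓞 ↥F) ≠ 0 := by
    exact_mod_cast hq.out.ne_zero
  exact h2 h1

/-- **K-units/FIN** from **K-units/TR**. -/
theorem stmtUcycFin_of (htr : StmtUcycTrace) : StmtUcycFin := by
  intro q hq F hF
  refine ⟨fun g => ⟨twcPrime_isPrime F _, twc_natCast_mem_prime F _ (ucycfin_liesOver q g)⟩,
    ?_, ?_⟩
  · -- surjectivity
    intro P hP hqP
    have hne : P ≠ ⊥ := by
      intro h
      rw [h, Ideal.mem_bot] at hqP
      have h2 : ((q : ℕ) : 𝓞 ↥F) ≠ 0 := by
        exact_mod_cast hq.out.ne_zero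
      exact h2 hqP
    have hmax : P.IsMaximal := hP.isMaximal hne
    obtain ⟨A, hA⟩ := Cheb.exists_valuationSubring_of_ideal F P hP.ne_top
    have hPA : twcPrime F A = P := by
      ext y
      rw [twc_mem_prime]
      exact ⟨fun hy => Cheb.mem_of_intEmb_mem_nonunits F A P hmax hA y hy, fun hy => hA y hy⟩
    have hAq : A.LiesOverPrime q := by
      have h1 := hA _ hqP
      rw [map_natCast] at h1
      exact h1
    obtain ⟨g, hg⟩ := Fermat.Agent.TW.S.sconjp_exists_smul_eq q hq.out (padicPlace q) A
      (Fermat.Agent.TW.L.lfrobex_liesOverPrime q) hAq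
    refine ⟨g, ?_⟩
    show twcPrime F (g • padicPlace q) = P
    rw [hg, hPA]
  · -- the fibres
    intro g g'
    constructor
    · intro h
      have h1 : twcPrime F (g • padicPlace q) = twcPrime F (g' • padicPlace q) := h
      have h2 := htr F (g • padicPlace q) (g' • padicPlace q)
        (ucycfin_ne_bot q F _ (ucycfin_liesOver q g)) h1
      obtain ⟨ρ, hρF, hρA⟩ := Fermat.Agent.S14.exists_fixing_smul_eq F _ _ h2
      have h3 : (g'⁻¹ * ρ * g) ∈ (padicPlace q).decompositionSubgroup ℚ := by
        show (g'⁻¹ * ρ * g) ∈ MulAction.stabilizer _ (padicPlace q)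
        rw [MulAction.mem_stabilizer_iff, mul_smul, mul_smul]
        have h4 : ρ • g • padicPlace q = g' • padicPlace q := hρA
        rw [h4, inv_smul_smul]
      obtain ⟨τ, hτ⟩ := Fermat.Agent.TW.L.stmtDecFull q _ h3
      refine ⟨ρ, ?_, (localGaloisToGlobal q τ)⁻¹, (localGaloisToGlobal q).range.inv_mem ⟨τ, rfl⟩,
        ?_⟩
      · rw [IntermediateField.mem_fixingSubgroup_iff]
        exact hρF
      · rw [hτ]
        group
    · rintro ⟨v, hv, d, ⟨τ, rfl⟩, rfl⟩
      show twcPrime F (g • padicPlace q) =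
        twcPrime F ((v * g * localGaloisToGlobal q τ) • padicPlace q)
      have h1 : localGaloisToGlobal q τ • padicPlace q = padicPlace q :=
        MulAction.mem_stabilizer_iff.1 (localGaloisToGlobal_mem_decompositionSubgroup q τ)
      rw [mul_smul, mul_smul, h1, ucycfin_prime_smul F v hv]

end Fermat.Agent.TW.E

end
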