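/-
Project TW (S56) — part TW-E, block E-cyc, piece K-units / **FIX** (helper32).

`stmtUcycFix : StmtUcycFix` (statement in `TW/E/UnitsCycPlan.lean`): for a normal level
`U = Gal(ℚ̄/L)` of `towerS S` and `H ≤ G_ℚ ⧸ U`, the `H`-invariants of `E_S^U` are the `S`-units
`nUnits (sProd S) F` of the fixed field `F` of the preimage `V` of `H`.

Proof.  An element of `(E_S^U)^H` is an `S`-unit of `ℚ̄` fixed by `V`, i.e. lying in `F`; `F ≤ L`
is unramified outside `S`, so `PT.B.stmtUnitsS` identifies the `S`-units lying in `F` with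
`nUnits (sProd S) F`.
-/
import Fermat.Agent.TW.E.UnitsCycPlan
import Fermat.Agent.PT.B.UnitsS

set_option autoImplicit false
set_option linter.style.haveILetI false
set_option linter.unusedSectionVars false
set_option linter.unusedVariables false

noncomputable section

namespace Fermat.Agent.TW.E

open CategoryTheory NumberField Fermat.Agent.PT Fermat.Agent.PT.B Fermat.Agent.PT.G
  Fermat.Agent.PT.G1 ExtCitation

/-- the underlying element of `ℚ̄ˣ` of an element of `E_S^U` -/
def ucycfVal (S : Finset Nat.Primes) (U : Subgroup GQ) [U.Normal]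
    (y : ((ERep S).quotientToInvariants U).V) : (AlgebraicClosure ℚ)ˣ :=
  ((Additive.toMul (α := ↥(unitsS S)) y.1 : ↥(unitsS S)) : (AlgebraicClosure ℚ)ˣ)

lemma ucycfVal_mem (S : Finset Nat.Primes) (U : Subgroup GQ) [U.Normal]
    (y : ((ERep S).quotientToInvariants U).V) : ucycfVal S U y ∈ unitsS S :=
  (Additive.toMul (α := ↥(unitsS S)) y.1 : ↥(unitsS S)).2

lemma ucycfVal_add (S : Finset Nat.Primes) (U : Subgroup GQ) [U.Normal]
    (y z : ((ERep S).quotientToInvariants U).V) :
    ucycfVal S U (y + z) = ucycfVal S U y * ucycfVal S U z := rfl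

lemma ucycfVal_injective (S : Finset Nat.Primes) (U : Subgroup GQ) [U.Normal] :
    Function.Injective (ucycfVal S U) := by
  intro y z h
  apply Subtype.ext
  apply (Additive.toMul (α := ↥(unitsS S))).injective
  exact Subtype.ext h

/-- the action of `G_ℚ ⧸ U` on `E_S^U` -/
lemma ucycfVal_ρ (S : Finset Nat.Primes) (U : Subgroup GQ) [U.Normal] (g : GQ)
    (y : ((ERep S).quotientToInvariants U).V) :
    ucycfVal S U (((ERep S).quotientToInvariants U).ρ (QuotientGroup.mk' U g) y) =
      g • ucycfVal S U y := rfl

/-- an `S`-unit fixed by `U`, as an element of `E_S^U` -/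
def ucycfMk (S : Finset Nat.Primes) (U : Subgroup GQ) [U.Normal] (e : (AlgebraicClosure ℚ)ˣ)
    (he : e ∈ unitsS S) (hU : ∀ u ∈ U, u • e = e) : ((ERep S).quotientToInvariants U).V :=
  ⟨Additive.ofMul (⟨e, he⟩ : ↥(unitsS S)), fun u => by
    apply (Additive.toMul (α := ↥(unitsS S))).injective
    exact Subtype.ext (hU u.1 u.2)⟩

lemma ucycfVal_mk (S : Finset Nat.Primes) (U : Subgroup GQ) [U.Normal] (e : (AlgebraicClosure ℚ)ˣ)
    (he : e ∈ unitsS S) (hU : ∀ u ∈ U, u • e = e) :
    ucycfVal S U (ucycfMk S U e he hU) = e := rfl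

/-- membership in the fixed subgroup, in terms of the preimage of `H` -/
lemma ucycf_mem_fixedSub (S : Finset Nat.Primes) (U : Subgroup GQ) [U.Normal]
    (H : Subgroup (GQ ⧸ U)) (y : ((ERep S).quotientToInvariants U).V) :
    y ∈ fixedSub ((ERep S).quotientToInvariants U) H ↔
      ∀ g ∈ H.comap (QuotientGroup.mk' U), g • ucycfVal S U y = ucycfVal S U y := by
  constructor
  · intro hy g hg
    rw [← ucycfVal_ρ, hy _ hg]
  · intro hy h hh
    obtain ⟨g, rfl⟩ := QuotientGroup.mk'_surjective U h
    apply ucycfVal_injective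
    rw [ucycfVal_ρ]
    exact hy g hh

/-- **K-units/FIX.** -/
theorem stmtUcycFix : StmtUcycFix := by
  intro S U _ hU H
  obtain ⟨L, hL, hUL⟩ := hU
  have hUV : U ≤ H.comap (QuotientGroup.mk' U) := by
    intro u hu
    rw [Subgroup.mem_comap, QuotientGroup.mk'_apply, (QuotientGroup.eq_one_iff u).2 hu]
    exact H.one_mem
  have hFL : IntermediateField.fixedField (H.comap (QuotientGroup.mk' U)) ≤ L := by
    have h1 := IntermediateField.fixedField_antitone hUV
    have h2 : IntermediateField.fixedField U = L := by
      haveI : IsAlgClosure ℚ (AlgebraicClosure ℚ) :=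
        ⟨inferInstance, AlgebraicClosure.isAlgebraic ℚ⟩
      haveI : IsGalois ℚ (AlgebraicClosure ℚ) := inferInstance
      rw [hUL]
      exact InfiniteGalois.fixedField_fixingSubgroup L
    exact h1.trans h2.le
  have hF : (IntermediateField.fixedField (H.comap (QuotientGroup.mk' U))).IsUnramifiedOutside S :=
    hL.of_le hFL
  have key := stmtUnitsS S _ hF
  -- a unit of `ℚ̄` fixed by `V` is a unit of `F`
  have hfix : ∀ e : (AlgebraicClosure ℚ)ˣ,
      (∀ g ∈ H.comap (QuotientGroup.mk' U), g • e = e) →
      (e : AlgebraicClosure ℚ) ∈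
        IntermediateField.fixedField (H.comap (QuotientGroup.mk' U)) := by
    intro e he
    rw [IntermediateField.mem_fixedField_iff]
    intro g hg
    exact congrArg Units.val (he g hg)
  have hfix' : ∀ x : (↥(IntermediateField.fixedField (H.comap (QuotientGroup.mk' U))))ˣ,
      ∀ g ∈ H.comap (QuotientGroup.mk' U),
        g • Units.map ((IntermediateField.fixedField (H.comap (QuotientGroup.mk' U))).val :
          _ →* AlgebraicClosure ℚ) x = Units.map ((IntermediateField.fixedField
            (H.comap (QuotientGroup.mk' U))).val : _ →* AlgebraicClosure ℚ) x := by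
    intro x g hg
    apply Units.ext
    exact (IntermediateField.mem_fixedField_iff _ _).1 x.1.2 g hg
  refine ⟨AddEquiv.mk
    { toFun := fun y => Additive.ofMul
        ⟨Units.mk0 ⟨(ucycfVal S U y.1 : AlgebraicClosure ℚ),
            hfix _ ((ucycf_mem_fixedSub S U H y.1).1 y.2)⟩
          (fun h => (ucycfVal S U y.1).ne_zero (congrArg Subtype.val h)),
          (key _).1 (by
            convert ucycfVal_mem S U y.1 using 1
            exact Units.ext rfl)⟩
      invFun := fun z =>
        ⟨ucycfMk S U (Units.map ((IntermediateField.fixedField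
            (H.comap (QuotientGroup.mk' U))).val : _ →* AlgebraicClosure ℚ) z.toMul.1)
          ((key _).2 z.toMul.2) (fun u hu => hfix' _ u (hUV hu)),
          (ucycf_mem_fixedSub S U H _).2 (fun g hg => by
            rw [ucycfVal_mk]
            exact hfix' _ g hg)⟩
      left_inv := fun y => by
        apply Subtype.ext
        apply ucycfVal_injective
        rw [ucycfVal_mk]
        exact Units.ext rfl
      right_inv := fun z => by
        apply Additive.toMul.injective
        apply Subtype.ext
        apply Units.ext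
        apply Subtype.ext
        rfl } (fun y z => ?_)⟩
  apply Additive.toMul.injective
  apply Subtype.ext
  apply Units.ext
  apply Subtype.ext
  rfl

end Fermat.Agent.TW.E

end
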