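/-
Project TW (S56) — part TW-E, block E-cyc, piece **K-units/INF** (helper81).

The infinite places of a number field `F ⊆ ℚ̄` are the places `x ↦ |ι_ℂ (g⁻¹ x)|`, `g ∈ G_ℚ`, and
two of them agree iff `g' ∈ Gal(ℚ̄/F) g ⟨c⟩`.
-/
import Fermat.Agent.TW.E.UnitsCycPlan

set_option autoImplicit false
set_option linter.unusedSectionVars false
set_option linter.style.haveILetI false

noncomputable section

namespace Fermat.Agent.TW.E

open CategoryTheory NumberField Fermat.Agent.PT Fermat.Agent.PT.B Fermat.Agent.PT.G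
  Fermat.Agent.PT.G1 ExtCitation
open scoped Pointwise

/-- every ring embedding `F → ℂ` is `ι_ℂ ∘ σ` on `F`, for an automorphism `σ` of `ℚ̄` -/
theorem ucyci_exists_aut (F : QbarField) (φ : ↥F →+* ℂ) :
    ∃ σ : GQ, ∀ x : ↥F, complexEmbedding (σ (x : AlgebraicClosure ℚ)) = φ x := by
  haveI : Algebra.IsAlgebraic ℚ (AlgebraicClosure ℚ) := AlgebraicClosure.isAlgebraic ℚ
  haveI : IsAlgClosure ℚ (AlgebraicClosure ℚ) := ⟨inferInstance, inferInstance⟩
  haveI : Normal ℚ (AlgebraicClosure ℚ) := IsAlgClosure.normal ℚ (AlgebraicClosure ℚ)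
  -- extend `φ` to `ℚ̄`
  letI algF : Algebra ↥F ℂ := φ.toAlgebra
  let ψF : AlgebraicClosure ℚ →ₐ[↥F] ℂ := IsAlgClosed.lift
  have hψF : ∀ x : ↥F, ψF (x : AlgebraicClosure ℚ) = φ x := fun x => ψF.commutes x
  let ψ : AlgebraicClosure ℚ →ₐ[ℚ] ℂ := (ψF : AlgebraicClosure ℚ →+* ℂ).toRatAlgHom
  have hψ : ∀ y : AlgebraicClosure ℚ, ψ y = ψF y := fun y => rfl
  -- restrict to `ℚ̄ ⊆ ℂ`
  letI algC : Algebra (AlgebraicClosure ℚ) ℂ := complexEmbedding.toRingHom.toAlgebra
  haveI : IsScalarTower ℚ (AlgebraicClosure ℚ) ℂ :=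
    IsScalarTower.of_algebraMap_eq' (Subsingleton.elim _ _)
  let σ₀ : AlgebraicClosure ℚ →ₐ[ℚ] AlgebraicClosure ℚ := ψ.restrictNormal (AlgebraicClosure ℚ)
  have hσ₀ : ∀ y : AlgebraicClosure ℚ, complexEmbedding (σ₀ y) = ψ y := fun y =>
    AlgHom.restrictNormal_commutes ψ (AlgebraicClosure ℚ) y
  refine ⟨AlgEquiv.ofBijective σ₀ (Algebra.IsAlgebraic.algHom_bijective σ₀), fun x => ?_⟩
  show complexEmbedding (σ₀ (x : AlgebraicClosure ℚ)) = φ x
  rw [hσ₀, hψ, hψF]

/-- the elements of `⟨c⟩` -/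
theorem ucyci_mem_zpowers {d : GQ} (hd : d ∈ Subgroup.zpowers (complexConjugation : GQ)) :
    d = 1 ∨ d = complexConjugation := by
  obtain ⟨k, rfl⟩ := Subgroup.mem_zpowers_iff.1 hd
  have h2 : (complexConjugation : GQ) ^ (2 : ℤ) = 1 := by
    rw [zpow_ofNat]
    exact complexConjugation_sq
  have h3 : (complexConjugation : GQ) ^ k = complexConjugation ^ (k % 2) := by
    conv_lhs => rw [← Int.emod_add_mul_ediv k 2]
    rw [zpow_add, zpow_mul, h2, one_zpow, mul_one]
  rw [h3]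
  rcases Int.emod_two_eq_zero_or_one k with h | h
  · left
    rw [h, zpow_zero]
  · right
    rw [h, zpow_one]

theorem ucyci_emb_eq_iff (F : QbarField) (g g' : GQ) :
    ucycEmb F g = ucycEmb F g' ↔ g' * g⁻¹ ∈ F.fixingSubgroup := by
  rw [IntermediateField.mem_fixingSubgroup_iff]
  constructor
  · intro h x hx
    have h1 := DFunLike.congr_fun h (⟨x, hx⟩ : ↥F)
    rw [ucycEmb_apply, ucycEmb_apply] at h1
    have h2 : (g⁻¹ : GQ) x = (g'⁻¹ : GQ) x := complexEmbedding.toRingHom.injective h1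
    show g' ((g⁻¹ : GQ) x) = x
    rw [h2]
    exact AlgEquiv.apply_symm_apply g' x
  · intro h
    refine RingHom.ext fun x => ?_
    rw [ucycEmb_apply, ucycEmb_apply]
    congr 1
    have h1 : g' ((g⁻¹ : GQ) (x : AlgebraicClosure ℚ)) = x := h x x.2
    have h2 : (g'⁻¹ : GQ) (g' ((g⁻¹ : GQ) (x : AlgebraicClosure ℚ)))
        = (g⁻¹ : GQ) (x : AlgebraicClosure ℚ) := AlgEquiv.symm_apply_apply g' _
    rw [← h2, h1]

theorem ucyci_conj_emb (F : QbarField) (g : GQ) :
    ComplexEmbedding.conjugate (ucycEmb F g) = ucycEmb F (g * complexConjugation) := by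
  refine RingHom.ext fun x => ?_
  rw [ComplexEmbedding.conjugate_coe_eq, ucycEmb_apply, ucycEmb_apply,
    ← complexEmbedding_complexConjugation, mul_inv_rev, complexConjugation_inv]
  rfl

theorem ucyci_infPl_eq_iff (F : QbarField) [NumberField ↥F] (g g' : GQ) :
    ucycInfPl F g = ucycInfPl F g' ↔
      ∃ v ∈ F.fixingSubgroup, ∃ d ∈ Subgroup.zpowers (complexConjugation : GQ),
        g' = v * g * d := by
  unfold ucycInfPl
  rw [InfinitePlace.mk_eq_iff]
  constructor
  · rintro (h | h)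
    · refine ⟨g' * g⁻¹, (ucyci_emb_eq_iff F g g').1 h, 1, Subgroup.one_mem _, ?_⟩
      group
    · rw [ucyci_conj_emb] at h
      refine ⟨g' * (g * complexConjugation)⁻¹, (ucyci_emb_eq_iff F _ g').1 h, complexConjugation,
        Subgroup.mem_zpowers _, ?_⟩
      rw [mul_inv_rev, complexConjugation_inv]
      have h1 : g' * (complexConjugation * g⁻¹) * g * complexConjugation
          = g' * (complexConjugation * complexConjugation) := by group
      rw [h1, complexConjugation_mul_self, mul_one]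
  · rintro ⟨v, hv, d, hd, rfl⟩
    rcases ucyci_mem_zpowers hd with rfl | rfl
    · left
      rw [ucyci_emb_eq_iff]
      have h1 : v * g * 1 * g⁻¹ = v := by group
      rw [h1]
      exact hv
    · right
      rw [ucyci_conj_emb, ucyci_emb_eq_iff]
      have h1 : v * g * complexConjugation * (g * complexConjugation)⁻¹ = v := by group
      rw [h1]
      exact hv

/-- **K-units/INF.** -/
theorem stmtUcycInf : StmtUcycInf := by
  intro F _
  refine ⟨fun w => ?_, fun g g' => ucyci_infPl_eq_iff F g g'⟩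
  obtain ⟨σ, hσ⟩ := ucyci_exists_aut F w.embedding
  refine ⟨σ⁻¹, ?_⟩
  have h1 : ucycEmb F σ⁻¹ = w.embedding := by
    refine RingHom.ext fun x => ?_
    rw [ucycEmb_apply, inv_inv]
    exact hσ x
  unfold ucycInfPl
  rw [h1, InfinitePlace.mk_embedding]

end Fermat.Agent.TW.E

end
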