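/-
Project TW (S56) — part TW-E, block E-cyc, piece **K-units** (helper48): FINAL WIRING.

`stmtUnitsCyc : StmtUnitsCyc` (unconditional) from
FIX (`stmtUcycFix`, helper32), INF (`stmtUcycInf`, helper81), TR (`stmtUcycTrace`, helper82),
FIN (`stmtUcycFin_of`), ABS + ASM (`stmtUnitsCyc_of`).
-/
import Fermat.Agent.TW.E.UnitsCyc
import Fermat.Agent.TW.E.UnitsCycFin
import Fermat.Agent.TW.E.UnitsCycFix
import Fermat.Agent.TW.E.UnitsCycInf
import Fermat.Agent.TW.E.UcycTrace

set_option autoImplicit false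

namespace Fermat.Agent.TW.E

/-- **K-units** from **K-units/TR**. -/
theorem stmtUnitsCyc_of_trace (htr : StmtUcycTrace) : StmtUnitsCyc :=
  stmtUnitsCyc_of stmtUcycFix stmtUcycInf (stmtUcycFin_of htr)

/-- **K-units/FIN.** -/
theorem stmtUcycFin : StmtUcycFin := stmtUcycFin_of stmtUcycTrace

/-- **K-units**: Dirichlet's `S`-unit theorem in group-theoretic form. -/
theorem stmtUnitsCyc : StmtUnitsCyc := stmtUnitsCyc_of_trace stmtUcycTrace

end Fermat.Agent.TW.E
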